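/-
P6 (S41, level raising), module (A): the ABSTRACT CORE of Ribet's argument, Mathlib only.

`R` is any commutative ring (the abstract Hecke algebra away from the level), `𝔫` a maximal
ideal containing the prime number `p`, `L`, `L'` two `R`-modules (the parabolic cohomology
lattices of level `N` and `N q`), `α : L × L → L'` the sum of the two degeneracy maps and
`β : L' → L × L` the pair of the two transfers.

* `levelRaising_core` : from Ihara (`hIh`), dual Ihara (`hdIh`) and one vector `u₀` of `L × L`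
  which is nonzero mod `p`, killed by `𝔫` mod `p` and with `β (α u₀) = 0` mod `p`, the
  annihilator of `ker β` (the `q`-new lattice) is contained in `𝔫`.
-/
import Mathlib

set_option autoImplicit false

namespace Fermat.Agent.P6.helper85

/-- `x` is divisible by `p` in the additive group `M`. -/
def DivBy {M : Type*} [AddCommGroup M] (p : ℕ) (x : M) : Prop := ∃ y : M, x = p • y

section DivBy

variable {M : Type*} [AddCommGroup M] {p : ℕ}

theorem DivBy.add {x y : M} (hx : DivBy p x) (hy : DivBy p y) : DivBy p (x + y) := by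
  obtain ⟨a, rfl⟩ := hx
  obtain ⟨b, rfl⟩ := hy
  exact ⟨a + b, (smul_add _ _ _).symm⟩

theorem DivBy.sub {x y : M} (hx : DivBy p x) (hy : DivBy p y) : DivBy p (x - y) := by
  obtain ⟨a, rfl⟩ := hx
  obtain ⟨b, rfl⟩ := hy
  exact ⟨a - b, (smul_sub _ _ _).symm⟩

theorem DivBy.neg {x : M} (hx : DivBy p x) : DivBy p (-x) := by
  obtain ⟨a, rfl⟩ := hx
  exact ⟨-a, (smul_neg _ _).symm⟩

theorem divBy_zero : DivBy p (0 : M) := ⟨0, (smul_zero _).symm⟩

theorem divBy_nsmul (y : M) : DivBy p (p • y) := ⟨y, rfl⟩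

theorem DivBy.smul {R : Type*} [Semiring R] [Module R M] {x : M} (hx : DivBy p x) (r : R) :
    DivBy p (r • x) := by
  obtain ⟨a, rfl⟩ := hx
  exact ⟨r • a, smul_comm _ _ _⟩

theorem DivBy.map {M' : Type*} [AddCommGroup M'] {x : M} (hx : DivBy p x) (f : M →+ M') :
    DivBy p (f x) := by
  obtain ⟨a, rfl⟩ := hx
  exact ⟨f a, map_nsmul f _ _⟩

theorem divBy_cast_smul {R : Type*} [Ring R] [Module R M] (x : M) :
    DivBy p ((p : R) • x) := ⟨x, Nat.cast_smul_eq_nsmul R p x⟩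

theorem divBy_prod_iff {M' : Type*} [AddCommGroup M'] (u : M × M') :
    DivBy p u ↔ DivBy p u.1 ∧ DivBy p u.2 := by
  constructor
  · rintro ⟨y, rfl⟩
    exact ⟨⟨y.1, rfl⟩, ⟨y.2, rfl⟩⟩
  · rintro ⟨⟨a, ha⟩, ⟨b, hb⟩⟩
    exact ⟨(a, b), Prod.ext ha hb⟩

end DivBy

variable {R : Type*} [CommRing R] {L L' : Type*} [AddCommGroup L] [Module R L]
  [AddCommGroup L'] [Module R L']

/-- If `𝔫 • u₀ ⊆ p M` and `σ ∉ 𝔫` with `σ • u₀ ∈ p M`, then `u₀ ∈ p M`. -/
theorem divBy_of_smul_of_not_mem {M : Type*} [AddCommGroup M] [Module R M]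
    (𝔫 : Ideal R) [h𝔫 : 𝔫.IsMaximal] (p : ℕ) (u₀ : M)
    (hu₀𝔫 : ∀ r ∈ 𝔫, DivBy p (r • u₀)) {σ : R} (hσ : σ ∉ 𝔫) (h : DivBy p (σ • u₀)) :
    DivBy p u₀ := by
  obtain ⟨r, n, hn, hrn⟩ := h𝔫.exists_inv hσ
  have : u₀ = r • (σ • u₀) + n • u₀ := by
    rw [smul_smul, ← add_smul, hrn, one_smul]
  rw [this]
  exact (h.smul r).add (hu₀𝔫 n hn)

/-- Nakayama step: if some `s' ∉ 𝔫` maps `M` into `range β + p M` (`M` finitely generated,
`p ∈ 𝔫`), then some `r ∉ 𝔫` maps `M` into `range β`. -/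
theorem exists_smul_mem_range {M M' : Type*} [AddCommGroup M] [Module R M] [AddCommGroup M']
    [Module R M'] [Module.Finite R M]
    (𝔫 : Ideal R) [h𝔫 : 𝔫.IsMaximal] (p : ℕ) (hp : (p : R) ∈ 𝔫) (β : M' →ₗ[R] M)
    (hdIh : ∃ s : R, s ∉ 𝔫 ∧ ∀ u : M, ∃ y : M', DivBy p (s • u - β y)) :
    ∃ r : R, r ∉ 𝔫 ∧ ∀ u : M, ∃ y : M', r • u = β y := by
  obtain ⟨s', hs', hd⟩ := hdIh
  obtain ⟨r, n, hn, hrn⟩ := h𝔫.exists_inv hs'
  -- the cokernel
  let C := M ⧸ LinearMap.range β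
  have hfg : (⊤ : Submodule R C).FG := Module.finite_def.1 inferInstance
  have hle : (⊤ : Submodule R C) ≤ 𝔫 • (⊤ : Submodule R C) := by
    intro c _
    obtain ⟨u, rfl⟩ := Submodule.Quotient.mk_surjective _ c
    obtain ⟨y, z, hz⟩ := hd u
    have h1 : s' • (Submodule.Quotient.mk u : C) = (p : R) • Submodule.Quotient.mk z := by
      rw [← Submodule.Quotient.mk_smul, ← Submodule.Quotient.mk_smul, Nat.cast_smul_eq_nsmul,
        ← hz, Submodule.Quotient.mk_sub]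
      have : (Submodule.Quotient.mk (β y) : C) = 0 :=
        (Submodule.Quotient.mk_eq_zero _).2 (LinearMap.mem_range_self β y)
      rw [this, sub_zero]
    have h2 : (Submodule.Quotient.mk u : C) =
        (r * (p : R)) • Submodule.Quotient.mk z + n • Submodule.Quotient.mk u := by
      rw [mul_smul, ← h1, smul_smul, ← add_smul, hrn, one_smul]
    rw [h2]
    refine Submodule.add_mem _ ?_ ?_
    · exact Submodule.smul_mem_smul (𝔫.mul_mem_left r hp) Submodule.mem_top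
    · exact Submodule.smul_mem_smul hn Submodule.mem_top
  obtain ⟨r₁, hr₁, hr₁0⟩ :=
    Submodule.exists_sub_one_mem_and_smul_eq_zero_of_fg_of_le_smul 𝔫 (⊤ : Submodule R C) hfg hle
  refine ⟨r₁, ?_, ?_⟩
  · intro hmem
    have : (1 : R) ∈ 𝔫 := by
      have := 𝔫.sub_mem hmem hr₁
      simpa using this
    exact h𝔫.ne_top ((Ideal.eq_top_iff_one _).2 this)
  · intro u
    have := hr₁0 (Submodule.Quotient.mk u) Submodule.mem_top
    rw [← Submodule.Quotient.mk_smul, Submodule.Quotient.mk_eq_zero] at this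
    obtain ⟨y, hy⟩ := this
    exact ⟨y, hy.symm⟩

/-- **Abstract level raising, core.** `R` acts on `L` and `L'`, `α : L × L → L'`,
`β : L' → L × L`. From Ihara's lemma (`hIh`), its dual (`hdIh`) and a vector `u₀` which is
nonzero mod `p`, killed by `𝔫` mod `p` and such that `β (α u₀) = 0` mod `p`, every element of
`R` which kills `ker β` lies in `𝔫`. -/
theorem levelRaising_core (𝔫 : Ideal R) [h𝔫 : 𝔫.IsMaximal] (p : ℕ) (hp : (p : R) ∈ 𝔫)
    [Module.Finite R L] (α : L × L →ₗ[R] L') (β : L' →ₗ[R] L × L)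
    (hIh : ∃ s : R, s ∉ 𝔫 ∧ ∀ u : L × L, DivBy p (α u) → DivBy p (s • u))
    (hdIh : ∃ s : R, s ∉ 𝔫 ∧ ∀ u : L × L, ∃ y : L', DivBy p (s • u - β y))
    (u₀ : L × L) (hu₀ : ¬ DivBy p u₀) (hu₀𝔫 : ∀ r ∈ 𝔫, DivBy p (r • u₀))
    (hu₀Q : DivBy p (β (α u₀))) :
    ∀ t : R, (∀ b ∈ LinearMap.ker β, t • b = 0) → t ∈ 𝔫 := by
  intro t ht
  by_contra htn
  obtain ⟨s, hs, hI⟩ := hIh
  obtain ⟨r₁, hr₁, hr₁β⟩ := exists_smul_mem_range 𝔫 p hp β hdIh
  obtain ⟨z, hz⟩ := hu₀Q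
  obtain ⟨y, hy⟩ := hr₁β z
  have hb : r₁ • α u₀ - p • y ∈ LinearMap.ker β := by
    rw [LinearMap.mem_ker, map_sub, map_smul, hz, map_nsmul, ← hy, smul_comm, sub_self]
  have h1 := ht _ hb
  rw [smul_sub, sub_eq_zero] at h1
  have h2 : DivBy p (α ((t * r₁) • u₀)) := by
    rw [map_smul, mul_smul, h1]
    exact ⟨t • y, smul_comm _ _ _⟩
  have h3 := hI _ h2
  rw [smul_smul] at h3
  have hσ : s * (t * r₁) ∉ 𝔫 := by
    intro hmem
    rcases h𝔫.isPrime.mem_or_mem hmem with h | h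
    · exact hs h
    · rcases h𝔫.isPrime.mem_or_mem h with h | h
      · exact htn h
      · exact hr₁ h
  exact hu₀ (divBy_of_smul_of_not_mem 𝔫 p u₀ hu₀𝔫 hσ h3)

end Fermat.Agent.P6.helper85
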