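/-
P6 (S41, level raising), module (A): DUAL IHARA FROM DUALITY, Mathlib only.

* `exists_mem_divBy_sub_of_orth` : for a bilinear form `B` on a finitely generated abelian group
  `M` which is left non-degenerate mod `p`, a subgroup `U` and `w₀ : M`: if every `u` with
  `B u U ⊆ p ℤ` has `B u w₀ ∈ p ℤ`, then `w₀ ∈ U + p M`.
* `dualIhara_of_duality` : Ihara for `s` + adjointness of `(α, β)` + self-adjointness of `s`
  give dual Ihara for `s` (the hypothesis `hdIh` of `levelRaising_core`).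
* `levelRaising_of_duality` : `levelRaising_core` with `hdIh` replaced by the duality package.
-/
import Fermat.Agent.P6.helper85_LRCore

set_option autoImplicit false

namespace Fermat.Agent.P6.helper85

open Module

section Orth

variable (p : ℕ) {M : Type*} [AddCommGroup M]

/-- The subgroup `p M`. -/
def pSub (p : ℕ) (M : Type*) [AddCommGroup M] : AddSubgroup M :=
  (nsmulAddMonoidHom (α := M) p).range

theorem mem_pSub {p : ℕ} {x : M} : x ∈ pSub p M ↔ DivBy p x := by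
  constructor
  · rintro ⟨y, rfl⟩
    exact ⟨y, rfl⟩
  · rintro ⟨y, rfl⟩
    exact ⟨y, rfl⟩

theorem nsmul_mem_pSub (x : M) : p • x ∈ pSub p M := ⟨x, rfl⟩

/-- `M / p M` as a module over `ZMod p`. -/
@[reducible] noncomputable def pQuotModule : Module (ZMod p) (M ⧸ pSub p M) :=
  QuotientAddGroup.zmodModule (nsmul_mem_pSub p)

attribute [local instance] pQuotModule

variable [hp : Fact p.Prime]

/-- Reduction mod `p` of the linear form `B u`. -/
def redForm (B : M →ₗ[ℤ] M →ₗ[ℤ] ℤ) (u : M) : M →+ ZMod p :=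
  (Int.castAddHom (ZMod p)).comp (B u).toAddMonoidHom

theorem redForm_apply (B : M →ₗ[ℤ] M →ₗ[ℤ] ℤ) (u w : M) :
    redForm p B u w = ((B u w : ℤ) : ZMod p) := rfl

theorem pSub_le_ker (g : M →+ ZMod p) : pSub p M ≤ g.ker := by
  rintro _ ⟨y, rfl⟩
  rw [AddMonoidHom.mem_ker]
  show g (p • y) = 0
  rw [map_nsmul, nsmul_eq_mul, ZMod.natCast_self, zero_mul]

theorem exists_mem_divBy_sub_of_orth [Module.Finite ℤ M] (B : M →ₗ[ℤ] M →ₗ[ℤ] ℤ)
    (hB : ∀ x, (∀ y, (p : ℤ) ∣ B x y) → DivBy p x)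
    (U : AddSubgroup M) (w₀ : M)
    (h : ∀ u, (∀ w ∈ U, (p : ℤ) ∣ B u w) → (p : ℤ) ∣ B u w₀) :
    ∃ y ∈ U, DivBy p (w₀ - y) := by
  classical
  have : Module.Finite ℤ (M ⧸ pSub p M) :=
    Module.Finite.of_surjective (QuotientAddGroup.mk' (pSub p M)).toIntLinearMap
      (QuotientAddGroup.mk'_surjective _)
  have : Module.Finite (ZMod p) (M ⧸ pSub p M) :=
    Module.Finite.of_restrictScalars_finite ℤ (ZMod p) (M ⧸ pSub p M)
  -- descent of an additive character to the quotient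
  let desc : (M →+ ZMod p) → Dual (ZMod p) (M ⧸ pSub p M) := fun g =>
    (QuotientAddGroup.lift (pSub p M) g (pSub_le_ker p g)).toZModLinearMap p
  have desc_mk : ∀ g x, desc g (QuotientAddGroup.mk x) = g x := fun g x => rfl
  -- the map `u ↦ B u ·` mod `p`
  let Ψ : M →+ Dual (ZMod p) (M ⧸ pSub p M) :=
    AddMonoidHom.mk' (fun u => desc (redForm p B u)) (by
      intro a b
      apply LinearMap.ext
      intro v
      induction v using QuotientAddGroup.induction_on with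
      | H x =>
        rw [LinearMap.add_apply, desc_mk, desc_mk, desc_mk, redForm_apply, redForm_apply,
          redForm_apply, map_add, LinearMap.add_apply, Int.cast_add])
  have hΨ : ∀ u x, Ψ u (QuotientAddGroup.mk x) = ((B u x : ℤ) : ZMod p) := fun u x => rfl
  have hΨker : pSub p M ≤ Ψ.ker := by
    rintro _ ⟨y, rfl⟩
    rw [AddMonoidHom.mem_ker]
    show Ψ (p • y) = 0
    rw [map_nsmul]
    have : (p : ZMod p) • Ψ y = 0 := by rw [ZMod.natCast_self, zero_smul]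
    rwa [Nat.cast_smul_eq_nsmul] at this
  let Ψ' : (M ⧸ pSub p M) →ₗ[ZMod p] Dual (ZMod p) (M ⧸ pSub p M) :=
    (QuotientAddGroup.lift (pSub p M) Ψ hΨker).toZModLinearMap p
  have hΨ' : ∀ u, Ψ' (QuotientAddGroup.mk u) = Ψ u := fun u => rfl
  have hinj : Function.Injective Ψ' := by
    rw [← LinearMap.ker_eq_bot, LinearMap.ker_eq_bot']
    intro v hv
    induction v using QuotientAddGroup.induction_on with
    | H u =>
      rw [hΨ'] at hv
      have hdiv : DivBy p u := by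
        apply hB
        intro y
        have := congrArg (fun f : Dual (ZMod p) (M ⧸ pSub p M) => f (QuotientAddGroup.mk y)) hv
        simp only [LinearMap.zero_apply] at this
        rw [hΨ] at this
        exact (ZMod.intCast_zmod_eq_zero_iff_dvd _ _).1 this
      exact (QuotientAddGroup.eq_zero_iff u).2 (mem_pSub.2 hdiv)
  have hsurj : Function.Surjective Ψ' :=
    (LinearMap.injective_iff_surjective_of_finrank_eq_finrank
      (Subspace.dual_finrank_eq (K := ZMod p) (V := M ⧸ pSub p M)).symm).1 hinj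
  -- the image of `U`
  let U' : Submodule (ZMod p) (M ⧸ pSub p M) :=
    AddSubgroup.toZModSubmodule p (U.map (QuotientAddGroup.mk' (pSub p M)))
  by_cases hmem : (QuotientAddGroup.mk w₀ : M ⧸ pSub p M) ∈ U'
  · obtain ⟨y, hy, hyw⟩ := hmem
    refine ⟨y, hy, ?_⟩
    rw [← mem_pSub]
    have : (QuotientAddGroup.mk (w₀ - y) : M ⧸ pSub p M) = 0 := by
      rw [QuotientAddGroup.mk_sub]
      rw [sub_eq_zero]
      exact hyw.symm
    exact (QuotientAddGroup.eq_zero_iff _).1 this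
  · exfalso
    obtain ⟨f, hf, hfU⟩ := Submodule.exists_dual_map_eq_bot_of_notMem hmem inferInstance
    obtain ⟨v, hv⟩ := hsurj f
    induction v using QuotientAddGroup.induction_on with
    | H u =>
      rw [hΨ'] at hv
      apply hf
      rw [← hv, hΨ]
      rw [ZMod.intCast_zmod_eq_zero_iff_dvd]
      apply h
      intro w hw
      rw [← ZMod.intCast_zmod_eq_zero_iff_dvd, ← hΨ, hv]
      have : f (QuotientAddGroup.mk w) ∈ U'.map f :=
        Submodule.mem_map_of_mem ⟨w, hw, rfl⟩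
      rw [hfU] at this
      exact (Submodule.mem_bot _).1 this

end Orth

section Dual

variable {R : Type*} [CommRing R] {L L' : Type*} [AddCommGroup L] [Module R L]
  [AddCommGroup L'] [Module R L']

/-- The orthogonal sum of two copies of a bilinear form. -/
def prodForm (Bl : L →ₗ[ℤ] L →ₗ[ℤ] ℤ) : (L × L) →ₗ[ℤ] (L × L) →ₗ[ℤ] ℤ :=
  Bl.compl₁₂ (LinearMap.fst ℤ L L) (LinearMap.fst ℤ L L) +
    Bl.compl₁₂ (LinearMap.snd ℤ L L) (LinearMap.snd ℤ L L)

theorem prodForm_apply (Bl : L →ₗ[ℤ] L →ₗ[ℤ] ℤ) (u w : L × L) :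
    prodForm Bl u w = Bl u.1 w.1 + Bl u.2 w.2 := rfl

/-- **Dual Ihara from duality.** If `s` kills `ker (α mod p)`, `s` is self-adjoint for `Bl`,
`β` is adjoint to `α` and both forms are left non-degenerate mod `p`, then `s` kills
`coker (β mod p)`. -/
theorem dualIhara_of_duality (p : ℕ) [Fact p.Prime] [Module.Finite ℤ L]
    (α : L × L →ₗ[R] L') (β : L' →ₗ[R] L × L)
    (Bl : L →ₗ[ℤ] L →ₗ[ℤ] ℤ) (Bl' : L' →ₗ[ℤ] L' →ₗ[ℤ] ℤ)
    (hBl : ∀ x, (∀ y, (p : ℤ) ∣ Bl x y) → DivBy p x)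
    (hBl' : ∀ x, (∀ y, (p : ℤ) ∣ Bl' x y) → DivBy p x)
    (hadj₁ : ∀ x y', Bl' (α (x, 0)) y' = Bl x (β y').1)
    (hadj₂ : ∀ x y', Bl' (α (0, x)) y' = Bl x (β y').2)
    (s : R) (hs : ∀ x y : L, Bl (s • x) y = Bl x (s • y))
    (hI : ∀ u : L × L, DivBy p (α u) → DivBy p (s • u)) :
    ∀ u : L × L, ∃ y : L', DivBy p (s • u - β y) := by
  intro u
  have hadj : ∀ (u' : L × L) (y' : L'), Bl' (α u') y' = prodForm Bl u' (β y') := by
    intro u' y'
    have : u' = (u'.1, 0) + (0, u'.2) := by simp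
    rw [this, map_add, map_add, LinearMap.add_apply, hadj₁, hadj₂, prodForm_apply]
    simp
  have hB2 : ∀ x : L × L, (∀ y, (p : ℤ) ∣ prodForm Bl x y) → DivBy p x := by
    intro x hx
    rw [divBy_prod_iff]
    constructor
    · apply hBl
      intro y
      have := hx (y, 0)
      rw [prodForm_apply] at this
      simpa using this
    · apply hBl
      intro y
      have := hx (0, y)
      rw [prodForm_apply] at this
      simpa using this
  obtain ⟨y, ⟨y', hy'⟩, hy⟩ := exists_mem_divBy_sub_of_orth p (prodForm Bl) hB2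
    (β.toAddMonoidHom.range) (s • u) (by
      intro u' hu'
      have h1 : DivBy p (α u') := by
        apply hBl'
        intro y'
        rw [hadj]
        exact hu' _ ⟨y', rfl⟩
      obtain ⟨z, hz⟩ := hI u' h1
      have h2 : prodForm Bl u' (s • u) = prodForm Bl (s • u') u := by
        rw [prodForm_apply, prodForm_apply]
        simp only [Prod.smul_fst, Prod.smul_snd]
        rw [hs, hs]
      rw [h2, hz, map_nsmul, LinearMap.smul_apply]
      exact ⟨prodForm Bl z u, by rw [nsmul_eq_mul]⟩)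
  refine ⟨y', ?_⟩
  have : β y' = y := hy'
  rw [this]
  exact hy

/-- **Abstract level raising from duality**: `levelRaising_core` with dual Ihara replaced by
the duality package. -/
theorem levelRaising_of_duality (𝔫 : Ideal R) [𝔫.IsMaximal] (p : ℕ) [Fact p.Prime]
    (hp : (p : R) ∈ 𝔫) [Module.Finite ℤ L]
    (α : L × L →ₗ[R] L') (β : L' →ₗ[R] L × L)
    (Bl : L →ₗ[ℤ] L →ₗ[ℤ] ℤ) (Bl' : L' →ₗ[ℤ] L' →ₗ[ℤ] ℤ)
    (hBl : ∀ x, (∀ y, (p : ℤ) ∣ Bl x y) → DivBy p x)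
    (hBl' : ∀ x, (∀ y, (p : ℤ) ∣ Bl' x y) → DivBy p x)
    (hadj₁ : ∀ x y', Bl' (α (x, 0)) y' = Bl x (β y').1)
    (hadj₂ : ∀ x y', Bl' (α (0, x)) y' = Bl x (β y').2)
    (s : R) (hs𝔫 : s ∉ 𝔫) (hs : ∀ x y : L, Bl (s • x) y = Bl x (s • y))
    (hI : ∀ u : L × L, DivBy p (α u) → DivBy p (s • u))
    (u₀ : L × L) (hu₀ : ¬ DivBy p u₀) (hu₀𝔫 : ∀ r ∈ 𝔫, DivBy p (r • u₀))
    (hu₀Q : DivBy p (β (α u₀))) :
    ∀ t : R, (∀ b ∈ LinearMap.ker β, t • b = 0) → t ∈ 𝔫 := by
  have : Module.Finite R L := Module.Finite.of_restrictScalars_finite ℤ R L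
  exact levelRaising_core 𝔫 p hp α β ⟨s, hs𝔫, hI⟩
    ⟨s, hs𝔫, dualIhara_of_duality p α β Bl Bl' hBl hBl' hadj₁ hadj₂ s hs hI⟩ u₀ hu₀ hu₀𝔫 hu₀Q

/-- **Abstract level raising, eigenvector form.** `v` is an eigenvector mod `p` of the Hecke
ring with system `𝔫`, `T_q v = T_q' v = ε c v` mod `p` with `ε = ± 1`, and
`β ∘ α = [[c, T_q], [T_q', c]]` (`c = q + 1`). Then `Ann_R (ker β) ⊆ 𝔫`. -/
theorem levelRaising_of_eigenvector (𝔫 : Ideal R) [𝔫.IsMaximal] (p : ℕ) [Fact p.Prime]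
    (hp : (p : R) ∈ 𝔫) [Module.Finite ℤ L]
    (α : L × L →ₗ[R] L') (β : L' →ₗ[R] L × L)
    (Bl : L →ₗ[ℤ] L →ₗ[ℤ] ℤ) (Bl' : L' →ₗ[ℤ] L' →ₗ[ℤ] ℤ)
    (hBl : ∀ x, (∀ y, (p : ℤ) ∣ Bl x y) → DivBy p x)
    (hBl' : ∀ x, (∀ y, (p : ℤ) ∣ Bl' x y) → DivBy p x)
    (hadj₁ : ∀ x y', Bl' (α (x, 0)) y' = Bl x (β y').1)
    (hadj₂ : ∀ x y', Bl' (α (0, x)) y' = Bl x (β y').2)
    (s : R) (hs𝔫 : s ∉ 𝔫) (hs : ∀ x y : L, Bl (s • x) y = Bl x (s • y))
    (hI : ∀ u : L × L, DivBy p (α u) → DivBy p (s • u))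
    (c ε : ℤ) (hε : ε = 1 ∨ ε = -1) (Tq Tq' : L →+ L)
    (hQ₁ : ∀ x y : L, (β (α (x, y))).1 = c • x + Tq y)
    (hQ₂ : ∀ x y : L, (β (α (x, y))).2 = Tq' x + c • y)
    (v : L) (hv : ¬ DivBy p v) (hv𝔫 : ∀ r ∈ 𝔫, DivBy p (r • v))
    (hvq : DivBy p (Tq v - (ε * c) • v)) (hvq' : DivBy p (Tq' v - (ε * c) • v)) :
    ∀ t : R, (∀ b ∈ LinearMap.ker β, t • b = 0) → t ∈ 𝔫 := by
  have hεε : ε * ε = 1 := by rcases hε with h | h <;> rw [h] <;> norm_num
  refine levelRaising_of_duality 𝔫 p hp α β Bl Bl' hBl hBl' hadj₁ hadj₂ s hs𝔫 hs hI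
    (v, -(ε • v)) ?_ ?_ ?_
  · intro h
    exact hv ((divBy_prod_iff _).1 h).1
  · intro r hr
    rw [divBy_prod_iff]
    refine ⟨hv𝔫 r hr, ?_⟩
    show DivBy p (r • -(ε • v))
    rw [smul_neg, smul_comm r ε v]
    exact ((hv𝔫 r hr).smul ε).neg
  · rw [divBy_prod_iff, hQ₁, hQ₂]
    constructor
    · -- c v - ε T_q v = -ε (T_q v - ε c v)
      have : c • v + Tq (-(ε • v)) = -(ε • (Tq v - (ε * c) • v)) := by
        rw [map_neg, map_zsmul, smul_sub, smul_smul, ← mul_assoc, hεε, one_mul]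
        abel
      rw [this]
      exact (hvq.smul ε).neg
    · have : Tq' v + c • -(ε • v) = Tq' v - (ε * c) • v := by
        rw [smul_neg, smul_smul, mul_comm c ε, sub_eq_add_neg]
      rw [this]
      exact hvq'

end Dual

end Fermat.Agent.P6.helper85
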