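import Mathlib
import Fermat.Agent.P6.helper85_LRDual

/-!
# P6 / S41: instantiation of the abstract core (helper85) for a family of commuting operators
(helper4, FINAL part 1, Mathlib + helper85 only)

`polyAct T hT : MvPolynomial ι ℤ →+* Module.End ℤ L` is the action of polynomials in a commuting
family `T : ι → End L`.  `abstract_levelRaising` is `helper85.levelRaising_of_eigenvector` for the
ring `R = MvPolynomial ι ℤ`, the maximal ideal `𝔫 = ker (R → ZMod p, X_i ↦ a i)`, and
`s = X_{i₀} - c₀`.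
-/

set_option autoImplicit false

namespace Fermat.Agent.P6.helper4

open Fermat.Agent.P6.helper85

section PolyAct

variable {ι : Type*} {L : Type*} [AddCommGroup L]

open scoped IsMulCommutative in
/-- the action of polynomials in a commuting family of endomorphisms -/
noncomputable def polyAct (T : ι → Module.End ℤ L) (hT : ∀ i j, T i * T j = T j * T i) :
    MvPolynomial ι ℤ →+* Module.End ℤ L :=
  haveI : IsMulCommutative (Algebra.adjoin ℤ (Set.range T)) :=
    Algebra.isMulCommutative_adjoin ℤ (by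
      rintro _ ⟨i, rfl⟩ _ ⟨j, rfl⟩
      exact hT i j)
  ((Algebra.adjoin ℤ (Set.range T)).val.toRingHom).comp
    (MvPolynomial.aeval (R := ℤ) (fun i =>
      (⟨T i, Algebra.subset_adjoin ⟨i, rfl⟩⟩ : Algebra.adjoin ℤ (Set.range T)))).toRingHom

variable (T : ι → Module.End ℤ L) (hT : ∀ i j, T i * T j = T j * T i)

open scoped IsMulCommutative in
@[simp] theorem polyAct_X (i : ι) : polyAct T hT (MvPolynomial.X i) = T i := by
  unfold polyAct
  simp

open scoped IsMulCommutative in
@[simp] theorem polyAct_C (a : ℤ) : polyAct T hT (MvPolynomial.C a) = a • (1 : Module.End ℤ L) := by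
  unfold polyAct
  simp [Algebra.algebraMap_eq_smul_one]

theorem polyAct_C_apply (a : ℤ) (x : L) : polyAct T hT (MvPolynomial.C a) x = a • x := by
  rw [polyAct_C]
  rfl

/-- intertwining passes from the generators to all polynomials -/
theorem polyAct_intertwine {L' : Type*} [AddCommGroup L'] (T' : ι → Module.End ℤ L')
    (hT' : ∀ i j, T' i * T' j = T' j * T' i) (f : L →ₗ[ℤ] L')
    (hf : ∀ i x, f (T i x) = T' i (f x)) (P : MvPolynomial ι ℤ) (x : L) :
    f (polyAct T hT P x) = polyAct T' hT' P (f x) := by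
  induction P using MvPolynomial.induction_on generalizing x with
  | C a => rw [polyAct_C_apply, polyAct_C_apply, map_zsmul]
  | add P Q hP hQ =>
    rw [map_add, map_add, LinearMap.add_apply, LinearMap.add_apply, map_add, hP, hQ]
  | mul_X P i hP =>
    rw [map_mul, map_mul, polyAct_X, polyAct_X, Module.End.mul_apply, Module.End.mul_apply, hP, hf]

/-- an eigenvector modulo `p` of the generators is an eigenvector modulo `p` of all polynomials -/
theorem polyAct_sub_eval_divBy (p : ℕ) (a : ι → ℤ) (v : L)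
    (hv : ∀ i, DivBy p (T i v - a i • v)) (P : MvPolynomial ι ℤ) :
    DivBy p (polyAct T hT P v - MvPolynomial.eval a P • v) := by
  induction P using MvPolynomial.induction_on with
  | C c =>
    rw [polyAct_C_apply, MvPolynomial.eval_C, sub_self]
    exact divBy_zero
  | add P Q hP hQ =>
    have : polyAct T hT (P + Q) v - MvPolynomial.eval a (P + Q) • v =
        (polyAct T hT P v - MvPolynomial.eval a P • v) +
          (polyAct T hT Q v - MvPolynomial.eval a Q • v) := by
      rw [map_add, map_add, LinearMap.add_apply, add_smul]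
      abel
    rw [this]
    exact hP.add hQ
  | mul_X P i hP =>
    have : polyAct T hT (P * MvPolynomial.X i) v - MvPolynomial.eval a (P * MvPolynomial.X i) • v =
        polyAct T hT P (T i v - a i • v) +
          a i • (polyAct T hT P v - MvPolynomial.eval a P • v) := by
      rw [map_mul, map_mul, polyAct_X, MvPolynomial.eval_X, Module.End.mul_apply, map_sub,
        map_zsmul, smul_sub, smul_smul, mul_comm (a i)]
      abel
    rw [this]
    refine DivBy.add ?_ (hP.smul (a i))
    obtain ⟨z, hz⟩ := hv i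
    rw [hz, map_nsmul]
    exact divBy_nsmul _

end PolyAct

section Main

variable {ι : Type*} {L L' : Type*} [AddCommGroup L] [AddCommGroup L']

/-- **Level raising for a commuting family of Hecke operators** (instantiation of
`helper85.levelRaising_of_eigenvector`). -/
theorem abstract_levelRaising (p : ℕ) [Fact p.Prime] [Module.Finite ℤ L]
    (T : ι → Module.End ℤ L) (hT : ∀ i j, T i * T j = T j * T i)
    (T' : ι → Module.End ℤ L') (hT' : ∀ i j, T' i * T' j = T' j * T' i)
    (a1 a2 : L →ₗ[ℤ] L') (b1 b2 : L' →ₗ[ℤ] L)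
    (ha1 : ∀ i x, a1 (T i x) = T' i (a1 x)) (ha2 : ∀ i x, a2 (T i x) = T' i (a2 x))
    (hb1 : ∀ i y, b1 (T' i y) = T i (b1 y)) (hb2 : ∀ i y, b2 (T' i y) = T i (b2 y))
    (Bl : L →ₗ[ℤ] L →ₗ[ℤ] ℤ) (Bl' : L' →ₗ[ℤ] L' →ₗ[ℤ] ℤ)
    (hBl : ∀ x, (∀ y, (p : ℤ) ∣ Bl x y) → DivBy p x)
    (hBl' : ∀ x, (∀ y, (p : ℤ) ∣ Bl' x y) → DivBy p x)
    (hadj1 : ∀ x y, Bl' (a1 x) y = Bl x (b1 y)) (hadj2 : ∀ x y, Bl' (a2 x) y = Bl x (b2 y))
    (a : ι → ℤ) (i₀ : ι) (c₀ : ℤ) (hc₀ : ¬ (p : ℤ) ∣ a i₀ - c₀)
    (hs : ∀ x y, Bl (T i₀ x) y = Bl x (T i₀ y))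
    (hI : ∀ x₁ x₂ : L, DivBy p (a1 x₁ + a2 x₂) →
      DivBy p (T i₀ x₁ - c₀ • x₁) ∧ DivBy p (T i₀ x₂ - c₀ • x₂))
    (c ε : ℤ) (hε : ε = 1 ∨ ε = -1) (Tq : L →+ L)
    (hQ11 : ∀ x, b1 (a1 x) = c • x) (hQ22 : ∀ x, b2 (a2 x) = c • x)
    (hQ12 : ∀ x, b1 (a2 x) = Tq x) (hQ21 : ∀ x, b2 (a1 x) = Tq x)
    (v : L) (hv : ¬ DivBy p v) (hveig : ∀ i, DivBy p (T i v - a i • v))
    (hvq : DivBy p (Tq v - (ε * c) • v)) :
    ∀ P : MvPolynomial ι ℤ,
      (∀ y : L', b1 y = 0 → b2 y = 0 → polyAct T' hT' P y = 0) →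
        (p : ℤ) ∣ MvPolynomial.eval a P := by
  classical
  -- the module structures
  let instL : Module (MvPolynomial ι ℤ) L := Module.compHom L (polyAct T hT)
  let instL' : Module (MvPolynomial ι ℤ) L' := Module.compHom L' (polyAct T' hT')
  have smulL : ∀ (r : MvPolynomial ι ℤ) (x : L), r • x = polyAct T hT r x := fun _ _ => rfl
  have smulL' : ∀ (r : MvPolynomial ι ℤ) (y : L'), r • y = polyAct T' hT' r y := fun _ _ => rfl
  -- α and β
  let α : L × L →ₗ[MvPolynomial ι ℤ] L' :=
    { toFun := fun u => a1 u.1 + a2 u.2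
      map_add' := fun u w => by
        simp only [Prod.fst_add, Prod.snd_add, map_add]
        abel
      map_smul' := fun r u => by
        simp only [Prod.smul_fst, Prod.smul_snd, RingHom.id_apply, smulL, smulL']
        rw [map_add, polyAct_intertwine T hT T' hT' a1 ha1, polyAct_intertwine T hT T' hT' a2 ha2] }
  let β : L' →ₗ[MvPolynomial ι ℤ] L × L :=
    { toFun := fun y => (b1 y, b2 y)
      map_add' := fun y z => by simp
      map_smul' := fun r y => by
        simp only [RingHom.id_apply, smulL']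
        refine Prod.ext ?_ ?_
        · show b1 _ = r • b1 y
          rw [smulL]
          exact polyAct_intertwine T' hT' T hT b1 hb1 r y
        · show b2 _ = r • b2 y
          rw [smulL]
          exact polyAct_intertwine T' hT' T hT b2 hb2 r y }
  have hα : ∀ u : L × L, α u = a1 u.1 + a2 u.2 := fun _ => rfl
  have hβ : ∀ y : L', β y = (b1 y, b2 y) := fun _ => rfl
  -- the maximal ideal
  let χ : MvPolynomial ι ℤ →+* ZMod p :=
    (Int.castRingHom (ZMod p)).comp (MvPolynomial.eval a)
  have hχsurj : Function.Surjective χ := by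
    intro z
    obtain ⟨n, rfl⟩ := ZMod.intCast_surjective z
    exact ⟨MvPolynomial.C n, by simp [χ]⟩
  haveI h𝔫 : (RingHom.ker χ).IsMaximal := RingHom.ker_isMaximal_of_surjective χ hχsurj
  have hmem : ∀ r : MvPolynomial ι ℤ, r ∈ RingHom.ker χ ↔ (p : ℤ) ∣ MvPolynomial.eval a r := by
    intro r
    rw [RingHom.mem_ker]
    show ((MvPolynomial.eval a r : ℤ) : ZMod p) = 0 ↔ _
    exact ZMod.intCast_zmod_eq_zero_iff_dvd _ _
  have hp𝔫 : ((p : ℕ) : MvPolynomial ι ℤ) ∈ RingHom.ker χ := by
    rw [RingHom.mem_ker, map_natCast]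
    exact ZMod.natCast_self p
  -- the element s
  let s : MvPolynomial ι ℤ := MvPolynomial.X i₀ - MvPolynomial.C c₀
  have hs𝔫 : s ∉ RingHom.ker χ := by
    rw [hmem]
    simpa [s] using hc₀
  have hsx : ∀ x : L, s • x = T i₀ x - c₀ • x := by
    intro x
    rw [smulL]
    simp only [s, map_sub, polyAct_X, LinearMap.sub_apply, polyAct_C_apply]
  have hsBl : ∀ x y : L, Bl (s • x) y = Bl x (s • y) := by
    intro x y
    rw [hsx, hsx, map_sub, LinearMap.sub_apply, map_sub, hs, map_zsmul, map_zsmul,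
      LinearMap.smul_apply]
  have hI' : ∀ u : L × L, DivBy p (α u) → DivBy p (s • u) := by
    intro u hu
    rw [divBy_prod_iff]
    obtain ⟨h1, h2⟩ := hI u.1 u.2 hu
    refine ⟨?_, ?_⟩
    · show DivBy p (s • u.1)
      rw [hsx]; exact h1
    · show DivBy p (s • u.2)
      rw [hsx]; exact h2
  have hv𝔫 : ∀ r ∈ RingHom.ker χ, DivBy p (r • v) := by
    intro r hr
    rw [hmem] at hr
    obtain ⟨k, hk⟩ := hr
    have h1 := polyAct_sub_eval_divBy T hT p a v hveig r
    have h2 : DivBy p (MvPolynomial.eval a r • v) := by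
      rw [hk]
      refine ⟨k • v, ?_⟩
      rw [mul_smul, natCast_zsmul]
    have : r • v = (polyAct T hT r v - MvPolynomial.eval a r • v) + MvPolynomial.eval a r • v := by
      rw [smulL]; abel
    rw [this]
    exact h1.add h2
  have key := levelRaising_of_eigenvector (RingHom.ker χ) p hp𝔫 α β Bl Bl' hBl hBl'
    (fun x y' => by
      show Bl' (a1 x + a2 0) y' = Bl x (b1 y')
      rw [map_zero, add_zero, hadj1])
    (fun x y' => by
      show Bl' (a1 0 + a2 x) y' = Bl x (b2 y')
      rw [map_zero, zero_add, hadj2])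
    s hs𝔫 hsBl hI' c ε hε Tq Tq
    (fun x y => by
      show b1 (a1 x + a2 y) = c • x + Tq y
      rw [map_add, hQ11, hQ12])
    (fun x y => by
      show b2 (a1 x + a2 y) = Tq x + c • y
      rw [map_add, hQ21, hQ22])
    v hv hv𝔫 hvq hvq
  intro P hP
  rw [← hmem]
  refine key P ?_
  intro b hb
  rw [LinearMap.mem_ker, hβ, Prod.mk_eq_zero] at hb
  rw [smulL']
  exact hP b hb.1 hb.2

end Main

end Fermat.Agent.P6.helper4
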