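import Fermat.Agent.P6.helper4_S41Defs
import Fermat.Agent.P6.helper4_S41Abs

/-!
# P6 / S41: the conditional assembly (helper4, FINAL part 2)

`s41_of` : the frozen statement S41 from the package statements of `helper4_S41Defs`
(`IharaStatement`, `HB0/1/2Statement`, `DualityStatement`, `NonEisStatement`, `EigStatement`,
`LiftStatement`) and `FinStatement` (the parabolic lattices are finitely generated).
-/

set_option autoImplicit false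

open CongruenceSubgroup ModularCurve.Period
open scoped MatrixGroups

namespace Fermat.Agent.P6.helper4

open Fermat.Agent.P6.helper77 Fermat.Agent.S16.helper26 Fermat.Agent.P6.helper85

/-- the parabolic lattices are finitely generated -/
def FinStatement : Prop := ∀ M : ℕ, 0 < M → Module.Finite ℤ (Lat M)

section Small

variable {G : Type*} [Group G]

/-- a homomorphism to `ℤ` with values divisible by `p` is `p` times a homomorphism -/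
theorem exists_hom_of_dvd (p : ℕ) (hp : p ≠ 0) (w : Additive G →+ ℤ)
    (h : ∀ g, (p : ℤ) ∣ w g) : ∃ w' : Additive G →+ ℤ, w = p • w' := by
  have hp' : (p : ℤ) ≠ 0 := by exact_mod_cast hp
  refine ⟨{ toFun := fun g => w g / p
            map_zero' := by simp
            map_add' := fun g g' => by
              rw [map_add, Int.add_ediv_of_dvd_left (h g)] }, ?_⟩
  ext g
  show w g = p • (w g / p)
  rw [nsmul_eq_mul, Int.mul_ediv_cancel' (h g)]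

theorem mem_Lat_of_nsmul {M : ℕ} (p : ℕ) (hp : p ≠ 0) (z : Additive (Gamma0 M) →+ ℤ)
    (h : p • z ∈ Lat M) : z ∈ Lat M := by
  intro γ hγ
  have := h γ hγ
  simp only [AddMonoidHom.coe_smul, Pi.smul_apply, nsmul_eq_mul] at this
  have hp' : (p : ℤ) ≠ 0 := by exact_mod_cast hp
  exact (mul_eq_zero.1 this).resolve_left hp'

/-- divisibility in the lattice and in the ambient group of homomorphisms agree -/
theorem divBy_Lat_iff {M : ℕ} (p : ℕ) (hp : p ≠ 0) (x : Lat M) :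
    DivBy p x ↔ ∃ z : Additive (Gamma0 M) →+ ℤ, (x : Additive (Gamma0 M) →+ ℤ) = p • z := by
  constructor
  · rintro ⟨y, rfl⟩
    exact ⟨y, rfl⟩
  · rintro ⟨z, hz⟩
    have hzL : z ∈ Lat M := mem_Lat_of_nsmul p hp z (hz ▸ x.2)
    exact ⟨⟨z, hzL⟩, Subtype.ext hz⟩

/-- reduction modulo `p` of a homomorphism -/
def redHom (p : ℕ) (x : Additive G →+ ℤ) : Additive G →+ ZMod p :=
  (Int.castAddHom (ZMod p)).comp x

theorem redHom_eq_zero_iff (p : ℕ) (hp : p ≠ 0) (x : Additive G →+ ℤ) :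
    redHom p x = 0 ↔ ∃ z : Additive G →+ ℤ, x = p • z := by
  constructor
  · intro h
    apply exists_hom_of_dvd p hp
    intro g
    have := DFunLike.congr_fun h g
    simp only [redHom, AddMonoidHom.coe_comp, Function.comp_apply, Int.coe_castAddHom,
      AddMonoidHom.zero_apply] at this
    exact (ZMod.intCast_zmod_eq_zero_iff_dvd _ _).1 this
  · rintro ⟨z, rfl⟩
    ext g
    simp [redHom]

theorem redHom_pull {G' : Type*} [Group G'] (p : ℕ) (ι : G' →* G) (x : Additive G →+ ℤ) :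
    redHom p (pull ℤ ι x) = pull (ZMod p) ι (redHom p x) := rfl

theorem redHom_add (p : ℕ) (x y : Additive G →+ ℤ) :
    redHom p (x + y) = redHom p x + redHom p y := by
  ext g
  simp [redHom]

theorem redHom_sub (p : ℕ) (x y : Additive G →+ ℤ) :
    redHom p (x - y) = redHom p x - redHom p y := by
  ext g
  simp [redHom]

theorem redHom_zsmul (p : ℕ) (c : ℤ) (x : Additive G →+ ℤ) :
    redHom p (c • x) = c • redHom p x := by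
  ext g
  simp [redHom]

theorem redHom_nsmul (p : ℕ) (c : ℕ) (x : Additive G →+ ℤ) :
    redHom p (c • x) = c • redHom p x := by
  ext g
  simp [redHom]

end Small

theorem redHom_heckeHom (p N : ℕ) (ℓ : Nat.Primes) (x : Additive (Gamma0 N) →+ ℤ) :
    redHom p (heckeHom N ℓ x) = heckeHom N ℓ (redHom p x) :=
  (heckeHom_comp N ℓ (Int.castAddHom (ZMod p)) x).symm

/-! ### the bridge between `HeckeOps.act` and `polyAct` -/

section ActBridge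

variable {M : ℕ} (ho : HeckeOps M) {ι : Type*} (e : ι → Nat.Primes)

theorem act_rename_eq_polyAct
    (hT : ∀ i j : ι, (ho.T (e i) : Module.End ℤ (Lat M)) * ho.T (e j) = ho.T (e j) * ho.T (e i))
    (P : MvPolynomial ι ℤ) :
    ho.act (MvPolynomial.rename e P) = polyAct (fun i => (ho.T (e i) : Module.End ℤ (Lat M))) hT P := by
  induction P using MvPolynomial.induction_on with
  | C a =>
    rw [MvPolynomial.rename_C, HeckeOps.act_C, polyAct_C]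
  | add P Q hP hQ =>
    rw [map_add, HeckeOps.act_add, hP, hQ, map_add]
  | mul_X P i hP =>
    rw [map_mul, MvPolynomial.rename_X, HeckeOps.act_mul, HeckeOps.act_X, hP, map_mul, polyAct_X]

end ActBridge

/-! ### the conditional assembly -/

/-- **S41 from the packages.** -/
theorem s41_of (h0 : HB0Statement) (h1 : HB1Statement) (h2 : HB2Statement)
    (hD : DualityStatement) (hNE : NonEisStatement) (hEig : EigStatement) (hLift : LiftStatement)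
    (hFin : FinStatement)
    (hIh : ∀ (N q p : ℕ) (hq : q.Prime), ¬ q ∣ N → p.Prime → q ≠ p →
      IharaStatement N q hq.ne_zero p)
    (E : WeierstrassCurve ℚ) [E.IsElliptic] {W : WeierstrassCurve ℤ} (hW : W.IsIntegralModelOf E)
    {p N q' : ℕ} (hp : p.Prime) (hp2 : p ≠ 2) (hN : 0 < N) (hq' : q'.Prime) (hq'N : ¬ q' ∣ N)
    (hq'p : q' ≠ p)
    (hirr : WeierstrassCurve.Affine.Point.GaloisRepIsIrreducible (K := AlgebraicClosure ℚ) ℚ E p)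
    (f : CuspForm (CongruenceSubgroup.Gamma0 N) 2) (𝔪 : Ideal (integralClosure ℤ ℂ))
    (hf : f.IsNormalizedEigenform) (hmax : 𝔪.IsMaximal) (hpm : (p : integralClosure ℤ ℂ) ∈ 𝔪)
    (hcong : ∀ ℓ : ℕ, ℓ.Prime → W.IsGoodPrimeFor ℓ → ¬ ℓ ∣ N → ℓ ≠ p →
      ∃ a : integralClosure ℤ ℂ, (a : ℂ) = ModularFormClass.qCoeff f ℓ ∧
        a - ((W.apOfModel ℓ : ℤ) : integralClosure ℤ ℂ) ∈ 𝔪)
    (hLR : ∃ a : integralClosure ℤ ℂ, (a : ℂ) = ModularFormClass.qCoeff f q' ∧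
      a ^ 2 - ((q' : integralClosure ℤ ℂ) + 1) ^ 2 ∈ 𝔪) :
    ∃ (g : CuspForm (CongruenceSubgroup.Gamma0 (N * q')) 2) (𝔪' : Ideal (integralClosure ℤ ℂ)),
      g.IsNormalizedEigenform ∧ 𝔪'.IsMaximal ∧ (p : integralClosure ℤ ℂ) ∈ 𝔪' ∧
      (∀ ℓ : ℕ, ℓ.Prime → W.IsGoodPrimeFor ℓ → ¬ ℓ ∣ N * q' → ℓ ≠ p →
        ∃ a : integralClosure ℤ ℂ, (a : ℂ) = ModularFormClass.qCoeff g ℓ ∧
          a - ((W.apOfModel ℓ : ℤ) : integralClosure ℤ ℂ) ∈ 𝔪') ∧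
      g.IsNewAt q' := by
  classical
  haveI : Fact p.Prime := ⟨hp⟩
  have hNq : 0 < N * q' := Nat.mul_pos hN hq'.pos
  obtain ⟨hLM, hHO⟩ := h0
  obtain ⟨lm⟩ := hLM N q' hq'.ne_zero hN hq'
  obtain ⟨ho⟩ := hHO N hN
  obtain ⟨ho'⟩ := hHO (N * q') hNq
  obtain ⟨Bl, εB, hεB, hsym, hnd, hadj⟩ := hD
  haveI : Module.Finite ℤ (Lat N) := hFin N hN
  -- the auxiliary prime `ℓ₀`
  obtain ⟨ℓ₀, hℓ₀p, hℓ₀m, hℓ₀dvd, hℓ₀good, hℓ₀a⟩ :=
    hNE E W hW p hp hp2 hirr (p * N * q') (Nat.mul_pos (Nat.mul_pos hp.pos hN) hq'.pos)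
  have hℓ₀Nq : ¬ ℓ₀ ∣ N * q' := fun h => hℓ₀dvd (by
    rw [mul_assoc]; exact Dvd.dvd.mul_left h p)
  have hℓ₀N : ¬ ℓ₀ ∣ N := fun h => hℓ₀Nq (Dvd.dvd.mul_right h q')
  have hℓ₀q : ℓ₀ ≠ q' := fun h => hℓ₀Nq (h ▸ Dvd.intro_left N rfl)
  have hℓ₀ne : ℓ₀ ≠ p := fun h => hℓ₀dvd (by
    rw [mul_assoc, h]; exact Dvd.intro _ rfl)
  have hℓ₀pN : ℓ₀ ≡ 1 [MOD p * N] := hℓ₀m.of_mul_right q'
  -- the eigenvector
  obtain ⟨ε, v, hε, hvL, hvnd, hveig, hvq⟩ :=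
    hEig W hp hp2 hN hq' hq'N hq'p f 𝔪 hf hmax hpm hcong hLR
  -- the Hecke operators commute with the level maps
  have hb := fun (ℓ : Nat.Primes) (hℓ : ¬ (ℓ : ℕ) ∣ N * q') =>
    h1 N q' hq'.ne_zero ℤ hN hq' hq'N ℓ hℓ
  have ha1 : ∀ (i : {ℓ : Nat.Primes // GoodPrime W N q' p ℓ}) (x : Lat N),
      lm.a1 (ho.T i.1 x) = ho'.T i.1 (lm.a1 x) := by
    intro i x
    apply Subtype.ext
    rw [lm.a1_coe, ho'.T_coe, lm.a1_coe, ho.T_coe]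
    exact (((hb i.1 i.2.2.1).1 x).1).symm
  have ha2 : ∀ (i : {ℓ : Nat.Primes // GoodPrime W N q' p ℓ}) (x : Lat N),
      lm.a2 (ho.T i.1 x) = ho'.T i.1 (lm.a2 x) := by
    intro i x
    apply Subtype.ext
    rw [lm.a2_coe, ho'.T_coe, lm.a2_coe, ho.T_coe]
    exact (((hb i.1 i.2.2.1).1 x).2).symm
  have hb1 : ∀ (i : {ℓ : Nat.Primes // GoodPrime W N q' p ℓ}) (y : Lat (N * q')),
      lm.b1 (ho'.T i.1 y) = ho.T i.1 (lm.b1 y) := by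
    intro i y
    apply Subtype.ext
    rw [lm.b1_coe, ho'.T_coe, ho.T_coe, lm.b1_coe]
    exact (((hb i.1 i.2.2.1).2 y).1).symm
  have hb2 : ∀ (i : {ℓ : Nat.Primes // GoodPrime W N q' p ℓ}) (y : Lat (N * q')),
      lm.b2 (ho'.T i.1 y) = ho.T i.1 (lm.b2 y) := by
    intro i y
    apply Subtype.ext
    rw [lm.b2_coe, ho'.T_coe, ho.T_coe, lm.b2_coe]
    exact (((hb i.1 i.2.2.1).2 y).2).symm
  -- self-adjointness of `T_{ℓ₀}`
  obtain ⟨lm₀⟩ := hLM N ℓ₀ hℓ₀p.ne_zero hN hℓ₀p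
  have hadj₀ := hadj N ℓ₀ hℓ₀p.ne_zero hN hℓ₀p hℓ₀N lm₀
  have hT12 : ∀ x : Lat N, lm₀.b1 (lm₀.a2 x) = ho.T ⟨ℓ₀, hℓ₀p⟩ x := by
    intro x
    apply Subtype.ext
    rw [lm₀.b1_coe, lm₀.a2_coe, ho.T_coe]
    exact (h2 N ℓ₀ hℓ₀p.ne_zero ℤ hN hℓ₀p hℓ₀N x).2.2.1
  have hT21 : ∀ x : Lat N, lm₀.b2 (lm₀.a1 x) = ho.T ⟨ℓ₀, hℓ₀p⟩ x := by
    intro x
    apply Subtype.ext
    rw [lm₀.b2_coe, lm₀.a1_coe, ho.T_coe]
    exact (h2 N ℓ₀ hℓ₀p.ne_zero ℤ hN hℓ₀p hℓ₀N x).2.2.2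
  have hε2 : εB * εB = 1 := by
    rcases hεB with h | h <;> simp [h]
  have hs : ∀ x y : Lat N, Bl N (ho.T ⟨ℓ₀, hℓ₀p⟩ x) y = Bl N x (ho.T ⟨ℓ₀, hℓ₀p⟩ y) := by
    intro x y
    calc Bl N (ho.T ⟨ℓ₀, hℓ₀p⟩ x) y = Bl N (lm₀.b1 (lm₀.a2 x)) y := by rw [hT12]
      _ = εB * Bl N y (lm₀.b1 (lm₀.a2 x)) := hsym N _ _
      _ = εB * Bl (N * ℓ₀) (lm₀.a1 y) (lm₀.a2 x) := by rw [(hadj₀ y _).1]
      _ = εB * (εB * Bl (N * ℓ₀) (lm₀.a2 x) (lm₀.a1 y)) := by rw [hsym (N * ℓ₀) (lm₀.a1 y)]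
      _ = Bl (N * ℓ₀) (lm₀.a2 x) (lm₀.a1 y) := by rw [← mul_assoc, hε2, one_mul]
      _ = Bl N x (lm₀.b2 (lm₀.a1 y)) := (hadj₀ x _).2
      _ = Bl N x (ho.T ⟨ℓ₀, hℓ₀p⟩ y) := by rw [hT21]
  -- Ihara
  have hIhara := hIh N q' p hq' hq'N hp hq'p ⟨ℓ₀, hℓ₀p⟩ hℓ₀pN hℓ₀q
  have hIone : ∀ x : Lat N, heckeHom N ⟨ℓ₀, hℓ₀p⟩ (redHom p (x : Additive (Gamma0 N) →+ ℤ)) =
      (ℓ₀ + 1) • redHom p (x : Additive (Gamma0 N) →+ ℤ) →
      DivBy p (ho.T ⟨ℓ₀, hℓ₀p⟩ x - ((1 : ℤ) + (ℓ₀ : ℤ)) • x) := by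
    intro x hx
    rw [divBy_Lat_iff p hp.ne_zero, ← redHom_eq_zero_iff p hp.ne_zero]
    rw [Submodule.coe_sub, Submodule.coe_smul, ho.T_coe, redHom_sub, redHom_heckeHom, hx,
      redHom_zsmul, sub_eq_zero, ← natCast_zsmul]
    congr 1
    push_cast
    ring
  have hI : ∀ x₁ x₂ : Lat N, DivBy p (lm.a1 x₁ + lm.a2 x₂) →
      DivBy p (ho.T ⟨ℓ₀, hℓ₀p⟩ x₁ - ((1 : ℤ) + (ℓ₀ : ℤ)) • x₁) ∧
        DivBy p (ho.T ⟨ℓ₀, hℓ₀p⟩ x₂ - ((1 : ℤ) + (ℓ₀ : ℤ)) • x₂) := by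
    intro x₁ x₂ hdiv
    rw [divBy_Lat_iff p hp.ne_zero] at hdiv
    obtain ⟨z, hz⟩ := hdiv
    rw [Submodule.coe_add, lm.a1_coe, lm.a2_coe] at hz
    have hred : a1 N q' (ZMod p) (redHom p (x₁ : Additive (Gamma0 N) →+ ℤ)) +
        a2 N q' hq'.ne_zero (ZMod p) (redHom p (x₂ : Additive (Gamma0 N) →+ ℤ)) = 0 := by
      have := (redHom_eq_zero_iff p hp.ne_zero _).2 ⟨z, hz⟩
      rw [redHom_add] at this
      exact this
    obtain ⟨e1, e2⟩ := hIhara _ _ hred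
    exact ⟨hIone x₁ e1, hIone x₂ e2⟩
  -- the matrix `β ∘ α`
  have hcast : ∀ x : Additive (Gamma0 N) →+ ℤ, (q' + 1) • x = ((q' : ℤ) + 1) • x := by
    intro x
    rw [← natCast_zsmul]
    congr 1
  have hQ := h2 N q' hq'.ne_zero ℤ hN hq' hq'N
  have hQ11 : ∀ x : Lat N, lm.b1 (lm.a1 x) = ((q' : ℤ) + 1) • x := by
    intro x
    apply Subtype.ext
    rw [lm.b1_coe, lm.a1_coe, (hQ x).1, Submodule.coe_smul, hcast]
  have hQ22 : ∀ x : Lat N, lm.b2 (lm.a2 x) = ((q' : ℤ) + 1) • x := by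
    intro x
    apply Subtype.ext
    rw [lm.b2_coe, lm.a2_coe, (hQ x).2.1, Submodule.coe_smul, hcast]
  have hQ12 : ∀ x : Lat N, lm.b1 (lm.a2 x) = (ho.T ⟨q', hq'⟩ : Lat N →ₗ[ℤ] Lat N).toAddMonoidHom x := by
    intro x
    apply Subtype.ext
    rw [lm.b1_coe, lm.a2_coe, (hQ x).2.2.1]
    exact (ho.T_coe ⟨q', hq'⟩ x).symm
  have hQ21 : ∀ x : Lat N, lm.b2 (lm.a1 x) = (ho.T ⟨q', hq'⟩ : Lat N →ₗ[ℤ] Lat N).toAddMonoidHom x := by
    intro x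
    apply Subtype.ext
    rw [lm.b2_coe, lm.a1_coe, (hQ x).2.2.2]
    exact (ho.T_coe ⟨q', hq'⟩ x).symm
  -- the eigenvector in the lattice
  have hv : ¬ DivBy p (⟨v, hvL⟩ : Lat N) := by
    rw [divBy_Lat_iff p hp.ne_zero]
    exact hvnd
  have hveig' : ∀ i : {ℓ : Nat.Primes // GoodPrime W N q' p ℓ},
      DivBy p (ho.T i.1 (⟨v, hvL⟩ : Lat N) - W.apOfModel i.1 • (⟨v, hvL⟩ : Lat N)) := by
    intro i
    rw [divBy_Lat_iff p hp.ne_zero, Submodule.coe_sub, Submodule.coe_smul, ho.T_coe]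
    exact hveig i.1 i.2
  have hvq' : DivBy p ((ho.T ⟨q', hq'⟩ : Lat N →ₗ[ℤ] Lat N).toAddMonoidHom (⟨v, hvL⟩ : Lat N) -
      (ε * ((q' : ℤ) + 1)) • (⟨v, hvL⟩ : Lat N)) := by
    rw [divBy_Lat_iff p hp.ne_zero, Submodule.coe_sub, Submodule.coe_smul]
    show ∃ z, ((ho.T ⟨q', hq'⟩ (⟨v, hvL⟩ : Lat N) : Lat N) : Additive (Gamma0 N) →+ ℤ) - _ = _
    rw [ho.T_coe]
    exact hvq
  -- the abstract core
  have key := abstract_levelRaising p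
    (fun i : {ℓ : Nat.Primes // GoodPrime W N q' p ℓ} => (ho.T i.1 : Module.End ℤ (Lat N)))
    (fun i j => ho.comm i.1 j.1)
    (fun i : {ℓ : Nat.Primes // GoodPrime W N q' p ℓ} =>
      (ho'.T i.1 : Module.End ℤ (Lat (N * q'))))
    (fun i j => ho'.comm i.1 j.1)
    lm.a1 lm.a2 lm.b1 lm.b2 ha1 ha2 hb1 hb2 (Bl N) (Bl (N * q'))
    (hnd N p hN hp hp2) (hnd (N * q') p hNq hp hp2)
    (fun x y => (hadj N q' hq'.ne_zero hN hq' hq'N lm x y).1)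
    (fun x y => (hadj N q' hq'.ne_zero hN hq' hq'N lm x y).2)
    (fun i => W.apOfModel i.1) ⟨⟨ℓ₀, hℓ₀p⟩, hℓ₀good, hℓ₀Nq, hℓ₀ne⟩ ((1 : ℤ) + (ℓ₀ : ℤ)) hℓ₀a
    hs hI ((q' : ℤ) + 1) ε hε (ho.T ⟨q', hq'⟩ : Lat N →ₗ[ℤ] Lat N).toAddMonoidHom
    hQ11 hQ22 hQ12 hQ21 ⟨v, hvL⟩ hv hveig' hvq'
  -- conclusion
  refine hLift W hp hp2 hN hq' hq'N hq'p ho' ?_
  intro P hPvars hPkill
  obtain ⟨P₀, rfl⟩ := MvPolynomial.exists_rename_eq_of_vars_subset_range P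
    (Subtype.val : {ℓ : Nat.Primes // GoodPrime W N q' p ℓ} → Nat.Primes)
    Subtype.val_injective (fun ℓ hℓ => ⟨⟨ℓ, hPvars ℓ hℓ⟩, rfl⟩)
  rw [MvPolynomial.eval_rename]
  refine key P₀ ?_
  intro y hy1 hy2
  have := hPkill y (by rw [← lm.b1_coe, hy1]; rfl) (by rw [← lm.b2_coe, hy2]; rfl)
  rw [act_rename_eq_polyAct ho' Subtype.val (fun i j => ho'.comm i.1 j.1)] at this
  exact this

end Fermat.Agent.P6.helper4
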