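import Mathlib
import Fermat.Agent.P6.helper4_S41Final
import Fermat.Agent.P3.helper16_PerLattice
import Fermat.Agent.S49.HeckeC
import Fermat.Agent.S23.helper87_RationalBasis

/-!
# P6 / S41 [LIFT] (helper16), part 1: integral parabolic classes as pairs of cusp forms

For `y : Γ₀(M) → ℤ` parabolic, the complexification `toC y` is a complex parabolic hom, hence by
Eichler-Shimura (S21) the period hom of a unique pair `v ∈ S₂ × S₂`; we write `Rep v y`.
The relation is compatible with all Hecke operators (`rep_act`).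
-/

set_option autoImplicit false
set_option linter.unusedSectionVars false

open CongruenceSubgroup ModularCurve ModularCurve.Period CuspForm ModularFormClass
open scoped MatrixGroups

noncomputable section

namespace Fermat.Agent.P6.helper16

open Fermat.Agent.S16 Fermat.Agent.P3.helper16 Fermat.Agent.P6.helper4 Fermat.Agent.S49

variable (M : ℕ) [NeZero M]

/-- complexification of an integral homomorphism -/
def toC (y : Additive (Gamma0 M) →+ ℤ) : Additive (Gamma0 M) →+ ℂ :=
  (Int.castAddHom ℂ).comp y

omit [NeZero M] in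
@[simp] theorem toC_apply (y : Additive (Gamma0 M) →+ ℤ) (γ : Additive (Gamma0 M)) :
    toC M y γ = ((y γ : ℤ) : ℂ) := rfl

omit [NeZero M] in
theorem toC_injective : Function.Injective (toC M) := by
  intro y y' h
  refine AddMonoidHom.ext fun γ => ?_
  have := DFunLike.congr_fun h γ
  simpa using this

omit [NeZero M] in
theorem toC_zero : toC M 0 = 0 := by
  refine AddMonoidHom.ext fun γ => ?_
  simp

omit [NeZero M] in
theorem toC_add (y y' : Additive (Gamma0 M) →+ ℤ) : toC M (y + y') = toC M y + toC M y' := by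
  refine AddMonoidHom.ext fun γ => ?_
  simp

omit [NeZero M] in
theorem toC_zsmul (a : ℤ) (y : Additive (Gamma0 M) →+ ℤ) :
    toC M (a • y) = (a : ℂ) • toC M y := by
  refine AddMonoidHom.ext fun γ => ?_
  simp

omit [NeZero M] in
theorem toC_mem_parabolicHoms {y : Additive (Gamma0 M) →+ ℤ} (hy : y ∈ Lat M) :
    toC M y ∈ parabolicHoms ℂ (Gamma0 M) ℂ := by
  intro γ hγ
  have h := hy γ hγ
  rw [toC_apply, h, Int.cast_zero]

/-- naturality of the Hecke operators in the coefficient group -/
theorem heckeHom_toC (ℓ : Nat.Primes) (y : Additive (Gamma0 M) →+ ℤ) :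
    helper26.heckeHom M ℓ (toC M y) = toC M (helper26.heckeHom M ℓ y) := by
  refine AddMonoidHom.ext fun γ' => ?_
  set γ : Gamma0 M := Additive.toMul γ' with hγ
  change helper26.heckeHom M ℓ (toC M y) (Additive.ofMul γ) =
    toC M (helper26.heckeHom M ℓ y) (Additive.ofMul γ)
  by_cases h : (ℓ : ℕ) ∣ M
  · rw [toC_apply, helper26.heckeHom_apply_of_dvd M h, helper26.heckeHom_apply_of_dvd M h]
    simp
  · rw [toC_apply, helper26.heckeHom_apply_of_not_dvd M h,
      helper26.heckeHom_apply_of_not_dvd M h]
    simp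

/-- the pair `v` of cusp forms represents the integral class `y` -/
def Rep (v : V2 M) (y : Additive (Gamma0 M) →+ ℤ) : Prop :=
  periodHomPair M v = toC M y

theorem exists_rep {y : Additive (Gamma0 M) →+ ℤ} (hy : y ∈ Lat M) : ∃ v : V2 M, Rep M v y := by
  have h := toC_mem_parabolicHoms M hy
  rw [← (Fermat.Agent.S21.result M).2] at h
  exact h

variable {M}

theorem Rep.unique {v v' : V2 M} {y : Additive (Gamma0 M) →+ ℤ} (h : Rep M v y)
    (h' : Rep M v' y) : v = v' :=
  (Fermat.Agent.S21.result M).1 (h.trans h'.symm)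

theorem Rep.eq_zero_of_zero {v : V2 M} (h : Rep M v 0) : v = 0 := by
  apply (Fermat.Agent.S21.result M).1
  rw [map_zero]
  have h1 : periodHomPair M v = toC M 0 := h
  rw [h1, toC_zero]

theorem Rep.zero_of_eq_zero {y : Additive (Gamma0 M) →+ ℤ} (h : Rep M 0 y) : y = 0 := by
  apply toC_injective M
  rw [toC_zero]
  have h1 : periodHomPair M 0 = toC M y := h
  rw [map_zero] at h1
  exact h1.symm

theorem Rep.add {v v' : V2 M} {y y' : Additive (Gamma0 M) →+ ℤ} (h : Rep M v y)
    (h' : Rep M v' y') : Rep M (v + v') (y + y') := by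
  unfold Rep at *
  rw [map_add, h, h', toC_add]

theorem Rep.zsmul {v : V2 M} {y : Additive (Gamma0 M) →+ ℤ} (h : Rep M v y) (a : ℤ) :
    Rep M ((a : ℂ) • v) (a • y) := by
  unfold Rep at *
  rw [map_smul, h, toC_zsmul]

theorem Rep.heckePair {v : V2 M} {y : Additive (Gamma0 M) →+ ℤ} (h : Rep M v y)
    (ℓ : Nat.Primes) : Rep M (helper26.heckePair M ℓ v) (helper26.heckeHom M ℓ y) := by
  unfold Rep at *
  rw [helper26.periodHomPair_heckePair, h, heckeHom_toC]

/-- **equivariance**: if `v` represents `y ∈ Lat M` then `P v` represents `P y`, for every Hecke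
polynomial `P`. -/
theorem rep_act (ho : HeckeOps M) (P : HeckeAlg) :
    ∀ (v : V2 M) (y : Lat M), Rep M v (y : Additive (Gamma0 M) →+ ℤ) →
      Rep M (helper26.evalPair M P v) ((ho.act P y : Lat M) : Additive (Gamma0 M) →+ ℤ) := by
  induction P using MvPolynomial.induction_on with
  | C a =>
    intro v y h
    rw [helper26.evalPair_C, ho.act_C]
    exact h.zsmul a
  | add P Q hP hQ =>
    intro v y h
    rw [helper26.evalPair_add, ho.act_add]
    exact (hP v y h).add (hQ v y h)
  | mul_X P ℓ hP =>
    intro v y h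
    rw [helper26.evalPair_mul_X, ho.act_mul, ho.act_X]
    have h1 : Rep M (helper26.heckePair M ℓ v) ((ho.T ℓ y : Lat M) : Additive (Gamma0 M) →+ ℤ) := by
      rw [ho.T_coe]
      exact h.heckePair ℓ
    exact hP _ _ h1

end Fermat.Agent.P6.helper16
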