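import Mathlib
import Fermat.Agent.P6.helper16_LiftPsi

/-!
# P6 / S41 [LIFT] (helper16), part 2: the two annihilator ideals

For a set `B` of integral parabolic classes of level `M`:
* `annJ ho B` : the ideal of Hecke polynomials killing `B`;
* `annI B` : the ideal of the complex Hecke algebra `S49.heckeAlgC M` killing the pairs of cusp
  forms representing the classes in `B`;
* `iotaQ : HeckeAlg ⧸ annJ →+* heckeAlgC M ⧸ annI` is injective;
* `HeckeAlg ⧸ annJ` is integral over `ℤ` when `Lat M` is finitely generated.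
-/

set_option autoImplicit false
set_option linter.unusedSectionVars false

open CongruenceSubgroup ModularCurve ModularCurve.Period CuspForm ModularFormClass
open scoped MatrixGroups

noncomputable section

namespace Fermat.Agent.P6.helper16

open Fermat.Agent.S16 Fermat.Agent.P3.helper16 Fermat.Agent.P6.helper4 Fermat.Agent.S49

variable {M : ℕ} [NeZero M] (ho : HeckeOps M) (B : Set (Lat M))

omit [NeZero M] in
theorem act_one : ho.act 1 = 1 := by
  rw [← MvPolynomial.C_1, ho.act_C, one_smul]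

omit [NeZero M] in
theorem act_zero : ho.act 0 = 0 := by
  rw [← MvPolynomial.C_0, ho.act_C, zero_smul]

/-- the action of Hecke polynomials on the parabolic lattice, as a ring homomorphism -/
def actHom : HeckeAlg →+* Module.End ℤ (Lat M) where
  toFun := ho.act
  map_one' := act_one ho
  map_mul' := ho.act_mul
  map_zero' := act_zero ho
  map_add' := ho.act_add

omit [NeZero M] in
@[simp] theorem actHom_apply (P : HeckeAlg) : actHom ho P = ho.act P := rfl

/-- the ideal of Hecke polynomials killing `B` -/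
def annJ : Ideal HeckeAlg where
  carrier := {P | ∀ y ∈ B, ho.act P y = 0}
  add_mem' := by
    intro P Q hP hQ y hy
    rw [ho.act_add, LinearMap.add_apply, hP y hy, hQ y hy, add_zero]
  zero_mem' := by
    intro y _
    rw [act_zero, LinearMap.zero_apply]
  smul_mem' := by
    intro Q P hP y hy
    rw [smul_eq_mul, ho.act_mul, Module.End.mul_apply, hP y hy, map_zero]

omit [NeZero M] in
theorem mem_annJ {P : HeckeAlg} : P ∈ annJ ho B ↔ ∀ y ∈ B, ho.act P y = 0 := Iff.rfl

/-- the ideal of the complex Hecke algebra killing the cusp forms representing `B` -/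
def annI : Ideal (heckeAlgC M) where
  carrier := {T | ∀ y ∈ B, ∀ v : V2 M, Rep M v ((y : Lat M) : Additive (Gamma0 M) →+ ℤ) →
    (T : Module.End ℂ (CuspForm (Gamma0 M) 2)) v.1 = 0 ∧
      (T : Module.End ℂ (CuspForm (Gamma0 M) 2)) v.2 = 0}
  add_mem' := by
    intro S T hS hT y hy v hv
    obtain ⟨h1, h2⟩ := hS y hy v hv
    obtain ⟨h3, h4⟩ := hT y hy v hv
    have e : ((S + T : heckeAlgC M) : Module.End ℂ (CuspForm (Gamma0 M) 2)) =
        (S : Module.End ℂ (CuspForm (Gamma0 M) 2)) + T := rfl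
    rw [e, LinearMap.add_apply, LinearMap.add_apply, h1, h2, h3, h4, add_zero]
    exact ⟨rfl, rfl⟩
  zero_mem' := by
    intro y _ v _
    have e : ((0 : heckeAlgC M) : Module.End ℂ (CuspForm (Gamma0 M) 2)) = 0 := rfl
    rw [e, LinearMap.zero_apply, LinearMap.zero_apply]
    exact ⟨rfl, rfl⟩
  smul_mem' := by
    intro S T hT y hy v hv
    obtain ⟨h1, h2⟩ := hT y hy v hv
    have e : ((S • T : heckeAlgC M) : Module.End ℂ (CuspForm (Gamma0 M) 2)) =
        (S : Module.End ℂ (CuspForm (Gamma0 M) 2)) * T := rfl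
    rw [e, Module.End.mul_apply, Module.End.mul_apply, h1, h2, map_zero]
    exact ⟨rfl, rfl⟩

theorem mem_annI {T : heckeAlgC M} : T ∈ annI B ↔
    ∀ y ∈ B, ∀ v : V2 M, Rep M v ((y : Lat M) : Additive (Gamma0 M) →+ ℤ) →
      (T : Module.End ℂ (CuspForm (Gamma0 M) 2)) v.1 = 0 ∧
        (T : Module.End ℂ (CuspForm (Gamma0 M) 2)) v.2 = 0 := Iff.rfl

/-- Hecke polynomials in the complex Hecke algebra -/
def iota0 (M : ℕ) [NeZero M] : HeckeAlg →+* heckeAlgC M :=
  (heckeIncl M).comp (heckeEvalForms M 2)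

theorem coe_iota0 (P : HeckeAlg) :
    ((iota0 M P : heckeAlgC M) : Module.End ℂ (CuspForm (Gamma0 M) 2)) =
      (heckeEvalForms M 2 P : Module.End ℂ (CuspForm (Gamma0 M) 2)) :=
  heckeIncl_val M _

theorem iota0_mem_annI_iff (P : HeckeAlg) :
    iota0 M P ∈ annI B ↔
      ∀ y ∈ B, ∀ v : V2 M, Rep M v ((y : Lat M) : Additive (Gamma0 M) →+ ℤ) →
        helper26.evalPair M P v = 0 := by
  rw [mem_annI]
  refine forall_congr' fun y => forall_congr' fun _ => forall_congr' fun v =>
    forall_congr' fun _ => ?_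
  rw [coe_iota0]
  unfold helper26.evalPair
  rw [Prod.mk_eq_zero]

theorem annJ_le_comap : annJ ho B ≤ (annI B).comap (iota0 M) := by
  intro P hP
  rw [Ideal.mem_comap, iota0_mem_annI_iff]
  intro y hy v hv
  have h1 := rep_act ho P v y hv
  rw [hP y hy] at h1
  exact h1.eq_zero_of_zero

theorem comap_le_annJ : (annI B).comap (iota0 M) ≤ annJ ho B := by
  intro P hP
  rw [Ideal.mem_comap, iota0_mem_annI_iff] at hP
  intro y hy
  obtain ⟨v, hv⟩ := exists_rep M y.2
  have h1 := rep_act ho P v y hv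
  rw [hP y hy v hv] at h1
  exact Subtype.ext h1.zero_of_eq_zero

/-- the comparison map between the two quotients -/
def iotaQ : (HeckeAlg ⧸ annJ ho B) →+* (heckeAlgC M ⧸ annI B) :=
  Ideal.quotientMap (annI B) (iota0 M) (annJ_le_comap ho B)

theorem iotaQ_mk (P : HeckeAlg) :
    iotaQ ho B (Ideal.Quotient.mk _ P) = Ideal.Quotient.mk _ (iota0 M P) := rfl

theorem iotaQ_injective : Function.Injective (iotaQ ho B) :=
  Ideal.quotientMap_injective' (comap_le_annJ ho B)

/-- `HeckeAlg ⧸ annJ` is integral over `ℤ` -/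
theorem isIntegral_quot [Module.Finite ℤ (Lat M)] :
    @Algebra.IsIntegral ℤ (HeckeAlg ⧸ annJ ho B) _ _ (Ring.toIntAlgebra (HeckeAlg ⧸ annJ ho B)) := by
  letI : Algebra ℤ (HeckeAlg ⧸ annJ ho B) := Ring.toIntAlgebra _
  refine ⟨fun x => ?_⟩
  obtain ⟨P, rfl⟩ := Ideal.Quotient.mk_surjective x
  obtain ⟨F, hmonic, hF⟩ := Algebra.IsIntegral.isIntegral (R := ℤ) (actHom ho P)
  refine ⟨F, hmonic, ?_⟩
  have e1 : algebraMap ℤ (Module.End ℤ (Lat M)) =
      (actHom ho).comp (algebraMap ℤ HeckeAlg) := RingHom.ext_int _ _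
  have e2 : algebraMap ℤ (HeckeAlg ⧸ annJ ho B) =
      (Ideal.Quotient.mk (annJ ho B)).comp (algebraMap ℤ HeckeAlg) := RingHom.ext_int _ _
  have h1 := Polynomial.hom_eval₂ F (algebraMap ℤ HeckeAlg) (actHom ho) P
  rw [← e1, hF] at h1
  have h2 := Polynomial.hom_eval₂ F (algebraMap ℤ HeckeAlg) (Ideal.Quotient.mk (annJ ho B)) P
  rw [← e2] at h2
  rw [← h2, Ideal.Quotient.eq_zero_iff_mem]
  intro y _
  have h3 : ho.act (Polynomial.eval₂ (algebraMap ℤ HeckeAlg) P F) = 0 := h1
  rw [h3, LinearMap.zero_apply]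

/-- ring homomorphisms preserve integrality over `ℤ` -/
theorem isIntegral_int_map {R S : Type*} [CommRing R] [CommRing S] (θ : R →+* S) {x : R}
    (hx : @IsIntegral ℤ R _ _ (Ring.toIntAlgebra R) x) : IsIntegral ℤ (θ x) := by
  letI : Algebra ℤ R := Ring.toIntAlgebra _
  obtain ⟨F, hmonic, hF⟩ := hx
  refine ⟨F, hmonic, ?_⟩
  have e : algebraMap ℤ S = θ.comp (algebraMap ℤ R) := RingHom.ext_int _ _
  have h := Polynomial.hom_eval₂ F (algebraMap ℤ R) θ x
  rw [← e, hF, map_zero] at h
  exact h.symm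

end Fermat.Agent.P6.helper16
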