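import Mathlib
import Fermat.Agent.P6.helper16_LiftAlg

/-!
# P6 / S41 [LIFT] (helper16), part 3: `lift_of : HB3Statement → FinStatement → LiftStatement`

Deligne-Serre lifting on the `q`-new parabolic lattice `B = ker b1 ∩ ker b2`:
the character `T_ℓ ↦ a_ℓ(W) mod p` of the Hecke polynomials in the good primes factors through
`HeckeAlg ⧸ annJ` (hypothesis), `HeckeAlg ⧸ annJ` embeds into the finite-dimensional algebra
`heckeAlgC ⧸ annI`, and a character of the latter is a normalised eigenform (S49) killed by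
`X_q² - 1` (HB3).
-/

set_option autoImplicit false
set_option linter.unusedSectionVars false
set_option linter.style.haveILetI false

open CongruenceSubgroup ModularCurve ModularCurve.Period CuspForm ModularFormClass
open scoped MatrixGroups

noncomputable section

namespace Fermat.Agent.P6.helper16

open Fermat.Agent.S16 Fermat.Agent.P3.helper16 Fermat.Agent.P6.helper4 Fermat.Agent.S49

variable {M : ℕ} [NeZero M]

/-- the eigenvalue of `U_q` is the `q`-th coefficient -/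
theorem qCoeff_prime_of_eigen_dvd (χ : heckeAlgC M →ₐ[ℂ] ℂ)
    (g : CuspForm (Gamma0 M) 2) (hg1 : qCoeff ⇑g 1 = 1)
    (hg : ∀ T : heckeAlgC M, (T : Module.End ℂ (CuspForm (Gamma0 M) 2)) g = χ T • g)
    {ℓ : ℕ} (hℓ : ℓ.Prime) (hℓM : ℓ ∣ M) :
    qCoeff ⇑g ℓ = χ (heckeIncl M (CuspForm.heckeAlgebra.U hℓ hℓM (Set.notMem_empty _))) := by
  have h1 := hg (heckeIncl M (CuspForm.heckeAlgebra.U hℓ hℓM (Set.notMem_empty _)))
  have h2 : qCoeff ⇑(CuspForm.heckeULin 2 hℓM g) 1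
      = χ (heckeIncl M (CuspForm.heckeAlgebra.U hℓ hℓM (Set.notMem_empty _))) * qCoeff ⇑g 1 := by
    rw [← qc_smul]
    exact congrArg (fun f : CuspForm (Gamma0 M) 2 => qCoeff ⇑f 1) h1
  rw [qc_heckeU hℓ hℓM, one_mul, hg1, mul_one] at h2
  exact h2

/-- **[LIFT+P]** from `HB3` and the finiteness of the parabolic lattices. -/
theorem lift_of (hb3 : HB3Statement) (hfin : FinStatement) : LiftStatement := by
  intro W p N q hp _hp2 hN hq hqN _hqp ho H
  have hM : 0 < N * q := Nat.mul_pos hN hq.pos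
  haveI : NeZero (N * q) := ⟨hM.ne'⟩
  haveI : Fact p.Prime := ⟨hp⟩
  haveI : Module.Finite ℤ (Lat (N * q)) := hfin (N * q) hM
  -- the `q`-new lattice
  set B : Set (Lat (N * q)) :=
    {y | b1 N q ℤ (y : Additive (Gamma0 (N * q)) →+ ℤ) = 0 ∧
      b2 N q hq.ne_zero ℤ (y : Additive (Gamma0 (N * q)) →+ ℤ) = 0} with hB
  have hintJ : @Algebra.IsIntegral ℤ (HeckeAlg ⧸ annJ ho B) _ _
      (Ring.toIntAlgebra (HeckeAlg ⧸ annJ ho B)) := isIntegral_quot ho B
  -- the good primes and the character `a_ℓ(W) mod p`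
  set Sg : Set Nat.Primes := {ℓ | GoodPrime W N q p ℓ} with hSg
  set a : Nat.Primes → ℤ := fun ℓ => W.apOfModel ℓ with ha
  set RS : Subalgebra ℤ HeckeAlg := MvPolynomial.supported ℤ Sg with hRS
  let φ₀ : RS →+* ZMod p :=
    (Int.castRingHom (ZMod p)).comp ((MvPolynomial.eval a).comp RS.val.toRingHom)
  let f : RS →+* (HeckeAlg ⧸ annJ ho B) := (Ideal.Quotient.mk (annJ ho B)).comp RS.val.toRingHom
  have hφ₀ : ∀ P : RS, φ₀ P = ((MvPolynomial.eval a (P : HeckeAlg) : ℤ) : ZMod p) := fun P => rfl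
  have hf : ∀ P : RS, f P = Ideal.Quotient.mk (annJ ho B) (P : HeckeAlg) := fun P => rfl
  have hker : RingHom.ker f ≤ RingHom.ker φ₀ := by
    intro P hP
    rw [RingHom.mem_ker, hf, Ideal.Quotient.eq_zero_iff_mem] at hP
    have h2 := H (P : HeckeAlg)
      (fun ℓ hℓ => (MvPolynomial.mem_supported.mp P.2) (Finset.mem_coe.mpr hℓ))
      (fun y hy1 hy2 => hP y ⟨hy1, hy2⟩)
    rw [RingHom.mem_ker, hφ₀]
    exact (ZMod.intCast_zmod_eq_zero_iff_dvd _ _).mpr h2
  have hne : RingHom.ker φ₀ ≠ ⊤ := RingHom.ker_ne_top φ₀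
  obtain ⟨𝔪T, hmaxT, hleT⟩ := exists_maximal_ideal_map_le f (RingHom.ker φ₀) hne hker
  haveI : 𝔪T.IsPrime := hmaxT.isPrime
  -- the character of the complex quotient
  haveI : FiniteDimensional ℂ (heckeAlgC (N * q)) :=
    FiniteDimensional.of_injective (heckeRep (N * q)).toLinearMap (heckeRep_injective (N * q))
  haveI : FiniteDimensional ℂ (heckeAlgC (N * q) ⧸ annI B) :=
    Module.Finite.of_surjective (Ideal.Quotient.mkₐ ℂ (annI B)).toLinearMap
      (Ideal.Quotient.mkₐ_surjective ℂ (annI B))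
  obtain ⟨χB, hχB⟩ := exists_algHom_ker_le (K := ℂ) (iotaQ ho B) (iotaQ_injective ho B) 𝔪T
  set χ : heckeAlgC (N * q) →ₐ[ℂ] ℂ := χB.comp (Ideal.Quotient.mkₐ ℂ (annI B)) with hχ
  obtain ⟨g, hg1, hg⟩ := exists_eigenform_of_character χ
  have hgN := isNormalizedEigenform_of_eigen χ g hg1 hg
  -- the integral character
  let θ : (HeckeAlg ⧸ annJ ho B) →+* ℂ := (χB : _ →+* ℂ).comp (iotaQ ho B)
  have hθmk : ∀ P : HeckeAlg, θ (Ideal.Quotient.mk _ P) = χ (iota0 (N * q) P) := fun P => rfl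
  have hint : ∀ x, IsIntegral ℤ (θ x) := fun x =>
    isIntegral_int_map θ (hintJ.isIntegral x)
  let θ' : (HeckeAlg ⧸ annJ ho B) →+* integralClosure ℤ ℂ :=
    θ.codRestrict (integralClosure ℤ ℂ) hint
  have hθ' : ∀ x, ((θ' x : integralClosure ℤ ℂ) : ℂ) = θ x := fun x => rfl
  obtain ⟨𝔪', hmax', hle'⟩ := exists_maximal_ideal_map_le θ' 𝔪T hmaxT.ne_top
    (fun x hx => hχB x (by
      have h1 : θ' x = 0 := hx
      have h2 : ((θ' x : integralClosure ℤ ℂ) : ℂ) = ((0 : integralClosure ℤ ℂ) : ℂ) :=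
        congrArg (fun z : integralClosure ℤ ℂ => (z : ℂ)) h1
      rw [hθ'] at h2
      exact h2))
  -- elements of the kernel of `φ₀`
  have hCmem : ∀ n : ℤ, (MvPolynomial.C n : HeckeAlg) ∈ RS := fun n =>
    RS.algebraMap_mem n
  have hXmem : ∀ ℓ : Nat.Primes, ℓ ∈ Sg → (MvPolynomial.X ℓ : HeckeAlg) ∈ RS := fun ℓ hℓ =>
    MvPolynomial.X_mem_supported.mpr hℓ
  have hθ'C : ∀ n : ℤ, θ' (Ideal.Quotient.mk _ (MvPolynomial.C n : HeckeAlg)) =
      (n : integralClosure ℤ ℂ) := by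
    intro n
    rw [eq_intCast (MvPolynomial.C : ℤ →+* HeckeAlg) n, map_intCast, map_intCast]
  refine ⟨g, 𝔪', hgN, hmax', ?_, ?_, ?_⟩
  · -- `p ∈ 𝔪'`
    have h1 : (⟨MvPolynomial.C (p : ℤ), hCmem p⟩ : RS) ∈ RingHom.ker φ₀ := by
      rw [RingHom.mem_ker, hφ₀]
      simp
    have h2 := hle' _ (hleT _ h1)
    rw [hf, hθ'C] at h2
    simpa using h2
  · -- the congruences
    intro ℓ hℓ hgood hℓM hℓp
    set ℓ' : Nat.Primes := ⟨ℓ, hℓ⟩ with hℓ'
    have hℓSg : ℓ' ∈ Sg := ⟨hgood, hℓM, hℓp⟩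
    refine ⟨θ' (Ideal.Quotient.mk _ (MvPolynomial.X ℓ' : HeckeAlg)), ?_, ?_⟩
    · rw [hθ', hθmk, qCoeff_prime_of_eigen χ g hg1 hg hℓ hℓM]
      congr 1
      unfold iota0
      rw [RingHom.comp_apply]
      congr 1
      exact heckeEvalForms_heckeGen_of_not_dvd (N := N * q) (k := 2) (ℓ := ℓ') hℓM
    · have h1 : (⟨MvPolynomial.X ℓ' - MvPolynomial.C (a ℓ'),
          RS.sub_mem (hXmem ℓ' hℓSg) (hCmem _)⟩ : RS) ∈ RingHom.ker φ₀ := by
        rw [RingHom.mem_ker, hφ₀]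
        simp
      have h2 := hle' _ (hleT _ h1)
      rw [hf] at h2
      have h3 : θ' (Ideal.Quotient.mk (annJ ho B) (MvPolynomial.X ℓ' - MvPolynomial.C (a ℓ'))) =
          θ' (Ideal.Quotient.mk _ (MvPolynomial.X ℓ' : HeckeAlg)) -
            ((W.apOfModel ℓ : ℤ) : integralClosure ℤ ℂ) := by
        rw [map_sub, map_sub, hθ'C]
      rw [h3] at h2
      exact h2
  · -- `a_q(g)² = 1`
    show qCoeff ⇑g q ^ 2 = 1
    set q' : Nat.Primes := ⟨q, hq⟩ with hq'
    have hqM : q ∣ N * q := Dvd.intro_left N rfl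
    have h1 : qCoeff ⇑g q = θ (Ideal.Quotient.mk _ (MvPolynomial.X q' : HeckeAlg)) := by
      rw [hθmk, qCoeff_prime_of_eigen_dvd χ g hg1 hg hq hqM]
      congr 1
      unfold iota0
      rw [RingHom.comp_apply]
      congr 1
      exact (heckeEvalForms_heckeGen_of_dvd (N := N * q) (k := 2) (q := q') hqM).symm
    have h2 : (MvPolynomial.X q' * MvPolynomial.X q' + MvPolynomial.C (-1) : HeckeAlg) ∈
        annJ ho B := by
      intro y hy
      have h3 : ((ho.T q' (ho.T q' y) : Lat (N * q)) : Additive (Gamma0 (N * q)) →+ ℤ) =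
          (y : Additive (Gamma0 (N * q)) →+ ℤ) := by
        rw [ho.T_coe, ho.T_coe]
        exact hb3 N q hq.ne_zero hN hq hqN _ hy.1 hy.2
      have h3' : ho.T q' (ho.T q' y) = y := Subtype.ext h3
      have h6 : ho.act (MvPolynomial.C (-1)) y = -y := by
        rw [ho.act_C, LinearMap.smul_apply, Module.End.one_apply, neg_smul, one_smul]
      rw [ho.act_add, ho.act_mul, ho.act_X, LinearMap.add_apply, Module.End.mul_apply, h6, h3',
        add_neg_cancel]
    have h4 : θ (Ideal.Quotient.mk (annJ ho B)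
        (MvPolynomial.X q' * MvPolynomial.X q' + MvPolynomial.C (-1) : HeckeAlg)) = 0 := by
      rw [Ideal.Quotient.eq_zero_iff_mem.mpr h2, map_zero]
    simp only [map_add, map_mul] at h4
    have h5 : θ (Ideal.Quotient.mk (annJ ho B) (MvPolynomial.C (-1) : HeckeAlg)) = -1 := by
      rw [eq_intCast (MvPolynomial.C : ℤ →+* HeckeAlg) (-1), map_intCast, map_intCast]
      simp
    rw [h5, ← h1] at h4
    linear_combination h4

end Fermat.Agent.P6.helper16
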