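import Mathlib

/-!
# P6 / S41, step (I1) (helper77): Ihara's amalgam, part 1 — the two embeddings and the ping-pong

`q` a prime, `N` prime to `q`.  Inside `SL(2, ℚ)`:

* `iotaQ : SL(2, ℤ) →* SL(2, ℚ)` the coercion,
* `kappaQ q : SL(2, ℤ) →* SL(2, ℚ)`, `γ ↦ g⁻¹ γ g = [[a, b / q], [q c, d]]` (`g = diag(q, 1)`),
* `jOne N q : Γ₀(N q) →* Γ₀(N)` the inclusion,
  `jTwo N q : Γ₀(N q) →* Γ₀(N)`, `[[a, b], [c, d]] ↦ [[a, q b], [c / q, d]]` (conjugation by `g`),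
  so that `iotaQ ∘ jOne = kappaQ ∘ jTwo`.

The main result of this file is the **ping-pong** (`eval_mem_range_iota`): a reduced alternating
word in `ι(Γ₀(N) \ Γ₀(N q))` and `κ(Γ₀(N) \ jTwo Γ₀(N q))` has `q`-height equal to the number
of its `κ`-letters; hence the canonical map from the amalgamated product
`Γ₀(N) *_{Γ₀(N q)} Γ₀(N)` to `SL(2, ℚ)` is injective (`amalgamMap_injective`).
-/

set_option autoImplicit false

open Matrix MatrixGroups CongruenceSubgroup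

namespace Fermat.Agent.P6.helper77

/-! ### The two embeddings of `SL(2, ℤ)` -/

/-- the coercion `SL(2, ℤ) → SL(2, ℚ)` -/
abbrev iotaQ : SL(2, ℤ) →* SL(2, ℚ) := Matrix.SpecialLinearGroup.map (Int.castRingHom ℚ)

theorem iotaQ_apply (γ : SL(2, ℤ)) (i j : Fin 2) :
    (iotaQ γ : Matrix (Fin 2) (Fin 2) ℚ) i j = ((γ i j : ℤ) : ℚ) := by
  simp

theorem iotaQ_injective : Function.Injective iotaQ := by
  intro γ γ' h
  apply Matrix.SpecialLinearGroup.ext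
  intro i j
  have := congrArg (fun M : SL(2, ℚ) => (M : Matrix (Fin 2) (Fin 2) ℚ) i j) h
  simp only [iotaQ_apply] at this
  exact_mod_cast this

theorem sl2_det_eq (γ : SL(2, ℤ)) : (γ 0 0 : ℤ) * γ 1 1 - γ 0 1 * γ 1 0 = 1 := by
  have := γ.det_coe
  rwa [Matrix.det_fin_two] at this

/-- the underlying matrix of `κ(γ)` -/
def kappaMat (q : ℕ) (γ : SL(2, ℤ)) : Matrix (Fin 2) (Fin 2) ℚ :=
  !![(γ 0 0 : ℚ), (γ 0 1 : ℚ) / q; (q : ℚ) * (γ 1 0 : ℚ), (γ 1 1 : ℚ)]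

theorem kappaMat_det (q : ℕ) (hq : q ≠ 0) (γ : SL(2, ℤ)) : (kappaMat q γ).det = 1 := by
  have hq' : (q : ℚ) ≠ 0 := by exact_mod_cast hq
  have h := sl2_det_eq γ
  have h' : ((γ 0 0 : ℤ) : ℚ) * γ 1 1 - γ 0 1 * γ 1 0 = 1 := by exact_mod_cast h
  rw [kappaMat, Matrix.det_fin_two_of]
  field_simp
  linarith

theorem kappaMat_one (q : ℕ) : kappaMat q 1 = 1 := by
  ext i j
  fin_cases i <;> fin_cases j <;> simp [kappaMat]

theorem sl2_mul_apply (γ γ' : SL(2, ℤ)) (i j : Fin 2) :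
    ((γ * γ' : SL(2, ℤ)) i j : ℤ) = γ i 0 * γ' 0 j + γ i 1 * γ' 1 j := by
  rw [Matrix.SpecialLinearGroup.coe_mul, Matrix.mul_apply, Fin.sum_univ_two]

theorem kappaMat_mul (q : ℕ) (hq : q ≠ 0) (γ γ' : SL(2, ℤ)) :
    kappaMat q (γ * γ') = kappaMat q γ * kappaMat q γ' := by
  have hq' : (q : ℚ) ≠ 0 := by exact_mod_cast hq
  ext i j
  fin_cases i <;> fin_cases j <;>
    simp [kappaMat, Matrix.mul_apply, Fin.sum_univ_two, sl2_mul_apply] <;> field_simp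

/-- `κ : SL(2, ℤ) → SL(2, ℚ)`, `γ ↦ g⁻¹ γ g`, `g = diag(q, 1)` -/
def kappaQ (q : ℕ) (hq : q ≠ 0) : SL(2, ℤ) →* SL(2, ℚ) where
  toFun γ := ⟨kappaMat q γ, kappaMat_det q hq γ⟩
  map_one' := Subtype.ext (kappaMat_one q)
  map_mul' γ γ' := Subtype.ext (kappaMat_mul q hq γ γ')

theorem kappaQ_apply (q : ℕ) (hq : q ≠ 0) (γ : SL(2, ℤ)) :
    (kappaQ q hq γ : Matrix (Fin 2) (Fin 2) ℚ) = kappaMat q γ := rfl

theorem kappaMat_apply_zero_zero (q : ℕ) (γ : SL(2, ℤ)) : kappaMat q γ 0 0 = (γ 0 0 : ℚ) := rfl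
theorem kappaMat_apply_zero_one (q : ℕ) (γ : SL(2, ℤ)) :
    kappaMat q γ 0 1 = (γ 0 1 : ℚ) / q := rfl
theorem kappaMat_apply_one_zero (q : ℕ) (γ : SL(2, ℤ)) :
    kappaMat q γ 1 0 = (q : ℚ) * (γ 1 0 : ℚ) := rfl
theorem kappaMat_apply_one_one (q : ℕ) (γ : SL(2, ℤ)) : kappaMat q γ 1 1 = (γ 1 1 : ℚ) := rfl

theorem kappaQ_injective (q : ℕ) (hq : q ≠ 0) : Function.Injective (kappaQ q hq) := by
  have hq' : (q : ℚ) ≠ 0 := by exact_mod_cast hq
  intro γ γ' h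
  have h' : kappaMat q γ = kappaMat q γ' := congrArg Subtype.val h
  apply Matrix.SpecialLinearGroup.ext
  intro i j
  have e := fun i j => congrFun (congrFun h' i) j
  fin_cases i <;> fin_cases j
  · have := e 0 0
    rw [kappaMat_apply_zero_zero, kappaMat_apply_zero_zero] at this
    exact_mod_cast this
  · have := e 0 1
    rw [kappaMat_apply_zero_one, kappaMat_apply_zero_one, div_left_inj' hq'] at this
    exact_mod_cast this
  · have := e 1 0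
    rw [kappaMat_apply_one_zero, kappaMat_apply_one_zero] at this
    have := mul_left_cancel₀ hq' this
    exact_mod_cast this
  · have := e 1 1
    rw [kappaMat_apply_one_one, kappaMat_apply_one_one] at this
    exact_mod_cast this

/-! ### The two maps `Γ₀(N q) → Γ₀(N)` -/

theorem gamma0_mem_iff_dvd {N : ℕ} {γ : SL(2, ℤ)} : γ ∈ Gamma0 N ↔ (N : ℤ) ∣ γ 1 0 := by
  rw [Gamma0_mem, ZMod.intCast_zmod_eq_zero_iff_dvd]

theorem gamma0_mul_le (N q : ℕ) : Gamma0 (N * q) ≤ Gamma0 N := by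
  intro γ hγ
  rw [gamma0_mem_iff_dvd] at hγ ⊢
  exact dvd_trans ⟨(q : ℤ), by push_cast; ring⟩ hγ

/-- `j₁ : Γ₀(N q) → Γ₀(N)`, the inclusion -/
def jOne (N q : ℕ) : Gamma0 (N * q) →* Gamma0 N := Subgroup.inclusion (gamma0_mul_le N q)

theorem jOne_coe (N q : ℕ) (γ : Gamma0 (N * q)) : ((jOne N q γ : Gamma0 N) : SL(2, ℤ)) = γ := rfl

theorem jOne_injective (N q : ℕ) : Function.Injective (jOne N q) :=
  Subgroup.inclusion_injective _

theorem dvd_of_mem_gamma0_mul {N q : ℕ} {γ : SL(2, ℤ)} (hγ : γ ∈ Gamma0 (N * q)) :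
    (q : ℤ) ∣ γ 1 0 := by
  rw [gamma0_mem_iff_dvd] at hγ
  exact dvd_trans ⟨(N : ℤ), by push_cast; ring⟩ hγ

/-- the underlying matrix of `j₂(γ)`: `[[a, q b], [c / q, d]]` -/
def jTwoMat (q : ℕ) (γ : SL(2, ℤ)) : Matrix (Fin 2) (Fin 2) ℤ :=
  !![γ 0 0, (q : ℤ) * γ 0 1; γ 1 0 / (q : ℤ), γ 1 1]

theorem jTwoMat_det (q : ℕ) (γ : SL(2, ℤ)) (h : (q : ℤ) ∣ γ 1 0) : (jTwoMat q γ).det = 1 := by
  have h1 := sl2_det_eq γ
  rw [jTwoMat, Matrix.det_fin_two_of]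
  have h2 : (q : ℤ) * (γ 1 0 / (q : ℤ)) = γ 1 0 := Int.mul_ediv_cancel' h
  calc (γ 0 0 : ℤ) * γ 1 1 - (q : ℤ) * γ 0 1 * (γ 1 0 / (q : ℤ))
      = γ 0 0 * γ 1 1 - γ 0 1 * ((q : ℤ) * (γ 1 0 / (q : ℤ))) := by ring
    _ = 1 := by rw [h2, h1]

/-- `j₂` as an element of `SL(2, ℤ)` -/
def jTwoSL (q : ℕ) (γ : SL(2, ℤ)) (h : (q : ℤ) ∣ γ 1 0) : SL(2, ℤ) :=
  ⟨jTwoMat q γ, jTwoMat_det q γ h⟩

theorem jTwoSL_mem (N q : ℕ) (hq : q ≠ 0) (γ : SL(2, ℤ)) (hγ : γ ∈ Gamma0 (N * q)) :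
    jTwoSL q γ (dvd_of_mem_gamma0_mul hγ) ∈ Gamma0 N := by
  rw [gamma0_mem_iff_dvd] at hγ ⊢
  obtain ⟨t, ht⟩ := hγ
  have hq' : (q : ℤ) ≠ 0 := by exact_mod_cast hq
  show (N : ℤ) ∣ (γ 1 0 : ℤ) / (q : ℤ)
  rw [ht]
  refine ⟨t, ?_⟩
  push_cast
  rw [show (N : ℤ) * (q : ℤ) * t = (q : ℤ) * ((N : ℤ) * t) by ring,
    Int.mul_ediv_cancel_left _ hq']

theorem kappaQ_jTwoSL (q : ℕ) (hq : q ≠ 0) (γ : SL(2, ℤ)) (h : (q : ℤ) ∣ γ 1 0) :
    kappaQ q hq (jTwoSL q γ h) = iotaQ γ := by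
  have hq' : (q : ℚ) ≠ 0 := by exact_mod_cast hq
  have h2 : ((q : ℤ) : ℚ) * (((γ 1 0 / (q : ℤ) : ℤ)) : ℚ) = ((γ 1 0 : ℤ) : ℚ) := by
    have := Int.mul_ediv_cancel' h
    exact_mod_cast this
  apply Matrix.SpecialLinearGroup.ext
  intro i j
  rw [iotaQ_apply, kappaQ_apply]
  fin_cases i <;> fin_cases j
  · rfl
  · show (((q : ℤ) * γ 0 1 : ℤ) : ℚ) / (q : ℚ) = ((γ 0 1 : ℤ) : ℚ)
    push_cast
    field_simp
  · show (q : ℚ) * (((γ 1 0 / (q : ℤ) : ℤ)) : ℚ) = ((γ 1 0 : ℤ) : ℚ)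
    exact_mod_cast h2
  · rfl

/-- `j₂` as a function -/
def jTwoFun (N q : ℕ) (hq : q ≠ 0) (γ : Gamma0 (N * q)) : Gamma0 N :=
  ⟨jTwoSL q γ (dvd_of_mem_gamma0_mul γ.2), jTwoSL_mem N q hq γ γ.2⟩

theorem kappaQ_jTwoFun (N q : ℕ) (hq : q ≠ 0) (γ : Gamma0 (N * q)) :
    kappaQ q hq (jTwoFun N q hq γ : SL(2, ℤ)) = iotaQ (γ : SL(2, ℤ)) :=
  kappaQ_jTwoSL q hq γ (dvd_of_mem_gamma0_mul γ.2)

/-- `j₂ : Γ₀(N q) → Γ₀(N)`, `[[a, b], [c, d]] ↦ [[a, q b], [c / q, d]]`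
(conjugation by `g = diag(q, 1)`) -/
def jTwo (N q : ℕ) (hq : q ≠ 0) : Gamma0 (N * q) →* Gamma0 N where
  toFun := jTwoFun N q hq
  map_one' := by
    apply Subtype.ext
    apply kappaQ_injective q hq
    rw [kappaQ_jTwoFun]
    simp
  map_mul' γ γ' := by
    apply Subtype.ext
    apply kappaQ_injective q hq
    rw [kappaQ_jTwoFun, Subgroup.coe_mul, map_mul, Subgroup.coe_mul, map_mul, kappaQ_jTwoFun,
      kappaQ_jTwoFun]

theorem kappaQ_jTwo (N q : ℕ) (hq : q ≠ 0) (γ : Gamma0 (N * q)) :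
    kappaQ q hq (jTwo N q hq γ : SL(2, ℤ)) = iotaQ (γ : SL(2, ℤ)) :=
  kappaQ_jTwoFun N q hq γ

theorem jTwo_injective (N q : ℕ) (hq : q ≠ 0) : Function.Injective (jTwo N q hq) := by
  intro γ γ' h
  apply Subtype.ext
  apply iotaQ_injective
  rw [← kappaQ_jTwo N q hq, ← kappaQ_jTwo N q hq, h]

theorem jTwo_apply_zero_one (N q : ℕ) (hq : q ≠ 0) (γ : Gamma0 (N * q)) :
    ((jTwo N q hq γ : SL(2, ℤ)) 0 1 : ℤ) = (q : ℤ) * (γ : SL(2, ℤ)) 0 1 := rfl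

/-- the range of `j₁` inside `Γ₀(N)`: `q ∣ c` -/
theorem mem_range_jOne_iff (N q : ℕ) (hNq : Nat.Coprime N q) (γ : Gamma0 N) :
    γ ∈ (jOne N q).range ↔ (q : ℤ) ∣ (γ : SL(2, ℤ)) 1 0 := by
  constructor
  · rintro ⟨γ', rfl⟩
    exact dvd_of_mem_gamma0_mul γ'.2
  · intro h
    have hN : (N : ℤ) ∣ (γ : SL(2, ℤ)) 1 0 := gamma0_mem_iff_dvd.1 γ.2
    have hcop : IsCoprime (N : ℤ) (q : ℤ) := by exact_mod_cast Nat.isCoprime_iff_coprime.2 hNq
    have : ((N * q : ℕ) : ℤ) ∣ (γ : SL(2, ℤ)) 1 0 := by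
      push_cast
      exact hcop.mul_dvd hN h
    exact ⟨⟨γ, gamma0_mem_iff_dvd.2 this⟩, rfl⟩

/-- the range of `j₂` inside `Γ₀(N)`: `q ∣ b` -/
theorem mem_range_jTwo_iff (N q : ℕ) (hq : q ≠ 0) (γ : Gamma0 N) :
    γ ∈ (jTwo N q hq).range ↔ (q : ℤ) ∣ (γ : SL(2, ℤ)) 0 1 := by
  have hq' : (q : ℤ) ≠ 0 := by exact_mod_cast hq
  constructor
  · rintro ⟨γ', rfl⟩
    rw [jTwo_apply_zero_one]
    exact dvd_mul_right _ _
  · intro h
    have hN : (N : ℤ) ∣ (γ : SL(2, ℤ)) 1 0 := gamma0_mem_iff_dvd.1 γ.2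
    have hdet := sl2_det_eq (γ : SL(2, ℤ))
    have h2 : (q : ℤ) * ((γ : SL(2, ℤ)) 0 1 / (q : ℤ)) = (γ : SL(2, ℤ)) 0 1 :=
      Int.mul_ediv_cancel' h
    -- the preimage `[[a, b / q], [q c, d]]`
    let M : Matrix (Fin 2) (Fin 2) ℤ :=
      !![(γ : SL(2, ℤ)) 0 0, (γ : SL(2, ℤ)) 0 1 / (q : ℤ);
        (q : ℤ) * (γ : SL(2, ℤ)) 1 0, (γ : SL(2, ℤ)) 1 1]
    have hM : M.det = 1 := by
      rw [Matrix.det_fin_two_of]
      calc ((γ : SL(2, ℤ)) 0 0 : ℤ) * (γ : SL(2, ℤ)) 1 1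
            - (γ : SL(2, ℤ)) 0 1 / (q : ℤ) * ((q : ℤ) * (γ : SL(2, ℤ)) 1 0)
          = (γ : SL(2, ℤ)) 0 0 * (γ : SL(2, ℤ)) 1 1
            - ((q : ℤ) * ((γ : SL(2, ℤ)) 0 1 / (q : ℤ))) * (γ : SL(2, ℤ)) 1 0 := by ring
        _ = 1 := by rw [h2, hdet]
    have hmem : (⟨M, hM⟩ : SL(2, ℤ)) ∈ Gamma0 (N * q) := by
      refine gamma0_mem_iff_dvd.2 ?_
      show ((N * q : ℕ) : ℤ) ∣ (q : ℤ) * (γ : SL(2, ℤ)) 1 0
      obtain ⟨t, ht⟩ := hN
      exact ⟨t, by rw [ht]; push_cast; ring⟩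
    refine ⟨⟨⟨M, hM⟩, hmem⟩, ?_⟩
    apply Subtype.ext
    apply Matrix.SpecialLinearGroup.ext
    intro i j
    fin_cases i <;> fin_cases j
    · rfl
    · show (q : ℤ) * ((γ : SL(2, ℤ)) 0 1 / (q : ℤ)) = (γ : SL(2, ℤ)) 0 1
      exact h2
    · show (q : ℤ) * (γ : SL(2, ℤ)) 1 0 / (q : ℤ) = (γ : SL(2, ℤ)) 1 0
      exact Int.mul_ediv_cancel_left _ hq'
    · rfl

/-! ### The two states of the ping-pong -/

/-- state `B` of height `k`: `q ^ k M` is integral, its bottom row is `0` mod `q`, its top row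
is not -/
def StB (q k : ℕ) (M : SL(2, ℚ)) : Prop :=
  ∃ x y z w : ℤ, M 0 0 * (q : ℚ) ^ k = x ∧ M 0 1 * (q : ℚ) ^ k = y ∧
    M 1 0 * (q : ℚ) ^ k = (q : ℚ) * z ∧ M 1 1 * (q : ℚ) ^ k = (q : ℚ) * w ∧
    ¬ ((q : ℤ) ∣ x ∧ (q : ℤ) ∣ y)

/-- state `NB` of height `k`: `q ^ k M` is integral and its bottom row is not `0` mod `q` -/
def StNB (q k : ℕ) (M : SL(2, ℚ)) : Prop :=
  ∃ x y z w : ℤ, M 0 0 * (q : ℚ) ^ k = x ∧ M 0 1 * (q : ℚ) ^ k = y ∧
    M 1 0 * (q : ℚ) ^ k = z ∧ M 1 1 * (q : ℚ) ^ k = w ∧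
    ¬ ((q : ℤ) ∣ z ∧ (q : ℤ) ∣ w)

theorem sl2Q_mul_apply (A B : SL(2, ℚ)) (i j : Fin 2) :
    ((A * B : SL(2, ℚ)) i j : ℚ) = A i 0 * B 0 j + A i 1 * B 1 j := by
  rw [Matrix.SpecialLinearGroup.coe_mul, Matrix.mul_apply, Fin.sum_univ_two]

theorem not_dvd_row (q : ℕ) (hq : q.Prime) (γ : SL(2, ℤ)) :
    ¬ ((q : ℤ) ∣ γ 1 0 ∧ (q : ℤ) ∣ γ 1 1) := by
  rintro ⟨h1, h2⟩
  have hdet := sl2_det_eq γ
  have : (q : ℤ) ∣ 1 := by
    rw [← hdet]
    exact dvd_sub (Dvd.dvd.mul_left h2 _) (Dvd.dvd.mul_left h1 _)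
  have := Int.natAbs_dvd_natAbs.2 this
  simp at this
  exact hq.one_lt.ne' this

theorem stNB_iota (q : ℕ) (hq : q.Prime) (γ : SL(2, ℤ)) : StNB q 0 (iotaQ γ) :=
  ⟨γ 0 0, γ 0 1, γ 1 0, γ 1 1, by simp, by simp, by simp, by simp, not_dvd_row q hq γ⟩

theorem stNB_one (q : ℕ) (hq : q.Prime) : StNB q 0 1 := by
  have := stNB_iota q hq 1
  rwa [map_one] at this

/-- ping: a `κ`-letter outside `j₂ Γ₀(N q)` raises the height and produces state `B` -/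
theorem stB_kappa_mul (q : ℕ) (hq : q.Prime) (k : ℕ) (M : SL(2, ℚ)) (h : StNB q k M)
    (γ : SL(2, ℤ)) (hγ : ¬ (q : ℤ) ∣ γ 0 1) :
    StB q (k + 1) (kappaQ q hq.ne_zero γ * M) := by
  obtain ⟨x, y, z, w, hx, hy, hz, hw, hzw⟩ := h
  have hq' : (q : ℚ) ≠ 0 := by exact_mod_cast hq.ne_zero
  refine ⟨(q : ℤ) * γ 0 0 * x + γ 0 1 * z, (q : ℤ) * γ 0 0 * y + γ 0 1 * w,
    (q : ℤ) * γ 1 0 * x + γ 1 1 * z, (q : ℤ) * γ 1 0 * y + γ 1 1 * w, ?_, ?_, ?_, ?_, ?_⟩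
  · rw [sl2Q_mul_apply, kappaQ_apply, kappaMat_apply_zero_zero, kappaMat_apply_zero_one]
    push_cast
    rw [← hx, ← hz]
    field_simp
    ring
  · rw [sl2Q_mul_apply, kappaQ_apply, kappaMat_apply_zero_zero, kappaMat_apply_zero_one]
    push_cast
    rw [← hy, ← hw]
    field_simp
    ring
  · rw [sl2Q_mul_apply, kappaQ_apply, kappaMat_apply_one_zero, kappaMat_apply_one_one]
    push_cast
    rw [← hx, ← hz]
    ring
  · rw [sl2Q_mul_apply, kappaQ_apply, kappaMat_apply_one_zero, kappaMat_apply_one_one]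
    push_cast
    rw [← hy, ← hw]
    ring
  · rintro ⟨h1, h2⟩
    apply hzw
    constructor
    · have : (q : ℤ) ∣ γ 0 1 * z := by
        have := dvd_sub h1 (Dvd.intro ((γ 0 0 : ℤ) * x) rfl : (q : ℤ) ∣ (q : ℤ) * (γ 0 0 * x))
        have e : (q : ℤ) * γ 0 0 * x + γ 0 1 * z - (q : ℤ) * (γ 0 0 * x) = γ 0 1 * z := by ring
        rwa [e] at this
      exact (Int.Prime.dvd_mul' hq this).resolve_left hγ
    · have : (q : ℤ) ∣ γ 0 1 * w := by
        have := dvd_sub h2 (Dvd.intro ((γ 0 0 : ℤ) * y) rfl : (q : ℤ) ∣ (q : ℤ) * (γ 0 0 * y))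
        have e : (q : ℤ) * γ 0 0 * y + γ 0 1 * w - (q : ℤ) * (γ 0 0 * y) = γ 0 1 * w := by ring
        rwa [e] at this
      exact (Int.Prime.dvd_mul' hq this).resolve_left hγ

/-- pong: an `ι`-letter outside `Γ₀(N q)` keeps the height and turns state `B` into `NB` -/
theorem stNB_iota_mul (q : ℕ) (hq : q.Prime) (k : ℕ) (M : SL(2, ℚ)) (h : StB q k M)
    (γ : SL(2, ℤ)) (hγ : ¬ (q : ℤ) ∣ γ 1 0) :
    StNB q k (iotaQ γ * M) := by
  obtain ⟨x, y, z, w, hx, hy, hz, hw, hxy⟩ := h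
  refine ⟨γ 0 0 * x + γ 0 1 * ((q : ℤ) * z), γ 0 0 * y + γ 0 1 * ((q : ℤ) * w),
    γ 1 0 * x + γ 1 1 * ((q : ℤ) * z), γ 1 0 * y + γ 1 1 * ((q : ℤ) * w), ?_, ?_, ?_, ?_, ?_⟩
  · rw [sl2Q_mul_apply, iotaQ_apply, iotaQ_apply]
    push_cast
    rw [← hx, ← hz]
    ring
  · rw [sl2Q_mul_apply, iotaQ_apply, iotaQ_apply]
    push_cast
    rw [← hy, ← hw]
    ring
  · rw [sl2Q_mul_apply, iotaQ_apply, iotaQ_apply]
    push_cast
    rw [← hx, ← hz]
    ring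
  · rw [sl2Q_mul_apply, iotaQ_apply, iotaQ_apply]
    push_cast
    rw [← hy, ← hw]
    ring
  · rintro ⟨h1, h2⟩
    apply hxy
    constructor
    · have : (q : ℤ) ∣ γ 1 0 * x := by
        have := dvd_sub h1 (Dvd.intro ((γ 1 1 : ℤ) * z) rfl : (q : ℤ) ∣ (q : ℤ) * (γ 1 1 * z))
        have e : γ 1 0 * x + γ 1 1 * ((q : ℤ) * z) - (q : ℤ) * (γ 1 1 * z) = γ 1 0 * x := by ring
        rwa [e] at this
      exact (Int.Prime.dvd_mul' hq this).resolve_left hγ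
    · have : (q : ℤ) ∣ γ 1 0 * y := by
        have := dvd_sub h2 (Dvd.intro ((γ 1 1 : ℤ) * w) rfl : (q : ℤ) ∣ (q : ℤ) * (γ 1 1 * w))
        have e : γ 1 0 * y + γ 1 1 * ((q : ℤ) * w) - (q : ℤ) * (γ 1 1 * w) = γ 1 0 * y := by ring
        rwa [e] at this
      exact (Int.Prime.dvd_mul' hq this).resolve_left hγ

/-- an integral matrix is in no state of positive height -/
theorem height_eq_zero_of_iota (q : ℕ) (k : ℕ) (β : SL(2, ℤ))
    (h : StB q k (iotaQ β) ∨ StNB q k (iotaQ β)) : k = 0 := by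
  by_contra hk
  obtain ⟨k', rfl⟩ := Nat.exists_eq_succ_of_ne_zero hk
  have key : ∀ (i j : Fin 2) (x : ℤ), (iotaQ β i j : ℚ) * (q : ℚ) ^ (k' + 1) = x → (q : ℤ) ∣ x := by
    intro i j x hx
    rw [iotaQ_apply] at hx
    have : x = β i j * (q : ℤ) ^ (k' + 1) := by exact_mod_cast hx.symm
    rw [this, pow_succ]
    exact ⟨β i j * (q : ℤ) ^ k', by ring⟩
  rcases h with ⟨x, y, z, w, hx, hy, -, -, hxy⟩ | ⟨x, y, z, w, -, -, hz, hw, hzw⟩
  · exact hxy ⟨key 0 0 x hx, key 0 1 y hy⟩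
  · exact hzw ⟨key 1 0 z hz, key 1 1 w hw⟩

/-! ### The amalgam `Γ₀(N) *_{Γ₀(N q)} Γ₀(N)` and its map to `SL(2, ℚ)` -/

/-- the constant family `Γ₀(N), Γ₀(N)` -/
abbrev AmG (N : ℕ) : Bool → Type := fun _ => ↥(Gamma0 N)

/-- the diagram: `j₁` (index `false`) and `j₂` (index `true`) -/
def amPhi (N q : ℕ) (hq : q ≠ 0) : ∀ b : Bool, ↥(Gamma0 (N * q)) →* AmG N b :=
  fun b => cond b (jTwo N q hq) (jOne N q)

/-- the two components `ι` (index `false`) and `κ` (index `true`) -/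
def amComp (N q : ℕ) (hq : q ≠ 0) : ∀ b : Bool, AmG N b →* SL(2, ℚ) :=
  fun b => cond b ((kappaQ q hq).comp (Gamma0 N).subtype) (iotaQ.comp (Gamma0 N).subtype)

@[simp] theorem amComp_false (N q : ℕ) (hq : q ≠ 0) (γ : Gamma0 N) :
    amComp N q hq false γ = iotaQ (γ : SL(2, ℤ)) := rfl

@[simp] theorem amComp_true (N q : ℕ) (hq : q ≠ 0) (γ : Gamma0 N) :
    amComp N q hq true γ = kappaQ q hq (γ : SL(2, ℤ)) := rfl

theorem amPhi_injective (N q : ℕ) (hq : q ≠ 0) (b : Bool) :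
    Function.Injective (amPhi N q hq b) := by
  cases b
  · exact jOne_injective N q
  · exact jTwo_injective N q hq

theorem amComp_comp_amPhi (N q : ℕ) (hq : q ≠ 0) (b : Bool) :
    (amComp N q hq b).comp (amPhi N q hq b) = iotaQ.comp (Gamma0 (N * q)).subtype := by
  cases b
  · rfl
  · ext1 γ
    exact kappaQ_jTwo N q hq γ

/-- the amalgamated product `Γ₀(N) *_{Γ₀(N q)} Γ₀(N)` -/
abbrev Amalgam (N q : ℕ) (hq : q ≠ 0) : Type := Monoid.PushoutI (amPhi N q hq)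

/-- the canonical map from the amalgam to `SL(2, ℚ)` -/
def amalgamMap (N q : ℕ) (hq : q ≠ 0) : Amalgam N q hq →* SL(2, ℚ) :=
  Monoid.PushoutI.lift (amComp N q hq) (iotaQ.comp (Gamma0 (N * q)).subtype)
    (amComp_comp_amPhi N q hq)

theorem amalgamMap_of (N q : ℕ) (hq : q ≠ 0) (b : Bool) (γ : Gamma0 N) :
    amalgamMap N q hq (Monoid.PushoutI.of (φ := amPhi N q hq) b γ) = amComp N q hq b γ :=
  Monoid.PushoutI.lift_of _ _ _ _

theorem amalgamMap_base (N q : ℕ) (hq : q ≠ 0) (γ : Gamma0 (N * q)) :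
    amalgamMap N q hq (Monoid.PushoutI.base (amPhi N q hq) γ) = iotaQ (γ : SL(2, ℤ)) :=
  Monoid.PushoutI.lift_base _ _ _ _

/-- evaluation of a list of letters in `SL(2, ℚ)` -/
def evalL (N q : ℕ) (hq : q ≠ 0) (L : List (Σ b : Bool, AmG N b)) : SL(2, ℚ) :=
  (L.map (fun l => amComp N q hq l.1 l.2)).prod

/-- the number of `κ`-letters -/
def cntK (N : ℕ) (L : List (Σ b : Bool, AmG N b)) : ℕ := L.countP (fun l => l.1)

@[simp] theorem evalL_nil (N q : ℕ) (hq : q ≠ 0) : evalL N q hq [] = 1 := rfl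

@[simp] theorem evalL_cons (N q : ℕ) (hq : q ≠ 0) (l : Σ b : Bool, AmG N b)
    (L : List (Σ b : Bool, AmG N b)) :
    evalL N q hq (l :: L) = amComp N q hq l.1 l.2 * evalL N q hq L := by
  simp [evalL]

@[simp] theorem cntK_nil (N : ℕ) : cntK N [] = 0 := rfl

theorem cntK_cons_true (N : ℕ) (γ : AmG N true) (L : List (Σ b : Bool, AmG N b)) :
    cntK N (⟨true, γ⟩ :: L) = cntK N L + 1 := by
  simp [cntK]

theorem cntK_cons_false (N : ℕ) (γ : AmG N false) (L : List (Σ b : Bool, AmG N b)) :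
    cntK N (⟨false, γ⟩ :: L) = cntK N L := by
  simp [cntK]

/-- **ping-pong**: a reduced alternating word beginning with a `κ`-letter is in state `B`,
one beginning with an `ι`-letter is in state `NB`; the height is the number of `κ`-letters. -/
theorem pingpong (N q : ℕ) (hq : q.Prime) (hNq : Nat.Coprime N q) :
    ∀ L : List (Σ b : Bool, AmG N b), L.IsChain (fun l l' => l.1 ≠ l'.1) →
      (∀ l ∈ L, l.2 ∉ (amPhi N q hq.ne_zero l.1).range) →
      (∀ l L', L = l :: L' → l.1 = true → StB q (cntK N L) (evalL N q hq.ne_zero L)) ∧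
      (∀ l L', L = l :: L' → l.1 = false → StNB q (cntK N L) (evalL N q hq.ne_zero L)) := by
  intro L
  induction L with
  | nil =>
    intro _ _
    exact ⟨fun l L' h _ => absurd h.symm (List.cons_ne_nil _ _),
      fun l L' h _ => absurd h.symm (List.cons_ne_nil _ _)⟩
  | cons l L' ih =>
    intro hchain hred
    have ih' := ih hchain.of_cons (fun l' hl' => hred l' (List.mem_cons_of_mem _ hl'))
    obtain ⟨b, γ⟩ := l
    have hγ := hred ⟨b, γ⟩ List.mem_cons_self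
    cases b
    · -- an `ι`-letter
      refine ⟨fun l L'' h hb => ?_, fun _ _ _ _ => ?_⟩
      · rw [List.cons.injEq] at h
        rw [← h.1] at hb
        cases hb
      · have hγ' : ¬ (q : ℤ) ∣ ((γ : Gamma0 N) : SL(2, ℤ)) 1 0 := fun h =>
          hγ ((mem_range_jOne_iff N q hNq γ).2 h)
        rw [cntK_cons_false, evalL_cons]
        cases L' with
        | nil =>
          rw [evalL_nil, mul_one, cntK_nil]
          exact stNB_iota q hq _
        | cons l' L'' =>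
          have hne : false ≠ l'.1 := (List.isChain_cons_cons.1 hchain).1
          have hl' : l'.1 = true := by
            cases h : l'.1
            · exact absurd h.symm hne
            · rfl
          exact stNB_iota_mul q hq _ _ (ih'.1 l' L'' rfl hl') _ hγ'
    · -- a `κ`-letter
      refine ⟨fun _ _ _ _ => ?_, fun l L'' h hb => ?_⟩
      · have hγ' : ¬ (q : ℤ) ∣ ((γ : Gamma0 N) : SL(2, ℤ)) 0 1 := fun h =>
          hγ ((mem_range_jTwo_iff N q hq.ne_zero γ).2 h)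
        rw [cntK_cons_true, evalL_cons]
        cases L' with
        | nil =>
          rw [evalL_nil, mul_one, cntK_nil]
          have := stB_kappa_mul q hq 0 1 (stNB_one q hq) _ hγ'
          rwa [mul_one] at this
        | cons l' L'' =>
          have hne : true ≠ l'.1 := (List.isChain_cons_cons.1 hchain).1
          have hl' : l'.1 = false := by
            cases h : l'.1
            · rfl
            · exact absurd h.symm hne
          exact stB_kappa_mul q hq _ _ (ih'.2 l' L'' rfl hl') _ hγ'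
      · rw [List.cons.injEq] at h
        rw [← h.1] at hb
        cases hb

/-! ### Injectivity of the canonical map -/

theorem not_mem_of_mem_transversal {G : Type*} [Group G] (S : Subgroup G) (T : Set G)
    (hST : Subgroup.IsComplement (S : Set G) T) (h1 : (1 : G) ∈ T) {g : G} (hg : g ∈ T)
    (hg1 : g ≠ 1) : g ∉ S := by
  intro hgS
  have hgS' : g ∈ (S : Set G) := hgS
  have h1S : (1 : G) ∈ (S : Set G) := S.one_mem
  have h := hST.1 (a₁ := (⟨⟨g, hgS'⟩, ⟨1, h1⟩⟩ : Prod ↥(S : Set G) ↥T))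
    (a₂ := (⟨⟨1, h1S⟩, ⟨g, hg⟩⟩ : Prod ↥(S : Set G) ↥T)) (by simp)
  have := congrArg (fun x : Prod ↥(S : Set G) ↥T => (x.1 : G)) h
  exact hg1 this

theorem amalgamMap_ofCoprodI_prod (N q : ℕ) (hq : q ≠ 0) (w : Monoid.CoprodI.Word (AmG N)) :
    amalgamMap N q hq (Monoid.PushoutI.ofCoprodI w.prod) = evalL N q hq w.toList := by
  rw [Monoid.CoprodI.Word.prod, map_list_prod, map_list_prod, List.map_map, List.map_map]
  rfl

/-- **Ihara's amalgam, injectivity**: the canonical map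
`Γ₀(N) *_{Γ₀(N q)} Γ₀(N) → SL(2, ℚ)` is injective. -/
theorem amalgamMap_injective (N q : ℕ) (hq : q.Prime) (hNq : Nat.Coprime N q) :
    Function.Injective (amalgamMap N q hq.ne_zero) := by
  classical
  rw [injective_iff_map_eq_one]
  intro x hx
  obtain ⟨d⟩ := Monoid.PushoutI.NormalWord.transversal_nonempty (amPhi N q hq.ne_zero)
    (amPhi_injective N q hq.ne_zero)
  obtain ⟨w, hxw⟩ : ∃ w : Monoid.PushoutI.NormalWord d, w.prod = x :=
    ⟨Monoid.PushoutI.NormalWord.equiv x, Monoid.PushoutI.NormalWord.equiv.symm_apply_apply x⟩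
  have himg : iotaQ ((w.head : Gamma0 (N * q)) : SL(2, ℤ)) * evalL N q hq.ne_zero w.toList = 1 := by
    rw [← hx, ← hxw, Monoid.PushoutI.NormalWord.prod, map_mul, amalgamMap_base,
      amalgamMap_ofCoprodI_prod]
  -- the word is reduced
  have hred : ∀ l ∈ w.toList, l.2 ∉ (amPhi N q hq.ne_zero l.1).range := by
    rintro ⟨b, γ⟩ hl
    exact not_mem_of_mem_transversal _ _ (d.compl b) (d.one_mem b) (w.normalized b γ hl)
      (w.ne_one _ hl)
  have hpp := pingpong N q hq hNq w.toList w.chain_ne hred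
  -- the evaluation of the word is integral
  have hev : evalL N q hq.ne_zero w.toList = iotaQ (((w.head)⁻¹ : Gamma0 (N * q)) : SL(2, ℤ)) := by
    rw [Subgroup.coe_inv, map_inv]
    exact eq_inv_of_mul_eq_one_right himg
  -- hence the word is empty
  have hnil : w.toList = [] := by
    rcases hL : w.toList with _ | ⟨l, L'⟩
    · rfl
    · exfalso
      obtain ⟨b, γ⟩ := l
      cases b
      · have h1 := hpp.2 _ _ hL rfl
        rw [hev] at h1
        have h0 := height_eq_zero_of_iota q _ _ (Or.inr h1)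
        rw [hL, cntK_cons_false] at h0
        rcases L' with _ | ⟨l', L''⟩
        · -- a single `ι`-letter
          rw [hL, evalL_cons, evalL_nil, mul_one, amComp_false] at hev
          have := iotaQ_injective hev
          have hmem : γ ∈ (jOne N q).range := ⟨(w.head)⁻¹, Subtype.ext this.symm⟩
          exact hred ⟨false, γ⟩ (hL ▸ List.mem_cons_self) hmem
        · have hchain := w.chain_ne
          rw [hL] at hchain
          have hne : false ≠ l'.1 := (List.isChain_cons_cons.1 hchain).1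
          obtain ⟨b', γ'⟩ := l'
          cases b'
          · exact hne rfl
          · rw [cntK_cons_true] at h0
            exact Nat.succ_ne_zero _ h0
      · have h1 := hpp.1 _ _ hL rfl
        rw [hev] at h1
        have h0 := height_eq_zero_of_iota q _ _ (Or.inl h1)
        rw [hL, cntK_cons_true] at h0
        exact Nat.succ_ne_zero _ h0
  rw [hnil, evalL_nil, mul_one] at himg
  have hhead : w.head = 1 := by
    apply Subtype.ext
    apply iotaQ_injective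
    rw [himg]
    simp
  have hword : w.toWord = Monoid.CoprodI.Word.empty := by
    ext1
    exact hnil
  rw [← hxw, Monoid.PushoutI.NormalWord.prod, hhead, hword]
  simp

end Fermat.Agent.P6.helper77
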