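import Mathlib
import Fermat.Prelude.Def_ModularCurve_PeriodMap
import Fermat.Prelude.Def_FLTPrelim_ModularRep
import Fermat.Prelude.Def_FreyPackage_LevelRaising
import Fermat.Agent.P6.helper77_Amalgam
import Fermat.Agent.S16.helper26_HeckeFun

/-!
# P6 / S41 (level raising): interface file of the coordinator (helper4)

Definitions only (plus two trivial lemmas).  See finding "BLUEPRINT P6/S41 v1".

* `pull ι`  : pull-back of homomorphisms `Additive G →+ A` along `ι : G' →* G`;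
* `push ι hι` : the transfer (corestriction) along an injective `ι` with finite index range
  (Mathlib `MonoidHom.transfer`), `0` if the index is infinite;
* `a1 a2 b1 b2` : the two degeneracy maps `Hom(Γ₀(M), A) → Hom(Γ₀(M r), A)` and the two
  transfers back, along `helper77.jOne M r` (inclusion) and `helper77.jTwo M r hr`
  (conjugation by `diag(r, 1)`);
* `Lat M = parabolicHoms ℤ (Γ₀(M)) ℤ`;
* the statement shapes `IharaStatement`, `DualityStatement`, `HB*Statement`, `NonEisStatement`,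
  `EigStatement`, `LiftStatement` consumed by the final assembly.
-/

set_option autoImplicit false

open CongruenceSubgroup ModularCurve.Period
open scoped MatrixGroups

namespace Fermat.Agent.P6.helper4

open Fermat.Agent.P6.helper77 Fermat.Agent.S16.helper26

/-! ### pull-back and transfer -/

section PullPush

variable {G' G : Type*} [Group G'] [Group G] (A : Type*) [AddCommGroup A]

/-- pull-back of additive characters along a group homomorphism -/
def pull (ι : G' →* G) : (Additive G →+ A) →+ (Additive G' →+ A) where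
  toFun φ := φ.comp (MonoidHom.toAdditive ι)
  map_zero' := rfl
  map_add' _ _ := rfl

@[simp] theorem pull_apply (ι : G' →* G) (φ : Additive G →+ A) (g : G') :
    pull A ι φ (Additive.ofMul g) = φ (Additive.ofMul (ι g)) := rfl

/-- the character of `ι.range` attached to a character of `G'` (`ι` injective) -/
noncomputable def onRange (ι : G' →* G) (hι : Function.Injective ι) (ψ : Additive G' →+ A) :
    ι.range →* Multiplicative A :=
  (AddMonoidHom.toMultiplicativeRight ψ).comp (MonoidHom.ofInjective hι).symm.toMonoidHom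

/-- the transfer (corestriction) of additive characters along an injective homomorphism whose
range has finite index (`0` otherwise) -/
noncomputable def push (ι : G' →* G) (hι : Function.Injective ι) (ψ : Additive G' →+ A) :
    Additive G →+ A :=
  open Classical in
  if h : ι.range.FiniteIndex then
    MonoidHom.toAdditiveLeft (@MonoidHom.transfer G _ ι.range (Multiplicative A) _ (onRange A ι hι ψ) h)
  else 0

theorem push_apply (ι : G' →* G) (hι : Function.Injective ι) [h : ι.range.FiniteIndex]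
    (ψ : Additive G' →+ A) (g : G) :
    push A ι hι ψ (Additive.ofMul g) =
      Multiplicative.toAdd (MonoidHom.transfer (onRange A ι hι ψ) g) := by
  unfold push
  rw [dif_pos h]
  rfl

end PullPush

/-! ### the degeneracy maps and the transfers between levels `M` and `M r` -/

section Levels

variable (M r : ℕ) (hr : r ≠ 0) (A : Type*) [AddCommGroup A]

/-- first degeneracy map: restriction along `Γ₀(M r) ⊆ Γ₀(M)` -/
def a1 : (Additive (Gamma0 M) →+ A) →+ (Additive (Gamma0 (M * r)) →+ A) := pull A (jOne M r)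

/-- second degeneracy map: pull-back along `jTwo` (conjugation by `diag(r, 1)`) -/
def a2 : (Additive (Gamma0 M) →+ A) →+ (Additive (Gamma0 (M * r)) →+ A) :=
  pull A (jTwo M r hr)

/-- first transfer -/
noncomputable def b1 (ψ : Additive (Gamma0 (M * r)) →+ A) : Additive (Gamma0 M) →+ A :=
  push A (jOne M r) (jOne_injective M r) ψ

/-- second transfer -/
noncomputable def b2 (ψ : Additive (Gamma0 (M * r)) →+ A) : Additive (Gamma0 M) →+ A :=
  push A (jTwo M r hr) (jTwo_injective M r hr) ψ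

end Levels

/-- the lattice of integral parabolic homomorphisms of level `M` -/
abbrev Lat (M : ℕ) : Submodule ℤ (Additive (Gamma0 M) →+ ℤ) := parabolicHoms ℤ (Gamma0 M) ℤ

/-! ### statement shapes -/

/-- **[BRIDGE]** Ihara's lemma in Eisenstein form, on pairs. -/
def IharaStatement (N q : ℕ) (hq : q ≠ 0) (p : ℕ) : Prop :=
  ∀ ℓ : Nat.Primes, (ℓ : ℕ) ≡ 1 [MOD p * N] → (ℓ : ℕ) ≠ q →
    ∀ x₁ x₂ : Additive (Gamma0 N) →+ ZMod p,
      a1 N q (ZMod p) x₁ + a2 N q hq (ZMod p) x₂ = 0 →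
        heckeHom N ℓ x₁ = ((ℓ : ℕ) + 1) • x₁ ∧ heckeHom N ℓ x₂ = ((ℓ : ℕ) + 1) • x₂

/-- **[HB0]** the maps `a_i`, `b_i` on the parabolic lattices. -/
structure LevelMaps (M r : ℕ) (hr : r ≠ 0) where
  /-- first degeneracy map -/
  a1 : Lat M →ₗ[ℤ] Lat (M * r)
  /-- second degeneracy map -/
  a2 : Lat M →ₗ[ℤ] Lat (M * r)
  /-- first transfer -/
  b1 : Lat (M * r) →ₗ[ℤ] Lat M
  /-- second transfer -/
  b2 : Lat (M * r) →ₗ[ℤ] Lat M
  a1_coe : ∀ x : Lat M, ((a1 x : Lat (M * r)) : Additive (Gamma0 (M * r)) →+ ℤ) =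
    helper4.a1 M r ℤ (x : Additive (Gamma0 M) →+ ℤ)
  a2_coe : ∀ x : Lat M, ((a2 x : Lat (M * r)) : Additive (Gamma0 (M * r)) →+ ℤ) =
    helper4.a2 M r hr ℤ (x : Additive (Gamma0 M) →+ ℤ)
  b1_coe : ∀ y : Lat (M * r), ((b1 y : Lat M) : Additive (Gamma0 M) →+ ℤ) =
    helper4.b1 M r ℤ (y : Additive (Gamma0 (M * r)) →+ ℤ)
  b2_coe : ∀ y : Lat (M * r), ((b2 y : Lat M) : Additive (Gamma0 M) →+ ℤ) =
    helper4.b2 M r hr ℤ (y : Additive (Gamma0 (M * r)) →+ ℤ)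

/-- **[HB0]** the Hecke operators on the parabolic lattice, pairwise commuting. -/
structure HeckeOps (M : ℕ) where
  /-- the Hecke operator at `ℓ` (`T_ℓ` or `U_ℓ`) -/
  T : Nat.Primes → (Lat M →ₗ[ℤ] Lat M)
  T_coe : ∀ (ℓ : Nat.Primes) (x : Lat M), ((T ℓ x : Lat M) : Additive (Gamma0 M) →+ ℤ) =
    heckeHom M ℓ (x : Additive (Gamma0 M) →+ ℤ)
  comm : ∀ ℓ ℓ' : Nat.Primes, T ℓ ∘ₗ T ℓ' = T ℓ' ∘ₗ T ℓ

namespace HeckeOps

variable {M : ℕ} (ho : HeckeOps M)

/-- the `ℤ`-algebra generated by the `T_ℓ` -/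
abbrev alg : Subalgebra ℤ (Module.End ℤ (Lat M)) := Algebra.adjoin ℤ (Set.range ho.T)

/-- it is commutative -/
instance instIsMulCommutativeAlg : IsMulCommutative ho.alg :=
  Algebra.isMulCommutative_adjoin ℤ (by
    rintro _ ⟨ℓ, rfl⟩ _ ⟨ℓ', rfl⟩
    exact ho.comm ℓ ℓ')

open scoped IsMulCommutative in
/-- evaluation of Hecke polynomials -/
noncomputable def eval : MvPolynomial Nat.Primes ℤ →ₐ[ℤ] ho.alg :=
  MvPolynomial.aeval (fun ℓ => (⟨ho.T ℓ, Algebra.subset_adjoin ⟨ℓ, rfl⟩⟩ : ho.alg))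

/-- the action of a Hecke polynomial on the parabolic lattice -/
noncomputable def act (P : MvPolynomial Nat.Primes ℤ) : Module.End ℤ (Lat M) :=
  ((ho.eval P : ho.alg) : Module.End ℤ (Lat M))

open scoped IsMulCommutative in
theorem act_X (ℓ : Nat.Primes) : ho.act (MvPolynomial.X ℓ) = ho.T ℓ := by
  unfold act eval
  rw [MvPolynomial.aeval_X]

open scoped IsMulCommutative in
theorem act_C (a : ℤ) : ho.act (MvPolynomial.C a) = a • (1 : Module.End ℤ (Lat M)) := by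
  unfold act eval
  rw [MvPolynomial.aeval_C, Algebra.algebraMap_eq_smul_one]
  rfl

open scoped IsMulCommutative in
theorem act_add (P Q : MvPolynomial Nat.Primes ℤ) : ho.act (P + Q) = ho.act P + ho.act Q := by
  unfold act
  rw [map_add]
  rfl

open scoped IsMulCommutative in
theorem act_mul (P Q : MvPolynomial Nat.Primes ℤ) : ho.act (P * Q) = ho.act P * ho.act Q := by
  unfold act
  rw [map_mul]
  rfl

theorem act_comm (P Q : MvPolynomial Nat.Primes ℤ) : ho.act P * ho.act Q = ho.act Q * ho.act P := by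
  rw [← act_mul, ← act_mul, mul_comm]

end HeckeOps

/-- **[HB0]** -/
def HB0Statement : Prop :=
  (∀ (M r : ℕ) (hr : r ≠ 0), 0 < M → r.Prime → Nonempty (LevelMaps M r hr)) ∧
    ∀ M : ℕ, 0 < M → Nonempty (HeckeOps M)

/-- **[HB1]** the degeneracy maps and the transfers commute with `T_ℓ`, `ℓ ∤ M r`. -/
def HB1Statement : Prop :=
  ∀ (M r : ℕ) (hr : r ≠ 0) (A : Type) [AddCommGroup A], 0 < M → r.Prime → ¬ r ∣ M →
    ∀ ℓ : Nat.Primes, ¬ (ℓ : ℕ) ∣ M * r →
      (∀ x : Additive (Gamma0 M) →+ A,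
        heckeHom (M * r) ℓ (a1 M r A x) = a1 M r A (heckeHom M ℓ x) ∧
        heckeHom (M * r) ℓ (a2 M r hr A x) = a2 M r hr A (heckeHom M ℓ x)) ∧
      (∀ y : Additive (Gamma0 (M * r)) →+ A,
        heckeHom M ℓ (b1 M r A y) = b1 M r A (heckeHom (M * r) ℓ y) ∧
        heckeHom M ℓ (b2 M r hr A y) = b2 M r hr A (heckeHom (M * r) ℓ y))

/-- **[HB2]** the matrix `β ∘ α = [[r+1, T_r], [T_r, r+1]]`. -/
def HB2Statement : Prop :=
  ∀ (M r : ℕ) (hr : r ≠ 0) (A : Type) [AddCommGroup A], 0 < M → ∀ hrp : r.Prime, ¬ r ∣ M →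
    ∀ x : Additive (Gamma0 M) →+ A,
      b1 M r A (a1 M r A x) = (r + 1) • x ∧
      b2 M r hr A (a2 M r hr A x) = (r + 1) • x ∧
      b1 M r A (a2 M r hr A x) = heckeHom M ⟨r, hrp⟩ x ∧
      b2 M r hr A (a1 M r A x) = heckeHom M ⟨r, hrp⟩ x

/-- **[HB3]** `U_q² = 1` on the `q`-new part `ker b1 ∩ ker b2`. -/
def HB3Statement : Prop :=
  ∀ (N q : ℕ) (hq : q ≠ 0), 0 < N → ∀ hqp : q.Prime, ¬ q ∣ N →
    ∀ y : Additive (Gamma0 (N * q)) →+ ℤ, b1 N q ℤ y = 0 → b2 N q hq ℤ y = 0 →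
      heckeHom (N * q) ⟨q, hqp⟩ (heckeHom (N * q) ⟨q, hqp⟩ y) = y

/-- **(D)** duality: a family of forms on the parabolic lattices of all levels,
(anti)symmetric, left non-degenerate modulo every odd prime, for which the transfers are adjoint
to the degeneracy maps. -/
def DualityStatement : Prop :=
  ∃ (Bl : ∀ M : ℕ, Lat M →ₗ[ℤ] Lat M →ₗ[ℤ] ℤ) (ε : ℤ), (ε = 1 ∨ ε = -1) ∧
    (∀ (M : ℕ) (x y : Lat M), Bl M x y = ε * Bl M y x) ∧
    (∀ (M p : ℕ), 0 < M → p.Prime → p ≠ 2 → ∀ x : Lat M,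
      (∀ y : Lat M, (p : ℤ) ∣ Bl M x y) → ∃ x' : Lat M, x = p • x') ∧
    (∀ (M r : ℕ) (hr : r ≠ 0), 0 < M → r.Prime → ¬ r ∣ M → ∀ lm : LevelMaps M r hr,
      ∀ (x : Lat M) (y : Lat (M * r)),
        Bl (M * r) (lm.a1 x) y = Bl M x (lm.b1 y) ∧ Bl (M * r) (lm.a2 x) y = Bl M x (lm.b2 y))

/-- **(N)** non-Eisenstein: a good prime `ℓ ≡ 1 mod m` with `a_ℓ(W) ≢ 1 + ℓ mod p`. -/
def NonEisStatement : Prop :=
  ∀ (E : WeierstrassCurve ℚ) [E.IsElliptic] (W : WeierstrassCurve ℤ), W.IsIntegralModelOf E →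
    ∀ p : ℕ, p.Prime → p ≠ 2 →
      WeierstrassCurve.Affine.Point.GaloisRepIsIrreducible (K := AlgebraicClosure ℚ) ℚ E p →
      ∀ m : ℕ, 0 < m → ∃ ℓ : ℕ, ℓ.Prime ∧ ℓ ≡ 1 [MOD m] ∧ ¬ ℓ ∣ m ∧ W.IsGoodPrimeFor ℓ ∧
        ¬ (p : ℤ) ∣ W.apOfModel ℓ - (1 + (ℓ : ℤ))

/-- the set `Σ` of primes used in the congruences -/
def GoodPrime (W : WeierstrassCurve ℤ) (N q p : ℕ) (ℓ : Nat.Primes) : Prop :=
  W.IsGoodPrimeFor ℓ ∧ ¬ (ℓ : ℕ) ∣ N * q ∧ (ℓ : ℕ) ≠ p

/-- **[A-EIG]** the eigenvector of level `N` modulo `p` attached to `f`. -/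
def EigStatement : Prop :=
  ∀ (W : WeierstrassCurve ℤ) {p N q : ℕ} (_ : p.Prime) (_ : p ≠ 2) (_ : 0 < N) (hq : q.Prime)
    (_ : ¬ q ∣ N) (_ : q ≠ p)
    (f : CuspForm (Gamma0 N) 2) (𝔪 : Ideal (integralClosure ℤ ℂ)),
    f.IsNormalizedEigenform → 𝔪.IsMaximal → (p : integralClosure ℤ ℂ) ∈ 𝔪 →
    (∀ ℓ : ℕ, ℓ.Prime → W.IsGoodPrimeFor ℓ → ¬ ℓ ∣ N → ℓ ≠ p →
      ∃ a : integralClosure ℤ ℂ, (a : ℂ) = ModularFormClass.qCoeff f ℓ ∧
        a - ((W.apOfModel ℓ : ℤ) : integralClosure ℤ ℂ) ∈ 𝔪) →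
    (∃ a : integralClosure ℤ ℂ, (a : ℂ) = ModularFormClass.qCoeff f q ∧
      a ^ 2 - ((q : integralClosure ℤ ℂ) + 1) ^ 2 ∈ 𝔪) →
    ∃ (ε : ℤ) (v : Additive (Gamma0 N) →+ ℤ), (ε = 1 ∨ ε = -1) ∧ v ∈ Lat N ∧
      (¬ ∃ v' : Additive (Gamma0 N) →+ ℤ, v = p • v') ∧
      (∀ ℓ : Nat.Primes, GoodPrime W N q p ℓ →
        ∃ z : Additive (Gamma0 N) →+ ℤ, heckeHom N ℓ v - W.apOfModel ℓ • v = p • z) ∧
      ∃ z : Additive (Gamma0 N) →+ ℤ,
        heckeHom N ⟨q, hq⟩ v - (ε * ((q : ℤ) + 1)) • v = p • z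

/-- **[LIFT+P]** from a non-Eisenstein `q`-new class modulo `p` to a `q`-new eigenform.
The hypothesis is the output of `helper85.levelRaising_core` in concrete form: every integer
polynomial `P` in the `T_ℓ`, `ℓ ∈ Σ`, which kills the `q`-new lattice `ker b1 ∩ ker b2` of level
`N q` satisfies `p ∣ P(a_ℓ(W))`. -/
def LiftStatement : Prop :=
  ∀ (W : WeierstrassCurve ℤ) {p N q : ℕ} (_ : p.Prime) (_ : p ≠ 2) (_ : 0 < N) (hq : q.Prime)
    (_ : ¬ q ∣ N) (_ : q ≠ p) (ho : HeckeOps (N * q)),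
    (∀ P : MvPolynomial Nat.Primes ℤ, (∀ ℓ ∈ P.vars, GoodPrime W N q p ℓ) →
      (∀ y : Lat (N * q), b1 N q ℤ (y : Additive (Gamma0 (N * q)) →+ ℤ) = 0 →
        b2 N q hq.ne_zero ℤ (y : Additive (Gamma0 (N * q)) →+ ℤ) = 0 →
          ho.act P y = 0) →
      (p : ℤ) ∣ MvPolynomial.eval (fun ℓ : Nat.Primes => W.apOfModel ℓ) P) →
    ∃ (g : CuspForm (Gamma0 (N * q)) 2) (𝔪' : Ideal (integralClosure ℤ ℂ)),
      g.IsNormalizedEigenform ∧ 𝔪'.IsMaximal ∧ (p : integralClosure ℤ ℂ) ∈ 𝔪' ∧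
      (∀ ℓ : ℕ, ℓ.Prime → W.IsGoodPrimeFor ℓ → ¬ ℓ ∣ N * q → ℓ ≠ p →
        ∃ a : integralClosure ℤ ℂ, (a : ℂ) = ModularFormClass.qCoeff g ℓ ∧
          a - ((W.apOfModel ℓ : ℤ) : integralClosure ℤ ℂ) ∈ 𝔪') ∧
      g.IsNewAt q

end Fermat.Agent.P6.helper4
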