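import Mathlib
import Fermat.Agent.P6.helper4_S41Defs
import Fermat.Agent.S21
import Fermat.Agent.S22
import Fermat.Agent.S49.HeckeC
import Fermat.Agent.S16.helper26_HeckeInd

/-!
# P6 / S41 [LIFT+P] (helper1): from the `q`-new lattice to a `q`-new eigenform

`lift_of_hb3 : HB3Statement → LiftStatement` (shapes of `helper4_S41Defs`).

Route (no eigenvector search in the lattice is needed):

* `𝔸 = heckeAlgC (N q)`, the commutative finite-dimensional `ℂ`-algebra generated by all Hecke
  operators on `S₂(Γ₀(N q))`;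
* `I ⊆ 𝔸` : the ideal of all operators killing both components of every pair `x` of cusp forms
  whose period homomorphism `periodHomPair x` is (the complexification of) a class `y` of the
  `q`-new lattice `ker b1 ∩ ker b2`; by S21 (surjectivity) every `y` has such an `x`;
* `U_q² - 1 ∈ I` by [HB3], the Hecke equivariance of the period map and S21 (injectivity);
* the multiplicative set `S` of all `P(T_ℓ)`, `P` a polynomial in the good primes with
  `p ∤ P(a_ℓ(W))`, is disjoint from `I` : this is exactly the hypothesis of `LiftStatement`;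
* a prime `𝔔 ⊇ I` of `𝔸` disjoint from `S` gives a character `ψ : 𝔸 → ℂ`; the S49 package
  (`exists_eigenform_of_character`) turns `ψ` into a normalised eigenform `g`; integrality of
  the values is S22, and the maximal ideal `𝔪'` is `exists_maximal_ideal_map_le`.
-/

set_option autoImplicit false

open CongruenceSubgroup ModularCurve ModularCurve.Period CuspForm ModularFormClass
open scoped MatrixGroups

namespace Fermat.Agent.P6.helper1

open Fermat.Agent.P6.helper4 Fermat.Agent.S16 Fermat.Agent.S49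

/-! ### algebra: a character from a prime avoiding a multiplicative set -/

/-- In a finite-dimensional commutative algebra over an algebraically closed field, an ideal
disjoint from a multiplicative set is killed by a character which does not vanish on the set. -/
theorem exists_algHom_of_disjoint {K A : Type*} [Field K] [IsAlgClosed K] [CommRing A]
    [Algebra K A] [FiniteDimensional K A] (I : Ideal A) (S : Submonoid A)
    (h : Disjoint (I : Set A) (S : Set A)) :
    ∃ χ : A →ₐ[K] K, (∀ a ∈ I, χ a = 0) ∧ ∀ s ∈ S, χ s ≠ 0 := by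
  obtain ⟨𝔮, h𝔮prime, hI𝔮, h𝔮S⟩ := Ideal.exists_le_prime_disjoint I S h
  have := h𝔮prime
  have hbij : Function.Bijective (algebraMap K (A ⧸ 𝔮)) :=
    IsAlgClosed.algebraMap_bijective_of_isIntegral
  let e : K ≃ₐ[K] (A ⧸ 𝔮) := AlgEquiv.ofBijective (Algebra.ofId K (A ⧸ 𝔮)) hbij
  refine ⟨(e.symm : (A ⧸ 𝔮) →ₐ[K] K).comp (Ideal.Quotient.mkₐ K 𝔮), fun a ha => ?_,
    fun s hs hχ => ?_⟩
  · have h1 : Ideal.Quotient.mk 𝔮 a = 0 := Ideal.Quotient.eq_zero_iff_mem.mpr (hI𝔮 ha)
    show e.symm (Ideal.Quotient.mk 𝔮 a) = 0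
    rw [h1, map_zero]
  · have h1 : e.symm (Ideal.Quotient.mk 𝔮 s) = 0 := hχ
    have h2 : Ideal.Quotient.mk 𝔮 s = 0 := by
      have := congrArg e h1
      simpa using this
    have h3 : s ∈ 𝔮 := Ideal.Quotient.eq_zero_iff_mem.mp h2
    exact Set.disjoint_left.mp h𝔮S h3 hs

/-! ### the period map intertwines Hecke polynomials -/

section Equivariance

variable (M : ℕ) [NeZero M]

/-- complexification of an integral homomorphism -/
noncomputable def cx (y : Additive (Gamma0 M) →+ ℤ) : Additive (Gamma0 M) →+ ℂ :=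
  (Int.castAddHom ℂ).comp y

omit [NeZero M] in
theorem cx_apply (y : Additive (Gamma0 M) →+ ℤ) (γ : Additive (Gamma0 M)) :
    cx M y γ = ((y γ : ℤ) : ℂ) := rfl

omit [NeZero M] in
theorem cx_zero : cx M 0 = 0 := by
  refine AddMonoidHom.ext fun γ => ?_
  simp [cx_apply]

omit [NeZero M] in
theorem cx_injective : Function.Injective (cx M) := by
  intro y y' h
  refine AddMonoidHom.ext fun γ => ?_
  have := congrArg (fun f : Additive (Gamma0 M) →+ ℂ => f γ) h
  simp only [cx_apply] at this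
  exact_mod_cast this

omit [NeZero M] in
theorem cx_mem_parabolicHoms {y : Additive (Gamma0 M) →+ ℤ} (hy : y ∈ Lat M) :
    cx M y ∈ parabolicHoms ℂ (Gamma0 M) ℂ := by
  intro γ hγ
  have h := hy γ hγ
  rw [cx_apply, h, Int.cast_zero]

omit [NeZero M] in
theorem cx_heckeHom (ℓ : Nat.Primes) (y : Additive (Gamma0 M) →+ ℤ) :
    cx M (helper26.heckeHom M ℓ y) = helper26.heckeHom M ℓ (cx M y) := by
  unfold cx
  rw [helper26.heckeHom_comp]

/-- every class of the parabolic lattice is the period class of a pair of cusp forms -/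
theorem exists_pair_of_lat {y : Additive (Gamma0 M) →+ ℤ} (hy : y ∈ Lat M) :
    ∃ x : CuspForm (Gamma0 M) 2 × CuspForm (Gamma0 M) 2, periodHomPair M x = cx M y := by
  have h := cx_mem_parabolicHoms M hy
  rw [← (Fermat.Agent.S21.result M).2] at h
  exact h

/-- the period map intertwines `heckeEvalForms P` on pairs with `ho.act P` on the lattice -/
theorem periodHomPair_evalPair_eq_cx_act (ho : HeckeOps M) (P : HeckeAlg) :
    ∀ (x : CuspForm (Gamma0 M) 2 × CuspForm (Gamma0 M) 2) (y : Lat M),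
      periodHomPair M x = cx M (y : Additive (Gamma0 M) →+ ℤ) →
      periodHomPair M (helper26.evalPair M P x) =
        cx M ((ho.act P y : Lat M) : Additive (Gamma0 M) →+ ℤ) := by
  induction P using MvPolynomial.induction_on with
  | C a =>
    intro x y hxy
    rw [helper26.evalPair_C, map_smul, hxy, ho.act_C]
    refine AddMonoidHom.ext fun γ => ?_
    simp [cx_apply]
  | add P Q hP hQ =>
    intro x y hxy
    rw [helper26.evalPair_add, map_add, hP x y hxy, hQ x y hxy, ho.act_add]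
    refine AddMonoidHom.ext fun γ => ?_
    simp [cx_apply]
  | mul_X P ℓ hP =>
    intro x y hxy
    have h1 : periodHomPair M (helper26.heckePair M ℓ x) =
        cx M ((ho.T ℓ y : Lat M) : Additive (Gamma0 M) →+ ℤ) := by
      rw [helper26.periodHomPair_heckePair, hxy, ho.T_coe, cx_heckeHom]
    have h2 := hP (helper26.heckePair M ℓ x) (ho.T ℓ y) h1
    rw [helper26.evalPair_mul_X, h2, ho.act_mul, ho.act_X]
    rfl

end Equivariance


/-! ### the main step -/

section Main

variable {N q : ℕ}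

/-- the operators of `heckeAlgC` kill a pair iff they kill both components -/
noncomputable def killIdeal (M : ℕ) [NeZero M]
    (X : Set (CuspForm (Gamma0 M) 2 × CuspForm (Gamma0 M) 2)) : Ideal (heckeAlgC M) where
  carrier := {a | ∀ x ∈ X, (a : Module.End ℂ (CuspForm (Gamma0 M) 2)) x.1 = 0 ∧
    (a : Module.End ℂ (CuspForm (Gamma0 M) 2)) x.2 = 0}
  add_mem' := by
    intro a b ha hb x hx
    have h1 := ha x hx
    have h2 := hb x hx
    refine ⟨?_, ?_⟩
    · show ((a : Module.End ℂ (CuspForm (Gamma0 M) 2)) +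
        (b : Module.End ℂ (CuspForm (Gamma0 M) 2))) x.1 = 0
      rw [LinearMap.add_apply, h1.1, h2.1, add_zero]
    · show ((a : Module.End ℂ (CuspForm (Gamma0 M) 2)) +
        (b : Module.End ℂ (CuspForm (Gamma0 M) 2))) x.2 = 0
      rw [LinearMap.add_apply, h1.2, h2.2, add_zero]
  zero_mem' := by
    intro x _
    exact ⟨rfl, rfl⟩
  smul_mem' := by
    intro c a ha x hx
    have h1 := ha x hx
    refine ⟨?_, ?_⟩
    · show ((c : Module.End ℂ (CuspForm (Gamma0 M) 2)) *
        (a : Module.End ℂ (CuspForm (Gamma0 M) 2))) x.1 = 0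
      rw [Module.End.mul_apply, h1.1, map_zero]
    · show ((c : Module.End ℂ (CuspForm (Gamma0 M) 2)) *
        (a : Module.End ℂ (CuspForm (Gamma0 M) 2))) x.2 = 0
      rw [Module.End.mul_apply, h1.2, map_zero]

theorem mem_killIdeal (M : ℕ) [NeZero M]
    (X : Set (CuspForm (Gamma0 M) 2 × CuspForm (Gamma0 M) 2)) (a : heckeAlgC M) :
    a ∈ killIdeal M X ↔ ∀ x ∈ X, (a : Module.End ℂ (CuspForm (Gamma0 M) 2)) x.1 = 0 ∧
      (a : Module.End ℂ (CuspForm (Gamma0 M) 2)) x.2 = 0 := Iff.rfl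

/-- the evaluation of Hecke polynomials in the complex Hecke algebra -/
noncomputable def evC (M : ℕ) [NeZero M] : HeckeAlg →+* heckeAlgC M :=
  (heckeIncl M).comp (CuspForm.heckeEvalForms M 2)

theorem evC_val (M : ℕ) [NeZero M] (P : HeckeAlg) :
    ((evC M P : heckeAlgC M) : Module.End ℂ (CuspForm (Gamma0 M) 2)) =
      (CuspForm.heckeEvalForms M 2 P : Module.End ℂ (CuspForm (Gamma0 M) 2)) :=
  heckeIncl_val M _

theorem evC_apply_pair (M : ℕ) [NeZero M] (P : HeckeAlg)
    (x : CuspForm (Gamma0 M) 2 × CuspForm (Gamma0 M) 2) :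
    helper26.evalPair M P x =
      ((evC M P : Module.End ℂ (CuspForm (Gamma0 M) 2)) x.1,
        (evC M P : Module.End ℂ (CuspForm (Gamma0 M) 2)) x.2) := by
  rw [evC_val]
  rfl

theorem evC_X (M : ℕ) [NeZero M] (ℓ : Nat.Primes) :
    evC M (MvPolynomial.X ℓ) = heckeIncl M (CuspForm.heckeFormsGen M 2 ℓ) := by
  unfold evC
  rw [RingHom.comp_apply]
  congr 1
  exact CuspForm.heckeEvalForms_heckeGen M 2 ℓ

theorem isIntegral_char_evC (M : ℕ) [NeZero M] (ψ : heckeAlgC M →ₐ[ℂ] ℂ) (P : HeckeAlg) :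
    IsIntegral ℤ (ψ (evC M P)) := by
  have : Module.Finite ℤ (CuspForm.heckeAlgebra M 2 ∅) := Fermat.Agent.S22.result M 2 ∅
  have h : IsIntegral ℤ (CuspForm.heckeEvalForms M 2 P) := Algebra.IsIntegral.isIntegral _
  exact h.map ((ψ : heckeAlgC M →+* ℂ).comp (heckeIncl M)).toIntAlgHom

/-- **[LIFT+P]** : `U_q² = 1` on the `q`-new lattice ([HB3]) implies `LiftStatement`. -/
theorem lift_of_hb3 (hHB3 : HB3Statement) : LiftStatement := by
  intro W p N q hp hp2 hN hq hqN hqp ho hAnn
  have : NeZero (N * q) := ⟨(Nat.mul_pos hN hq.pos).ne'⟩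
  have : Fact p.Prime := ⟨hp⟩
  have hfin : FiniteDimensional ℂ (CuspForm (Gamma0 (N * q)) 2) :=
    Fermat.Agent.S20.finite_cuspForm_two (N * q)
  have hfinA : FiniteDimensional ℂ (heckeAlgC (N * q)) :=
    FiniteDimensional.finiteDimensional_submodule (Subalgebra.toSubmodule (heckeAlgC (N * q)))
  -- the pairs of cusp forms whose period class is `q`-new and integral
  let X : Set (CuspForm (Gamma0 (N * q)) 2 × CuspForm (Gamma0 (N * q)) 2) :=
    {x | ∃ y : Lat (N * q), b1 N q ℤ (y : Additive (Gamma0 (N * q)) →+ ℤ) = 0 ∧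
      b2 N q hq.ne_zero ℤ (y : Additive (Gamma0 (N * q)) →+ ℤ) = 0 ∧
      periodHomPair (N * q) x = cx (N * q) (y : Additive (Gamma0 (N * q)) →+ ℤ)}
  -- evaluation at `a_ℓ(W)` modulo `p`
  let θ : HeckeAlg →+* ZMod p :=
    (Int.castRingHom (ZMod p)).comp (MvPolynomial.eval (fun ℓ : Nat.Primes => W.apOfModel ℓ))
  let Sg : Set Nat.Primes := {ℓ | GoodPrime W N q p ℓ}
  let S : Submonoid (heckeAlgC (N * q)) :=
    { carrier := {a | ∃ P : HeckeAlg, P ∈ MvPolynomial.supported ℤ Sg ∧ θ P ≠ 0 ∧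
        evC (N * q) P = a}
      one_mem' := ⟨1, one_mem _, by rw [map_one]; exact one_ne_zero, map_one _⟩
      mul_mem' := by
        rintro a b ⟨P, hP, hθP, rfl⟩ ⟨Q, hQ, hθQ, rfl⟩
        exact ⟨P * Q, mul_mem hP hQ, by rw [map_mul]; exact mul_ne_zero hθP hθQ,
          map_mul _ _ _⟩ }
  have hdisj : Disjoint (killIdeal (N * q) X : Set (heckeAlgC (N * q)))
      (S : Set (heckeAlgC (N * q))) := by
    rw [Set.disjoint_left]
    rintro a haI ⟨P, hPS, hθ, rfl⟩
    apply hθ
    have hdiv : (p : ℤ) ∣ MvPolynomial.eval (fun ℓ : Nat.Primes => W.apOfModel ℓ) P := by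
      refine hAnn P (fun ℓ hℓ => MvPolynomial.mem_supported.mp hPS (Finset.mem_coe.mpr hℓ)) ?_
      intro y hy1 hy2
      obtain ⟨x, hx⟩ := exists_pair_of_lat (N * q) y.2
      have hxX : x ∈ X := ⟨y, hy1, hy2, hx⟩
      have hk := (mem_killIdeal _ _ _).mp haI x hxX
      have h0 : helper26.evalPair (N * q) P x = 0 := by
        rw [evC_apply_pair, hk.1, hk.2]
        rfl
      have h1 := periodHomPair_evalPair_eq_cx_act (N * q) ho P x y hx
      rw [h0, map_zero] at h1
      have h2 : cx (N * q) ((ho.act P y : Lat (N * q)) : Additive (Gamma0 (N * q)) →+ ℤ) =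
          cx (N * q) 0 := by
        rw [← h1, cx_zero]
      exact Subtype.ext (cx_injective _ h2)
    show ((MvPolynomial.eval (fun ℓ : Nat.Primes => W.apOfModel ℓ) P : ℤ) : ZMod p) = 0
    exact (ZMod.intCast_zmod_eq_zero_iff_dvd _ p).mpr hdiv
  obtain ⟨ψ, hψI, hψS⟩ := exists_algHom_of_disjoint (K := ℂ) (killIdeal (N * q) X) S hdisj
  -- `U_q`
  let qq : Nat.Primes := ⟨q, hq⟩
  have hqM : q ∣ N * q := dvd_mul_left q N
  let Uq : heckeAlgC (N * q) := evC (N * q) (MvPolynomial.X qq)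
  have hUval : (Uq : Module.End ℂ (CuspForm (Gamma0 (N * q)) 2)) =
      (CuspForm.heckeFormsGen (N * q) 2 qq : Module.End ℂ (CuspForm (Gamma0 (N * q)) 2)) := by
    show ((evC (N * q) (MvPolynomial.X qq) : heckeAlgC (N * q)) :
      Module.End ℂ (CuspForm (Gamma0 (N * q)) 2)) = _
    rw [evC_X, heckeIncl_val]
  have hUmem : Uq * Uq - 1 ∈ killIdeal (N * q) X := by
    rw [mem_killIdeal]
    rintro x ⟨y, hy1, hy2, hx⟩
    have hyy := hHB3 N q hq.ne_zero hN hq hqN y hy1 hy2
    have e1 : periodHomPair (N * q)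
        (helper26.heckePair (N * q) qq (helper26.heckePair (N * q) qq x)) =
        periodHomPair (N * q) x := by
      rw [helper26.periodHomPair_heckePair, helper26.periodHomPair_heckePair, hx,
        ← cx_heckeHom, ← cx_heckeHom, hyy]
    have e2 := (Fermat.Agent.S21.result (N * q)).1 e1
    have e3 : ((Uq * Uq - 1 : heckeAlgC (N * q)) :
        Module.End ℂ (CuspForm (Gamma0 (N * q)) 2)) =
        (CuspForm.heckeFormsGen (N * q) 2 qq : Module.End ℂ (CuspForm (Gamma0 (N * q)) 2)) *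
          (CuspForm.heckeFormsGen (N * q) 2 qq : Module.End ℂ (CuspForm (Gamma0 (N * q)) 2))
            - 1 := by
      rw [← hUval]
      rfl
    rw [e3]
    refine ⟨?_, ?_⟩
    · have := congrArg Prod.fst e2
      rw [LinearMap.sub_apply, Module.End.mul_apply, Module.End.one_apply, sub_eq_zero]
      exact this
    · have := congrArg Prod.snd e2
      rw [LinearMap.sub_apply, Module.End.mul_apply, Module.End.one_apply, sub_eq_zero]
      exact this
  have hψU : ψ Uq * ψ Uq = 1 := by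
    have := hψI _ hUmem
    rw [map_sub, map_mul, map_one, sub_eq_zero] at this
    exact this
  -- the eigenform
  obtain ⟨g, hg1, hg⟩ := exists_eigenform_of_character ψ
  have hgN := isNormalizedEigenform_of_eigen ψ g hg1 hg
  have hgq : qCoeff ⇑g q = ψ Uq := by
    have h1 := hg Uq
    have hUval' : (Uq : Module.End ℂ (CuspForm (Gamma0 (N * q)) 2)) =
        CuspForm.heckeULin 2 hqM := by
      rw [hUval, CuspForm.heckeFormsGen_of_dvd (q := qq) hqM]
      rfl
    rw [hUval'] at h1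
    have h2 : qCoeff ⇑(CuspForm.heckeULin 2 hqM g) 1 = ψ Uq * qCoeff ⇑g 1 := by
      rw [← qc_smul]
      exact congrArg (fun f : CuspForm (Gamma0 (N * q)) 2 => qCoeff ⇑f 1) h1
    rw [qc_heckeU hq hqM, one_mul, hg1, mul_one] at h2
    exact h2
  -- the maximal ideal
  let RS : Subalgebra ℤ HeckeAlg := MvPolynomial.supported ℤ Sg
  let φ : RS →+* integralClosure ℤ ℂ :=
    (((ψ : heckeAlgC (N * q) →+* ℂ).comp (evC (N * q))).comp RS.val.toRingHom).codRestrict
      (integralClosure ℤ ℂ) (fun P => isIntegral_char_evC (N * q) ψ P)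
  have hφ : ∀ P : RS, ((φ P : integralClosure ℤ ℂ) : ℂ) = ψ (evC (N * q) (P : HeckeAlg)) :=
    fun P => rfl
  let 𝔫 : Ideal RS := RingHom.ker (θ.comp RS.val.toRingHom)
  have h𝔫 : 𝔫 ≠ ⊤ := RingHom.ker_ne_top _
  have hker : RingHom.ker φ ≤ 𝔫 := by
    intro P hP
    rw [RingHom.mem_ker] at hP
    show θ (P : HeckeAlg) = 0
    by_contra hθ
    have h1 : ψ (evC (N * q) (P : HeckeAlg)) ≠ 0 := hψS _ ⟨P, P.2, hθ, rfl⟩
    apply h1
    rw [← hφ, hP]
    rfl
  obtain ⟨𝔪', hmax, hle⟩ := exists_maximal_ideal_map_le φ 𝔫 h𝔫 hker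
  refine ⟨g, 𝔪', hgN, hmax, ?_, ?_, ?_⟩
  · have hp𝔫 : ((p : ℕ) : RS) ∈ 𝔫 := by
      show (θ.comp RS.val.toRingHom) ((p : ℕ) : RS) = 0
      rw [map_natCast]
      exact ZMod.natCast_self p
    have := hle _ hp𝔫
    rwa [map_natCast] at this
  · intro ℓ hℓ hgood hℓM hℓp
    let ℓ' : Nat.Primes := ⟨ℓ, hℓ⟩
    have hℓS : ℓ' ∈ Sg := ⟨hgood, hℓM, hℓp⟩
    let Xℓ : RS := ⟨MvPolynomial.X ℓ', MvPolynomial.X_mem_supported.mpr hℓS⟩
    refine ⟨φ Xℓ, ?_, ?_⟩
    · rw [hφ]
      show ψ (evC (N * q) (MvPolynomial.X ℓ')) = _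
      rw [evC_X, CuspForm.heckeFormsGen_of_not_dvd (ℓ := ℓ') hℓM]
      exact (qCoeff_prime_of_eigen ψ g hg1 hg hℓ hℓM).symm
    · have hmem : Xℓ - ((W.apOfModel ℓ : ℤ) : RS) ∈ 𝔫 := by
        show (θ.comp RS.val.toRingHom) (Xℓ - ((W.apOfModel ℓ : ℤ) : RS)) = 0
        rw [map_sub, map_intCast]
        show θ (MvPolynomial.X ℓ') - _ = 0
        simp only [θ, RingHom.comp_apply, MvPolynomial.eval_X, eq_intCast]
        exact sub_self _
      have := hle _ hmem
      rwa [map_sub, map_intCast] at this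
  · show qCoeff ⇑g q ^ 2 = 1
    rw [hgq, pow_two, hψU]

end Main

end Fermat.Agent.P6.helper1
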