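import Mathlib
import Fermat.Agent.S16.helper21_Lift

/-!
# P6 / S41, module (D) duality: definitions (helper21, sub-coordinator)

* `Heis X` : the Heisenberg cocycle group `{(a, b, c, σ)}` over `Perm X`; a homomorphism
  `Ψ : SL(2, ℤ) →* Heis X` over the action is a pair of cocycles `a`, `b` together with a
  trivialisation `c` of their cup product.
* `IsTriv Γ x y θ` : `θ (γ δ) = θ γ + θ δ + x γ * y δ` on `Γ`.
* `IsPosUnip`, `IsPPU`, `Cusp Γ`, `cuspSum Γ θ` : the intrinsic cusp data of `Γ`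
  (conjugacy classes of primitive positive unipotent elements) and the sum of `θ` over them.
* `Bl Γ x y` : the intrinsic Poincaré pairing, `cuspSum Γ θ` for any trivialisation `θ`.
-/

set_option autoImplicit false

open scoped MatrixGroups
open Matrix.SpecialLinearGroup

namespace Fermat.Agent.P6.helper21

open Fermat.Agent.S16.helper21 (CoGrp)

/-- The Heisenberg cocycle group. -/
@[ext] structure Heis (X : Type*) where
  /-- first cocycle -/
  a : X → ℤ
  /-- second cocycle -/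
  b : X → ℤ
  /-- trivialisation of the cup product -/
  c : X → ℤ
  /-- the permutation part -/
  σ : Equiv.Perm X

namespace Heis

variable {X : Type*}

instance : Mul (Heis X) :=
  ⟨fun u v => ⟨fun x => u.a (v.σ x) + v.a x, fun x => u.b (v.σ x) + v.b x,
    fun x => u.c (v.σ x) + v.c x + u.a (v.σ x) * v.b x, u.σ * v.σ⟩⟩
instance : One (Heis X) := ⟨⟨fun _ => 0, fun _ => 0, fun _ => 0, 1⟩⟩
instance : Inv (Heis X) :=
  ⟨fun u => ⟨fun x => - u.a (u.σ⁻¹ x), fun x => - u.b (u.σ⁻¹ x),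
    fun x => - u.c (u.σ⁻¹ x) + u.a (u.σ⁻¹ x) * u.b (u.σ⁻¹ x), u.σ⁻¹⟩⟩

@[simp] lemma mul_a (u v : Heis X) (x : X) : (u * v).a x = u.a (v.σ x) + v.a x := rfl
@[simp] lemma mul_b (u v : Heis X) (x : X) : (u * v).b x = u.b (v.σ x) + v.b x := rfl
@[simp] lemma mul_c (u v : Heis X) (x : X) :
    (u * v).c x = u.c (v.σ x) + v.c x + u.a (v.σ x) * v.b x := rfl
@[simp] lemma mul_σ (u v : Heis X) : (u * v).σ = u.σ * v.σ := rfl
@[simp] lemma one_a (x : X) : (1 : Heis X).a x = 0 := rfl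
@[simp] lemma one_b (x : X) : (1 : Heis X).b x = 0 := rfl
@[simp] lemma one_c (x : X) : (1 : Heis X).c x = 0 := rfl
@[simp] lemma one_σ : (1 : Heis X).σ = 1 := rfl
@[simp] lemma inv_a (u : Heis X) (x : X) : (u⁻¹).a x = - u.a (u.σ⁻¹ x) := rfl
@[simp] lemma inv_b (u : Heis X) (x : X) : (u⁻¹).b x = - u.b (u.σ⁻¹ x) := rfl
@[simp] lemma inv_c (u : Heis X) (x : X) :
    (u⁻¹).c x = - u.c (u.σ⁻¹ x) + u.a (u.σ⁻¹ x) * u.b (u.σ⁻¹ x) := rfl
@[simp] lemma inv_σ (u : Heis X) : (u⁻¹).σ = u.σ⁻¹ := rfl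

instance : Group (Heis X) :=
  Group.ofLeftAxioms
    (fun u v w => by
      ext x
      · simp only [mul_a, mul_σ, Equiv.Perm.coe_mul, Function.comp_apply]; ring
      · simp only [mul_b, mul_σ, Equiv.Perm.coe_mul, Function.comp_apply]; ring
      · simp only [mul_c, mul_a, mul_b, mul_σ, Equiv.Perm.coe_mul, Function.comp_apply]; ring
      · simp only [mul_σ, mul_assoc])
    (fun u => by
      ext x <;> simp)
    (fun u => by
      ext x <;> simp)

/-- The first cocycle, as a homomorphism to the cocycle group. -/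
def toA : Heis X →* CoGrp X ℤ where
  toFun u := ⟨u.a, u.σ⟩
  map_one' := rfl
  map_mul' _ _ := rfl

/-- The second cocycle, as a homomorphism to the cocycle group. -/
def toB : Heis X →* CoGrp X ℤ where
  toFun u := ⟨u.b, u.σ⟩
  map_one' := rfl
  map_mul' _ _ := rfl

@[simp] lemma toA_f (u : Heis X) : (toA u).f = u.a := rfl
@[simp] lemma toA_σ (u : Heis X) : (toA u).σ = u.σ := rfl
@[simp] lemma toB_f (u : Heis X) : (toB u).f = u.b := rfl
@[simp] lemma toB_σ (u : Heis X) : (toB u).σ = u.σ := rfl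

end Heis

/-- `θ` trivialises the cup product of `x` and `y` on `Γ`. -/
def IsTriv (Γ : Subgroup SL(2, ℤ)) (x y : Additive Γ →+ ℤ) (θ : Γ → ℤ) : Prop :=
  ∀ γ δ : Γ, θ (γ * δ) = θ γ + θ δ + x (Additive.ofMul γ) * y (Additive.ofMul δ)

/-- Positive unipotent elements of `SL(2, ℤ)` (the conjugates of `T ^ k`, `k ≥ 0`). -/
def IsPosUnip (u : SL(2, ℤ)) : Prop :=
  (u : Matrix (Fin 2) (Fin 2) ℤ).trace = 2 ∧ 0 ≤ u 0 1 ∧ u 1 0 ≤ 0

/-- Primitive positive unipotent elements of `Γ`: the positive generators of the cusp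
stabilisers. -/
def IsPPU (Γ : Subgroup SL(2, ℤ)) (π : Γ) : Prop :=
  IsPosUnip (π : SL(2, ℤ)) ∧ π ≠ 1 ∧
    ∀ u : Γ, IsPosUnip (u : SL(2, ℤ)) → Commute u π → ∃ k : ℕ, u = π ^ k

/-- `Γ`-conjugacy on primitive positive unipotent elements. -/
def ppuSetoid (Γ : Subgroup SL(2, ℤ)) : Setoid {π : Γ // IsPPU Γ π} where
  r π π' := ∃ γ : Γ, (π' : Γ) = γ * π * γ⁻¹
  iseqv :=
    { refl := fun π => ⟨1, by simp⟩
      symm := by
        rintro π π' ⟨γ, h⟩
        exact ⟨γ⁻¹, by rw [h]; group⟩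
      trans := by
        rintro π π' π'' ⟨γ, h⟩ ⟨δ, h'⟩
        exact ⟨δ * γ, by rw [h', h]; group⟩ }

/-- The cusps of `Γ`, intrinsically. -/
def Cusp (Γ : Subgroup SL(2, ℤ)) : Type := Quotient (ppuSetoid Γ)

/-- The sum of `θ` over the positive generators of the cusp stabilisers. -/
noncomputable def cuspSum (Γ : Subgroup SL(2, ℤ)) (θ : Γ → ℤ) : ℤ :=
  ∑ᶠ c : Cusp Γ, θ ((Quotient.out c : {π : Γ // IsPPU Γ π}) : Γ)

open Classical in
/-- The intrinsic Poincaré pairing on `Hom(Γ, ℤ)` (meaningful on parabolic homs). -/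
noncomputable def Bl (Γ : Subgroup SL(2, ℤ)) (x y : Additive Γ →+ ℤ) : ℤ :=
  if h : ∃ θ : Γ → ℤ, IsTriv Γ x y θ then cuspSum Γ h.choose else 0

end Fermat.Agent.P6.helper21
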