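import Mathlib
import Fermat.Prelude.Def_ModularCurve_PeriodMap
import Fermat.Agent.P6.helper21_DualDefs

/-!
# P6 / S41, module (D) duality: the package statements (helper21, sub-coordinator)

Every package of BLUEPRINT P6-D proves one of the `Prop`s below VERBATIM
(`theorem foo : FooStatement`).  `G = SL(2, ℤ)`, `X = G ⧸ Γ` (left cosets, left action),
cocycles are homomorphisms `Φ : G →* CoGrp X ℤ` over the action (S16 helper21_CoGrp / _Lift).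
-/

set_option autoImplicit false

open scoped MatrixGroups
open Matrix.SpecialLinearGroup ModularCurve.Period

namespace Fermat.Agent.P6.helper21

open Fermat.Agent.S16.helper21 (CoGrp)
open Fermat.Agent.S21.helper83 (x0)

/-- the cocycle `Φ` lies over the permutation action of `G` on `X = G ⧸ Γ`. -/
def IsOverC (Γ : Subgroup SL(2, ℤ)) (Φ : SL(2, ℤ) →* CoGrp (SL(2, ℤ) ⧸ Γ) ℤ) : Prop :=
  ∀ g, (Φ g).σ = MulAction.toPerm g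

/-- the Heisenberg cocycle `Ψ` lies over the permutation action of `G` on `X = G ⧸ Γ`. -/
def IsOverH (Γ : Subgroup SL(2, ℤ)) (Ψ : SL(2, ℤ) →* Heis (SL(2, ℤ) ⧸ Γ)) : Prop :=
  ∀ g, (Ψ g).σ = MulAction.toPerm g

/-- **[D-HEIS]** every pair of cocycles has a Heisenberg lift (over `ℤ`). -/
def HeisLiftStatement : Prop :=
  ∀ (Γ : Subgroup SL(2, ℤ)) [Γ.FiniteIndex], (-1 : SL(2, ℤ)) ∈ Γ →
    ∀ Φ Φ' : SL(2, ℤ) →* CoGrp (SL(2, ℤ) ⧸ Γ) ℤ,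
      IsOverC Γ Φ → IsOverC Γ Φ' →
      ∃ Ψ : SL(2, ℤ) →* Heis (SL(2, ℤ) ⧸ Γ),
        IsOverH Γ Ψ ∧ Heis.toA.comp Ψ = Φ ∧ Heis.toB.comp Ψ = Φ'

/-- **[D-LIFT]** a parabolic hom has a cocycle lift vanishing on `T`. -/
def ParLiftStatement : Prop :=
  ∀ (Γ : Subgroup SL(2, ℤ)) [Γ.FiniteIndex], (-1 : SL(2, ℤ)) ∈ Γ →
    ∀ x : Additive Γ →+ ℤ, IsParabolicHom Γ x →
      ∃ Φ : SL(2, ℤ) →* CoGrp (SL(2, ℤ) ⧸ Γ) ℤ,
        IsOverC Γ Φ ∧ (∀ γ : Γ, (Φ (γ : SL(2, ℤ))).f (x0 Γ) = x (Additive.ofMul γ)) ∧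
          (Φ ModularGroup.T).f = 0

/-- **[D-SHAP]** Shapiro injectivity: a cocycle whose restriction to `Γ` vanishes is a
coboundary. -/
def ShapiroInjStatement : Prop :=
  ∀ (Γ : Subgroup SL(2, ℤ)) (Φ : SL(2, ℤ) →* CoGrp (SL(2, ℤ) ⧸ Γ) ℤ),
    IsOverC Γ Φ → (∀ γ : Γ, (Φ (γ : SL(2, ℤ))).f (x0 Γ) = 0) →
      ∃ f : (SL(2, ℤ) ⧸ Γ) → ℤ, ∀ g x, (Φ g).f x = f (g • x) - f x

/-- **[D-ORB]** the cusp bookkeeping: `T`-orbits on `G ⧸ Γ` are the cusps of `Γ`. -/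
def OrbStatement : Prop :=
  ∀ (Γ : Subgroup SL(2, ℤ)) [Γ.FiniteIndex] [Fintype (SL(2, ℤ) ⧸ Γ)], (-1 : SL(2, ℤ)) ∈ Γ →
    ∀ (c : (SL(2, ℤ) ⧸ Γ) → ℤ) (ϑ : Γ → ℤ),
      (∀ π γ : Γ, IsPPU Γ π → ϑ (γ * π * γ⁻¹) = ϑ π) →
      (∀ (g : SL(2, ℤ)) (w : ℕ) (hmem : g⁻¹ * ModularGroup.T ^ w * g ∈ Γ), 0 < w →
        (∀ w' : ℕ, 0 < w' → w' < w → g⁻¹ * ModularGroup.T ^ w' * g ∉ Γ) →
          ∑ i ∈ Finset.range w, c ((ModularGroup.T ^ i * g : SL(2, ℤ)) : SL(2, ℤ) ⧸ Γ) =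
            ϑ ⟨g⁻¹ * ModularGroup.T ^ w * g, hmem⟩) →
      ∑ x, c x = cuspSum Γ ϑ

/-- **[D-FIN]** finiteness of the set of cusps (so that `cuspSum` is an honest finite sum). -/
def CuspFiniteStatement : Prop :=
  ∀ (Γ : Subgroup SL(2, ℤ)) [Γ.FiniteIndex], (-1 : SL(2, ℤ)) ∈ Γ → Finite (Cusp Γ)

/-- **[D-CONJ]** a trivialisation of the cup product of two parabolic homs is a class function
on unipotent elements, and is additive on powers. -/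
def TrivConjStatement : Prop :=
  ∀ (Γ : Subgroup SL(2, ℤ)) (x y : Additive Γ →+ ℤ) (θ : Γ → ℤ),
    IsParabolicHom Γ x → IsParabolicHom Γ y → IsTriv Γ x y θ →
      ∀ π γ : Γ, ((π : SL(2, ℤ)) : Matrix (Fin 2) (Fin 2) ℤ).trace = 2 →
        θ (γ * π * γ⁻¹) = θ π ∧ ∀ k : ℕ, θ (π ^ k) = k * θ π

/-- **[D-WD]** existence of trivialisations and independence of `Bl` of the choice. -/
def BlEqStatement : Prop :=
  ∀ (Γ : Subgroup SL(2, ℤ)) [Γ.FiniteIndex], (-1 : SL(2, ℤ)) ∈ Γ →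
    ∀ x y : Additive Γ →+ ℤ, IsParabolicHom Γ x → IsParabolicHom Γ y →
      (∃ θ : Γ → ℤ, IsTriv Γ x y θ) ∧ ∀ θ : Γ → ℤ, IsTriv Γ x y θ → Bl Γ x y = cuspSum Γ θ

/-- **[D-BIL]** `Bl` is biadditive and antisymmetric on parabolic homs. -/
def BilStatement : Prop :=
  ∀ (Γ : Subgroup SL(2, ℤ)) [Γ.FiniteIndex], (-1 : SL(2, ℤ)) ∈ Γ →
    ∀ x x' y : Additive Γ →+ ℤ, IsParabolicHom Γ x → IsParabolicHom Γ x' → IsParabolicHom Γ y →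
      Bl Γ (x + x') y = Bl Γ x y + Bl Γ x' y ∧ Bl Γ y (x + x') = Bl Γ y x + Bl Γ y x' ∧
        Bl Γ x y = - Bl Γ y x

/-- **[D-ISO]** `Bl` is invariant under isomorphisms preserving positive unipotent elements. -/
def IsoStatement : Prop :=
  ∀ (Γ' Γ'' : Subgroup SL(2, ℤ)) [Γ'.FiniteIndex] [Γ''.FiniteIndex],
    (-1 : SL(2, ℤ)) ∈ Γ' → (-1 : SL(2, ℤ)) ∈ Γ'' →
    ∀ e : Γ' ≃* Γ'', (∀ γ : Γ', IsPosUnip (γ : SL(2, ℤ)) ↔ IsPosUnip ((e γ : Γ'') : SL(2, ℤ))) →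
      ∀ x y : Additive Γ'' →+ ℤ, IsParabolicHom Γ'' x → IsParabolicHom Γ'' y →
        IsParabolicHom Γ' (x.comp e.toMonoidHom.toAdditive) →
        IsParabolicHom Γ' (y.comp e.toMonoidHom.toAdditive) →
        Bl Γ' (x.comp e.toMonoidHom.toAdditive) (y.comp e.toMonoidHom.toAdditive) = Bl Γ'' x y

/-- **[D-MODEL]** model = intrinsic: for a Heisenberg lift whose first cocycle vanishes on `T`
and whose second cocycle restricts to a parabolic hom, the pairing is the total mass of the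
trivialisation at `T`. -/
def ModelStatement : Prop :=
  ∀ (Γ : Subgroup SL(2, ℤ)) [Γ.FiniteIndex] [Fintype (SL(2, ℤ) ⧸ Γ)], (-1 : SL(2, ℤ)) ∈ Γ →
    ∀ (Ψ : SL(2, ℤ) →* Heis (SL(2, ℤ) ⧸ Γ)) (x y : Additive Γ →+ ℤ),
      IsOverH Γ Ψ → (Ψ ModularGroup.T).a = 0 →
      (∀ γ : Γ, (Ψ (γ : SL(2, ℤ))).a (x0 Γ) = x (Additive.ofMul γ)) →
      (∀ γ : Γ, (Ψ (γ : SL(2, ℤ))).b (x0 Γ) = y (Additive.ofMul γ)) →
      IsParabolicHom Γ x → IsParabolicHom Γ y →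
        Bl Γ x y = ∑ z, (Ψ ModularGroup.T).c z

/-- **[D-EVAL]** evaluation of the model pairing: if the first cocycle vanishes on `T` and the
second one is `n₁ ∘ S - n₁` at `S` and `n₂ ∘ (S T) - n₂` at `S T`, the pairing is
`⟨Φ(S), n₂ - n₁⟩`. -/
def EvalStatement : Prop :=
  ∀ (Γ : Subgroup SL(2, ℤ)) [Γ.FiniteIndex] [Fintype (SL(2, ℤ) ⧸ Γ)], (-1 : SL(2, ℤ)) ∈ Γ →
    ∀ (Φ Φ' : SL(2, ℤ) →* CoGrp (SL(2, ℤ) ⧸ Γ) ℤ) (x y : Additive Γ →+ ℤ)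
      (n₁ n₂ : (SL(2, ℤ) ⧸ Γ) → ℤ),
      IsOverC Γ Φ → IsOverC Γ Φ' → (Φ ModularGroup.T).f = 0 →
      (∀ γ : Γ, (Φ (γ : SL(2, ℤ))).f (x0 Γ) = x (Additive.ofMul γ)) →
      (∀ γ : Γ, (Φ' (γ : SL(2, ℤ))).f (x0 Γ) = y (Additive.ofMul γ)) →
      IsParabolicHom Γ x → IsParabolicHom Γ y →
      (∀ z, (Φ' ModularGroup.S).f z = n₁ (ModularGroup.S • z) - n₁ z) →
      (∀ z, (Φ' (ModularGroup.S * ModularGroup.T)).f z =
        n₂ ((ModularGroup.S * ModularGroup.T) • z) - n₂ z) →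
        Bl Γ x y = ∑ z, (Φ ModularGroup.S).f z * (n₂ z - n₁ z)

/-- **[D-P1]** `Bl` is non-degenerate modulo every prime on parabolic homs. -/
def NondegStatement : Prop :=
  ∀ (Γ : Subgroup SL(2, ℤ)) [Γ.FiniteIndex], (-1 : SL(2, ℤ)) ∈ Γ →
    ∀ p : ℕ, p.Prime → ∀ x : Additive Γ →+ ℤ, IsParabolicHom Γ x →
      (∀ y : Additive Γ →+ ℤ, IsParabolicHom Γ y → (p : ℤ) ∣ Bl Γ x y) →
        ∃ x' : Additive Γ →+ ℤ, IsParabolicHom Γ x' ∧ x = p • x'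

/-- restriction along `Γ' ≤ Γ`. -/
def resHom {Γ' Γ : Subgroup SL(2, ℤ)} (h : Γ' ≤ Γ) (x : Additive Γ →+ ℤ) : Additive Γ' →+ ℤ :=
  x.comp (Subgroup.inclusion h).toAdditive

/-- transfer along `Γ' ≤ Γ` (Mathlib `MonoidHom.transfer` for `Γ'.subgroupOf Γ`). -/
noncomputable def corHom {Γ' Γ : Subgroup SL(2, ℤ)} (h : Γ' ≤ Γ) [(Γ'.subgroupOf Γ).FiniteIndex]
    (y : Additive Γ' →+ ℤ) : Additive Γ →+ ℤ :=
  MonoidHom.toAdditiveLeft (MonoidHom.transfer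
    ((AddMonoidHom.toMultiplicativeRight y).comp
      (Subgroup.subgroupOfEquivOfLe h).toMonoidHom))

/-- **[D-ADJ]** restriction and transfer are adjoint for `Bl`. -/
def AdjStatement : Prop :=
  ∀ (Γ' Γ : Subgroup SL(2, ℤ)) [Γ'.FiniteIndex] [Γ.FiniteIndex] (h : Γ' ≤ Γ)
    [(Γ'.subgroupOf Γ).FiniteIndex], (-1 : SL(2, ℤ)) ∈ Γ' →
    ∀ (x : Additive Γ →+ ℤ) (y : Additive Γ' →+ ℤ), IsParabolicHom Γ x → IsParabolicHom Γ' y →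
      IsParabolicHom Γ (corHom h y) ∧ Bl Γ' (resHom h x) y = Bl Γ x (corHom h y)

end Fermat.Agent.P6.helper21
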