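import Mathlib
import Fermat.Agent.P6.helper21_DualStmts
import Fermat.Agent.P6.helper4_S41Defs

/-!
# P6-D: the objects and statements of the final glue (helper21)

* `jTwoImage M r hr ≤ SL(2, ℤ)` : the image of `jTwo M r hr : Γ₀(M r) →* Γ₀(M)`
  (`= Γ₀(M) ∩ Γ⁰(r)`), `jTwoEquiv : Γ₀(M r) ≃* jTwoImage`.
* `JTwoIsoStatement` : what [D-ISO-J] delivers about `jTwoEquiv`.
* `GluePushStatement` : identification of `helper4.a1 a2 b1 b2` with `resHom`, `corHom`.
-/

set_option autoImplicit false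

open scoped MatrixGroups
open Matrix.SpecialLinearGroup ModularCurve.Period CongruenceSubgroup

namespace Fermat.Agent.P6.helper21

open Fermat.Agent.P6.helper77 (jOne jTwo jTwo_injective gamma0_mul_le)

/-- `jTwo` composed with the inclusion `Γ₀(M) ≤ SL(2, ℤ)`. -/
def jTwoSL (M r : ℕ) (hr : r ≠ 0) : Gamma0 (M * r) →* SL(2, ℤ) :=
  (Gamma0 M).subtype.comp (jTwo M r hr)

theorem jTwoSL_injective (M r : ℕ) (hr : r ≠ 0) : Function.Injective (jTwoSL M r hr) :=
  (Subgroup.subtype_injective _).comp (jTwo_injective M r hr)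

/-- the image of `jTwo` in `SL(2, ℤ)`. -/
def jTwoImage (M r : ℕ) (hr : r ≠ 0) : Subgroup SL(2, ℤ) := (jTwoSL M r hr).range

theorem jTwoImage_le (M r : ℕ) (hr : r ≠ 0) : jTwoImage M r hr ≤ Gamma0 M := by
  rintro _ ⟨γ, rfl⟩
  exact (jTwo M r hr γ).2

/-- `jTwo` as an isomorphism onto its image. -/
noncomputable def jTwoEquiv (M r : ℕ) (hr : r ≠ 0) : Gamma0 (M * r) ≃* jTwoImage M r hr :=
  MonoidHom.ofInjective (jTwoSL_injective M r hr)

@[simp] theorem jTwoEquiv_coe (M r : ℕ) (hr : r ≠ 0) (γ : Gamma0 (M * r)) :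
    ((jTwoEquiv M r hr γ : jTwoImage M r hr) : SL(2, ℤ)) = (jTwo M r hr γ : SL(2, ℤ)) := rfl

/-- **[D-ISO-J]** `jTwoEquiv` is an isomorphism between finite index subgroups containing `-1`
which preserves positive unipotent elements and parabolic homs. -/
def JTwoIsoStatement : Prop :=
  ∀ (M r : ℕ) (hr : r ≠ 0), 0 < M →
    (jTwoImage M r hr).FiniteIndex ∧ (-1 : SL(2, ℤ)) ∈ jTwoImage M r hr ∧
    (∀ γ : Gamma0 (M * r), IsPosUnip (γ : SL(2, ℤ)) ↔
      IsPosUnip ((jTwoEquiv M r hr γ : jTwoImage M r hr) : SL(2, ℤ))) ∧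
    (∀ y : Additive (jTwoImage M r hr) →+ ℤ, IsParabolicHom (jTwoImage M r hr) y ↔
      IsParabolicHom (Gamma0 (M * r)) (y.comp (jTwoEquiv M r hr).toMonoidHom.toAdditive))

/-- **[D-GLUE-PUSH]** `helper4`'s degeneracy maps and transfers in terms of `resHom`, `corHom`
and `jTwoEquiv`. -/
def GluePushStatement : Prop :=
  ∀ (M r : ℕ) (hr : r ≠ 0), 0 < M →
    ∀ [((Gamma0 (M * r)).subgroupOf (Gamma0 M)).FiniteIndex]
      [((jTwoImage M r hr).subgroupOf (Gamma0 M)).FiniteIndex],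
    (∀ x : Additive (Gamma0 M) →+ ℤ,
      helper4.a1 M r ℤ x = resHom (gamma0_mul_le M r) x ∧
      helper4.a2 M r hr ℤ x =
        (resHom (jTwoImage_le M r hr) x).comp (jTwoEquiv M r hr).toMonoidHom.toAdditive) ∧
    (∀ y : Additive (Gamma0 (M * r)) →+ ℤ,
      helper4.b1 M r ℤ y = corHom (gamma0_mul_le M r) y ∧
      helper4.b2 M r hr ℤ y =
        corHom (jTwoImage_le M r hr) (y.comp (jTwoEquiv M r hr).symm.toMonoidHom.toAdditive))

end Fermat.Agent.P6.helper21
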