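import Mathlib
import Fermat.Agent.P6.helper21_GlueDefs

/-!
# P6-D [D-ISO-J]: `JTwoIsoStatement` (helper21)
-/

set_option autoImplicit false

open scoped MatrixGroups
open Matrix.SpecialLinearGroup ModularCurve.Period CongruenceSubgroup

namespace Fermat.Agent.P6.helper21

open Fermat.Agent.P6.helper77 (jOne jTwo jTwo_injective gamma0_mul_le gamma0_mem_iff_dvd
  dvd_of_mem_gamma0_mul)

section

variable (M r : ℕ) (hr : r ≠ 0)

theorem jTwo_coe_matrix (γ : Gamma0 (M * r)) :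
    ((jTwo M r hr γ : Gamma0 M) : SL(2, ℤ)).1 =
      !![(γ : SL(2, ℤ)) 0 0, (r : ℤ) * (γ : SL(2, ℤ)) 0 1;
        (γ : SL(2, ℤ)) 1 0 / (r : ℤ), (γ : SL(2, ℤ)) 1 1] := rfl

theorem jTwo_apply_zero_zero (γ : Gamma0 (M * r)) :
    ((jTwo M r hr γ : Gamma0 M) : SL(2, ℤ)) 0 0 = (γ : SL(2, ℤ)) 0 0 := rfl

theorem jTwo_apply_zero_one (γ : Gamma0 (M * r)) :
    ((jTwo M r hr γ : Gamma0 M) : SL(2, ℤ)) 0 1 = (r : ℤ) * (γ : SL(2, ℤ)) 0 1 := rfl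

theorem jTwo_apply_one_zero (γ : Gamma0 (M * r)) :
    ((jTwo M r hr γ : Gamma0 M) : SL(2, ℤ)) 1 0 = (γ : SL(2, ℤ)) 1 0 / (r : ℤ) := rfl

theorem jTwo_apply_one_one (γ : Gamma0 (M * r)) :
    ((jTwo M r hr γ : Gamma0 M) : SL(2, ℤ)) 1 1 = (γ : SL(2, ℤ)) 1 1 := rfl

theorem jTwo_trace (γ : Gamma0 (M * r)) :
    (((jTwo M r hr γ : Gamma0 M) : SL(2, ℤ)) : Matrix (Fin 2) (Fin 2) ℤ).trace =
      ((γ : SL(2, ℤ)) : Matrix (Fin 2) (Fin 2) ℤ).trace := by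
  rw [Matrix.trace_fin_two, Matrix.trace_fin_two]
  rfl

theorem isPosUnip_jTwo_iff (γ : Gamma0 (M * r)) :
    IsPosUnip (γ : SL(2, ℤ)) ↔ IsPosUnip ((jTwo M r hr γ : Gamma0 M) : SL(2, ℤ)) := by
  have hr' : (0 : ℤ) < r := by exact_mod_cast Nat.pos_of_ne_zero hr
  obtain ⟨t, ht⟩ := dvd_of_mem_gamma0_mul γ.2
  have h10 : (γ : SL(2, ℤ)) 1 0 / (r : ℤ) = t := by
    rw [ht, Int.mul_ediv_cancel_left _ hr'.ne']
  unfold IsPosUnip
  rw [jTwo_trace, jTwo_apply_zero_one, jTwo_apply_one_zero, h10, ht]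
  constructor
  · rintro ⟨h1, h2, h3⟩
    refine ⟨h1, by positivity, ?_⟩
    by_contra h
    rw [not_le] at h
    nlinarith
  · rintro ⟨h1, h2, h3⟩
    refine ⟨h1, ?_, ?_⟩
    · by_contra h
      rw [not_le] at h
      nlinarith
    · nlinarith

theorem neg_one_mem_jTwoImage : (-1 : SL(2, ℤ)) ∈ jTwoImage M r hr := by
  refine ⟨⟨-1, Fermat.Agent.S16.helper21.neg_one_mem_Gamma0 _⟩, ?_⟩
  apply Subtype.ext
  show ((jTwo M r hr ⟨-1, _⟩ : Gamma0 M) : SL(2, ℤ)).1 = _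
  rw [jTwo_coe_matrix]
  ext i j
  fin_cases i <;> fin_cases j <;> simp

theorem gamma_le_jTwoImage : Gamma (M * r) ≤ jTwoImage M r hr := by
  intro g hg
  rw [Gamma_mem] at hg
  obtain ⟨-, h01, h10, -⟩ := hg
  have hr' : (r : ℤ) ≠ 0 := by exact_mod_cast hr
  have h01' : ((M * r : ℕ) : ℤ) ∣ g 0 1 := (ZMod.intCast_zmod_eq_zero_iff_dvd _ _).1 h01
  have h10' : ((M * r : ℕ) : ℤ) ∣ g 1 0 := (ZMod.intCast_zmod_eq_zero_iff_dvd _ _).1 h10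
  obtain ⟨s, hs⟩ : (r : ℤ) ∣ g 0 1 := dvd_trans ⟨(M : ℤ), by push_cast; ring⟩ h01'
  have hdet : g 0 0 * g 1 1 - g 0 1 * g 1 0 = 1 := by
    have := g.det_coe
    rwa [Matrix.det_fin_two] at this
  -- the preimage
  let γ₀ : SL(2, ℤ) := ⟨!![g 0 0, s; g 1 0 * r, g 1 1], by
    rw [Matrix.det_fin_two_of]
    rw [hs] at hdet
    linear_combination hdet⟩
  have hγ₀ : γ₀ ∈ Gamma0 (M * r) := by
    rw [gamma0_mem_iff_dvd]
    show ((M * r : ℕ) : ℤ) ∣ g 1 0 * r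
    exact Dvd.dvd.mul_right h10' _
  refine ⟨⟨γ₀, hγ₀⟩, ?_⟩
  apply Subtype.ext
  show ((jTwo M r hr ⟨γ₀, hγ₀⟩ : Gamma0 M) : SL(2, ℤ)).1 = _
  rw [jTwo_coe_matrix]
  ext i j
  fin_cases i <;> fin_cases j
  · rfl
  · show (r : ℤ) * s = g 0 1
    rw [hs]
  · show g 1 0 * r / (r : ℤ) = g 1 0
    exact Int.mul_ediv_cancel _ hr'
  · rfl

end

/-- **[D-ISO-J]** -/
theorem jTwoIso : JTwoIsoStatement := by
  intro M r hr hM
  have hMr : M * r ≠ 0 := Nat.mul_ne_zero hM.ne' hr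
  have : NeZero (M * r) := ⟨hMr⟩
  refine ⟨Subgroup.finiteIndex_of_le (gamma_le_jTwoImage M r hr), neg_one_mem_jTwoImage M r hr,
    fun γ => isPosUnip_jTwo_iff M r hr γ, fun y => ?_⟩
  constructor
  · intro hy γ hγ
    apply hy (jTwoEquiv M r hr γ)
    rw [jTwoEquiv_coe, jTwo_trace]
    exact hγ
  · intro hy δ hδ
    have h := hy ((jTwoEquiv M r hr).symm δ) (by
      have h1 := jTwo_trace M r hr ((jTwoEquiv M r hr).symm δ)
      rw [← jTwoEquiv_coe, MulEquiv.apply_symm_apply] at h1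
      rw [← h1]
      exact hδ)
    have h2 : (y.comp (jTwoEquiv M r hr).toMonoidHom.toAdditive)
        (Additive.ofMul ((jTwoEquiv M r hr).symm δ)) = y (Additive.ofMul δ) := by
      show y (Additive.ofMul ((jTwoEquiv M r hr) ((jTwoEquiv M r hr).symm δ))) = _
      rw [MulEquiv.apply_symm_apply]
    rw [← h2]
    exact h

end Fermat.Agent.P6.helper21
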