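import Fermat.Agent.P6.helper21_DualStmts
import Fermat.Agent.S16.helper64_PSL2Z

/-!
# P6 / S41, module (D) duality, package [D-EVAL] (helper33, row 889)

`evalStatement_of : ModelStatement → EvalStatement`.

The explicit integral Heisenberg lift: for a cocycle `Φ` over the action and ANY function
`n : X → ℤ`, `g ↦ (Φ(g).f, n ∘ g - n, - Φ(g).f * n, σ_g)` is a homomorphism `G →* Heis X`
(`evalLift`).  With `s := evalLift Φ n₁ S`, `r := evalLift Φ n₂ (S T)` one has `s ^ 2 = 1 = r ^ 3`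
(because `Φ (-1) = 1`), so the universal property of `C₂ * C₃` gives a Heisenberg cocycle `Ψ` with
`Ψ S = s`, `Ψ (S T) = r`; it lifts `(Φ, Φ')`, and `Ψ T = s * r` has
`c z = Φ(S).f (R z) * (n₂ - n₁) (R z)`, `R = S T`.
-/

set_option autoImplicit false

open scoped MatrixGroups
open Matrix.SpecialLinearGroup ModularCurve.Period

namespace Fermat.Agent.P6.helper33

open Fermat.Agent.S16.helper21 (CoGrp)
open Fermat.Agent.S21.helper83 (x0)
open Fermat.Agent.P6.helper21

section general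

variable {G X : Type*} [Group G] [MulAction G X]

/-- The explicit Heisenberg lift of a cocycle `Φ` and the coboundary of `n`. -/
def evalLift (Φ : G →* CoGrp X ℤ) (hΦ : ∀ g, (Φ g).σ = MulAction.toPerm g) (n : X → ℤ) :
    G →* Heis X where
  toFun g := ⟨(Φ g).f, fun z => n (g • z) - n z, fun z => - (Φ g).f z * n z, MulAction.toPerm g⟩
  map_one' := by
    ext z
    · show (Φ 1).f z = 0
      rw [map_one]; rfl
    · show n ((1 : G) • z) - n z = 0
      rw [one_smul, sub_self]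
    · show - (Φ 1).f z * n z = 0
      rw [map_one]
      show - (0 : ℤ) * n z = 0
      ring
    · show (MulAction.toPerm (1 : G) : Equiv.Perm X) z = (1 : Equiv.Perm X) z
      simp
  map_mul' g h := by
    ext z
    · show (Φ (g * h)).f z = (Φ g).f (MulAction.toPerm h z) + (Φ h).f z
      rw [CoGrp.hom_f_mul Φ hΦ]
      rfl
    · show n ((g * h) • z) - n z = (n (g • (MulAction.toPerm h z)) - n (MulAction.toPerm h z)) +
        (n (h • z) - n z)
      rw [mul_smul]
      show n (g • h • z) - n z = (n (g • h • z) - n (h • z)) + (n (h • z) - n z)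
      ring
    · show - (Φ (g * h)).f z * n z = - (Φ g).f (MulAction.toPerm h z) * n (MulAction.toPerm h z) +
        - (Φ h).f z * n z + (Φ g).f (MulAction.toPerm h z) *
          (n (h • z) - n z)
      rw [CoGrp.hom_f_mul Φ hΦ]
      show - ((Φ g).f (h • z) + (Φ h).f z) * n z = - (Φ g).f (h • z) * n (h • z) +
        - (Φ h).f z * n z + (Φ g).f (h • z) * (n (h • z) - n z)
      ring
    · show (MulAction.toPerm (g * h) : Equiv.Perm X) z =
        (MulAction.toPerm g * MulAction.toPerm h : Equiv.Perm X) z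
      simp [mul_smul]

variable (Φ : G →* CoGrp X ℤ) (hΦ : ∀ g, (Φ g).σ = MulAction.toPerm g) (n : X → ℤ)

@[simp] lemma evalLift_a (g : G) : (evalLift Φ hΦ n g).a = (Φ g).f := rfl
@[simp] lemma evalLift_b (g : G) (z : X) : (evalLift Φ hΦ n g).b z = n (g • z) - n z := rfl
@[simp] lemma evalLift_c (g : G) (z : X) : (evalLift Φ hΦ n g).c z = - (Φ g).f z * n z := rfl
@[simp] lemma evalLift_σ (g : G) : (evalLift Φ hΦ n g).σ = MulAction.toPerm g := rfl

/-- the lift is trivial at an element which acts trivially and where the cocycle vanishes -/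
lemma evalLift_eq_one {g : G} (hg : ∀ z : X, g • z = z) (hf : (Φ g).f = 0) :
    evalLift Φ hΦ n g = 1 := by
  ext z
  · rw [evalLift_a, hf]; rfl
  · rw [evalLift_b, hg, sub_self]; rfl
  · rw [evalLift_c, hf]
    show - (0 : ℤ) * n z = 0
    ring
  · rw [evalLift_σ]
    show g • z = z
    exact hg z

end general

section main

variable (Γ : Subgroup SL(2, ℤ))

/-- `-1 ∈ Γ` acts trivially on `G ⧸ Γ` -/
lemma eval_neg_one_smul (hneg : (-1 : SL(2, ℤ)) ∈ Γ) (z : SL(2, ℤ) ⧸ Γ) :
    (-1 : SL(2, ℤ)) • z = z := by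
  induction z using Quotient.inductionOn with
  | _ g =>
    show (((-1 : SL(2, ℤ)) * g : SL(2, ℤ)) : SL(2, ℤ) ⧸ Γ) = (g : SL(2, ℤ) ⧸ Γ)
    have h : (-1 : SL(2, ℤ)) * g = g * (-1) := by
      rw [neg_mul, one_mul, mul_neg, mul_one]
    rw [h]
    exact QuotientGroup.mk_mul_of_mem g hneg

/-- a cocycle over the action vanishes at `-1` -/
lemma eval_hom_f_neg_one (hneg : (-1 : SL(2, ℤ)) ∈ Γ)
    (Φ : SL(2, ℤ) →* CoGrp (SL(2, ℤ) ⧸ Γ) ℤ) (hΦ : ∀ g, (Φ g).σ = MulAction.toPerm g) :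
    (Φ (-1)).f = 0 := by
  funext z
  have h := CoGrp.hom_f_mul Φ hΦ (-1) (-1) z
  rw [eval_neg_one_smul Γ hneg] at h
  have h1 : ((-1 : SL(2, ℤ)) * (-1)) = 1 := by
    rw [neg_mul, one_mul, neg_neg]
  rw [h1, CoGrp.hom_f_one] at h
  show (Φ (-1)).f z = 0
  omega

lemma eval_S_mul_S : ModularGroup.S * ModularGroup.S = (-1 : SL(2, ℤ)) := by decide

lemma eval_ST_cube : (ModularGroup.S * ModularGroup.T) *
    ((ModularGroup.S * ModularGroup.T) * (ModularGroup.S * ModularGroup.T)) =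
      (-1 : SL(2, ℤ)) := by
  decide

/-- **[D-EVAL]**, from **[D-MODEL]**. -/
theorem evalStatement_of (hM : ModelStatement) : EvalStatement := by
  intro Γ _ _ hneg Φ Φ' x y n₁ n₂ hΦ hΦ' hT hx hy hpx hpy h1 h2
  have hone₁ : evalLift Φ hΦ n₁ (-1) = 1 :=
    evalLift_eq_one Φ hΦ n₁ (eval_neg_one_smul Γ hneg) (eval_hom_f_neg_one Γ hneg Φ hΦ)
  have hone₂ : evalLift Φ hΦ n₂ (-1) = 1 :=
    evalLift_eq_one Φ hΦ n₂ (eval_neg_one_smul Γ hneg) (eval_hom_f_neg_one Γ hneg Φ hΦ)
  have hs : (evalLift Φ hΦ n₁ ModularGroup.S) ^ 2 = 1 := by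
    rw [← map_pow, pow_two, eval_S_mul_S, hone₁]
  have hr : (evalLift Φ hΦ n₂ (ModularGroup.S * ModularGroup.T)) ^ 3 = 1 := by
    rw [← map_pow, pow_succ, pow_two, mul_assoc, eval_ST_cube, hone₂]
  obtain ⟨Ψ, hΨS, hΨR, -⟩ := Fermat.Agent.S16.helper64.exists_hom_of_sq_cube
    (evalLift Φ hΦ n₁ ModularGroup.S) (evalLift Φ hΦ n₂ (ModularGroup.S * ModularGroup.T)) hs hr
  -- `Ψ` lifts `Φ` and `Φ'`
  have hA : Heis.toA.comp Ψ = Φ := by
    apply Fermat.Agent.S16.helper64.hom_ext_S_ST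
    · rw [MonoidHom.comp_apply, hΨS]
      ext z
      · rfl
      · show (MulAction.toPerm ModularGroup.S : Equiv.Perm (SL(2, ℤ) ⧸ Γ)) z = (Φ ModularGroup.S).σ z
        rw [hΦ]
    · rw [MonoidHom.comp_apply, hΨR]
      ext z
      · rfl
      · show (MulAction.toPerm (ModularGroup.S * ModularGroup.T) :
          Equiv.Perm (SL(2, ℤ) ⧸ Γ)) z = (Φ (ModularGroup.S * ModularGroup.T)).σ z
        rw [hΦ]
  have hB : Heis.toB.comp Ψ = Φ' := by
    apply Fermat.Agent.S16.helper64.hom_ext_S_ST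
    · rw [MonoidHom.comp_apply, hΨS]
      ext z
      · show n₁ (ModularGroup.S • z) - n₁ z = (Φ' ModularGroup.S).f z
        rw [h1]
      · show (MulAction.toPerm ModularGroup.S : Equiv.Perm (SL(2, ℤ) ⧸ Γ)) z =
          (Φ' ModularGroup.S).σ z
        rw [hΦ']
    · rw [MonoidHom.comp_apply, hΨR]
      ext z
      · show n₂ ((ModularGroup.S * ModularGroup.T) • z) - n₂ z =
          (Φ' (ModularGroup.S * ModularGroup.T)).f z
        rw [h2]
      · show (MulAction.toPerm (ModularGroup.S * ModularGroup.T) :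
          Equiv.Perm (SL(2, ℤ) ⧸ Γ)) z = (Φ' (ModularGroup.S * ModularGroup.T)).σ z
        rw [hΦ']
  have ha : ∀ g, (Ψ g).a = (Φ g).f := fun g => by
    rw [← hA]; rfl
  have hb : ∀ g, (Ψ g).b = (Φ' g).f := fun g => by
    rw [← hB]; rfl
  have hover : IsOverH Γ Ψ := fun g => by
    have h : (Ψ g).σ = (Φ g).σ := by rw [← hA]; rfl
    rw [h, hΦ]
  have hmodel := hM Γ hneg Ψ x y hover (by rw [ha, hT])
    (fun γ => by rw [ha]; exact hx γ) (fun γ => by rw [hb]; exact hy γ) hpx hpy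
  rw [hmodel]
  -- the value at `T`
  have hSinv : Ψ ModularGroup.S⁻¹ = Ψ ModularGroup.S := by
    rw [map_inv, hΨS]
    exact inv_eq_of_mul_eq_one_left (by rw [← pow_two]; exact hs)
  have hΨT : Ψ ModularGroup.T = evalLift Φ hΦ n₁ ModularGroup.S *
      evalLift Φ hΦ n₂ (ModularGroup.S * ModularGroup.T) := by
    have hTeq : (ModularGroup.T : SL(2, ℤ)) =
        ModularGroup.S⁻¹ * (ModularGroup.S * ModularGroup.T) := by group
    calc Ψ ModularGroup.T = Ψ (ModularGroup.S⁻¹ * (ModularGroup.S * ModularGroup.T)) :=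
          congrArg Ψ hTeq
      _ = _ := by rw [map_mul, hSinv, hΨS, hΨR]
  have haR : ∀ z, (Φ (ModularGroup.S * ModularGroup.T)).f z =
      - (Φ ModularGroup.S).f ((ModularGroup.S * ModularGroup.T) • z) := by
    intro z
    have h := congrArg (fun u : Heis (SL(2, ℤ) ⧸ Γ) => u.a z) hΨT
    have h' : (Φ ModularGroup.T).f z =
        (Φ ModularGroup.S).f ((ModularGroup.S * ModularGroup.T) • z) +
          (Φ (ModularGroup.S * ModularGroup.T)).f z := by
      rw [← ha]
      exact h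
    rw [hT] at h'
    have h0 : (0 : (SL(2, ℤ) ⧸ Γ) → ℤ) z = 0 := rfl
    rw [h0] at h'
    omega
  have hc : ∀ z, (Ψ ModularGroup.T).c z =
      (Φ ModularGroup.S).f ((ModularGroup.S * ModularGroup.T) • z) *
        (n₂ ((ModularGroup.S * ModularGroup.T) • z) -
          n₁ ((ModularGroup.S * ModularGroup.T) • z)) := by
    intro z
    rw [hΨT]
    show - (Φ ModularGroup.S).f ((ModularGroup.S * ModularGroup.T) • z) *
        n₁ ((ModularGroup.S * ModularGroup.T) • z) +
      - (Φ (ModularGroup.S * ModularGroup.T)).f z * n₂ z +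
      (Φ ModularGroup.S).f ((ModularGroup.S * ModularGroup.T) • z) *
        (n₂ ((ModularGroup.S * ModularGroup.T) • z) - n₂ z) = _
    rw [haR z]
    ring
  rw [Finset.sum_congr rfl (fun z _ => hc z)]
  exact Equiv.sum_comp (MulAction.toPerm (ModularGroup.S * ModularGroup.T))
    (fun z => (Φ ModularGroup.S).f z * (n₂ z - n₁ z))

end main

end Fermat.Agent.P6.helper33
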