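import Mathlib

set_option autoImplicit false

open Finset

namespace Fermat.Agent.P6.helper99

/-! ## Coboundaries for a permutation of finite order -/

section Cob

variable {X : Type*} (t : Equiv.Perm X)

/-- partial sums of `f` along the orbit of `y` -/
def psum (f : X → ℤ) (y : X) (i : ℕ) : ℤ := ∑ j ∈ range i, f ((t ^ j) y)

lemma psum_zero (f : X → ℤ) (y : X) : psum t f y 0 = 0 := by simp [psum]

lemma psum_succ (f : X → ℤ) (y : X) (i : ℕ) :
    psum t f y (i + 1) = psum t f y i + f ((t ^ i) y) := by
  simp [psum, Finset.sum_range_succ]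

lemma psum_add (f : X → ℤ) (y : X) (a b : ℕ) :
    psum t f y (a + b) = psum t f y a + psum t f ((t ^ a) y) b := by
  induction b with
  | zero => simp [psum_zero]
  | succ b ih =>
    rw [← add_assoc, psum_succ, ih, psum_succ, add_assoc]
    have : (t ^ (a + b)) y = (t ^ b) ((t ^ a) y) := by
      rw [add_comm a b, pow_add, Equiv.Perm.mul_apply]
    rw [this]

lemma psum_mul_of_fixed (f : X → ℤ) (y : X) (d : ℕ) (hd : (t ^ d) y = y) (m : ℕ) :
    psum t f y (m * d) = m * psum t f y d := by
  induction m with
  | zero => simp [psum_zero]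
  | succ m ih =>
    have h1 : (t ^ (m * d)) y = y := by
      clear ih
      induction m with
      | zero => simp
      | succ m ih' =>
        rw [Nat.succ_mul, pow_add, Equiv.Perm.mul_apply, hd, ih']
    rw [Nat.succ_mul, psum_add, ih, h1]
    push_cast
    ring

/-- if all full sums vanish, so do the sums over any period -/
lemma psum_eq_zero_of_fixed {k : ℕ} (hk : 0 < k) (htk : t ^ k = 1) (f : X → ℤ)
    (hf : ∀ x, psum t f x k = 0) (y : X) (d : ℕ) (hd : (t ^ d) y = y) : psum t f y d = 0 := by
  have h1 : psum t f y (d * k) = d * psum t f y k :=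
    psum_mul_of_fixed t f y k (by rw [htk]; rfl) d
  have h2 : psum t f y (k * d) = k * psum t f y d := psum_mul_of_fixed t f y d hd k
  rw [hf y, mul_zero, mul_comm d k, h2] at h1
  have hk' : (k : ℤ) ≠ 0 := by exact_mod_cast hk.ne'
  rcases mul_eq_zero.1 h1 with h | h
  · exact absurd h hk'
  · exact h

/-- the partial sum only depends on the end point -/
lemma psum_eq_of_apply_eq {k : ℕ} (hk : 0 < k) (htk : t ^ k = 1) (f : X → ℤ)
    (hf : ∀ x, psum t f x k = 0) (y : X) (a b : ℕ) (hab : (t ^ a) y = (t ^ b) y) :
    psum t f y a = psum t f y b := by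
  wlog h : a ≤ b generalizing a b
  · exact (this b a hab.symm (le_of_not_ge h)).symm
  obtain ⟨c, rfl⟩ := Nat.exists_eq_add_of_le h
  rw [psum_add]
  have h1 : (t ^ c) ((t ^ a) y) = (t ^ a) y := by
    rw [← Equiv.Perm.mul_apply, ← pow_add, add_comm, ← hab]
  rw [psum_eq_zero_of_fixed t hk htk f hf _ c h1, add_zero]

/-- **Coboundaries**: a function all of whose orbit sums vanish is of the form
`x ↦ n (t x) - n x`. -/
theorem exists_cob {k : ℕ} (hk : 0 < k) (htk : t ^ k = 1) (f : X → ℤ)
    (hf : ∀ x, ∑ j ∈ range k, f ((t ^ j) x) = 0) :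
    ∃ n : X → ℤ, ∀ x, n (t x) - n x = f x := by
  classical
  -- the orbit relation
  let S : Setoid X :=
    { r := fun x y => ∃ i : ℕ, (t ^ i) x = y
      iseqv :=
        { refl := fun x => ⟨0, by simp⟩
          symm := by
            rintro x y ⟨i, rfl⟩
            refine ⟨i * (k - 1), ?_⟩
            rw [← Equiv.Perm.mul_apply, ← pow_add]
            have : i * (k - 1) + i = i * k := by
              have : k - 1 + 1 = k := Nat.sub_add_cancel hk
              calc i * (k - 1) + i = i * (k - 1 + 1) := by ring
                _ = i * k := by rw [this]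
            rw [this, mul_comm, pow_mul, htk, one_pow]
            rfl
          trans := by
            rintro x y z ⟨i, rfl⟩ ⟨j, rfl⟩
            exact ⟨j + i, by rw [pow_add, Equiv.Perm.mul_apply]⟩ } }
  let rep : X → X := fun x => (Quotient.mk S x).out
  have hrep : ∀ x, ∃ i : ℕ, (t ^ i) (rep x) = x := fun x =>
    Quotient.exact (Quotient.out_eq (Quotient.mk S x))
  have hrept : ∀ x, rep (t x) = rep x := by
    intro x
    have : Quotient.mk S (t x) = Quotient.mk S x :=
      Quotient.sound (S.symm ⟨1, by simp⟩)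
    simp only [rep, this]
  choose idx hidx using hrep
  refine ⟨fun x => psum t f (rep x) (idx x), fun x => ?_⟩
  have h1 : (t ^ (idx (t x))) (rep x) = (t ^ (idx x + 1)) (rep x) := by
    have := hidx (t x)
    rw [hrept] at this
    rw [this, pow_succ', Equiv.Perm.mul_apply, hidx x]
  have h2 := psum_eq_of_apply_eq t hk htk f hf (rep x) _ _ h1
  simp only [hrept]
  rw [h2, psum_succ, hidx x]
  ring

end Cob

end Fermat.Agent.P6.helper99
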