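import Fermat.Agent.P6.helper33_DEval
import Fermat.Agent.P6.helper99_PDCob

/-!
# P6 / S41, module (D) duality, package [D-HEIS] (helper33, second prover of row 882)

`heisLiftStatement : HeisLiftStatement` : every pair of cocycles over the action of `SL(2, ℤ)` on
`G ⧸ Γ` (`-1 ∈ Γ`) has a Heisenberg lift over `ℤ`.

Proof: `Φ'(S)` and `Φ'(S T)` are coboundaries `n₁ ∘ S - n₁`, `n₂ ∘ (S T) - n₂`
(`helper99.exists_cob`, the orbit sums are the values of `Φ'` at `S ^ 2 = -1 = (S T) ^ 3`), and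
the explicit lifts `evalLift Φ n₁ S`, `evalLift Φ n₂ (S T)` have orders `2` and `3`.
-/

set_option autoImplicit false

open scoped MatrixGroups
open Matrix.SpecialLinearGroup ModularCurve.Period

namespace Fermat.Agent.P6.helper33

open Fermat.Agent.S16.helper21 (CoGrp)
open Fermat.Agent.S21.helper83 (x0)
open Fermat.Agent.P6.helper21

/-- the explicit Heisenberg lift with prescribed coboundary data at `S` and `S T` -/
theorem exists_heis_of_cob (Γ : Subgroup SL(2, ℤ)) (hneg : (-1 : SL(2, ℤ)) ∈ Γ)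
    (Φ Φ' : SL(2, ℤ) →* CoGrp (SL(2, ℤ) ⧸ Γ) ℤ)
    (hΦ : IsOverC Γ Φ) (hΦ' : IsOverC Γ Φ') (n₁ n₂ : (SL(2, ℤ) ⧸ Γ) → ℤ)
    (h1 : ∀ z, (Φ' ModularGroup.S).f z = n₁ (ModularGroup.S • z) - n₁ z)
    (h2 : ∀ z, (Φ' (ModularGroup.S * ModularGroup.T)).f z =
      n₂ ((ModularGroup.S * ModularGroup.T) • z) - n₂ z) :
    ∃ Ψ : SL(2, ℤ) →* Heis (SL(2, ℤ) ⧸ Γ),
      IsOverH Γ Ψ ∧ Heis.toA.comp Ψ = Φ ∧ Heis.toB.comp Ψ = Φ' ∧
        Ψ ModularGroup.S = evalLift Φ hΦ n₁ ModularGroup.S ∧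
        Ψ (ModularGroup.S * ModularGroup.T) =
          evalLift Φ hΦ n₂ (ModularGroup.S * ModularGroup.T) := by
  have hone₁ : evalLift Φ hΦ n₁ (-1) = 1 :=
    evalLift_eq_one Φ hΦ n₁ (eval_neg_one_smul Γ hneg) (eval_hom_f_neg_one Γ hneg Φ hΦ)
  have hone₂ : evalLift Φ hΦ n₂ (-1) = 1 :=
    evalLift_eq_one Φ hΦ n₂ (eval_neg_one_smul Γ hneg) (eval_hom_f_neg_one Γ hneg Φ hΦ)
  have hs : (evalLift Φ hΦ n₁ ModularGroup.S) ^ 2 = 1 := by
    rw [← map_pow, pow_two, eval_S_mul_S, hone₁]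
  have hr : (evalLift Φ hΦ n₂ (ModularGroup.S * ModularGroup.T)) ^ 3 = 1 := by
    rw [← map_pow, pow_succ, pow_two, mul_assoc, eval_ST_cube, hone₂]
  obtain ⟨Ψ, hΨS, hΨR, -⟩ := Fermat.Agent.S16.helper64.exists_hom_of_sq_cube
    (evalLift Φ hΦ n₁ ModularGroup.S) (evalLift Φ hΦ n₂ (ModularGroup.S * ModularGroup.T)) hs hr
  have hA : Heis.toA.comp Ψ = Φ := by
    apply Fermat.Agent.S16.helper64.hom_ext_S_ST
    · rw [MonoidHom.comp_apply, hΨS]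
      ext z
      · rfl
      · show (MulAction.toPerm ModularGroup.S : Equiv.Perm (SL(2, ℤ) ⧸ Γ)) z =
          (Φ ModularGroup.S).σ z
        rw [hΦ]
    · rw [MonoidHom.comp_apply, hΨR]
      ext z
      · rfl
      · show (MulAction.toPerm (ModularGroup.S * ModularGroup.T) :
          Equiv.Perm (SL(2, ℤ) ⧸ Γ)) z = (Φ (ModularGroup.S * ModularGroup.T)).σ z
        rw [hΦ]
  have hB : Heis.toB.comp Ψ = Φ' := by
    apply Fermat.Agent.S16.helper64.hom_ext_S_ST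
    · rw [MonoidHom.comp_apply, hΨS]
      ext z
      · show n₁ (ModularGroup.S • z) - n₁ z = (Φ' ModularGroup.S).f z
        rw [h1]
      · show (MulAction.toPerm ModularGroup.S : Equiv.Perm (SL(2, ℤ) ⧸ Γ)) z =
          (Φ' ModularGroup.S).σ z
        rw [hΦ']
    · rw [MonoidHom.comp_apply, hΨR]
      ext z
      · show n₂ ((ModularGroup.S * ModularGroup.T) • z) - n₂ z =
          (Φ' (ModularGroup.S * ModularGroup.T)).f z
        rw [h2]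
      · show (MulAction.toPerm (ModularGroup.S * ModularGroup.T) :
          Equiv.Perm (SL(2, ℤ) ⧸ Γ)) z = (Φ' (ModularGroup.S * ModularGroup.T)).σ z
        rw [hΦ']
  refine ⟨Ψ, fun g => ?_, hA, hB, hΨS, hΨR⟩
  have h : (Ψ g).σ = (Φ g).σ := by rw [← hA]; rfl
  rw [h, hΦ]

/-- a cocycle over the action is a coboundary at an element whose `k`-th power is `-1` -/
theorem exists_cob_of_pow_eq_neg_one (Γ : Subgroup SL(2, ℤ)) (hneg : (-1 : SL(2, ℤ)) ∈ Γ)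
    (Φ' : SL(2, ℤ) →* CoGrp (SL(2, ℤ) ⧸ Γ) ℤ) (hΦ' : IsOverC Γ Φ')
    (g : SL(2, ℤ)) (k : ℕ) (hk : 0 < k) (hg : g ^ k = -1) :
    ∃ n : (SL(2, ℤ) ⧸ Γ) → ℤ, ∀ z, (Φ' g).f z = n (g • z) - n z := by
  have hpow : ∀ (j : ℕ) (z : SL(2, ℤ) ⧸ Γ),
      ((MulAction.toPerm g : Equiv.Perm (SL(2, ℤ) ⧸ Γ)) ^ j) z = g ^ j • z := by
    intro j
    induction j with
    | zero => intro z; simp
    | succ j ih =>
      intro z
      rw [pow_succ, Equiv.Perm.mul_apply, ih, pow_succ, mul_smul]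
      rfl
  have htk : (MulAction.toPerm g : Equiv.Perm (SL(2, ℤ) ⧸ Γ)) ^ k = 1 := by
    ext z
    rw [hpow, hg, eval_neg_one_smul Γ hneg]
    rfl
  have hsum : ∀ z, ∑ j ∈ Finset.range k,
      (Φ' g).f (((MulAction.toPerm g : Equiv.Perm (SL(2, ℤ) ⧸ Γ)) ^ j) z) = 0 := by
    intro z
    have h := CoGrp.hom_f_pow Φ' hΦ' g k z
    rw [hg, eval_hom_f_neg_one Γ hneg Φ' hΦ'] at h
    rw [Finset.sum_congr rfl (fun j _ => by rw [hpow j z])]
    exact h.symm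
  obtain ⟨n, hn⟩ := Fermat.Agent.P6.helper99.exists_cob
    (MulAction.toPerm g : Equiv.Perm (SL(2, ℤ) ⧸ Γ)) hk htk (Φ' g).f hsum
  exact ⟨n, fun z => (hn z).symm⟩

/-- **[D-HEIS]** every pair of cocycles has a Heisenberg lift (over `ℤ`). -/
theorem heisLiftStatement : HeisLiftStatement := by
  intro Γ _ hneg Φ Φ' hΦ hΦ'
  obtain ⟨n₁, h1⟩ := exists_cob_of_pow_eq_neg_one Γ hneg Φ' hΦ' ModularGroup.S 2 (by norm_num)
    (by rw [pow_two, eval_S_mul_S])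
  obtain ⟨n₂, h2⟩ := exists_cob_of_pow_eq_neg_one Γ hneg Φ' hΦ'
    (ModularGroup.S * ModularGroup.T) 3 (by norm_num)
    (by rw [pow_succ, pow_two, mul_assoc, eval_ST_cube])
  obtain ⟨Ψ, hΨ, hA, hB, -, -⟩ := exists_heis_of_cob Γ hneg Φ Φ' hΦ hΦ' n₁ n₂ h1 h2
  exact ⟨Ψ, hΨ, hA, hB⟩

end Fermat.Agent.P6.helper33
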