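import Fermat.Agent.P6.helper21_DualStmts

/-!
# P6 / S41, module (D) duality, package [D-WD] (helper85, row 885)

`blEq_of : HeisLiftStatement → OrbStatement → CuspFiniteStatement → BlEqStatement`:
every pair of homs `x, y : Γ → ℤ` has a trivialisation `θ` of its cup product, and the intrinsic
pairing `Bl Γ x y` equals `cuspSum Γ θ` for EVERY trivialisation `θ`.

* existence: `Ψ` := a Heisenberg lift of `(shapiro x, shapiro y)`, `θ γ := (Ψ γ).c x₀`;
* independence: two trivialisations differ by a hom `χ : Γ → ℤ`, and the cusp sum of a hom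
  vanishes: by the cusp bookkeeping it is the total mass of `(shapiro χ T).f`, and the total
  mass `g ↦ ∑ₓ (Φ g).f x` is a hom `SL(2, ℤ) → ℤ`, hence trivial (`S ^ 4 = 1`, `(S T) ^ 6 = 1`).
-/

set_option autoImplicit false

open scoped MatrixGroups
open Matrix.SpecialLinearGroup ModularCurve.Period

namespace Fermat.Agent.P6.helper85

open Fermat.Agent.P6.helper21
open Fermat.Agent.S16.helper21 (CoGrp shapiro shapiro_f_x0 shapiro_σ)
open Fermat.Agent.S21.helper83 (x0 smul_x0 smul_x0_of_mem)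

/-- **existence of trivialisations** from a Heisenberg lift. -/
theorem exists_isTriv_of (hHeis : HeisLiftStatement) (Γ : Subgroup SL(2, ℤ)) [Γ.FiniteIndex]
    (hneg : (-1 : SL(2, ℤ)) ∈ Γ) (x y : Additive Γ →+ ℤ) : ∃ θ : Γ → ℤ, IsTriv Γ x y θ := by
  obtain ⟨Ψ, hΨ, hA, hB⟩ := hHeis Γ hneg (shapiro Γ x) (shapiro Γ y)
    (fun g => shapiro_σ Γ x g) (fun g => shapiro_σ Γ y g)
  refine ⟨fun γ => (Ψ (γ : SL(2, ℤ))).c (x0 Γ), ?_⟩
  intro γ δ
  have hσ : (Ψ (δ : SL(2, ℤ))).σ (x0 Γ) = x0 Γ := by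
    rw [hΨ]
    exact smul_x0_of_mem Γ δ.2
  have ha : (Ψ (γ : SL(2, ℤ))).a (x0 Γ) = x (Additive.ofMul γ) := by
    have h := congrArg (fun Φ : SL(2, ℤ) →* CoGrp (SL(2, ℤ) ⧸ Γ) ℤ =>
      (Φ (γ : SL(2, ℤ))).f (x0 Γ)) hA
    simp only [MonoidHom.comp_apply, Heis.toA_f] at h
    rw [h, shapiro_f_x0]
  have hb : (Ψ (δ : SL(2, ℤ))).b (x0 Γ) = y (Additive.ofMul δ) := by
    have h := congrArg (fun Φ : SL(2, ℤ) →* CoGrp (SL(2, ℤ) ⧸ Γ) ℤ =>
      (Φ (δ : SL(2, ℤ))).f (x0 Γ)) hB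
    simp only [MonoidHom.comp_apply, Heis.toB_f] at h
    rw [h, shapiro_f_x0]
  show (Ψ ((γ * δ : Γ) : SL(2, ℤ))).c (x0 Γ) = _
  rw [Subgroup.coe_mul, map_mul, Heis.mul_c, hσ, ha, hb]

/-- two trivialisations of the same cup product differ by a homomorphism. -/
theorem exists_hom_of_isTriv {Γ : Subgroup SL(2, ℤ)} {x y : Additive Γ →+ ℤ} {θ θ' : Γ → ℤ}
    (h : IsTriv Γ x y θ) (h' : IsTriv Γ x y θ') :
    ∃ χ : Additive Γ →+ ℤ, ∀ γ : Γ, θ γ = θ' γ + χ (Additive.ofMul γ) := by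
  refine ⟨AddMonoidHom.mk' (fun a => θ (Additive.toMul a) - θ' (Additive.toMul a)) ?_, ?_⟩
  · intro a b
    show θ (Additive.toMul a * Additive.toMul b) - θ' (Additive.toMul a * Additive.toMul b) = _
    rw [h, h']
    ring
  · intro γ
    show θ γ = θ' γ + (θ γ - θ' γ)
    ring

/-- the total mass of a cocycle over `ℤ` vanishes at every element of `SL(2, ℤ)` of finite
order. -/
theorem sum_hom_f_eq_zero_of_pow {X : Type*} [Fintype X] [MulAction SL(2, ℤ) X]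
    (Φ : SL(2, ℤ) →* CoGrp X ℤ) (hΦ : ∀ g, (Φ g).σ = MulAction.toPerm g)
    (g : SL(2, ℤ)) (n : ℕ) (hn : n ≠ 0) (hg : g ^ n = 1) : ∑ z, (Φ g).f z = 0 := by
  have hpow : ∀ k : ℕ, ∑ z, (Φ (g ^ k)).f z = k * ∑ z, (Φ g).f z := by
    intro k
    induction k with
    | zero => simp
    | succ k ih =>
      rw [pow_succ, CoGrp.sum_hom_f_mul Φ hΦ, ih]
      push_cast
      ring
  have h := hpow n
  rw [hg] at h
  simp only [CoGrp.hom_f_one, Finset.sum_const_zero] at h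
  rcases mul_eq_zero.1 h.symm with h0 | h0
  · exact absurd (by exact_mod_cast h0) hn
  · exact h0

/-- the total mass of a cocycle over `ℤ` at `T` vanishes. -/
theorem sum_hom_f_T {X : Type*} [Fintype X] [MulAction SL(2, ℤ) X]
    (Φ : SL(2, ℤ) →* CoGrp X ℤ) (hΦ : ∀ g, (Φ g).σ = MulAction.toPerm g) :
    ∑ z, (Φ ModularGroup.T).f z = 0 := by
  have hS : ∑ z, (Φ ModularGroup.S).f z = 0 :=
    sum_hom_f_eq_zero_of_pow Φ hΦ _ 4 (by norm_num) (by decide)
  have hR : ∑ z, (Φ (ModularGroup.S * ModularGroup.T)).f z = 0 :=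
    sum_hom_f_eq_zero_of_pow Φ hΦ _ 6 (by norm_num) (by decide)
  rw [CoGrp.sum_hom_f_mul Φ hΦ, hS, zero_add] at hR
  exact hR

/-- **the cusp sum of a homomorphism vanishes.** -/
theorem cuspSum_hom_eq_zero (hOrb : OrbStatement) (Γ : Subgroup SL(2, ℤ)) [Γ.FiniteIndex]
    (hneg : (-1 : SL(2, ℤ)) ∈ Γ) (χ : Additive Γ →+ ℤ) :
    cuspSum Γ (fun γ => χ (Additive.ofMul γ)) = 0 := by
  have : Fintype (SL(2, ℤ) ⧸ Γ) := Fintype.ofFinite _
  have hΦ : ∀ g, (shapiro Γ χ g).σ = MulAction.toPerm g := fun g => shapiro_σ Γ χ g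
  have key := hOrb Γ hneg (shapiro Γ χ ModularGroup.T).f (fun γ => χ (Additive.ofMul γ))
    (by
      intro π γ _
      show χ (Additive.ofMul (γ * π * γ⁻¹)) = χ (Additive.ofMul π)
      rw [ofMul_mul, ofMul_mul, ofMul_inv, map_add, map_add, map_neg]
      abel)
    (by
      intro g w hmem _ _
      show _ = χ (Additive.ofMul (⟨g⁻¹ * ModularGroup.T ^ w * g, hmem⟩ : Γ))
      rw [← shapiro_f_x0 Γ χ]
      show _ = (shapiro Γ χ (g⁻¹ * ModularGroup.T ^ w * g)).f (x0 Γ)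
      have hfix : ModularGroup.T ^ w • (g • x0 Γ) = g • x0 Γ := by
        have h := smul_x0_of_mem Γ hmem
        rw [mul_smul, mul_smul] at h
        have h2 := congrArg (fun z => g • z) h
        simpa using h2
      have hconj := CoGrp.hom_f_conj (shapiro Γ χ) hΦ g⁻¹ (ModularGroup.T ^ w) (x0 Γ)
        (by rw [inv_inv]; exact hfix)
      rw [inv_inv] at hconj
      rw [hconj, CoGrp.hom_f_pow (shapiro Γ χ) hΦ]
      refine Finset.sum_congr rfl fun i _ => ?_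
      rw [← mul_smul, smul_x0])
  rw [← key]
  exact sum_hom_f_T (shapiro Γ χ) hΦ

/-- the cusp sum is additive. -/
theorem cuspSum_add (hFin : CuspFiniteStatement) (Γ : Subgroup SL(2, ℤ)) [Γ.FiniteIndex]
    (hneg : (-1 : SL(2, ℤ)) ∈ Γ) (θ θ' : Γ → ℤ) :
    cuspSum Γ (fun γ => θ γ + θ' γ) = cuspSum Γ θ + cuspSum Γ θ' := by
  have : Finite (Cusp Γ) := hFin Γ hneg
  unfold cuspSum
  exact finsum_add_distrib (Set.toFinite _) (Set.toFinite _)

/-- the cusp sum does not depend on the trivialisation. -/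
theorem cuspSum_eq_of_isTriv (hOrb : OrbStatement) (hFin : CuspFiniteStatement)
    (Γ : Subgroup SL(2, ℤ)) [Γ.FiniteIndex] (hneg : (-1 : SL(2, ℤ)) ∈ Γ)
    {x y : Additive Γ →+ ℤ} {θ θ' : Γ → ℤ} (h : IsTriv Γ x y θ) (h' : IsTriv Γ x y θ') :
    cuspSum Γ θ = cuspSum Γ θ' := by
  obtain ⟨χ, hχ⟩ := exists_hom_of_isTriv h h'
  have e : θ = fun γ => θ' γ + χ (Additive.ofMul γ) := funext hχ
  rw [e, cuspSum_add hFin Γ hneg, cuspSum_hom_eq_zero hOrb Γ hneg, add_zero]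

/-- `Bl` is the cusp sum of any trivialisation (no parabolicity needed). -/
theorem bl_eq_cuspSum_of (hOrb : OrbStatement) (hFin : CuspFiniteStatement)
    (Γ : Subgroup SL(2, ℤ)) [Γ.FiniteIndex] (hneg : (-1 : SL(2, ℤ)) ∈ Γ)
    {x y : Additive Γ →+ ℤ} {θ : Γ → ℤ} (h : IsTriv Γ x y θ) :
    Bl Γ x y = cuspSum Γ θ := by
  have hex : ∃ θ : Γ → ℤ, IsTriv Γ x y θ := ⟨θ, h⟩
  unfold Bl
  rw [dif_pos hex]
  exact cuspSum_eq_of_isTriv hOrb hFin Γ hneg hex.choose_spec h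

/-- **[D-WD]** existence of trivialisations and independence of `Bl` of the choice. -/
theorem blEq_of (hHeis : HeisLiftStatement) (hOrb : OrbStatement) (hFin : CuspFiniteStatement) :
    BlEqStatement := by
  intro Γ _ hneg x y _ _
  exact ⟨exists_isTriv_of hHeis Γ hneg x y,
    fun θ hθ => bl_eq_cuspSum_of hOrb hFin Γ hneg hθ⟩

end Fermat.Agent.P6.helper85
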