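import Fermat.Agent.P6.helper38_DAdj3
import Fermat.Agent.P6.helper33_DHeis
import Fermat.Agent.P6.helper85_DWD

/-!
# P6 / S41, module (D), package [D-ADJ]: the unconditional statement

`adjStatement : AdjStatement` (shape of `helper21_DualStmts`, verbatim), from
`adj_of_heis_wd`, [D-HEIS] (`helper33.heisLiftStatement`) and [D-WD] (`helper85.blEq_of`),
[D-ORB] + [D-FIN] (`helper64`).  Also `blEqStatement`, `modelStatement` for other consumers.
-/

set_option autoImplicit false

namespace Fermat.Agent.P6.helper38

open Fermat.Agent.P6.helper21

/-- **[D-WD]**, unconditional. -/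
theorem blEqStatement : BlEqStatement :=
  Fermat.Agent.P6.helper85.blEq_of Fermat.Agent.P6.helper33.heisLiftStatement
    Fermat.Agent.P6.helper64.orbStatement Fermat.Agent.P6.helper64.cuspFiniteStatement

/-- **[D-MODEL]**, unconditional. -/
theorem modelStatement : ModelStatement :=
  Fermat.Agent.P6.helper83.model_of blEqStatement Fermat.Agent.P6.helper64.orbStatement
    Fermat.Agent.P6.helper77.trivConj

/-- **[D-ADJ]**, unconditional: restriction and transfer are adjoint for `Bl`. -/
theorem adjStatement : AdjStatement :=
  adj_of_heis_wd Fermat.Agent.P6.helper33.heisLiftStatement blEqStatement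

end Fermat.Agent.P6.helper38
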