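import Mathlib

set_option autoImplicit false

open Finset

namespace Fermat.Agent.P6.helper99

/-! ## The lattice `M = ℤ^X`, the invariants `M^s + M^r` and the relative cocycles -/

section Perp

variable {X : Type*}

/-- functions invariant under a permutation -/
def invSub (σ : Equiv.Perm X) : Submodule ℤ (X → ℤ) where
  carrier := {f | ∀ x, f (σ x) = f x}
  add_mem' := by
    intro a b ha hb x
    have h1 : a (σ x) = a x := ha x
    have h2 : b (σ x) = b x := hb x
    simp [h1, h2]
  zero_mem' := by intro x; rfl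
  smul_mem' := by
    intro c a ha x
    have h1 : a (σ x) = a x := ha x
    simp [h1]

lemma mem_invSub {σ : Equiv.Perm X} {f : X → ℤ} : f ∈ invSub σ ↔ ∀ x, f (σ x) = f x := Iff.rfl

/-- `P = M^s + M^r` -/
def PSub (s r : Equiv.Perm X) : Submodule ℤ (X → ℤ) := invSub s ⊔ invSub r

lemma invSub_le_PSub_left (s r : Equiv.Perm X) : invSub s ≤ PSub s r := le_sup_left
lemma invSub_le_PSub_right (s r : Equiv.Perm X) : invSub r ≤ PSub s r := le_sup_right

/-- relative cocycles `Z = ker (1 + s) ∩ ker (1 + r + r²)` -/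
def ZSub (s r : Equiv.Perm X) : Submodule ℤ (X → ℤ) where
  carrier := {z | (∀ x, z x + z (s x) = 0) ∧ ∀ x, z x + z (r x) + z (r (r x)) = 0}
  add_mem' := by
    rintro a b ⟨ha, ha'⟩ ⟨hb, hb'⟩
    refine ⟨fun x => ?_, fun x => ?_⟩
    · have := ha x; have := hb x
      simp only [Pi.add_apply]; linarith
    · have := ha' x; have := hb' x
      simp only [Pi.add_apply]; linarith
  zero_mem' := ⟨fun x => by simp, fun x => by simp⟩
  smul_mem' := by
    rintro c a ⟨ha, ha'⟩
    refine ⟨fun x => ?_, fun x => ?_⟩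
    · have := ha x
      simp only [Pi.smul_apply, smul_eq_mul]
      linear_combination c * this
    · have := ha' x
      simp only [Pi.smul_apply, smul_eq_mul]
      linear_combination c * this

lemma mem_ZSub {s r : Equiv.Perm X} {z : X → ℤ} :
    z ∈ ZSub s r ↔ (∀ x, z x + z (s x) = 0) ∧ ∀ x, z x + z (r x) + z (r (r x)) = 0 := Iff.rfl

/-- **Saturation** of `P = M^s + M^r` in `M`. -/
theorem mem_PSub_of_smul (s r : Equiv.Perm X) {n : ℤ} (hn : n ≠ 0) {m : X → ℤ}
    (h : n • m ∈ PSub s r) : m ∈ PSub s r := by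
  obtain ⟨a, ha, b, hb, hab⟩ := Submodule.mem_sup.1 h
  have hab' : ∀ x, a x + b x = n * m x := fun x => by
    have := congrFun hab x
    simpa using this
  rw [mem_invSub] at ha hb
  refine Submodule.mem_sup.2 ⟨fun x => a x / n, ?_, fun x => m x - a x / n, ?_, ?_⟩
  · intro x
    show a (s x) / n = a x / n
    rw [ha x]
  · intro x
    show m (r x) - a (r x) / n = m x - a x / n
    have key : ∀ y, n * (m y - a y / n) = b y + a y % n := by
      intro y
      have h1 := Int.emod_add_mul_ediv (a y) n
      have h2 := hab' y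
      linear_combination -h1 - h2
    have hmod : ∀ y, a y % n = (- b y) % n := by
      intro y
      have h2 := hab' y
      have : a y = - b y + n * m y := by linarith
      rw [this, Int.add_mul_emod_self_left]
    have h3 : n * (m (r x) - a (r x) / n) = n * (m x - a x / n) := by
      rw [key, key, hmod, hmod, hb x]
    exact mul_left_cancel₀ hn h3
  · funext x
    simp

variable [Fintype X]

lemma dot_comp_perm (σ : Equiv.Perm X) (f g : X → ℤ) :
    dotProduct (f ∘ σ) (g ∘ σ) = dotProduct f g := by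
  unfold dotProduct
  exact Equiv.sum_comp σ (fun x => f x * g x)

lemma dot_invSub_eq_zero {s : Equiv.Perm X} {z a : X → ℤ} (hz : ∀ x, z x + z (s x) = 0)
    (ha : a ∈ invSub s) : dotProduct z a = 0 := by
  have h1 : dotProduct (z ∘ s) (a ∘ s) = dotProduct z a := dot_comp_perm s z a
  have h2 : dotProduct z a + dotProduct (z ∘ s) (a ∘ s) = 0 := by
    unfold dotProduct
    rw [← Finset.sum_add_distrib]
    apply Finset.sum_eq_zero
    intro x _
    have := hz x
    simp only [Function.comp_apply, mem_invSub.1 ha x]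
    linear_combination a x * this
  rw [h1] at h2
  omega

lemma dot_invSub_eq_zero' {r : Equiv.Perm X} {z b : X → ℤ}
    (hz : ∀ x, z x + z (r x) + z (r (r x)) = 0)
    (hb : b ∈ invSub r) : dotProduct z b = 0 := by
  have h1 : dotProduct (z ∘ r) (b ∘ r) = dotProduct z b := dot_comp_perm r z b
  have h1' : dotProduct ((z ∘ r) ∘ r) ((b ∘ r) ∘ r) = dotProduct z b := by
    rw [dot_comp_perm r, h1]
  have h2 : dotProduct z b + dotProduct (z ∘ r) (b ∘ r) +
      dotProduct ((z ∘ r) ∘ r) ((b ∘ r) ∘ r) = 0 := by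
    unfold dotProduct
    rw [← Finset.sum_add_distrib, ← Finset.sum_add_distrib]
    apply Finset.sum_eq_zero
    intro x _
    have := hz x
    simp only [Function.comp_apply, mem_invSub.1 hb x, mem_invSub.1 hb (r x)]
    linear_combination b x * this
  rw [h1, h1'] at h2
  omega

/-- relative cocycles are orthogonal to `P`. -/
theorem dot_eq_zero_of_mem {s r : Equiv.Perm X} {z m : X → ℤ} (hz : z ∈ ZSub s r)
    (hm : m ∈ PSub s r) : dotProduct z m = 0 := by
  obtain ⟨a, ha, b, hb, rfl⟩ := Submodule.mem_sup.1 hm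
  rw [dotProduct_add, dot_invSub_eq_zero hz.1 ha, dot_invSub_eq_zero' hz.2 hb, add_zero]

variable [DecidableEq X]

/-- the orbit indicator for an involution -/
def orbInd2 (s : Equiv.Perm X) (x : X) : X → ℤ :=
  fun y => (if y = x then 1 else 0) + (if s y = x then 1 else 0)

omit [Fintype X] in
lemma orbInd2_mem {s : Equiv.Perm X} (hs : s ^ 2 = 1) (x : X) : orbInd2 s x ∈ invSub s := by
  intro y
  have hss : s (s y) = y := by
    have := congrArg (fun σ : Equiv.Perm X => σ y) hs
    simpa [pow_two] using this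
  simp only [orbInd2, hss]
  ring

lemma dot_orbInd2 {s : Equiv.Perm X} (hs : s ^ 2 = 1) (z : X → ℤ) (x : X) :
    dotProduct z (orbInd2 s x) = z x + z (s x) := by
  have hss : ∀ y, s (s y) = y := fun y => by
    have := congrArg (fun σ : Equiv.Perm X => σ y) hs
    simpa [pow_two] using this
  unfold dotProduct orbInd2
  simp only [mul_add, Finset.sum_add_distrib, mul_ite, mul_one, mul_zero]
  rw [Finset.sum_ite_eq' Finset.univ x z]
  simp only [Finset.mem_univ, if_true]
  congr 1
  rw [← Equiv.sum_comp s]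
  simp only [hss]
  rw [Finset.sum_ite_eq' Finset.univ x (fun y => z (s y))]
  simp

/-- the orbit indicator for a permutation of order three -/
def orbInd3 (r : Equiv.Perm X) (x : X) : X → ℤ :=
  fun y => (if y = x then 1 else 0) + (if r y = x then 1 else 0) + (if r (r y) = x then 1 else 0)

omit [Fintype X] in
lemma orbInd3_mem {r : Equiv.Perm X} (hr : r ^ 3 = 1) (x : X) : orbInd3 r x ∈ invSub r := by
  intro y
  have hrrr : r (r (r y)) = y := by
    have := congrArg (fun σ : Equiv.Perm X => σ y) hr
    simpa [pow_succ] using this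
  simp only [orbInd3, hrrr]
  ring

lemma dot_orbInd3 {r : Equiv.Perm X} (hr : r ^ 3 = 1) (z : X → ℤ) (x : X) :
    dotProduct z (orbInd3 r x) = z x + z (r x) + z (r (r x)) := by
  have hrrr : ∀ y, r (r (r y)) = y := fun y => by
    have := congrArg (fun σ : Equiv.Perm X => σ y) hr
    simpa [pow_succ] using this
  unfold dotProduct orbInd3
  simp only [mul_add, Finset.sum_add_distrib, mul_ite, mul_one, mul_zero]
  rw [Finset.sum_ite_eq' Finset.univ x z]
  simp only [Finset.mem_univ, if_true]
  have h2 : ∑ y, (if r (r y) = x then z y else 0) = z (r x) := by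
    rw [← Equiv.sum_comp r]
    simp only [hrrr]
    rw [Finset.sum_ite_eq' Finset.univ x (fun y => z (r y))]
    simp
  have h3 : ∑ y, (if r y = x then z y else 0) = z (r (r x)) := by
    rw [← Equiv.sum_comp r, ← Equiv.sum_comp r]
    simp only [hrrr]
    rw [Finset.sum_ite_eq' Finset.univ x (fun y => z (r (r y)))]
    simp
  rw [h2, h3]
  ring

/-- **`Z = P^⊥`.** -/
theorem mem_ZSub_iff_dot {s r : Equiv.Perm X} (hs : s ^ 2 = 1) (hr : r ^ 3 = 1) (z : X → ℤ) :
    z ∈ ZSub s r ↔ ∀ m ∈ PSub s r, dotProduct z m = 0 := by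
  constructor
  · intro hz m hm
    exact dot_eq_zero_of_mem hz hm
  · intro h
    refine ⟨fun x => ?_, fun x => ?_⟩
    · rw [← dot_orbInd2 hs]
      exact h _ (invSub_le_PSub_left s r (orbInd2_mem hs x))
    · rw [← dot_orbInd3 hr]
      exact h _ (invSub_le_PSub_right s r (orbInd3_mem hr x))

/-- every functional on `M` is a dot product -/
lemma functional_eq_dot (φ : (X → ℤ) →ₗ[ℤ] ℤ) (m : X → ℤ) :
    φ m = dotProduct (fun x => φ (Pi.single x 1)) m := by
  have h := LinearMap.pi_apply_eq_sum_univ φ m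
  rw [h]
  unfold dotProduct
  apply Finset.sum_congr rfl
  intro x _
  simp only [smul_eq_mul]
  rw [mul_comm]
  congr 2
  funext y
  simp [Pi.single_apply, eq_comm]

/-- **Perfectness, part 1**: every functional on `M/P` is the pairing with a relative
cocycle. -/
theorem exists_ZSub_of_functional {s r : Equiv.Perm X} (hs : s ^ 2 = 1) (hr : r ^ 3 = 1)
    (φ : (X → ℤ) →ₗ[ℤ] ℤ) (hφ : ∀ m ∈ PSub s r, φ m = 0) :
    ∃ z ∈ ZSub s r, ∀ m, φ m = dotProduct z m := by
  refine ⟨fun x => φ (Pi.single x 1), ?_, functional_eq_dot φ⟩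
  rw [mem_ZSub_iff_dot hs hr]
  intro m hm
  rw [← functional_eq_dot φ m]
  exact hφ m hm

end Perp

end Fermat.Agent.P6.helper99
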