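import Mathlib
import Fermat.Agent.P6.helper99_PDCob
import Fermat.Agent.P6.helper99_PDPerp

set_option autoImplicit false

open Finset

namespace Fermat.Agent.P6.helper99

/-! ## Cocycles on `C₂ * C₃` with values in `ℤ^X` and their classes in `M/P` -/

section Coc

variable {X : Type*}

/-- `(a, b)` is a cocycle: `a ∈ ker (1 + s)`, `b ∈ ker (1 + r + r²)`. -/
def IsCoc (s r : Equiv.Perm X) (a b : X → ℤ) : Prop :=
  (∀ x, a x + a (s x) = 0) ∧ ∀ x, b x + b (r x) + b (r (r x)) = 0

/-- `m` represents the class of the cocycle `(a, b)` in `M/P`: `a = n_s ∘ s - n_s`,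
`b = n_r ∘ r - n_r`, `m ≡ n_r - n_s` modulo `P`. -/
def ClRel (s r : Equiv.Perm X) (a b m : X → ℤ) : Prop :=
  ∃ ns nr : X → ℤ, (∀ x, ns (s x) - ns x = a x) ∧ (∀ x, nr (r x) - nr x = b x) ∧
    m - (nr - ns) ∈ PSub s r

lemma perm_sq_apply {s : Equiv.Perm X} (hs : s ^ 2 = 1) (x : X) : s (s x) = x := by
  have := congrArg (fun σ : Equiv.Perm X => σ x) hs
  simpa [pow_two] using this

lemma perm_cube_apply {r : Equiv.Perm X} (hr : r ^ 3 = 1) (x : X) : r (r (r x)) = x := by
  have := congrArg (fun σ : Equiv.Perm X => σ x) hr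
  simpa [pow_succ] using this

lemma ClRel.isCoc {s r : Equiv.Perm X} (hs : s ^ 2 = 1) (hr : r ^ 3 = 1) {a b m : X → ℤ}
    (h : ClRel s r a b m) : IsCoc s r a b := by
  obtain ⟨ns, nr, h1, h2, -⟩ := h
  refine ⟨fun x => ?_, fun x => ?_⟩
  · rw [← h1 x, ← h1 (s x), perm_sq_apply hs]
    ring
  · rw [← h2 x, ← h2 (r x), ← h2 (r (r x)), perm_cube_apply hr]
    ring

/-- every cocycle has a class -/
theorem exists_clRel {s r : Equiv.Perm X} (hs : s ^ 2 = 1) (hr : r ^ 3 = 1) {a b : X → ℤ}
    (h : IsCoc s r a b) : ∃ m, ClRel s r a b m := by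
  obtain ⟨ns, hns⟩ := exists_cob s (k := 2) (by norm_num) hs a (fun x => by
    rw [Finset.sum_range_succ, Finset.sum_range_one]
    simpa using h.1 x)
  obtain ⟨nr, hnr⟩ := exists_cob r (k := 3) (by norm_num) hr b (fun x => by
    rw [Finset.sum_range_succ, Finset.sum_range_succ, Finset.sum_range_one]
    simpa [pow_two] using h.2 x)
  exact ⟨nr - ns, ns, nr, hns, hnr, by simp⟩

/-- the class of `m` is the class of the cocycle `(0, m ∘ r - m)` -/
lemma clRel_self (s r : Equiv.Perm X) (m : X → ℤ) :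
    ClRel s r 0 (fun x => m (r x) - m x) m :=
  ⟨0, m, fun x => by simp, fun x => rfl, by simp⟩

lemma clRel_zero (s r : Equiv.Perm X) : ClRel s r 0 0 0 :=
  ⟨0, 0, fun x => by simp, fun x => by simp, by simp⟩

lemma ClRel.add {s r : Equiv.Perm X} {a b m a' b' m' : X → ℤ} (h : ClRel s r a b m)
    (h' : ClRel s r a' b' m') : ClRel s r (a + a') (b + b') (m + m') := by
  obtain ⟨ns, nr, h1, h2, h3⟩ := h
  obtain ⟨ns', nr', h1', h2', h3'⟩ := h'
  refine ⟨ns + ns', nr + nr', fun x => ?_, fun x => ?_, ?_⟩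
  · simp only [Pi.add_apply, ← h1 x, ← h1' x]; ring
  · simp only [Pi.add_apply, ← h2 x, ← h2' x]; ring
  · have := (PSub s r).add_mem h3 h3'
    convert this using 1
    abel

lemma ClRel.smul {s r : Equiv.Perm X} {a b m : X → ℤ} (h : ClRel s r a b m) (c : ℤ) :
    ClRel s r (c • a) (c • b) (c • m) := by
  obtain ⟨ns, nr, h1, h2, h3⟩ := h
  refine ⟨c • ns, c • nr, fun x => ?_, fun x => ?_, ?_⟩
  · simp only [Pi.smul_apply, smul_eq_mul, ← h1 x]; ring
  · simp only [Pi.smul_apply, smul_eq_mul, ← h2 x]; ring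
  · have := (PSub s r).smul_mem c h3
    convert this using 1
    rw [smul_sub, smul_sub]

lemma ClRel.neg {s r : Equiv.Perm X} {a b m : X → ℤ} (h : ClRel s r a b m) :
    ClRel s r (-a) (-b) (-m) := by
  have := h.smul (-1)
  simpa using this

lemma ClRel.sub {s r : Equiv.Perm X} {a b m a' b' m' : X → ℤ} (h : ClRel s r a b m)
    (h' : ClRel s r a' b' m') : ClRel s r (a - a') (b - b') (m - m') := by
  have := h.add h'.neg
  simpa [sub_eq_add_neg] using this

/-- the class is well defined modulo `P` -/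
lemma ClRel.sub_mem {s r : Equiv.Perm X} {a b m m' : X → ℤ} (h : ClRel s r a b m)
    (h' : ClRel s r a b m') : m - m' ∈ PSub s r := by
  obtain ⟨ns, nr, h1, h2, h3⟩ := h
  obtain ⟨ns', nr', h1', h2', h3'⟩ := h'
  have hs1 : ns' - ns ∈ invSub s := by
    intro x
    have e1 := h1 x
    have e2 := h1' x
    simp only [Pi.sub_apply]
    linarith
  have hr1 : nr - nr' ∈ invSub r := by
    intro x
    have e1 := h2 x
    have e2 := h2' x
    simp only [Pi.sub_apply]
    linarith
  have e : m - m' = (m - (nr - ns)) - (m' - (nr' - ns')) + ((ns' - ns) + (nr - nr')) := by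
    abel
  rw [e]
  exact (PSub s r).add_mem ((PSub s r).sub_mem h3 h3')
    ((PSub s r).add_mem (invSub_le_PSub_left s r hs1) (invSub_le_PSub_right s r hr1))

lemma ClRel.of_sub_mem {s r : Equiv.Perm X} {a b m m' : X → ℤ} (h : ClRel s r a b m)
    (hm : m' - m ∈ PSub s r) : ClRel s r a b m' := by
  obtain ⟨ns, nr, h1, h2, h3⟩ := h
  refine ⟨ns, nr, h1, h2, ?_⟩
  have := (PSub s r).add_mem hm h3
  convert this using 1
  abel

/-- the class of a cocycle vanishes iff the cocycle is a coboundary -/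
lemma ClRel.mem_PSub_iff {s r : Equiv.Perm X} {a b m : X → ℤ} (h : ClRel s r a b m) :
    m ∈ PSub s r ↔ ∃ w : X → ℤ, (∀ x, w (s x) - w x = a x) ∧ ∀ x, w (r x) - w x = b x := by
  constructor
  · intro hm
    obtain ⟨ns, nr, h1, h2, h3⟩ := h
    have h4 : nr - ns ∈ PSub s r := by
      have := (PSub s r).sub_mem hm h3
      simpa using this
    obtain ⟨u, hu, v, hv, huv⟩ := Submodule.mem_sup.1 h4
    refine ⟨ns + u, fun x => ?_, fun x => ?_⟩
    · have := mem_invSub.1 hu x
      simp only [Pi.add_apply, this, ← h1 x]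
      ring
    · have e : ns + u = nr - v := by
        funext y
        have := congrFun huv y
        simp only [Pi.add_apply, Pi.sub_apply] at this ⊢
        linarith
      have := mem_invSub.1 hv x
      simp only [e, Pi.sub_apply, this, ← h2 x]
      ring
  · rintro ⟨w, hw1, hw2⟩
    have h0 : ClRel s r a b 0 := ⟨w, w, hw1, hw2, by simp⟩
    have := h.sub_mem h0
    simpa using this

variable [Fintype X]

/-- **Pairing formula**: for a relative cocycle `z` and the class `m` of `(a, b)`,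
`6 ⟨z, m⟩ = 3 ⟨z, a⟩ - 4 ⟨z, b⟩ - 2 ⟨z, b ∘ r⟩`. -/
theorem ClRel.six_dot {s r : Equiv.Perm X} {z a b m : X → ℤ}
    (hz : z ∈ ZSub s r) (h : ClRel s r a b m) :
    6 * dotProduct z m = 3 * dotProduct z a - 4 * dotProduct z b
      - 2 * dotProduct z (b ∘ r) := by
  obtain ⟨ns, nr, h1, h2, h3⟩ := h
  have e0 : dotProduct z m = dotProduct z nr - dotProduct z ns := by
    have := dot_eq_zero_of_mem hz h3
    rw [dotProduct_sub, dotProduct_sub] at this
    linarith
  -- the `s`-part
  have es : 2 * dotProduct z ns = - dotProduct z a := by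
    have r1 : dotProduct (z ∘ s) (ns ∘ s) = dotProduct z ns := dot_comp_perm s z ns
    have : dotProduct z ns + dotProduct (z ∘ s) (ns ∘ s) = - dotProduct z a := by
      unfold dotProduct
      rw [← Finset.sum_add_distrib, ← Finset.sum_neg_distrib]
      apply Finset.sum_congr rfl
      intro x _
      have e1 := hz.1 x
      have e2 := h1 x
      simp only [Function.comp_apply]
      rw [← e2]
      linear_combination (ns (s x)) * e1
    linarith
  -- the `r`-part
  have er : 3 * dotProduct z nr = - 2 * dotProduct z b - dotProduct z (b ∘ r) := by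
    have r1 : dotProduct (z ∘ r) (nr ∘ r) = dotProduct z nr := dot_comp_perm r z nr
    have r2 : dotProduct ((z ∘ r) ∘ r) ((nr ∘ r) ∘ r) = dotProduct z nr := by
      rw [dot_comp_perm r, r1]
    have r3 : dotProduct (z ∘ r) (b ∘ r) = dotProduct z b := dot_comp_perm r z b
    have : dotProduct z nr + dotProduct (z ∘ r) (nr ∘ r) +
        dotProduct ((z ∘ r) ∘ r) ((nr ∘ r) ∘ r) =
        - dotProduct z b - dotProduct z (b ∘ r) - dotProduct (z ∘ r) (b ∘ r) := by
      unfold dotProduct
      rw [← Finset.sum_add_distrib, ← Finset.sum_add_distrib, ← Finset.sum_neg_distrib,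
        ← Finset.sum_sub_distrib, ← Finset.sum_sub_distrib]
      apply Finset.sum_congr rfl
      intro x _
      have e1 := hz.2 x
      have e2 := h2 x
      have e3 := h2 (r x)
      simp only [Function.comp_apply]
      rw [← e2, ← e3]
      linear_combination (nr (r (r x))) * e1
    linarith
  linarith

/-- `⟨z, z ∘ r⟩ = ⟨z ∘ r, z⟩` etc.: the sum of the three `r`-translates -/
lemma dot_add_dot_comp_add {r : Equiv.Perm X} {z z' : X → ℤ}
    (hz' : ∀ x, z' x + z' (r x) + z' (r (r x)) = 0) :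
    dotProduct z z' + dotProduct z (z' ∘ r) + dotProduct z ((z' ∘ r) ∘ r) = 0 := by
  unfold dotProduct
  rw [← Finset.sum_add_distrib, ← Finset.sum_add_distrib]
  apply Finset.sum_eq_zero
  intro x _
  have := hz' x
  simp only [Function.comp_apply]
  linear_combination z x * this

lemma dot_comp_comp_eq {r : Equiv.Perm X} (hr : r ^ 3 = 1) (z z' : X → ℤ) :
    dotProduct z ((z' ∘ r) ∘ r) = dotProduct (z ∘ r) z' := by
  rw [← dot_comp_perm r (z ∘ r) z', ← dot_comp_perm r ((z ∘ r) ∘ r) (z' ∘ r)]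
  congr 1
  funext x
  simp only [Function.comp_apply]
  rw [perm_cube_apply hr]

end Coc

end Fermat.Agent.P6.helper99
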