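import Mathlib

set_option autoImplicit false

namespace Fermat.Agent.P6.helper99

/-! ## Saturated submodules of finitely generated `ℤ`-modules -/

section Sat

variable {M : Type*} [AddCommGroup M] [Module.Finite ℤ M]

omit [Module.Finite ℤ M] in
/-- the quotient by a saturated submodule is torsion free -/
lemma isTorsionFree_quot_of_sat (N : Submodule ℤ M)
    (hN : ∀ (n : ℤ) (m : M), n ≠ 0 → n • m ∈ N → m ∈ N) :
    Module.IsTorsionFree ℤ (M ⧸ N) := by
  apply Module.IsTorsionFree.of_smul_eq_zero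
  intro n q hq
  by_cases hn : n = 0
  · exact Or.inl hn
  · right
    obtain ⟨m, rfl⟩ := Submodule.Quotient.mk_surjective N q
    rw [← Submodule.Quotient.mk_smul, Submodule.Quotient.mk_eq_zero] at hq
    rw [Submodule.Quotient.mk_eq_zero]
    exact hN n m hn hq

/-- the quotient by a saturated submodule is free -/
lemma free_quot_of_sat (N : Submodule ℤ M)
    (hN : ∀ (n : ℤ) (m : M), n ≠ 0 → n • m ∈ N → m ∈ N) :
    Module.Free ℤ (M ⧸ N) := by
  have := isTorsionFree_quot_of_sat N hN
  exact Module.free_of_finite_type_torsion_free'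

/-- **Separation**: an element outside a saturated submodule is detected by a functional
vanishing on the submodule. -/
theorem exists_functional_of_not_mem (N : Submodule ℤ M)
    (hN : ∀ (n : ℤ) (m : M), n ≠ 0 → n • m ∈ N → m ∈ N) {m : M} (hm : m ∉ N) :
    ∃ φ : M →ₗ[ℤ] ℤ, (∀ x ∈ N, φ x = 0) ∧ φ m ≠ 0 := by
  have := free_quot_of_sat N hN
  let b := Module.Free.chooseBasis ℤ (M ⧸ N)
  have hne : N.mkQ m ≠ 0 := by
    rw [Submodule.mkQ_apply, Ne, Submodule.Quotient.mk_eq_zero]
    exact hm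
  have : ∃ i, b.repr (N.mkQ m) i ≠ 0 := by
    by_contra hcon
    push Not at hcon
    apply hne
    apply b.repr.injective
    rw [map_zero]
    ext i
    exact hcon i
  obtain ⟨i, hi⟩ := this
  refine ⟨(b.coord i).comp N.mkQ, fun x hx => ?_, ?_⟩
  · rw [LinearMap.comp_apply, Submodule.mkQ_apply, (Submodule.Quotient.mk_eq_zero N).2 hx,
      map_zero]
  · rw [LinearMap.comp_apply, Module.Basis.coord_apply]
    exact hi

/-- **Extension**: a functional on a saturated submodule extends to the whole module. -/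
theorem exists_extension_of_sat (N : Submodule ℤ M)
    (hN : ∀ (n : ℤ) (m : M), n ≠ 0 → n • m ∈ N → m ∈ N) (φ : N →ₗ[ℤ] ℤ) :
    ∃ ψ : M →ₗ[ℤ] ℤ, ∀ x : N, ψ x = φ x := by
  have := free_quot_of_sat N hN
  obtain ⟨σ, hσ⟩ := Module.projective_lifting_property N.mkQ (LinearMap.id : (M ⧸ N) →ₗ[ℤ] _)
    (Submodule.mkQ_surjective N)
  have hρ : ∀ m : M, ((LinearMap.id : M →ₗ[ℤ] M) - σ.comp N.mkQ) m ∈ N := by
    intro m
    rw [← Submodule.Quotient.mk_eq_zero N]
    have h1 := LinearMap.congr_fun hσ (N.mkQ m)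
    simp only [LinearMap.comp_apply, LinearMap.id_apply, Submodule.mkQ_apply] at h1
    simp only [LinearMap.sub_apply, LinearMap.id_apply, LinearMap.comp_apply,
      Submodule.mkQ_apply, Submodule.Quotient.mk_sub, h1, sub_self]
  let ρ : M →ₗ[ℤ] N :=
    LinearMap.codRestrict N ((LinearMap.id : M →ₗ[ℤ] M) - σ.comp N.mkQ) hρ
  refine ⟨φ.comp ρ, fun x => ?_⟩
  rw [LinearMap.comp_apply]
  congr 1
  apply Subtype.ext
  simp only [ρ, LinearMap.codRestrict_apply, LinearMap.sub_apply, LinearMap.id_apply,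
    LinearMap.comp_apply, Submodule.mkQ_apply]
  rw [(Submodule.Quotient.mk_eq_zero N).2 x.2, map_zero, sub_zero]

end Sat

end Fermat.Agent.P6.helper99
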