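import Mathlib
import Fermat.Agent.P6.helper99_PDCob
import Fermat.Agent.P6.helper99_PDPerp
import Fermat.Agent.P6.helper99_PDSat
import Fermat.Agent.P6.helper99_PDCoc

set_option autoImplicit false

open Finset

namespace Fermat.Agent.P6.helper99

/-! ## Parabolic classes and the perfect pairing on them -/

section Par

variable {X : Type*}

/-- `m` represents the class `j z` of the relative cocycle `z`. -/
def JRel (s r : Equiv.Perm X) (z m : X → ℤ) : Prop := ClRel s r z z m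

/-- the cocycle `(a, b)` is cohomologous to a relative cocycle -/
def IsParCoc (s r : Equiv.Perm X) (a b : X → ℤ) : Prop :=
  ∃ w : X → ℤ, ∀ x, w (s x) - w (r x) = b x - a x

/-- **Parabolic classes**: the class of a cocycle `(a, b)` is the class of a relative cocycle
iff `(a, b)` differs from a relative cocycle by a coboundary. -/
theorem exists_jRel_iff {s r : Equiv.Perm X} (hs : s ^ 2 = 1) (hr : r ^ 3 = 1)
    {a b m : X → ℤ} (h : ClRel s r a b m) :
    (∃ z ∈ ZSub s r, JRel s r z m) ↔ IsParCoc s r a b := by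
  constructor
  · rintro ⟨z, -, hz⟩
    have h0 := hz.sub h
    rw [sub_self] at h0
    obtain ⟨w, hw1, hw2⟩ := h0.mem_PSub_iff.1 (PSub s r).zero_mem
    refine ⟨w, fun x => ?_⟩
    have e1 := hw1 x
    have e2 := hw2 x
    simp only [Pi.sub_apply] at e1 e2
    linarith
  · rintro ⟨w, hw⟩
    obtain ⟨ns, nr, h1, h2, h3⟩ := h
    have hrel : ClRel s r (fun x => a x + (w (s x) - w x)) (fun x => a x + (w (s x) - w x)) m := by
      refine ⟨ns + w, nr + w, fun x => ?_, fun x => ?_, ?_⟩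
      · simp only [Pi.add_apply, ← h1 x]; ring
      · have := hw x
        have := h2 x
        simp only [Pi.add_apply]
        linarith
      · convert h3 using 1
        abel
    exact ⟨_, hrel.isCoc hs hr, hrel⟩

variable [Fintype X]

/-- **Alternating**: `⟨z, j z⟩ = 0`. -/
theorem JRel.dot_self {s r : Equiv.Perm X} (hr : r ^ 3 = 1) {z m : X → ℤ}
    (hz : z ∈ ZSub s r) (h : JRel s r z m) : dotProduct z m = 0 := by
  have h6 := ClRel.six_dot hz h
  have h1 := dot_add_dot_comp_add (r := r) (z := z) hz.2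
  have h2 := dot_comp_comp_eq hr z z
  have h3 : dotProduct (z ∘ r) z = dotProduct z (z ∘ r) := dotProduct_comm _ _
  rw [h2, h3] at h1
  omega

/-- **Antisymmetry**: `⟨z, j z'⟩ = - ⟨z', j z⟩`. -/
theorem JRel.dot_antisymm {s r : Equiv.Perm X} (hr : r ^ 3 = 1) {z m z' m' : X → ℤ}
    (hz : z ∈ ZSub s r) (hz' : z' ∈ ZSub s r) (h : JRel s r z m) (h' : JRel s r z' m') :
    dotProduct z m' = - dotProduct z' m := by
  have h6 := ClRel.six_dot hz h'
  have h6' := ClRel.six_dot hz' h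
  have h1 := dot_add_dot_comp_add (r := r) (z := z) hz'.2
  have h2 := dot_comp_comp_eq hr z z'
  have h3 : dotProduct (z ∘ r) z' = dotProduct z' (z ∘ r) := dotProduct_comm _ _
  have h4 : dotProduct z' z = dotProduct z z' := dotProduct_comm _ _
  rw [h2, h3] at h1
  omega

/-- the explicit formula `6 ⟨z, j z'⟩ = ⟨z ∘ r, z'⟩ - ⟨z, z' ∘ r⟩` (cup product on the
triangles) -/
theorem JRel.six_dot {s r : Equiv.Perm X} (hr : r ^ 3 = 1) {z z' m' : X → ℤ}
    (hz : z ∈ ZSub s r) (hz' : z' ∈ ZSub s r) (h' : JRel s r z' m') :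
    6 * dotProduct z m' = dotProduct (z ∘ r) z' - dotProduct z (z' ∘ r) := by
  have h6 := ClRel.six_dot hz h'
  have h1 := dot_add_dot_comp_add (r := r) (z := z) hz'.2
  have h2 := dot_comp_comp_eq hr z z'
  rw [h2] at h1
  omega

variable [DecidableEq X]

/-- **Right non-degeneracy** of `Z × M/P → ℤ`: `P = Z^⊥`. -/
theorem mem_PSub_iff_dot {s r : Equiv.Perm X} (hs : s ^ 2 = 1) (hr : r ^ 3 = 1) (m : X → ℤ) :
    m ∈ PSub s r ↔ ∀ z ∈ ZSub s r, dotProduct z m = 0 := by
  constructor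
  · intro hm z hz
    exact dot_eq_zero_of_mem hz hm
  · intro h
    by_contra hm
    obtain ⟨φ, hφ, hφm⟩ := exists_functional_of_not_mem (PSub s r)
      (fun n m hn h => mem_PSub_of_smul s r hn h) hm
    obtain ⟨z, hz, hzφ⟩ := exists_ZSub_of_functional hs hr φ hφ
    apply hφm
    rw [hzφ m]
    exact h z hz

/-- **Radical**: if `⟨z, j z'⟩ = 0` for all `z'` then `j z = 0`. -/
theorem JRel.mem_PSub_of_dot {s r : Equiv.Perm X} (hs : s ^ 2 = 1) (hr : r ^ 3 = 1)
    {z m : X → ℤ} (hz : z ∈ ZSub s r) (h : JRel s r z m)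
    (hrad : ∀ z' ∈ ZSub s r, ∀ m', JRel s r z' m' → dotProduct z m' = 0) :
    m ∈ PSub s r := by
  rw [mem_PSub_iff_dot hs hr]
  intro z' hz'
  obtain ⟨m', hm'⟩ := exists_clRel hs hr (a := z') (b := z') ⟨hz'.1, hz'.2⟩
  have := JRel.dot_antisymm hr hz hz' h hm'
  rw [hrad z' hz' m' hm'] at this
  omega

/-- the parabolic permutation `t' = r s⁻¹` (the class of `(S T) S⁻¹`) -/
def tPerm (s r : Equiv.Perm X) : Equiv.Perm X := r * s⁻¹

omit [Fintype X] [DecidableEq X] in
/-- **Parabolicity criterion**: `(a, b)` is cohomologous to a relative cocycle iff all sums of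
`(b - a) ∘ s⁻¹` over the orbits of `r s⁻¹` vanish. -/
theorem isParCoc_iff_sum {s r : Equiv.Perm X} {k : ℕ} (hk : 0 < k)
    (htk : tPerm s r ^ k = 1) (a b : X → ℤ) :
    IsParCoc s r a b ↔
      ∀ x, ∑ i ∈ range k, (b (s⁻¹ ((tPerm s r ^ i) x)) - a (s⁻¹ ((tPerm s r ^ i) x))) = 0 := by
  constructor
  · rintro ⟨w, hw⟩ x
    have key : ∀ y, b (s⁻¹ y) - a (s⁻¹ y) = w y - w (tPerm s r y) := by
      intro y
      have h1 := hw (s⁻¹ y)
      have h2 : s (s⁻¹ y) = y := by simp
      rw [h2] at h1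
      rw [← h1]
      rfl
    have h2 : ∀ i ∈ range k, (b (s⁻¹ ((tPerm s r ^ i) x)) - a (s⁻¹ ((tPerm s r ^ i) x))) =
        w ((tPerm s r ^ i) x) - w ((tPerm s r ^ (i + 1)) x) := by
      intro i _
      rw [key, pow_succ', Equiv.Perm.mul_apply]
    rw [Finset.sum_congr rfl h2,
      Finset.sum_range_sub' (fun i => w ((tPerm s r ^ i) x)) k]
    simp [htk]
  · intro h
    obtain ⟨n, hn⟩ := exists_cob (tPerm s r) hk htk (fun y => b (s⁻¹ y) - a (s⁻¹ y)) h
    refine ⟨fun x => - n x, fun x => ?_⟩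
    have h1 := hn (s x)
    have h2 : s⁻¹ (s x) = x := by simp
    have h3 : tPerm s r (s x) = r x := by
      show r (s⁻¹ (s x)) = r x
      rw [h2]
    rw [h2, h3] at h1
    show - n (s x) - - n (r x) = b x - a x
    linarith

omit [Fintype X] [DecidableEq X] in
lemma IsParCoc.of_smul [Finite X] {s r : Equiv.Perm X} {a b : X → ℤ} {n : ℤ} (hn : n ≠ 0)
    (h : IsParCoc s r (n • a) (n • b)) : IsParCoc s r a b := by
  have hk : 0 < orderOf (tPerm s r) := orderOf_pos _
  have htk : tPerm s r ^ orderOf (tPerm s r) = 1 := pow_orderOf_eq_one _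
  rw [isParCoc_iff_sum hk htk] at h ⊢
  intro x
  have := h x
  simp only [Pi.smul_apply, smul_eq_mul, ← mul_sub, ← Finset.mul_sum] at this
  rcases mul_eq_zero.1 this with h0 | h0
  · exact absurd h0 hn
  · exact h0

omit [Fintype X] [DecidableEq X] in
/-- the submodule of `M` of the representatives of parabolic classes -/
def parSub (s r : Equiv.Perm X) : Submodule ℤ (X → ℤ) where
  carrier := {m | ∃ z ∈ ZSub s r, JRel s r z m}
  add_mem' := by
    rintro m m' ⟨z, hz, h⟩ ⟨z', hz', h'⟩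
    exact ⟨z + z', (ZSub s r).add_mem hz hz', ClRel.add h h'⟩
  zero_mem' := ⟨0, (ZSub s r).zero_mem, clRel_zero s r⟩
  smul_mem' := by
    rintro c m ⟨z, hz, h⟩
    exact ⟨c • z, (ZSub s r).smul_mem c hz, ClRel.smul h c⟩

omit [Fintype X] [DecidableEq X] in
lemma mem_parSub {s r : Equiv.Perm X} {m : X → ℤ} :
    m ∈ parSub s r ↔ ∃ z ∈ ZSub s r, JRel s r z m := Iff.rfl

omit [Fintype X] [DecidableEq X] in
lemma PSub_le_parSub (s r : Equiv.Perm X) : PSub s r ≤ parSub s r := by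
  intro m hm
  refine ⟨0, (ZSub s r).zero_mem, (clRel_zero s r).of_sub_mem ?_⟩
  simpa using hm

omit [Fintype X] [DecidableEq X] in
/-- membership in `parSub` in terms of the cocycle `(0, m ∘ r - m)` -/
theorem mem_parSub_iff {s r : Equiv.Perm X} (hs : s ^ 2 = 1) (hr : r ^ 3 = 1) (m : X → ℤ) :
    m ∈ parSub s r ↔ IsParCoc s r 0 (fun x => m (r x) - m x) :=
  exists_jRel_iff hs hr (clRel_self s r m)

omit [Fintype X] [DecidableEq X] in
/-- **Saturation** of the parabolic classes. -/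
theorem mem_parSub_of_smul [Finite X] {s r : Equiv.Perm X} (hs : s ^ 2 = 1) (hr : r ^ 3 = 1)
    {n : ℤ} (hn : n ≠ 0) {m : X → ℤ} (h : n • m ∈ parSub s r) : m ∈ parSub s r := by
  rw [mem_parSub_iff hs hr] at h ⊢
  apply IsParCoc.of_smul hn
  convert h using 1
  · simp
  · funext x
    simp only [Pi.smul_apply, smul_eq_mul]
    ring

/-- **Perfectness on parabolic classes, part 1**: every functional on the parabolic classes
is the pairing with a relative cocycle. -/
theorem exists_ZSub_of_functional_par {s r : Equiv.Perm X} (hs : s ^ 2 = 1) (hr : r ^ 3 = 1)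
    (φ : parSub s r →ₗ[ℤ] ℤ) (hφ : ∀ m : parSub s r, (m : X → ℤ) ∈ PSub s r → φ m = 0) :
    ∃ z ∈ ZSub s r, ∀ m : parSub s r, φ m = dotProduct z (m : X → ℤ) := by
  obtain ⟨ψ, hψ⟩ := exists_extension_of_sat (parSub s r)
    (fun n m hn h => mem_parSub_of_smul hs hr hn h) φ
  obtain ⟨z, hz, hzψ⟩ := exists_ZSub_of_functional hs hr ψ (fun m hm => by
    have := hψ ⟨m, PSub_le_parSub s r hm⟩
    rw [this]
    exact hφ _ hm)
  exact ⟨z, hz, fun m => by rw [← hψ m, hzψ]⟩

omit [DecidableEq X] in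
/-- the pairing `⟨z, m'⟩`, `m'` parabolic, only depends on the class `j z`. -/
theorem dot_eq_of_jRel {s r : Equiv.Perm X} (hr : r ^ 3 = 1) {z₁ z₂ m m' : X → ℤ}
    (hz₁ : z₁ ∈ ZSub s r) (hz₂ : z₂ ∈ ZSub s r) (h₁ : JRel s r z₁ m) (h₂ : JRel s r z₂ m)
    (hm' : m' ∈ parSub s r) : dotProduct z₁ m' = dotProduct z₂ m' := by
  obtain ⟨z', hz', h'⟩ := hm'
  have e1 := JRel.dot_antisymm hr hz₁ hz' h₁ h'
  have e2 := JRel.dot_antisymm hr hz₂ hz' h₂ h'
  rw [e1, e2]

end Par

end Fermat.Agent.P6.helper99
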