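import Mathlib
import Fermat.Agent.P6.helper99_PDPar

set_option autoImplicit false

open Finset

namespace Fermat.Agent.P6.helper99

/-! ## The Poincaré form on the parabolic classes, packaged -/

section Form

variable {X : Type*} [Fintype X]

/-- a relative cocycle representing a parabolic class -/
noncomputable def zOf (s r : Equiv.Perm X) (m : parSub s r) : X → ℤ := Classical.choose m.2

omit [Fintype X] in
lemma zOf_mem (s r : Equiv.Perm X) (m : parSub s r) : zOf s r m ∈ ZSub s r :=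
  (Classical.choose_spec m.2).1

omit [Fintype X] in
lemma zOf_rel (s r : Equiv.Perm X) (m : parSub s r) : JRel s r (zOf s r m) (m : X → ℤ) :=
  (Classical.choose_spec m.2).2

/-- **The Poincaré form** on (representatives of) parabolic classes:
`pdForm m m' = ⟨z, m'⟩` for any relative cocycle `z` with `j z = [m]`. -/
noncomputable def pdForm (s r : Equiv.Perm X) (hr : r ^ 3 = 1) :
    parSub s r →ₗ[ℤ] parSub s r →ₗ[ℤ] ℤ :=
  LinearMap.mk₂ ℤ (fun m m' => dotProduct (zOf s r m) (m' : X → ℤ))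
    (fun m₁ m₂ m' => by
      rw [← add_dotProduct]
      exact dot_eq_of_jRel hr (zOf_mem s r _)
        ((ZSub s r).add_mem (zOf_mem s r m₁) (zOf_mem s r m₂)) (zOf_rel s r _)
        (ClRel.add (zOf_rel s r m₁) (zOf_rel s r m₂)) m'.2)
    (fun c m m' => by
      rw [← smul_dotProduct]
      exact dot_eq_of_jRel hr (zOf_mem s r _)
        ((ZSub s r).smul_mem c (zOf_mem s r m)) (zOf_rel s r _)
        (ClRel.smul (zOf_rel s r m) c) m'.2)
    (fun m m₁ m₂ => by
      simp only [Submodule.coe_add]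
      rw [dotProduct_add])
    (fun c m m' => by
      simp only [Submodule.coe_smul]
      rw [dotProduct_smul])

theorem pdForm_apply {s r : Equiv.Perm X} (hr : r ^ 3 = 1) {z : X → ℤ} (hz : z ∈ ZSub s r)
    (m m' : parSub s r) (h : JRel s r z (m : X → ℤ)) :
    pdForm s r hr m m' = dotProduct z (m' : X → ℤ) :=
  dot_eq_of_jRel hr (zOf_mem s r _) hz (zOf_rel s r _) h m'.2

/-- the Poincaré form is alternating -/
theorem pdForm_self {s r : Equiv.Perm X} (hr : r ^ 3 = 1) (m : parSub s r) :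
    pdForm s r hr m m = 0 :=
  JRel.dot_self hr (zOf_mem s r m) (zOf_rel s r m)

/-- the Poincaré form is antisymmetric -/
theorem pdForm_antisymm {s r : Equiv.Perm X} (hr : r ^ 3 = 1) (m m' : parSub s r) :
    pdForm s r hr m m' = - pdForm s r hr m' m :=
  JRel.dot_antisymm hr (zOf_mem s r m) (zOf_mem s r m') (zOf_rel s r m) (zOf_rel s r m')

/-- the Poincaré form kills `P` on the right -/
theorem pdForm_eq_zero_right {s r : Equiv.Perm X} (hr : r ^ 3 = 1) (m m' : parSub s r)
    (hm' : (m' : X → ℤ) ∈ PSub s r) : pdForm s r hr m m' = 0 :=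
  dot_eq_zero_of_mem (zOf_mem s r m) hm'

/-- the Poincaré form kills `P` on the left -/
theorem pdForm_eq_zero_left {s r : Equiv.Perm X} (hr : r ^ 3 = 1) (m m' : parSub s r)
    (hm : (m : X → ℤ) ∈ PSub s r) : pdForm s r hr m m' = 0 := by
  rw [pdForm_antisymm, pdForm_eq_zero_right hr m' m hm, neg_zero]

/-- the explicit formula for the Poincaré form -/
theorem six_pdForm {s r : Equiv.Perm X} (hr : r ^ 3 = 1) {z z' : X → ℤ}
    (hz : z ∈ ZSub s r) (hz' : z' ∈ ZSub s r) (m m' : parSub s r)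
    (h : JRel s r z (m : X → ℤ)) (h' : JRel s r z' (m' : X → ℤ)) :
    6 * pdForm s r hr m m' = dotProduct (z ∘ r) z' - dotProduct z (z' ∘ r) := by
  rw [pdForm_apply hr hz m m' h]
  exact JRel.six_dot hr hz hz' h'

variable [DecidableEq X]

/-- **Non-degeneracy**: the radical of the Poincaré form is `P`. -/
theorem pdForm_nondeg {s r : Equiv.Perm X} (hs : s ^ 2 = 1) (hr : r ^ 3 = 1)
    (m : parSub s r) (h : ∀ m', pdForm s r hr m m' = 0) : (m : X → ℤ) ∈ PSub s r := by
  refine JRel.mem_PSub_of_dot hs hr (zOf_mem s r m) (zOf_rel s r m) ?_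
  intro z' hz' m' hm'
  exact h ⟨m', z', hz', hm'⟩

/-- **Unimodularity**: every functional on the parabolic classes is `pdForm m`. -/
theorem pdForm_surj {s r : Equiv.Perm X} (hs : s ^ 2 = 1) (hr : r ^ 3 = 1)
    (φ : parSub s r →ₗ[ℤ] ℤ) (hφ : ∀ m : parSub s r, (m : X → ℤ) ∈ PSub s r → φ m = 0) :
    ∃ m : parSub s r, ∀ m', φ m' = pdForm s r hr m m' := by
  obtain ⟨z, hz, hzφ⟩ := exists_ZSub_of_functional_par hs hr φ hφ
  obtain ⟨m, hm⟩ := exists_clRel hs hr (a := z) (b := z) ⟨hz.1, hz.2⟩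
  refine ⟨⟨m, z, hz, hm⟩, fun m' => ?_⟩
  rw [hzφ m']
  exact (pdForm_apply hr hz ⟨m, z, hz, hm⟩ m' hm).symm

/-- **Non-degeneracy modulo `n`**: if `n` divides all `pdForm m m'` then `m ∈ n • Par + P`. -/
theorem pdForm_nondeg_mod {s r : Equiv.Perm X} (hs : s ^ 2 = 1) (hr : r ^ 3 = 1) {n : ℤ}
    (hn : n ≠ 0) (m : parSub s r) (h : ∀ m', n ∣ pdForm s r hr m m') :
    ∃ m₀ : parSub s r, (m : X → ℤ) - n • (m₀ : X → ℤ) ∈ PSub s r := by
  choose c hc using h
  let φ : parSub s r →ₗ[ℤ] ℤ :=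
    { toFun := c
      map_add' := fun a b => by
        apply mul_left_cancel₀ hn
        rw [mul_add, ← hc, ← hc, ← hc, map_add]
      map_smul' := fun k a => by
        apply mul_left_cancel₀ hn
        simp only [RingHom.id_apply, smul_eq_mul]
        rw [← hc, mul_left_comm, ← hc, map_smul, smul_eq_mul] }
  have hφ : ∀ m' : parSub s r, (m' : X → ℤ) ∈ PSub s r → φ m' = 0 := by
    intro m' hm'
    apply mul_left_cancel₀ hn
    show n * c m' = n * 0
    rw [← hc, mul_zero]
    exact pdForm_eq_zero_right hr m m' hm'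
  obtain ⟨m₀, hm₀⟩ := pdForm_surj hs hr φ hφ
  refine ⟨m₀, ?_⟩
  have := pdForm_nondeg hs hr (m - n • m₀) (fun m' => by
    rw [map_sub, map_smul, LinearMap.sub_apply, LinearMap.smul_apply, ← hm₀ m', hc m']
    show n * c m' - n • c m' = 0
    rw [smul_eq_mul, sub_self])
  simpa using this

end Form

end Fermat.Agent.P6.helper99
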