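import Mathlib
import Fermat.Prelude.Def_ModularCurve_PeriodMap
import Fermat.Agent.S16.helper21_Lift
import Fermat.Agent.S16.helper64_PSL2Z
import Fermat.Agent.P6.helper99_PDForm

/-!
# P6 / S41, module (D) duality, package [D-DICT] (helper39)

The Shapiro dictionary between `Hom(Γ, ℤ)` and the classes of cocycles on the `C₂ * C₃` model
(`helper99`), for an ARBITRARY subgroup `Γ ≤ SL(2, ℤ)` containing `-1`.

* `X = SL(2, ℤ) ⧸ Γ`, `permS Γ`, `permR Γ` : the permutations induced by `S` and `S * T`;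
* `HomCl Γ ψ m` : `m : X → ℤ` represents the class of (the Schreier cocycle of) `ψ`;
* `exists_homCl`, `HomCl.add`, `HomCl.smul`, `HomCl.sub_mem` : existence, additivity,
  well-definedness modulo `PSub`;
* `HomCl.eq_zero_of_mem_PSub` : injectivity;
* `HomCl.mem_parSub` : parabolic homs have parabolic classes;
* `exists_parabolic_homCl` : every parabolic class comes from a parabolic hom.
-/

set_option autoImplicit false

open scoped MatrixGroups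
open ModularCurve.Period

namespace Fermat.Agent.P6.helper39

open Fermat.Agent.S16.helper21 (CoGrp shapiro res)
open Fermat.Agent.S21.helper83 (x0 sch smul_x0 smul_x0_of_mem)
open Fermat.Agent.P6.helper99

/-! ### the two permutations -/

section Perms

variable (Γ : Subgroup SL(2, ℤ))

/-- the permutation of `SL(2, ℤ) ⧸ Γ` induced by `S` -/
def permS : Equiv.Perm (SL(2, ℤ) ⧸ Γ) := MulAction.toPerm ModularGroup.S

/-- the permutation of `SL(2, ℤ) ⧸ Γ` induced by `S * T` -/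
def permR : Equiv.Perm (SL(2, ℤ) ⧸ Γ) := MulAction.toPerm (ModularGroup.S * ModularGroup.T)

@[simp] lemma permS_apply (x : SL(2, ℤ) ⧸ Γ) : permS Γ x = ModularGroup.S • x := rfl

@[simp] lemma permR_apply (x : SL(2, ℤ) ⧸ Γ) :
    permR Γ x = (ModularGroup.S * ModularGroup.T) • x := rfl

lemma sl_S_mul_S : ModularGroup.S * ModularGroup.S = (-1 : SL(2, ℤ)) := by decide

lemma sl_R_cube : (ModularGroup.S * ModularGroup.T) *
    ((ModularGroup.S * ModularGroup.T) * (ModularGroup.S * ModularGroup.T)) = (-1 : SL(2, ℤ)) := by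
  decide

variable {Γ}

lemma neg_one_smul_coset (hneg : (-1 : SL(2, ℤ)) ∈ Γ) (x : SL(2, ℤ) ⧸ Γ) :
    (-1 : SL(2, ℤ)) • x = x :=
  Fermat.Agent.S21.helper83.neg_one_smul' Γ hneg x

lemma permS_sq (hneg : (-1 : SL(2, ℤ)) ∈ Γ) : permS Γ ^ 2 = 1 := by
  ext x
  rw [pow_two, Equiv.Perm.mul_apply]
  show ModularGroup.S • ModularGroup.S • x = x
  rw [← mul_smul, sl_S_mul_S, neg_one_smul_coset hneg]

lemma permR_cube (hneg : (-1 : SL(2, ℤ)) ∈ Γ) : permR Γ ^ 3 = 1 := by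
  ext x
  rw [pow_succ, pow_two, Equiv.Perm.mul_apply, Equiv.Perm.mul_apply]
  show (ModularGroup.S * ModularGroup.T) • (ModularGroup.S * ModularGroup.T) •
    (ModularGroup.S * ModularGroup.T) • x = x
  rw [← mul_smul, ← mul_smul, mul_assoc, sl_R_cube, neg_one_smul_coset hneg]

end Perms

/-! ### homomorphisms to the cocycle group -/

section CocHom

variable {Γ : Subgroup SL(2, ℤ)}

/-- the coboundary homomorphism of a function `w` -/
def cobHom (Γ : Subgroup SL(2, ℤ)) (w : (SL(2, ℤ) ⧸ Γ) → ℤ) :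
    SL(2, ℤ) →* CoGrp (SL(2, ℤ) ⧸ Γ) ℤ where
  toFun g := ⟨fun x => w (g • x) - w x, MulAction.toPerm g⟩
  map_one' := by
    ext x
    · simp
    · simp
  map_mul' g h := by
    ext x
    · simp only [CoGrp.mul_f, MulAction.toPerm_apply, mul_smul]
      ring
    · simp [mul_smul]

@[simp] lemma cobHom_f (w : (SL(2, ℤ) ⧸ Γ) → ℤ) (g : SL(2, ℤ)) (x : SL(2, ℤ) ⧸ Γ) :
    (cobHom Γ w g).f x = w (g • x) - w x := rfl

@[simp] lemma cobHom_σ (w : (SL(2, ℤ) ⧸ Γ) → ℤ) (g : SL(2, ℤ)) :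
    (cobHom Γ w g).σ = MulAction.toPerm g := rfl

/-- a homomorphism over the action whose values at `S` and `S * T` are those of a coboundary is
that coboundary. -/
lemma eq_cobHom (Φ : SL(2, ℤ) →* CoGrp (SL(2, ℤ) ⧸ Γ) ℤ)
    (hΦ : ∀ g, (Φ g).σ = MulAction.toPerm g) (w : (SL(2, ℤ) ⧸ Γ) → ℤ)
    (hS : ∀ x, w (permS Γ x) - w x = (Φ ModularGroup.S).f x)
    (hR : ∀ x, w (permR Γ x) - w x = (Φ (ModularGroup.S * ModularGroup.T)).f x) :
    Φ = cobHom Γ w := by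
  apply Fermat.Agent.S16.helper21.hom_ext_S_ST
  · ext x
    · rw [cobHom_f, ← hS]; rfl
    · rw [hΦ]; rfl
  · ext x
    · rw [cobHom_f, ← hR]; rfl
    · rw [hΦ]; rfl

/-- the values at `S`, `S * T` of a homomorphism over the action killing `-1` form a cocycle -/
lemma isCoc_of_hom (Φ : SL(2, ℤ) →* CoGrp (SL(2, ℤ) ⧸ Γ) ℤ)
    (hΦ : ∀ g, (Φ g).σ = MulAction.toPerm g) (hneg : Φ (-1) = 1) :
    IsCoc (permS Γ) (permR Γ) (Φ ModularGroup.S).f (Φ (ModularGroup.S * ModularGroup.T)).f := by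
  refine ⟨fun x => ?_, fun x => ?_⟩
  · have h := CoGrp.hom_f_mul Φ hΦ ModularGroup.S ModularGroup.S x
    rw [sl_S_mul_S, hneg] at h
    rw [permS_apply]
    have h0 : (1 : CoGrp (SL(2, ℤ) ⧸ Γ) ℤ).f x = 0 := rfl
    rw [h0] at h
    linarith
  · have h := CoGrp.hom_f_mul Φ hΦ (ModularGroup.S * ModularGroup.T)
      ((ModularGroup.S * ModularGroup.T) * (ModularGroup.S * ModularGroup.T)) x
    rw [sl_R_cube, hneg, CoGrp.hom_f_mul Φ hΦ (ModularGroup.S * ModularGroup.T)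
      (ModularGroup.S * ModularGroup.T) x, mul_smul] at h
    have h0 : (1 : CoGrp (SL(2, ℤ) ⧸ Γ) ℤ).f x = 0 := rfl
    rw [h0] at h
    simp only [permR_apply]
    linarith

/-- the value at the parabolic element `(S T) S⁻¹` -/
lemma hom_f_par (Φ : SL(2, ℤ) →* CoGrp (SL(2, ℤ) ⧸ Γ) ℤ)
    (hΦ : ∀ g, (Φ g).σ = MulAction.toPerm g) (y : SL(2, ℤ) ⧸ Γ) :
    (Φ ((ModularGroup.S * ModularGroup.T) * ModularGroup.S⁻¹)).f y =
      (Φ (ModularGroup.S * ModularGroup.T)).f (ModularGroup.S⁻¹ • y) -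
        (Φ ModularGroup.S).f (ModularGroup.S⁻¹ • y) := by
  rw [CoGrp.hom_f_mul Φ hΦ, CoGrp.hom_f_inv Φ hΦ]
  ring

end CocHom

/-! ### Shapiro's lemma -/

section Shapiro

variable (Γ : Subgroup SL(2, ℤ))

lemma out_smul_x0 (x : SL(2, ℤ) ⧸ Γ) : (Quotient.out x : SL(2, ℤ)) • x0 Γ = x := by
  rw [smul_x0]
  exact QuotientGroup.out_eq' x

/-- **Shapiro's lemma**: the Schreier cocycle of the restriction of `Φ` is cohomologous
to `Φ`. -/
lemma shapiro_res_f (Φ : SL(2, ℤ) →* CoGrp (SL(2, ℤ) ⧸ Γ) ℤ)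
    (hΦ : ∀ g, (Φ g).σ = MulAction.toPerm g) (g : SL(2, ℤ)) (x : SL(2, ℤ) ⧸ Γ) :
    (shapiro Γ (res Γ Φ hΦ) g).f x =
      (Φ g).f x + (Φ (Quotient.out x)).f (x0 Γ) - (Φ (Quotient.out (g • x))).f (x0 Γ) := by
  rw [Fermat.Agent.S16.helper21.shapiro_f, Fermat.Agent.S16.helper21.res_apply]
  show (Φ ((Quotient.out (g • x))⁻¹ * (g * Quotient.out x))).f (x0 Γ) = _
  rw [CoGrp.hom_f_mul Φ hΦ, CoGrp.hom_f_inv Φ hΦ, CoGrp.hom_f_mul Φ hΦ, mul_smul,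
    out_smul_x0, inv_smul_eq_iff.2 (out_smul_x0 Γ (g • x)).symm]
  ring

variable {Γ}

lemma sch_neg_one (hneg : (-1 : SL(2, ℤ)) ∈ Γ) (x : SL(2, ℤ) ⧸ Γ) :
    sch Γ (-1) x = ⟨-1, hneg⟩ := by
  apply Subtype.ext
  simp only [sch]
  rw [neg_one_smul_coset hneg]
  simp

lemma hom_neg_one (hneg : (-1 : SL(2, ℤ)) ∈ Γ) (ψ : Additive Γ →+ ℤ) :
    ψ (Additive.ofMul (⟨-1, hneg⟩ : Γ)) = 0 := by
  have h1 : (⟨-1, hneg⟩ : Γ) * ⟨-1, hneg⟩ = 1 := by
    apply Subtype.ext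
    simp
  have h2 : ψ (Additive.ofMul ((⟨-1, hneg⟩ : Γ) * ⟨-1, hneg⟩)) = 0 := by
    rw [h1]
    exact map_zero ψ
  rw [ofMul_mul, map_add] at h2
  omega

lemma shapiro_neg_one (hneg : (-1 : SL(2, ℤ)) ∈ Γ) (ψ : Additive Γ →+ ℤ) :
    shapiro Γ ψ (-1) = 1 := by
  ext x
  · rw [Fermat.Agent.S16.helper21.shapiro_f, sch_neg_one hneg, hom_neg_one hneg]
    rfl
  · rw [Fermat.Agent.S16.helper21.shapiro_σ]
    show (-1 : SL(2, ℤ)) • x = x
    exact neg_one_smul_coset hneg x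

lemma shapiro_add_f (ψ ψ' : Additive Γ →+ ℤ) (g : SL(2, ℤ)) :
    (shapiro Γ (ψ + ψ') g).f = (shapiro Γ ψ g).f + (shapiro Γ ψ' g).f := rfl

lemma shapiro_smul_f (c : ℤ) (ψ : Additive Γ →+ ℤ) (g : SL(2, ℤ)) :
    (shapiro Γ (c • ψ) g).f = c • (shapiro Γ ψ g).f := rfl

end Shapiro

/-! ### the class of a homomorphism -/

section HomCl

variable (Γ : Subgroup SL(2, ℤ))

/-- `m` represents the class of (the Schreier cocycle of) `ψ` in `M / P`. -/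
def HomCl (ψ : Additive Γ →+ ℤ) (m : (SL(2, ℤ) ⧸ Γ) → ℤ) : Prop :=
  ClRel (permS Γ) (permR Γ) (shapiro Γ ψ ModularGroup.S).f
    (shapiro Γ ψ (ModularGroup.S * ModularGroup.T)).f m

variable {Γ}

/-- the class of the restriction of a cocycle homomorphism -/
lemma homCl_res (Φ : SL(2, ℤ) →* CoGrp (SL(2, ℤ) ⧸ Γ) ℤ)
    (hΦ : ∀ g, (Φ g).σ = MulAction.toPerm g) {m : (SL(2, ℤ) ⧸ Γ) → ℤ}
    (h : ClRel (permS Γ) (permR Γ) (Φ ModularGroup.S).f
      (Φ (ModularGroup.S * ModularGroup.T)).f m) :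
    HomCl Γ (res Γ Φ hΦ) m := by
  obtain ⟨ns, nr, h1, h2, h3⟩ := h
  refine ⟨fun x => ns x - (Φ (Quotient.out x)).f (x0 Γ),
    fun x => nr x - (Φ (Quotient.out x)).f (x0 Γ), fun x => ?_, fun x => ?_, ?_⟩
  · rw [shapiro_res_f, ← h1 x]
    simp only [permS_apply]
    ring
  · rw [shapiro_res_f, ← h2 x]
    simp only [permR_apply]
    ring
  · convert h3 using 2
    funext x
    simp only [Pi.sub_apply]
    ring

theorem exists_homCl (hneg : (-1 : SL(2, ℤ)) ∈ Γ) (ψ : Additive Γ →+ ℤ) :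
    ∃ m, HomCl Γ ψ m :=
  exists_clRel (permS_sq hneg) (permR_cube hneg)
    (isCoc_of_hom (shapiro Γ ψ) (fun _ => rfl) (shapiro_neg_one hneg ψ))

lemma homCl_zero : HomCl Γ 0 0 := clRel_zero _ _

lemma HomCl.add {ψ ψ' : Additive Γ →+ ℤ} {m m' : (SL(2, ℤ) ⧸ Γ) → ℤ} (h : HomCl Γ ψ m)
    (h' : HomCl Γ ψ' m') : HomCl Γ (ψ + ψ') (m + m') :=
  ClRel.add h h'

lemma HomCl.smul {ψ : Additive Γ →+ ℤ} {m : (SL(2, ℤ) ⧸ Γ) → ℤ} (h : HomCl Γ ψ m) (c : ℤ) :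
    HomCl Γ (c • ψ) (c • m) :=
  ClRel.smul h c

lemma HomCl.sub {ψ ψ' : Additive Γ →+ ℤ} {m m' : (SL(2, ℤ) ⧸ Γ) → ℤ} (h : HomCl Γ ψ m)
    (h' : HomCl Γ ψ' m') : HomCl Γ (ψ - ψ') (m - m') := by
  have := h.add (h'.smul (-1))
  have e1 : ψ + (-1 : ℤ) • ψ' = ψ - ψ' := by
    rw [neg_one_smul, sub_eq_add_neg]
  have e2 : m + (-1 : ℤ) • m' = m - m' := by
    rw [neg_one_smul, sub_eq_add_neg]
  rwa [e1, e2] at this

lemma HomCl.sub_mem {ψ : Additive Γ →+ ℤ} {m m' : (SL(2, ℤ) ⧸ Γ) → ℤ} (h : HomCl Γ ψ m)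
    (h' : HomCl Γ ψ m') : m - m' ∈ PSub (permS Γ) (permR Γ) :=
  ClRel.sub_mem h h'

lemma HomCl.of_sub_mem {ψ : Additive Γ →+ ℤ} {m m' : (SL(2, ℤ) ⧸ Γ) → ℤ} (h : HomCl Γ ψ m)
    (hm : m' - m ∈ PSub (permS Γ) (permR Γ)) : HomCl Γ ψ m' :=
  ClRel.of_sub_mem h hm

/-- **Injectivity** of the dictionary. -/
theorem HomCl.eq_zero_of_mem_PSub {ψ : Additive Γ →+ ℤ} {m : (SL(2, ℤ) ⧸ Γ) → ℤ}
    (h : HomCl Γ ψ m) (hm : m ∈ PSub (permS Γ) (permR Γ)) : ψ = 0 := by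
  obtain ⟨w, hw1, hw2⟩ := (ClRel.mem_PSub_iff h).1 hm
  have key : shapiro Γ ψ = cobHom Γ w := eq_cobHom _ (fun _ => rfl) w hw1 hw2
  refine AddMonoidHom.ext fun γ => ?_
  induction γ using Additive.rec with
  | ofMul γ =>
    rw [← Fermat.Agent.S16.helper21.shapiro_f_x0, key, cobHom_f, smul_x0_of_mem Γ γ.2]
    simp

end HomCl

/-! ### parabolic homomorphisms and parabolic classes -/

section Parabolic

variable {Γ : Subgroup SL(2, ℤ)}

/-- the parabolic element `(S T) S⁻¹ = S T S⁻¹` -/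
def tZero : SL(2, ℤ) := (ModularGroup.S * ModularGroup.T) * ModularGroup.S⁻¹

lemma tZero_pow (k : ℕ) : tZero ^ k = ModularGroup.S * ModularGroup.T ^ k * ModularGroup.S⁻¹ := by
  have : tZero = ModularGroup.S * ModularGroup.T * ModularGroup.S⁻¹ := rfl
  rw [this, conj_pow]

lemma tZero_zpow (k : ℤ) : tZero ^ k = ModularGroup.S * ModularGroup.T ^ k * ModularGroup.S⁻¹ := by
  have : tZero = ModularGroup.S * ModularGroup.T * ModularGroup.S⁻¹ := rfl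
  rw [this, conj_zpow]

lemma T_zpow_eq (k : ℤ) : ModularGroup.T ^ k = ModularGroup.S⁻¹ * tZero ^ k * ModularGroup.S := by
  rw [tZero_zpow]
  group

lemma trace_tZero_pow (k : ℕ) :
    ((tZero ^ k : SL(2, ℤ)) : Matrix (Fin 2) (Fin 2) ℤ).trace ^ 2 = 4 := by
  rw [tZero_pow, Matrix.SpecialLinearGroup.coe_mul, Matrix.trace_mul_comm,
    ← Matrix.SpecialLinearGroup.coe_mul, inv_mul_cancel_left, ← zpow_natCast,
    ModularGroup.coe_T_zpow, Matrix.trace_fin_two]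
  simp

lemma tPerm_eq : tPerm (permS Γ) (permR Γ) = MulAction.toPerm tZero := by
  ext x
  show (ModularGroup.S * ModularGroup.T) • ((permS Γ)⁻¹ x) = tZero • x
  have : (permS Γ)⁻¹ x = ModularGroup.S⁻¹ • x := by
    rw [Equiv.Perm.inv_eq_iff_eq]
    simp
  rw [this, ← mul_smul]
  rfl

lemma tPerm_pow_apply (i : ℕ) (x : SL(2, ℤ) ⧸ Γ) :
    (tPerm (permS Γ) (permR Γ) ^ i) x = tZero ^ i • x := by
  rw [tPerm_eq]
  induction i with
  | zero => simp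
  | succ i ih =>
    rw [pow_succ', Equiv.Perm.mul_apply, ih, pow_succ', mul_smul]
    rfl

lemma permS_inv_apply (x : SL(2, ℤ) ⧸ Γ) : (permS Γ)⁻¹ x = ModularGroup.S⁻¹ • x := by
  rw [Equiv.Perm.inv_eq_iff_eq]
  simp

/-- **Parabolic homomorphisms have parabolic classes.** -/
theorem HomCl.mem_parSub [Finite (SL(2, ℤ) ⧸ Γ)] (hneg : (-1 : SL(2, ℤ)) ∈ Γ)
    {ψ : Additive Γ →+ ℤ} (hψ : IsParabolicHom Γ ψ) {m : (SL(2, ℤ) ⧸ Γ) → ℤ}
    (h : HomCl Γ ψ m) : m ∈ parSub (permS Γ) (permR Γ) := by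
  rw [Fermat.Agent.P6.helper99.mem_parSub]
  refine (exists_jRel_iff (permS_sq hneg) (permR_cube hneg) h).2 ?_
  have hk : 0 < orderOf (tPerm (permS Γ) (permR Γ)) := orderOf_pos _
  have htk : tPerm (permS Γ) (permR Γ) ^ orderOf (tPerm (permS Γ) (permR Γ)) = 1 :=
    pow_orderOf_eq_one _
  rw [isParCoc_iff_sum hk htk]
  intro x
  set k := orderOf (tPerm (permS Γ) (permR Γ)) with hkdef
  have hfix : tZero ^ k • x = x := by
    rw [← tPerm_pow_apply, htk]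
    rfl
  have h1 : ∀ i ∈ Finset.range k,
      ((shapiro Γ ψ (ModularGroup.S * ModularGroup.T)).f
          ((permS Γ)⁻¹ ((tPerm (permS Γ) (permR Γ) ^ i) x)) -
        (shapiro Γ ψ ModularGroup.S).f ((permS Γ)⁻¹ ((tPerm (permS Γ) (permR Γ) ^ i) x))) =
      (shapiro Γ ψ tZero).f (tZero ^ i • x) := by
    intro i _
    rw [tPerm_pow_apply, permS_inv_apply]
    exact (hom_f_par (shapiro Γ ψ) (fun _ => rfl) _).symm
  rw [Finset.sum_congr rfl h1, ← CoGrp.hom_f_pow (shapiro Γ ψ) (fun _ => rfl),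
    Fermat.Agent.S16.helper21.shapiro_f]
  apply hψ
  rw [Fermat.Agent.S21.helper83.trace_sch_of_fixed Γ _ x hfix]
  exact trace_tZero_pow k

/-- a cocycle homomorphism vanishing at `(S T) S⁻¹` restricts to a parabolic homomorphism -/
lemma hom_f_eq_zero_of_trace (Φ : SL(2, ℤ) →* CoGrp (SL(2, ℤ) ⧸ Γ) ℤ)
    (hΦ : ∀ g, (Φ g).σ = MulAction.toPerm g) (hneg : Φ (-1) = 1)
    (hpar : ∀ y, (Φ tZero).f y = 0) (γ : SL(2, ℤ)) (hγ : γ ∈ Γ)
    (htr : (γ : Matrix (Fin 2) (Fin 2) ℤ).trace ^ 2 = 4) :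
    (Φ γ).f (x0 Γ) = 0 := by
  have hnegact : ∀ y : SL(2, ℤ) ⧸ Γ, (-1 : SL(2, ℤ)) • y = y := by
    intro y
    have h1 := hΦ (-1)
    rw [hneg] at h1
    have h2 := congrArg (fun σ : Equiv.Perm (SL(2, ℤ) ⧸ Γ) => σ y) h1
    exact h2.symm
  -- powers of `tZero`
  have hpow : ∀ (k : ℕ) (y : SL(2, ℤ) ⧸ Γ), (Φ (tZero ^ k)).f y = 0 := by
    intro k y
    rw [CoGrp.hom_f_pow Φ hΦ]
    exact Finset.sum_eq_zero fun i _ => hpar _
  have hzpow : ∀ (k : ℤ) (y : SL(2, ℤ) ⧸ Γ), (Φ (tZero ^ k)).f y = 0 := by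
    intro k y
    obtain ⟨n, rfl | rfl⟩ := Int.eq_nat_or_neg k
    · rw [zpow_natCast]
      exact hpow n y
    · rw [zpow_neg, zpow_natCast, CoGrp.hom_f_inv Φ hΦ, hpow, neg_zero]
  -- powers of `T` at fixed points
  have hT : ∀ (k : ℤ) (y : SL(2, ℤ) ⧸ Γ), ModularGroup.T ^ k • y = y →
      (Φ (ModularGroup.T ^ k)).f y = 0 := by
    intro k y hy
    have e : ModularGroup.T ^ k = ModularGroup.S⁻¹ * tZero ^ k * (ModularGroup.S⁻¹)⁻¹ := by
      rw [inv_inv]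
      exact T_zpow_eq k
    have hfix : tZero ^ k • ((ModularGroup.S⁻¹)⁻¹ • y) = (ModularGroup.S⁻¹)⁻¹ • y := by
      rw [inv_inv]
      have h1 : tZero ^ k * ModularGroup.S = ModularGroup.S * ModularGroup.T ^ k := by
        rw [tZero_zpow]
        group
      rw [← mul_smul, h1, mul_smul, hy]
    rw [e, CoGrp.hom_f_conj Φ hΦ _ _ _ hfix, hzpow]
  obtain ⟨δ, hδ⟩ := Fermat.Agent.S21.exists_conj_apply_one_zero_eq_zero γ htr
  set h := δ⁻¹ * γ * δ with hh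
  have hγeq : γ = δ * h * δ⁻¹ := by rw [hh]; group
  have hfix : h • (δ⁻¹ • x0 Γ) = δ⁻¹ • x0 Γ := by
    rw [hh, ← mul_smul, mul_assoc, mul_assoc, mul_inv_cancel, mul_one, mul_smul,
      smul_x0_of_mem _ hγ]
  rw [hγeq, CoGrp.hom_f_conj Φ hΦ δ h _ hfix]
  obtain ⟨k, hk | hk⟩ := Fermat.Agent.S16.helper21.eq_T_zpow_or_neg_of_apply_one_zero h hδ
  · rw [hk] at hfix ⊢
    exact hT k _ hfix
  · have e : h = (-1) * ModularGroup.T ^ k := by rw [hk]; simp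
    rw [e, mul_smul, hnegact] at hfix
    rw [e, map_mul, hneg, one_mul]
    exact hT k _ hfix

/-- **Every parabolic class comes from a parabolic homomorphism.** -/
theorem exists_parabolic_homCl (hneg : (-1 : SL(2, ℤ)) ∈ Γ) {m : (SL(2, ℤ) ⧸ Γ) → ℤ}
    (hm : m ∈ parSub (permS Γ) (permR Γ)) :
    ∃ ψ : Additive Γ →+ ℤ, IsParabolicHom Γ ψ ∧ HomCl Γ ψ m := by
  obtain ⟨z, hz, hzm⟩ := hm
  obtain ⟨hz1, hz2⟩ := mem_ZSub.1 hz
  have hs2 := permS_sq hneg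
  have hr3 := permR_cube hneg
  -- the two generators
  have hA : (⟨z, permS Γ⟩ : CoGrp (SL(2, ℤ) ⧸ Γ) ℤ) ^ 2 = 1 := by
    ext x
    · rw [pow_two, CoGrp.mul_f]
      show z (permS Γ x) + z x = (0 : ℤ)
      have := hz1 x
      linarith
    · rw [pow_two, CoGrp.mul_σ]
      show (permS Γ * permS Γ) x = x
      rw [← pow_two, hs2]
      rfl
  have hB : (⟨z, permR Γ⟩ : CoGrp (SL(2, ℤ) ⧸ Γ) ℤ) ^ 3 = 1 := by
    ext x
    · rw [pow_succ, pow_two, CoGrp.mul_f, CoGrp.mul_f]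
      show z (permR Γ (permR Γ x)) + z (permR Γ x) + z x = (0 : ℤ)
      have := hz2 x
      linarith
    · rw [pow_succ, pow_two, CoGrp.mul_σ, CoGrp.mul_σ]
      show (permR Γ * permR Γ * permR Γ) x = x
      rw [← pow_two, ← pow_succ, hr3]
      rfl
  obtain ⟨Φ, hΦS, hΦR, hΦneg⟩ :=
    Fermat.Agent.S16.helper64.exists_hom_of_sq_cube _ _ hA hB
  have hΦσ' : (CoGrp.projHom (X := SL(2, ℤ) ⧸ Γ) (A := ℤ)).comp Φ =
      MulAction.toPermHom SL(2, ℤ) (SL(2, ℤ) ⧸ Γ) := by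
    apply Fermat.Agent.S16.helper21.hom_ext_S_ST
    · show (Φ ModularGroup.S).σ = _
      rw [hΦS]; rfl
    · show (Φ (ModularGroup.S * ModularGroup.T)).σ = _
      rw [hΦR]; rfl
  have hΦσ : ∀ g, (Φ g).σ = MulAction.toPerm g := fun g =>
    congrArg (fun F : SL(2, ℤ) →* Equiv.Perm (SL(2, ℤ) ⧸ Γ) => F g) hΦσ'
  refine ⟨res Γ Φ hΦσ, ?_, ?_⟩
  · intro γ htr
    rw [Fermat.Agent.S16.helper21.res_apply]
    refine hom_f_eq_zero_of_trace Φ hΦσ hΦneg ?_ γ γ.2 htr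
    intro y
    show (Φ ((ModularGroup.S * ModularGroup.T) * ModularGroup.S⁻¹)).f y = 0
    rw [hom_f_par Φ hΦσ, hΦS, hΦR, sub_self]
  · apply homCl_res Φ hΦσ
    rw [hΦS, hΦR]
    exact hzm

end Parabolic

end Fermat.Agent.P6.helper39
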