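import Mathlib
import Fermat.Agent.P6.helper21_DualStmts

/-!
# P6 / S41, module (D) duality, package [D-LIFT] (helper94)

`parLift : Fermat.Agent.P6.helper21.ParLiftStatement`: every parabolic hom `x : Γ → ℤ` has a
cocycle lift `Φ : SL(2, ℤ) →* CoGrp (SL(2, ℤ) ⧸ Γ) ℤ` over the action, restricting to `x` on `Γ`
(at the base point) and with `(Φ T).f = 0`.

Proof: `Φ₀ = shapiro Γ x`; the sum of `(Φ₀ T).f` over every closed `T`-path is the value of `x`
at a conjugate of a power of `T`, hence `0`; so `(Φ₀ T).f = w - w ∘ T`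
(`exists_cobdry_of_loop`: the coboundary lemma for a permutation of arbitrary finite order) and
`Φ = (w, 1) Φ₀ (w, 1)⁻¹` works.
-/

set_option autoImplicit false
set_option linter.unusedSectionVars false
set_option linter.style.haveILetI false
set_option linter.unusedVariables false
set_option linter.unusedSimpArgs false

open scoped MatrixGroups
open Matrix.SpecialLinearGroup ModularCurve.Period

namespace Fermat.Agent.P6.helper94

open Fermat.Agent.S16.helper21 (CoGrp shapiro shapiro_f shapiro_σ shapiro_f_x0 powRel)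
open Fermat.Agent.S21.helper83 (x0 smul_x0_of_mem sch trace_sch_of_fixed)
open Fermat.Agent.P6.helper21

/-! ## The coboundary lemma for a permutation of arbitrary finite order -/

section Cobdry

variable {X A : Type*} [AddCommGroup A]

/-- if the sums of `u` over the closed paths of `σ` vanish, path sums only depend on the end
point. -/
lemma sum_range_eq_of_loop {σ : Equiv.Perm X} (u : X → A)
    (hloop : ∀ (x : X) (d : ℕ), (σ ^ d) x = x → ∑ j ∈ Finset.range d, u ((σ ^ j) x) = 0)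
    {a b : ℕ} {m : X} (hab : (σ ^ a) m = (σ ^ b) m) :
    ∑ j ∈ Finset.range a, u ((σ ^ j) m) = ∑ j ∈ Finset.range b, u ((σ ^ j) m) := by
  wlog h : a ≤ b generalizing a b
  · exact (this hab.symm (le_of_not_ge h)).symm
  obtain ⟨d, rfl⟩ := Nat.exists_eq_add_of_le h
  rw [Finset.sum_range_add]
  have hd : (σ ^ d) ((σ ^ a) m) = (σ ^ a) m := by
    rw [← Equiv.Perm.mul_apply, ← pow_add, add_comm d a]
    exact hab.symm
  have h1 := hloop _ _ hd
  have h2 : ∀ j ∈ Finset.range d, u ((σ ^ (a + j)) m) = u ((σ ^ j) ((σ ^ a) m)) := by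
    intro j _
    rw [← Equiv.Perm.mul_apply, ← pow_add, add_comm j a]
  rw [Finset.sum_congr rfl h2, h1, add_zero]

/-- **Coboundary lemma** for a permutation of arbitrary finite order: a function whose sums over
the closed paths of `σ` vanish is of the form `w - w ∘ σ`. -/
theorem exists_cobdry_of_loop {σ : Equiv.Perm X} {k : ℕ} (hk : 0 < k) (hσ : σ ^ k = 1)
    (u : X → A)
    (hloop : ∀ (x : X) (d : ℕ), (σ ^ d) x = x → ∑ j ∈ Finset.range d, u ((σ ^ j) x) = 0) :
    ∃ w : X → A, ∀ x, u x = w x - w (σ x) := by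
  classical
  let r : Setoid X := powRel σ k hk hσ
  let rep : X → X := fun x => @Quotient.out _ r (@Quotient.mk _ r x)
  have hrep : ∀ x, ∃ i : ℕ, (σ ^ i) (rep x) = x := fun x =>
    @Quotient.mk_out _ r x
  have hrep_σ : ∀ x, rep (σ x) = rep x := by
    intro x
    have : @Quotient.mk _ r (σ x) = @Quotient.mk _ r x :=
      Quotient.sound (s := r) ((powRel σ k hk hσ).symm ⟨1, by simp⟩)
    show @Quotient.out _ r (@Quotient.mk _ r (σ x)) = @Quotient.out _ r (@Quotient.mk _ r x)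
    rw [this]
  choose idx hidx using hrep
  refine ⟨fun x => - ∑ j ∈ Finset.range (idx x), u ((σ ^ j) (rep x)), fun x => ?_⟩
  have h1 : (σ ^ (idx (σ x))) (rep x) = (σ ^ (idx x + 1)) (rep x) := by
    have := hidx (σ x)
    rw [hrep_σ] at this
    rw [this, pow_succ', Equiv.Perm.mul_apply, hidx x]
  have h2 := sum_range_eq_of_loop u hloop h1
  simp only [hrep_σ]
  rw [h2, Finset.sum_range_succ, hidx x]
  abel

/-- the same for a permutation of a finite set -/
theorem exists_cobdry_of_finite [Finite X] (σ : Equiv.Perm X) (u : X → A)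
    (hloop : ∀ (x : X) (d : ℕ), (σ ^ d) x = x → ∑ j ∈ Finset.range d, u ((σ ^ j) x) = 0) :
    ∃ w : X → A, ∀ x, u x = w x - w (σ x) := by
  obtain ⟨k, hk, h⟩ := (isOfFinOrder_of_finite σ).exists_pow_eq_one
  exact exists_cobdry_of_loop hk h u hloop

end Cobdry

/-! ## Conjugation of a cocycle by a coboundary -/

section Conj

variable {X A : Type*} [AddCommGroup A]

/-- the element `(w, 1)` of the cocycle group -/
def cobEl (w : X → A) : CoGrp X A := ⟨w, 1⟩

lemma conj_cobEl_f (w : X → A) (a : CoGrp X A) (z : X) :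
    (cobEl w * a * (cobEl w)⁻¹).f z = w (a.σ z) + a.f z - w z := by
  simp only [CoGrp.mul_f, CoGrp.inv_f, CoGrp.inv_σ, cobEl, inv_one, Equiv.Perm.coe_one, id_eq]
  abel

lemma conj_cobEl_σ (w : X → A) (a : CoGrp X A) :
    (cobEl w * a * (cobEl w)⁻¹).σ = a.σ := by
  simp only [CoGrp.mul_σ, CoGrp.inv_σ, cobEl, inv_one, one_mul, mul_one]

/-- the conjugate of a hom to the cocycle group by `(w, 1)` -/
def conjHom {G : Type*} [Group G] (w : X → A) (Φ : G →* CoGrp X A) : G →* CoGrp X A :=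
  (MulAut.conj (cobEl w)).toMonoidHom.comp Φ

lemma conjHom_f {G : Type*} [Group G] (w : X → A) (Φ : G →* CoGrp X A) (g : G) (z : X) :
    (conjHom w Φ g).f z = w ((Φ g).σ z) + (Φ g).f z - w z :=
  conj_cobEl_f w (Φ g) z

lemma conjHom_σ {G : Type*} [Group G] (w : X → A) (Φ : G →* CoGrp X A) (g : G) :
    (conjHom w Φ g).σ = (Φ g).σ :=
  conj_cobEl_σ w (Φ g)

end Conj

/-! ## The statement -/

lemma trace_T_pow (d : ℕ) :
    ((ModularGroup.T ^ d : SL(2, ℤ)) : Matrix (Fin 2) (Fin 2) ℤ).trace = 2 := by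
  have h := ModularGroup.coe_T_zpow (d : ℤ)
  rw [zpow_natCast] at h
  rw [h, Matrix.trace_fin_two]
  simp

lemma toPerm_pow_apply (Γ : Subgroup SL(2, ℤ)) (g : SL(2, ℤ)) (d : ℕ) (z : SL(2, ℤ) ⧸ Γ) :
    ((MulAction.toPerm g : Equiv.Perm (SL(2, ℤ) ⧸ Γ)) ^ d) z = g ^ d • z := by
  induction d generalizing z with
  | zero => simp
  | succ d ih =>
    rw [pow_succ, Equiv.Perm.mul_apply, ih, pow_succ, mul_smul]
    rfl

/-- **[D-LIFT]** -/
theorem parLift : ParLiftStatement := by
  intro Γ _ hneg x hx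
  classical
  haveI : Finite (SL(2, ℤ) ⧸ Γ) := Subgroup.finite_quotient_of_finiteIndex
  have hΦ0σ : ∀ g, (shapiro Γ x g).σ = MulAction.toPerm g := fun g => rfl
  have hloop : ∀ (z : SL(2, ℤ) ⧸ Γ) (d : ℕ),
      ((MulAction.toPerm ModularGroup.T : Equiv.Perm (SL(2, ℤ) ⧸ Γ)) ^ d) z = z →
      ∑ j ∈ Finset.range d, (shapiro Γ x ModularGroup.T).f
        (((MulAction.toPerm ModularGroup.T : Equiv.Perm (SL(2, ℤ) ⧸ Γ)) ^ j) z) = 0 := by
    intro z d hd
    have h1 := CoGrp.hom_f_pow (shapiro Γ x) hΦ0σ ModularGroup.T d z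
    simp only [toPerm_pow_apply]
    rw [← h1, shapiro_f]
    apply hx
    rw [trace_sch_of_fixed Γ _ z (by rw [← toPerm_pow_apply]; exact hd), trace_T_pow]
    norm_num
  obtain ⟨w, hw⟩ := exists_cobdry_of_finite
    (MulAction.toPerm ModularGroup.T : Equiv.Perm (SL(2, ℤ) ⧸ Γ))
    (shapiro Γ x ModularGroup.T).f hloop
  refine ⟨conjHom w (shapiro Γ x), ?_, ?_, ?_⟩
  · intro g
    rw [conjHom_σ]
    rfl
  · intro γ
    rw [conjHom_f, shapiro_f_x0, hΦ0σ]
    have : (MulAction.toPerm (γ : SL(2, ℤ)) : Equiv.Perm (SL(2, ℤ) ⧸ Γ)) (x0 Γ) = x0 Γ :=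
      smul_x0_of_mem Γ γ.2
    rw [this]
    abel
  · funext z
    rw [conjHom_f, hw z, hΦ0σ]
    simp

end Fermat.Agent.P6.helper94
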