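import Mathlib
import Fermat.Agent.P6.helper21_DualStmts
import Fermat.Agent.P6.helper94_DLift
import Fermat.Agent.P6.helper39_DDict

/-!
# P6 / S41, module (D) duality, package [D-P1], fast lane (helper39)

`nondeg_of_eval : EvalStatement → NondegStatement` (shapes of `helper21_DualStmts`, verbatim).

Route: by [D-EVAL] the intrinsic pairing of two parabolic homomorphisms is
`Bl Γ x y = - pdForm [x] [y]`, where `[x]`, `[y]` are the classes of `x`, `y` in the
`C₂ * C₃` model (`helper39_DDict`) and `pdForm` is the Poincaré form of `helper99`; the latter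
is non-degenerate modulo every `n ≠ 0`, and the dictionary is a bijection between parabolic
homomorphisms and parabolic classes.
-/

set_option autoImplicit false

open scoped MatrixGroups
open ModularCurve.Period

namespace Fermat.Agent.P6.helper39

open Fermat.Agent.S16.helper21 (CoGrp shapiro res)
open Fermat.Agent.S21.helper83 (x0 sch smul_x0 smul_x0_of_mem)
open Fermat.Agent.P6.helper99
open Fermat.Agent.P6.helper21

section Bridge

variable {Γ : Subgroup SL(2, ℤ)}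

/-- a homomorphism over the action kills `-1` (if `-1 ∈ Γ`) -/
lemma hom_neg_one_eq_one (hneg : (-1 : SL(2, ℤ)) ∈ Γ)
    (Φ : SL(2, ℤ) →* CoGrp (SL(2, ℤ) ⧸ Γ) ℤ) (hΦ : ∀ g, (Φ g).σ = MulAction.toPerm g) :
    Φ (-1) = 1 := by
  have hσ : (Φ (-1)).σ = 1 := by
    rw [hΦ]
    ext z
    exact neg_one_smul_coset hneg z
  have hsq : Φ (-1) * Φ (-1) = 1 := by
    rw [← map_mul]
    have : (-1 : SL(2, ℤ)) * (-1) = 1 := by simp
    rw [this, map_one]
  ext z
  · have h1 := congrArg (fun a : CoGrp (SL(2, ℤ) ⧸ Γ) ℤ => a.f z) hsq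
    simp only [CoGrp.mul_f, hσ, Equiv.Perm.coe_one, id_eq, CoGrp.one_f] at h1
    show (Φ (-1)).f z = 0
    omega
  · rw [hσ]
    rfl

/-- a homomorphism over the action with restriction `x` is its `res` -/
lemma res_eq_of_restr (Φ : SL(2, ℤ) →* CoGrp (SL(2, ℤ) ⧸ Γ) ℤ)
    (hΦ : ∀ g, (Φ g).σ = MulAction.toPerm g) (x : Additive Γ →+ ℤ)
    (hx : ∀ γ : Γ, (Φ (γ : SL(2, ℤ))).f (x0 Γ) = x (Additive.ofMul γ)) :
    res Γ Φ hΦ = x := by
  refine AddMonoidHom.ext fun γ => ?_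
  induction γ using Additive.rec with
  | ofMul γ => exact hx γ

/-- **The relative cocycle of a `T`-normalised lift**: if `(Φ T).f = 0` and `Φ` restricts
to `x`, then `z = - (Φ S).f` is a relative cocycle representing the class of `x`. -/
theorem jRel_of_normalised (hneg : (-1 : SL(2, ℤ)) ∈ Γ)
    (Φ : SL(2, ℤ) →* CoGrp (SL(2, ℤ) ⧸ Γ) ℤ) (hΦ : ∀ g, (Φ g).σ = MulAction.toPerm g)
    (hT : (Φ ModularGroup.T).f = 0) (x : Additive Γ →+ ℤ)
    (hx : ∀ γ : Γ, (Φ (γ : SL(2, ℤ))).f (x0 Γ) = x (Additive.ofMul γ))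
    {m : (SL(2, ℤ) ⧸ Γ) → ℤ} (hm : HomCl Γ x m) :
    (fun z => - (Φ ModularGroup.S).f z) ∈ ZSub (permS Γ) (permR Γ) ∧
      JRel (permS Γ) (permR Γ) (fun z => - (Φ ModularGroup.S).f z) m := by
  have hΦneg := hom_neg_one_eq_one hneg Φ hΦ
  obtain ⟨ha, hb⟩ := isCoc_of_hom Φ hΦ hΦneg
  -- `b = a ∘ T`
  have hbT : ∀ z, (Φ (ModularGroup.S * ModularGroup.T)).f z =
      (Φ ModularGroup.S).f (ModularGroup.T • z) := by
    intro z
    rw [CoGrp.hom_f_mul Φ hΦ, hT]
    simp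
  -- `b = - a ∘ r`
  have hbr : ∀ z, (Φ (ModularGroup.S * ModularGroup.T)).f z =
      - (Φ ModularGroup.S).f (permR Γ z) := by
    intro z
    rw [hbT]
    have := ha (ModularGroup.T • z)
    rw [permS_apply, ← mul_smul] at this
    rw [permR_apply]
    linarith
  have hr3 : ∀ z, permR Γ (permR Γ (permR Γ z)) = z :=
    fun z => perm_cube_apply (permR_cube hneg) z
  have hzmem : (fun z => - (Φ ModularGroup.S).f z) ∈ ZSub (permS Γ) (permR Γ) := by
    refine mem_ZSub.2 ⟨fun z => ?_, fun z => ?_⟩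
    · have := ha z
      show - (Φ ModularGroup.S).f z + - (Φ ModularGroup.S).f (permS Γ z) = 0
      linarith
    · have h1 := hb z
      rw [hbr z, hbr (permR Γ z), hbr (permR Γ (permR Γ z)), hr3] at h1
      show - (Φ ModularGroup.S).f z + - (Φ ModularGroup.S).f (permR Γ z) +
        - (Φ ModularGroup.S).f (permR Γ (permR Γ z)) = 0
      linarith
  refine ⟨hzmem, ?_⟩
  -- the class
  have hres := res_eq_of_restr Φ hΦ x hx
  obtain ⟨ns, nr, h1, h2, h3⟩ := hm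
  have hsh : ∀ g z, (shapiro Γ x g).f z =
      (Φ g).f z + (Φ (Quotient.out z)).f (x0 Γ) - (Φ (Quotient.out (g • z))).f (x0 Γ) := by
    intro g z
    rw [← hres]
    exact shapiro_res_f Γ Φ hΦ g z
  refine ⟨fun z => ns z + (Φ (Quotient.out z)).f (x0 Γ) + (Φ ModularGroup.S).f z,
    fun z => nr z + (Φ (Quotient.out z)).f (x0 Γ) + (Φ ModularGroup.S).f z,
    fun z => ?_, fun z => ?_, ?_⟩
  · have e1 := h1 z
    rw [hsh] at e1
    have e2 := ha z
    simp only [permS_apply] at e1 e2 ⊢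
    linarith
  · have e1 := h2 z
    rw [hsh, hbr z] at e1
    simp only [permR_apply] at e1 ⊢
    linarith
  · convert h3 using 2
    funext z
    simp only [Pi.sub_apply]
    ring

/-- **Bridge**: intrinsic pairing = minus the model pairing (from [D-EVAL]). -/
theorem bl_eq_neg_pdForm (hE : EvalStatement) [Γ.FiniteIndex] [Fintype (SL(2, ℤ) ⧸ Γ)]
    (hneg : (-1 : SL(2, ℤ)) ∈ Γ) {x y : Additive Γ →+ ℤ} (hx : IsParabolicHom Γ x)
    (hy : IsParabolicHom Γ y) (m m' : parSub (permS Γ) (permR Γ))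
    (hm : HomCl Γ x (m : (SL(2, ℤ) ⧸ Γ) → ℤ)) (hm' : HomCl Γ y (m' : (SL(2, ℤ) ⧸ Γ) → ℤ)) :
    Bl Γ x y = - pdForm (permS Γ) (permR Γ) (permR_cube hneg) m m' := by
  obtain ⟨Φ, hΦ, hΦx, hΦT⟩ := Fermat.Agent.P6.helper94.parLift Γ hneg x hx
  obtain ⟨hz, hj⟩ := jRel_of_normalised hneg Φ hΦ hΦT x hΦx hm
  rw [pdForm_apply (permR_cube hneg) hz m m' hj]
  obtain ⟨ns, nr, h1, h2, h3⟩ := hm'
  have hev := hE Γ hneg Φ (shapiro Γ y) x y ns nr hΦ (fun _ => rfl) hΦT hΦx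
    (fun γ => Fermat.Agent.S16.helper21.shapiro_f_x0 Γ y γ) hx hy
    (fun z => (h1 z).symm) (fun z => (h2 z).symm)
  rw [hev]
  have h0 := dot_eq_zero_of_mem hz h3
  rw [dotProduct_sub] at h0
  have h4 : dotProduct (fun z => - (Φ ModularGroup.S).f z) (m' : (SL(2, ℤ) ⧸ Γ) → ℤ) =
      dotProduct (fun z => - (Φ ModularGroup.S).f z) (nr - ns) := by linarith
  rw [h4]
  simp only [dotProduct, Pi.sub_apply, neg_mul, Finset.sum_neg_distrib, neg_neg]

end Bridge

/-- **[D-P1]**, verbatim, from [D-EVAL] (and the landed [D-LIFT]). -/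
theorem nondeg_of_eval (hE : EvalStatement) : NondegStatement := by
  intro Γ _ hneg p hp x hx hdiv
  classical
  let _i : Fintype (SL(2, ℤ) ⧸ Γ) := Subgroup.fintypeQuotientOfFiniteIndex
  have hs := permS_sq hneg
  have hr := permR_cube hneg
  obtain ⟨m, hm⟩ := exists_homCl hneg x
  have hmpar : m ∈ parSub (permS Γ) (permR Γ) := hm.mem_parSub hneg hx
  have hpz : (p : ℤ) ≠ 0 := by exact_mod_cast hp.ne_zero
  have hall : ∀ m' : parSub (permS Γ) (permR Γ),
      (p : ℤ) ∣ pdForm (permS Γ) (permR Γ) hr ⟨m, hmpar⟩ m' := by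
    intro m'
    obtain ⟨y, hy, hym'⟩ := exists_parabolic_homCl hneg m'.2
    have hb := bl_eq_neg_pdForm hE hneg hx hy ⟨m, hmpar⟩ m' hm hym'
    have := hdiv y hy
    rw [hb] at this
    exact (dvd_neg.1 this)
  obtain ⟨m₀, hm₀⟩ := pdForm_nondeg_mod hs hr hpz ⟨m, hmpar⟩ hall
  obtain ⟨x', hx', hx'm₀⟩ := exists_parabolic_homCl hneg m₀.2
  refine ⟨x', hx', ?_⟩
  have hcl : HomCl Γ (x - (p : ℤ) • x') (m - (p : ℤ) • (m₀ : (SL(2, ℤ) ⧸ Γ) → ℤ)) :=
    hm.sub (hx'm₀.smul (p : ℤ))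
  have h0 := hcl.eq_zero_of_mem_PSub hm₀
  rw [sub_eq_zero] at h0
  rw [h0, natCast_zsmul]

end Fermat.Agent.P6.helper39
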