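import Mathlib
import Fermat.Agent.P6.helper21_DualStmts

/-!
# P6 / S41, module (D), package [D-ISO]: the intrinsic pairing is invariant under isomorphisms
preserving positive unipotent elements

`isoStatement_of : BlEqStatement → TrivConjStatement → IsoStatement`.
-/

set_option autoImplicit false

open scoped MatrixGroups
open Matrix.SpecialLinearGroup ModularCurve.Period

namespace Fermat.Agent.P6.helper54

open Fermat.Agent.P6.helper21

variable {Γ' Γ'' : Subgroup SL(2, ℤ)}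

/-- an isomorphism preserving positive unipotent elements preserves primitive positive
unipotent elements (one direction) -/
lemma isPPU_map_of (e : Γ' ≃* Γ'')
    (he : ∀ γ : Γ', IsPosUnip (γ : SL(2, ℤ)) ↔ IsPosUnip ((e γ : Γ'') : SL(2, ℤ)))
    {π : Γ'} (hπ : IsPPU Γ' π) : IsPPU Γ'' (e π) := by
  obtain ⟨h1, h2, h3⟩ := hπ
  refine ⟨(he π).mp h1, fun h => h2 (e.injective (h.trans (map_one e).symm)), fun u hu hc => ?_⟩
  have hu' : IsPosUnip ((e.symm u : Γ') : SL(2, ℤ)) := by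
    rw [he, MulEquiv.apply_symm_apply]; exact hu
  have hc' : Commute (e.symm u) π := by
    have := hc.map e.symm
    rwa [MulEquiv.symm_apply_apply] at this
  obtain ⟨k, hk⟩ := h3 (e.symm u) hu' hc'
  refine ⟨k, ?_⟩
  rw [← map_pow, ← hk, MulEquiv.apply_symm_apply]

lemma isPPU_map (e : Γ' ≃* Γ'')
    (he : ∀ γ : Γ', IsPosUnip (γ : SL(2, ℤ)) ↔ IsPosUnip ((e γ : Γ'') : SL(2, ℤ)))
    (π : Γ') : IsPPU Γ' π ↔ IsPPU Γ'' (e π) := by
  refine ⟨isPPU_map_of e he, fun h => ?_⟩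
  have he' : ∀ γ : Γ'', IsPosUnip (γ : SL(2, ℤ)) ↔ IsPosUnip ((e.symm γ : Γ') : SL(2, ℤ)) := by
    intro γ
    rw [he, MulEquiv.apply_symm_apply]
  have := isPPU_map_of e.symm he' h
  rwa [MulEquiv.symm_apply_apply] at this

/-- the induced bijection on primitive positive unipotent elements -/
def ppuEquiv (e : Γ' ≃* Γ'')
    (he : ∀ γ : Γ', IsPosUnip (γ : SL(2, ℤ)) ↔ IsPosUnip ((e γ : Γ'') : SL(2, ℤ))) :
    {π : Γ' // IsPPU Γ' π} ≃ {π : Γ'' // IsPPU Γ'' π} :=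
  e.toEquiv.subtypeEquiv (isPPU_map e he)

@[simp] lemma ppuEquiv_coe (e : Γ' ≃* Γ'')
    (he : ∀ γ : Γ', IsPosUnip (γ : SL(2, ℤ)) ↔ IsPosUnip ((e γ : Γ'') : SL(2, ℤ)))
    (π : {π : Γ' // IsPPU Γ' π}) : ((ppuEquiv e he π : {π : Γ'' // IsPPU Γ'' π}) : Γ'') = e π :=
  rfl

/-- the induced bijection on cusps (as explicit quotients) -/
def cuspQuotEquiv (e : Γ' ≃* Γ'')
    (he : ∀ γ : Γ', IsPosUnip (γ : SL(2, ℤ)) ↔ IsPosUnip ((e γ : Γ'') : SL(2, ℤ))) :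
    Quotient (ppuSetoid Γ') ≃ Quotient (ppuSetoid Γ'') :=
  Quotient.congr (ppuEquiv e he) (by
    intro π π'
    constructor
    · rintro ⟨γ, hγ⟩
      refine ⟨e γ, ?_⟩
      rw [ppuEquiv_coe, ppuEquiv_coe, hγ, map_mul, map_mul, map_inv]
    · rintro ⟨γ, hγ⟩
      refine ⟨e.symm γ, ?_⟩
      apply e.injective
      rw [ppuEquiv_coe, ppuEquiv_coe] at hγ
      rw [hγ, map_mul, map_mul, map_inv, MulEquiv.apply_symm_apply])

lemma cuspQuotEquiv_mk (e : Γ' ≃* Γ'')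
    (he : ∀ γ : Γ', IsPosUnip (γ : SL(2, ℤ)) ↔ IsPosUnip ((e γ : Γ'') : SL(2, ℤ)))
    (π : {π : Γ' // IsPPU Γ' π}) :
    cuspQuotEquiv e he (Quotient.mk (ppuSetoid Γ') π) =
      Quotient.mk (ppuSetoid Γ'') (ppuEquiv e he π) :=
  rfl

/-- the induced bijection on cusps -/
def cuspEquiv (e : Γ' ≃* Γ'')
    (he : ∀ γ : Γ', IsPosUnip (γ : SL(2, ℤ)) ↔ IsPosUnip ((e γ : Γ'') : SL(2, ℤ))) :
    Cusp Γ' ≃ Cusp Γ'' :=
  cuspQuotEquiv e he

/-- `cuspSum` as a sum over the explicit quotient -/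
lemma cuspSum_eq (Γ : Subgroup SL(2, ℤ)) (θ : Γ → ℤ) :
    cuspSum Γ θ = ∑ᶠ c : Quotient (ppuSetoid Γ), θ ((Quotient.out c : {π : Γ // IsPPU Γ π}) : Γ) :=
  rfl

/-- the representative of the image cusp is conjugate to the image of the representative -/
lemma out_cuspQuotEquiv (e : Γ' ≃* Γ'')
    (he : ∀ γ : Γ', IsPosUnip (γ : SL(2, ℤ)) ↔ IsPosUnip ((e γ : Γ'') : SL(2, ℤ)))
    (c : Quotient (ppuSetoid Γ')) :
    ∃ γ : Γ'', e ((Quotient.out c : {π : Γ' // IsPPU Γ' π}) : Γ') =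
      γ * ((Quotient.out (cuspQuotEquiv e he c) : {π : Γ'' // IsPPU Γ'' π}) : Γ'') * γ⁻¹ := by
  have h1 : Quotient.mk (ppuSetoid Γ'') (Quotient.out (cuspQuotEquiv e he c)) =
      Quotient.mk (ppuSetoid Γ'') (ppuEquiv e he (Quotient.out c)) := by
    rw [Quotient.out_eq, ← cuspQuotEquiv_mk, Quotient.out_eq]
  obtain ⟨γ, hγ⟩ := Quotient.exact h1
  exact ⟨γ, hγ⟩

/-- the cusp sum of a class function is invariant under the isomorphism -/
theorem cuspSum_comp (e : Γ' ≃* Γ'')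
    (he : ∀ γ : Γ', IsPosUnip (γ : SL(2, ℤ)) ↔ IsPosUnip ((e γ : Γ'') : SL(2, ℤ)))
    (θ : Γ'' → ℤ)
    (hθ : ∀ π γ : Γ'', ((π : SL(2, ℤ)) : Matrix (Fin 2) (Fin 2) ℤ).trace = 2 →
      θ (γ * π * γ⁻¹) = θ π) :
    cuspSum Γ' (fun γ => θ (e γ)) = cuspSum Γ'' θ := by
  rw [cuspSum_eq, cuspSum_eq, ← finsum_comp_equiv (cuspQuotEquiv e he)]
  refine finsum_congr fun c => ?_
  obtain ⟨γ, hγ⟩ := out_cuspQuotEquiv e he c
  show θ (e ((Quotient.out c : {π : Γ' // IsPPU Γ' π}) : Γ')) = _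
  rw [hγ]
  exact hθ _ γ (Quotient.out (cuspQuotEquiv e he c)).2.1.1

/-- **[D-ISO]** `Bl` is invariant under isomorphisms preserving positive unipotent elements. -/
theorem isoStatement_of (hWD : BlEqStatement) (hCONJ : TrivConjStatement) : IsoStatement := by
  intro Γ' Γ'' _ _ h1' h1'' e he x y hx hy hx' hy'
  obtain ⟨⟨θ, hθ⟩, hBl''⟩ := hWD Γ'' h1'' x y hx hy
  have hθ' : IsTriv Γ' (x.comp e.toMonoidHom.toAdditive) (y.comp e.toMonoidHom.toAdditive)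
      (fun γ => θ (e γ)) := by
    intro γ δ
    have := hθ (e γ) (e δ)
    rw [← map_mul] at this
    exact this
  rw [(hWD Γ' h1' _ _ hx' hy').2 _ hθ', hBl'' θ hθ]
  exact cuspSum_comp e he θ fun π γ hπ => (hCONJ Γ'' x y θ hx hy hθ π γ hπ).1

end Fermat.Agent.P6.helper54
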