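import Mathlib
import Fermat.Agent.P6.helper21_DualStmts

/-!
# P6 / S41, module (D): [D-BIL] `Bl` is biadditive and antisymmetric (helper60)

`bil_of : BlEqStatement → CuspFiniteStatement → BilStatement`.
-/

set_option autoImplicit false

open scoped MatrixGroups
open Matrix.SpecialLinearGroup ModularCurve.Period

namespace Fermat.Agent.P6.helper60

open Fermat.Agent.P6.helper21

/-- the sum of two parabolic homs is parabolic. -/
theorem isParabolicHom_add {Γ : Subgroup SL(2, ℤ)} {x x' : Additive Γ →+ ℤ}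
    (hx : IsParabolicHom Γ x) (hx' : IsParabolicHom Γ x') : IsParabolicHom Γ (x + x') := by
  intro γ hγ
  simp [hx γ hγ, hx' γ hγ]

/-- trivialisations add in the first variable. -/
theorem isTriv_add_left {Γ : Subgroup SL(2, ℤ)} {x x' y : Additive Γ →+ ℤ} {θ θ' : Γ → ℤ}
    (h : IsTriv Γ x y θ) (h' : IsTriv Γ x' y θ') : IsTriv Γ (x + x') y (θ + θ') := by
  intro γ δ
  simp only [Pi.add_apply, AddMonoidHom.add_apply, h γ δ, h' γ δ]
  ring

/-- trivialisations add in the second variable. -/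
theorem isTriv_add_right {Γ : Subgroup SL(2, ℤ)} {x y y' : Additive Γ →+ ℤ} {θ θ' : Γ → ℤ}
    (h : IsTriv Γ x y θ) (h' : IsTriv Γ x y' θ') : IsTriv Γ x (y + y') (θ + θ') := by
  intro γ δ
  simp only [Pi.add_apply, AddMonoidHom.add_apply, h γ δ, h' γ δ]
  ring

/-- the flipped trivialisation `x * y - θ` trivialises `(y, x)`. -/
theorem isTriv_flip {Γ : Subgroup SL(2, ℤ)} {x y : Additive Γ →+ ℤ} {θ : Γ → ℤ}
    (h : IsTriv Γ x y θ) :
    IsTriv Γ y x (fun γ => x (Additive.ofMul γ) * y (Additive.ofMul γ) - θ γ) := by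
  intro γ δ
  have hx : x (Additive.ofMul (γ * δ)) = x (Additive.ofMul γ) + x (Additive.ofMul δ) := by
    rw [ofMul_mul, map_add]
  have hy : y (Additive.ofMul (γ * δ)) = y (Additive.ofMul γ) + y (Additive.ofMul δ) := by
    rw [ofMul_mul, map_add]
  simp only [h γ δ, hx, hy]
  ring

/-- `cuspSum` is additive when the set of cusps is finite. -/
theorem cuspSum_add {Γ : Subgroup SL(2, ℤ)} [Finite (Cusp Γ)] (θ θ' : Γ → ℤ) :
    cuspSum Γ (θ + θ') = cuspSum Γ θ + cuspSum Γ θ' := by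
  unfold cuspSum
  simp only [Pi.add_apply]
  exact finsum_add_distrib (Set.toFinite _) (Set.toFinite _)

/-- `cuspSum` of the flipped trivialisation. -/
theorem cuspSum_flip {Γ : Subgroup SL(2, ℤ)} {x : Additive Γ →+ ℤ} (y : Additive Γ →+ ℤ)
    (hx : IsParabolicHom Γ x) (θ : Γ → ℤ) :
    cuspSum Γ (fun γ => x (Additive.ofMul γ) * y (Additive.ofMul γ) - θ γ) = - cuspSum Γ θ := by
  unfold cuspSum
  rw [← finsum_neg_distrib]
  refine finsum_congr fun c => ?_
  have key : ∀ π : {π : Γ // IsPPU Γ π},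
      x (Additive.ofMul (π : Γ)) * y (Additive.ofMul (π : Γ)) - θ (π : Γ) = - θ (π : Γ) := by
    intro π
    have htr : (((π : Γ) : SL(2, ℤ)) : Matrix (Fin 2) (Fin 2) ℤ).trace ^ 2 = 4 := by
      rw [π.2.1.1]; norm_num
    rw [hx _ htr]
    ring
  exact key _

/-- **[D-BIL]** `Bl` is biadditive and antisymmetric, from well-definedness and finiteness of
the set of cusps. -/
theorem bil_of (hWD : BlEqStatement) (hFIN : CuspFiniteStatement) : BilStatement := by
  intro Γ _ hneg x x' y hx hx' hy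
  have : Finite (Cusp Γ) := hFIN Γ hneg
  obtain ⟨⟨θ, hθ⟩, hB⟩ := hWD Γ hneg x y hx hy
  obtain ⟨⟨θ', hθ'⟩, hB'⟩ := hWD Γ hneg x' y hx' hy
  obtain ⟨⟨ϑ, hϑ⟩, hC⟩ := hWD Γ hneg y x hy hx
  obtain ⟨⟨ϑ', hϑ'⟩, hC'⟩ := hWD Γ hneg y x' hy hx'
  have hxx' := isParabolicHom_add hx hx'
  refine ⟨?_, ?_, ?_⟩
  · rw [(hWD Γ hneg (x + x') y hxx' hy).2 _ (isTriv_add_left hθ hθ'), hB θ hθ, hB' θ' hθ',
      cuspSum_add]
  · rw [(hWD Γ hneg y (x + x') hy hxx').2 _ (isTriv_add_right hϑ hϑ'), hC ϑ hϑ, hC' ϑ' hϑ',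
      cuspSum_add]
  · rw [hC _ (isTriv_flip hθ), hB θ hθ, cuspSum_flip y hx θ, neg_neg]

/-- variant with the (unused) conjugation-invariance input, in the shape of the blueprint. -/
theorem bil_of' (hWD : BlEqStatement) (_hCONJ : TrivConjStatement) (hFIN : CuspFiniteStatement) :
    BilStatement :=
  bil_of hWD hFIN

end Fermat.Agent.P6.helper60
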