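import Mathlib
import Fermat.Agent.S21.Parabolic

/-!
# P6 / S41 (D) [D-AL], part 1: positive parabolic elements of `SL(2, ℤ)`

* `IsPosPar π` : `π` is unipotent, `≠ 1`, with `0 ≤ π 0 1` and `π 1 0 ≤ 0`;
* `isPosPar_iff_exists_conj` : `IsPosPar π ↔ ∃ g, ∃ n ≥ 1, π = g * T ^ n * g⁻¹`;
* `IsPosPar.of_intertwine` : positivity is invariant under conjugation by an integer matrix of
  positive determinant (`A * π = π' * A`).
-/

set_option autoImplicit false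

open scoped MatrixGroups
open Matrix ModularGroup

namespace Fermat.Agent.P6.helper64

/-- positive unipotent elements of `SL(2, ℤ)` (the conjugates of `T ^ n`, `n ≥ 1`) -/
def IsPosPar (π : SL(2, ℤ)) : Prop :=
  π 0 0 + π 1 1 = 2 ∧ π ≠ 1 ∧ 0 ≤ π 0 1 ∧ π 1 0 ≤ 0

theorem sl2_det (g : SL(2, ℤ)) : g 0 0 * g 1 1 - g 0 1 * g 1 0 = 1 := by
  have := g.det_coe
  rwa [Matrix.det_fin_two] at this

theorem sl2_ext {g h : SL(2, ℤ)} (h00 : g 0 0 = h 0 0) (h01 : g 0 1 = h 0 1)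
    (h10 : g 1 0 = h 1 0) (h11 : g 1 1 = h 1 1) : g = h := by
  apply Subtype.ext
  ext i j
  fin_cases i <;> fin_cases j <;> assumption

theorem sl2_inv_apply (g : SL(2, ℤ)) :
    (g⁻¹) 0 0 = g 1 1 ∧ (g⁻¹) 0 1 = - g 0 1 ∧ (g⁻¹) 1 0 = - g 1 0 ∧ (g⁻¹) 1 1 = g 0 0 := by
  rw [Matrix.SpecialLinearGroup.SL2_inv_expl]
  simp

theorem sl2_mul_apply (g h : SL(2, ℤ)) :
    (g * h) 0 0 = g 0 0 * h 0 0 + g 0 1 * h 1 0 ∧ (g * h) 0 1 = g 0 0 * h 0 1 + g 0 1 * h 1 1 ∧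
    (g * h) 1 0 = g 1 0 * h 0 0 + g 1 1 * h 1 0 ∧ (g * h) 1 1 = g 1 0 * h 0 1 + g 1 1 * h 1 1 := by
  simp [Matrix.SpecialLinearGroup.coe_mul, Matrix.mul_apply, Fin.sum_univ_two]

theorem T_zpow_apply (n : ℤ) :
    (T ^ n) 0 0 = 1 ∧ (T ^ n) 0 1 = n ∧ (T ^ n) 1 0 = 0 ∧ (T ^ n) 1 1 = 1 := by
  rw [ModularGroup.coe_T_zpow]
  simp

/-- entries of `g * T ^ n * g⁻¹` -/
theorem conj_T_zpow_apply (g : SL(2, ℤ)) (n : ℤ) :
    (g * T ^ n * g⁻¹) 0 0 = 1 - n * (g 0 0 * g 1 0) ∧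
    (g * T ^ n * g⁻¹) 0 1 = n * g 0 0 ^ 2 ∧
    (g * T ^ n * g⁻¹) 1 0 = - (n * g 1 0 ^ 2) ∧
    (g * T ^ n * g⁻¹) 1 1 = 1 + n * (g 0 0 * g 1 0) := by
  obtain ⟨i00, i01, i10, i11⟩ := sl2_inv_apply g
  obtain ⟨t00, t01, t10, t11⟩ := T_zpow_apply n
  obtain ⟨a00, a01, a10, a11⟩ := sl2_mul_apply g (T ^ n)
  obtain ⟨b00, b01, b10, b11⟩ := sl2_mul_apply (g * T ^ n) g⁻¹
  have hd := sl2_det g
  rw [b00, b01, b10, b11, a00, a01, a10, a11, i00, i01, i10, i11, t00, t01, t10, t11]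
  refine ⟨?_, ?_, ?_, ?_⟩
  · linear_combination hd
  · ring
  · ring
  · linear_combination hd

theorem isPosPar_conj_T_pow (g : SL(2, ℤ)) {n : ℕ} (hn : 0 < n) :
    IsPosPar (g * T ^ n * g⁻¹) := by
  have h := conj_T_zpow_apply g (n : ℤ)
  rw [zpow_natCast] at h
  obtain ⟨h00, h01, h10, h11⟩ := h
  have hn' : (0 : ℤ) < n := by exact_mod_cast hn
  refine ⟨by rw [h00, h11]; ring, ?_, by rw [h01]; positivity, by rw [h10]; nlinarith [sq_nonneg (g 1 0)]⟩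
  intro h1
  have e01 : (g * T ^ n * g⁻¹) 0 1 = 0 := by rw [h1]; simp
  have e10 : (g * T ^ n * g⁻¹) 1 0 = 0 := by rw [h1]; simp
  rw [h01] at e01
  rw [h10] at e10
  have ha : g 0 0 = 0 := by
    rcases mul_eq_zero.1 e01 with h | h
    · omega
    · exact pow_eq_zero_iff (two_ne_zero) |>.1 h
  have hc : g 1 0 = 0 := by
    rcases mul_eq_zero.1 (neg_eq_zero.1 e10) with h | h
    · omega
    · exact pow_eq_zero_iff (two_ne_zero) |>.1 h
  have hd := sl2_det g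
  rw [ha, hc] at hd
  simp at hd

/-- upper triangular elements of `SL(2, ℤ)` are `± T ^ k` -/
theorem eq_T_zpow_or_neg_of_lower_zero (g : SL(2, ℤ)) (hg : g 1 0 = 0) :
    (g 0 0 = 1 ∧ g 1 1 = 1 ∧ g = T ^ (g 0 1)) ∨ (g 0 0 = -1 ∧ g 1 1 = -1 ∧ g = - T ^ (- g 0 1)) := by
  have hdet := sl2_det g
  rw [hg, mul_zero, sub_zero] at hdet
  rcases Int.eq_one_or_neg_one_of_mul_eq_one' hdet with ⟨h0, h1⟩ | ⟨h0, h1⟩
  · refine Or.inl ⟨h0, h1, ?_⟩
    obtain ⟨t00, t01, t10, t11⟩ := T_zpow_apply (g 0 1)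
    exact sl2_ext (by rw [t00, h0]) (by rw [t01]) (by rw [t10, hg]) (by rw [t11, h1])
  · refine Or.inr ⟨h0, h1, ?_⟩
    obtain ⟨t00, t01, t10, t11⟩ := T_zpow_apply (- g 0 1)
    have hneg : ∀ (x : SL(2, ℤ)) (i j : Fin 2), (-x) i j = - x i j := fun x i j => by
      rw [Matrix.SpecialLinearGroup.coe_neg, Matrix.neg_apply]
    apply sl2_ext
    · rw [hneg, t00, h0]
    · rw [hneg, t01, neg_neg]
    · rw [hneg, t10, hg, neg_zero]
    · rw [hneg, t11, h1]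

theorem trace_inv_conj (δ π : SL(2, ℤ)) :
    (δ⁻¹ * π * δ) 0 0 + (δ⁻¹ * π * δ) 1 1 = π 0 0 + π 1 1 := by
  obtain ⟨i00, i01, i10, i11⟩ := sl2_inv_apply δ
  obtain ⟨a00, a01, a10, a11⟩ := sl2_mul_apply δ⁻¹ π
  obtain ⟨b00, b01, b10, b11⟩ := sl2_mul_apply (δ⁻¹ * π) δ
  have hdδ := sl2_det δ
  rw [b00, b11, a00, a01, a10, a11, i00, i01, i10, i11]
  linear_combination (π 0 0 + π 1 1) * hdδ

theorem pos_of_conj_T_zpow_posPar (δ : SL(2, ℤ)) (k : ℤ) (h : IsPosPar (δ * T ^ k * δ⁻¹)) :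
    0 < k := by
  obtain ⟨-, hne, h01, h10⟩ := h
  obtain ⟨-, c01, c10, -⟩ := conj_T_zpow_apply δ k
  rw [c01] at h01
  rw [c10] at h10
  have hdδ := sl2_det δ
  have hk0 : k ≠ 0 := by
    intro h0
    apply hne
    rw [h0, zpow_zero, mul_one, mul_inv_cancel]
  by_contra hneg
  have hk' : k < 0 := lt_of_le_of_ne (not_lt.1 hneg) hk0
  have ha2 : δ 0 0 ^ 2 ≤ 0 := by
    by_contra hc
    have := mul_neg_of_neg_of_pos hk' (not_le.1 hc)
    linarith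
  have hc2 : δ 1 0 ^ 2 ≤ 0 := by
    by_contra hc
    have := mul_neg_of_neg_of_pos hk' (not_le.1 hc)
    linarith
  have ha : δ 0 0 = 0 := pow_eq_zero_iff (two_ne_zero) |>.1 (le_antisymm ha2 (sq_nonneg _))
  have hc : δ 1 0 = 0 := pow_eq_zero_iff (two_ne_zero) |>.1 (le_antisymm hc2 (sq_nonneg _))
  rw [ha, hc] at hdδ
  simp at hdδ

/-- a parabolic element of trace `2` is a conjugate of a power of `T` -/
theorem exists_conj_T_zpow_of_trace {π : SL(2, ℤ)} (htr : π 0 0 + π 1 1 = 2) :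
    ∃ (δ : SL(2, ℤ)) (k : ℤ), π = δ * T ^ k * δ⁻¹ := by
  have htr2 : (π : Matrix (Fin 2) (Fin 2) ℤ).trace ^ 2 = 4 := by
    rw [Matrix.trace_fin_two, htr]; norm_num
  obtain ⟨δ, hδ⟩ := Fermat.Agent.S21.exists_conj_apply_one_zero_eq_zero π htr2
  have htrρ := trace_inv_conj δ π
  rw [htr] at htrρ
  rcases eq_T_zpow_or_neg_of_lower_zero _ hδ with ⟨-, -, hT⟩ | ⟨r00, r11, -⟩
  · refine ⟨δ, (δ⁻¹ * π * δ) 0 1, ?_⟩
    rw [← hT]
    group
  · exfalso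
    rw [r00, r11] at htrρ
    norm_num at htrρ

/-- **(AL1)** the positive parabolic elements are the conjugates of `T ^ n`, `n ≥ 1`. -/
theorem isPosPar_iff_exists_conj (π : SL(2, ℤ)) :
    IsPosPar π ↔ ∃ (g : SL(2, ℤ)) (n : ℕ), 0 < n ∧ π = g * T ^ n * g⁻¹ := by
  constructor
  · intro hπ
    obtain ⟨δ, k, hk⟩ := exists_conj_T_zpow_of_trace hπ.1
    have hkpos : 0 < k := pos_of_conj_T_zpow_posPar δ k (hk ▸ hπ)
    refine ⟨δ, k.toNat, by omega, ?_⟩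
    rw [← zpow_natCast, Int.toNat_of_nonneg hkpos.le]
    exact hk
  · rintro ⟨g, n, hn, rfl⟩
    exact isPosPar_conj_T_pow g hn

/-- **(AL2)** positivity is invariant under conjugation by integer matrices of positive
determinant. -/
theorem IsPosPar.of_intertwine {A : Matrix (Fin 2) (Fin 2) ℤ} (hA : 0 < A.det)
    {π π' : SL(2, ℤ)}
    (h : A * (π : Matrix (Fin 2) (Fin 2) ℤ) = (π' : Matrix (Fin 2) (Fin 2) ℤ) * A)
    (hπ : IsPosPar π) : IsPosPar π' := by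
  obtain ⟨htr, hne, h01, h10⟩ := hπ
  have hdet := sl2_det π
  rw [Matrix.det_fin_two] at hA
  have e00 := congrFun (congrFun h 0) 0
  have e01 := congrFun (congrFun h 0) 1
  have e10 := congrFun (congrFun h 1) 0
  have e11 := congrFun (congrFun h 1) 1
  simp only [Matrix.mul_apply, Fin.sum_univ_two] at e00 e01 e10 e11
  have hDne : A 0 0 * A 1 1 - A 0 1 * A 1 0 ≠ 0 := hA.ne'
  have hu2 : (π 0 0 - 1) * (π 0 0 - 1) = - (π 0 1 * π 1 0) := by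
    linear_combination (π 0 0) * htr - hdet
  have k01 : (A 0 0 * A 1 1 - A 0 1 * A 1 0) * π' 0 1
      = A 0 0 ^ 2 * π 0 1 - 2 * (A 0 0 * A 0 1) * (π 0 0 - 1) - A 0 1 ^ 2 * π 1 0 := by
    linear_combination A 0 1 * e00 - A 0 0 * e01 + A 0 0 * A 0 1 * htr
  have k10 : (A 0 0 * A 1 1 - A 0 1 * A 1 0) * π' 1 0
      = - (A 1 0 ^ 2 * π 0 1 - 2 * (A 1 0 * A 1 1) * (π 0 0 - 1) - A 1 1 ^ 2 * π 1 0) := by
    linear_combination A 1 0 * e11 - A 1 1 * e10 - A 1 0 * A 1 1 * htr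
  have ktr : (A 0 0 * A 1 1 - A 0 1 * A 1 0) * (π' 0 0 + π' 1 1 - 2) = 0 := by
    linear_combination A 1 0 * e01 - A 1 1 * e00 + A 0 1 * e10 - A 0 0 * e11
      + (A 0 0 * A 1 1 - A 0 1 * A 1 0) * htr
  -- the quadratic form `x ^ 2 * v - 2 * x * y * u - y ^ 2 * w` is non-negative
  have hq : ∀ x y : ℤ, 0 ≤ x ^ 2 * π 0 1 - 2 * (x * y) * (π 0 0 - 1) - y ^ 2 * π 1 0 := by
    intro x y
    rcases h01.lt_or_eq with hv | hv
    · have : π 0 1 * (x ^ 2 * π 0 1 - 2 * (x * y) * (π 0 0 - 1) - y ^ 2 * π 1 0)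
          = (x * π 0 1 - y * (π 0 0 - 1)) ^ 2 := by linear_combination (- y ^ 2) * hu2
      have h2 : 0 ≤ π 0 1 * (x ^ 2 * π 0 1 - 2 * (x * y) * (π 0 0 - 1) - y ^ 2 * π 1 0) := by
        rw [this]; positivity
      exact nonneg_of_mul_nonneg_right h2 hv
    · have hu0 : π 0 0 - 1 = 0 := by
        have : (π 0 0 - 1) * (π 0 0 - 1) = 0 := by rw [hu2, ← hv]; ring
        exact mul_self_eq_zero.1 this
      rw [← hv, hu0]
      nlinarith [sq_nonneg y]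
  refine ⟨?_, ?_, ?_, ?_⟩
  · rcases mul_eq_zero.1 ktr with h0 | h0
    · exact absurd h0 hDne
    · linarith
  · intro h1
    apply hne
    rw [h1] at e00 e01 e10 e11
    simp only [Matrix.SpecialLinearGroup.coe_one, Matrix.one_apply_eq, ne_eq, zero_ne_one,
      not_false_eq_true, Matrix.one_apply_ne, one_ne_zero, one_mul, zero_mul, add_zero,
      zero_add] at e00 e01 e10 e11
    have hu0 : (A 0 0 * A 1 1 - A 0 1 * A 1 0) * (π 0 0 - 1) = 0 := by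
      linear_combination A 1 1 * e00 - A 0 1 * e10
    have hw0 : (A 0 0 * A 1 1 - A 0 1 * A 1 0) * π 1 0 = 0 := by
      linear_combination A 0 0 * e10 - A 1 0 * e00
    have hv0 : (A 0 0 * A 1 1 - A 0 1 * A 1 0) * π 0 1 = 0 := by
      linear_combination A 1 1 * e01 - A 0 1 * e11
    have hu0' : π 0 0 - 1 = 0 := (mul_eq_zero.1 hu0).resolve_left hDne
    have hw0' : π 1 0 = 0 := (mul_eq_zero.1 hw0).resolve_left hDne
    have hv0' : π 0 1 = 0 := (mul_eq_zero.1 hv0).resolve_left hDne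
    apply sl2_ext
    · rw [Matrix.SpecialLinearGroup.coe_one, Matrix.one_apply_eq]; linarith
    · rw [hv0']; simp
    · rw [hw0']; simp
    · rw [Matrix.SpecialLinearGroup.coe_one, Matrix.one_apply_eq]; linarith
  · have := hq (A 0 0) (A 0 1)
    rw [← k01] at this
    exact nonneg_of_mul_nonneg_right this hA
  · have := hq (A 1 0) (A 1 1)
    have h2 : 0 ≤ (A 0 0 * A 1 1 - A 0 1 * A 1 0) * (- π' 1 0) := by
      rw [mul_neg, k10, neg_neg]; exact this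
    have := nonneg_of_mul_nonneg_right h2 hA
    linarith

end Fermat.Agent.P6.helper64
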