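import Mathlib
import Fermat.Agent.P6.helper21_DualStmts
import Fermat.Agent.P6.helper64_ParBasic

/-!
# P6 / S41 (D) [D-ORB]: `T`-orbits on `SL(2, ℤ) ⧸ Γ` are the cusps of `Γ`

`orbStatement : helper21.OrbStatement` and `cuspFiniteStatement : helper21.CuspFiniteStatement`.
-/

set_option autoImplicit false

open scoped MatrixGroups
open Matrix ModularGroup

namespace Fermat.Agent.P6.helper64

open Fermat.Agent.P6.helper21 (IsPosUnip IsPPU Cusp cuspSum ppuSetoid OrbStatement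
  CuspFiniteStatement)

theorem isPosPar_iff_isPosUnip (u : SL(2, ℤ)) : IsPosPar u ↔ IsPosUnip u ∧ u ≠ 1 := by
  unfold IsPosPar IsPosUnip
  rw [Matrix.trace_fin_two]
  tauto

/-- `g⁻¹ * T ^ n * g` is a power of `g⁻¹ * T * g` -/
theorem inv_conj_zpow (g : SL(2, ℤ)) (n : ℤ) : g⁻¹ * T ^ n * g = (g⁻¹ * T * g) ^ n := by
  have h := conj_zpow (a := g⁻¹) (b := T) (i := n)
  rw [inv_inv] at h
  exact h.symm

theorem inv_conj_pow (g : SL(2, ℤ)) (n : ℕ) : g⁻¹ * T ^ n * g = (g⁻¹ * T * g) ^ n := by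
  have h := inv_conj_zpow g n
  rwa [zpow_natCast, zpow_natCast] at h

theorem T_zpow_injective {a b : ℤ} (h : (T ^ a : SL(2, ℤ)) = T ^ b) : a = b := by
  have h1 := (T_zpow_apply a).2.1
  rw [h, (T_zpow_apply b).2.1] at h1
  exact h1.symm

theorem inv_conj_zpow_eq_iff (g : SL(2, ℤ)) {a b : ℤ} :
    g⁻¹ * T ^ a * g = g⁻¹ * T ^ b * g ↔ a = b := by
  constructor
  · intro h
    apply T_zpow_injective
    have := congrArg (fun x => g * x * g⁻¹) h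
    simpa [mul_assoc] using this
  · rintro rfl; rfl

/-- **(M1)** an element intertwining two non-trivial powers of `T` is upper triangular, and the
powers agree. -/
theorem lower_zero_of_intertwine {h : SL(2, ℤ)} {n m : ℤ} (hn : n ≠ 0)
    (hc : h * T ^ n = T ^ m * h) : h 1 0 = 0 ∧ n = m := by
  obtain ⟨t00, t01, t10, t11⟩ := T_zpow_apply n
  obtain ⟨s00, s01, s10, s11⟩ := T_zpow_apply m
  obtain ⟨a00, a01, a10, a11⟩ := sl2_mul_apply h (T ^ n)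
  obtain ⟨b00, b01, b10, b11⟩ := sl2_mul_apply (T ^ m) h
  have e11 : (h * T ^ n) 1 1 = (T ^ m * h) 1 1 := by rw [hc]
  have e01 : (h * T ^ n) 0 1 = (T ^ m * h) 0 1 := by rw [hc]
  rw [a11, b11, t01, t11, s10, s11] at e11
  rw [a01, b01, t01, t11, s00, s01] at e01
  have h10 : h 1 0 = 0 := by
    have : h 1 0 * n = 0 := by linarith
    exact (mul_eq_zero.1 this).resolve_right hn
  refine ⟨h10, ?_⟩
  have hd := sl2_det h
  rw [h10, mul_zero, sub_zero] at hd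
  rcases Int.eq_one_or_neg_one_of_mul_eq_one' hd with ⟨h0, h1⟩ | ⟨h0, h1⟩
  · rw [h0, h1] at e01; linarith
  · rw [h0, h1] at e01; linarith

section Gamma

variable (Γ : Subgroup SL(2, ℤ))

/-- the exponents `n` with `g⁻¹ * T ^ n * g ∈ Γ` -/
def expSet (g : SL(2, ℤ)) : AddSubgroup ℤ where
  carrier := {n | g⁻¹ * T ^ n * g ∈ Γ}
  zero_mem' := by
    show g⁻¹ * T ^ (0 : ℤ) * g ∈ Γ
    rw [zpow_zero, mul_one, inv_mul_cancel]
    exact Γ.one_mem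
  add_mem' := by
    intro a b ha hb
    show g⁻¹ * T ^ (a + b) * g ∈ Γ
    have ha' : g⁻¹ * T ^ a * g ∈ Γ := ha
    have hb' : g⁻¹ * T ^ b * g ∈ Γ := hb
    rw [inv_conj_zpow] at ha' hb' ⊢
    rw [_root_.zpow_add]
    exact Γ.mul_mem ha' hb'
  neg_mem' := by
    intro a ha
    show g⁻¹ * T ^ (-a) * g ∈ Γ
    have ha' : g⁻¹ * T ^ a * g ∈ Γ := ha
    rw [inv_conj_zpow] at ha' ⊢
    rw [_root_.zpow_neg]
    exact Γ.inv_mem ha'

theorem mem_expSet {g : SL(2, ℤ)} {n : ℤ} : n ∈ expSet Γ g ↔ g⁻¹ * T ^ n * g ∈ Γ := Iff.rfl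

theorem mk_eq_mk_iff (g : SL(2, ℤ)) (i j : ℤ) :
    ((T ^ i * g : SL(2, ℤ)) : SL(2, ℤ) ⧸ Γ) = ((T ^ j * g : SL(2, ℤ)) : SL(2, ℤ) ⧸ Γ) ↔
      j - i ∈ expSet Γ g := by
  rw [QuotientGroup.eq, mem_expSet]
  have : (T ^ i * g)⁻¹ * (T ^ j * g) = g⁻¹ * T ^ (j - i) * g := by
    rw [_root_.zpow_sub]; group
  rw [this]

theorem exists_pos_mem [Γ.FiniteIndex] (g : SL(2, ℤ)) :
    ∃ w : ℕ, 0 < w ∧ g⁻¹ * T ^ w * g ∈ Γ := by
  have : Finite (SL(2, ℤ) ⧸ Γ) := Subgroup.finite_quotient_of_finiteIndex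
  obtain ⟨i, j, hij, h⟩ := Finite.exists_ne_map_eq_of_infinite
    (fun n : ℕ => ((T ^ (n : ℤ) * g : SL(2, ℤ)) : SL(2, ℤ) ⧸ Γ))
  have h1 : ((j : ℤ) - i) ∈ expSet Γ g := (mk_eq_mk_iff Γ g i j).1 h
  have hne : ((j : ℤ) - i) ≠ 0 := by
    intro h0
    apply hij
    have : (i : ℤ) = j := by linarith
    exact_mod_cast this
  refine ⟨((j : ℤ) - i).natAbs, Int.natAbs_pos.2 hne, ?_⟩
  rw [← zpow_natCast, ← mem_expSet]
  rcases Int.natAbs_eq ((j : ℤ) - i) with h2 | h2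
  · rw [← h2]; exact h1
  · have : (((j : ℤ) - i).natAbs : ℤ) = - ((j : ℤ) - i) := by rw [h2]; simp
    rw [this]
    exact (expSet Γ g).neg_mem h1

open Classical in
/-- the width of the cusp `g⁻¹ ∞` -/
noncomputable def width [Γ.FiniteIndex] (g : SL(2, ℤ)) : ℕ := Nat.find (exists_pos_mem Γ g)

variable [Γ.FiniteIndex]

theorem width_pos (g : SL(2, ℤ)) : 0 < width Γ g := by
  classical
  exact (Nat.find_spec (exists_pos_mem Γ g)).1

theorem width_mem (g : SL(2, ℤ)) : g⁻¹ * T ^ (width Γ g) * g ∈ Γ := by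
  classical
  exact (Nat.find_spec (exists_pos_mem Γ g)).2

theorem width_min (g : SL(2, ℤ)) {w' : ℕ} (h0 : 0 < w') (h1 : w' < width Γ g) :
    g⁻¹ * T ^ w' * g ∉ Γ := by
  classical
  intro hmem
  exact Nat.find_min (exists_pos_mem Γ g) h1 ⟨h0, hmem⟩

theorem width_le (g : SL(2, ℤ)) {w' : ℕ} (h0 : 0 < w') (hmem : g⁻¹ * T ^ w' * g ∈ Γ) :
    width Γ g ≤ w' := by
  by_contra h
  exact width_min Γ g h0 (not_le.1 h) hmem

theorem mem_iff_dvd (g : SL(2, ℤ)) (n : ℤ) :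
    g⁻¹ * T ^ n * g ∈ Γ ↔ (width Γ g : ℤ) ∣ n := by
  have hw : (0 : ℤ) < width Γ g := by exact_mod_cast width_pos Γ g
  have hwm : (width Γ g : ℤ) ∈ expSet Γ g := by
    rw [mem_expSet, zpow_natCast]; exact width_mem Γ g
  constructor
  · intro h
    have hr0 : 0 ≤ n % (width Γ g : ℤ) := Int.emod_nonneg _ hw.ne'
    have hr1 : n % (width Γ g : ℤ) < width Γ g := Int.emod_lt_of_pos _ hw
    have hr : n % (width Γ g : ℤ) ∈ expSet Γ g := by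
      have : n % (width Γ g : ℤ) = n - (n / (width Γ g : ℤ)) • (width Γ g : ℤ) := by
        rw [smul_eq_mul, Int.emod_def, mul_comm]
      rw [this]
      exact (expSet Γ g).sub_mem h ((expSet Γ g).zsmul_mem hwm _)
    apply Int.dvd_of_emod_eq_zero
    by_contra hne
    have hpos : 0 < n % (width Γ g : ℤ) := lt_of_le_of_ne hr0 (Ne.symm hne)
    have hnat : ((n % (width Γ g : ℤ)).toNat : ℤ) = n % (width Γ g : ℤ) :=
      Int.toNat_of_nonneg hr0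
    apply width_min Γ g (w' := (n % (width Γ g : ℤ)).toNat)
    · omega
    · omega
    · rw [← zpow_natCast, hnat]; exact hr
  · rintro ⟨k, rfl⟩
    have := (expSet Γ g).zsmul_mem hwm k
    rw [smul_eq_mul, mul_comm] at this
    exact this

theorem mk_eq_mk_iff_dvd (g : SL(2, ℤ)) (i j : ℤ) :
    ((T ^ i * g : SL(2, ℤ)) : SL(2, ℤ) ⧸ Γ) = ((T ^ j * g : SL(2, ℤ)) : SL(2, ℤ) ⧸ Γ) ↔
      (width Γ g : ℤ) ∣ j - i := by
  rw [mk_eq_mk_iff, mem_expSet, mem_iff_dvd]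

/-- **(O1)** `g⁻¹ * T ^ w * g` is a primitive positive unipotent element of `Γ`. -/
theorem isPPU_width (g : SL(2, ℤ)) :
    IsPPU Γ ⟨g⁻¹ * T ^ (width Γ g) * g, width_mem Γ g⟩ := by
  have hpar : IsPosPar (g⁻¹ * T ^ (width Γ g) * g) := by
    have := isPosPar_conj_T_pow g⁻¹ (width_pos Γ g)
    rwa [inv_inv] at this
  have hw : (0 : ℤ) < width Γ g := by exact_mod_cast width_pos Γ g
  refine ⟨((isPosPar_iff_isPosUnip _).1 hpar).1, ?_, ?_⟩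
  · intro h
    exact ((isPosPar_iff_isPosUnip _).1 hpar).2 (congrArg Subtype.val h)
  · intro u hu hcomm
    have hc : (u : SL(2, ℤ)) * (g⁻¹ * T ^ (width Γ g) * g)
        = (g⁻¹ * T ^ (width Γ g) * g) * (u : SL(2, ℤ)) := congrArg Subtype.val hcomm.eq
    -- `v = g u g⁻¹` commutes with `T ^ w`
    have hv : (g * (u : SL(2, ℤ)) * g⁻¹) * T ^ (width Γ g : ℤ)
        = T ^ (width Γ g : ℤ) * (g * (u : SL(2, ℤ)) * g⁻¹) := by
      rw [zpow_natCast]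
      have := congrArg (fun x => g * x * g⁻¹) hc
      calc g * (u : SL(2, ℤ)) * g⁻¹ * T ^ width Γ g
          = g * ((u : SL(2, ℤ)) * (g⁻¹ * T ^ width Γ g * g)) * g⁻¹ := by group
        _ = g * (g⁻¹ * T ^ width Γ g * g * (u : SL(2, ℤ))) * g⁻¹ := this
        _ = T ^ width Γ g * (g * (u : SL(2, ℤ)) * g⁻¹) := by group
    obtain ⟨hv10, -⟩ := lower_zero_of_intertwine hw.ne' hv
    -- trace of `v`
    have htrv : (g * (u : SL(2, ℤ)) * g⁻¹) 0 0 + (g * (u : SL(2, ℤ)) * g⁻¹) 1 1 = 2 := by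
      have := trace_inv_conj g⁻¹ (u : SL(2, ℤ))
      rw [inv_inv] at this
      rw [this]
      have := hu.1
      rwa [Matrix.trace_fin_two] at this
    obtain ⟨j, hj⟩ : ∃ j : ℤ, (u : SL(2, ℤ)) = g⁻¹ * T ^ j * g := by
      rcases eq_T_zpow_or_neg_of_lower_zero _ hv10 with ⟨-, -, hT⟩ | ⟨r00, r11, -⟩
      · refine ⟨(g * (u : SL(2, ℤ)) * g⁻¹) 0 1, ?_⟩
        rw [← hT]; group
      · exfalso
        rw [r00, r11] at htrv
        norm_num at htrv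
    have hj0 : 0 ≤ j := by
      by_cases h1 : (u : SL(2, ℤ)) = 1
      · rw [h1] at hj
        have : g⁻¹ * T ^ (0 : ℤ) * g = g⁻¹ * T ^ j * g := by
          rw [← hj, zpow_zero, mul_one, inv_mul_cancel]
        exact ((inv_conj_zpow_eq_iff g).1 this).le
      · have hpu : IsPosPar (g⁻¹ * T ^ j * g⁻¹⁻¹) := by
          rw [inv_inv, ← hj]
          exact (isPosPar_iff_isPosUnip _).2 ⟨hu, h1⟩
        exact (pos_of_conj_T_zpow_posPar g⁻¹ j hpu).le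
    have hmem : g⁻¹ * T ^ j * g ∈ Γ := by rw [← hj]; exact u.2
    obtain ⟨k, hk⟩ := (mem_iff_dvd Γ g j).1 hmem
    have hk0 : 0 ≤ k := by
      by_contra hneg
      have : (width Γ g : ℤ) * k < 0 := mul_neg_of_pos_of_neg hw (not_le.1 hneg)
      omega
    refine ⟨k.toNat, Subtype.ext ?_⟩
    rw [Subgroup.coe_pow, hj, hk]
    show g⁻¹ * T ^ ((width Γ g : ℤ) * k) * g = (g⁻¹ * T ^ width Γ g * g) ^ k.toNat
    rw [inv_conj_zpow, inv_conj_pow, _root_.zpow_mul, zpow_natCast, ← zpow_natCast _ k.toNat,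
      Int.toNat_of_nonneg hk0]

/-- **(O2)** every primitive positive unipotent element of `Γ` is `g⁻¹ * T ^ w * g`. -/
theorem exists_eq_of_isPPU {π : Γ} (hπ : IsPPU Γ π) :
    ∃ g : SL(2, ℤ), (π : SL(2, ℤ)) = g⁻¹ * T ^ (width Γ g) * g := by
  obtain ⟨hpu, hne, hprim⟩ := hπ
  have hpar : IsPosPar (π : SL(2, ℤ)) :=
    (isPosPar_iff_isPosUnip _).2 ⟨hpu, fun h => hne (Subtype.ext h)⟩
  obtain ⟨δ, n, hn, hδ⟩ := (isPosPar_iff_exists_conj _).1 hpar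
  refine ⟨δ⁻¹, ?_⟩
  have hπ' : (π : SL(2, ℤ)) = δ⁻¹⁻¹ * T ^ (n : ℤ) * δ⁻¹ := by rw [inv_inv, zpow_natCast]; exact hδ
  have hmem : δ⁻¹⁻¹ * T ^ (n : ℤ) * δ⁻¹ ∈ Γ := by rw [← hπ']; exact π.2
  obtain ⟨k, hk⟩ := (mem_iff_dvd Γ δ⁻¹ n).1 hmem
  -- `ρ = g⁻¹ T ^ w g` commutes with `π`
  have hcomm : Commute (⟨δ⁻¹⁻¹ * T ^ (width Γ δ⁻¹) * δ⁻¹, width_mem Γ δ⁻¹⟩ : Γ) π := by
    apply Subtype.ext
    show δ⁻¹⁻¹ * T ^ (width Γ δ⁻¹) * δ⁻¹ * (π : SL(2, ℤ)) =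
      (π : SL(2, ℤ)) * (δ⁻¹⁻¹ * T ^ (width Γ δ⁻¹) * δ⁻¹)
    rw [hπ', inv_conj_pow, inv_conj_zpow]
    exact ((Commute.refl _).pow_left _).zpow_right _ |>.eq
  obtain ⟨m, hm⟩ := hprim _ (isPPU_width Γ δ⁻¹).1 hcomm
  have hm' : δ⁻¹⁻¹ * T ^ ((width Γ δ⁻¹ : ℕ) : ℤ) * δ⁻¹ = δ⁻¹⁻¹ * T ^ ((n : ℤ) * m) * δ⁻¹ := by
    have h3 : δ⁻¹⁻¹ * T ^ (width Γ δ⁻¹) * δ⁻¹ = (π : SL(2, ℤ)) ^ m := by
      have := congrArg Subtype.val hm
      rw [Subgroup.coe_pow] at this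
      exact this
    rw [zpow_natCast, h3, hπ', inv_conj_zpow, inv_conj_zpow, _root_.zpow_mul, zpow_natCast,
      zpow_natCast]
  have hwnm : ((width Γ δ⁻¹ : ℕ) : ℤ) = (n : ℤ) * m := (inv_conj_zpow_eq_iff δ⁻¹).1 hm'
  have hw : (0 : ℤ) < width Γ δ⁻¹ := by exact_mod_cast width_pos Γ δ⁻¹
  have hn' : (0 : ℤ) < n := by exact_mod_cast hn
  -- `n = w k`, `w = n m` so `k m = 1`
  have hkm : k * m = 1 := by
    have : (width Γ δ⁻¹ : ℤ) * (k * m) = (width Γ δ⁻¹ : ℤ) * 1 := by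
      rw [mul_one, ← mul_assoc, ← hk]; exact hwnm.symm
    exact mul_left_cancel₀ hw.ne' this
  have hk1 : k = 1 := by
    have hkpos : 0 < k := by
      by_contra hneg
      have : (width Γ δ⁻¹ : ℤ) * k ≤ 0 := mul_nonpos_of_nonneg_of_nonpos hw.le (not_lt.1 hneg)
      omega
    have hmpos : (0 : ℤ) ≤ m := by positivity
    rcases Int.eq_one_or_neg_one_of_mul_eq_one' hkm with ⟨h1, -⟩ | ⟨h1, -⟩
    · exact h1
    · omega
  have hnw : n = width Γ δ⁻¹ := by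
    rw [hk1, mul_one] at hk
    exact_mod_cast hk
  rw [hδ, hnw, inv_inv]

/-- the primitive positive unipotent element attached to `g` -/
noncomputable def ppuOf (g : SL(2, ℤ)) : {π : Γ // IsPPU Γ π} :=
  ⟨⟨g⁻¹ * T ^ (width Γ g) * g, width_mem Γ g⟩, isPPU_width Γ g⟩

theorem ppuOf_coe (g : SL(2, ℤ)) :
    (((ppuOf Γ g : {π : Γ // IsPPU Γ π}) : Γ) : SL(2, ℤ)) = g⁻¹ * T ^ (width Γ g) * g := rfl

/-- the cusp attached to `g` -/
noncomputable def kap (g : SL(2, ℤ)) : Cusp Γ := Quotient.mk (ppuSetoid Γ) (ppuOf Γ g)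

theorem kap_eq_iff' (g g' : SL(2, ℤ)) :
    kap Γ g = kap Γ g' ↔
      ∃ γ : Γ, g'⁻¹ * T ^ (width Γ g') * g' = (γ : SL(2, ℤ)) * (g⁻¹ * T ^ (width Γ g) * g) *
        (γ : SL(2, ℤ))⁻¹ := by
  unfold kap
  constructor
  · intro h
    obtain ⟨γ, hγ⟩ := Quotient.exact h
    exact ⟨γ, congrArg Subtype.val hγ⟩
  · rintro ⟨γ, hγ⟩
    exact Quotient.sound ⟨γ, Subtype.ext hγ⟩

/-- **(O3)** the cusp only depends on the `T`-orbit of the coset. -/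
theorem kap_eq_of_mk_eq {g g' : SL(2, ℤ)} {j : ℤ}
    (h : ((g' : SL(2, ℤ)) : SL(2, ℤ) ⧸ Γ) = ((T ^ j * g : SL(2, ℤ)) : SL(2, ℤ) ⧸ Γ)) :
    kap Γ g = kap Γ g' := by
  have hγ : (T ^ j * g)⁻¹ * g' ∈ Γ := QuotientGroup.eq.1 h.symm
  obtain ⟨γ, hγ'⟩ : ∃ γ : SL(2, ℤ), γ ∈ Γ ∧ g' = T ^ j * g * γ :=
    ⟨(T ^ j * g)⁻¹ * g', hγ, by group⟩
  obtain ⟨hγm, rfl⟩ := hγ'
  have hconj : ∀ n : ℤ, (T ^ j * g * γ)⁻¹ * T ^ n * (T ^ j * g * γ) = γ⁻¹ * (g⁻¹ * T ^ n * g) * γ := by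
    intro n
    have : (T ^ j)⁻¹ * T ^ n * T ^ j = T ^ n := by
      rw [← _root_.zpow_neg, ← _root_.zpow_add, ← _root_.zpow_add]
      congr 1; ring
    calc (T ^ j * g * γ)⁻¹ * T ^ n * (T ^ j * g * γ)
        = γ⁻¹ * (g⁻¹ * ((T ^ j)⁻¹ * T ^ n * T ^ j) * g) * γ := by group
      _ = γ⁻¹ * (g⁻¹ * T ^ n * g) * γ := by rw [this]
  have hmem : ∀ n : ℤ, (T ^ j * g * γ)⁻¹ * T ^ n * (T ^ j * g * γ) ∈ Γ ↔ g⁻¹ * T ^ n * g ∈ Γ := by
    intro n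
    rw [hconj]
    constructor
    · intro h1
      have := Γ.mul_mem (Γ.mul_mem hγm h1) (Γ.inv_mem hγm)
      have e : γ * (γ⁻¹ * (g⁻¹ * T ^ n * g) * γ) * γ⁻¹ = g⁻¹ * T ^ n * g := by group
      rwa [e] at this
    · intro h1
      exact Γ.mul_mem (Γ.mul_mem (Γ.inv_mem hγm) h1) hγm
  have hw : width Γ (T ^ j * g * γ) = width Γ g := by
    apply Nat.dvd_antisymm
    · have := (hmem (width Γ g)).2 (by rw [zpow_natCast]; exact width_mem Γ g)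
      exact Int.natCast_dvd_natCast.1 ((mem_iff_dvd Γ _ _).1 this)
    · have := (hmem (width Γ (T ^ j * g * γ))).1 (by rw [zpow_natCast]; exact width_mem Γ _)
      exact Int.natCast_dvd_natCast.1 ((mem_iff_dvd Γ _ _).1 this)
  rw [kap_eq_iff']
  refine ⟨⟨γ⁻¹, Γ.inv_mem hγm⟩, ?_⟩
  have := hconj (width Γ g)
  rw [zpow_natCast] at this
  rw [hw, this, inv_inv]

/-- **(O4)** two cosets with the same cusp lie in the same `T`-orbit. -/
theorem exists_mk_eq_of_kap_eq (hneg : (-1 : SL(2, ℤ)) ∈ Γ) {g g' : SL(2, ℤ)}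
    (h : kap Γ g = kap Γ g') :
    ∃ j : ℤ, ((g' : SL(2, ℤ)) : SL(2, ℤ) ⧸ Γ) = ((T ^ j * g : SL(2, ℤ)) : SL(2, ℤ) ⧸ Γ) := by
  obtain ⟨γ, hγ⟩ := (kap_eq_iff' Γ g g').1 h
  have hw : ((width Γ g : ℕ) : ℤ) ≠ 0 := by exact_mod_cast (width_pos Γ g).ne'
  -- `h = g' γ g⁻¹` intertwines `T ^ w` and `T ^ w'`
  have hint : (g' * (γ : SL(2, ℤ)) * g⁻¹) * T ^ ((width Γ g : ℕ) : ℤ)
      = T ^ ((width Γ g' : ℕ) : ℤ) * (g' * (γ : SL(2, ℤ)) * g⁻¹) := by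
    rw [zpow_natCast, zpow_natCast]
    have := congrArg (fun x => g' * x * (γ : SL(2, ℤ)) * g⁻¹) hγ
    calc g' * (γ : SL(2, ℤ)) * g⁻¹ * T ^ width Γ g
        = g' * ((γ : SL(2, ℤ)) * (g⁻¹ * T ^ width Γ g * g) * (γ : SL(2, ℤ))⁻¹) *
            (γ : SL(2, ℤ)) * g⁻¹ := by group
      _ = g' * (g'⁻¹ * T ^ width Γ g' * g') * (γ : SL(2, ℤ)) * g⁻¹ := this.symm
      _ = T ^ width Γ g' * (g' * (γ : SL(2, ℤ)) * g⁻¹) := by group
  obtain ⟨h10, -⟩ := lower_zero_of_intertwine hw hint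
  rcases eq_T_zpow_or_neg_of_lower_zero _ h10 with ⟨-, -, hT⟩ | ⟨-, -, hT⟩
  · refine ⟨(g' * (γ : SL(2, ℤ)) * g⁻¹) 0 1, ?_⟩
    rw [← hT, QuotientGroup.eq]
    have : g'⁻¹ * (g' * (γ : SL(2, ℤ)) * g⁻¹ * g) = (γ : SL(2, ℤ)) := by group
    rw [this]
    exact γ.2
  · obtain ⟨j, hj⟩ : ∃ j : ℤ, g' * (γ : SL(2, ℤ)) * g⁻¹ = - T ^ j := ⟨_, hT⟩
    refine ⟨j, ?_⟩
    rw [QuotientGroup.eq]
    have e : T ^ j = - (g' * (γ : SL(2, ℤ)) * g⁻¹) := by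
      rw [hj, neg_neg]
    rw [e]
    have : g'⁻¹ * (- (g' * (γ : SL(2, ℤ)) * g⁻¹) * g) = (-1 : SL(2, ℤ)) * (γ : SL(2, ℤ)) := by
      rw [neg_mul, mul_neg, ← neg_one_mul]
      congr 1
      group
    rw [this]
    exact Γ.mul_mem hneg γ.2

/-- the cusp of a coset -/
noncomputable def kapX (x : SL(2, ℤ) ⧸ Γ) : Cusp Γ := kap Γ (Quotient.out x)

theorem kapX_mk (g : SL(2, ℤ)) : kapX Γ ((g : SL(2, ℤ)) : SL(2, ℤ) ⧸ Γ) = kap Γ g := by
  unfold kapX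
  symm
  apply kap_eq_of_mk_eq Γ (j := 0)
  rw [zpow_zero, one_mul]
  exact Quotient.out_eq _

theorem kapX_surjective : Function.Surjective (kapX Γ) := by
  intro c
  obtain ⟨π, rfl⟩ := Quotient.exists_rep c
  obtain ⟨g, hg⟩ := exists_eq_of_isPPU Γ π.2
  refine ⟨((g : SL(2, ℤ)) : SL(2, ℤ) ⧸ Γ), ?_⟩
  rw [kapX_mk]
  unfold kap
  congr 1
  exact Subtype.ext (Subtype.ext hg.symm)

/-- **[D-FIN]** -/
theorem cuspFiniteStatement : CuspFiniteStatement := by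
  intro Γ _ _
  have : Finite (SL(2, ℤ) ⧸ Γ) := Subgroup.finite_quotient_of_finiteIndex
  exact Finite.of_surjective (kapX Γ) (kapX_surjective Γ)

/-- the fibre of `kapX` over the cusp of `g` is the `T`-orbit of `g Γ` -/
theorem fibre_eq [Fintype (SL(2, ℤ) ⧸ Γ)] [DecidableEq (SL(2, ℤ) ⧸ Γ)]
    [DecidableEq (Cusp Γ)] (hneg : (-1 : SL(2, ℤ)) ∈ Γ)
    (g : SL(2, ℤ)) :
    (Finset.univ.filter fun x : SL(2, ℤ) ⧸ Γ => kapX Γ x = kap Γ g)
      = (Finset.range (width Γ g)).image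
          (fun i : ℕ => ((T ^ i * g : SL(2, ℤ)) : SL(2, ℤ) ⧸ Γ)) := by
  have hw : (0 : ℤ) < width Γ g := by exact_mod_cast width_pos Γ g
  ext x
  simp only [Finset.mem_filter, Finset.mem_univ, true_and, Finset.mem_image, Finset.mem_range]
  constructor
  · intro hx
    obtain ⟨g', rfl⟩ := QuotientGroup.mk_surjective x
    rw [kapX_mk] at hx
    obtain ⟨j, hj⟩ := exists_mk_eq_of_kap_eq Γ hneg hx.symm
    have hr0 : 0 ≤ j % (width Γ g : ℤ) := Int.emod_nonneg _ hw.ne'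
    have hr1 : j % (width Γ g : ℤ) < width Γ g := Int.emod_lt_of_pos _ hw
    refine ⟨(j % (width Γ g : ℤ)).toNat, by omega, ?_⟩
    rw [hj, ← zpow_natCast, Int.toNat_of_nonneg hr0, mk_eq_mk_iff_dvd]
    exact Int.dvd_sub_self_of_emod_eq rfl |>.neg_right |> fun h => by
      have : j - j % (width Γ g : ℤ) = - (j % (width Γ g : ℤ) - j) := by ring
      rw [this]; exact h
  · rintro ⟨i, -, rfl⟩
    rw [kapX_mk]
    symm
    apply kap_eq_of_mk_eq Γ (j := (i : ℤ))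
    rw [zpow_natCast]

theorem injOn_range (g : SL(2, ℤ)) :
    Set.InjOn (fun i : ℕ => ((T ^ i * g : SL(2, ℤ)) : SL(2, ℤ) ⧸ Γ))
      (Finset.range (width Γ g) : Set ℕ) := by
  intro i hi j hj h
  simp only [Finset.coe_range, Set.mem_Iio] at hi hj
  simp only [] at h
  rw [← zpow_natCast, ← zpow_natCast, mk_eq_mk_iff_dvd] at h
  obtain ⟨k, hk⟩ := h
  have hw : (0 : ℤ) < width Γ g := by exact_mod_cast width_pos Γ g
  have hk0 : k = 0 := by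
    by_contra hne
    rcases lt_or_gt_of_ne hne with h1 | h1
    · have : (width Γ g : ℤ) * k ≤ (width Γ g : ℤ) * (-1) :=
        mul_le_mul_of_nonneg_left (by omega) hw.le
      omega
    · have : (width Γ g : ℤ) * 1 ≤ (width Γ g : ℤ) * k :=
        mul_le_mul_of_nonneg_left (by omega) hw.le
      omega
  rw [hk0, mul_zero] at hk
  omega

/-- **[D-ORB]** -/
theorem orbStatement : OrbStatement := by
  intro Γ _ _ hneg c ϑ _ hsum
  classical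
  have hfin : Finite (Cusp Γ) := cuspFiniteStatement Γ hneg
  let _ : Fintype (Cusp Γ) := Fintype.ofFinite _
  unfold cuspSum
  rw [finsum_eq_sum_of_fintype]
  rw [← Finset.sum_fiberwise (s := Finset.univ) (g := kapX Γ) (f := c)]
  refine Finset.sum_congr rfl fun k _ => ?_
  -- the representative of the cusp `k`
  obtain ⟨g, hg⟩ := exists_eq_of_isPPU Γ (Quotient.out k).2
  have hk : k = kap Γ g := by
    rw [← Quotient.out_eq k]
    unfold kap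
    congr 1
    exact Subtype.ext (Subtype.ext hg)
  have hfib := fibre_eq Γ hneg g
  rw [← hk] at hfib
  rw [hfib, Finset.sum_image (injOn_range Γ g)]
  rw [hsum g (width Γ g) (width_mem Γ g) (width_pos Γ g)
    (fun w' h0 h1 => width_min Γ g h0 h1)]
  congr 1
  exact Subtype.ext hg.symm

end Gamma

end Fermat.Agent.P6.helper64
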