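import Mathlib
import Fermat.Prelude.Def_ModularCurve_PeriodMap
import Fermat.Agent.P6.helper21_DualStmts

/-!
# P6 / S41, module (D): packages [D-CONJ] and [D-SHAP] (helper77)

* `trivConj : TrivConjStatement` : a trivialisation `θ` of the cup product of two parabolic
  homs is a class function on elements of trace `2` and additive on their powers.
* `shapiroInj : ShapiroInjStatement` : a cocycle over `G ⧸ Γ` whose restriction to `Γ`
  vanishes at the base point is a coboundary.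
-/

set_option autoImplicit false

open scoped MatrixGroups
open Matrix.SpecialLinearGroup ModularCurve.Period

namespace Fermat.Agent.P6.helper77

open Fermat.Agent.S16.helper21 (CoGrp)
open Fermat.Agent.S21.helper83 (x0 smul_x0 smul_x0_of_mem)
open Fermat.Agent.P6.helper21

/-- a trivialisation vanishes at `1`. -/
lemma isTriv_one {Γ : Subgroup SL(2, ℤ)} {x y : Additive Γ →+ ℤ} {θ : Γ → ℤ}
    (h : IsTriv Γ x y θ) : θ 1 = 0 := by
  have h1 := h 1 1
  rw [mul_one, ofMul_one, map_zero, zero_mul, add_zero] at h1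
  linarith

/-- `θ γ + θ γ⁻¹ = x γ * y γ`. -/
lemma isTriv_inv {Γ : Subgroup SL(2, ℤ)} {x y : Additive Γ →+ ℤ} {θ : Γ → ℤ}
    (h : IsTriv Γ x y θ) (γ : Γ) :
    θ γ + θ γ⁻¹ = x (Additive.ofMul γ) * y (Additive.ofMul γ) := by
  have h1 := h γ γ⁻¹
  rw [mul_inv_cancel, isTriv_one h, ofMul_inv, map_neg] at h1
  linarith

/-- **[D-CONJ]**. -/
theorem trivConj : TrivConjStatement := by
  intro Γ x y θ hx hy hθ π γ hπ
  have hπ4 : ((π : SL(2, ℤ)) : Matrix (Fin 2) (Fin 2) ℤ).trace ^ 2 = 4 := by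
    rw [hπ]; norm_num
  have hxπ : x (Additive.ofMul π) = 0 := hx π hπ4
  have hyπ : y (Additive.ofMul π) = 0 := hy π hπ4
  refine ⟨?_, ?_⟩
  · have h1 := hθ (γ * π) γ⁻¹
    have h2 := hθ γ π
    have h3 := isTriv_inv hθ γ
    rw [h2, ofMul_mul, map_add, hxπ, ofMul_inv, map_neg, hyπ] at h1
    rw [h1]
    linarith
  · intro k
    induction k with
    | zero => simp [isTriv_one hθ]
    | succ k ih =>
      have h1 := hθ (π ^ k) π
      rw [hyπ, mul_zero, add_zero, ih] at h1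
      rw [pow_succ, h1]
      push_cast
      ring

/-- **[D-SHAP]**. -/
theorem shapiroInj : ShapiroInjStatement := by
  intro Γ Φ hΦ hres
  have hmul := CoGrp.hom_f_mul Φ hΦ
  -- the function `g ↦ (Φ g).f x₀` is right `Γ`-invariant
  have hwd : ∀ a b : SL(2, ℤ), QuotientGroup.leftRel Γ a b →
      (Φ a).f (x0 Γ) = (Φ b).f (x0 Γ) := by
    intro a b hab
    rw [QuotientGroup.leftRel_apply] at hab
    have hb : b = a * (a⁻¹ * b) := by group
    have h1 := hmul a (a⁻¹ * b) (x0 Γ)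
    rw [← hb, smul_x0_of_mem Γ hab] at h1
    have h2 := hres ⟨a⁻¹ * b, hab⟩
    simp only at h2
    rw [h1, h2, add_zero]
  refine ⟨fun z => Quotient.liftOn' z (fun g => (Φ g).f (x0 Γ)) hwd, ?_⟩
  intro g z
  obtain ⟨a, rfl⟩ := QuotientGroup.mk_surjective z
  have hz : ((a : SL(2, ℤ)) : SL(2, ℤ) ⧸ Γ) = a • x0 Γ := (smul_x0 Γ a).symm
  have hgz : g • ((a : SL(2, ℤ)) : SL(2, ℤ) ⧸ Γ) = ((g * a : SL(2, ℤ)) : SL(2, ℤ) ⧸ Γ) := rfl
  rw [hgz]
  show (Φ g).f ((a : SL(2, ℤ)) : SL(2, ℤ) ⧸ Γ) = (Φ (g * a)).f (x0 Γ) - (Φ a).f (x0 Γ)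
  rw [hz, hmul g a (x0 Γ)]
  ring

end Fermat.Agent.P6.helper77
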