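import Mathlib
import Fermat.Agent.P6.helper21_GlueDefs

/-!
# P6 / S41, module (D) duality, package [D-GLUE-PUSH] (helper94)

`gluePush : Fermat.Agent.P6.helper21.GluePushStatement`: the degeneracy maps `helper4.a1`,
`helper4.a2` and the transfers `helper4.b1`, `helper4.b2` in terms of `resHom`, `corHom` and
`jTwoEquiv`.

The transfers of `helper4` are Mathlib transfers for the subgroup `ι.range` of `Γ₀(M)`, those of
`corHom` are Mathlib transfers for `Γ'.subgroupOf Γ₀(M)`; the two subgroups are equal and the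
characters correspond (`transfer_congr`).
-/

set_option autoImplicit false
set_option linter.unusedSectionVars false
set_option linter.style.haveILetI false
set_option linter.unusedVariables false
set_option linter.unusedSimpArgs false

open scoped MatrixGroups
open Matrix.SpecialLinearGroup ModularCurve.Period CongruenceSubgroup

namespace Fermat.Agent.P6.helper94.Glue

open Fermat.Agent.P6.helper77 (jOne jTwo jOne_injective jTwo_injective gamma0_mul_le)
open Fermat.Agent.P6.helper21

/-- the transfer only depends on the subgroup and on the character up to equality -/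
lemma transfer_congr {G : Type*} [Group G] {A : Type*} [CommGroup A] {H H2 : Subgroup G}
    [hH : H.FiniteIndex] [hH2 : H2.FiniteIndex] (e : H = H2) (φ : H →* A) (φ2 : H2 →* A)
    (hφ : ∀ (h : G) (hh : h ∈ H) (hh2 : h ∈ H2), φ ⟨h, hh⟩ = φ2 ⟨h, hh2⟩) :
    MonoidHom.transfer φ = MonoidHom.transfer φ2 := by
  subst e
  have : φ = φ2 := by
    ext ⟨h, hh⟩
    exact hφ h hh hh
  rw [this]

/-- `push` along an injective hom is the transfer for any subgroup equal to the range, with the
corresponding character -/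
lemma push_eq_of_range_eq {G' G : Type*} [Group G'] [Group G] (A : Type*) [AddCommGroup A]
    (ι : G' →* G) (hι : Function.Injective ι) (ψ : Additive G' →+ A)
    (H : Subgroup G) [hH : H.FiniteIndex] (e : ι.range = H) (φ : H →* Multiplicative A)
    (hφ : ∀ (g : G') (hg : ι g ∈ H), φ ⟨ι g, hg⟩ = Multiplicative.ofAdd (ψ (Additive.ofMul g))) :
    helper4.push A ι hι ψ = MonoidHom.toAdditiveLeft (MonoidHom.transfer φ) := by
  haveI hfi : ι.range.FiniteIndex := by rw [e]; exact hH
  unfold helper4.push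
  rw [dif_pos hfi]
  congr 1
  apply transfer_congr e
  rintro h ⟨g, rfl⟩ hh2
  rw [hφ g hh2]
  have h1 : (MonoidHom.ofInjective hι).symm ⟨ι g, ⟨g, rfl⟩⟩ = g := by
    rw [MulEquiv.symm_apply_eq]
    exact Subtype.ext rfl
  show Multiplicative.ofAdd (ψ (Additive.ofMul ((MonoidHom.ofInjective hι).symm ⟨ι g, ⟨g, rfl⟩⟩)))
    = _
  rw [h1]

lemma range_jOne_eq (M r : ℕ) :
    (jOne M r).range = (Gamma0 (M * r)).subgroupOf (Gamma0 M) := by
  ext γ
  constructor
  · rintro ⟨γ', rfl⟩
    exact γ'.2
  · intro h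
    exact ⟨⟨(γ : SL(2, ℤ)), h⟩, Subtype.ext rfl⟩

lemma range_jTwo_eq (M r : ℕ) (hr : r ≠ 0) :
    (jTwo M r hr).range = (jTwoImage M r hr).subgroupOf (Gamma0 M) := by
  ext γ
  constructor
  · rintro ⟨γ', rfl⟩
    exact ⟨γ', rfl⟩
  · rintro ⟨γ', h⟩
    exact ⟨γ', Subtype.ext h⟩

/-- **[D-GLUE-PUSH]** -/
theorem gluePush : GluePushStatement := by
  intro M r hr hM hfi1 hfi2
  refine ⟨fun x => ⟨rfl, rfl⟩, fun y => ⟨?_, ?_⟩⟩
  · -- `b1`
    unfold helper4.b1 corHom
    apply push_eq_of_range_eq ℤ (jOne M r) (jOne_injective M r) y _ (range_jOne_eq M r)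
    intro g hg
    rfl
  · -- `b2`
    unfold helper4.b2 corHom
    apply push_eq_of_range_eq ℤ (jTwo M r hr) (jTwo_injective M r hr) y _ (range_jTwo_eq M r hr)
    intro g hg
    have h1 : (jTwoEquiv M r hr).symm
        (Subgroup.subgroupOfEquivOfLe (jTwoImage_le M r hr) ⟨jTwo M r hr g, hg⟩) = g := by
      rw [MulEquiv.symm_apply_eq]
      exact Subtype.ext rfl
    show Multiplicative.ofAdd (y (Additive.ofMul ((jTwoEquiv M r hr).symm
        (Subgroup.subgroupOfEquivOfLe (jTwoImage_le M r hr) ⟨jTwo M r hr g, hg⟩)))) = _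
    rw [h1]

end Fermat.Agent.P6.helper94.Glue
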