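import Fermat.Agent.P6.helper21_Glue
import Fermat.Agent.P6.helper21_JTwoIso
import Fermat.Agent.P6.helper38_DAdjFinal
import Fermat.Agent.P6.helper60_DBil
import Fermat.Agent.P6.helper39_DNondeg
import Fermat.Agent.P6.helper33_DEval
import Fermat.Agent.P6.helper54_DIso
import Fermat.Agent.P6.helper94_GluePush
import Fermat.Agent.P6.helper64_Orb
import Fermat.Agent.P6.helper77_ConjShap

/-!
# P6 / S41 module (D): the duality statement, unconditional (helper21, wiring)

`dualityStatement : helper4.DualityStatement` from the packages of BLUEPRINT P6-D:
BIL (helper60), WD (helper85 / helper38), HEIS (helper33), ORB + FIN (helper64), CONJ + SHAP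
(helper77), LIFT + GLUE-PUSH (helper94), MODEL (helper83), EVAL (helper33), P1 (helper39 on the
PD core of helper99), TRANSFER (helper82), ADJ (helper38), ISO (helper54), ISO-J + GLUE
(helper21).
-/

set_option autoImplicit false

namespace Fermat.Agent.P6.helper21

/-- **(D)** the duality statement of BLUEPRINT P6/S41, unconditional. -/
theorem dualityStatement : helper4.DualityStatement :=
  duality_of
    (Fermat.Agent.P6.helper60.bil_of Fermat.Agent.P6.helper38.blEqStatement
      Fermat.Agent.P6.helper64.cuspFiniteStatement)
    (Fermat.Agent.P6.helper39.nondeg_of_eval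
      (Fermat.Agent.P6.helper33.evalStatement_of Fermat.Agent.P6.helper38.modelStatement))
    Fermat.Agent.P6.helper38.adjStatement
    (Fermat.Agent.P6.helper54.isoStatement_of Fermat.Agent.P6.helper38.blEqStatement
      Fermat.Agent.P6.helper77.trivConj)
    jTwoIso
    Fermat.Agent.P6.helper94.Glue.gluePush

end Fermat.Agent.P6.helper21
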