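import Mathlib
import Fermat.Agent.P6.helper21_GlueDefs

/-!
# P6-D [D-GLUE]: `helper4.DualityStatement` from the package statements of BLUEPRINT P6-D
-/

set_option autoImplicit false

open scoped MatrixGroups
open Matrix.SpecialLinearGroup ModularCurve.Period CongruenceSubgroup

namespace Fermat.Agent.P6.helper21

open Fermat.Agent.P6.helper77 (jOne jTwo jTwo_injective gamma0_mul_le)
open Fermat.Agent.P6 (helper4.Lat)

section Form

variable (hB : BilStatement)

/-- the pairing of level `M > 0` as a biadditive map on the parabolic lattice. -/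
noncomputable def blAdd (M : ℕ) [NeZero M] :
    helper4.Lat M →+ helper4.Lat M →+ ℤ :=
  AddMonoidHom.mk' (fun x => AddMonoidHom.mk' (fun y => Bl (Gamma0 M) x.1 y.1)
    (fun y y' => (hB (Gamma0 M) (Fermat.Agent.S16.helper21.neg_one_mem_Gamma0 M)
      y.1 y'.1 x.1 y.2 y'.2 x.2).2.1))
    (fun x x' => by
      ext y
      exact (hB (Gamma0 M) (Fermat.Agent.S16.helper21.neg_one_mem_Gamma0 M)
        x.1 x'.1 y.1 x.2 x'.2 y.2).1)

@[simp] theorem blAdd_apply (M : ℕ) [NeZero M] (x y : helper4.Lat M) :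
    blAdd hB M x y = Bl (Gamma0 M) x.1 y.1 := rfl

/-- the pairing of level `M` as a bilinear form (`0` for `M = 0`). -/
noncomputable def blForm (M : ℕ) : helper4.Lat M →ₗ[ℤ] helper4.Lat M →ₗ[ℤ] ℤ :=
  if h : M = 0 then 0 else
    haveI : NeZero M := ⟨h⟩
    (AddMonoidHom.mk' (fun x => (blAdd hB M x).toIntLinearMap)
      (fun x x' => by
        ext y
        simp [map_add])).toIntLinearMap

theorem blForm_apply (M : ℕ) (hM : 0 < M) (x y : helper4.Lat M) :
    blForm hB M x y = Bl (Gamma0 M) x.1 y.1 := by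
  unfold blForm
  rw [dif_neg hM.ne']
  rfl

theorem blForm_zero (x y : helper4.Lat 0) : blForm hB 0 x y = 0 := by
  unfold blForm
  rw [dif_pos rfl]
  rfl

end Form

/-- **[D-GLUE]** the duality statement of the S41 blueprint from the packages of P6-D. -/
theorem duality_of (hB : BilStatement) (hN : NondegStatement) (hA : AdjStatement)
    (hI : IsoStatement) (hJ : JTwoIsoStatement) (hG : GluePushStatement) :
    helper4.DualityStatement := by
  refine ⟨blForm hB, -1, Or.inr rfl, ?_, ?_, ?_⟩
  · -- antisymmetry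
    intro M x y
    rcases Nat.eq_zero_or_pos M with rfl | hM
    · rw [blForm_zero, blForm_zero]; simp
    · have : NeZero M := ⟨hM.ne'⟩
      rw [blForm_apply hB M hM, blForm_apply hB M hM]
      have := (hB (Gamma0 M) (Fermat.Agent.S16.helper21.neg_one_mem_Gamma0 M)
        x.1 x.1 y.1 x.2 x.2 y.2).2.2
      rw [this]; ring
  · -- non-degeneracy
    intro M p hM hp _ x hx
    have : NeZero M := ⟨hM.ne'⟩
    obtain ⟨x', hx', hxx'⟩ := hN (Gamma0 M) (Fermat.Agent.S16.helper21.neg_one_mem_Gamma0 M)
      p hp x.1 x.2 (fun y hy => by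
        have := hx ⟨y, hy⟩
        rwa [blForm_apply hB M hM] at this)
    refine ⟨⟨x', hx'⟩, ?_⟩
    apply Subtype.ext
    rw [hxx']
    rfl
  · -- adjointness
    intro M r hr hM hrp _ lm x y
    have : NeZero M := ⟨hM.ne'⟩
    have hMr : 0 < M * r := Nat.mul_pos hM hrp.pos
    have : NeZero (M * r) := ⟨hMr.ne'⟩
    obtain ⟨hfin, hneg, hpos, hpar⟩ := hJ M r hr hM
    have := hfin
    obtain ⟨hGa, hGb⟩ := hG M r hr hM
    rw [blForm_apply hB _ hMr, blForm_apply hB _ hM, blForm_apply hB _ hMr,
      blForm_apply hB _ hM, lm.a1_coe, lm.a2_coe, lm.b1_coe, lm.b2_coe,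
      (hGa x.1).1, (hGa x.1).2, (hGb y.1).1, (hGb y.1).2]
    constructor
    · exact (hA (Gamma0 (M * r)) (Gamma0 M) (gamma0_mul_le M r)
        (Fermat.Agent.S16.helper21.neg_one_mem_Gamma0 _) x.1 y.1 x.2 y.2).2
    · -- second degeneracy map
      set e := jTwoEquiv M r hr with he
      set y'' : Additive (jTwoImage M r hr) →+ ℤ := y.1.comp e.symm.toMonoidHom.toAdditive
        with hy''
      have hyy : y''.comp e.toMonoidHom.toAdditive = y.1 := by
        ext γ
        simp [hy'']
      have hy''par : IsParabolicHom (jTwoImage M r hr) y'' := by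
        rw [hpar y'', hyy]
        exact y.2
      have hx''par : IsParabolicHom (jTwoImage M r hr) (resHom (jTwoImage_le M r hr) x.1) := by
        intro γ hγ
        exact x.2 (Subgroup.inclusion (jTwoImage_le M r hr) γ) hγ
      have h1 := hI (Gamma0 (M * r)) (jTwoImage M r hr)
        (Fermat.Agent.S16.helper21.neg_one_mem_Gamma0 _) hneg e hpos
        (resHom (jTwoImage_le M r hr) x.1) y'' hx''par hy''par
        ((hpar _).1 hx''par) ((hpar _).1 hy''par)
      rw [hyy] at h1
      rw [h1]
      exact (hA (jTwoImage M r hr) (Gamma0 M) (jTwoImage_le M r hr) hneg x.1 y'' x.2 hy''par).2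

end Fermat.Agent.P6.helper21
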