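import Mathlib
import Fermat.Agent.S21.Parabolic
import Fermat.Agent.S16.helper21_TOrbit
import Fermat.Agent.P6.helper21_DualDefs

/-!
# P6-D [D-ORB], part 1: matrix lemmas on unipotent elements of `SL(2, ℤ)`
-/

set_option autoImplicit false

open scoped MatrixGroups
open Matrix.SpecialLinearGroup

namespace Fermat.Agent.P6.helper21

/-- the entries of `g⁻¹ T^j g`. -/
theorem conj_T_zpow_coe (g : SL(2, ℤ)) (j : ℤ) :
    ((g⁻¹ * ModularGroup.T ^ j * g : SL(2, ℤ)) : Matrix (Fin 2) (Fin 2) ℤ) =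
      !![1 + j * g 1 0 * g 1 1, j * g 1 1 ^ 2; - j * g 1 0 ^ 2, 1 - j * g 1 0 * g 1 1] := by
  have hdet : g 0 0 * g 1 1 - g 0 1 * g 1 0 = 1 := by
    have := g.det_coe
    rwa [Matrix.det_fin_two] at this
  rw [Matrix.SpecialLinearGroup.coe_mul, Matrix.SpecialLinearGroup.coe_mul,
    Matrix.SpecialLinearGroup.SL2_inv_expl, ModularGroup.coe_T_zpow]
  ext a b
  fin_cases a <;> fin_cases b
  · simp [Matrix.mul_apply, Fin.sum_univ_two]; linear_combination hdet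
  · simp [Matrix.mul_apply, Fin.sum_univ_two]; ring
  · simp [Matrix.mul_apply, Fin.sum_univ_two]; ring
  · simp [Matrix.mul_apply, Fin.sum_univ_two]; linear_combination hdet

theorem conj_T_zpow_apply_zero_one (g : SL(2, ℤ)) (j : ℤ) :
    (g⁻¹ * ModularGroup.T ^ j * g : SL(2, ℤ)) 0 1 = j * g 1 1 ^ 2 := by
  have h := conj_T_zpow_coe g j
  have := congrFun (congrFun h 0) 1
  simpa using this

theorem conj_T_zpow_apply_one_zero (g : SL(2, ℤ)) (j : ℤ) :
    (g⁻¹ * ModularGroup.T ^ j * g : SL(2, ℤ)) 1 0 = - j * g 1 0 ^ 2 := by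
  have h := conj_T_zpow_coe g j
  have := congrFun (congrFun h 1) 0
  simpa using this

theorem conj_T_zpow_trace (g : SL(2, ℤ)) (j : ℤ) :
    ((g⁻¹ * ModularGroup.T ^ j * g : SL(2, ℤ)) : Matrix (Fin 2) (Fin 2) ℤ).trace = 2 := by
  rw [conj_T_zpow_coe, Matrix.trace_fin_two]
  simp

theorem isPosUnip_conj_T_zpow (g : SL(2, ℤ)) {j : ℤ} (hj : 0 ≤ j) :
    IsPosUnip (g⁻¹ * ModularGroup.T ^ j * g) := by
  refine ⟨conj_T_zpow_trace g j, ?_, ?_⟩
  · rw [conj_T_zpow_apply_zero_one]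
    positivity
  · rw [conj_T_zpow_apply_one_zero]
    have : 0 ≤ j * g 1 0 ^ 2 := by positivity
    linarith

theorem row_one_ne_zero (g : SL(2, ℤ)) : g 1 0 ≠ 0 ∨ g 1 1 ≠ 0 := by
  by_contra h
  rw [not_or, not_not, not_not] at h
  have hdet : g 0 0 * g 1 1 - g 0 1 * g 1 0 = 1 := by
    have := g.det_coe
    rwa [Matrix.det_fin_two] at this
  rw [h.1, h.2] at hdet
  simp at hdet

theorem nonneg_of_isPosUnip_conj (g : SL(2, ℤ)) (j : ℤ)
    (h : IsPosUnip (g⁻¹ * ModularGroup.T ^ j * g)) : 0 ≤ j := by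
  obtain ⟨-, h1, h2⟩ := h
  rw [conj_T_zpow_apply_zero_one] at h1
  rw [conj_T_zpow_apply_one_zero] at h2
  by_contra hj
  rw [not_le] at hj
  rcases row_one_ne_zero g with hc | hd
  · have : 0 < g 1 0 ^ 2 := by positivity
    nlinarith
  · have : 0 < g 1 1 ^ 2 := by positivity
    nlinarith

theorem T_zpow_injective : Function.Injective (fun j : ℤ => (ModularGroup.T ^ j : SL(2, ℤ))) := by
  intro j k h
  have h' := congrArg (fun u : SL(2, ℤ) => (u : Matrix (Fin 2) (Fin 2) ℤ) 0 1) h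
  simpa [ModularGroup.coe_T_zpow] using h'

theorem conj_T_zpow_eq_iff (g : SL(2, ℤ)) (j k : ℤ) :
    g⁻¹ * ModularGroup.T ^ j * g = g⁻¹ * ModularGroup.T ^ k * g ↔ j = k := by
  constructor
  · intro h
    apply T_zpow_injective
    simpa using h
  · rintro rfl; rfl

theorem T_zpow_ne_neg_T_zpow_trace (k : ℤ) :
    ((-ModularGroup.T ^ k : SL(2, ℤ)) : Matrix (Fin 2) (Fin 2) ℤ).trace = -2 := by
  rw [Matrix.SpecialLinearGroup.coe_neg, ModularGroup.coe_T_zpow, Matrix.trace_neg,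
    Matrix.trace_fin_two]
  simp

/-- a trace-2 element is a conjugate of a power of `T`. -/
theorem exists_conj_T_zpow_of_trace (u : SL(2, ℤ))
    (hu : (u : Matrix (Fin 2) (Fin 2) ℤ).trace = 2) :
    ∃ (g : SL(2, ℤ)) (j : ℤ), u = g⁻¹ * ModularGroup.T ^ j * g := by
  obtain ⟨δ, hδ⟩ := Fermat.Agent.S21.exists_conj_apply_one_zero_eq_zero u (by rw [hu]; norm_num)
  obtain ⟨k, hk | hk⟩ := Fermat.Agent.S16.helper21.eq_T_zpow_or_neg_of_apply_one_zero _ hδ
  · refine ⟨δ⁻¹, k, ?_⟩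
    rw [← hk]
    group
  · exfalso
    have h1 : ((δ⁻¹ * u * δ : SL(2, ℤ)) : Matrix (Fin 2) (Fin 2) ℤ).trace = 2 := by
      rw [Matrix.SpecialLinearGroup.coe_mul, Matrix.SpecialLinearGroup.coe_mul,
        Matrix.trace_mul_comm, ← Matrix.mul_assoc, ← Matrix.SpecialLinearGroup.coe_mul,
        mul_inv_cancel, Matrix.SpecialLinearGroup.coe_one, Matrix.one_mul, hu]
    rw [hk, T_zpow_ne_neg_T_zpow_trace] at h1
    norm_num at h1

/-- if `k T^w = T^w' k` with `w' ≠ 0` then `k` is upper triangular. -/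
theorem apply_one_zero_eq_zero_of_mul_T_zpow (k : SL(2, ℤ)) (w w' : ℤ) (hw' : w' ≠ 0)
    (h : k * ModularGroup.T ^ w = ModularGroup.T ^ w' * k) : k 1 0 = 0 := by
  have h' := congrArg (fun u : SL(2, ℤ) => (u : Matrix (Fin 2) (Fin 2) ℤ) 0 0) h
  simp only [Matrix.SpecialLinearGroup.coe_mul, ModularGroup.coe_T_zpow, Matrix.mul_apply,
    Fin.sum_univ_two] at h'
  simp at h'
  rcases h' with h' | h'
  · exact absurd h' hw'
  · exact h'

end Fermat.Agent.P6.helper21
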