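import Fermat.Agent.P6.helper31_UnitTrick

/-!
# P6 / S41, package [A-GEN]: `SL₂(ℤ[1/q])` is generated by elementary matrices (helper31)

For a commutative ring `A` which is the localization of `ℤ` away from an integer `q`:

* `E2 A` : the subgroup of `SL₂(A)` generated by the elementary matrices `uMat t`, `lMat t`;
* `exists_unit_smul_col` : the first column of every `g ∈ SL₂(A)` becomes a coprime pair of
  integers after multiplication by a unit of `A`;
* `sl2_closure_elementary` : `E2 A = ⊤`, in the shape of the hypothesis `hgen` of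
  `comm_mem_El_of_forall_uMat`;
* `comm_mem_El_of_forall_uMat_away` : centrality of `Gam I / El I` from the triviality of the
  conjugation action of the `uMat t`.
-/

set_option autoImplicit false

namespace Fermat.Agent.P6.helper31

open Matrix

/-- The subgroup of `SL₂(R)` generated by the elementary matrices. -/
def E2 (R : Type*) [CommRing R] : Subgroup (SpecialLinearGroup (Fin 2) R) :=
  Subgroup.closure ({g | ∃ t : R, g = uMat t} ∪ {g | ∃ t : R, g = lMat t})

section general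

variable {R : Type*} [CommRing R]

lemma uMat_mem_E2 (t : R) : uMat t ∈ E2 R :=
  Subgroup.subset_closure (Or.inl ⟨t, rfl⟩)

lemma lMat_mem_E2 (t : R) : lMat t ∈ E2 R :=
  Subgroup.subset_closure (Or.inr ⟨t, rfl⟩)

lemma dMat_mem_E2 (v : Rˣ) : dMat v ∈ E2 R := by
  rw [dMat_eq]
  exact (E2 R).mul_mem ((E2 R).mul_mem ((E2 R).mul_mem (lMat_mem_E2 _) (uMat_mem_E2 _))
    (lMat_mem_E2 _)) (uMat_mem_E2 _)

lemma wMat_eq : (wMat : SpecialLinearGroup (Fin 2) R) = uMat 1 * lMat (-1) * uMat 1 := by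
  apply sl2_ext <;>
    simp only [mul_00, mul_01, mul_10, mul_11, uMat_00, uMat_01, uMat_10, uMat_11, lMat_00,
      lMat_01, lMat_10, lMat_11, wMat_00, wMat_01, wMat_10, wMat_11] <;> ring

lemma wMat_mem_E2 : (wMat : SpecialLinearGroup (Fin 2) R) ∈ E2 R := by
  rw [wMat_eq]
  exact (E2 R).mul_mem ((E2 R).mul_mem (uMat_mem_E2 _) (lMat_mem_E2 _)) (uMat_mem_E2 _)

/-- The image of `SL₂(ℤ)` lies in the elementary subgroup. -/
lemma map_int_mem_E2 (γ : SpecialLinearGroup (Fin 2) ℤ) :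
    SpecialLinearGroup.map (Int.castRingHom R) γ ∈ E2 R := by
  have hγ : γ ∈ Subgroup.closure ({ModularGroup.S, ModularGroup.T} :
      Set (SpecialLinearGroup (Fin 2) ℤ)) := by
    rw [SpecialLinearGroup.SL2Z_generators]; trivial
  have hle : Subgroup.closure ({ModularGroup.S, ModularGroup.T} :
      Set (SpecialLinearGroup (Fin 2) ℤ))
      ≤ (E2 R).comap (SpecialLinearGroup.map (Int.castRingHom R)) := by
    rw [Subgroup.closure_le]
    intro x hx
    rcases hx with rfl | hx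
    · -- `S ↦ wMat⁻¹`
      have e : SpecialLinearGroup.map (Int.castRingHom R) ModularGroup.S = wMat⁻¹ := by
        rw [eq_inv_iff_mul_eq_one]
        apply sl2_ext <;>
          simp [mul_00, mul_01, mul_10, mul_11, wMat_00, wMat_01, wMat_10, wMat_11,
            ModularGroup.S, SpecialLinearGroup.map]
      show SpecialLinearGroup.map (Int.castRingHom R) ModularGroup.S ∈ E2 R
      rw [e]
      exact (E2 R).inv_mem wMat_mem_E2
    · rw [Set.mem_singleton_iff] at hx
      subst hx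
      have e : SpecialLinearGroup.map (Int.castRingHom R) ModularGroup.T = uMat 1 := by
        apply sl2_ext <;>
          simp [uMat_00, uMat_01, uMat_10, uMat_11, ModularGroup.T, SpecialLinearGroup.map]
      show SpecialLinearGroup.map (Int.castRingHom R) ModularGroup.T ∈ E2 R
      rw [e]
      exact uMat_mem_E2 _
  exact hle hγ

/-- A coprime pair of integers is the first column of an element of `SL₂(ℤ)`. -/
lemma exists_sl2Z_col {x y : ℤ} (h : IsCoprime x y) :
    ∃ γ : SpecialLinearGroup (Fin 2) ℤ, γ.1 0 0 = x ∧ γ.1 1 0 = y := by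
  obtain ⟨u, v, huv⟩ := h
  refine ⟨⟨!![x, -v; y, u], ?_⟩, rfl, rfl⟩
  rw [Matrix.det_fin_two_of]
  linear_combination huv

end general

section away

variable (q : ℤ) (A : Type*) [CommRing A] [Algebra ℤ A] [IsLocalization.Away q A]

include q in
/-- The first column of an element of `SL₂(ℤ[1/q])` is a unit multiple of a coprime pair of
integers. -/
lemma exists_unit_smul_col (g : SpecialLinearGroup (Fin 2) A) :
    ∃ (v : Aˣ) (x y : ℤ), IsCoprime x y ∧ (v : A) * g.1 0 0 = (x : A) ∧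
      (v : A) * g.1 1 0 = (y : A) := by
  rcases subsingleton_or_nontrivial A with hA | hA
  · exact ⟨1, 1, 0, isCoprime_one_left, Subsingleton.elim _ _, Subsingleton.elim _ _⟩
  have hQ : IsUnit (algebraMap ℤ A q) := IsLocalization.Away.algebraMap_isUnit q
  obtain ⟨n₁, x₁, hx₁⟩ := IsLocalization.Away.surj q (g.1 0 0)
  obtain ⟨n₂, y₁, hy₁⟩ := IsLocalization.Away.surj q (g.1 1 0)
  -- common exponent
  set Q : A := algebraMap ℤ A q with hQdef
  set x : ℤ := x₁ * q ^ n₂ with hx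
  set y : ℤ := y₁ * q ^ n₁ with hy
  have hxA : g.1 0 0 * Q ^ (n₁ + n₂) = (x : A) := by
    rw [hx, Int.cast_mul, Int.cast_pow, pow_add, ← mul_assoc, hx₁]
    simp [hQdef, eq_intCast]
  have hyA : g.1 1 0 * Q ^ (n₁ + n₂) = (y : A) := by
    rw [hy, Int.cast_mul, Int.cast_pow, pow_add, mul_comm (Q ^ n₁), ← mul_assoc, hy₁]
    simp [hQdef, eq_intCast]
  have hdet := sl2_det g
  -- `x d - b y = Q ^ K`
  have hcomb : (x : A) * g.1 1 1 - g.1 0 1 * (y : A) = Q ^ (n₁ + n₂) := by
    rw [← hxA, ← hyA]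
    linear_combination (Q ^ (n₁ + n₂)) * hdet
  set d₀ : ℤ := (Int.gcd x y : ℤ) with hd₀
  have hd₀x : d₀ ∣ x := Int.gcd_dvd_left x y
  have hd₀y : d₀ ∣ y := Int.gcd_dvd_right x y
  have hunit : IsUnit ((d₀ : ℤ) : A) := by
    apply isUnit_of_dvd_unit (y := Q ^ (n₁ + n₂)) _ (hQ.pow _)
    rw [← hcomb]
    obtain ⟨x', hx'⟩ := hd₀x
    obtain ⟨y', hy'⟩ := hd₀y
    refine ⟨(x' : A) * g.1 1 1 - g.1 0 1 * (y' : A), ?_⟩
    rw [hx', hy']
    push_cast
    ring
  have hd₀ne : Int.gcd x y ≠ 0 := by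
    intro h0
    rw [hd₀, h0] at hunit
    simp at hunit
  have hpos : 0 < Int.gcd x y := Nat.pos_of_ne_zero hd₀ne
  have hcop : IsCoprime (x / d₀) (y / d₀) := by
    rw [Int.isCoprime_iff_gcd_eq_one]
    exact Int.gcd_div_gcd_div_gcd hpos
  refine ⟨(hQ.unit) ^ (n₁ + n₂) * hunit.unit⁻¹, x / d₀, y / d₀, hcop, ?_, ?_⟩
  · have e1 : ((x / d₀ : ℤ) : A) * ((d₀ : ℤ) : A) = (x : A) := by
      rw [← Int.cast_mul, Int.ediv_mul_cancel hd₀x]
    have e2 : ((hunit.unit⁻¹ : Aˣ) : A) * ((d₀ : ℤ) : A) = 1 := hunit.val_inv_mul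
    simp only [Units.val_mul, Units.val_pow_eq_pow_val, IsUnit.unit_spec]
    linear_combination (((hunit.unit⁻¹ : Aˣ) : A)) * hxA
      - (((hunit.unit⁻¹ : Aˣ) : A)) * e1 + ((x / d₀ : ℤ) : A) * e2
  · have e1 : ((y / d₀ : ℤ) : A) * ((d₀ : ℤ) : A) = (y : A) := by
      rw [← Int.cast_mul, Int.ediv_mul_cancel hd₀y]
    have e2 : ((hunit.unit⁻¹ : Aˣ) : A) * ((d₀ : ℤ) : A) = 1 := hunit.val_inv_mul
    simp only [Units.val_mul, Units.val_pow_eq_pow_val, IsUnit.unit_spec]
    linear_combination (((hunit.unit⁻¹ : Aˣ) : A)) * hyA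
      - (((hunit.unit⁻¹ : Aˣ) : A)) * e1 + ((y / d₀ : ℤ) : A) * e2

include q in
/-- **[A-GEN]** `SL₂(ℤ[1/q])` is generated by the elementary matrices. -/
theorem E2_eq_top : E2 A = ⊤ := by
  rw [eq_top_iff]
  intro g _
  obtain ⟨v, x, y, hcop, hx, hy⟩ := exists_unit_smul_col q A g
  obtain ⟨γ, hγ0, hγ1⟩ := exists_sl2Z_col hcop
  -- `g * dMat v` and the image of `γ` have the same first column
  have c0 : (SpecialLinearGroup.map (Int.castRingHom A) γ).1 0 0 = (g * dMat v).1 0 0 := by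
    rw [mul_00, dMat_00, dMat_10, mul_zero, add_zero, mul_comm, hx]
    show Int.castRingHom A (γ.1 0 0) = _
    rw [hγ0]; rfl
  have c1 : (SpecialLinearGroup.map (Int.castRingHom A) γ).1 1 0 = (g * dMat v).1 1 0 := by
    rw [mul_10, dMat_00, dMat_10, mul_zero, add_zero, mul_comm, hy]
    show Int.castRingHom A (γ.1 1 0) = _
    rw [hγ1]; rfl
  obtain ⟨t, ht⟩ := exists_uMat_of_col_eq c0 c1
  have e : g = SpecialLinearGroup.map (Int.castRingHom A) γ * uMat t * (dMat v)⁻¹ := by
    rw [← ht]; group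
  rw [e]
  exact (E2 A).mul_mem ((E2 A).mul_mem (map_int_mem_E2 γ) (uMat_mem_E2 t))
    ((E2 A).inv_mem (dMat_mem_E2 v))

include q in
/-- **[A-GEN]** in the shape of the hypothesis `hgen` of `comm_mem_El_of_forall_uMat`. -/
theorem sl2_closure_elementary :
    Subgroup.closure ({g | ∃ t : A, g = uMat t} ∪ {g | ∃ t : A, g = lMat t})
      = (⊤ : Subgroup (SpecialLinearGroup (Fin 2) A)) :=
  E2_eq_top q A

variable {A}

include q in
/-- Centrality of `Gam I / El I` in `SL₂(ℤ[1/q]) / El I` from the triviality of the conjugation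
action of the upper unipotent matrices. -/
theorem comm_mem_El_of_forall_uMat_away {I : Ideal A} (hu : ∀ t : A, uMat t ∈ Cent I)
    (γ : SpecialLinearGroup (Fin 2) A) {g : SpecialLinearGroup (Fin 2) A} (hg : g ∈ Gam I) :
    γ * g * γ⁻¹ * g⁻¹ ∈ El I :=
  comm_mem_El_of_forall_uMat (sl2_closure_elementary q A) hu γ hg

end away

end Fermat.Agent.P6.helper31
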