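import Mathlib

/-!
# P6 / S41, module IHARA, sub-team "Theorem A" (helper60, sub-coordinator): interface

Ihara's lemma in Eisenstein form WITHOUT the congruence subgroup property (findings #1752, #1768).

`A = ℤ[1/q]` is ANY commutative ring with `[IsLocalization.Away (q : ℤ) A]` (e.g.
`Localization.Away (q : ℤ)`); the group is `SL(2, A) = Matrix.SpecialLinearGroup (Fin 2) A`.

Definitions (any commutative ring `R`, any ideal `I`):

* `uMat t`, `lMat t`, `wMat`, `dMat v` : `[[1,t],[0,1]]`, `[[1,0],[t,1]]`, `[[0,1],[-1,0]]`,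
  `diag(v, v⁻¹)`;
* `Gam I` : the principal congruence subgroup `ker (SL₂(R) → SL₂(R/I))`;
* `El I`  : the normal closure in `SL₂(R)` of `{uMat t | t ∈ I}`.

Statements (each one is a row of the task board):

* `TorusStatement`      [A-ID] : `dMat v ∈ El I` for units `v ≡ 1 mod I`;
* `FirstRowStatement`   [A-ID] : an element of `Gam I` whose upper left entry is a unit is in `El I`;
* `KeyStatement`        [A-ID] : the unit trick: `l(-t) M l(t) M⁻¹ ∈ El I` if `1 + t b d` is a unit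
                                 (`(b, d)` the second column of `M ∈ Gam I`);
* `GenStatement`        [A-GEN]: `SL₂(ℤ[1/q])` is generated by the `uMat t`, `lMat t`;
* `NTStatement`         [A-NT] : the number theory (Dirichlet + orders);
* `CentralityStatement` [A-ASM]: **Theorem A**: `[SL₂(ℤ[1/q]), Gam (m)] ⊆ El (m)`, all `m` prime
                                 to `q`;
* `TransferStatement`   [C-CORE]: the abstract homomorphism `θ` of Corollary C.

DEFINITIONS ONLY (plus membership lemmas).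
-/

set_option autoImplicit false

open scoped MatrixGroups

namespace Fermat.Agent.P6.helper60

section Defs

variable {R : Type*} [CommRing R]

/-- `u(t) = [[1,t],[0,1]]` -/
def uMat (t : R) : SL(2, R) := ⟨!![1, t; 0, 1], by simp [Matrix.det_fin_two_of]⟩

/-- `l(t) = [[1,0],[t,1]]` -/
def lMat (t : R) : SL(2, R) := ⟨!![1, 0; t, 1], by simp [Matrix.det_fin_two_of]⟩

/-- `w = [[0,1],[-1,0]]` -/
def wMat : SL(2, R) := ⟨!![0, 1; -1, 0], by simp [Matrix.det_fin_two_of]⟩

/-- `h(v) = diag(v, v⁻¹)` -/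
def dMat (v : Rˣ) : SL(2, R) :=
  ⟨!![(v : R), 0; 0, ((v⁻¹ : Rˣ) : R)], by simp [Matrix.det_fin_two_of]⟩

@[simp] lemma uMat_coe (t : R) : ((uMat t : SL(2, R)) : Matrix (Fin 2) (Fin 2) R) =
    !![1, t; 0, 1] := rfl

@[simp] lemma lMat_coe (t : R) : ((lMat t : SL(2, R)) : Matrix (Fin 2) (Fin 2) R) =
    !![1, 0; t, 1] := rfl

@[simp] lemma wMat_coe : ((wMat : SL(2, R)) : Matrix (Fin 2) (Fin 2) R) = !![0, 1; -1, 0] := rfl

@[simp] lemma dMat_coe (v : Rˣ) : ((dMat v : SL(2, R)) : Matrix (Fin 2) (Fin 2) R) =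
    !![(v : R), 0; 0, ((v⁻¹ : Rˣ) : R)] := rfl

/-- the principal congruence subgroup of level `I` -/
def Gam (I : Ideal R) : Subgroup SL(2, R) :=
  (Matrix.SpecialLinearGroup.map (Ideal.Quotient.mk I)).ker

/-- the normal closure of the elementary matrices `u(t)`, `t ∈ I` -/
def El (I : Ideal R) : Subgroup SL(2, R) :=
  Subgroup.normalClosure {g | ∃ t ∈ I, g = uMat t}

instance El_normal (I : Ideal R) : (El I).Normal := Subgroup.normalClosure_normal

instance Gam_normal (I : Ideal R) : (Gam I).Normal := MonoidHom.normal_ker _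

lemma uMat_mem_El {I : Ideal R} {t : R} (ht : t ∈ I) : uMat t ∈ El I :=
  Subgroup.subset_normalClosure ⟨t, ht, rfl⟩

end Defs

/-! ## [A-ID]: identities over an arbitrary commutative ring -/

/-- **[A-ID] (A1)**: `diag(v, v⁻¹) ∈ E(I)` for every unit `v ≡ 1 mod I`. -/
def TorusStatement : Prop :=
  ∀ (R : Type) [CommRing R] (I : Ideal R) (v : Rˣ), (v : R) - 1 ∈ I → dMat v ∈ El I

/-- **[A-ID] (A2)**: an element of `Γ(I)` whose upper left entry is a unit lies in `E(I)`. -/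
def FirstRowStatement : Prop :=
  ∀ (R : Type) [CommRing R] (I : Ideal R) (Y : SL(2, R)), Y ∈ Gam I → IsUnit (Y 0 0) → Y ∈ El I

/-- **[A-ID] (A3)**, the unit trick: if `M ∈ Γ(I)` has second column `(b, d)` and `1 + t b d` is a
unit, then `l(t)` commutes with `M` modulo `E(I)`. -/
def KeyStatement : Prop :=
  ∀ (R : Type) [CommRing R] (I : Ideal R) (M : SL(2, R)), M ∈ Gam I → ∀ t : R,
    IsUnit (1 + t * M 0 1 * M 1 1) → lMat (-t) * M * lMat t * M⁻¹ ∈ El I

/-! ## [A-GEN], [A-NT], [A-ASM]: `A = ℤ[1/q]` -/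

/-- **[A-GEN]**: `SL₂(ℤ[1/q])` is generated by elementary matrices. -/
def GenStatement : Prop :=
  ∀ (q : ℕ) (A : Type) [CommRing A] [IsLocalization.Away (q : ℤ) A], q.Prime →
    Subgroup.closure ({g : SL(2, A) | ∃ t, g = uMat t} ∪ {g : SL(2, A) | ∃ t, g = lMat t}) = ⊤

/-- **[A-NT]** (Dirichlet + orders of `q`): for a unimodular column `(b, d) ≡ (0, 1) mod m` over
`ℤ[1/q]` and a prime `r ∣ m` there are `s₁, s₂ ∈ m A` and `t ∉ r A` such that, for the column
`(b₁, d₁) = (b + s₁ d, d + s₂ b₁)`, `1 + t b₁ d₁` is a unit. -/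
def NTStatement : Prop :=
  ∀ (q : ℕ) (A : Type) [CommRing A] [IsLocalization.Away (q : ℤ) A] (m r : ℕ),
    q.Prime → 0 < m → Nat.Coprime m q → r.Prime → r ∣ m →
    ∀ b d : A, b ∈ Ideal.span {(m : A)} → d - 1 ∈ Ideal.span {(m : A)} →
      (∃ x y : A, x * b + y * d = 1) →
      ∃ s₁ s₂ t : A, s₁ ∈ Ideal.span {(m : A)} ∧ s₂ ∈ Ideal.span {(m : A)} ∧
        IsUnit (1 + t * (b + s₁ * d) * (d + s₂ * (b + s₁ * d))) ∧
        t ∉ Ideal.span {(r : A)}

/-- **Theorem A** (centrality): for every `m` prime to `q`, the congruence kernel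
`Γ(m)/E(m)` of `SL₂(ℤ[1/q])` is central in `SL₂(ℤ[1/q])/E(m)`. -/
def CentralityStatement : Prop :=
  ∀ (q : ℕ) (A : Type) [CommRing A] [IsLocalization.Away (q : ℤ) A] (m : ℕ),
    q.Prime → 0 < m → Nat.Coprime m q →
    ∀ g γ : SL(2, A), γ ∈ Gam (Ideal.span {(m : A)}) →
      g * γ * g⁻¹ * γ⁻¹ ∈ El (Ideal.span {(m : A)})

/-! ## [C-CORE]: the abstract transfer homomorphism of Corollary C -/

/-- **[C-CORE]**: `G` a group, `D ≤ G`, `K ≤ D` normal in `G`, `φ : D → F` a homomorphism whose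
restriction to `K` is invariant under conjugation by `G`; a "coset system" `(s, t)` on a finite set
`ι` with `t i (g h) = t i g * t (s g i) h`, `s (g h) = s h ∘ s g`, and elements `a i ∈ D` with
`(a i g (a (s g i))⁻¹)⁻¹ t i g ∈ K`, `t i D ⊆ D`.  Then there is a homomorphism `θ : G → F` with
`θ δ = ∑ i, φ (t i δ) - |ι| φ δ` for `δ ∈ D`. -/
def TransferStatement : Prop :=
  ∀ (G : Type) [Group G] (D K : Subgroup G) (F : Type) [AddCommGroup F]
    (φ : Additive ↥D →+ F) (ι : Type) [Fintype ι] (s : G → Equiv.Perm ι) (t : ι → G → G)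
    (a : ι → G),
    K ≤ D → K.Normal →
    (∀ (g : G) (k : ↥D) (k' : ↥D), (k : G) ∈ K → (k' : G) = g * (k : G) * g⁻¹ →
      φ (Additive.ofMul k') = φ (Additive.ofMul k)) →
    (∀ i, a i ∈ D) →
    (∀ i g h, t i (g * h) = t i g * t (s g i) h) →
    (∀ g h i, s (g * h) i = s h (s g i)) →
    (∀ i g, (a i * g * (a (s g i))⁻¹)⁻¹ * t i g ∈ K) →
    (∀ i, ∀ δ ∈ D, t i δ ∈ D) →
    ∃ θ : Additive G →+ F, ∀ (δ : ↥D) (τ : ι → ↥D), (∀ i, (τ i : G) = t i (δ : G)) →
      θ (Additive.ofMul (δ : G)) =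
        ∑ i, φ (Additive.ofMul (τ i)) - Fintype.card ι • φ (Additive.ofMul δ)

end Fermat.Agent.P6.helper60
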