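import Mathlib

/-!
# P6 / S41, step (I2): the unit trick for `SL₂` of a commutative ring (helper31)

Vocabulary-free core of Theorem A of findings #1752 (helper60), audited in #1757 (helper31).

For a commutative ring `R` and an ideal `I`:

* `uMat t`, `lMat t`, `dMat v` : the elementary matrices `[[1,t],[0,1]]`, `[[1,0],[t,1]]` and the
  diagonal matrix `diag (v, v⁻¹)` of `SL₂(R)`;
* `Gam I` : the principal congruence subgroup `ker (SL₂(R) → SL₂(R ⧸ I))`;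
* `El I` : the normal closure in `SL₂(R)` of the `uMat t`, `t ∈ I`;
* `lMat_mem_El`, `dMat_mem_El` (F2): `lMat t ∈ El I` for `t ∈ I`, `dMat v ∈ El I` for units
  `v ≡ 1 mod I`;
* `mem_mul_El_of_col_eq` : two elements of `Gam I` with the same first column are congruent
  modulo `El I`;
* `conj_uMat_mem_El` (the abstract unit trick): if `g ∈ Gam I` has first column `(a, c)` and
  `v` is a unit, `v ≡ 1 mod I`, with `v² a = a + t c + s c` for some `s ∈ I`, then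
  `uMat t * g * (uMat t)⁻¹ * g⁻¹ ∈ El I`.
-/

set_option autoImplicit false

namespace Fermat.Agent.P6.helper31

open Matrix

variable {R : Type*} [CommRing R]

/-- `[[1, t], [0, 1]]`. -/
def uMat (t : R) : SpecialLinearGroup (Fin 2) R :=
  ⟨!![1, t; 0, 1], by simp [Matrix.det_fin_two]⟩

/-- `[[1, 0], [t, 1]]`. -/
def lMat (t : R) : SpecialLinearGroup (Fin 2) R :=
  ⟨!![1, 0; t, 1], by simp [Matrix.det_fin_two]⟩

/-- `diag (v, v⁻¹)`. -/
def dMat (v : Rˣ) : SpecialLinearGroup (Fin 2) R :=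
  ⟨!![(v : R), 0; 0, ((v⁻¹ : Rˣ) : R)], by simp [Matrix.det_fin_two]⟩

/-- `[[0, 1], [-1, 0]]`. -/
def wMat : SpecialLinearGroup (Fin 2) R :=
  ⟨!![0, 1; -1, 0], by simp [Matrix.det_fin_two]⟩

section entries

variable (g h : SpecialLinearGroup (Fin 2) R) (t : R) (v : Rˣ)

lemma mul_00 : (g * h).1 0 0 = g.1 0 0 * h.1 0 0 + g.1 0 1 * h.1 1 0 := by
  simp [SpecialLinearGroup.coe_mul, Matrix.mul_apply, Fin.sum_univ_two]
lemma mul_01 : (g * h).1 0 1 = g.1 0 0 * h.1 0 1 + g.1 0 1 * h.1 1 1 := by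
  simp [SpecialLinearGroup.coe_mul, Matrix.mul_apply, Fin.sum_univ_two]
lemma mul_10 : (g * h).1 1 0 = g.1 1 0 * h.1 0 0 + g.1 1 1 * h.1 1 0 := by
  simp [SpecialLinearGroup.coe_mul, Matrix.mul_apply, Fin.sum_univ_two]
lemma mul_11 : (g * h).1 1 1 = g.1 1 0 * h.1 0 1 + g.1 1 1 * h.1 1 1 := by
  simp [SpecialLinearGroup.coe_mul, Matrix.mul_apply, Fin.sum_univ_two]

lemma uMat_00 : (uMat t).1 0 0 = 1 := rfl
lemma uMat_01 : (uMat t).1 0 1 = t := rfl
lemma uMat_10 : (uMat t).1 1 0 = 0 := rfl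
lemma uMat_11 : (uMat t).1 1 1 = 1 := rfl
lemma lMat_00 : (lMat t).1 0 0 = 1 := rfl
lemma lMat_01 : (lMat t).1 0 1 = 0 := rfl
lemma lMat_10 : (lMat t).1 1 0 = t := rfl
lemma lMat_11 : (lMat t).1 1 1 = 1 := rfl
lemma dMat_00 : (dMat v).1 0 0 = (v : R) := rfl
lemma dMat_01 : (dMat v).1 0 1 = 0 := rfl
lemma dMat_10 : (dMat v).1 1 0 = 0 := rfl
lemma dMat_11 : (dMat v).1 1 1 = ((v⁻¹ : Rˣ) : R) := rfl
lemma wMat_00 : (wMat : SpecialLinearGroup (Fin 2) R).1 0 0 = 0 := rfl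
lemma wMat_01 : (wMat : SpecialLinearGroup (Fin 2) R).1 0 1 = 1 := rfl
lemma wMat_10 : (wMat : SpecialLinearGroup (Fin 2) R).1 1 0 = -1 := rfl
lemma wMat_11 : (wMat : SpecialLinearGroup (Fin 2) R).1 1 1 = 0 := rfl
lemma one_00 : (1 : SpecialLinearGroup (Fin 2) R).1 0 0 = 1 := by simp
lemma one_01 : (1 : SpecialLinearGroup (Fin 2) R).1 0 1 = 0 := by simp
lemma one_10 : (1 : SpecialLinearGroup (Fin 2) R).1 1 0 = 0 := by simp
lemma one_11 : (1 : SpecialLinearGroup (Fin 2) R).1 1 1 = 1 := by simp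

end entries

/-- Extensionality for `SL₂` by the four entries. -/
lemma sl2_ext {g h : SpecialLinearGroup (Fin 2) R} (h00 : g.1 0 0 = h.1 0 0)
    (h01 : g.1 0 1 = h.1 0 1) (h10 : g.1 1 0 = h.1 1 0) (h11 : g.1 1 1 = h.1 1 1) : g = h := by
  apply Matrix.SpecialLinearGroup.ext
  intro i j
  fin_cases i <;> fin_cases j <;> assumption

lemma sl2_det (g : SpecialLinearGroup (Fin 2) R) :
    g.1 0 0 * g.1 1 1 - g.1 0 1 * g.1 1 0 = 1 := by
  have := g.det_coe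
  rwa [Matrix.det_fin_two] at this

lemma uMat_add (s t : R) : uMat (s + t) = uMat s * uMat t := by
  apply sl2_ext <;>
    simp only [mul_00, mul_01, mul_10, mul_11, uMat_00, uMat_01, uMat_10, uMat_11] <;> ring

lemma uMat_zero : uMat (0 : R) = 1 := by
  apply sl2_ext <;>
    simp only [one_00, one_01, one_10, one_11, uMat_00, uMat_01, uMat_10, uMat_11]

lemma uMat_neg (t : R) : uMat (-t) = (uMat t)⁻¹ := by
  rw [eq_inv_iff_mul_eq_one, ← uMat_add, neg_add_cancel, uMat_zero]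

lemma lMat_eq_conj (t : R) : lMat t = wMat * uMat (-t) * wMat⁻¹ := by
  rw [eq_mul_inv_iff_mul_eq]
  apply sl2_ext <;>
    simp only [mul_00, mul_01, mul_10, mul_11, uMat_00, uMat_01, uMat_10, uMat_11, lMat_00,
      lMat_01, lMat_10, lMat_11, wMat_00, wMat_01, wMat_10, wMat_11] <;> ring

/-- `D(v) = l(v⁻¹ - 1) u(1) l(v - 1) u(-v⁻¹)`. -/
lemma dMat_eq (v : Rˣ) :
    dMat v = lMat (((v⁻¹ : Rˣ) : R) - 1) * uMat 1 * lMat ((v : R) - 1)
      * uMat (-((v⁻¹ : Rˣ) : R)) := by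
  have h1 : (v : R) * ((v⁻¹ : Rˣ) : R) = 1 := by simp
  apply sl2_ext <;>
    simp only [mul_00, mul_01, mul_10, mul_11, uMat_00, uMat_01, uMat_10, uMat_11, lMat_00,
      lMat_01, lMat_10, lMat_11, dMat_00, dMat_01, dMat_10, dMat_11]
  · ring
  · linear_combination h1
  · linear_combination (-1 : R) * h1
  · linear_combination ((v⁻¹ : Rˣ) : R) * h1

variable (I : Ideal R)

/-- The principal congruence subgroup of level `I`. -/
def Gam : Subgroup (SpecialLinearGroup (Fin 2) R) :=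
  (SpecialLinearGroup.map (Ideal.Quotient.mk I)).ker

/-- The normal closure of the upper unipotent matrices of level `I`. -/
def El : Subgroup (SpecialLinearGroup (Fin 2) R) :=
  Subgroup.normalClosure {g | ∃ t ∈ I, g = uMat t}

instance Gam_normal : (Gam I).Normal := by
  unfold Gam; infer_instance

instance El_normal : (El I).Normal := by
  unfold El; infer_instance

variable {I}

lemma mem_Gam_iff {g : SpecialLinearGroup (Fin 2) R} :
    g ∈ Gam I ↔ g.1 0 0 - 1 ∈ I ∧ g.1 0 1 ∈ I ∧ g.1 1 0 ∈ I ∧ g.1 1 1 - 1 ∈ I := by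
  unfold Gam
  rw [MonoidHom.mem_ker]
  have key : ∀ i j, (SpecialLinearGroup.map (Ideal.Quotient.mk I) g).1 i j
      = Ideal.Quotient.mk I (g.1 i j) := fun i j => rfl
  constructor
  · intro h
    have e00 := key 0 0
    have e01 := key 0 1
    have e10 := key 1 0
    have e11 := key 1 1
    rw [h] at e00 e01 e10 e11
    rw [one_00] at e00
    rw [one_01] at e01
    rw [one_10] at e10
    rw [one_11] at e11
    refine ⟨?_, ?_, ?_, ?_⟩
    · rw [← Ideal.Quotient.eq_zero_iff_mem, map_sub, ← e00, map_one, sub_self]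
    · rw [← Ideal.Quotient.eq_zero_iff_mem, ← e01]
    · rw [← Ideal.Quotient.eq_zero_iff_mem, ← e10]
    · rw [← Ideal.Quotient.eq_zero_iff_mem, map_sub, ← e11, map_one, sub_self]
  · rintro ⟨h00, h01, h10, h11⟩
    rw [← Ideal.Quotient.eq_zero_iff_mem, map_sub, map_one, sub_eq_zero] at h00 h11
    rw [← Ideal.Quotient.eq_zero_iff_mem] at h01 h10
    apply sl2_ext
    · rw [key, one_00, h00]
    · rw [key, one_01, h01]
    · rw [key, one_10, h10]
    · rw [key, one_11, h11]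

lemma uMat_mem_El {t : R} (ht : t ∈ I) : uMat t ∈ El I :=
  Subgroup.subset_normalClosure ⟨t, ht, rfl⟩

lemma uMat_mem_Gam_iff {t : R} : uMat t ∈ Gam I ↔ t ∈ I := by
  rw [mem_Gam_iff, uMat_00, uMat_01, uMat_10, uMat_11]
  simp

lemma El_le_Gam : El I ≤ Gam I := by
  unfold El
  apply Subgroup.normalClosure_le_normal
  rintro g ⟨t, ht, rfl⟩
  exact uMat_mem_Gam_iff.2 ht

lemma lMat_mem_El {t : R} (ht : t ∈ I) : lMat t ∈ El I := by
  rw [lMat_eq_conj]
  exact (El_normal I).conj_mem _ (uMat_mem_El (I.neg_mem ht)) _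

/-- (F2) `D(v) ∈ El I` for units `v ≡ 1 mod I`. -/
lemma dMat_mem_El {v : Rˣ} (hv : (v : R) - 1 ∈ I) : dMat v ∈ El I := by
  have hv' : ((v⁻¹ : Rˣ) : R) - 1 ∈ I := by
    have : ((v⁻¹ : Rˣ) : R) - 1 = -(((v⁻¹ : Rˣ) : R) * ((v : R) - 1)) := by
      have h2 : ((v⁻¹ : Rˣ) : R) * (v : R) = 1 := by simp
      linear_combination h2
    rw [this]
    exact I.neg_mem (I.mul_mem_left _ hv)
  rw [dMat_eq]
  have e : lMat (((v⁻¹ : Rˣ) : R) - 1) * uMat 1 * lMat ((v : R) - 1) * uMat (-((v⁻¹ : Rˣ) : R))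
      = lMat (((v⁻¹ : Rˣ) : R) - 1) * (uMat 1 * lMat ((v : R) - 1) * (uMat 1)⁻¹)
        * uMat (1 - ((v⁻¹ : Rˣ) : R)) := by
    rw [sub_eq_add_neg (1 : R), uMat_add]
    group
  rw [e]
  refine (El I).mul_mem ((El I).mul_mem (lMat_mem_El hv') ?_) (uMat_mem_El ?_)
  · exact (El_normal I).conj_mem _ (lMat_mem_El hv) _
  · have : (1 : R) - ((v⁻¹ : Rˣ) : R) = -(((v⁻¹ : Rˣ) : R) - 1) := by ring
    rw [this]
    exact I.neg_mem hv'

/-- Two elements of `SL₂(R)` with the same first column differ by an upper unipotent matrix. -/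
lemma exists_uMat_of_col_eq {g h : SpecialLinearGroup (Fin 2) R} (h0 : g.1 0 0 = h.1 0 0)
    (h1 : g.1 1 0 = h.1 1 0) : ∃ t : R, h = g * uMat t := by
  refine ⟨g.1 1 1 * h.1 0 1 - g.1 0 1 * h.1 1 1, ?_⟩
  have dg := sl2_det g
  have dh := sl2_det h
  rw [← h0, ← h1] at dh
  apply sl2_ext <;>
    simp only [mul_00, mul_01, mul_10, mul_11, uMat_00, uMat_01, uMat_10, uMat_11]
  · rw [h0]; ring
  · linear_combination (-(h.1 0 1)) * dg + (g.1 0 1) * dh
  · rw [h1]; ring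
  · linear_combination (-(h.1 1 1)) * dg + (g.1 1 1) * dh

/-- Two elements of `Gam I` with the same first column are congruent modulo `El I`. -/
lemma mem_mul_El_of_col_eq {g h : SpecialLinearGroup (Fin 2) R} (hg : g ∈ Gam I)
    (hh : h ∈ Gam I) (h0 : g.1 0 0 = h.1 0 0) (h1 : g.1 1 0 = h.1 1 0) : g⁻¹ * h ∈ El I := by
  obtain ⟨t, rfl⟩ := exists_uMat_of_col_eq h0 h1
  have : uMat t ∈ Gam I := by
    have := (Gam I).mul_mem ((Gam I).inv_mem hg) hh
    simpa [← mul_assoc] using this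
  rw [uMat_mem_Gam_iff] at this
  simpa [← mul_assoc] using uMat_mem_El this

/-- **The abstract unit trick.**  Let `g ∈ Gam I` have first column `(a, c)`, let `v` be a unit
with `v ≡ 1 mod I` and `v² a = a + t c + s c` for some `s ∈ I`.  Then conjugation by `uMat t`
fixes the class of `g` modulo `El I`. -/
theorem conj_uMat_mem_El {g : SpecialLinearGroup (Fin 2) R} (hg : g ∈ Gam I) (t : R) (v : Rˣ)
    (hv : (v : R) - 1 ∈ I) (s : R) (hs : s ∈ I)
    (h : (v : R) ^ 2 * g.1 0 0 = g.1 0 0 + t * g.1 1 0 + s * g.1 1 0) :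
    uMat t * g * (uMat t)⁻¹ * g⁻¹ ∈ El I := by
  have hD := dMat_mem_El hv
  -- `g₁ = u(-s) D(v) g D(v)` is congruent to `g` and has first column `(a + t c, c)`
  set g₁ : SpecialLinearGroup (Fin 2) R := uMat (-s) * dMat v * g * dMat v with hg₁
  have hg₁E : g⁻¹ * g₁ ∈ El I := by
    have e : g⁻¹ * g₁ = (g⁻¹ * (uMat (-s) * dMat v) * g⁻¹⁻¹) * dMat v := by
      rw [hg₁]; group
    rw [e]
    exact (El I).mul_mem
      ((El_normal I).conj_mem _ ((El I).mul_mem (uMat_mem_El (I.neg_mem hs)) hD) g⁻¹) hD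
  have hg₁G : g₁ ∈ Gam I := by
    have : g₁ = g * (g⁻¹ * g₁) := by group
    rw [this]
    exact (Gam I).mul_mem hg (El_le_Gam hg₁E)
  set g₂ : SpecialLinearGroup (Fin 2) R := uMat t * g * (uMat t)⁻¹ with hg₂
  have hg₂G : g₂ ∈ Gam I := (Gam_normal I).conj_mem _ hg _
  have hvv : (v : R) * ((v⁻¹ : Rˣ) : R) = 1 := by simp
  have c0 : g₁.1 0 0 = g₂.1 0 0 := by
    rw [hg₁, hg₂, ← uMat_neg]
    simp only [mul_00, mul_01, mul_10, mul_11, uMat_00, uMat_01, uMat_10, uMat_11, dMat_00,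
      dMat_01, dMat_10, dMat_11]
    linear_combination h + (-s * g.1 1 0) * hvv
  have c1 : g₁.1 1 0 = g₂.1 1 0 := by
    rw [hg₁, hg₂, ← uMat_neg]
    simp only [mul_00, mul_01, mul_10, mul_11, uMat_00, uMat_01, uMat_10, uMat_11, dMat_00,
      dMat_01, dMat_10, dMat_11]
    linear_combination (g.1 1 0) * hvv
  have h12 := mem_mul_El_of_col_eq hg₁G hg₂G c0 c1
  -- `g₂ g⁻¹ = g (g⁻¹ g₁) (g₁⁻¹ g₂) g⁻¹`
  have e : uMat t * g * (uMat t)⁻¹ * g⁻¹ = g * ((g⁻¹ * g₁) * (g₁⁻¹ * g₂)) * g⁻¹ := by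
    rw [hg₂]; group
  rw [e]
  exact (El_normal I).conj_mem _ ((El I).mul_mem hg₁E h12) _

/-- Conjugation by `lMat t` fixes the classes modulo `El I` as soon as conjugation by
`uMat (-t)` fixes the classes of all elements of `Gam I`. -/
theorem conj_lMat_mem_El (t : R)
    (hu : ∀ g ∈ Gam I, uMat (-t) * g * (uMat (-t))⁻¹ * g⁻¹ ∈ El I)
    {g : SpecialLinearGroup (Fin 2) R} (hg : g ∈ Gam I) :
    lMat t * g * (lMat t)⁻¹ * g⁻¹ ∈ El I := by
  have hg' : wMat⁻¹ * g * wMat⁻¹⁻¹ ∈ Gam I := (Gam_normal I).conj_mem _ hg _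
  have := (El_normal I).conj_mem _ (hu _ hg') wMat
  have e : wMat * (uMat (-t) * (wMat⁻¹ * g * wMat⁻¹⁻¹) * (uMat (-t))⁻¹
      * (wMat⁻¹ * g * wMat⁻¹⁻¹)⁻¹) * wMat⁻¹ = lMat t * g * (lMat t)⁻¹ * g⁻¹ := by
    rw [lMat_eq_conj]; group
  rwa [e] at this

/-- The property "`γ` fixes the class of `g` modulo `El I`" depends only on the class of `g`. -/
lemma comm_mem_El_of_mul_mem (γ : SpecialLinearGroup (Fin 2) R)
    {g g' : SpecialLinearGroup (Fin 2) R} (h : g⁻¹ * g' ∈ El I)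
    (hg : γ * g * γ⁻¹ * g⁻¹ ∈ El I) : γ * g' * γ⁻¹ * g'⁻¹ ∈ El I := by
  have e : γ * g' * γ⁻¹ * g'⁻¹
      = (γ * g * γ⁻¹ * g⁻¹) * (g * (γ * (g⁻¹ * g') * γ⁻¹) * g⁻¹) * (g' * (g⁻¹ * g')⁻¹ * g'⁻¹) := by
    group
  rw [e]
  refine (El I).mul_mem ((El I).mul_mem hg ?_) ?_
  · exact (El_normal I).conj_mem _ ((El_normal I).conj_mem _ h γ) g
  · exact (El_normal I).conj_mem _ ((El I).inv_mem h) g'

variable (I)

/-- The subgroup of the `γ ∈ SL₂(R)` acting trivially (by conjugation) on `Gam I / El I`. -/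
def Cent : Subgroup (SpecialLinearGroup (Fin 2) R) where
  carrier := {γ | ∀ g ∈ Gam I, γ * g * γ⁻¹ * g⁻¹ ∈ El I}
  one_mem' := by
    intro g _
    simp
  mul_mem' := by
    intro γ δ hγ hδ g hg
    have h1 := hδ g hg
    have h2 := hγ (δ * g * δ⁻¹) ((Gam_normal I).conj_mem _ hg _)
    have e : γ * δ * g * (γ * δ)⁻¹ * g⁻¹
        = (γ * (δ * g * δ⁻¹) * γ⁻¹ * (δ * g * δ⁻¹)⁻¹) * (δ * g * δ⁻¹ * g⁻¹) := by
      group
    rw [e]
    exact (El I).mul_mem h2 h1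
  inv_mem' := by
    intro γ hγ g hg
    have h1 := hγ (γ⁻¹ * g * γ⁻¹⁻¹) ((Gam_normal I).conj_mem _ hg _)
    have h2 := (El I).inv_mem h1
    have e : γ⁻¹ * g * γ⁻¹⁻¹ * g⁻¹
        = (γ * (γ⁻¹ * g * γ⁻¹⁻¹) * γ⁻¹ * (γ⁻¹ * g * γ⁻¹⁻¹)⁻¹)⁻¹ := by
      group
    rw [e]
    exact h2

variable {I}

lemma mem_Cent_iff {γ : SpecialLinearGroup (Fin 2) R} :
    γ ∈ Cent I ↔ ∀ g ∈ Gam I, γ * g * γ⁻¹ * g⁻¹ ∈ El I := Iff.rfl

lemma Gam_le_Cent_of_comm (h : ∀ g ∈ Gam I, ∀ g' ∈ Gam I, g * g' * g⁻¹ * g'⁻¹ ∈ El I) :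
    Gam I ≤ Cent I := fun g hg g' hg' => h g hg g' hg'

/-- If conjugation by every `uMat t` fixes all classes of `Gam I` modulo `El I`, then so does
conjugation by every `lMat t`. -/
lemma lMat_mem_Cent (hu : ∀ t : R, uMat t ∈ Cent I) (t : R) : lMat t ∈ Cent I :=
  fun _ hg => conj_lMat_mem_El t (fun g' hg' => hu (-t) g' hg') hg

/-- **Centrality from the elementary generators**: if `SL₂(R)` is generated by the elementary
matrices and every `uMat t` acts trivially on `Gam I / El I`, then `Gam I / El I` is central in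
`SL₂(R) / El I`. -/
theorem comm_mem_El_of_forall_uMat
    (hgen : Subgroup.closure ({g | ∃ t : R, g = uMat t} ∪ {g | ∃ t : R, g = lMat t})
      = (⊤ : Subgroup (SpecialLinearGroup (Fin 2) R)))
    (hu : ∀ t : R, uMat t ∈ Cent I) (γ : SpecialLinearGroup (Fin 2) R)
    {g : SpecialLinearGroup (Fin 2) R} (hg : g ∈ Gam I) : γ * g * γ⁻¹ * g⁻¹ ∈ El I := by
  have hle : Subgroup.closure ({g | ∃ t : R, g = uMat t} ∪ {g | ∃ t : R, g = lMat t})
      ≤ Cent I := by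
    rw [Subgroup.closure_le]
    rintro x (⟨t, rfl⟩ | ⟨t, rfl⟩)
    · exact hu t
    · exact lMat_mem_Cent hu t
  have : γ ∈ Cent I := hle (by rw [hgen]; trivial)
  exact this g hg

end Fermat.Agent.P6.helper31
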