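import Mathlib
import Fermat.Agent.P6.helper31_UnitTrick

/-!
# P6 / S41, Theorem A (centrality), interface file (helper73)

Theorem A of finding #1768: for `A = ℤ[1/q]` and `m` prime to `q`, the commutator
`[SL₂(A), Γ(m)]` is contained in `E(m)`, the normal closure of the `u(t)`, `t ∈ mA`.

This file fixes the shape of the only arithmetic input, `ANTStatement q m` (Dirichlet's theorem on
primes in arithmetic progressions + orders of `q` modulo primes), and of the final statement
`CentralityStatement`.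
-/

set_option autoImplicit false

namespace Fermat.Agent.P6.helper73

open Matrix Fermat.Agent.P6.helper31

/-- **[A-NT]** the arithmetic input of Theorem A.  Given a prime `r ∣ m` and integers `a`, `γ`
with `a` prime to `γ` and to `m`, the pair `(a, m γ)` can be moved by the two elementary moves
`γ ↦ γ + s₁ a` and `a ↦ a + m s₂ c₁` (`c₁ = m (γ + s₁ a)`) to a pair `(a₁, c₁)` with
`a₁ c₁ τ = q ^ n - 1`, `r ∤ τ`. -/
def ANTStatement (q m : ℕ) : Prop :=
  ∀ r : ℕ, r.Prime → r ∣ m → ∀ a γ : ℤ, IsCoprime a γ → IsCoprime a (m : ℤ) →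
    ∃ s₁ s₂ τ : ℤ, ∃ n : ℕ, 0 < n ∧
      (a + (m : ℤ) * s₂ * ((m : ℤ) * (γ + s₁ * a))) * ((m : ℤ) * (γ + s₁ * a)) * τ
        = (q : ℤ) ^ n - 1 ∧ ¬ (r : ℤ) ∣ τ

/-- **[A-GEN]** `SL₂(A)` is generated by the elementary matrices. -/
def GenStatement (A : Type*) [CommRing A] : Prop :=
  Subgroup.closure ({g | ∃ t : A, g = uMat t} ∪ {g | ∃ t : A, g = lMat t})
    = (⊤ : Subgroup (SpecialLinearGroup (Fin 2) A))

/-- **Theorem A** (centrality of `Γ(m) / E(m)` in `SL₂(A) / E(m)`). -/
def CentralityStatement (A : Type*) [CommRing A] (m : ℕ) : Prop :=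
  ∀ γ g : SpecialLinearGroup (Fin 2) A, g ∈ Gam (Ideal.span {(m : A)}) →
    γ * g * γ⁻¹ * g⁻¹ ∈ El (Ideal.span {(m : A)})

end Fermat.Agent.P6.helper73
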