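import Fermat.Agent.P6.helper31_ElemGen
import Fermat.Agent.P6.helper73_CentDefs
import Fermat.Agent.P6.helper60_IharaDefs

/-!
# P6 / S41: [A-GEN] and [A-ID] in the shapes of the two interface files (helper31)

* dictionary `helper60.uMat = helper31.uMat`, ..., `helper60.El = helper31.El` (all by `rfl`);
* `genStatement73 : helper73.GenStatement A` and `genStatement60 : helper60.GenStatement`;
* `torusStatement60 : helper60.TorusStatement`;
* `firstRowStatement60 : helper60.FirstRowStatement`;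
* `keyStatement60 : helper60.KeyStatement` (the unit trick in the first-row form of #1768 (A3)).
-/

set_option autoImplicit false

namespace Fermat.Agent.P6.helper31

open Matrix

section dictionary

variable {R : Type*} [CommRing R]

lemma uMat60 (t : R) : Fermat.Agent.P6.helper60.uMat t = uMat t := rfl
lemma lMat60 (t : R) : Fermat.Agent.P6.helper60.lMat t = lMat t := rfl
lemma wMat60 : (Fermat.Agent.P6.helper60.wMat : SpecialLinearGroup (Fin 2) R) = wMat := rfl
lemma dMat60 (v : Rˣ) : Fermat.Agent.P6.helper60.dMat v = dMat v := rfl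
lemma Gam60 (I : Ideal R) : Fermat.Agent.P6.helper60.Gam I = Gam I := rfl
lemma El60 (I : Ideal R) : Fermat.Agent.P6.helper60.El I = El I := rfl

end dictionary

/-- **[A-GEN]** in the shape of `helper73_CentDefs`. -/
theorem genStatement73 (q : ℤ) (A : Type*) [CommRing A] [Algebra ℤ A]
    [IsLocalization.Away q A] : Fermat.Agent.P6.helper73.GenStatement A :=
  sl2_closure_elementary q A

/-- **[A-GEN]** in the shape of `helper60_IharaDefs`. -/
theorem genStatement60 : Fermat.Agent.P6.helper60.GenStatement :=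
  fun q A _ _ _ => sl2_closure_elementary (q : ℤ) A

/-- **[A-ID] (A1)** in the shape of `helper60_IharaDefs`. -/
theorem torusStatement60 : Fermat.Agent.P6.helper60.TorusStatement :=
  fun _ _ _ _ hv => dMat_mem_El hv

section rows

variable {R : Type*} [CommRing R] {I : Ideal R}

lemma inv_00 (M : SpecialLinearGroup (Fin 2) R) : (M⁻¹).1 0 0 = M.1 1 1 := by
  rw [SpecialLinearGroup.SL2_inv_expl M]; rfl
lemma inv_01 (M : SpecialLinearGroup (Fin 2) R) : (M⁻¹).1 0 1 = -M.1 0 1 := by
  rw [SpecialLinearGroup.SL2_inv_expl M]; rfl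
lemma inv_10 (M : SpecialLinearGroup (Fin 2) R) : (M⁻¹).1 1 0 = -M.1 1 0 := by
  rw [SpecialLinearGroup.SL2_inv_expl M]; rfl
lemma inv_11 (M : SpecialLinearGroup (Fin 2) R) : (M⁻¹).1 1 1 = M.1 0 0 := by
  rw [SpecialLinearGroup.SL2_inv_expl M]; rfl

/-- An element of `Gam I` whose upper left entry is a unit lies in `El I`. -/
theorem mem_El_of_isUnit {Y : SpecialLinearGroup (Fin 2) R} (hY : Y ∈ Gam I)
    (hu : IsUnit (Y.1 0 0)) : Y ∈ El I := by
  obtain ⟨h00, -, h10, -⟩ := mem_Gam_iff.1 hY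
  set v : Rˣ := hu.unit with hv
  have hvc : (v : R) = Y.1 0 0 := hu.unit_spec
  have hv1 : (v : R) - 1 ∈ I := by rw [hvc]; exact h00
  have hs : Y.1 1 0 * ((v⁻¹ : Rˣ) : R) ∈ I := I.mul_mem_right _ h10
  set Z : SpecialLinearGroup (Fin 2) R := lMat (Y.1 1 0 * ((v⁻¹ : Rˣ) : R)) * dMat v with hZ
  have hZE : Z ∈ El I := (El I).mul_mem (lMat_mem_El hs) (dMat_mem_El hv1)
  have hvv : ((v⁻¹ : Rˣ) : R) * (v : R) = 1 := by simp
  have c0 : Z.1 0 0 = Y.1 0 0 := by
    rw [hZ]
    simp only [mul_00, lMat_00, lMat_01, dMat_00, dMat_10]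
    rw [hvc]; ring
  have c1 : Z.1 1 0 = Y.1 1 0 := by
    rw [hZ]
    simp only [mul_10, lMat_10, lMat_11, dMat_00, dMat_10]
    linear_combination (Y.1 1 0) * hvv
  have h := mem_mul_El_of_col_eq (El_le_Gam hZE) hY c0 c1
  have e : Y = Z * (Z⁻¹ * Y) := by group
  rw [e]
  exact (El I).mul_mem hZE h

/-- **The unit trick, first-row form** ((A3) of #1768): if `M ∈ Gam I` has second column `(b, d)`
and `1 + t b d` is a unit, then `l(t)` commutes with `M` modulo `El I`. -/
theorem lMat_comm_mem_El {M : SpecialLinearGroup (Fin 2) R} (hM : M ∈ Gam I) (t : R)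
    (hu : IsUnit (1 + t * M.1 0 1 * M.1 1 1)) : lMat (-t) * M * lMat t * M⁻¹ ∈ El I := by
  set X : SpecialLinearGroup (Fin 2) R := lMat (-t) * M * lMat t * M⁻¹ with hX
  have hXG : X ∈ Gam I := by
    have e : X = (lMat (-t) * M * (lMat (-t))⁻¹) * M⁻¹ := by
      have : lMat t = (lMat (-t))⁻¹ := by
        rw [eq_inv_iff_mul_eq_one]
        apply sl2_ext <;>
          simp only [mul_00, mul_01, mul_10, mul_11, lMat_00, lMat_01, lMat_10, lMat_11, one_00,
            one_01, one_10, one_11] <;> ring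
      rw [hX, this]
    rw [e]
    exact (Gam I).mul_mem ((Gam_normal I).conj_mem _ hM _) ((Gam I).inv_mem hM)
  apply mem_El_of_isUnit hXG
  have hdet := sl2_det M
  have hinv00 : (M⁻¹).1 0 0 = M.1 1 1 := inv_00 M
  have hinv10 : (M⁻¹).1 1 0 = -M.1 1 0 := inv_10 M
  have e00 : X.1 0 0 = 1 + t * M.1 0 1 * M.1 1 1 := by
    rw [hX]
    simp only [mul_00, mul_01, mul_10, mul_11, lMat_00, lMat_01, lMat_10, lMat_11, hinv00,
      hinv10]
    linear_combination hdet
  rw [e00]
  exact hu

end rows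

/-- **[A-ID] (A2)** in the shape of `helper60_IharaDefs`. -/
theorem firstRowStatement60 : Fermat.Agent.P6.helper60.FirstRowStatement :=
  fun _ _ _ _ hY hu => mem_El_of_isUnit hY hu

/-- **[A-ID] (A3)** in the shape of `helper60_IharaDefs`. -/
theorem keyStatement60 : Fermat.Agent.P6.helper60.KeyStatement :=
  fun _ _ _ _ hM t hu => lMat_comm_mem_El hM t hu

end Fermat.Agent.P6.helper31
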