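import Mathlib
import Fermat.Prelude.Def_EllipticCurve_FrobeniusTrace
import Fermat.Agent.Cheb.helper91_ChebWFinal
import Fermat.Agent.P3.helper98_FrobRoots

/-!
# P6 / S41, module (N), package [N-CHEB] (helper31)

If every Frobenius lift at every prime `ℓ ≡ 1 mod m` outside a finite set `Bad` fixes a non-zero
point of `E[n]`, then so does every `τ ∈ Gal(ℚ̄/ℚ)` fixing the `m`-th roots of unity.

* `coords P` : the (finite) set of affine coordinates of a point;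
* `smul_eq_of_eqOn_coords` : two automorphisms which agree on the coordinates of `P` send `P`
  to the same point;
* `fixRoots m` : the subgroup `G_{ℚ(ζ_m)}` of `G_ℚ` (automorphisms fixing all `m`-th roots of
  unity); it is normal and contains all commutators;
* `modEq_one_of_frobenius_fixes` : a Frobenius lift at `ℓ ∤ m` fixing a primitive `m`-th root
  of unity has `ℓ ≡ 1 [MOD m]`;
* `exists_fixed_of_frobenius` : **[N-CHEB]**.
-/

set_option autoImplicit false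
set_option linter.unusedSectionVars false
set_option linter.style.haveILetI false

open WeierstrassCurve WeierstrassCurve.Affine WeierstrassCurve.Affine.Point

namespace Fermat.Agent.P6.helper31

section Coords

variable {R : Type*} {S : Type*} {K : Type*} [CommRing R] [CommRing S] [Field K]
  [DecidableEq K] {W' : Affine R} [Algebra R S] [Algebra R K] [Algebra S K]
  [IsScalarTower R S K]

/-- The set of affine coordinates of a point (empty for the point at infinity). -/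
def coords : (W'⁄K).Point → Set K
  | .zero => ∅
  | .some x y _ => {x, y}

theorem coords_finite (P : (W'⁄K).Point) : (coords P).Finite := by
  cases P with
  | zero => exact Set.finite_empty
  | some x y h => exact Set.toFinite {x, y}

/-- Two automorphisms which agree on the coordinates of `P` send `P` to the same point. -/
theorem smul_eq_of_eqOn_coords (σ σ' : K ≃ₐ[S] K) (P : (W'⁄K).Point)
    (h : ∀ x ∈ coords P, σ x = σ' x) : σ • P = σ' • P := by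
  cases P with
  | zero => rfl
  | some x y hxy =>
    have hx : σ x = σ' x := h x (Set.mem_insert _ _)
    have hy : σ y = σ' y := h y (Set.mem_insert_of_mem _ rfl)
    rw [algEquiv_smul_def, algEquiv_smul_def, Point.map_some, Point.map_some]
    simp only [Point.some.injEq]
    exact ⟨hx, hy⟩

/-- A power of an automorphism fixing `P` fixes `P`. -/
theorem pow_smul_eq_of_smul_eq (σ : K ≃ₐ[S] K) (P : (W'⁄K).Point) (h : σ • P = P) (j : ℕ) :
    (σ ^ j) • P = P := by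
  induction j with
  | zero => rw [pow_zero, one_smul]
  | succ j ih => rw [pow_succ, mul_smul, h, ih]

end Coords

section Roots

/-- `G_{ℚ(ζ_m)}`: the automorphisms of `ℚ̄` fixing all `m`-th roots of unity. -/
def fixRoots (m : ℕ) : Subgroup (AlgebraicClosure ℚ ≃ₐ[ℚ] AlgebraicClosure ℚ) where
  carrier := {τ | ∀ ζ : AlgebraicClosure ℚ, ζ ^ m = 1 → τ ζ = ζ}
  one_mem' := fun _ _ => rfl
  mul_mem' := by
    intro a b ha hb ζ hζ
    rw [AlgEquiv.mul_apply, hb ζ hζ, ha ζ hζ]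
  inv_mem' := by
    intro a ha ζ hζ
    have h := ha ζ hζ
    calc a⁻¹ ζ = a⁻¹ (a ζ) := by rw [h]
      _ = ζ := by rw [← AlgEquiv.mul_apply, inv_mul_cancel, AlgEquiv.one_apply]

theorem mem_fixRoots {m : ℕ} {τ : AlgebraicClosure ℚ ≃ₐ[ℚ] AlgebraicClosure ℚ} :
    τ ∈ fixRoots m ↔ ∀ ζ : AlgebraicClosure ℚ, ζ ^ m = 1 → τ ζ = ζ := Iff.rfl

/-- Every automorphism raises a root of unity to a power. -/
theorem exists_pow_eq_apply {m : ℕ} (hm : m ≠ 0) {ζ : AlgebraicClosure ℚ}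
    (hζ : IsPrimitiveRoot ζ m) (g : AlgebraicClosure ℚ ≃ₐ[ℚ] AlgebraicClosure ℚ) :
    ∃ a : ℕ, g ζ = ζ ^ a := by
  haveI : NeZero m := ⟨hm⟩
  have h : (g ζ) ^ m = 1 := by rw [← map_pow, hζ.pow_eq_one, map_one]
  obtain ⟨a, -, ha⟩ := hζ.eq_pow_of_pow_eq_one h
  exact ⟨a, ha.symm⟩

/-- Every automorphism acts on all `m`-th roots of unity by one and the same power. -/
theorem exists_forall_apply_eq_pow {m : ℕ} (hm : m ≠ 0)
    (g : AlgebraicClosure ℚ ≃ₐ[ℚ] AlgebraicClosure ℚ) :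
    ∃ a : ℕ, ∀ η : AlgebraicClosure ℚ, η ^ m = 1 → g η = η ^ a := by
  haveI : NeZero m := ⟨hm⟩
  haveI : NeZero (m : AlgebraicClosure ℚ) := ⟨Nat.cast_ne_zero.2 hm⟩
  obtain ⟨ζ, hζ⟩ := HasEnoughRootsOfUnity.exists_primitiveRoot (AlgebraicClosure ℚ) m
  obtain ⟨a, ha⟩ := exists_pow_eq_apply hm hζ g
  refine ⟨a, fun η hη => ?_⟩
  obtain ⟨i, -, rfl⟩ := hζ.eq_pow_of_pow_eq_one hη
  rw [map_pow, ha, ← pow_mul, ← pow_mul, mul_comm]

theorem fixRoots_normal (m : ℕ) : (fixRoots m).Normal := by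
  refine ⟨fun n hn g ζ hζ => ?_⟩
  have h1 : (g⁻¹ ζ) ^ m = 1 := by rw [← map_pow, hζ, map_one]
  have h2 := hn _ h1
  rw [AlgEquiv.mul_apply, AlgEquiv.mul_apply, h2, ← AlgEquiv.mul_apply, mul_inv_cancel,
    AlgEquiv.one_apply]

/-- `G_ℚ / G_{ℚ(ζ_m)}` is abelian: all commutators lie in `fixRoots m`. -/
theorem commutator_mem_fixRoots {m : ℕ} (hm : m ≠ 0)
    (g g' : AlgebraicClosure ℚ ≃ₐ[ℚ] AlgebraicClosure ℚ) :
    g * g' * g⁻¹ * g'⁻¹ ∈ fixRoots m := by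
  obtain ⟨a, ha⟩ := exists_forall_apply_eq_pow hm g
  obtain ⟨b, hb⟩ := exists_forall_apply_eq_pow hm g'
  -- `g g'` and `g' g` agree on the `m`-th roots of unity
  have hcomm : ∀ η : AlgebraicClosure ℚ, η ^ m = 1 → (g * g') η = (g' * g) η := by
    intro η hη
    rw [AlgEquiv.mul_apply, AlgEquiv.mul_apply, hb η hη, ha η hη, map_pow, map_pow, ha η hη,
      hb η hη, ← pow_mul, ← pow_mul, mul_comm]
  intro ζ hζ
  have h1 : (g'⁻¹ ζ) ^ m = 1 := by rw [← map_pow, hζ, map_one]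
  have h2 : (g⁻¹ (g'⁻¹ ζ)) ^ m = 1 := by rw [← map_pow, h1, map_one]
  have h3 := hcomm _ h2
  calc (g * g' * g⁻¹ * g'⁻¹) ζ = (g * g') (g⁻¹ (g'⁻¹ ζ)) := by
        simp only [AlgEquiv.mul_apply]
    _ = (g' * g) (g⁻¹ (g'⁻¹ ζ)) := h3
    _ = ζ := by
        simp only [AlgEquiv.mul_apply]
        rw [← AlgEquiv.mul_apply g g⁻¹, mul_inv_cancel, AlgEquiv.one_apply,
          ← AlgEquiv.mul_apply g' g'⁻¹, mul_inv_cancel, AlgEquiv.one_apply]

/-- A Frobenius lift at a prime `ℓ ∤ m` acts on the `m`-th roots of unity by `ζ ↦ ζ ^ ℓ`. -/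
theorem frobenius_apply_root {m ℓ : ℕ} (hℓ : ℓ.Prime) (hℓm : ¬ ℓ ∣ m)
    {A : ValuationSubring (AlgebraicClosure ℚ)} (hA : A.LiesOverPrime ℓ)
    {φ : AlgebraicClosure ℚ ≃ₐ[ℚ] AlgebraicClosure ℚ} (hφ : A.IsFrobeniusAt φ ℓ)
    {ζ : AlgebraicClosure ℚ} (hζ : ζ ^ m = 1) : φ ζ = ζ ^ ℓ :=
  Fermat.Agent.P3.helper98.frobenius_apply_rootOfUnity A hℓ hA hφ hℓm hζ

/-- A Frobenius lift at a prime `ℓ ∤ m` which fixes a primitive `m`-th root of unity has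
`ℓ ≡ 1 [MOD m]`. -/
theorem modEq_one_of_frobenius_fixes {m ℓ : ℕ} (hℓ : ℓ.Prime) (hℓm : ¬ ℓ ∣ m)
    {A : ValuationSubring (AlgebraicClosure ℚ)} (hA : A.LiesOverPrime ℓ)
    {φ : AlgebraicClosure ℚ ≃ₐ[ℚ] AlgebraicClosure ℚ} (hφ : A.IsFrobeniusAt φ ℓ)
    {ζ : AlgebraicClosure ℚ} (hζ : IsPrimitiveRoot ζ m) (hfix : φ ζ = ζ) :
    ℓ ≡ 1 [MOD m] := by
  have hm0 : m ≠ 0 := fun h => hℓm (h ▸ dvd_zero ℓ)
  have hζ0 : ζ ≠ 0 := hζ.ne_zero hm0
  have h1 : ζ ^ ℓ = ζ := by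
    rw [← frobenius_apply_root hℓ hℓm hA hφ hζ.pow_eq_one, hfix]
  have hℓpos := hℓ.one_lt
  have h2 : ζ ^ (ℓ - 1) = 1 := by
    have h3 : ζ ^ (ℓ - 1) * ζ = 1 * ζ := by
      rw [← pow_succ, Nat.sub_add_cancel hℓpos.le, h1, one_mul]
    exact mul_right_cancel₀ hζ0 h3
  exact ((Nat.modEq_iff_dvd' hℓpos.le).2 (hζ.dvd_of_pow_eq_one _ h2)).symm

/-- A Frobenius lift at a prime `ℓ ≡ 1 [MOD m]` lies in `fixRoots m`. -/
theorem frobenius_mem_fixRoots {m ℓ : ℕ} (hℓ : ℓ.Prime) (hℓ1 : ℓ ≡ 1 [MOD m])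
    {A : ValuationSubring (AlgebraicClosure ℚ)} (hA : A.LiesOverPrime ℓ)
    {φ : AlgebraicClosure ℚ ≃ₐ[ℚ] AlgebraicClosure ℚ} (hφ : A.IsFrobeniusAt φ ℓ) :
    φ ∈ fixRoots m := by
  intro ζ hζ
  have hℓm : ¬ ℓ ∣ m := by
    intro hdvd
    have h1 : (1 : ℕ) ≡ 0 [MOD ℓ] :=
      (hℓ1.of_dvd hdvd).symm.trans ((Nat.modEq_zero_iff_dvd).2 dvd_rfl)
    have h2 : ℓ ∣ 1 := (Nat.modEq_zero_iff_dvd).1 h1
    exact hℓ.one_lt.ne' (Nat.dvd_one.1 h2)
  rw [frobenius_apply_root hℓ hℓm hA hφ hζ]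
  obtain ⟨c, hc⟩ : m ∣ ℓ - 1 := (Nat.modEq_iff_dvd' hℓ.one_lt.le).1 hℓ1.symm
  have hℓeq : ℓ = m * c + 1 := by have := hℓ.one_lt; omega
  rw [hℓeq, pow_succ, pow_mul, hζ, one_pow, one_mul]

/-- The square of a Frobenius lift at a prime `ℓ ≡ -1 [MOD m]` (i.e. `m ∣ ℓ + 1`) lies in
`fixRoots m`. -/
theorem frobenius_sq_mem_fixRoots {m ℓ : ℕ} (hℓ : ℓ.Prime) (hℓm : ¬ ℓ ∣ m)
    (hℓ1 : m ∣ ℓ + 1)
    {A : ValuationSubring (AlgebraicClosure ℚ)} (hA : A.LiesOverPrime ℓ)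
    {φ : AlgebraicClosure ℚ ≃ₐ[ℚ] AlgebraicClosure ℚ} (hφ : A.IsFrobeniusAt φ ℓ) :
    φ ^ 2 ∈ fixRoots m := by
  intro ζ hζ
  have h1 : (ζ ^ ℓ) ^ m = 1 := by rw [← pow_mul, mul_comm, pow_mul, hζ, one_pow]
  rw [pow_two, AlgEquiv.mul_apply, frobenius_apply_root hℓ hℓm hA hφ hζ,
    frobenius_apply_root hℓ hℓm hA hφ h1, ← pow_mul]
  obtain ⟨c, hc⟩ := hℓ1
  -- `ℓ * ℓ = m * (c * (ℓ - 1)) + 1`
  have hℓpos := hℓ.one_lt
  have h2 : ℓ * ℓ = m * (c * (ℓ - 1)) + 1 := by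
    have h3 : (ℓ + 1) * (ℓ - 1) + 1 = ℓ * ℓ := by
      obtain ⟨k, rfl⟩ : ∃ k, ℓ = k + 1 := ⟨ℓ - 1, by omega⟩
      simp only [Nat.add_sub_cancel]
      ring
    rw [← h3, hc, mul_assoc]
  rw [h2, pow_succ, pow_mul, hζ, one_pow, one_mul]

end Roots

section Main

variable (E : WeierstrassCurve ℚ) (n : ℕ)

/-- The field generated by the coordinates of the points of `E[n]` and a root of unity `ζ`. -/
noncomputable def torsionField (ζ : AlgebraicClosure ℚ) :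
    IntermediateField ℚ (AlgebraicClosure ℚ) :=
  IntermediateField.adjoin ℚ
    ((⋃ P : Submodule.torsionBy ℤ (E⁄(AlgebraicClosure ℚ)).Point n,
      coords (P : (E⁄(AlgebraicClosure ℚ)).Point)) ∪ {ζ})

theorem coords_subset_torsionField (ζ : AlgebraicClosure ℚ)
    (P : Submodule.torsionBy ℤ (E⁄(AlgebraicClosure ℚ)).Point n)
    {x : AlgebraicClosure ℚ} (hx : x ∈ coords (P : (E⁄(AlgebraicClosure ℚ)).Point)) :
    x ∈ torsionField E n ζ :=
  IntermediateField.subset_adjoin ℚ _ (Or.inl (Set.mem_iUnion.2 ⟨P, hx⟩))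

theorem root_mem_torsionField (ζ : AlgebraicClosure ℚ) : ζ ∈ torsionField E n ζ :=
  IntermediateField.subset_adjoin ℚ _ (Or.inr rfl)

theorem finiteDimensional_torsionField
    [Finite (Submodule.torsionBy ℤ (E⁄(AlgebraicClosure ℚ)).Point n)]
    (ζ : AlgebraicClosure ℚ) : FiniteDimensional ℚ (torsionField E n ζ) := by
  have hfin : ((⋃ P : Submodule.torsionBy ℤ (E⁄(AlgebraicClosure ℚ)).Point n,
      coords (P : (E⁄(AlgebraicClosure ℚ)).Point)) ∪ {ζ}).Finite :=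
    (Set.finite_iUnion fun P => coords_finite _).union (Set.finite_singleton ζ)
  haveI := hfin.to_subtype
  haveI : Algebra.IsAlgebraic ℚ (AlgebraicClosure ℚ) := AlgebraicClosure.isAlgebraic ℚ
  exact IntermediateField.finiteDimensional_adjoin
    (fun x _ => (Algebra.IsAlgebraic.isAlgebraic x).isIntegral)

/-- Two automorphisms agreeing on `torsionField E n ζ` act in the same way on `E[n]`. -/
theorem smul_eq_of_eqOn_torsionField (ζ : AlgebraicClosure ℚ)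
    (σ σ' : AlgebraicClosure ℚ ≃ₐ[ℚ] AlgebraicClosure ℚ)
    (h : ∀ x ∈ torsionField E n ζ, σ x = σ' x)
    (P : Submodule.torsionBy ℤ (E⁄(AlgebraicClosure ℚ)).Point n) : σ • P = σ' • P :=
  Subtype.ext (smul_eq_of_eqOn_coords σ σ' (P : (E⁄(AlgebraicClosure ℚ)).Point)
    fun x hx => h x (coords_subset_torsionField E n ζ P hx))

/-- **[N-CHEB]**.  Let `Bad` be a finite set of primes.  If every Frobenius lift at every prime
`ℓ ∉ Bad` with `ℓ ≡ 1 [MOD m]` fixes a non-zero point of `E[n]`, then so does every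
`τ ∈ G_ℚ` fixing the `m`-th roots of unity. -/
theorem exists_fixed_of_frobenius {m : ℕ} (hm : m ≠ 0)
    [Finite (Submodule.torsionBy ℤ (E⁄(AlgebraicClosure ℚ)).Point n)]
    (Bad : Finset ℕ)
    (hfrob : ∀ ℓ : ℕ, ℓ.Prime → ℓ ∉ Bad → ℓ ≡ 1 [MOD m] →
      ∀ A : ValuationSubring (AlgebraicClosure ℚ), A.LiesOverPrime ℓ →
      ∀ σ : AlgebraicClosure ℚ ≃ₐ[ℚ] AlgebraicClosure ℚ, A.IsFrobeniusAt σ ℓ →
        ∃ P : Submodule.torsionBy ℤ (E⁄(AlgebraicClosure ℚ)).Point n, P ≠ 0 ∧ σ • P = P)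
    (τ : AlgebraicClosure ℚ ≃ₐ[ℚ] AlgebraicClosure ℚ)
    (hτ : ∀ ζ : AlgebraicClosure ℚ, ζ ^ m = 1 → τ ζ = ζ) :
    ∃ P : Submodule.torsionBy ℤ (E⁄(AlgebraicClosure ℚ)).Point n, P ≠ 0 ∧ τ • P = P := by
  haveI : NeZero (m : AlgebraicClosure ℚ) := ⟨Nat.cast_ne_zero.2 hm⟩
  obtain ⟨ζ, hζ⟩ := HasEnoughRootsOfUnity.exists_primitiveRoot (AlgebraicClosure ℚ) m
  haveI := finiteDimensional_torsionField E n ζ
  obtain ⟨ℓ, A, φ, hℓ, hℓB, hA, hφ, -, ⟨j, hj⟩, ⟨k, hk⟩⟩ :=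
    Fermat.Agent.Cheb.helper91.weakChebotarev_finite (torsionField E n ζ) τ
      (Bad ∪ m.primeFactors)
  have hℓB' : ℓ ∉ Bad := fun h => hℓB (Finset.mem_union_left _ h)
  have hℓm : ¬ ℓ ∣ m := fun h =>
    hℓB (Finset.mem_union_right _ (Nat.mem_primeFactors.2 ⟨hℓ, h, hm⟩))
  -- `φ` fixes `ζ`
  have hτk : (τ ^ k) ζ = ζ := (fixRoots m).pow_mem (mem_fixRoots.2 hτ) k ζ hζ.pow_eq_one
  have hφζ : φ ζ = ζ := by rw [← hk ζ (root_mem_torsionField E n ζ), hτk]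
  have hℓ1 : ℓ ≡ 1 [MOD m] := modEq_one_of_frobenius_fixes hℓ hℓm hA hφ hζ hφζ
  obtain ⟨P, hP0, hP⟩ := hfrob ℓ hℓ hℓB' hℓ1 A hA φ hφ
  refine ⟨P, hP0, ?_⟩
  have h1 : τ • P = (φ ^ j) • P :=
    smul_eq_of_eqOn_torsionField E n ζ τ (φ ^ j) (fun x hx => (hj x hx).symm) P
  rw [h1]
  have h2 : φ ∈ MulAction.stabilizer (AlgebraicClosure ℚ ≃ₐ[ℚ] AlgebraicClosure ℚ) P :=
    MulAction.mem_stabilizer_iff.2 hP
  exact MulAction.mem_stabilizer_iff.1 (Subgroup.pow_mem _ h2 j)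

end Main

end Fermat.Agent.P6.helper31
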