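import Fermat.Agent.S13.helper64_TorsionCount

/-!
# The exact number of `n`-torsion points of an elliptic curve (helper78, for P6 / S41 (N))

For a Weierstrass curve `W` with `Δ ≠ 0` over an algebraically closed field `K` and `n ≥ 1`
invertible in `K` there are exactly `n ^ 2` points killed by `n`.

Proof (no division polynomial identities): with the ladder polynomials `X_n, Z_n` of
helper64 (`x(nQ) = X_n(x(Q)) / Z_n(x(Q))`), the fibre polynomial `F_t = X_n - t Z_n` is monic of
degree `n ^ 2`; a multiple root of `F_t` is a root of the Wronskian `X_n' Z_n - X_n Z_n'`, whose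
coefficient in degree `2 n ^ 2 - 2` is `n ^ 2 ≠ 0`; so for all but finitely many `t` the
polynomial `F_t` has `n ^ 2` distinct roots, and for `t` not the x-coordinate of a `2`-torsion
point these roots are in bijection with a fibre of `[n]`, i.e. with a coset of `E[n]`.
-/

set_option autoImplicit false
set_option linter.unusedSectionVars false

open WeierstrassCurve WeierstrassCurve.Affine Polynomial

namespace Fermat.Agent.P6.helper78

open Fermat.Agent.S13.helper64

section top

variable {R : Type*} [CommRing R]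

lemma isTop_derivative {p : R[X]} {d : ℕ} {c : R} (hp : IsTop p d c) :
    IsTop (derivative p) (d - 1) ((d : R) * c) := by
  refine ⟨(natDegree_derivative_le p).trans (Nat.sub_le_sub_right hp.1 1), ?_⟩
  rw [coeff_derivative]
  rcases Nat.eq_zero_or_pos d with rfl | hd
  · have h0 : p.coeff (0 - 1 + 1) = 0 :=
      coeff_eq_zero_of_natDegree_lt (lt_of_le_of_lt hp.1 (by norm_num))
    rw [h0]; simp
  · have e : d - 1 + 1 = d := by omega
    have e' : ((d - 1 : ℕ) : R) + 1 = (d : R) := by
      rw [← Nat.cast_one (R := R), ← Nat.cast_add, e]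
    rw [e, hp.2, e']; ring

/-- The Wronskian of the ladder polynomials `X_n, Z_n`. -/
noncomputable def wr (W : WeierstrassCurve R) (n : ℕ) : R[X] :=
  derivative (ladPoly W n).X * (ladPoly W n).Z - (ladPoly W n).X * derivative (ladPoly W n).Z

lemma isTop_wr (W : WeierstrassCurve R) {n : ℕ} (hn : 2 ≤ n) :
    IsTop (wr W n) (2 * n ^ 2 - 2) ((n : R) ^ 2) := by
  obtain ⟨⟨hX, hZ, -, -⟩, -⟩ := degInv_ladPoly W n
  have h4 : 4 ≤ n ^ 2 := by nlinarith
  have dX := isTop_derivative hX
  have dZ := isTop_derivative hZ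
  have t1 : IsTop (derivative (ladPoly W n).X * (ladPoly W n).Z) (2 * n ^ 2 - 2)
      (((n ^ 2 : ℕ) : R) * 1 * (n : R) ^ 2) := (dX.mul hZ).congr (by omega) rfl
  have t2 : IsTop ((ladPoly W n).X * derivative (ladPoly W n).Z) (2 * n ^ 2 - 2)
      (1 * (((n ^ 2 - 1 : ℕ) : R) * (n : R) ^ 2)) := (hX.mul dZ).congr (by omega) rfl
  refine (t1.sub t2).congr rfl ?_
  have e : ((n ^ 2 - 1 : ℕ) : R) = (n : R) ^ 2 - 1 := by
    rw [Nat.cast_sub (by omega)]; push_cast; ring
  rw [e]; push_cast; ring

lemma wr_ne_zero (W : WeierstrassCurve R) {n : ℕ} (hn : 2 ≤ n) (hnR : ((n : R)) ^ 2 ≠ 0) :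
    wr W n ≠ 0 := by
  intro h
  have := (isTop_wr W hn).2
  rw [h, coeff_zero] at this
  exact hnR this.symm

/-- The fibre polynomial `F_t = X_n - t Z_n`. -/
noncomputable def fib (W : WeierstrassCurve R) (n : ℕ) (t : R) : R[X] :=
  (ladPoly W n).X - C t * (ladPoly W n).Z

lemma isTop_fib (W : WeierstrassCurve R) {n : ℕ} (hn : 1 ≤ n) (t : R) :
    IsTop (fib W n t) (n ^ 2) 1 := by
  obtain ⟨⟨hX, hZ, -, -⟩, -⟩ := degInv_ladPoly W n
  have h1 : 1 ≤ n ^ 2 := Nat.one_le_pow _ _ hn
  have t2 : IsTop (C t * (ladPoly W n).Z) (n ^ 2) 0 :=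
    (((isTop_C t).mul hZ).congr (zero_add _) rfl).lower (by omega)
  exact (hX.sub t2).congr rfl (by ring)

lemma fib_monic [Nontrivial R] (W : WeierstrassCurve R) {n : ℕ} (hn : 1 ≤ n) (t : R) :
    (fib W n t).Monic := by
  have h := isTop_fib W hn t
  have hdeg : (fib W n t).natDegree = n ^ 2 :=
    le_antisymm h.1 (le_natDegree_of_ne_zero (by rw [h.2]; exact one_ne_zero))
  rw [Monic, leadingCoeff, hdeg, h.2]

lemma natDegree_fib [Nontrivial R] (W : WeierstrassCurve R) {n : ℕ} (hn : 1 ≤ n) (t : R) :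
    (fib W n t).natDegree = n ^ 2 := by
  have h := isTop_fib W hn t
  exact le_antisymm h.1 (le_natDegree_of_ne_zero (by rw [h.2]; exact one_ne_zero))

lemma eval_fib (W : WeierstrassCurve R) (n : ℕ) (t x : R) :
    (fib W n t).eval x = (ladPoly W n).X.eval x - t * (ladPoly W n).Z.eval x := by
  simp [fib]

lemma eval_derivative_fib (W : WeierstrassCurve R) (n : ℕ) (t x : R) :
    (derivative (fib W n t)).eval x =
      (derivative (ladPoly W n).X).eval x - t * (derivative (ladPoly W n).Z).eval x := by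
  simp [fib]

lemma eval_wr (W : WeierstrassCurve R) (n : ℕ) (x : R) :
    (wr W n).eval x = (derivative (ladPoly W n).X).eval x * (ladPoly W n).Z.eval x -
      (ladPoly W n).X.eval x * (derivative (ladPoly W n).Z).eval x := by
  simp [wr]

/-- A multiple root of `F_t` is a root of the Wronskian. -/
lemma eval_wr_eq_zero (W : WeierstrassCurve R) (n : ℕ) (t x : R)
    (h0 : (fib W n t).eval x = 0) (h1 : (derivative (fib W n t)).eval x = 0) :
    (wr W n).eval x = 0 := by
  rw [eval_fib] at h0
  rw [eval_derivative_fib] at h1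
  rw [eval_wr]
  linear_combination (ladPoly W n).Z.eval x * h1 - (derivative (ladPoly W n).Z).eval x * h0

end top

section point

variable {K : Type*} [Field K] [DecidableEq K] (W : WeierstrassCurve K)

/-- The ladder polynomials evaluated at `x` represent the x-coordinate of `n • (x, y)`. -/
lemma isRep_eval (hΔ : W.Δ ≠ 0) {x y : K} (h : W.toAffine.Nonsingular x y) (n : ℕ) :
    IsRep (n • (Point.some x y h : W.toAffine.Point)) ((ladPoly W n).X.eval x)
      ((ladPoly W n).Z.eval x) := by
  have h1 := (isRep_lad (W := W.toAffine) hΔ h n).1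
  rw [← ladPoly_eval] at h1
  simpa [LadState.map] using h1

/-- `X_n` and `Z_n` have no common zero. -/
lemma eval_Z_ne_zero_of_eval_fib (hΔ : W.Δ ≠ 0) {x y : K} (h : W.toAffine.Nonsingular x y)
    (n : ℕ) (t : K) (h0 : (fib W n t).eval x = 0) : (ladPoly W n).Z.eval x ≠ 0 := by
  intro hZ
  rw [eval_fib, hZ, mul_zero, sub_zero] at h0
  have hr := isRep_eval W hΔ h n
  rw [h0, hZ] at hr
  cases hQ : n • (Point.some x y h : W.toAffine.Point) with
  | zero =>
    rw [hQ] at hr
    exact (isRep_zero_iff.mp hr).1 rfl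
  | some x' y' h' =>
    rw [hQ] at hr
    exact (isRep_some_iff.mp hr).1 rfl

/-- Roots of the fibre polynomial `F_t` are the x-coordinates of the points `Q` with
`x(n • Q) = t`. -/
lemma eval_fib_eq_zero_iff (hΔ : W.Δ ≠ 0) {x y : K} (h : W.toAffine.Nonsingular x y)
    (n : ℕ) (t : K) :
    (fib W n t).eval x = 0 ↔
      ∃ (y' : K) (h' : W.toAffine.Nonsingular t y'),
        n • (Point.some x y h : W.toAffine.Point) = Point.some t y' h' := by
  have hr := isRep_eval W hΔ h n
  constructor
  · intro h0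
    have hZ := eval_Z_ne_zero_of_eval_fib W hΔ h n t h0
    rw [eval_fib, sub_eq_zero] at h0
    cases hQ : n • (Point.some x y h : W.toAffine.Point) with
    | zero =>
      rw [hQ] at hr
      exact absurd (isRep_zero_iff.mp hr).2 hZ
    | some x' y' h' =>
      rw [hQ] at hr
      have h2 := (isRep_some_iff.mp hr).2
      have hx : x' = t := by
        have : x' * (ladPoly W n).Z.eval x = t * (ladPoly W n).Z.eval x := by
          rw [← h2, h0]
        exact mul_right_cancel₀ hZ this
      subst hx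
      exact ⟨y', h', rfl⟩
  · rintro ⟨y', h', hQ⟩
    rw [hQ] at hr
    rw [eval_fib, (isRep_some_iff.mp hr).2, sub_self]

/-- The x-coordinate of a point (junk value `0` at the origin). -/
def xOf : W.toAffine.Point → K
  | .zero => 0
  | .some x _ _ => x

lemma xOf_some {x y : K} (h : W.toAffine.Nonsingular x y) : xOf W (Point.some x y h) = x := rfl

lemma xOf_neg (Q : W.toAffine.Point) : xOf W (-Q) = xOf W Q := by
  cases Q with
  | zero => rfl
  | some x y h => rfl

/-- Two affine points with the same x-coordinate are equal or opposite. -/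
lemma eq_or_eq_neg_of_xOf_eq {Q Q' : W.toAffine.Point} (hQ : Q ≠ 0) (hQ' : Q' ≠ 0)
    (hx : xOf W Q = xOf W Q') : Q = Q' ∨ Q = -Q' := by
  cases Q with
  | zero => exact absurd rfl hQ
  | some x y h =>
    cases Q' with
    | zero => exact absurd rfl hQ'
    | some x' y' h' =>
      have hx' : x = x' := hx
      subst hx'
      rcases Y_eq_of_X_eq h.1 h'.1 rfl with hy | hy
      · left; subst hy; rfl
      · right; subst hy; rfl

end point

section psi2

variable {K : Type*} [Field K] (W : WeierstrassCurve K)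

/-- `ψ₂² = 4 X ^ 3 + b₂ X ^ 2 + 2 b₄ X + b₆` as a polynomial. -/
noncomputable def psi2Poly : K[X] :=
  C 4 * X ^ 3 + C W.b₂ * X ^ 2 + C (2 * W.b₄) * X + C W.b₆

lemma eval_psi2Poly (t : K) : (psi2Poly W).eval t = dblZ W.b₂ W.b₄ W.b₆ t 1 := by
  simp only [psi2Poly, dblZ, eval_add, eval_mul, eval_C, eval_pow, eval_X]
  ring

lemma psi2Poly_ne_zero (hΔ : W.Δ ≠ 0) : psi2Poly W ≠ 0 := by
  intro h
  have h3 : (psi2Poly W).coeff 3 = 0 := by rw [h, coeff_zero]
  have h2 : (psi2Poly W).coeff 2 = 0 := by rw [h, coeff_zero]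
  have h1 : (psi2Poly W).coeff 1 = 0 := by rw [h, coeff_zero]
  have h0 : (psi2Poly W).coeff 0 = 0 := by rw [h, coeff_zero]
  simp only [psi2Poly, coeff_add, coeff_C_mul, coeff_X_pow, coeff_C, coeff_X] at h3 h2 h1 h0
  norm_num at h3 h2 h1 h0
  apply hΔ
  have hb := W.b_relation
  simp only [WeierstrassCurve.Δ]
  rw [h2, h0] at *
  have h8 : (8 : K) = 0 := by linear_combination 2 * h3
  have : W.b₄ ^ 3 * 8 = 0 := by rw [h8, mul_zero]
  linear_combination (-1 : K) * this

end psi2

section count

variable {K : Type*} [Field K] [DecidableEq K] [IsAlgClosed K] (W : WeierstrassCurve K)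

/-- There is a parameter `t` which is neither a critical value of `x ∘ [n]` nor the
x-coordinate of a `2`-torsion point. -/
lemma exists_good_param {n : ℕ} (hn : 2 ≤ n) (hnK : (n : K) ≠ 0) (hΔ : W.Δ ≠ 0) :
    ∃ t : K, dblZ W.b₂ W.b₄ W.b₆ t 1 ≠ 0 ∧
      ∀ x : K, (wr W n).eval x = 0 → (ladPoly W n).Z.eval x ≠ 0 →
        (ladPoly W n).X.eval x ≠ t * (ladPoly W n).Z.eval x := by
  classical
  have hwr : wr W n ≠ 0 := wr_ne_zero W hn (pow_ne_zero 2 hnK)
  have hpsi : psi2Poly W ≠ 0 := psi2Poly_ne_zero W hΔ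
  obtain ⟨t, ht⟩ := Infinite.exists_notMem_finset
    (((wr W n).roots.toFinset.image
      (fun x => (ladPoly W n).X.eval x / (ladPoly W n).Z.eval x)) ∪ (psi2Poly W).roots.toFinset)
  rw [Finset.mem_union, not_or] at ht
  obtain ⟨ht1, ht2⟩ := ht
  refine ⟨t, ?_, ?_⟩
  · intro h
    apply ht2
    rw [Multiset.mem_toFinset, mem_roots hpsi, IsRoot.def, eval_psi2Poly, h]
  · intro x hx hZ hX
    apply ht1
    rw [Finset.mem_image]
    refine ⟨x, ?_, ?_⟩
    · rw [Multiset.mem_toFinset, mem_roots hwr, IsRoot.def, hx]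
    · rw [hX, mul_div_assoc, div_self hZ, mul_one]

/-- **The exact count of `n`-torsion points**, subtype form. -/
theorem card_nsmul_eq_zero (hΔ : W.Δ ≠ 0) {n : ℕ} (hn : 2 ≤ n) (hnK : (n : K) ≠ 0) :
    Nat.card {Q : W.toAffine.Point // n • Q = 0} = n ^ 2 := by
  classical
  have hn1 : 1 ≤ n := by omega
  obtain ⟨t, ht2, ht1⟩ := exists_good_param W hn hnK hΔ
  obtain ⟨yt, hyt⟩ := exists_equation' W t
  have hnst : W.toAffine.Nonsingular t yt := (equation_iff_nonsingular_of_Δ_ne_zero hΔ).mp hyt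
  set P : W.toAffine.Point := Point.some t yt hnst with hP
  have hP0 : P ≠ 0 := Point.some_ne_zero hnst
  have hPneg : P ≠ -P := by
    intro h
    rw [hP, Point.neg_some] at h
    have hy : yt = W.toAffine.negY t yt := by
      injection h
    apply ht2
    rw [psi2sq_eq (W := W.toAffine) hyt, ← hy, sub_self]
    ring
  have hmonic := fib_monic W hn1 t
  have hdeg := natDegree_fib W hn1 t
  have hF0 : fib W n t ≠ 0 := hmonic.ne_zero
  -- points above a root
  have key : ∀ x : K, (fib W n t).eval x = 0 →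
      ∃ Q : W.toAffine.Point, n • Q = P ∧ xOf W Q = x := by
    intro x hx
    obtain ⟨y, hy⟩ := exists_equation' W x
    have hns : W.toAffine.Nonsingular x y := (equation_iff_nonsingular_of_Δ_ne_zero hΔ).mp hy
    obtain ⟨y', h', hQ⟩ := (eval_fib_eq_zero_iff W hΔ hns n t).mp hx
    rcases Y_eq_of_X_eq h'.1 hyt rfl with hy' | hy'
    · subst hy'
      exact ⟨Point.some x y hns, hQ, rfl⟩
    · subst hy'
      have hneg : Point.some t (W.toAffine.negY t yt) h' = -P := by
        rw [hP, Point.neg_some]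
      refine ⟨-Point.some x y hns, ?_, ?_⟩
      · rw [smul_neg, hQ, hneg, neg_neg]
      · rw [xOf_neg]; rfl
  -- separability
  have hsep : (fib W n t).Separable := by
    rw [Polynomial.separable_def, Polynomial.isCoprime_iff_aeval_ne_zero_of_isAlgClosed K K]
    intro a
    by_contra hcon
    rw [not_or, not_not, not_not, coe_aeval_eq_eval] at hcon
    obtain ⟨h0, h1⟩ := hcon
    obtain ⟨y, hy⟩ := exists_equation' W a
    have hns : W.toAffine.Nonsingular a y := (equation_iff_nonsingular_of_Δ_ne_zero hΔ).mp hy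
    have hZ := eval_Z_ne_zero_of_eval_fib W hΔ hns n t h0
    have hw := eval_wr_eq_zero W n t a h0 h1
    apply ht1 a hw hZ
    rw [eval_fib, sub_eq_zero] at h0
    exact h0
  have hcard : (fib W n t).roots.toFinset.card = n ^ 2 := by
    rw [Multiset.toFinset_card_of_nodup (nodup_roots hsep),
      ← (IsAlgClosed.splits (fib W n t)).natDegree_eq_card_roots, hdeg]
  -- a base point of the fibre
  have hdeg0 : (fib W n t).degree ≠ 0 := by
    rw [degree_eq_natDegree hF0, hdeg]
    have : 0 < n ^ 2 := by positivity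
    exact_mod_cast this.ne'
  obtain ⟨x₀, hx₀⟩ := IsAlgClosed.exists_root (fib W n t) hdeg0
  obtain ⟨Q₀, hQ₀, -⟩ := key x₀ hx₀
  -- the bijection
  have hroot : ∀ x : {x // x ∈ (fib W n t).roots.toFinset}, (fib W n t).eval x.1 = 0 := by
    intro x
    have := x.2
    rw [Multiset.mem_toFinset, mem_roots hF0] at this
    exact this
  let φ : {x // x ∈ (fib W n t).roots.toFinset} → {Q : W.toAffine.Point // n • Q = 0} :=
    fun x => ⟨(key x.1 (hroot x)).choose - Q₀, by
      rw [smul_sub, (key x.1 (hroot x)).choose_spec.1, hQ₀, sub_self]⟩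
  have hφ : Function.Bijective φ := by
    constructor
    · intro x x' hxx
      have h1 : (key x.1 (hroot x)).choose - Q₀ = (key x'.1 (hroot x')).choose - Q₀ :=
        congrArg Subtype.val hxx
      have h2 : (key x.1 (hroot x)).choose = (key x'.1 (hroot x')).choose :=
        sub_left_injective h1
      apply Subtype.ext
      rw [← (key x.1 (hroot x)).choose_spec.2, ← (key x'.1 (hroot x')).choose_spec.2, h2]
    · rintro ⟨T, hT⟩
      have hQ : n • (Q₀ + T) = P := by rw [smul_add, hQ₀, hT, add_zero]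
      have hQne : Q₀ + T ≠ 0 := by
        intro h
        rw [h, smul_zero] at hQ
        exact hP0 hQ.symm
      have hxroot : (fib W n t).eval (xOf W (Q₀ + T)) = 0 := by
        cases hQT : Q₀ + T with
        | zero => exact absurd hQT hQne
        | some x y h =>
          rw [hQT] at hQ
          exact (eval_fib_eq_zero_iff W hΔ h n t).mpr ⟨yt, hnst, hQ⟩
      have hmem : xOf W (Q₀ + T) ∈ (fib W n t).roots.toFinset := by
        rw [Multiset.mem_toFinset, mem_roots hF0]
        exact hxroot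
      refine ⟨⟨xOf W (Q₀ + T), hmem⟩, ?_⟩
      apply Subtype.ext
      show (key _ (hroot ⟨xOf W (Q₀ + T), hmem⟩)).choose - Q₀ = T
      obtain ⟨hc1, hc2⟩ := (key _ (hroot ⟨xOf W (Q₀ + T), hmem⟩)).choose_spec
      set Q' := (key _ (hroot ⟨xOf W (Q₀ + T), hmem⟩)).choose with hQ'
      have hQ'ne : Q' ≠ 0 := by
        intro h
        rw [h, smul_zero] at hc1
        exact hP0 hc1.symm
      rcases eq_or_eq_neg_of_xOf_eq W hQ'ne hQne hc2 with h | h
      · rw [h]; abel
      · exfalso
        apply hPneg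
        have h3 : n • Q' = -P := by rw [h, smul_neg, hQ]
        rw [hc1] at h3
        exact h3
  rw [← Nat.card_eq_of_bijective φ hφ, Nat.card_eq_fintype_card, Fintype.card_coe, hcard]

/-- The exact count of `n`-torsion points for every `n ≥ 1` invertible in `K`. -/
theorem card_nsmul_eq_zero' (hΔ : W.Δ ≠ 0) {n : ℕ} (hn : 1 ≤ n) (hnK : (n : K) ≠ 0) :
    Nat.card {Q : W.toAffine.Point // n • Q = 0} = n ^ 2 := by
  rcases Nat.lt_or_ge n 2 with h | h
  · have h1 : n = 1 := by omega
    subst h1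
    rw [one_pow]
    have : Unique {Q : W.toAffine.Point // 1 • Q = 0} :=
      { default := ⟨0, smul_zero 1⟩
        uniq := fun Q => Subtype.ext (by have := Q.2; rwa [one_smul] at this) }
    exact Nat.card_unique
  · exact card_nsmul_eq_zero W hΔ h hnK

/-- **`#E[n] = n ^ 2`**: for a Weierstrass curve with `Δ ≠ 0` over an algebraically closed field
and `n ≥ 1` invertible in the field. -/
theorem card_torsionBy_eq_sq (hΔ : W.Δ ≠ 0) {n : ℕ} (hn : 1 ≤ n) (hnK : (n : K) ≠ 0) :
    Nat.card (Submodule.torsionBy ℤ W.toAffine.Point (n : ℤ)) = n ^ 2 := by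
  rw [← card_nsmul_eq_zero' W hΔ hn hnK]
  refine Nat.card_congr (Equiv.subtypeEquivRight fun Q => ?_)
  rw [Submodule.mem_torsionBy_iff, natCast_zsmul]

/-- `E[n]` is finite. -/
theorem finite_torsionBy (hΔ : W.Δ ≠ 0) {n : ℕ} (hn : 1 ≤ n) (hnK : (n : K) ≠ 0) :
    Finite (Submodule.torsionBy ℤ W.toAffine.Point (n : ℤ)) := by
  apply Nat.finite_of_card_ne_zero
  rw [card_torsionBy_eq_sq W hΔ hn hnK]
  positivity

end count

section basechange

variable {F : Type*} [Field F] {K : Type*} [Field K] [DecidableEq K] [IsAlgClosed K]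
  [Algebra F K]

/-- **`#E[n](K) = n ^ 2`** for a Weierstrass curve `E` over a field `F` with `Δ ≠ 0` and an
algebraically closed extension `K` in which `n` is invertible, in the shape used by the prelude
(`Submodule.torsionBy ℤ (E⁄K).Point n`). -/
theorem card_torsionBy_baseChange (E : WeierstrassCurve F) (hΔ : E.Δ ≠ 0) {n : ℕ} (hn : 1 ≤ n)
    (hnK : (n : K) ≠ 0) :
    Nat.card (Submodule.torsionBy ℤ (E⁄K).Point n) = n ^ 2 := by
  have hΔ' : (E.baseChange K).Δ ≠ 0 := by
    rw [WeierstrassCurve.baseChange, WeierstrassCurve.map_Δ]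
    exact fun h => hΔ ((map_eq_zero_iff _ (algebraMap F K).injective).1 h)
  exact card_torsionBy_eq_sq (E.baseChange K) hΔ' hn hnK

/-- **`#E[n](ℚ̄) = n ^ 2`** for a Weierstrass curve over `ℚ` with `Δ ≠ 0`. -/
theorem card_torsionBy_Qbar [DecidableEq (AlgebraicClosure ℚ)] (E : WeierstrassCurve ℚ)
    (hΔ : E.Δ ≠ 0) {n : ℕ} (hn : 1 ≤ n) :
    Nat.card (Submodule.torsionBy ℤ (E⁄(AlgebraicClosure ℚ)).Point n) = n ^ 2 := by
  refine card_torsionBy_baseChange E hΔ hn ?_
  have : n ≠ 0 := by omega
  exact_mod_cast this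

end basechange

end Fermat.Agent.P6.helper78
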