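import Mathlib
import Fermat.Prelude.Def_FLTPrelim_Modularity
import Fermat.Agent.P6.helper31_NCheb
import Fermat.Agent.P6.helper78_TorsionCard

/-!
# P6 / S41, module (N), package [N-CHEB], consumer form (helper31)

`nCheb` : for an elliptic curve `E / ℚ` with integral model `W`, `n ≥ 1` and `m ≠ 0`: if every
Frobenius lift at every prime `ℓ ≡ 1 [MOD m]` of good reduction for `W` (outside an arbitrary
further finite set `Bad`) fixes a non-zero point of `E[n]`, then so does every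
`τ ∈ fixRoots m = G_{ℚ(ζ_m)}`.

No hypothesis on `E[n]` is left: finiteness is `helper78.card_torsionBy_Qbar`.
-/

set_option autoImplicit false
set_option linter.unusedSectionVars false
set_option linter.style.haveILetI false

open WeierstrassCurve WeierstrassCurve.Affine WeierstrassCurve.Affine.Point

namespace Fermat.Agent.P6.helper31

/-- The discriminant of an integral model of an elliptic curve is non-zero. -/
theorem Δ_ne_zero_of_isIntegralModelOf (E : WeierstrassCurve ℚ) [E.IsElliptic]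
    {W : WeierstrassCurve ℤ} (hW : W.IsIntegralModelOf E) : W.Δ ≠ 0 := by
  obtain ⟨C, hC⟩ := hW
  intro h0
  have h1 : (C • E).Δ = 0 := by rw [hC, WeierstrassCurve.map_Δ, h0, _root_.map_zero]
  rw [WeierstrassCurve.variableChange_Δ] at h1
  have h2 : E.Δ ≠ 0 := E.isUnit_Δ.ne_zero
  have h3 : ((C.u⁻¹ : ℚˣ) : ℚ) ^ 12 ≠ 0 := pow_ne_zero _ (Units.ne_zero _)
  exact (mul_ne_zero h3 h2) h1

/-- `E[n]` is finite (`n ≥ 1`, `Δ ≠ 0`). -/
theorem finite_torsionBy_Qbar (E : WeierstrassCurve ℚ) (hΔ : E.Δ ≠ 0) {n : ℕ} (hn : 1 ≤ n) :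
    Finite (Submodule.torsionBy ℤ (E⁄(AlgebraicClosure ℚ)).Point n) := by
  have h := Fermat.Agent.P6.helper78.card_torsionBy_Qbar E hΔ hn
  refine Nat.finite_of_card_ne_zero ?_
  rw [h]
  exact pow_ne_zero _ (by omega)

/-- The primes of bad reduction of `W` form a finite set. -/
theorem isGoodPrimeFor_of_notMem_primeFactors {W : WeierstrassCurve ℤ} {ℓ : ℕ} (hℓ : ℓ.Prime)
    (hΔ : W.Δ ≠ 0) (h : ℓ ∉ W.Δ.natAbs.primeFactors) : W.IsGoodPrimeFor ℓ := by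
  intro hdvd
  apply h
  rw [Nat.mem_primeFactors]
  exact ⟨hℓ, Int.natCast_dvd.1 hdvd, Int.natAbs_ne_zero.2 hΔ⟩

/-- **[N-CHEB]**, consumer form.  `E / ℚ` elliptic with integral model `W`, `n ≥ 1`, `m ≠ 0`,
`Bad` any finite set of primes.  If every Frobenius lift at every prime `ℓ ∉ Bad` of good
reduction with `ℓ ≡ 1 [MOD m]` fixes a non-zero point of `E[n]`, then so does every
`τ ∈ fixRoots m`. -/
theorem nCheb (E : WeierstrassCurve ℚ) [E.IsElliptic] {W : WeierstrassCurve ℤ}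
    (hW : W.IsIntegralModelOf E) {n m : ℕ} (hn : 1 ≤ n) (hm : m ≠ 0) (Bad : Finset ℕ)
    (hfrob : ∀ ℓ : ℕ, ℓ.Prime → W.IsGoodPrimeFor ℓ → ℓ ∉ Bad → ℓ ≡ 1 [MOD m] →
      ∀ A : ValuationSubring (AlgebraicClosure ℚ), A.LiesOverPrime ℓ →
      ∀ σ : AlgebraicClosure ℚ ≃ₐ[ℚ] AlgebraicClosure ℚ, A.IsFrobeniusAt σ ℓ →
        ∃ P : Submodule.torsionBy ℤ (E⁄(AlgebraicClosure ℚ)).Point n, P ≠ 0 ∧ σ • P = P)
    (τ : AlgebraicClosure ℚ ≃ₐ[ℚ] AlgebraicClosure ℚ) (hτ : τ ∈ fixRoots m) :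
    ∃ P : Submodule.torsionBy ℤ (E⁄(AlgebraicClosure ℚ)).Point n, P ≠ 0 ∧ τ • P = P := by
  have hΔ : W.Δ ≠ 0 := Δ_ne_zero_of_isIntegralModelOf E hW
  haveI := finite_torsionBy_Qbar E E.isUnit_Δ.ne_zero hn
  refine exists_fixed_of_frobenius E n hm (Bad ∪ W.Δ.natAbs.primeFactors) ?_ τ
    (mem_fixRoots.1 hτ)
  intro ℓ hℓ hℓB hℓ1 A hA σ hσ
  exact hfrob ℓ hℓ
    (isGoodPrimeFor_of_notMem_primeFactors hℓ hΔ fun h => hℓB (Finset.mem_union_right _ h))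
    (fun h => hℓB (Finset.mem_union_left _ h)) hℓ1 A hA σ hσ

/-- **[N-CHEB]**, contrapositive consumer form: if some `τ ∈ fixRoots m` has no non-zero fixed
point on `E[n]`, then there are a good prime `ℓ ∉ Bad`, `ℓ ≡ 1 [MOD m]`, and a Frobenius lift
at `ℓ` without non-zero fixed point on `E[n]`. -/
theorem exists_frobenius_no_fixed (E : WeierstrassCurve ℚ) [E.IsElliptic]
    {W : WeierstrassCurve ℤ} (hW : W.IsIntegralModelOf E) {n m : ℕ} (hn : 1 ≤ n) (hm : m ≠ 0)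
    (Bad : Finset ℕ) (τ : AlgebraicClosure ℚ ≃ₐ[ℚ] AlgebraicClosure ℚ) (hτ : τ ∈ fixRoots m)
    (hfix : ∀ P : Submodule.torsionBy ℤ (E⁄(AlgebraicClosure ℚ)).Point n, τ • P = P → P = 0) :
    ∃ ℓ : ℕ, ℓ.Prime ∧ W.IsGoodPrimeFor ℓ ∧ ℓ ∉ Bad ∧ ℓ ≡ 1 [MOD m] ∧
      ∃ A : ValuationSubring (AlgebraicClosure ℚ), A.LiesOverPrime ℓ ∧
      ∃ σ : AlgebraicClosure ℚ ≃ₐ[ℚ] AlgebraicClosure ℚ, A.IsFrobeniusAt σ ℓ ∧
        ∀ P : Submodule.torsionBy ℤ (E⁄(AlgebraicClosure ℚ)).Point n, σ • P = P → P = 0 := by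
  by_contra hcon
  obtain ⟨P, hP0, hP⟩ := nCheb E hW hn hm Bad (fun ℓ hℓ hg hB h1 A hA σ hσ => by
    by_contra hno
    exact hcon ⟨ℓ, hℓ, hg, hB, h1, A, hA, σ, hσ, fun P hP => by
      by_contra hP0
      exact hno ⟨P, hP0, hP⟩⟩) τ hτ
  exact hP0 (hfix P hP)

end Fermat.Agent.P6.helper31
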