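import Fermat.Agent.P6.helper78_NDefs
import Fermat.Agent.P6.helper31_NChebE

/-!
# P6 / S41, module (N), package [N-CHEB]: `helper78.ChebFixStatement` verbatim (helper31)

`chebFix : helper78.ChebFixStatement`, from `exists_fixed_of_frobenius`
(`helper31_NCheb.lean`) applied to the rational curve of the integral model `W`.
Also the dictionary `fixesRootsOfUnity_iff` between `helper78.FixesRootsOfUnity m` and the
subgroup `fixRoots m`.
-/

set_option autoImplicit false
set_option linter.unusedSectionVars false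
set_option linter.style.haveILetI false

open WeierstrassCurve WeierstrassCurve.Affine WeierstrassCurve.Affine.Point

namespace Fermat.Agent.P6.helper31

theorem fixesRootsOfUnity_iff {m : ℕ} {τ : Fermat.Agent.P6.helper78.NGQ} :
    Fermat.Agent.P6.helper78.FixesRootsOfUnity m τ ↔ τ ∈ fixRoots m := Iff.rfl

/-- **[N-CHEB]** in the frozen shape of `helper78_NDefs`. -/
theorem chebFix : Fermat.Agent.P6.helper78.ChebFixStatement := by
  intro W p m hp _ hΔ hm hfrob τ hτ
  have hΔ' : (W.map (Int.castRingHom ℚ)).Δ ≠ 0 := by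
    rw [WeierstrassCurve.map_Δ]
    intro h
    exact hΔ ((map_eq_zero_iff _ (RingHom.injective_int (Int.castRingHom ℚ))).1 h)
  haveI := finite_torsionBy_Qbar (W.map (Int.castRingHom ℚ)) hΔ' hp.one_lt.le
  exact exists_fixed_of_frobenius (W.map (Int.castRingHom ℚ)) p hm.ne'
    W.Δ.natAbs.primeFactors
    (fun ℓ hℓ hB h1 A hA σ hσ =>
      hfrob ℓ hℓ h1 (isGoodPrimeFor_of_notMem_primeFactors hℓ hΔ hB) A hA σ hσ) τ hτ

/-- **[N-CHEB]**, stronger form: no hypothesis on `p` beyond `1 ≤ p`, and an arbitrary further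
finite set `Bad` of excluded primes. -/
theorem chebFix_bad (W : WeierstrassCurve ℤ) {p m : ℕ} (hp : 1 ≤ p) (hΔ : W.Δ ≠ 0) (hm : 0 < m)
    (Bad : Finset ℕ)
    (hfrob : ∀ ℓ : ℕ, ℓ.Prime → ℓ ∉ Bad → ℓ ≡ 1 [MOD m] → W.IsGoodPrimeFor ℓ →
      ∀ A : ValuationSubring Fermat.Agent.P6.helper78.NQbar, A.LiesOverPrime ℓ →
      ∀ σ : Fermat.Agent.P6.helper78.NGQ, A.IsFrobeniusAt σ ℓ →
        Fermat.Agent.P6.helper78.HasFix W p σ)
    (τ : Fermat.Agent.P6.helper78.NGQ)
    (hτ : Fermat.Agent.P6.helper78.FixesRootsOfUnity m τ) :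
    Fermat.Agent.P6.helper78.HasFix W p τ := by
  have hΔ' : (W.map (Int.castRingHom ℚ)).Δ ≠ 0 := by
    rw [WeierstrassCurve.map_Δ]
    intro h
    exact hΔ ((map_eq_zero_iff _ (RingHom.injective_int (Int.castRingHom ℚ))).1 h)
  haveI := finite_torsionBy_Qbar (W.map (Int.castRingHom ℚ)) hΔ' hp
  exact exists_fixed_of_frobenius (W.map (Int.castRingHom ℚ)) p hm.ne'
    (Bad ∪ W.Δ.natAbs.primeFactors)
    (fun ℓ hℓ hB h1 A hA σ hσ =>
      hfrob ℓ hℓ (fun h => hB (Finset.mem_union_left _ h)) h1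
        (isGoodPrimeFor_of_notMem_primeFactors hℓ hΔ
          fun h => hB (Finset.mem_union_right _ h)) A hA σ hσ) τ hτ

end Fermat.Agent.P6.helper31
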