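import Mathlib

/-!
# P6 / S41, [LIFT]: the commutative algebra input (helper32)

A version of the Deligne–Serre lifting lemma for a not necessarily injective ring homomorphism
`ι : 𝕋 → A` into a finite-dimensional commutative algebra over an algebraically closed field:
if `ker ι` is contained in the prime ideal `𝔪`, some character of `A` restricts to a character of
`𝕋` with kernel contained in `𝔪`.
-/

set_option autoImplicit false

namespace Fermat.Agent.P6.helper32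

/-- Deligne–Serre lifting for a ring homomorphism with kernel contained in a prime. -/
theorem exists_algHom_ker_le_of_ker_le {K 𝕋 A : Type*} [Field K] [IsAlgClosed K] [CommRing 𝕋]
    [CommRing A] [Algebra K A] [FiniteDimensional K A]
    (ι : 𝕋 →+* A) (𝔪 : Ideal 𝕋) [𝔪.IsPrime] (hker : RingHom.ker ι ≤ 𝔪) :
    ∃ χ : A →ₐ[K] K, ∀ x : 𝕋, χ (ι x) = 0 → x ∈ 𝔪 := by
  obtain ⟨𝔭, h𝔭min, h𝔭le⟩ := Ideal.exists_minimalPrimes_le hker
  obtain ⟨𝔮, h𝔮prime, -, h𝔮comap⟩ :=
    Ideal.exists_comap_eq_of_mem_minimalPrimes (I := ⊥) ι 𝔭 h𝔭min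
  have := h𝔮prime
  have hbij : Function.Bijective (algebraMap K (A ⧸ 𝔮)) :=
    IsAlgClosed.algebraMap_bijective_of_isIntegral
  let e : K ≃ₐ[K] (A ⧸ 𝔮) := AlgEquiv.ofBijective (Algebra.ofId K (A ⧸ 𝔮)) hbij
  refine ⟨(e.symm : (A ⧸ 𝔮) →ₐ[K] K).comp (Ideal.Quotient.mkₐ K 𝔮), fun x hx => ?_⟩
  have h1 : e.symm (Ideal.Quotient.mk 𝔮 (ι x)) = 0 := hx
  have h2 : Ideal.Quotient.mk 𝔮 (ι x) = 0 := by
    have := congrArg e h1
    simpa using this
  have h3 : ι x ∈ 𝔮 := Ideal.Quotient.eq_zero_iff_mem.mp h2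
  have h4 : x ∈ 𝔭 := by
    rw [← h𝔮comap]
    exact h3
  exact h𝔭le h4

end Fermat.Agent.P6.helper32
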