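import Fermat.Agent.P6.helper4_S41Defs
import Fermat.Agent.S21
import Fermat.Agent.S16.helper26_HeckeGlue
import Fermat.Agent.S49.HeckeC

/-!
# P6 / S41, [LIFT]: transport of Hecke polynomials along the period map (helper32)

* `cC M y` : extension of scalars `ℤ ⊆ ℂ` of a character `y : Γ₀(M) → ℤ`;
* `tgen M ℓ` : the Hecke operator at `ℓ` (`T_ℓ` or `U_ℓ`) in the complex Hecke algebra
  `S49.heckeAlgC M`;
* `i0 M` : evaluation of Hecke polynomials in `S49.heckeAlgC M`;
* `period_i0` : if `periodHomPair M x = cC M y`, then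
  `periodHomPair M (P x.1, P x.2) = cC M (P y)` for every Hecke polynomial `P`.
-/

set_option autoImplicit false

open CongruenceSubgroup ModularCurve ModularCurve.Period
open scoped MatrixGroups

namespace Fermat.Agent.P6.helper32

open Fermat.Agent.S16.helper26 Fermat.Agent.S49 Fermat.Agent.P6.helper4

variable (M : ℕ)

/-- extension of scalars of a character from `ℤ` to `ℂ` -/
def cC (y : Additive (Gamma0 M) →+ ℤ) : Additive (Gamma0 M) →+ ℂ := (Int.castAddHom ℂ).comp y

theorem cC_apply (y : Additive (Gamma0 M) →+ ℤ) (γ : Additive (Gamma0 M)) :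
    cC M y γ = ((y γ : ℤ) : ℂ) := rfl

theorem cC_injective : Function.Injective (cC M) := by
  intro y y' h
  refine AddMonoidHom.ext fun γ => ?_
  have := congrArg (fun φ : Additive (Gamma0 M) →+ ℂ => φ γ) h
  simp only [cC_apply] at this
  exact_mod_cast this

theorem cC_zero : cC M 0 = 0 := by
  refine AddMonoidHom.ext fun γ => ?_
  simp [cC_apply]

theorem cC_add (y y' : Additive (Gamma0 M) →+ ℤ) : cC M (y + y') = cC M y + cC M y' := by
  refine AddMonoidHom.ext fun γ => ?_
  simp [cC_apply]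

theorem cC_zsmul (a : ℤ) (y : Additive (Gamma0 M) →+ ℤ) : cC M (a • y) = a • cC M y := by
  refine AddMonoidHom.ext fun γ => ?_
  simp [cC_apply]

theorem cC_heckeHom (ℓ : Nat.Primes) (y : Additive (Gamma0 M) →+ ℤ) :
    cC M (heckeHom M ℓ y) = heckeHom M ℓ (cC M y) :=
  (heckeHom_comp M ℓ (Int.castAddHom ℂ) y).symm

theorem cC_mem_parabolicHoms {y : Additive (Gamma0 M) →+ ℤ} (hy : y ∈ Lat M) :
    cC M y ∈ parabolicHoms ℂ (Gamma0 M) ℂ := by
  intro γ hγ
  have h := hy γ hγ
  rw [cC_apply, h, Int.cast_zero]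

variable [NeZero M]

/-- the Hecke operator at `ℓ` in the complex Hecke algebra -/
noncomputable def tgen (ℓ : Nat.Primes) : heckeAlgC M :=
  heckeIncl M (CuspForm.heckeFormsGen M 2 ℓ)

theorem tgen_val (ℓ : Nat.Primes) :
    ((tgen M ℓ : heckeAlgC M) : Module.End ℂ (CuspForm (Gamma0 M) 2)) =
      (CuspForm.heckeFormsGen M 2 ℓ : Module.End ℂ (CuspForm (Gamma0 M) 2)) :=
  heckeIncl_val M _

/-- evaluation of Hecke polynomials in the complex Hecke algebra -/
noncomputable def i0 : MvPolynomial Nat.Primes ℤ →+* heckeAlgC M :=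
  MvPolynomial.eval₂Hom (Int.castRingHom (heckeAlgC M)) (tgen M)

theorem i0_X (ℓ : Nat.Primes) : i0 M (MvPolynomial.X ℓ) = tgen M ℓ := by
  unfold i0
  rw [MvPolynomial.eval₂Hom_X']

theorem i0_C (a : ℤ) : i0 M (MvPolynomial.C a) = (a : heckeAlgC M) := by
  unfold i0
  rw [MvPolynomial.eval₂Hom_C]
  rfl

/-- the operator on cusp forms attached to a Hecke polynomial -/
noncomputable def opV (P : MvPolynomial Nat.Primes ℤ) : Module.End ℂ (CuspForm (Gamma0 M) 2) :=
  ((i0 M P : heckeAlgC M) : Module.End ℂ (CuspForm (Gamma0 M) 2))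

theorem opV_C (a : ℤ) (f : CuspForm (Gamma0 M) 2) : opV M (MvPolynomial.C a) f = a • f := by
  unfold opV
  rw [i0_C]
  have : (((a : heckeAlgC M) : heckeAlgC M) : Module.End ℂ (CuspForm (Gamma0 M) 2))
      = (a : Module.End ℂ (CuspForm (Gamma0 M) 2)) := rfl
  rw [this]
  simp

theorem opV_add (P Q : MvPolynomial Nat.Primes ℤ) (f : CuspForm (Gamma0 M) 2) :
    opV M (P + Q) f = opV M P f + opV M Q f := by
  unfold opV
  rw [map_add]
  rfl

theorem opV_mul (P Q : MvPolynomial Nat.Primes ℤ) (f : CuspForm (Gamma0 M) 2) :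
    opV M (P * Q) f = opV M P (opV M Q f) := by
  unfold opV
  rw [map_mul]
  rfl

theorem opV_X (ℓ : Nat.Primes) (f : CuspForm (Gamma0 M) 2) :
    opV M (MvPolynomial.X ℓ) f =
      (CuspForm.heckeFormsGen M 2 ℓ : Module.End ℂ (CuspForm (Gamma0 M) 2)) f := by
  unfold opV
  rw [i0_X, tgen_val]

/-- **Equivariance of the period map for Hecke polynomials.** -/
theorem period_i0 (ho : HeckeOps M) (P : MvPolynomial Nat.Primes ℤ) :
    ∀ (y : Lat M) (x : CuspForm (Gamma0 M) 2 × CuspForm (Gamma0 M) 2),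
      periodHomPair M x = cC M (y : Additive (Gamma0 M) →+ ℤ) →
      periodHomPair M (opV M P x.1, opV M P x.2)
        = cC M ((ho.act P y : Lat M) : Additive (Gamma0 M) →+ ℤ) := by
  induction P using MvPolynomial.induction_on with
  | C a =>
    intro y x hx
    rw [opV_C, opV_C, ho.act_C]
    have h1 : ((a • x.1, a • x.2) : CuspForm (Gamma0 M) 2 × CuspForm (Gamma0 M) 2) = a • x := rfl
    rw [h1, map_zsmul, hx]
    have h2 : (((a • (1 : Module.End ℤ (Lat M))) y : Lat M) : Additive (Gamma0 M) →+ ℤ)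
        = a • (y : Additive (Gamma0 M) →+ ℤ) := rfl
    rw [h2, cC_zsmul]
  | add P Q hP hQ =>
    intro y x hx
    rw [opV_add, opV_add, ho.act_add]
    have h1 : ((opV M P x.1 + opV M Q x.1, opV M P x.2 + opV M Q x.2) :
        CuspForm (Gamma0 M) 2 × CuspForm (Gamma0 M) 2)
        = (opV M P x.1, opV M P x.2) + (opV M Q x.1, opV M Q x.2) := rfl
    rw [h1, map_add, hP y x hx, hQ y x hx]
    have h2 : (((ho.act P + ho.act Q) y : Lat M) : Additive (Gamma0 M) →+ ℤ)
        = ((ho.act P y : Lat M) : Additive (Gamma0 M) →+ ℤ)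
          + ((ho.act Q y : Lat M) : Additive (Gamma0 M) →+ ℤ) := rfl
    rw [h2, cC_add]
  | mul_X P ℓ hP =>
    intro y x hx
    rw [opV_mul, opV_mul, ho.act_mul, ho.act_X, opV_X, opV_X]
    have h1 : periodHomPair M (heckePair M ℓ x)
        = cC M ((ho.T ℓ y : Lat M) : Additive (Gamma0 M) →+ ℤ) := by
      rw [periodHomPair_heckePair, hx, ho.T_coe, cC_heckeHom]
    exact hP (ho.T ℓ y) (heckePair M ℓ x) h1

end Fermat.Agent.P6.helper32
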