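import Fermat.Agent.P6.helper32_LiftAlg
import Fermat.Agent.P6.helper32_LiftPeriod
import Fermat.Agent.S23

/-!
# P6 / S41, [LIFT]: the core statement (helper32)

`lift_core`: let `B` be a set of integral parabolic classes of level `M` on which `U_q² = 1`
(`q ∣ M`), and let `G` be a set of primes not dividing `M`.  If every Hecke polynomial in the
`T_ℓ`, `ℓ ∈ G`, which kills `B` satisfies `p ∣ P(a)`, then there is a normalised eigenform `g` of
level `M` with `a_q(g)² = 1` and a maximal ideal `𝔪' ∋ p` of `ℤ̄` with `a_ℓ(g) ≡ a ℓ mod 𝔪'` for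
`ℓ ∈ G`.
-/

set_option autoImplicit false

open CongruenceSubgroup ModularCurve ModularCurve.Period
open scoped MatrixGroups

namespace Fermat.Agent.P6.helper32

open Fermat.Agent.S16.helper26 Fermat.Agent.S49 Fermat.Agent.P6.helper4

/-- `S₂(Γ₀(M))` is spanned by the forms with integral `q`-expansion (from S23). -/
theorem hasIntegralBasis_all (M : ℕ) [NeZero M] : CuspForm.HasIntegralBasis M := by
  have h := Fermat.Agent.S23.result M
  unfold CuspForm.HasIntegralStructure CuspForm.intLattice at h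
  rw [Submodule.span_span_of_tower] at h
  unfold CuspForm.HasIntegralBasis CuspForm.qIntegralSet
  rw [← h]
  congr 1
  ext f
  simp only [Set.mem_ofPred_eq, Subring.mem_bot]
  constructor
  · intro hf n
    obtain ⟨m, hm⟩ := hf n
    exact ⟨m, hm.symm⟩
  · intro hf n
    obtain ⟨m, hm⟩ := hf n
    exact ⟨m, hm.symm⟩

section Ren

variable (G : Set Nat.Primes) (a : Nat.Primes → ℤ) (p : ℕ)

/-- the inclusion of the polynomial ring on the primes of `G` -/
noncomputable def ren : MvPolynomial G ℤ →+* MvPolynomial Nat.Primes ℤ :=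
  (MvPolynomial.rename (Subtype.val : G → Nat.Primes)).toRingHom

theorem ren_apply (P : MvPolynomial G ℤ) :
    ren G P = MvPolynomial.rename (Subtype.val : G → Nat.Primes) P := rfl

theorem ren_vars (P : MvPolynomial G ℤ) : ∀ ℓ ∈ (ren G P).vars, ℓ ∈ G := by
  classical
  intro ℓ hℓ
  have h := MvPolynomial.vars_rename (Subtype.val : G → Nat.Primes) P hℓ
  obtain ⟨x, -, rfl⟩ := Finset.mem_image.mp h
  exact x.2

theorem ren_X (ℓ : G) : ren G (MvPolynomial.X ℓ) = MvPolynomial.X (ℓ : Nat.Primes) := by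
  rw [ren_apply, MvPolynomial.rename_X]

theorem ren_C (c : ℤ) : ren G (MvPolynomial.C c) = MvPolynomial.C c := by
  rw [ren_apply, MvPolynomial.rename_C]

/-- evaluation at `a` modulo `p` -/
noncomputable def evp : MvPolynomial G ℤ →+* ZMod p :=
  MvPolynomial.eval₂Hom (Int.castRingHom (ZMod p)) (fun ℓ : G => ((a ℓ : ℤ) : ZMod p))

theorem evp_eq (P : MvPolynomial G ℤ) :
    evp G a p P = ((MvPolynomial.eval a (ren G P) : ℤ) : ZMod p) := by
  rw [ren_apply, MvPolynomial.eval_rename]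
  unfold evp
  have h := MvPolynomial.eval₂_comp_left (Int.castRingHom (ZMod p)) (RingHom.id ℤ)
    (fun ℓ : G => a ℓ) P
  simp only [MvPolynomial.coe_eval₂Hom]
  have h2 : (Int.castRingHom (ZMod p)).comp (RingHom.id ℤ) = Int.castRingHom (ZMod p) :=
    RingHom.comp_id _
  rw [h2] at h
  have h3 : (⇑(Int.castRingHom (ZMod p)) ∘ fun ℓ : G => a ℓ)
      = fun ℓ : G => ((a ℓ : ℤ) : ZMod p) := rfl
  rw [h3] at h
  rw [← h]
  rfl

theorem mem_ker_evp {P : MvPolynomial G ℤ} (h : (p : ℤ) ∣ MvPolynomial.eval a (ren G P)) :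
    P ∈ RingHom.ker (evp G a p) := by
  rw [RingHom.mem_ker, evp_eq]
  exact (ZMod.intCast_zmod_eq_zero_iff_dvd _ p).mpr h

theorem natCast_mem_ker_evp : (MvPolynomial.C (p : ℤ) : MvPolynomial G ℤ) ∈ RingHom.ker (evp G a p) := by
  rw [RingHom.mem_ker]
  unfold evp
  rw [MvPolynomial.coe_eval₂Hom, MvPolynomial.eval₂_C]
  simp

theorem X_sub_C_mem_ker_evp (ℓ : G) :
    (MvPolynomial.X ℓ - MvPolynomial.C (a ℓ) : MvPolynomial G ℤ) ∈ RingHom.ker (evp G a p) := by
  rw [RingHom.mem_ker]
  unfold evp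
  rw [map_sub, MvPolynomial.coe_eval₂Hom, MvPolynomial.eval₂_C, MvPolynomial.eval₂_X]
  simp

end Ren

end Fermat.Agent.P6.helper32
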