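import Fermat.Agent.P6.helper32_LiftCore

/-!
# P6 / S41, [LIFT]: the core statement and `lift_of : HB3Statement → LiftStatement` (helper32)
-/

set_option autoImplicit false

open CongruenceSubgroup ModularCurve ModularCurve.Period ModularFormClass
open scoped MatrixGroups

namespace Fermat.Agent.P6.helper32

open Fermat.Agent.S16.helper26 Fermat.Agent.S49 Fermat.Agent.P6.helper4

section Ann

variable (M : ℕ) [NeZero M]

/-- the annihilator of a set of cusp forms, as an ideal of the complex Hecke algebra -/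
def annIdeal (Y : Set (CuspForm (Gamma0 M) 2)) : Ideal (heckeAlgC M) where
  carrier := {T | ∀ f ∈ Y, ((T : heckeAlgC M) : Module.End ℂ (CuspForm (Gamma0 M) 2)) f = 0}
  zero_mem' := fun f _ => rfl
  add_mem' := by
    intro S T hS hT f hf
    have h : (((S + T : heckeAlgC M)) : Module.End ℂ (CuspForm (Gamma0 M) 2)) f
        = (S : Module.End ℂ (CuspForm (Gamma0 M) 2)) f
          + (T : Module.End ℂ (CuspForm (Gamma0 M) 2)) f := rfl
    rw [h, hS f hf, hT f hf, add_zero]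
  smul_mem' := by
    intro S T hT f hf
    have h : (((S • T : heckeAlgC M)) : Module.End ℂ (CuspForm (Gamma0 M) 2)) f
        = (S : Module.End ℂ (CuspForm (Gamma0 M) 2))
          ((T : Module.End ℂ (CuspForm (Gamma0 M) 2)) f) := rfl
    rw [h, hT f hf, map_zero]

theorem mem_annIdeal {Y : Set (CuspForm (Gamma0 M) 2)} {T : heckeAlgC M} :
    T ∈ annIdeal M Y ↔
      ∀ f ∈ Y, ((T : heckeAlgC M) : Module.End ℂ (CuspForm (Gamma0 M) 2)) f = 0 := Iff.rfl

/-- the cusp forms occurring as components of the periods of the classes of `B` -/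
def compForms (B : Set (Lat M)) : Set (CuspForm (Gamma0 M) 2) :=
  {f | ∃ y ∈ B, ∃ x : CuspForm (Gamma0 M) 2 × CuspForm (Gamma0 M) 2,
    periodHomPair M x = cC M ((y : Lat M) : Additive (Gamma0 M) →+ ℤ) ∧ (f = x.1 ∨ f = x.2)}

theorem exists_period (y : Lat M) : ∃ x : CuspForm (Gamma0 M) 2 × CuspForm (Gamma0 M) 2,
    periodHomPair M x = cC M ((y : Lat M) : Additive (Gamma0 M) →+ ℤ) := by
  have h : cC M ((y : Lat M) : Additive (Gamma0 M) →+ ℤ) ∈ LinearMap.range (periodHomPair M) := by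
    rw [(Fermat.Agent.S21.result M).2]
    exact cC_mem_parabolicHoms M y.2
  exact h

theorem prod_eq_zero_of_period {x : CuspForm (Gamma0 M) 2 × CuspForm (Gamma0 M) 2}
    (h : periodHomPair M x = 0) : x = 0 :=
  (Fermat.Agent.S21.result M).1 (by rw [h, map_zero])

/-- a Hecke polynomial killing `B` kills the components of the periods of `B` -/
theorem i0_mem_annIdeal (ho : HeckeOps M) (B : Set (Lat M)) (P : MvPolynomial Nat.Primes ℤ)
    (hP : ∀ y ∈ B, ho.act P y = 0) : i0 M P ∈ annIdeal M (compForms M B) := by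
  rintro f ⟨y, hy, x, hx, hf⟩
  have h1 := period_i0 M ho P y x hx
  rw [hP y hy] at h1
  have h2 : (((0 : Lat M)) : Additive (Gamma0 M) →+ ℤ) = 0 := rfl
  rw [h2, cC_zero] at h1
  have h3 := prod_eq_zero_of_period M h1
  have h4 : opV M P x.1 = 0 := congrArg Prod.fst h3
  have h5 : opV M P x.2 = 0 := congrArg Prod.snd h3
  rcases hf with rfl | rfl
  · exact h4
  · exact h5

/-- conversely, a Hecke polynomial killing the components of the periods of `B` kills `B` -/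
theorem act_eq_zero_of_mem_annIdeal (ho : HeckeOps M) (B : Set (Lat M))
    (P : MvPolynomial Nat.Primes ℤ) (hP : i0 M P ∈ annIdeal M (compForms M B)) :
    ∀ y ∈ B, ho.act P y = 0 := by
  intro y hy
  obtain ⟨x, hx⟩ := exists_period M y
  have h1 : opV M P x.1 = 0 := hP x.1 ⟨y, hy, x, hx, Or.inl rfl⟩
  have h2 : opV M P x.2 = 0 := hP x.2 ⟨y, hy, x, hx, Or.inr rfl⟩
  have h3 := period_i0 M ho P y x hx
  rw [h1, h2] at h3
  have h4 : ((0, 0) : CuspForm (Gamma0 M) 2 × CuspForm (Gamma0 M) 2) = 0 := rfl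
  rw [h4, map_zero] at h3
  have h5 : ((ho.act P y : Lat M) : Additive (Gamma0 M) →+ ℤ) = 0 := by
    apply cC_injective M
    rw [cC_zero]
    exact h3.symm
  exact Subtype.ext h5

/-- `U_q² - 1` kills the components of the periods of `B` if `U_q² = 1` on `B` -/
theorem uq_mem_annIdeal (q : Nat.Primes) (B : Set (Lat M))
    (hU : ∀ y ∈ B, heckeHom M q (heckeHom M q ((y : Lat M) : Additive (Gamma0 M) →+ ℤ)) = y) :
    tgen M q ^ 2 - 1 ∈ annIdeal M (compForms M B) := by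
  rintro f ⟨y, hy, x, hx, hf⟩
  have h1 : periodHomPair M (heckePair M q (heckePair M q x)) = periodHomPair M x := by
    rw [periodHomPair_heckePair, periodHomPair_heckePair, hx, ← cC_heckeHom, ← cC_heckeHom,
      hU y hy]
  have h2 : heckePair M q (heckePair M q x) = x := (Fermat.Agent.S21.result M).1 h1
  have h3 : ∀ f' : CuspForm (Gamma0 M) 2,
      (((tgen M q ^ 2 - 1 : heckeAlgC M)) : Module.End ℂ (CuspForm (Gamma0 M) 2)) f'
        = (CuspForm.heckeFormsGen M 2 q : Module.End ℂ (CuspForm (Gamma0 M) 2))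
            ((CuspForm.heckeFormsGen M 2 q : Module.End ℂ (CuspForm (Gamma0 M) 2)) f') - f' := by
    intro f'
    rw [← tgen_val]
    rw [pow_two]
    rfl
  rw [h3]
  rcases hf with rfl | rfl
  · have := congrArg Prod.fst h2
    exact sub_eq_zero.mpr this
  · have := congrArg Prod.snd h2
    exact sub_eq_zero.mpr this

end Ann

section Core

variable (M : ℕ) [NeZero M]

theorem qCoeff_tgen_of_eigen (χ : heckeAlgC M →ₐ[ℂ] ℂ)
    (g : CuspForm (Gamma0 M) 2) (hg1 : qCoeff ⇑g 1 = 1)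
    (hg : ∀ T : heckeAlgC M, (T : Module.End ℂ (CuspForm (Gamma0 M) 2)) g = χ T • g)
    (ℓ : Nat.Primes) : qCoeff ⇑g (ℓ : ℕ) = χ (tgen M ℓ) := by
  by_cases hℓ : (ℓ : ℕ) ∣ M
  · have h1 := hg (tgen M ℓ)
    rw [tgen_val, CuspForm.heckeFormsGen_of_dvd hℓ] at h1
    have h2 : qCoeff ⇑(CuspForm.heckeULin 2 hℓ g) 1 = χ (tgen M ℓ) * qCoeff ⇑g 1 := by
      rw [← qc_smul]
      exact congrArg (fun f : CuspForm (Gamma0 M) 2 => qCoeff ⇑f 1) h1
    rw [qc_heckeU ℓ.2 hℓ, one_mul, hg1, mul_one] at h2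
    exact h2
  · rw [qCoeff_prime_of_eigen χ g hg1 hg ℓ.2 hℓ]
    unfold tgen
    rw [CuspForm.heckeFormsGen_of_not_dvd hℓ]

theorem isIntegral_tgen (χ : heckeAlgC M →ₐ[ℂ] ℂ) (ℓ : Nat.Primes) :
    IsIntegral ℤ (χ (tgen M ℓ)) :=
  isIntegral_char (hasIntegralBasis_all M) χ _

/-- **Core of [LIFT]**. -/
theorem lift_core (q : Nat.Primes) (p : ℕ) (hp : p.Prime) (G : Set Nat.Primes)
    (a : Nat.Primes → ℤ) (ho : HeckeOps M) (B : Set (Lat M))
    (hU : ∀ y ∈ B, heckeHom M q (heckeHom M q ((y : Lat M) : Additive (Gamma0 M) →+ ℤ)) = y)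
    (H : ∀ P : MvPolynomial Nat.Primes ℤ, (∀ ℓ ∈ P.vars, ℓ ∈ G) →
      (∀ y ∈ B, ho.act P y = 0) → (p : ℤ) ∣ MvPolynomial.eval a P) :
    ∃ (g : CuspForm (Gamma0 M) 2) (𝔪' : Ideal (integralClosure ℤ ℂ)),
      g.IsNormalizedEigenform ∧ 𝔪'.IsMaximal ∧ (p : integralClosure ℤ ℂ) ∈ 𝔪' ∧
      (∀ ℓ ∈ G, ∃ x : integralClosure ℤ ℂ, (x : ℂ) = qCoeff ⇑g ((ℓ : Nat.Primes) : ℕ) ∧
        x - ((a ℓ : ℤ) : integralClosure ℤ ℂ) ∈ 𝔪') ∧
      qCoeff ⇑g (q : ℕ) ^ 2 = 1 := by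
  have : Fact p.Prime := ⟨hp⟩
  have hfinV : FiniteDimensional ℂ (CuspForm (Gamma0 M) 2) :=
    Fermat.Agent.S23.helper87.finiteDimensional_cuspForm_Gamma0 M 2
  have hfinA : FiniteDimensional ℂ (heckeAlgC M) :=
    (exists_vector_of_pairing (heckeRep M) (heckeRep_injective M) (qcLin M 2 1)
      (pairing_nondeg M) 0).1
  -- the ideal `𝔞` of the Hecke algebra and the quotient
  set 𝔞 : Ideal (heckeAlgC M) := annIdeal M (compForms M B) with h𝔞
  have hfinQ : FiniteDimensional ℂ (heckeAlgC M ⧸ 𝔞) :=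
    Module.Finite.of_surjective (Ideal.Quotient.mkₐ ℂ 𝔞).toLinearMap
      (Ideal.Quotient.mkₐ_surjective ℂ 𝔞)
  -- the ring homomorphism `ι`
  let ι : MvPolynomial G ℤ →+* (heckeAlgC M ⧸ 𝔞) :=
    (Ideal.Quotient.mk 𝔞).comp ((i0 M).comp (ren G))
  have h𝔫prime : (RingHom.ker (evp G a p)).IsPrime := RingHom.ker_isPrime (evp G a p)
  have hker : RingHom.ker ι ≤ RingHom.ker (evp G a p) := by
    intro P hP
    have h1 : Ideal.Quotient.mk 𝔞 (i0 M (ren G P)) = 0 := hP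
    have h2 : i0 M (ren G P) ∈ 𝔞 := Ideal.Quotient.eq_zero_iff_mem.mp h1
    exact mem_ker_evp G a p
      (H (ren G P) (ren_vars G P) (act_eq_zero_of_mem_annIdeal M ho B (ren G P) h2))
  obtain ⟨χ, hχ⟩ := exists_algHom_ker_le_of_ker_le (K := ℂ) ι (RingHom.ker (evp G a p)) hker
  -- the character of the Hecke algebra and its eigenform
  let χ' : heckeAlgC M →ₐ[ℂ] ℂ := χ.comp (Ideal.Quotient.mkₐ ℂ 𝔞)
  have hχ' : ∀ T : heckeAlgC M, χ' T = χ (Ideal.Quotient.mk 𝔞 T) := fun T => rfl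
  obtain ⟨g, hg1, hg⟩ := exists_eigenform_of_character χ'
  have hgN := isNormalizedEigenform_of_eigen χ' g hg1 hg
  -- the eigenvalue at `q`
  have hq2 : qCoeff ⇑g (q : ℕ) ^ 2 = 1 := by
    rw [qCoeff_tgen_of_eigen M χ' g hg1 hg q]
    have h1 : tgen M q ^ 2 - 1 ∈ 𝔞 := uq_mem_annIdeal M q B hU
    have h2 : χ' (tgen M q ^ 2 - 1) = 0 := by
      rw [hχ', Ideal.Quotient.eq_zero_iff_mem.mpr h1, map_zero]
    rw [map_sub, map_pow, map_one] at h2
    exact sub_eq_zero.mp h2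
  -- the ring homomorphism to `ℤ̄`
  let φ : MvPolynomial G ℤ →+* integralClosure ℤ ℂ :=
    MvPolynomial.eval₂Hom (Int.castRingHom (integralClosure ℤ ℂ))
      (fun ℓ : G => ⟨χ' (tgen M ℓ), isIntegral_tgen M χ' ℓ⟩)
  have hφ : ∀ P : MvPolynomial G ℤ, ((φ P : integralClosure ℤ ℂ) : ℂ) = χ (ι P) := by
    intro P
    have h1 : ((algebraMap (integralClosure ℤ ℂ) ℂ).comp φ) =
        ((χ : (heckeAlgC M ⧸ 𝔞) →+* ℂ).comp ι) := by
      apply MvPolynomial.ringHom_ext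
      · intro c
        simp
      · intro ℓ
        show ((φ (MvPolynomial.X ℓ) : integralClosure ℤ ℂ) : ℂ)
          = χ (Ideal.Quotient.mk 𝔞 (i0 M (ren G (MvPolynomial.X ℓ))))
        rw [ren_X, i0_X, ← hχ']
        show ((MvPolynomial.eval₂Hom (Int.castRingHom (integralClosure ℤ ℂ))
          (fun ℓ : G => (⟨χ' (tgen M ℓ), isIntegral_tgen M χ' ℓ⟩ : integralClosure ℤ ℂ))
          (MvPolynomial.X ℓ) : integralClosure ℤ ℂ) : ℂ) = _
        rw [MvPolynomial.eval₂Hom_X']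
    exact congrArg (fun f : MvPolynomial G ℤ →+* ℂ => f P) h1
  obtain ⟨𝔪', hmax, hle⟩ := exists_maximal_ideal_map_le φ (RingHom.ker (evp G a p))
    h𝔫prime.ne_top
    (fun x hx => hχ x (by
      have h1 : φ x = 0 := hx
      rw [← hφ, h1]
      rfl))
  refine ⟨g, 𝔪', hgN, hmax, ?_, ?_, hq2⟩
  · have h1 := hle _ (natCast_mem_ker_evp G a p)
    have h2 : φ (MvPolynomial.C (p : ℤ)) = (p : integralClosure ℤ ℂ) := by
      show MvPolynomial.eval₂Hom (Int.castRingHom (integralClosure ℤ ℂ)) _ _ = _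
      rw [MvPolynomial.eval₂Hom_C]
      simp
    rwa [h2] at h1
  · intro ℓ hℓ
    refine ⟨⟨χ' (tgen M ℓ), isIntegral_tgen M χ' ℓ⟩, ?_, ?_⟩
    · exact (qCoeff_tgen_of_eigen M χ' g hg1 hg ℓ).symm
    · have h1 := hle _ (X_sub_C_mem_ker_evp G a p ⟨ℓ, hℓ⟩)
      have h2 : φ (MvPolynomial.X (⟨ℓ, hℓ⟩ : G) - MvPolynomial.C (a ℓ))
          = (⟨χ' (tgen M ℓ), isIntegral_tgen M χ' ℓ⟩ : integralClosure ℤ ℂ)
            - ((a ℓ : ℤ) : integralClosure ℤ ℂ) := by
        rw [map_sub]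
        show MvPolynomial.eval₂Hom (Int.castRingHom (integralClosure ℤ ℂ)) _ _
          - MvPolynomial.eval₂Hom (Int.castRingHom (integralClosure ℤ ℂ)) _ _ = _
        rw [MvPolynomial.eval₂Hom_C, MvPolynomial.eval₂Hom_X']
        rfl
      rwa [h2] at h1

end Core

/-- **[LIFT+P]** from [HB3]. -/
theorem lift_of (hb3 : HB3Statement) : LiftStatement := by
  intro W p N q hp hp2 hN hq hqN hqp ho H
  have : NeZero (N * q) := ⟨Nat.mul_ne_zero hN.ne' hq.ne_zero⟩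
  obtain ⟨g, 𝔪', hgN, hmax, hpm, hcong, hq2⟩ :=
    lift_core (N * q) ⟨q, hq⟩ p hp {ℓ : Nat.Primes | GoodPrime W N q p ℓ}
      (fun ℓ : Nat.Primes => W.apOfModel ℓ) ho
      {y : Lat (N * q) | b1 N q ℤ (y : Additive (Gamma0 (N * q)) →+ ℤ) = 0 ∧
        b2 N q hq.ne_zero ℤ (y : Additive (Gamma0 (N * q)) →+ ℤ) = 0}
      (fun y hy => hb3 N q hq.ne_zero hN hq hqN _ hy.1 hy.2)
      (fun P hP hB => H P hP (fun y h1 h2 => hB y ⟨h1, h2⟩))
  refine ⟨g, 𝔪', hgN, hmax, hpm, ?_, hq2⟩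
  intro ℓ hℓ hgood hℓN hℓp
  exact hcong ⟨ℓ, hℓ⟩ ⟨hgood, hℓN, hℓp⟩

end Fermat.Agent.P6.helper32
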