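import Fermat.Agent.P6.helper21_DualStmts

/-!
# P6 / S41, module (D), package [D-ADJ] (second prover): restriction / transfer adjunction

`adj_of : ParLiftStatement → HeisLiftStatement → ModelStatement → PushResStatement →
  CorParStatement → AdjStatement` (shapes of `helper21_DualStmts`, verbatim).

Route (BLUEPRINT P6-D v1): for `Γ' ≤ Γ`, `pr : G ⧸ Γ' → G ⧸ Γ`, take a `T`-normalised cocycle
`Φ` of `x` on `G ⧸ Γ`, pull it back to `G ⧸ Γ'`, take a Heisenberg lift `Ψ'` of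
`(pr^* Φ, Φ_y)` and push it forward (fibre sums of `b`, `c`) to a Heisenberg cocycle `Ψ` on
`G ⧸ Γ`; the model formula on both sides gives
`Bl Γ' (res x) y = ∑ (Ψ' T).c = ∑ (Ψ T).c = Bl Γ x (cor y)`.
-/

set_option autoImplicit false

open scoped MatrixGroups
open Matrix.SpecialLinearGroup ModularCurve.Period

namespace Fermat.Agent.P6.helper38

open Fermat.Agent.S16.helper21 (CoGrp)
open Fermat.Agent.S21.helper83 (x0)
open Fermat.Agent.P6.helper21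

section Fibre

variable {Γ' Γ : Subgroup SL(2, ℤ)} (h : Γ' ≤ Γ)

/-- The projection `G ⧸ Γ' → G ⧸ Γ`. -/
def prQ : SL(2, ℤ) ⧸ Γ' → SL(2, ℤ) ⧸ Γ := Subgroup.quotientMapOfLE h

lemma prQ_mk (g : SL(2, ℤ)) : prQ h (g : SL(2, ℤ) ⧸ Γ') = (g : SL(2, ℤ) ⧸ Γ) := rfl

lemma prQ_smul (g : SL(2, ℤ)) (z : SL(2, ℤ) ⧸ Γ') : prQ h (g • z) = g • prQ h z := by
  induction z using QuotientGroup.induction_on
  rfl

lemma prQ_x0 : prQ h (x0 Γ') = x0 Γ := rfl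

open Classical in
/-- The sum of `F` over the fibre of `pr` above `z`. -/
noncomputable def fibSum [Fintype (SL(2, ℤ) ⧸ Γ')] (F : SL(2, ℤ) ⧸ Γ' → ℤ)
    (z : SL(2, ℤ) ⧸ Γ) : ℤ :=
  ∑ z' with prQ h z' = z, F z'

variable [Fintype (SL(2, ℤ) ⧸ Γ')]

lemma fibSum_zero (z : SL(2, ℤ) ⧸ Γ) : fibSum h (fun _ => 0) z = 0 := by
  unfold fibSum
  exact Finset.sum_const_zero

lemma fibSum_add (F F' : SL(2, ℤ) ⧸ Γ' → ℤ) (z : SL(2, ℤ) ⧸ Γ) :
    fibSum h (fun z' => F z' + F' z') z = fibSum h F z + fibSum h F' z := by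
  unfold fibSum
  exact Finset.sum_add_distrib

lemma fibSum_mul_pr (a : SL(2, ℤ) ⧸ Γ → ℤ) (F : SL(2, ℤ) ⧸ Γ' → ℤ) (z : SL(2, ℤ) ⧸ Γ) :
    fibSum h (fun z' => a (prQ h z') * F z') z = a z * fibSum h F z := by
  classical
  unfold fibSum
  rw [Finset.mul_sum]
  refine Finset.sum_congr rfl fun z' hz' => ?_
  show a (prQ h z') * F z' = a z * F z'
  rw [(Finset.mem_filter.mp hz').2]

lemma fibSum_smul (F : SL(2, ℤ) ⧸ Γ' → ℤ) (g : SL(2, ℤ)) (z : SL(2, ℤ) ⧸ Γ) :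
    fibSum h (fun z' => F (g • z')) z = fibSum h F (g • z) := by
  classical
  unfold fibSum
  refine Finset.sum_equiv (MulAction.toPerm g) (fun z' => ?_) (fun z' _ => rfl)
  simp only [Finset.mem_filter, Finset.mem_univ, true_and, MulAction.toPerm_apply, prQ_smul]
  exact ⟨fun e => by rw [e], fun e => smul_left_cancel g e⟩

lemma sum_fibSum [Fintype (SL(2, ℤ) ⧸ Γ)] (F : SL(2, ℤ) ⧸ Γ' → ℤ) :
    ∑ z, fibSum h F z = ∑ z', F z' := by
  classical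
  unfold fibSum
  exact Finset.sum_fiberwise Finset.univ (prQ h) F

end Fibre

section Cocycles

variable {Γ' Γ : Subgroup SL(2, ℤ)} (h : Γ' ≤ Γ)

/-- Pull-back of a cocycle along `pr : G ⧸ Γ' → G ⧸ Γ`. -/
def pullC (Φ : SL(2, ℤ) →* CoGrp (SL(2, ℤ) ⧸ Γ) ℤ) (hΦ : IsOverC Γ Φ) :
    SL(2, ℤ) →* CoGrp (SL(2, ℤ) ⧸ Γ') ℤ where
  toFun g := ⟨fun z' => (Φ g).f (prQ h z'), MulAction.toPerm g⟩
  map_one' := by
    ext z'
    · show (Φ 1).f (prQ h z') = 0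
      rw [map_one]
      rfl
    · simp
  map_mul' g g' := by
    ext z'
    · show (Φ (g * g')).f (prQ h z') = (Φ g).f (prQ h (g' • z')) + (Φ g').f (prQ h z')
      rw [CoGrp.hom_f_mul Φ hΦ, prQ_smul]
    · simp [mul_smul]

@[simp] lemma pullC_f (Φ : SL(2, ℤ) →* CoGrp (SL(2, ℤ) ⧸ Γ) ℤ) (hΦ : IsOverC Γ Φ)
    (g : SL(2, ℤ)) (z' : SL(2, ℤ) ⧸ Γ') : (pullC h Φ hΦ g).f z' = (Φ g).f (prQ h z') := rfl

lemma pullC_isOverC (Φ : SL(2, ℤ) →* CoGrp (SL(2, ℤ) ⧸ Γ) ℤ) (hΦ : IsOverC Γ Φ) :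
    IsOverC Γ' (pullC h Φ hΦ) := fun _ => rfl

variable [Fintype (SL(2, ℤ) ⧸ Γ')]

/-- Push-forward (fibre sums of `b` and `c`) of a Heisenberg cocycle on `G ⧸ Γ'` whose first
cocycle is pulled back from `G ⧸ Γ`. -/
noncomputable def pushH (Φ : SL(2, ℤ) →* CoGrp (SL(2, ℤ) ⧸ Γ) ℤ) (hΦ : IsOverC Γ Φ)
    (Ψ' : SL(2, ℤ) →* Heis (SL(2, ℤ) ⧸ Γ')) (hΨ' : IsOverH Γ' Ψ')
    (hA : ∀ g z', (Ψ' g).a z' = (Φ g).f (prQ h z')) :
    SL(2, ℤ) →* Heis (SL(2, ℤ) ⧸ Γ) where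
  toFun g := ⟨(Φ g).f, fibSum h (Ψ' g).b, fibSum h (Ψ' g).c, MulAction.toPerm g⟩
  map_one' := by
    ext z
    · show (Φ 1).f z = 0
      rw [map_one]
      rfl
    · show fibSum h (Ψ' 1).b z = 0
      rw [map_one]
      exact fibSum_zero h z
    · show fibSum h (Ψ' 1).c z = 0
      rw [map_one]
      exact fibSum_zero h z
    · simp
  map_mul' g g' := by
    have hσ : ∀ z', (Ψ' g').σ z' = g' • z' := fun z' => by rw [hΨ' g']; rfl
    ext z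
    · show (Φ (g * g')).f z = (Φ g).f (g' • z) + (Φ g').f z
      exact CoGrp.hom_f_mul Φ hΦ g g' z
    · show fibSum h (Ψ' (g * g')).b z = fibSum h (Ψ' g).b (g' • z) + fibSum h (Ψ' g').b z
      rw [← fibSum_smul, ← fibSum_add]
      congr 1
      funext z'
      rw [map_mul, Heis.mul_b, hσ]
    · show fibSum h (Ψ' (g * g')).c z =
        fibSum h (Ψ' g).c (g' • z) + fibSum h (Ψ' g').c z + (Φ g).f (g' • z) * fibSum h (Ψ' g').b z
      rw [← fibSum_smul, ← fibSum_add, ← fibSum_mul_pr h (fun w => (Φ g).f (g' • w)),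
        ← fibSum_add]
      congr 1
      funext z'
      rw [map_mul, Heis.mul_c, hσ, hA g (g' • z'), prQ_smul]
    · simp [mul_smul]

end Cocycles

/-- **[D-TRANSFER], part 1.** The restriction to `Γ` at `x0` of the fibre-sum push-forward of a
cocycle on `G ⧸ Γ'` restricting to `y` is the transfer `corHom h y`. -/
def PushResStatement : Prop :=
  ∀ (Γ' Γ : Subgroup SL(2, ℤ)) [Γ'.FiniteIndex] [Γ.FiniteIndex] (h : Γ' ≤ Γ)
    [(Γ'.subgroupOf Γ).FiniteIndex] [Fintype (SL(2, ℤ) ⧸ Γ')],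
    ∀ (y : Additive Γ' →+ ℤ) (Φ' : SL(2, ℤ) →* CoGrp (SL(2, ℤ) ⧸ Γ') ℤ), IsOverC Γ' Φ' →
      (∀ γ' : Γ', (Φ' (γ' : SL(2, ℤ))).f (x0 Γ') = y (Additive.ofMul γ')) →
      ∀ γ : Γ, fibSum h (Φ' (γ : SL(2, ℤ))).f (x0 Γ) = corHom h y (Additive.ofMul γ)

/-- **[D-TRANSFER], part 2.** The transfer of a parabolic hom is parabolic. -/
def CorParStatement : Prop :=
  ∀ (Γ' Γ : Subgroup SL(2, ℤ)) [Γ'.FiniteIndex] [Γ.FiniteIndex] (h : Γ' ≤ Γ)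
    [(Γ'.subgroupOf Γ).FiniteIndex],
    ∀ y : Additive Γ' →+ ℤ, IsParabolicHom Γ' y → IsParabolicHom Γ (corHom h y)

/-- The restriction of a parabolic hom is parabolic. -/
lemma isParabolicHom_resHom {Γ' Γ : Subgroup SL(2, ℤ)} (h : Γ' ≤ Γ) {x : Additive Γ →+ ℤ}
    (hx : IsParabolicHom Γ x) : IsParabolicHom Γ' (resHom h x) := fun γ hγ =>
  hx (Subgroup.inclusion h γ) hγ

/-- **[D-ADJ]**, verbatim, from [D-LIFT], [D-HEIS], [D-MODEL] and [D-TRANSFER]. -/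
theorem adj_of (hL : ParLiftStatement) (hH : HeisLiftStatement) (hM : ModelStatement)
    (hT : PushResStatement) (hP : CorParStatement) : AdjStatement := by
  intro Γ' Γ _ _ h _ hneg x y hx hy
  have hnegΓ : (-1 : SL(2, ℤ)) ∈ Γ := h hneg
  have hcor : IsParabolicHom Γ (corHom h y) := hP Γ' Γ h y hy
  refine ⟨hcor, ?_⟩
  let _i1 : Fintype (SL(2, ℤ) ⧸ Γ') := Subgroup.fintypeQuotientOfFiniteIndex
  let _i2 : Fintype (SL(2, ℤ) ⧸ Γ) := Subgroup.fintypeQuotientOfFiniteIndex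
  obtain ⟨Φ, hΦ, hΦx, hΦT⟩ := hL Γ hnegΓ x hx
  obtain ⟨Φy, hΦy, hΦyy, -⟩ := hL Γ' hneg y hy
  obtain ⟨Ψ', hΨ', hΨa, hΨb⟩ := hH Γ' hneg (pullC h Φ hΦ) Φy (pullC_isOverC h Φ hΦ) hΦy
  have hA : ∀ g z', (Ψ' g).a z' = (Φ g).f (prQ h z') := fun g z' => by
    have := congrArg (fun Θ : SL(2, ℤ) →* CoGrp (SL(2, ℤ) ⧸ Γ') ℤ => (Θ g).f z') hΨa
    exact this
  have hB : ∀ g z', (Ψ' g).b z' = (Φy g).f z' := fun g z' => by
    have := congrArg (fun Θ : SL(2, ℤ) →* CoGrp (SL(2, ℤ) ⧸ Γ') ℤ => (Θ g).f z') hΨb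
    exact this
  -- the model formula upstairs
  have h1 : Bl Γ' (resHom h x) y = ∑ z', (Ψ' ModularGroup.T).c z' := by
    refine hM Γ' hneg Ψ' (resHom h x) y hΨ' ?_ ?_ ?_ (isParabolicHom_resHom h hx) hy
    · funext z'
      rw [hA, hΦT]
      rfl
    · intro γ'
      rw [hA, prQ_x0]
      exact hΦx (Subgroup.inclusion h γ')
    · intro γ'
      rw [hB]
      exact hΦyy γ'
  -- the model formula downstairs
  set Ψ := pushH h Φ hΦ Ψ' hΨ' hA with hΨ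
  have h2 : Bl Γ x (corHom h y) = ∑ z, (Ψ ModularGroup.T).c z := by
    refine hM Γ hnegΓ Ψ x (corHom h y) (fun _ => rfl) ?_ ?_ ?_ hx hcor
    · exact hΦT
    · intro γ
      exact hΦx γ
    · intro γ
      show fibSum h (Ψ' (γ : SL(2, ℤ))).b (x0 Γ) = corHom h y (Additive.ofMul γ)
      have e : (Ψ' (γ : SL(2, ℤ))).b = (Φy (γ : SL(2, ℤ))).f := funext (hB _)
      rw [e]
      exact hT Γ' Γ h y Φy hΦy hΦyy γ
  rw [h1, h2]
  show ∑ z', (Ψ' ModularGroup.T).c z' = ∑ z, fibSum h (Ψ' ModularGroup.T).c z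
  exact (sum_fibSum h _).symm

end Fermat.Agent.P6.helper38
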