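import Fermat.Agent.P6.helper38_DAdj

/-!
# P6 / S41, module (D), package [D-ADJ]: variant consuming [D-TRANSFER] for `shapiro` only

`adj_of_shapiro : ParLiftStatement → HeisLiftStatement → ModelStatement → PushShapStatement →
  CorParStatement → AdjStatement`, where `PushShapStatement` is the push-forward formula for
the Shapiro cocycle `shapiro Γ' y` only (the shape (T2) of the [D-TRANSFER] owner).
-/

set_option autoImplicit false

open scoped MatrixGroups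
open Matrix.SpecialLinearGroup ModularCurve.Period

namespace Fermat.Agent.P6.helper38

open Fermat.Agent.S16.helper21 (CoGrp shapiro shapiro_f_x0)
open Fermat.Agent.S21.helper83 (x0)
open Fermat.Agent.P6.helper21

/-- **[D-TRANSFER] (T2).** The fibre sum at `x0` of the Shapiro cocycle of `y` is the transfer
`corHom h y`. -/
def PushShapStatement : Prop :=
  ∀ (Γ' Γ : Subgroup SL(2, ℤ)) [Γ'.FiniteIndex] [Γ.FiniteIndex] (h : Γ' ≤ Γ)
    [(Γ'.subgroupOf Γ).FiniteIndex] [Fintype (SL(2, ℤ) ⧸ Γ')],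
    ∀ (y : Additive Γ' →+ ℤ) (γ : Γ),
      fibSum h (shapiro Γ' y (γ : SL(2, ℤ))).f (x0 Γ) = corHom h y (Additive.ofMul γ)

/-- The general push-forward formula implies the one for the Shapiro cocycle. -/
theorem pushShap_of_pushRes (hT : PushResStatement) : PushShapStatement := by
  intro Γ' Γ _ _ h _ _ y γ
  exact hT Γ' Γ h y (shapiro Γ' y) (fun _ => rfl) (fun γ' => shapiro_f_x0 Γ' y γ') γ

/-- **[D-ADJ]**, verbatim, from [D-LIFT], [D-HEIS], [D-MODEL] and [D-TRANSFER] in the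
Shapiro form. -/
theorem adj_of_shapiro (hL : ParLiftStatement) (hH : HeisLiftStatement) (hM : ModelStatement)
    (hT : PushShapStatement) (hP : CorParStatement) : AdjStatement := by
  intro Γ' Γ _ _ h _ hneg x y hx hy
  have hnegΓ : (-1 : SL(2, ℤ)) ∈ Γ := h hneg
  have hcor : IsParabolicHom Γ (corHom h y) := hP Γ' Γ h y hy
  refine ⟨hcor, ?_⟩
  let _i1 : Fintype (SL(2, ℤ) ⧸ Γ') := Subgroup.fintypeQuotientOfFiniteIndex
  let _i2 : Fintype (SL(2, ℤ) ⧸ Γ) := Subgroup.fintypeQuotientOfFiniteIndex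
  obtain ⟨Φ, hΦ, hΦx, hΦT⟩ := hL Γ hnegΓ x hx
  have hΦy : IsOverC Γ' (shapiro Γ' y) := fun _ => rfl
  obtain ⟨Ψ', hΨ', hΨa, hΨb⟩ :=
    hH Γ' hneg (pullC h Φ hΦ) (shapiro Γ' y) (pullC_isOverC h Φ hΦ) hΦy
  have hA : ∀ g z', (Ψ' g).a z' = (Φ g).f (prQ h z') := fun g z' => by
    have := congrArg (fun Θ : SL(2, ℤ) →* CoGrp (SL(2, ℤ) ⧸ Γ') ℤ => (Θ g).f z') hΨa
    exact this
  have hB : ∀ g z', (Ψ' g).b z' = (shapiro Γ' y g).f z' := fun g z' => by
    have := congrArg (fun Θ : SL(2, ℤ) →* CoGrp (SL(2, ℤ) ⧸ Γ') ℤ => (Θ g).f z') hΨb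
    exact this
  have h1 : Bl Γ' (resHom h x) y = ∑ z', (Ψ' ModularGroup.T).c z' := by
    refine hM Γ' hneg Ψ' (resHom h x) y hΨ' ?_ ?_ ?_ (isParabolicHom_resHom h hx) hy
    · funext z'
      rw [hA, hΦT]
      rfl
    · intro γ'
      rw [hA, prQ_x0]
      exact hΦx (Subgroup.inclusion h γ')
    · intro γ'
      rw [hB]
      exact shapiro_f_x0 Γ' y γ'
  set Ψ := pushH h Φ hΦ Ψ' hΨ' hA with hΨ
  have h2 : Bl Γ x (corHom h y) = ∑ z, (Ψ ModularGroup.T).c z := by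
    refine hM Γ hnegΓ Ψ x (corHom h y) (fun _ => rfl) ?_ ?_ ?_ hx hcor
    · exact hΦT
    · intro γ
      exact hΦx γ
    · intro γ
      show fibSum h (Ψ' (γ : SL(2, ℤ))).b (x0 Γ) = corHom h y (Additive.ofMul γ)
      have e : (Ψ' (γ : SL(2, ℤ))).b = (shapiro Γ' y (γ : SL(2, ℤ))).f := funext (hB _)
      rw [e]
      exact hT Γ' Γ h y γ
  rw [h1, h2]
  show ∑ z', (Ψ' ModularGroup.T).c z' = ∑ z, fibSum h (Ψ' ModularGroup.T).c z
  exact (sum_fibSum h _).symm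

end Fermat.Agent.P6.helper38
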