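import Mathlib

/-!
# P6 / S41 (HB), (D): the transfer via right coset representatives (helper62)

Mathlib only.

* `transfer_eq_prod_of_rel` : if the `t i` represent the right cosets `H \ G` and
  `t i * g = h i * t (s i)` with `h i ∈ H`, then `MonoidHom.transfer ϕ g = ∏ i, ϕ (h i)`;
* `bijective_of_existsUnique` : the hypothesis on `t` from "every `g` lies in exactly one
  `H * t i`".
-/

set_option autoImplicit false
set_option linter.unusedSectionVars false
set_option linter.unusedVariables false
set_option linter.style.longLine false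
set_option linter.style.haveILetI false

namespace Fermat.Agent.P6.helper62

open Subgroup MonoidHom

section Transfer

variable {G : Type*} [Group G] {H : Subgroup G} {A : Type*} [CommGroup A]

/-- **Transfer via right coset representatives.**  Let `t i` (`i : ι`) be a system of
representatives of the right cosets `H \ G` (equivalently, the `(t i)⁻¹` represent the left cosets
`G ⧸ H`), and let `t i * g = h i * t (s i)` with `h i ∈ H`.  Then
`transfer ϕ g = ∏ i, ϕ (h i)`. -/
theorem transfer_eq_prod_of_rel [H.FiniteIndex] (ϕ : H →* A) {ι : Type*} [Fintype ι] (t : ι → G)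
    (ht : Function.Bijective (fun i => (((t i)⁻¹ : G) : G ⧸ H)))
    (g : G) (s : ι → ι) (h : ι → H) (hrel : ∀ i, t i * g = (h i : G) * t (s i)) :
    transfer ϕ g = ∏ i, ϕ (h i) := by
  classical
  let e : ι ≃ G ⧸ H := Equiv.ofBijective _ ht
  have he : ∀ i, e i = (((t i)⁻¹ : G) : G ⧸ H) := fun i => rfl
  let f : G ⧸ H → G := fun q => (t (e.symm q))⁻¹
  have hf : ∀ q, ((f q : G) : G ⧸ H) = q := by
    intro q
    show (((t (e.symm q))⁻¹ : G) : G ⧸ H) = q
    rw [← he, Equiv.apply_symm_apply]
  let T : H.LeftTransversal := ⟨Set.range f, isComplement_range_left hf⟩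
  have hT : ∀ q, ((T.2.leftQuotientEquiv q : T.1) : G) = f q :=
    fun q => IsComplement.leftQuotientEquiv_apply hf q
  -- the permutation
  have hs : ∀ i, e (s i) = g⁻¹ • e i := by
    intro i
    rw [he, he]
    show (((t (s i))⁻¹ : G) : G ⧸ H) = ((g⁻¹ * (t i)⁻¹ : G) : G ⧸ H)
    rw [QuotientGroup.eq]
    have : ((t (s i))⁻¹)⁻¹ * (g⁻¹ * (t i)⁻¹) = ((h i : G))⁻¹ := by
      have h1 := hrel i
      have h2 : t (s i) = ((h i : G))⁻¹ * (t i * g) := by rw [h1]; group
      rw [inv_inv, h2]; group
    rw [this]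
    exact H.inv_mem (h i).2
  letI := H.fintypeQuotientOfFiniteIndex
  rw [transfer_def ϕ T g]
  unfold leftTransversals.diff
  rw [← Equiv.prod_comp e]
  refine Finset.prod_congr rfl fun i _ => ?_
  congr 1
  apply Subtype.ext
  show ((T.2.leftQuotientEquiv (e i) : T.1) : G)⁻¹ *
    (((g • T).2.leftQuotientEquiv (e i) : (g • T).1) : G) = (h i : G)
  rw [hT, Subgroup.smul_apply_eq_smul_apply_inv_smul, hT, ← hs]
  show ((t (e.symm (e i)))⁻¹)⁻¹ * (g * (t (e.symm (e (s i))))⁻¹) = (h i : G)
  rw [Equiv.symm_apply_apply, Equiv.symm_apply_apply, inv_inv, ← mul_assoc, hrel i]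
  group

/-- The `t i` represent the right cosets of `H` as soon as every `g` lies in exactly one
`H * t i`. -/
theorem bijective_of_existsUnique {ι : Type*} (t : ι → G)
    (h : ∀ g : G, ∃! i, g * (t i)⁻¹ ∈ H) :
    Function.Bijective (fun i => (((t i)⁻¹ : G) : G ⧸ H)) := by
  constructor
  · intro i j hij
    have hij' : (((t i)⁻¹ : G) : G ⧸ H) = (((t j)⁻¹ : G) : G ⧸ H) := hij
    rw [QuotientGroup.eq, inv_inv] at hij'
    obtain ⟨k, -, hk⟩ := h (t i)
    have h1 : i = k := hk i (by
      show t i * (t i)⁻¹ ∈ H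
      rw [mul_inv_cancel]; exact H.one_mem)
    have h2 : j = k := hk j hij'
    rw [h1, h2]
  · intro q
    induction q using QuotientGroup.induction_on with
    | H g =>
      obtain ⟨i, hi, -⟩ := h g⁻¹
      refine ⟨i, ?_⟩
      show (((t i)⁻¹ : G) : G ⧸ H) = (g : G ⧸ H)
      rw [QuotientGroup.eq, inv_inv]
      have : t i * g = (g⁻¹ * (t i)⁻¹)⁻¹ := by group
      rw [this]
      exact H.inv_mem hi

end Transfer

end Fermat.Agent.P6.helper62
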