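import Mathlib
import Fermat.Agent.P6.helper21_DualStmts
import Fermat.Agent.P6.helper62_TransferFormula

/-!
# P6 / S41, module (D) duality, package [D-TRANSFER] (helper82, task 892), part 1

`G = SL(2, ℤ)`, `Γ' ≤ Γ ≤ G`, `pr : G ⧸ Γ' → G ⧸ Γ` (`prQ h`), `Fib h` the fibre of `pr` over the
base coset `x0 Γ` (it is `Γ ⧸ Γ'`, see `fibRep_bijective`).

* `corHom_eq_sum_fib` : the transfer `helper21.corHom h y` (Mathlib `MonoidHom.transfer`) is the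
  sum of the Schreier cocycle of `y` over the fibre:
  `corHom h y γ = ∑ i : Fib h, y (sch Γ' γ i)`;
* `corHom_isParabolicHom` : the transfer of a parabolic hom is parabolic (first conjunct of
  `helper21.AdjStatement`);
* `trace_pow_sq_eq_four` : powers of elements of trace `± 2` have trace `± 2`.
-/

set_option autoImplicit false
set_option linter.style.haveILetI false
set_option linter.unusedSimpArgs false

open scoped MatrixGroups
open Matrix.SpecialLinearGroup ModularCurve.Period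

noncomputable section

namespace Fermat.Agent.P6.helper82

open Fermat.Agent.S16.helper21 (CoGrp shapiro shapiro_f shapiro_σ)
open Fermat.Agent.S21.helper83 (x0 sch sch_mul smul_x0 smul_x0_of_mem)
open Fermat.Agent.P6.helper21 (corHom resHom IsOverC)

/-- Cayley-Hamilton for `SL(2, ℤ)`. -/
lemma sl2_sq (γ : SL(2, ℤ)) :
    (γ : Matrix (Fin 2) (Fin 2) ℤ) * (γ : Matrix (Fin 2) (Fin 2) ℤ) =
      (γ : Matrix (Fin 2) (Fin 2) ℤ).trace • (γ : Matrix (Fin 2) (Fin 2) ℤ) - 1 := by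
  have hdet : γ 0 0 * γ 1 1 - γ 0 1 * γ 1 0 = 1 := by
    have := γ.det_coe
    rw [Matrix.det_fin_two] at this
    exact this
  ext i j
  fin_cases i <;> fin_cases j <;>
    simp only [Matrix.mul_apply, Fin.sum_univ_two, Matrix.trace_fin_two, Matrix.sub_apply,
      Matrix.smul_apply, smul_eq_mul, Matrix.one_apply, Fin.zero_eta, Fin.mk_one, Fin.isValue,
      if_true, one_ne_zero, zero_ne_one, if_false] <;>
    first | ring1 | linear_combination (-1 : ℤ) * hdet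

lemma trace_pow_rec (γ : SL(2, ℤ)) (m : ℕ) :
    ((γ : Matrix (Fin 2) (Fin 2) ℤ) ^ (m + 2)).trace =
      (γ : Matrix (Fin 2) (Fin 2) ℤ).trace * ((γ : Matrix (Fin 2) (Fin 2) ℤ) ^ (m + 1)).trace -
        ((γ : Matrix (Fin 2) (Fin 2) ℤ) ^ m).trace := by
  have h : (γ : Matrix (Fin 2) (Fin 2) ℤ) ^ (m + 2) =
      (γ : Matrix (Fin 2) (Fin 2) ℤ).trace • (γ : Matrix (Fin 2) (Fin 2) ℤ) ^ (m + 1) -
        (γ : Matrix (Fin 2) (Fin 2) ℤ) ^ m := by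
    rw [pow_add, pow_two, sl2_sq, mul_sub, mul_one, Matrix.mul_smul, ← pow_succ]
  rw [h, Matrix.trace_sub, Matrix.trace_smul, smul_eq_mul]

/-- the trace of a power of an element of trace `± 2` is `± 2`. -/
theorem trace_pow_sq_eq_four (γ : SL(2, ℤ))
    (hγ : (γ : Matrix (Fin 2) (Fin 2) ℤ).trace ^ 2 = 4) (m : ℕ) :
    (((γ ^ m : SL(2, ℤ)) : Matrix (Fin 2) (Fin 2) ℤ)).trace ^ 2 = 4 := by
  rw [Matrix.SpecialLinearGroup.coe_pow]
  set t := (γ : Matrix (Fin 2) (Fin 2) ℤ).trace with ht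
  have key : ∀ m : ℕ, ((γ : Matrix (Fin 2) (Fin 2) ℤ) ^ m).trace ^ 2 = 4 ∧
      ((γ : Matrix (Fin 2) (Fin 2) ℤ) ^ (m + 1)).trace * 2 =
        t * ((γ : Matrix (Fin 2) (Fin 2) ℤ) ^ m).trace := by
    intro m
    induction m with
    | zero =>
      refine ⟨?_, ?_⟩
      · simp [Matrix.trace_fin_two]
      · simp [ht]
    | succ m ih =>
      obtain ⟨h1, h2⟩ := ih
      have h3 := trace_pow_rec γ m
      rw [← ht] at h3
      refine ⟨?_, ?_⟩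
      · have : (((γ : Matrix (Fin 2) (Fin 2) ℤ) ^ (m + 1)).trace * 2) ^ 2 = 16 := by
          rw [h2, mul_pow, hγ, h1]
          norm_num
        nlinarith
      · rw [h3]
        have h4 : 2 * (t * ((γ : Matrix (Fin 2) (Fin 2) ℤ) ^ (m + 1)).trace) =
            4 * ((γ : Matrix (Fin 2) (Fin 2) ℤ) ^ m).trace := by
          linear_combination t * h2 + ((γ : Matrix (Fin 2) (Fin 2) ℤ) ^ m).trace * hγ
        linarith
  exact (key m).1


variable {Γ' Γ : Subgroup SL(2, ℤ)} (h : Γ' ≤ Γ)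

/-- the projection `G ⧸ Γ' → G ⧸ Γ` -/
abbrev prQ : SL(2, ℤ) ⧸ Γ' → SL(2, ℤ) ⧸ Γ := Subgroup.quotientMapOfLE h

lemma prQ_mk (g : SL(2, ℤ)) : prQ h (g : SL(2, ℤ) ⧸ Γ') = (g : SL(2, ℤ) ⧸ Γ) := rfl

lemma prQ_smul (g : SL(2, ℤ)) (x' : SL(2, ℤ) ⧸ Γ') : prQ h (g • x') = g • prQ h x' := by
  induction x' using QuotientGroup.induction_on with
  | H a => rfl

lemma prQ_out (x' : SL(2, ℤ) ⧸ Γ') :
    ((Quotient.out x' : SL(2, ℤ)) : SL(2, ℤ) ⧸ Γ) = prQ h x' := by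
  conv_rhs => rw [← QuotientGroup.out_eq' x']
  rfl

/-- the fibre of `pr` over the base coset -/
abbrev Fib : Type := {x' : SL(2, ℤ) ⧸ Γ' // prQ h x' = x0 Γ}

lemma out_mem_of_fib (i : Fib h) : (Quotient.out (i : SL(2, ℤ) ⧸ Γ') : SL(2, ℤ)) ∈ Γ := by
  have h1 : ((Quotient.out (i : SL(2, ℤ) ⧸ Γ') : SL(2, ℤ)) : SL(2, ℤ) ⧸ Γ) =
      ((1 : SL(2, ℤ)) : SL(2, ℤ) ⧸ Γ) := (prQ_out h (i : SL(2, ℤ) ⧸ Γ')).trans i.2
  rw [QuotientGroup.eq] at h1
  have h2 := Γ.inv_mem h1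
  simpa using h2

/-- the representative of a point of the fibre, in `Γ` -/
def fibRep (i : Fib h) : Γ := ⟨Quotient.out (i : SL(2, ℤ) ⧸ Γ'), out_mem_of_fib h i⟩

/-- `Γ` acts on the fibre -/
def fibSmul (γ : Γ) (i : Fib h) : Fib h :=
  ⟨(γ : SL(2, ℤ)) • (i : SL(2, ℤ) ⧸ Γ'), by rw [prQ_smul, i.2, smul_x0_of_mem Γ γ.2]⟩

lemma fibRep_bijective :
    Function.Bijective (fun i : Fib h => ((fibRep h i : Γ) : Γ ⧸ Γ'.subgroupOf Γ)) := by
  constructor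
  · intro i j hij
    have h1 : ((fibRep h i : Γ) : Γ ⧸ Γ'.subgroupOf Γ) = ((fibRep h j : Γ) : Γ ⧸ Γ'.subgroupOf Γ) :=
      hij
    rw [QuotientGroup.eq, Subgroup.mem_subgroupOf] at h1
    apply Subtype.ext
    have h2 : ((Quotient.out (i : SL(2, ℤ) ⧸ Γ') : SL(2, ℤ)) : SL(2, ℤ) ⧸ Γ') =
        ((Quotient.out (j : SL(2, ℤ) ⧸ Γ') : SL(2, ℤ)) : SL(2, ℤ) ⧸ Γ') := by
      rw [QuotientGroup.eq]
      simpa [fibRep] using h1
    rwa [QuotientGroup.out_eq', QuotientGroup.out_eq'] at h2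
  · intro q
    induction q using QuotientGroup.induction_on with
    | H γ =>
      have hfib : prQ h (((γ : SL(2, ℤ)) : SL(2, ℤ) ⧸ Γ')) = x0 Γ := by
        rw [prQ_mk, ← smul_x0, smul_x0_of_mem Γ γ.2]
      refine ⟨⟨((γ : SL(2, ℤ)) : SL(2, ℤ) ⧸ Γ'), hfib⟩, ?_⟩
      show ((fibRep h ⟨_, hfib⟩ : Γ) : Γ ⧸ Γ'.subgroupOf Γ) = (γ : Γ ⧸ Γ'.subgroupOf Γ)
      rw [QuotientGroup.eq, Subgroup.mem_subgroupOf]
      have h3 : ((Quotient.out (((γ : SL(2, ℤ)) : SL(2, ℤ) ⧸ Γ')) : SL(2, ℤ)) : SL(2, ℤ) ⧸ Γ') =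
          ((γ : SL(2, ℤ)) : SL(2, ℤ) ⧸ Γ') := QuotientGroup.out_eq' _
      rw [QuotientGroup.eq] at h3
      simpa [fibRep] using h3

/-- the action of `γ ∈ Γ` on the fibre, as a permutation -/
def fibPerm (γ : Γ) : Equiv.Perm (Fib h) where
  toFun := fibSmul h γ
  invFun := fibSmul h γ⁻¹
  left_inv i := by
    apply Subtype.ext
    show ((γ⁻¹ : Γ) : SL(2, ℤ)) • ((γ : SL(2, ℤ)) • (i : SL(2, ℤ) ⧸ Γ')) = i
    rw [Subgroup.coe_inv, inv_smul_smul]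
  right_inv i := by
    apply Subtype.ext
    show (γ : SL(2, ℤ)) • (((γ⁻¹ : Γ) : SL(2, ℤ)) • (i : SL(2, ℤ) ⧸ Γ')) = i
    rw [Subgroup.coe_inv, smul_inv_smul]

lemma fibPerm_apply (γ : Γ) (i : Fib h) :
    ((fibPerm h γ i : Fib h) : SL(2, ℤ) ⧸ Γ') = (γ : SL(2, ℤ)) • (i : SL(2, ℤ) ⧸ Γ') := rfl

lemma fibPerm_symm_apply (γ : Γ) (i : Fib h) :
    (((fibPerm h γ).symm i : Fib h) : SL(2, ℤ) ⧸ Γ') =
      (γ : SL(2, ℤ))⁻¹ • (i : SL(2, ℤ) ⧸ Γ') := rfl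

/-- the Schreier element `sch Γ' γ (γ⁻¹ • i)`, as an element of `Γ'.subgroupOf Γ` -/
def fibH (γ : Γ) (i : Fib h) : Γ'.subgroupOf Γ :=
  ⟨(fibRep h i)⁻¹ * γ * fibRep h ((fibPerm h γ).symm i), by
    rw [Subgroup.mem_subgroupOf]
    have h1 := (sch Γ' (γ : SL(2, ℤ)) ((γ : SL(2, ℤ))⁻¹ • (i : SL(2, ℤ) ⧸ Γ'))).2
    have h2 : ((sch Γ' (γ : SL(2, ℤ)) ((γ : SL(2, ℤ))⁻¹ • (i : SL(2, ℤ) ⧸ Γ')) : Γ') :
        SL(2, ℤ)) = (((fibRep h i)⁻¹ * γ * fibRep h ((fibPerm h γ).symm i) : Γ) : SL(2, ℤ)) := by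
      simp only [sch, fibRep, Subgroup.coe_mul, Subgroup.coe_inv, fibPerm_symm_apply,
        smul_inv_smul]
      group
    rw [← h2]
    exact h1⟩

lemma fibH_coe (γ : Γ) (i : Fib h) :
    Subgroup.subgroupOfEquivOfLe h (fibH h γ i) =
      sch Γ' (γ : SL(2, ℤ)) ((γ : SL(2, ℤ))⁻¹ • (i : SL(2, ℤ) ⧸ Γ')) := by
  apply Subtype.ext
  show (((fibRep h i)⁻¹ * γ * fibRep h ((fibPerm h γ).symm i) : Γ) : SL(2, ℤ)) = _
  simp only [sch, fibRep, Subgroup.coe_mul, Subgroup.coe_inv, fibPerm_symm_apply,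
    smul_inv_smul]
  group

variable [(Γ'.subgroupOf Γ).FiniteIndex]

lemma finite_fib : Finite (Fib h) :=
  Finite.of_injective _ (fibRep_bijective h).1

/-- **[D-TRANSFER], core formula**: the transfer is the sum of the Schreier cocycle over the
fibre of `G ⧸ Γ' → G ⧸ Γ` over the base coset. -/
theorem corHom_eq_sum_fib [Fintype (Fib h)] (y : Additive Γ' →+ ℤ) (γ : Γ) :
    corHom h y (Additive.ofMul γ) =
      ∑ i : Fib h, y (Additive.ofMul (sch Γ' (γ : SL(2, ℤ)) (i : SL(2, ℤ) ⧸ Γ'))) := by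
  have key := Fermat.Agent.P6.helper62.transfer_eq_prod_of_rel
    (H := Γ'.subgroupOf Γ)
    ((AddMonoidHom.toMultiplicativeRight y).comp (Subgroup.subgroupOfEquivOfLe h).toMonoidHom)
    (fun i : Fib h => (fibRep h i)⁻¹)
    (by simpa using fibRep_bijective h) γ (fun i => (fibPerm h γ).symm i) (fibH h γ)
    (fun i => by
      show (fibRep h i)⁻¹ * γ = ((fibRep h i)⁻¹ * γ * fibRep h ((fibPerm h γ).symm i)) *
        (fibRep h ((fibPerm h γ).symm i))⁻¹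
      group)
  have h1 : corHom h y (Additive.ofMul γ) = Multiplicative.toAdd (MonoidHom.transfer
      ((AddMonoidHom.toMultiplicativeRight y).comp
        (Subgroup.subgroupOfEquivOfLe h).toMonoidHom) γ) := rfl
  rw [h1, key, toAdd_prod, ← Equiv.sum_comp (fibPerm h γ)]
  refine Finset.sum_congr rfl fun i _ => ?_
  show y (Additive.ofMul (Subgroup.subgroupOfEquivOfLe h (fibH h γ (fibPerm h γ i)))) = _
  rw [fibH_coe, fibPerm_apply, inv_smul_smul]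

omit [(Γ'.subgroupOf Γ).FiniteIndex] in
lemma fibPerm_pow_apply (γ : Γ) (j : ℕ) (i : Fib h) :
    ((((fibPerm h γ) ^ j) i : Fib h) : SL(2, ℤ) ⧸ Γ') =
      (γ : SL(2, ℤ)) ^ j • (i : SL(2, ℤ) ⧸ Γ') := by
  induction j generalizing i with
  | zero => simp
  | succ j ih =>
    rw [pow_succ, Equiv.Perm.mul_apply, ih, fibPerm_apply, pow_succ, mul_smul]

/-- **[D-TRANSFER]**: the transfer of a parabolic hom is parabolic. -/
theorem corHom_isParabolicHom (y : Additive Γ' →+ ℤ) (hy : IsParabolicHom Γ' y) :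
    IsParabolicHom Γ (corHom h y) := by
  classical
  intro γ hγ
  haveI : Finite (Fib h) := finite_fib h
  letI : Fintype (Fib h) := Fintype.ofFinite _
  rw [corHom_eq_sum_fib h y γ]
  have hΦ : ∀ g, (shapiro Γ' y g).σ = MulAction.toPerm g := fun g => rfl
  obtain ⟨m, hm, hpow⟩ := (isOfFinOrder_of_finite (fibPerm h γ)).exists_pow_eq_one
  -- each orbit sum vanishes
  have horb : ∀ i : Fib h, ∑ j ∈ Finset.range m,
      y (Additive.ofMul (sch Γ' ((γ : SL(2, ℤ))) ((γ : SL(2, ℤ)) ^ j • (i : SL(2, ℤ) ⧸ Γ')))) =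
        0 := by
    intro i
    have h1 := CoGrp.hom_f_pow (shapiro Γ' y) hΦ (γ : SL(2, ℤ)) m (i : SL(2, ℤ) ⧸ Γ')
    simp only [shapiro_f] at h1
    rw [← h1]
    apply hy
    have hfix : (γ : SL(2, ℤ)) ^ m • (i : SL(2, ℤ) ⧸ Γ') = i := by
      rw [← fibPerm_pow_apply, hpow]
      rfl
    rw [Fermat.Agent.S21.helper83.trace_sch_of_fixed Γ' _ _ hfix]
    exact trace_pow_sq_eq_four (γ : SL(2, ℤ)) hγ m
  -- averaging
  have hsum : ∀ j : ℕ, ∑ i : Fib h,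
      y (Additive.ofMul (sch Γ' ((γ : SL(2, ℤ))) ((γ : SL(2, ℤ)) ^ j • (i : SL(2, ℤ) ⧸ Γ')))) =
        ∑ i : Fib h, y (Additive.ofMul (sch Γ' (γ : SL(2, ℤ)) (i : SL(2, ℤ) ⧸ Γ'))) := by
    intro j
    rw [← Equiv.sum_comp ((fibPerm h γ) ^ j)
      (fun i : Fib h => y (Additive.ofMul (sch Γ' (γ : SL(2, ℤ)) (i : SL(2, ℤ) ⧸ Γ'))))]
    refine Finset.sum_congr rfl fun i _ => ?_
    rw [fibPerm_pow_apply]
  have htot : (m : ℤ) * ∑ i : Fib h,
      y (Additive.ofMul (sch Γ' (γ : SL(2, ℤ)) (i : SL(2, ℤ) ⧸ Γ'))) = 0 := by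
    have h2 : ∑ j ∈ Finset.range m, ∑ i : Fib h,
        y (Additive.ofMul (sch Γ' ((γ : SL(2, ℤ)))
          ((γ : SL(2, ℤ)) ^ j • (i : SL(2, ℤ) ⧸ Γ')))) = 0 := by
      rw [Finset.sum_comm]
      exact Finset.sum_eq_zero fun i _ => horb i
    rw [Finset.sum_congr rfl (fun j _ => hsum j), Finset.sum_const, Finset.card_range,
      nsmul_eq_mul] at h2
    exact h2
  rcases mul_eq_zero.1 htot with h0 | h0
  · exact absurd (by exact_mod_cast h0) hm.ne'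
  · exact h0

end Fermat.Agent.P6.helper82
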