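import Fermat.Agent.P6.helper21_DualStmts

/-!
# P6 / S41, module (D) duality, package [D-MODEL] (helper83, second prover of row 888)

`model_of : BlEqStatement → OrbStatement → TrivConjStatement → ModelStatement`:
for a Heisenberg cocycle `Ψ` over the action on `X = G ⧸ Γ` whose first cocycle vanishes at `T`
and whose two cocycles restrict to the parabolic homs `x`, `y`, the intrinsic pairing
`Bl Γ x y` is the total mass `∑_z (Ψ T).c z`.

Route (BLUEPRINT P6-D v1): `θ γ := (Ψ γ).c x₀` trivialises `(x, y)`; `Bl = cuspSum θ` ([D-WD]);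
`(Ψ (g⁻¹ T^w g)).c x₀ = (Ψ (T^w)).c (g x₀) = ∑_{i<w} (Ψ T).c (T^i g x₀)` (the cross term is killed
by `y (g⁻¹ T^w g) = 0`); then [D-ORB].
-/

set_option autoImplicit false

open scoped MatrixGroups
open Matrix.SpecialLinearGroup ModularCurve.Period

namespace Fermat.Agent.P6.helper83

open Fermat.Agent.P6.helper21
open Fermat.Agent.S21.helper83 (x0 smul_x0 smul_x0_of_mem)

section Heis

variable {X : Type*}

lemma heis_pow_σ (u : Heis X) (n : ℕ) : (u ^ n).σ = u.σ ^ n := by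
  induction n with
  | zero => rfl
  | succ n ih => rw [pow_succ, Heis.mul_σ, ih, pow_succ]

lemma heis_pow_a_eq_zero (u : Heis X) (h : u.a = 0) (n : ℕ) : (u ^ n).a = 0 := by
  induction n with
  | zero => rfl
  | succ n ih =>
    funext z
    rw [pow_succ, Heis.mul_a, ih, h]
    simp

lemma heis_pow_c (u : Heis X) (h : u.a = 0) (n : ℕ) (z : X) :
    (u ^ n).c z = ∑ i ∈ Finset.range n, u.c ((u.σ ^ i) z) := by
  induction n with
  | zero => simp
  | succ n ih =>
    rw [pow_succ', Heis.mul_c, Finset.sum_range_succ, ih, h, heis_pow_σ]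
    simp [add_comm]

end Heis

variable {Γ : Subgroup SL(2, ℤ)}

/-- the value of a Heisenberg cocycle at a conjugate `g⁻¹ t g` fixing `x₀`, when `t.a = 0` and
the `b`-component of the conjugate vanishes at `x₀` -/
lemma heis_conj_c {X : Type*} (u t : Heis X) (z : X) (hz : (u⁻¹ * t * u).σ z = z)
    (ha : t.a = 0) (hb : (u⁻¹ * t * u).b z = 0) :
    (u⁻¹ * t * u).c z = t.c (u.σ z) := by
  have hinv : ∀ (s : Equiv.Perm X) (w : X), s⁻¹ (s w) = w := fun s w => s.symm_apply_apply w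
  have h1 : u.σ⁻¹ (t.σ (u.σ z)) = z := by
    simpa [Heis.mul_σ, Heis.inv_σ, Equiv.Perm.mul_apply] using hz
  have h2 : t.σ (u.σ z) = u.σ z := by
    have := congrArg u.σ h1
    simpa using this
  have hb' : t.b (u.σ z) = 0 := by
    have := hb
    simp only [Heis.mul_b, Heis.inv_b, h2, hinv] at this
    linarith
  simp only [Heis.mul_c, Heis.mul_a, Heis.inv_c, Heis.inv_a, h2, hinv, ha, Pi.zero_apply, hb']
  ring

/-- **[D-MODEL]** -/
theorem model_of (hWD : BlEqStatement) (hOrb : OrbStatement) (hConj : TrivConjStatement) :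
    ModelStatement := by
  intro Γ _ _ hneg Ψ x y hΨ hTa hx hy hxp hyp
  -- the trivialisation
  set θ : Γ → ℤ := fun γ => (Ψ (γ : SL(2, ℤ))).c (x0 Γ) with hθ
  have hσ : ∀ (g : SL(2, ℤ)) (z : SL(2, ℤ) ⧸ Γ), (Ψ g).σ z = g • z := by
    intro g z
    rw [hΨ g]
    rfl
  have htriv : IsTriv Γ x y θ := by
    intro γ δ
    have h1 : (Ψ (δ : SL(2, ℤ))).σ (x0 Γ) = x0 Γ := by
      rw [hσ]
      exact smul_x0_of_mem Γ δ.2
    change (Ψ ((γ * δ : Γ) : SL(2, ℤ))).c (x0 Γ) = _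
    rw [Subgroup.coe_mul, map_mul, Heis.mul_c, h1, hx, hy]
  rw [(hWD Γ hneg x y hxp hyp).2 θ htriv]
  symm
  refine hOrb Γ hneg (Ψ ModularGroup.T).c θ ?_ ?_
  · intro π γ hπ
    exact (hConj Γ x y θ hxp hyp htriv π γ hπ.1.1).1
  · intro g w hmem _ _
    have hpow : Ψ (ModularGroup.T ^ w) = Ψ ModularGroup.T ^ w := map_pow Ψ _ _
    have hconj : Ψ (g⁻¹ * ModularGroup.T ^ w * g) = (Ψ g)⁻¹ * Ψ ModularGroup.T ^ w * Ψ g := by
      rw [map_mul, map_mul, map_inv, hpow]
    have hfix : ((Ψ g)⁻¹ * Ψ ModularGroup.T ^ w * Ψ g).σ (x0 Γ) = x0 Γ := by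
      rw [← hconj, hσ]
      exact smul_x0_of_mem Γ hmem
    have hb0 : ((Ψ g)⁻¹ * Ψ ModularGroup.T ^ w * Ψ g).b (x0 Γ) = 0 := by
      rw [← hconj]
      have := hy ⟨g⁻¹ * ModularGroup.T ^ w * g, hmem⟩
      rw [this]
      apply hyp
      change ((g⁻¹ * ModularGroup.T ^ w * g : SL(2, ℤ)) : Matrix (Fin 2) (Fin 2) ℤ).trace ^ 2 = 4
      have htr : ((g⁻¹ * ModularGroup.T ^ w * g : SL(2, ℤ)) : Matrix (Fin 2) (Fin 2) ℤ).trace =
          ((ModularGroup.T ^ w : SL(2, ℤ)) : Matrix (Fin 2) (Fin 2) ℤ).trace := by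
        rw [Matrix.SpecialLinearGroup.coe_mul, Matrix.SpecialLinearGroup.coe_mul,
          Matrix.trace_mul_cycle, ← Matrix.SpecialLinearGroup.coe_mul, mul_inv_cancel,
          Matrix.SpecialLinearGroup.coe_one, Matrix.one_mul]
      rw [htr]
      have : ((ModularGroup.T ^ w : SL(2, ℤ)) : Matrix (Fin 2) (Fin 2) ℤ).trace = 2 := by
        rw [← zpow_natCast, ModularGroup.coe_T_zpow]
        simp [Matrix.trace_fin_two]
      rw [this]
      norm_num
    have key := heis_conj_c (Ψ g) (Ψ ModularGroup.T ^ w) (x0 Γ) hfix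
      (heis_pow_a_eq_zero _ hTa w) hb0
    change _ = (Ψ (g⁻¹ * ModularGroup.T ^ w * g)).c (x0 Γ)
    rw [hconj, key, heis_pow_c _ hTa]
    refine Finset.sum_congr rfl fun i _ => ?_
    congr 1
    rw [hσ, ← heis_pow_σ, ← map_pow, hσ, smul_x0, ← smul_x0 Γ (ModularGroup.T ^ i * g), mul_smul,
      smul_x0]

end Fermat.Agent.P6.helper83
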