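import Fermat.Agent.P6.helper38_DAdj2
import Fermat.Agent.P6.helper82_DTransfer
import Fermat.Agent.P6.helper94_DLift
import Fermat.Agent.P6.helper83_DModel
import Fermat.Agent.P6.helper64_Orb
import Fermat.Agent.P6.helper77_ConjShap

/-!
# P6 / S41, module (D), package [D-ADJ]: wiring of the landed inputs

* `corPar : CorParStatement`, `pushShap : PushShapStatement` from `helper82_DTransfer`
  (`corHom_isParabolicHom`, `corHom_eq_sum_fib`);
* `adj_of_heis_wd : HeisLiftStatement → BlEqStatement → AdjStatement`, with [D-LIFT]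
  (`helper94.parLift`), [D-MODEL] (`helper83.model_of`), [D-ORB] (`helper64.orbStatement`) and
  [D-CONJ] (`helper77.trivConj`) plugged in.
-/

set_option autoImplicit false

open scoped MatrixGroups
open Matrix.SpecialLinearGroup ModularCurve.Period

namespace Fermat.Agent.P6.helper38

open Fermat.Agent.S16.helper21 (CoGrp shapiro shapiro_f)
open Fermat.Agent.S21.helper83 (x0)
open Fermat.Agent.P6.helper21

/-- **[D-TRANSFER] (T3)**: the transfer of a parabolic hom is parabolic. -/
theorem corPar : CorParStatement := fun _ _ _ _ h _ y hy =>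
  Fermat.Agent.P6.helper82.corHom_isParabolicHom h y hy

/-- **[D-TRANSFER] (T2)**: the fibre sum at `x0` of the Shapiro cocycle is the transfer. -/
theorem pushShap : PushShapStatement := by
  intro Γ' Γ _ _ h _ _ y γ
  classical
  have : Finite (Fermat.Agent.P6.helper82.Fib h) := Fermat.Agent.P6.helper82.finite_fib h
  let _i : Fintype (Fermat.Agent.P6.helper82.Fib h) := Fintype.ofFinite _
  rw [Fermat.Agent.P6.helper82.corHom_eq_sum_fib h y γ]
  unfold fibSum
  rw [← Finset.sum_subtype_eq_sum_filter]
  refine Finset.sum_bij' (fun i _ => (⟨i.1, i.2⟩ : Fermat.Agent.P6.helper82.Fib h))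
    (fun i _ => ⟨i.1, i.2⟩) ?_ ?_ ?_ ?_ ?_
  · intro i _
    exact Finset.mem_univ _
  · intro i _
    simp
  · intro i _
    rfl
  · intro i _
    rfl
  · intro i _
    rfl

/-- **[D-ADJ]** from [D-HEIS] and [D-WD] only. -/
theorem adj_of_heis_wd (hH : HeisLiftStatement) (hWD : BlEqStatement) : AdjStatement :=
  adj_of_shapiro Fermat.Agent.P6.helper94.parLift hH
    (Fermat.Agent.P6.helper83.model_of hWD Fermat.Agent.P6.helper64.orbStatement
      Fermat.Agent.P6.helper77.trivConj)
    pushShap corPar

end Fermat.Agent.P6.helper38
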