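import Fermat.Agent.P6.helper78_NDefs

/-!
# P6 / S41, module (N), leaf [N-WL]: the two weak links, consumer form

`wl : CntStatement → RedStatement → WLStatement` (shapes of `helper78_NDefs`, verbatim).

For a Frobenius element `σ` at a place `A` of `Qbar` over a good odd prime `ℓ ≠ p`:
`p ∣ ℓ + 1 - a_ℓ(W)` iff `σ` fixes a nonzero point of `E[p]`, and
`p ∣ ℓ + 1 + a_ℓ(W)` iff `σ` negates a nonzero point of `E[p]`.

The residue field `k_A` of `A` is algebraically closed of characteristic `ℓ`
(`isAlgClosed_resField`, `charP_resField`), so [N-CNT] applies to `k = k_A`; the reduction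
bijection of [N-RED] transports fixed / negated points.
-/

set_option autoImplicit false

open WeierstrassCurve WeierstrassCurve.Affine
open scoped WeierstrassCurve.Affine

namespace Fermat.Agent.P6.helper38

open Fermat.Agent.P6.helper78

/-- The residue field of a valuation subring of an algebraically closed field is
algebraically closed. -/
theorem isAlgClosed_resField {K : Type*} [Field K] [IsAlgClosed K] (A : ValuationSubring K) :
    IsAlgClosed (IsLocalRing.ResidueField A) := by
  refine IsAlgClosed.of_exists_root _ fun p hpm hpi => ?_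
  have hsurj : Function.Surjective (IsLocalRing.residue A) := IsLocalRing.residue_surjective
  obtain ⟨P, hP, hPdeg, hPm⟩ := Polynomial.lifts_and_degree_eq_and_monic
    ((Polynomial.mem_lifts p).mpr (Polynomial.map_surjective _ hsurj p)) hpm
  have hdeg : (P.map (algebraMap A K)).degree ≠ 0 := by
    rw [Polynomial.degree_map_eq_of_injective (FaithfulSMul.algebraMap_injective A K), hPdeg]
    exact (Polynomial.degree_pos_of_irreducible hpi).ne'
  obtain ⟨x, hx⟩ := IsAlgClosed.exists_root (P.map (algebraMap A K)) hdeg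
  have hint : IsIntegral A x := ⟨P, hPm, by
    rw [Polynomial.eval₂_eq_eval_map]; exact hx⟩
  obtain ⟨a, rfl⟩ := IsIntegrallyClosed.algebraMap_eq_of_integral hint
  refine ⟨IsLocalRing.residue A a, ?_⟩
  have ha : P.eval a = 0 := by
    apply FaithfulSMul.algebraMap_injective A K
    rw [map_zero, ← Polynomial.eval_map_apply]
    exact hx
  rw [← hP, Polynomial.eval_map, Polynomial.eval₂_at_apply, ha, map_zero]

/-- The residue field of a valuation subring lying over the prime `ℓ` has characteristic `ℓ`. -/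
theorem charP_resField {K : Type*} [Field K] (A : ValuationSubring K) {ℓ : ℕ} (hℓ : ℓ.Prime)
    (hA : A.LiesOverPrime ℓ) : CharP (IsLocalRing.ResidueField A) ℓ := by
  have hmem : ((ℓ : ℕ) : A) ∈ IsLocalRing.maximalIdeal A := by
    obtain ⟨ha, hm⟩ := (A.mem_nonunits_iff_exists_mem_maximalIdeal).mp hA
    have e : (⟨((ℓ : ℕ) : K), ha⟩ : A) = ((ℓ : ℕ) : A) := Subtype.ext (by simp)
    rwa [e] at hm
  have h0 : ((ℓ : ℕ) : IsLocalRing.ResidueField A) = 0 := by
    rw [← map_natCast (IsLocalRing.residue A)]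
    exact (IsLocalRing.residue_eq_zero_iff _).mpr hmem
  obtain ⟨q, hq⟩ := CharP.exists (IsLocalRing.ResidueField A)
  have hdvd : q ∣ ℓ := (CharP.cast_eq_zero_iff _ q ℓ).mp h0
  rcases (Nat.dvd_prime hℓ).mp hdvd with h1 | h1
  · exact absurd h1 (CharP.char_ne_one (IsLocalRing.ResidueField A) q)
  · subst h1
    exact hq

section Transport

variable {W : WeierstrassCurve ℤ} {k : Type} [Field k] {ℓ : ℕ}

/-- A point whose Frobenius image is itself is Frobenius-fixed. -/
theorem isFrobFix_of_isFrobImage_self {Q : PtK W k} (h : IsFrobImage W k ℓ Q Q) :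
    IsFrobFix W k ℓ Q := by
  cases Q with
  | zero => trivial
  | some x y hxy =>
    obtain ⟨h1, h2⟩ := h
    exact ⟨h1.symm, h2.symm⟩

/-- The Frobenius image of a Frobenius-fixed point is the point itself. -/
theorem eq_of_isFrobFix_of_isFrobImage {Q Q' : PtK W k} (hfix : IsFrobFix W k ℓ Q)
    (h : IsFrobImage W k ℓ Q Q') : Q' = Q := by
  cases Q with
  | zero => exact h
  | some x y hxy =>
    cases Q' with
    | zero => exact absurd h id
    | some x' y' hxy' =>
      obtain ⟨h1, h2⟩ := h
      obtain ⟨f1, f2⟩ := hfix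
      have e1 : x' = x := h1.trans f1
      have e2 : y' = y := h2.trans f2
      subst e1
      subst e2
      rfl

/-- A point whose Frobenius image is its negative is Frobenius-negated. -/
theorem isFrobAntiFix_of_isFrobImage_neg [DecidableEq k] {Q : PtK W k} (h : IsFrobImage W k ℓ Q (-Q)) :
    IsFrobAntiFix W k ℓ Q := by
  cases Q with
  | zero => trivial
  | some x y hxy =>
    rw [Point.neg_some] at h
    obtain ⟨h1, h2⟩ := h
    exact ⟨h1.symm, h2.symm⟩

/-- The Frobenius image of a Frobenius-negated point is its negative. -/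
theorem eq_neg_of_isFrobAntiFix_of_isFrobImage [DecidableEq k] {Q Q' : PtK W k}
    (hfix : IsFrobAntiFix W k ℓ Q) (h : IsFrobImage W k ℓ Q Q') : Q' = -Q := by
  cases Q with
  | zero =>
    have h' : Q' = 0 := h
    rw [h']
    exact neg_zero.symm
  | some x y hxy =>
    cases Q' with
    | zero => exact absurd h id
    | some x' y' hxy' =>
      obtain ⟨h1, h2⟩ := h
      obtain ⟨f1, f2⟩ := hfix
      have e1 : x' = x := h1.trans f1
      have e2 : y' = (W.map (Int.castRingHom k)).toAffine.negY x y := h2.trans f2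
      rw [Point.neg_some]
      subst e1
      subst e2
      rfl

end Transport

/-- **[N-WL]**, verbatim in the shapes of `helper78_NDefs`: the two weak links follow from
[N-CNT] and [N-RED]. -/
theorem wl (hC : CntStatement) (hR : RedStatement) : WLStatement := by
  intro W p ℓ hp hp2 hℓ hℓ2 hℓp hgood A hA σ hσ
  let instDec : DecidableEq (IsLocalRing.ResidueField A) := Classical.decEq _
  have : CharP (IsLocalRing.ResidueField A) ℓ := charP_resField A hℓ hA
  have : IsAlgClosed (IsLocalRing.ResidueField A) := isAlgClosed_resField A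
  obtain ⟨hplus, hminus⟩ := hC W p ℓ hp hℓ hℓ2 hgood (IsLocalRing.ResidueField A)
  obtain ⟨red, hinj, h0, hneg, htors, hsurj, hfrob⟩ := hR W p ℓ hp hp2 hℓ hℓp hgood A hA
  have hne : ∀ P : Tors W p, red P ≠ 0 ↔ P ≠ 0 := fun P =>
    not_congr ⟨fun h => hinj (h.trans h0.symm), fun h => h ▸ h0⟩
  refine ⟨hplus.trans ⟨?_, ?_⟩, hminus.trans ⟨?_, ?_⟩⟩
  · rintro ⟨Q, hQ0, hpQ, hfix⟩
    obtain ⟨P, rfl⟩ := hsurj Q hpQ
    exact ⟨P, (hne P).mp hQ0, hinj (eq_of_isFrobFix_of_isFrobImage hfix (hfrob σ hσ P))⟩
  · rintro ⟨P, hP0, hσP⟩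
    refine ⟨red P, (hne P).mpr hP0, htors P, ?_⟩
    have h := hfrob σ hσ P
    rw [hσP] at h
    exact isFrobFix_of_isFrobImage_self h
  · rintro ⟨Q, hQ0, hpQ, hfix⟩
    obtain ⟨P, rfl⟩ := hsurj Q hpQ
    refine ⟨P, (hne P).mp hQ0, hinj ?_⟩
    rw [hneg P]
    exact eq_neg_of_isFrobAntiFix_of_isFrobImage hfix (hfrob σ hσ P)
  · rintro ⟨P, hP0, hσP⟩
    refine ⟨red P, (hne P).mpr hP0, htors P, ?_⟩
    have h := hfrob σ hσ P
    rw [hσP, hneg P] at h
    exact isFrobAntiFix_of_isFrobImage_neg h

end Fermat.Agent.P6.helper38
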