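import Mathlib

/-!
# P6 / S41, module (N), leaf [N-WL]: the two weak links (abstract core)

Pure group theory (Cauchy + Lagrange), independent of every model of the reduction map.

* `B` : the group of points of the reduced curve over the residue field `k_v`;
* `φ : B →+ B` : the Frobenius endomorphism;
* `V` : the group `E[p]` over `Qbar`, `σ : V → V` a Frobenius element;
* `red : V → B` : the reduction map on `p`-torsion, a bijection of SETS onto `B[p]`
  sending `0` to `0` and `σ` to `φ` (`IsRedBij`); compatibility with negation is only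
  needed for the minus link.

Main results: `wl_plus`, `wl_minus` and their integer forms `wl_plus_int`, `wl_minus_int`.
-/

namespace Fermat.Agent.P6.helper38

open Function

section Core

variable {B : Type*} [AddCommGroup B]

/-- **Cauchy + Lagrange** for a finite subgroup: `p` divides its order iff it contains a
nonzero element killed by `p`. -/
theorem dvd_natCard_iff_exists_torsion (S : AddSubgroup B) [Finite S] {p : ℕ}
    (hp : p.Prime) :
    p ∣ Nat.card S ↔ ∃ Q : B, Q ∈ S ∧ Q ≠ 0 ∧ p • Q = 0 := by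
  have : Fact p.Prime := ⟨hp⟩
  constructor
  · intro h
    obtain ⟨x, hx⟩ := exists_prime_addOrderOf_dvd_card' (G := S) p h
    refine ⟨x, x.2, ?_, ?_⟩
    · intro h0
      have hx0 : x = 0 := Subtype.ext h0
      rw [hx0, addOrderOf_zero] at hx
      exact hp.one_lt.ne hx
    · have h1 : p • x = 0 := by
        rw [← hx]
        exact addOrderOf_nsmul_eq_zero x
      have h2 := congrArg (Subtype.val) h1
      simpa using h2
  · rintro ⟨Q, hQS, hQ0, hpQ⟩
    have h1 : addOrderOf (⟨Q, hQS⟩ : S) = p := by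
      apply addOrderOf_eq_prime
      · exact Subtype.ext (by simpa using hpQ)
      · intro h
        exact hQ0 (congrArg Subtype.val h)
    rw [← h1]
    exact addOrderOf_dvd_natCard _

/-- The subgroup of fixed points `{x | φ x = x}` of an additive endomorphism. -/
def fixPlus (φ : B →+ B) : AddSubgroup B where
  carrier := {x | φ x = x}
  zero_mem' := map_zero φ
  add_mem' := by
    intro a b ha hb
    show φ (a + b) = a + b
    rw [map_add, show φ a = a from ha, show φ b = b from hb]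
  neg_mem' := by
    intro a ha
    show φ (-a) = -a
    rw [map_neg, show φ a = a from ha]

/-- The subgroup of anti-fixed points `{x | φ x = -x}` of an additive endomorphism. -/
def fixMinus (φ : B →+ B) : AddSubgroup B where
  carrier := {x | φ x = -x}
  zero_mem' := by
    show φ 0 = -0
    rw [map_zero, neg_zero]
  add_mem' := by
    intro a b ha hb
    show φ (a + b) = -(a + b)
    rw [map_add, show φ a = -a from ha, show φ b = -b from hb, neg_add]
  neg_mem' := by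
    intro a ha
    show φ (-a) = - -a
    rw [map_neg, show φ a = -a from ha]

@[simp] theorem mem_fixPlus (φ : B →+ B) (x : B) : x ∈ fixPlus φ ↔ φ x = x := Iff.rfl

@[simp] theorem mem_fixMinus (φ : B →+ B) (x : B) : x ∈ fixMinus φ ↔ φ x = -x := Iff.rfl

/-- A subgroup described by `φ x = x` is `fixPlus φ`. -/
theorem eq_fixPlus_of_mem_iff (φ : B →+ B) (S : AddSubgroup B) (hS : ∀ x, x ∈ S ↔ φ x = x) :
    S = fixPlus φ :=
  AddSubgroup.ext fun x => (hS x).trans (mem_fixPlus φ x).symm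

/-- A subgroup described by `φ x = -x` is `fixMinus φ`. -/
theorem eq_fixMinus_of_mem_iff (φ : B →+ B) (S : AddSubgroup B) (hS : ∀ x, x ∈ S ↔ φ x = -x) :
    S = fixMinus φ :=
  AddSubgroup.ext fun x => (hS x).trans (mem_fixMinus φ x).symm

/-- A point which is both fixed and anti-fixed is killed by `2`. -/
theorem two_nsmul_eq_zero_of_fix_of_antifix (φ : B →+ B) {x : B} (h1 : φ x = x)
    (h2 : φ x = -x) : 2 • x = 0 := by
  have h3 : x = -x := h1.symm.trans h2
  rw [two_nsmul]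
  nth_rewrite 1 [h3]
  exact neg_add_cancel x

/-- A point of odd prime order cannot be both fixed and anti-fixed. -/
theorem eq_zero_of_fix_of_antifix (φ : B →+ B) {p : ℕ} (hp : p.Prime) (hp2 : p ≠ 2) {x : B}
    (hx : p • x = 0) (h1 : φ x = x) (h2 : φ x = -x) : x = 0 := by
  have h2x := two_nsmul_eq_zero_of_fix_of_antifix φ h1 h2
  have hcop : Nat.Coprime p 2 := (Nat.coprime_primes hp Nat.prime_two).mpr hp2
  have h1' : addOrderOf x ∣ p := addOrderOf_dvd_iff_nsmul_eq_zero.mpr hx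
  have h2' : addOrderOf x ∣ 2 := addOrderOf_dvd_iff_nsmul_eq_zero.mpr h2x
  have h3 : addOrderOf x ∣ 1 := by
    have := Nat.dvd_gcd h1' h2'
    rwa [hcop.gcd_eq_one] at this
  exact AddMonoid.addOrderOf_eq_one_iff.mp (Nat.dvd_one.mp h3)

/-- Weak link on the reduced curve, plus side. -/
theorem dvd_natCard_fix_iff (φ : B →+ B) (S : AddSubgroup B) [Finite S]
    (hS : ∀ x, x ∈ S ↔ φ x = x) {p : ℕ} (hp : p.Prime) :
    p ∣ Nat.card S ↔ ∃ Q : B, Q ≠ 0 ∧ p • Q = 0 ∧ φ Q = Q := by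
  rw [dvd_natCard_iff_exists_torsion S hp]
  constructor
  · rintro ⟨Q, hQS, hQ0, hpQ⟩
    exact ⟨Q, hQ0, hpQ, (hS Q).mp hQS⟩
  · rintro ⟨Q, hQ0, hpQ, hφ⟩
    exact ⟨Q, (hS Q).mpr hφ, hQ0, hpQ⟩

/-- Weak link on the reduced curve, minus side. -/
theorem dvd_natCard_antifix_iff (φ : B →+ B) (S : AddSubgroup B) [Finite S]
    (hS : ∀ x, x ∈ S ↔ φ x = -x) {p : ℕ} (hp : p.Prime) :
    p ∣ Nat.card S ↔ ∃ Q : B, Q ≠ 0 ∧ p • Q = 0 ∧ φ Q = -Q := by
  rw [dvd_natCard_iff_exists_torsion S hp]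
  constructor
  · rintro ⟨Q, hQS, hQ0, hpQ⟩
    exact ⟨Q, hQ0, hpQ, (hS Q).mp hQS⟩
  · rintro ⟨Q, hQ0, hpQ, hφ⟩
    exact ⟨Q, (hS Q).mpr hφ, hQ0, hpQ⟩

/-- Subtype form of `dvd_natCard_fix_iff` (no subgroup needed in the statement). -/
theorem dvd_natCard_subtype_fix_iff (φ : B →+ B) [Finite {x : B // φ x = x}] {p : ℕ}
    (hp : p.Prime) :
    p ∣ Nat.card {x : B // φ x = x} ↔ ∃ Q : B, Q ≠ 0 ∧ p • Q = 0 ∧ φ Q = Q := by
  have : Finite (fixPlus φ) := ‹Finite {x : B // φ x = x}›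
  exact dvd_natCard_fix_iff φ (fixPlus φ) (mem_fixPlus φ) hp

/-- Subtype form of `dvd_natCard_antifix_iff`. -/
theorem dvd_natCard_subtype_antifix_iff (φ : B →+ B) [Finite {x : B // φ x = -x}] {p : ℕ}
    (hp : p.Prime) :
    p ∣ Nat.card {x : B // φ x = -x} ↔ ∃ Q : B, Q ≠ 0 ∧ p • Q = 0 ∧ φ Q = -Q := by
  have : Finite (fixMinus φ) := ‹Finite {x : B // φ x = -x}›
  exact dvd_natCard_antifix_iff φ (fixMinus φ) (mem_fixMinus φ) hp

end Core

section Red

variable {V B : Type*} [AddCommGroup V] [AddCommGroup B]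

/-- The output of [N-RED] in abstract form: `red : V → B` is a bijection of SETS from
`V = E[p]` onto the `p`-torsion of `B`, sending `0` to `0` and `σ` to `φ`.
No homomorphism property is required. -/
structure IsRedBij (p : ℕ) (σ : V → V) (φ : B →+ B) (red : V → B) : Prop where
  inj : Injective red
  zero : red 0 = 0
  tors : ∀ P : V, p • red P = 0
  surj : ∀ Q : B, p • Q = 0 → ∃ P : V, red P = Q
  comm : ∀ P : V, red (σ P) = φ (red P)

namespace IsRedBij

variable {p : ℕ} {σ : V → V} {φ : B →+ B} {red : V → B}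

theorem red_eq_zero_iff (h : IsRedBij p σ φ red) {P : V} : red P = 0 ↔ P = 0 := by
  constructor
  · intro hP
    exact h.inj (hP.trans h.zero.symm)
  · rintro rfl
    exact h.zero

theorem red_ne_zero_iff (h : IsRedBij p σ φ red) {P : V} : red P ≠ 0 ↔ P ≠ 0 :=
  not_congr h.red_eq_zero_iff

/-- `σ` fixes `P` iff `φ` fixes `red P`. -/
theorem fix_iff (h : IsRedBij p σ φ red) (P : V) : σ P = P ↔ φ (red P) = red P := by
  rw [← h.comm P]
  exact ⟨fun e => congrArg red e, fun e => h.inj e⟩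

/-- `σ P = -P` iff `φ (red P) = - red P`, given compatibility of `red` with negation. -/
theorem antifix_iff (h : IsRedBij p σ φ red) (hneg : ∀ P : V, red (-P) = -red P) (P : V) :
    σ P = -P ↔ φ (red P) = -red P := by
  rw [← h.comm P, ← hneg P]
  exact ⟨fun e => congrArg red e, fun e => h.inj e⟩

/-- Existence of a nonzero `σ`-fixed point of `V` in terms of the reduced curve. -/
theorem exists_fix_iff (h : IsRedBij p σ φ red) :
    (∃ P : V, P ≠ 0 ∧ σ P = P) ↔ ∃ Q : B, Q ≠ 0 ∧ p • Q = 0 ∧ φ Q = Q := by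
  constructor
  · rintro ⟨P, hP0, hσ⟩
    exact ⟨red P, h.red_ne_zero_iff.mpr hP0, h.tors P, (h.fix_iff P).mp hσ⟩
  · rintro ⟨Q, hQ0, hpQ, hφ⟩
    obtain ⟨P, rfl⟩ := h.surj Q hpQ
    exact ⟨P, h.red_ne_zero_iff.mp hQ0, (h.fix_iff P).mpr hφ⟩

/-- Existence of a nonzero point of `V` with `σ P = -P` in terms of the reduced curve. -/
theorem exists_antifix_iff (h : IsRedBij p σ φ red) (hneg : ∀ P : V, red (-P) = -red P) :
    (∃ P : V, P ≠ 0 ∧ σ P = -P) ↔ ∃ Q : B, Q ≠ 0 ∧ p • Q = 0 ∧ φ Q = -Q := by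
  constructor
  · rintro ⟨P, hP0, hσ⟩
    exact ⟨red P, h.red_ne_zero_iff.mpr hP0, h.tors P, (h.antifix_iff hneg P).mp hσ⟩
  · rintro ⟨Q, hQ0, hpQ, hφ⟩
    obtain ⟨P, rfl⟩ := h.surj Q hpQ
    exact ⟨P, h.red_ne_zero_iff.mp hQ0, (h.antifix_iff hneg P).mpr hφ⟩

end IsRedBij

/-- **Weak link (WL+)**: `p ∣ #S⁺` iff `σ` fixes a nonzero point of `V = E[p]`. -/
theorem wl_plus {p : ℕ} (hp : p.Prime) {σ : V → V} {φ : B →+ B} {red : V → B}
    (h : IsRedBij p σ φ red) (S : AddSubgroup B) [Finite S] (hS : ∀ x, x ∈ S ↔ φ x = x) :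
    p ∣ Nat.card S ↔ ∃ P : V, P ≠ 0 ∧ σ P = P := by
  rw [dvd_natCard_fix_iff φ S hS hp, h.exists_fix_iff]

/-- **Weak link (WL-)**: `p ∣ #S⁻` iff `σ P = -P` for some nonzero point of `V = E[p]`. -/
theorem wl_minus {p : ℕ} (hp : p.Prime) {σ : V → V} {φ : B →+ B} {red : V → B}
    (h : IsRedBij p σ φ red) (hneg : ∀ P : V, red (-P) = -red P)
    (S : AddSubgroup B) [Finite S] (hS : ∀ x, x ∈ S ↔ φ x = -x) :
    p ∣ Nat.card S ↔ ∃ P : V, P ≠ 0 ∧ σ P = -P := by
  rw [dvd_natCard_antifix_iff φ S hS hp, h.exists_antifix_iff hneg]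

/-- (WL+) in integer form: with `#S⁺ = l + 1 - a`. -/
theorem wl_plus_int {p : ℕ} (hp : p.Prime) {σ : V → V} {φ : B →+ B} {red : V → B}
    (h : IsRedBij p σ φ red) (S : AddSubgroup B) [Finite S] (hS : ∀ x, x ∈ S ↔ φ x = x)
    {l : ℕ} {a : ℤ} (hcard : (Nat.card S : ℤ) = (l : ℤ) + 1 - a) :
    (p : ℤ) ∣ (l : ℤ) + 1 - a ↔ ∃ P : V, P ≠ 0 ∧ σ P = P := by
  rw [← hcard, Int.natCast_dvd_natCast]
  exact wl_plus hp h S hS

/-- (WL-) in integer form: with `#S⁻ = l + 1 + a`. -/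
theorem wl_minus_int {p : ℕ} (hp : p.Prime) {σ : V → V} {φ : B →+ B} {red : V → B}
    (h : IsRedBij p σ φ red) (hneg : ∀ P : V, red (-P) = -red P)
    (S : AddSubgroup B) [Finite S] (hS : ∀ x, x ∈ S ↔ φ x = -x)
    {l : ℕ} {a : ℤ} (hcard : (Nat.card S : ℤ) = (l : ℤ) + 1 + a) :
    (p : ℤ) ∣ (l : ℤ) + 1 + a ↔ ∃ P : V, P ≠ 0 ∧ σ P = -P := by
  rw [← hcard, Int.natCast_dvd_natCast]
  exact wl_minus hp h hneg S hS

/-- (WL-) from (WL+)-type data and the count `#S⁺ + #S⁻ = 2 l + 2`: integer form with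
`#S⁺ = l + 1 - a` only. -/
theorem wl_minus_int_of_sum {p : ℕ} (hp : p.Prime) {σ : V → V} {φ : B →+ B} {red : V → B}
    (h : IsRedBij p σ φ red) (hneg : ∀ P : V, red (-P) = -red P)
    (Sp Sm : AddSubgroup B) [Finite Sm]
    (hSm : ∀ x, x ∈ Sm ↔ φ x = -x)
    {l : ℕ} {a : ℤ} (hcard : (Nat.card Sp : ℤ) = (l : ℤ) + 1 - a)
    (hsum : Nat.card Sp + Nat.card Sm = 2 * l + 2) :
    (p : ℤ) ∣ (l : ℤ) + 1 + a ↔ ∃ P : V, P ≠ 0 ∧ σ P = -P := by
  have hm : (Nat.card Sm : ℤ) = (l : ℤ) + 1 + a := by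
    have h1 : ((Nat.card Sp : ℤ) + (Nat.card Sm : ℤ)) = 2 * (l : ℤ) + 2 := by
      exact_mod_cast hsum
    linarith
  exact wl_minus_int hp h hneg Sm hSm hm

end Red

end Fermat.Agent.P6.helper38
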