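import Fermat.Agent.P6.helper39_DNondeg
import Fermat.Agent.P6.helper33_DEval
import Fermat.Agent.P6.helper38_DAdjFinal

/-!
# P6 / S41, module (D) duality, package [D-P1]: `NondegStatement`, unconditional (helper39)
-/

set_option autoImplicit false

namespace Fermat.Agent.P6.helper39

open Fermat.Agent.P6.helper21

/-- **[D-EVAL]**, unconditional. -/
theorem evalStatement : EvalStatement :=
  Fermat.Agent.P6.helper33.evalStatement_of Fermat.Agent.P6.helper38.modelStatement

/-- **[D-P1]**, verbatim and unconditional: the intrinsic Poincaré pairing is non-degenerate
modulo every prime on parabolic homomorphisms. -/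
theorem nondegStatement : NondegStatement :=
  nondeg_of_eval evalStatement

end Fermat.Agent.P6.helper39
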