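import Mathlib

/-!
# P6 / S41 (helper77): the transfer computed with an arbitrary family of coset representatives

* `transfer_eq_prod_of_reps` : if `t : I → G` is a system of representatives of `G ⧸ H` and
  `g * t i = t (σ i) * h i` with `h i ∈ H`, then `transfer φ g = ∏ i, φ (h i)`.
* `transfer_conj_eq` : the transfer is invariant under conjugating the subgroup together with its
  character by an element of `G`.
-/

set_option autoImplicit false

open scoped Pointwise

namespace Fermat.Agent.P6.helper77

section Reps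

variable {G : Type*} [Group G] {H : Subgroup G} {A : Type*} [CommGroup A]

/-- a family of representatives of `G ⧸ H` is a left transversal -/
theorem isComplement_range_of_bijective {I : Type*} (t : I → G)
    (ht : Function.Bijective (fun i => (t i : G ⧸ H))) :
    Subgroup.IsComplement (Set.range t) (H : Set G) := by
  rw [Subgroup.isComplement_subgroup_right_iff_bijective]
  constructor
  · rintro ⟨_, i, rfl⟩ ⟨_, j, rfl⟩ hij
    have : i = j := ht.1 hij
    subst this
    rfl
  · intro q
    obtain ⟨i, hi⟩ := ht.2 q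
    exact ⟨⟨t i, i, rfl⟩, hi⟩

theorem leftQuotientEquiv_mk_of_mem {S : Set G} (hS : Subgroup.IsComplement S (H : Set G))
    {s : G} (hs : s ∈ S) : (hS.leftQuotientEquiv (s : G ⧸ H) : G) = s := by
  have h1 : hS.leftQuotientEquiv.symm ⟨s, hs⟩ = (s : G ⧸ H) := rfl
  rw [← h1, Equiv.apply_symm_apply]

/-- **the transfer with arbitrary representatives** -/
theorem transfer_eq_prod_of_reps [H.FiniteIndex] (φ : H →* A) {I : Type*} [Fintype I]
    (t : I → G) (ht : Function.Bijective (fun i => (t i : G ⧸ H))) (g : G) (σ : I → I)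
    (h : I → H) (hg : ∀ i, g * t i = t (σ i) * (h i : G)) :
    MonoidHom.transfer φ g = ∏ i, φ (h i) := by
  classical
  let _ := H.fintypeQuotientOfFiniteIndex
  have hS := isComplement_range_of_bijective t ht
  let T : H.LeftTransversal := ⟨Set.range t, hS⟩
  rw [MonoidHom.transfer_def φ T g]
  -- the bijection `i ↦ g t i H`
  have hcos : ∀ i, ((g * t i : G) : G ⧸ H) = (t (σ i) : G ⧸ H) := by
    intro i
    rw [hg i]
    exact (QuotientGroup.mk_mul_of_mem _ (h i).2)
  let e : I ≃ G ⧸ H := Equiv.ofBijective (fun i => ((g * t i : G) : G ⧸ H)) (by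
    constructor
    · intro i j hij
      have h1 : (g⁻¹ : G) • ((g * t i : G) : G ⧸ H) = (g⁻¹ : G) • ((g * t j : G) : G ⧸ H) :=
        congrArg _ hij
      rw [MulAction.Quotient.smul_mk, MulAction.Quotient.smul_mk] at h1
      simp only [smul_eq_mul, inv_mul_cancel_left] at h1
      exact ht.1 h1
    · intro q
      obtain ⟨i, hi⟩ := ht.2 ((g⁻¹ : G) • q)
      refine ⟨i, ?_⟩
      show ((g * t i : G) : G ⧸ H) = q
      have : ((g * t i : G) : G ⧸ H) = g • ((t i : G) : G ⧸ H) := rfl
      rw [this]
      have hi' : ((t i : G) : G ⧸ H) = (g⁻¹ : G) • q := hi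
      rw [hi', smul_inv_smul])
  unfold Subgroup.leftTransversals.diff
  simp only
  rw [← e.prod_comp]
  refine Finset.prod_congr rfl (fun i _ => ?_)
  congr 1
  apply Subtype.ext
  show ((T.2.leftQuotientEquiv (e i) : G))⁻¹ * ((g • T).2.leftQuotientEquiv (e i) : G) = (h i : G)
  have h1 : (T.2.leftQuotientEquiv (e i) : G) = t (σ i) := by
    have : e i = (t (σ i) : G ⧸ H) := hcos i
    rw [this]
    exact leftQuotientEquiv_mk_of_mem hS ⟨σ i, rfl⟩
  have h2 : ((g • T).2.leftQuotientEquiv (e i) : G) = g * t i := by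
    rw [Subgroup.smul_apply_eq_smul_apply_inv_smul]
    have : (g⁻¹ : G) • e i = (t i : G ⧸ H) := by
      show (g⁻¹ : G) • ((g * t i : G) : G ⧸ H) = _
      rw [MulAction.Quotient.smul_mk]
      simp
    rw [this, leftQuotientEquiv_mk_of_mem hS ⟨i, rfl⟩]
    rfl
  rw [h1, h2, hg i]
  group

end Reps

end Fermat.Agent.P6.helper77
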