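import Mathlib
import Fermat.Agent.P6.helper38_DAdj
import Fermat.Agent.P6.helper77_TransferReps
import Fermat.Agent.P6.helper82_DTransfer
import Fermat.Agent.P6.helper94_DLift
import Fermat.Agent.P6.helper39_DDict

/-!
# P6 / S41, module (D) duality, package [D-TRANSFER] in the shapes of `helper38_DAdj`
(helper39)

* `pushRes : helper38.PushResStatement` : the restriction to `Γ` at `x0` of the fibre-sum
  push-forward of a cocycle on `G ⧸ Γ'` restricting to `y` is the transfer `corHom h y`;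
* `corPar : helper38.CorParStatement` : the transfer of a parabolic hom is parabolic;
* `adj_of' : ParLiftStatement → HeisLiftStatement → ModelStatement → AdjStatement`.
-/

set_option autoImplicit false

open scoped MatrixGroups
open ModularCurve.Period

namespace Fermat.Agent.P6.helper39

open Fermat.Agent.S16.helper21 (CoGrp shapiro res)
open Fermat.Agent.S21.helper83 (x0 sch smul_x0 smul_x0_of_mem)
open Fermat.Agent.P6.helper21
open Fermat.Agent.P6.helper38 (prQ prQ_mk prQ_smul prQ_x0 fibSum fibSum_add fibSum_smul)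

section Transfer

variable {Γ' Γ : Subgroup SL(2, ℤ)} (h : Γ' ≤ Γ)

/-- representatives of points of the fibre above `x0` lie in `Γ` -/
lemma out_mem_of_prQ {z' : SL(2, ℤ) ⧸ Γ'} (hz' : prQ h z' = x0 Γ) :
    (Quotient.out z' : SL(2, ℤ)) ∈ Γ := by
  have h1 : prQ h ((Quotient.out z' : SL(2, ℤ)) : SL(2, ℤ) ⧸ Γ') = x0 Γ := by
    rw [QuotientGroup.out_eq']
    exact hz'
  rw [prQ_mk] at h1
  have h2 : ((Quotient.out z' : SL(2, ℤ)) : SL(2, ℤ) ⧸ Γ) = ((1 : SL(2, ℤ)) : SL(2, ℤ) ⧸ Γ) := h1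
  rw [QuotientGroup.eq] at h2
  have h3 := Γ.inv_mem h2
  simpa using h3

lemma prQ_smul_of_mem {γ : SL(2, ℤ)} (hγ : γ ∈ Γ) {z' : SL(2, ℤ) ⧸ Γ'}
    (hz' : prQ h z' = x0 Γ) : prQ h (γ • z') = x0 Γ := by
  rw [prQ_smul, hz', smul_x0_of_mem Γ hγ]

/-- **The transfer as a fibre sum of the Schreier cocycle.** -/
theorem fibSum_shapiro [Fintype (SL(2, ℤ) ⧸ Γ')] [(Γ'.subgroupOf Γ).FiniteIndex]
    (y : Additive Γ' →+ ℤ) (γ : Γ) :
    fibSum h (shapiro Γ' y (γ : SL(2, ℤ))).f (x0 Γ) = corHom h y (Additive.ofMul γ) := by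
  classical
  -- the index set: the fibre above `x0`
  let I := {z' : SL(2, ℤ) ⧸ Γ' // prQ h z' = x0 Γ}
  let t : I → Γ := fun i => ⟨Quotient.out i.1, out_mem_of_prQ h i.2⟩
  let σ : I → I := fun i => ⟨(γ : SL(2, ℤ)) • i.1, prQ_smul_of_mem h γ.2 i.2⟩
  let hsel : I → Γ'.subgroupOf Γ := fun i =>
    ⟨⟨(sch Γ' (γ : SL(2, ℤ)) i.1 : SL(2, ℤ)), by
      show (Quotient.out ((γ : SL(2, ℤ)) • i.1))⁻¹ * ((γ : SL(2, ℤ)) * Quotient.out i.1) ∈ Γ
      exact Γ.mul_mem (Γ.inv_mem (out_mem_of_prQ h (prQ_smul_of_mem h γ.2 i.2)))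
        (Γ.mul_mem γ.2 (out_mem_of_prQ h i.2))⟩,
      by
        rw [Subgroup.mem_subgroupOf]
        exact (sch Γ' (γ : SL(2, ℤ)) i.1).2⟩
  have ht : Function.Bijective (fun i => ((t i : Γ) : Γ ⧸ Γ'.subgroupOf Γ)) := by
    constructor
    · intro i j hij
      have h1 : (t i)⁻¹ * t j ∈ Γ'.subgroupOf Γ := QuotientGroup.eq.1 hij
      rw [Subgroup.mem_subgroupOf] at h1
      have h2 : ((Quotient.out i.1 : SL(2, ℤ)) : SL(2, ℤ) ⧸ Γ') =
          ((Quotient.out j.1 : SL(2, ℤ)) : SL(2, ℤ) ⧸ Γ') := QuotientGroup.eq.2 h1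
      rw [QuotientGroup.out_eq', QuotientGroup.out_eq'] at h2
      exact Subtype.ext h2
    · intro q
      induction q using QuotientGroup.induction_on with
      | H g =>
        have hz : prQ h ((g : SL(2, ℤ)) : SL(2, ℤ) ⧸ Γ') = x0 Γ := by
          rw [prQ_mk, ← smul_x0, smul_x0_of_mem Γ g.2]
        refine ⟨⟨((g : SL(2, ℤ)) : SL(2, ℤ) ⧸ Γ'), hz⟩, ?_⟩
        apply QuotientGroup.eq.2
        rw [Subgroup.mem_subgroupOf]
        show (Quotient.out ((g : SL(2, ℤ)) : SL(2, ℤ) ⧸ Γ'))⁻¹ * (g : SL(2, ℤ)) ∈ Γ'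
        apply QuotientGroup.eq.1
        exact QuotientGroup.out_eq' _
  have hg : ∀ i, γ * t i = t (σ i) * ((hsel i : Γ'.subgroupOf Γ) : Γ) := by
    intro i
    apply Subtype.ext
    show (γ : SL(2, ℤ)) * Quotient.out i.1 = Quotient.out ((γ : SL(2, ℤ)) • i.1) *
      ((Quotient.out ((γ : SL(2, ℤ)) • i.1))⁻¹ * ((γ : SL(2, ℤ)) * Quotient.out i.1))
    group
  have key := Fermat.Agent.P6.helper77.transfer_eq_prod_of_reps
    ((AddMonoidHom.toMultiplicativeRight y).comp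
      (Subgroup.subgroupOfEquivOfLe h).toMonoidHom) t ht γ σ hsel hg
  have hval : ∀ i : I, ((AddMonoidHom.toMultiplicativeRight y).comp
      (Subgroup.subgroupOfEquivOfLe h).toMonoidHom) (hsel i) =
      Multiplicative.ofAdd (y (Additive.ofMul (sch Γ' (γ : SL(2, ℤ)) i.1))) := fun i => rfl
  have hcor : corHom h y (Additive.ofMul γ) =
      Multiplicative.toAdd (MonoidHom.transfer ((AddMonoidHom.toMultiplicativeRight y).comp
        (Subgroup.subgroupOfEquivOfLe h).toMonoidHom) γ) := rfl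
  rw [hcor, key, toAdd_prod]
  simp only [hval, toAdd_ofAdd]
  unfold fibSum
  rw [Finset.sum_subtype (p := fun z' => prQ h z' = x0 Γ) _ (fun z' => by simp)]
  rfl

/-- **[D-TRANSFER], part 1**, verbatim in the shape of `helper38_DAdj`. -/
theorem pushRes : Fermat.Agent.P6.helper38.PushResStatement := by
  intro Γ' Γ _ _ h _ _ y Φ' hΦ' hy γ
  classical
  have hres : res Γ' Φ' hΦ' = y := by
    refine AddMonoidHom.ext fun γ' => ?_
    induction γ' using Additive.rec with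
    | ofMul γ' => exact hy γ'
  let u : SL(2, ℤ) ⧸ Γ' → ℤ := fun z' => (Φ' (Quotient.out z')).f (x0 Γ')
  have hsh : ∀ z', (Φ' (γ : SL(2, ℤ))).f z' =
      (shapiro Γ' y (γ : SL(2, ℤ))).f z' + (- u z' + u ((γ : SL(2, ℤ)) • z')) := by
    intro z'
    rw [← hres, shapiro_res_f Γ' Φ' hΦ' (γ : SL(2, ℤ)) z']
    ring
  rw [← fibSum_shapiro h y γ]
  have e : (Φ' (γ : SL(2, ℤ))).f = fun z' => (shapiro Γ' y (γ : SL(2, ℤ))).f z' +
      (- u z' + u ((γ : SL(2, ℤ)) • z')) := funext hsh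
  have e1 := fibSum_add h (shapiro Γ' y (γ : SL(2, ℤ))).f
    (fun z' => - u z' + u ((γ : SL(2, ℤ)) • z')) (x0 Γ)
  have e2 := fibSum_add h (fun z' => - u z') (fun z' => u ((γ : SL(2, ℤ)) • z')) (x0 Γ)
  have e3 := fibSum_smul h u (γ : SL(2, ℤ)) (x0 Γ)
  rw [smul_x0_of_mem Γ γ.2] at e3
  have e4 : fibSum h (fun z' => - u z') (x0 Γ) = - fibSum h u (x0 Γ) := by
    unfold fibSum
    exact Finset.sum_neg_distrib _
  rw [e, e1, e2, e3, e4]
  ring

/-- **[D-TRANSFER], part 2**, verbatim in the shape of `helper38_DAdj`. -/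
theorem corPar : Fermat.Agent.P6.helper38.CorParStatement := by
  intro Γ' Γ _ _ h _ y hy
  exact Fermat.Agent.P6.helper82.corHom_isParabolicHom h y hy

end Transfer

/-- **[D-ADJ]** from [D-HEIS] and [D-MODEL] only. -/
theorem adj_of_heis_model (hH : HeisLiftStatement) (hM : ModelStatement) : AdjStatement :=
  Fermat.Agent.P6.helper38.adj_of Fermat.Agent.P6.helper94.parLift hH hM pushRes corPar

end Fermat.Agent.P6.helper39
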