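import Mathlib
import Fermat.Agent.P6.helper4_S41Defs
import Fermat.Agent.P6.helper62_TransferFormula

/-!
# P6 / S41 (HB), (D): `helper4.push` via right coset representatives (helper62)

* `push_eq_sum_of_rel` : for an injective `ι : G' →* G` with finite index range, right coset
  representatives `t i` of `ι.range \ G` and relations `t i * g = ι (h i) * t (s i)`:
  `push A ι hι ψ (ofMul g) = ∑ i, ψ (ofMul (h i))`.
-/

set_option autoImplicit false
set_option linter.unusedSectionVars false
set_option linter.unusedVariables false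
set_option linter.style.longLine false

namespace Fermat.Agent.P6.helper62

open Fermat.Agent.P6.helper4

variable {G' G : Type*} [Group G'] [Group G] {A : Type*} [AddCommGroup A]

theorem onRange_apply (ι : G' →* G) (hι : Function.Injective ι) (ψ : Additive G' →+ A)
    (h : G') (hh : ι h ∈ ι.range) :
    onRange A ι hι ψ ⟨ι h, hh⟩ = Multiplicative.ofAdd (ψ (Additive.ofMul h)) := by
  unfold onRange
  have : (MonoidHom.ofInjective hι).symm ⟨ι h, hh⟩ = h := by
    apply (MonoidHom.ofInjective hι).injective
    rw [MulEquiv.apply_symm_apply]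
    exact Subtype.ext (MonoidHom.ofInjective_apply hι).symm
  show (AddMonoidHom.toMultiplicativeRight ψ) ((MonoidHom.ofInjective hι).symm ⟨ι h, hh⟩) = _
  rw [this]
  rfl

/-- **`push` via right coset representatives.** -/
theorem push_eq_sum_of_rel (ι : G' →* G) (hι : Function.Injective ι) [hfi : ι.range.FiniteIndex]
    (ψ : Additive G' →+ A) {I : Type*} [Fintype I] (t : I → G)
    (ht : Function.Bijective (fun i => (((t i)⁻¹ : G) : G ⧸ ι.range)))
    (g : G) (s : I → I) (h : I → G') (hrel : ∀ i, t i * g = ι (h i) * t (s i)) :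
    push A ι hι ψ (Additive.ofMul g) = ∑ i, ψ (Additive.ofMul (h i)) := by
  rw [push_apply,
    transfer_eq_prod_of_rel (onRange A ι hι ψ) t ht g s (fun i => ⟨ι (h i), ⟨h i, rfl⟩⟩) hrel,
    toAdd_prod]
  refine Finset.sum_congr rfl fun i _ => ?_
  rw [onRange_apply]
  rfl

end Fermat.Agent.P6.helper62
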