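import Mathlib
import Fermat.Agent.P6.helper4_S41Defs
import Fermat.Agent.P6.helper77_TransferReps

/-!
# P6 / S41 (helper77): the transfer along a conjugate embedding

`push_eq_push_of_conj` : if `ι₂ γ = d * ι₁ (w γ) * d⁻¹` for an automorphism `w` of `G'` and an
element `d` of `G`, then `push ι₂ ψ = push ι₁ (ψ ∘ w⁻¹)` and `pull ι₂ x = pull w (pull ι₁ x)`.
-/

set_option autoImplicit false

namespace Fermat.Agent.P6.helper77

open Fermat.Agent.P6.helper4

section Conj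

variable {G' G : Type*} [Group G'] [Group G] (A : Type*) [AddCommGroup A]

/-- pull-back along a conjugate embedding -/
theorem pull_eq_pull_of_conj (ι₁ ι₂ : G' →* G) (w : G' ≃* G') (d : G)
    (hrel : ∀ γ, ι₂ γ = d * ι₁ (w γ) * d⁻¹) (x : Additive G →+ A) :
    pull A ι₂ x = pull A w.toMonoidHom (pull A ι₁ x) := by
  refine DFunLike.ext _ _ (fun γ' => ?_)
  obtain ⟨γ, rfl⟩ := Additive.ofMul.surjective γ'
  show x (Additive.ofMul (ι₂ γ)) = x (Additive.ofMul (ι₁ (w γ)))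
  rw [hrel γ]
  have : Additive.ofMul (d * ι₁ (w γ) * d⁻¹) =
      Additive.ofMul d + Additive.ofMul (ι₁ (w γ)) - Additive.ofMul d := by
    rw [ofMul_mul, ofMul_mul, ofMul_inv, sub_eq_add_neg]
  rw [this, map_sub, map_add]
  abel

theorem range_conj (ι₁ ι₂ : G' →* G) (w : G' ≃* G') (d : G)
    (hrel : ∀ γ, ι₂ γ = d * ι₁ (w γ) * d⁻¹) (g : G) :
    g ∈ ι₂.range ↔ d⁻¹ * g * d ∈ ι₁.range := by
  constructor
  · rintro ⟨γ, rfl⟩
    refine ⟨w γ, ?_⟩
    rw [hrel γ]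
    group
  · rintro ⟨γ', hγ'⟩
    refine ⟨w.symm γ', ?_⟩
    rw [hrel, MulEquiv.apply_symm_apply, hγ']
    group

/-- the representatives `t i d⁻¹` of `G ⧸ ι₂.range` -/
theorem bijective_conj_reps (ι₁ ι₂ : G' →* G) (w : G' ≃* G') (d : G)
    (hrel : ∀ γ, ι₂ γ = d * ι₁ (w γ) * d⁻¹) :
    Function.Bijective (fun q : G ⧸ ι₁.range => ((q.out * d⁻¹ : G) : G ⧸ ι₂.range)) := by
  constructor
  · intro q q' h
    have h1 : (q.out * d⁻¹)⁻¹ * (q'.out * d⁻¹) ∈ ι₂.range := QuotientGroup.eq.1 h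
    rw [range_conj ι₁ ι₂ w d hrel] at h1
    have h2 : q.out⁻¹ * q'.out ∈ ι₁.range := by
      have e : d⁻¹ * ((q.out * d⁻¹)⁻¹ * (q'.out * d⁻¹)) * d = q.out⁻¹ * q'.out := by group
      rwa [e] at h1
    have h3 : (q.out : G ⧸ ι₁.range) = (q'.out : G ⧸ ι₁.range) := QuotientGroup.eq.2 h2
    rwa [QuotientGroup.out_eq', QuotientGroup.out_eq'] at h3
  · intro q₂
    induction q₂ using QuotientGroup.induction_on with
    | H x =>
      refine ⟨((x * d : G) : G ⧸ ι₁.range), ?_⟩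
      show (((((x * d : G) : G ⧸ ι₁.range)).out * d⁻¹ : G) : G ⧸ ι₂.range) = (x : G ⧸ ι₂.range)
      rw [QuotientGroup.eq, range_conj ι₁ ι₂ w d hrel]
      have h1 : (((x * d : G) : G ⧸ ι₁.range)).out⁻¹ * (x * d) ∈ ι₁.range := by
        rw [← QuotientGroup.eq, QuotientGroup.out_eq']
      have e : d⁻¹ * (((((x * d : G) : G ⧸ ι₁.range)).out * d⁻¹)⁻¹ * x) * d
          = (((x * d : G) : G ⧸ ι₁.range)).out⁻¹ * (x * d) := by group
      rwa [e]

theorem finiteIndex_conj_iff (ι₁ ι₂ : G' →* G) (w : G' ≃* G') (d : G)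
    (hrel : ∀ γ, ι₂ γ = d * ι₁ (w γ) * d⁻¹) :
    ι₂.range.FiniteIndex ↔ ι₁.range.FiniteIndex := by
  rw [Subgroup.finiteIndex_iff_finite_quotient, Subgroup.finiteIndex_iff_finite_quotient]
  exact (Equiv.ofBijective _ (bijective_conj_reps ι₁ ι₂ w d hrel)).finite_iff.symm

theorem onRange_apply (ι : G' →* G) (hι : Function.Injective ι) (ψ : Additive G' →+ A) (γ : G')
    (h : ι γ ∈ ι.range) :
    onRange A ι hι ψ ⟨ι γ, h⟩ = Multiplicative.ofAdd (ψ (Additive.ofMul γ)) := by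
  unfold onRange
  have : (MonoidHom.ofInjective hι).symm ⟨ι γ, h⟩ = γ := by
    apply (MonoidHom.ofInjective hι).injective
    rw [MulEquiv.apply_symm_apply]
    rfl
  show (AddMonoidHom.toMultiplicativeRight ψ) ((MonoidHom.ofInjective hι).symm ⟨ι γ, h⟩) = _
  rw [this]
  rfl

/-- **transfer along a conjugate embedding** -/
theorem push_eq_push_of_conj (ι₁ ι₂ : G' →* G) (h₁ : Function.Injective ι₁)
    (h₂ : Function.Injective ι₂) (w : G' ≃* G') (d : G)
    (hrel : ∀ γ, ι₂ γ = d * ι₁ (w γ) * d⁻¹) (ψ : Additive G' →+ A) :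
    push A ι₂ h₂ ψ = push A ι₁ h₁ (pull A w.symm.toMonoidHom ψ) := by
  classical
  by_cases hfin : ι₁.range.FiniteIndex
  · have hfin₂ : ι₂.range.FiniteIndex := (finiteIndex_conj_iff ι₁ ι₂ w d hrel).2 hfin
    refine DFunLike.ext _ _ (fun g' => ?_)
    obtain ⟨g, rfl⟩ := Additive.ofMul.surjective g'
    rw [push_apply A ι₂ h₂ ψ g, push_apply A ι₁ h₁ _ g]
    congr 1
    let _ := ι₁.range.fintypeQuotientOfFiniteIndex
    -- the step data for `ι₁.range`
    have hstep : ∀ q : G ⧸ ι₁.range,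
        ((g * q.out : G) : G ⧸ ι₁.range).out⁻¹ * (g * q.out) ∈ ι₁.range := by
      intro q
      rw [← QuotientGroup.eq, QuotientGroup.out_eq']
    let σ : G ⧸ ι₁.range → G ⧸ ι₁.range := fun q => ((g * q.out : G) : G ⧸ ι₁.range)
    let s₁ : G ⧸ ι₁.range → ι₁.range := fun q => ⟨_, hstep q⟩
    have hmem₂ : ∀ q : G ⧸ ι₁.range, d * (s₁ q : G) * d⁻¹ ∈ ι₂.range := by
      intro q
      rw [range_conj ι₁ ι₂ w d hrel]
      have e : d⁻¹ * (d * (s₁ q : G) * d⁻¹) * d = (s₁ q : G) := by group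
      rw [e]
      exact (s₁ q).2
    let s₂ : G ⧸ ι₁.range → ι₂.range := fun q => ⟨_, hmem₂ q⟩
    have e₁ := transfer_eq_prod_of_reps (H := ι₁.range)
      (onRange A ι₁ h₁ (pull A w.symm.toMonoidHom ψ)) (fun q : G ⧸ ι₁.range => q.out)
      (by
        constructor
        · intro q q' h
          have h' : (q.out : G ⧸ ι₁.range) = (q'.out : G ⧸ ι₁.range) := h
          rwa [QuotientGroup.out_eq', QuotientGroup.out_eq'] at h'
        · intro q
          exact ⟨q, QuotientGroup.out_eq' q⟩) g σ s₁ (by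
        intro q
        show g * q.out = (σ q).out * ((σ q).out⁻¹ * (g * q.out))
        group)
    have e₂ := transfer_eq_prod_of_reps (H := ι₂.range) (onRange A ι₂ h₂ ψ)
      (fun q : G ⧸ ι₁.range => q.out * d⁻¹) (bijective_conj_reps ι₁ ι₂ w d hrel) g σ s₂ (by
        intro q
        show g * (q.out * d⁻¹) = (σ q).out * d⁻¹ * (d * ((σ q).out⁻¹ * (g * q.out)) * d⁻¹)
        group)
    rw [e₁, e₂]
    refine Finset.prod_congr rfl (fun q _ => ?_)
    -- compare the two characters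
    obtain ⟨γ', hγ'⟩ := (s₁ q).2
    have hs₁ : s₁ q = ⟨ι₁ γ', MonoidHom.mem_range.2 ⟨γ', rfl⟩⟩ := Subtype.ext hγ'.symm
    have hs₂ : s₂ q = ⟨ι₂ (w.symm γ'), MonoidHom.mem_range.2 ⟨w.symm γ', rfl⟩⟩ := by
      apply Subtype.ext
      show d * (s₁ q : G) * d⁻¹ = ι₂ (w.symm γ')
      rw [hrel, MulEquiv.apply_symm_apply, ← hγ']
    rw [hs₁, hs₂, onRange_apply, onRange_apply]
    rfl
  · have hfin₂ : ¬ ι₂.range.FiniteIndex := fun h =>
      hfin ((finiteIndex_conj_iff ι₁ ι₂ w d hrel).1 h)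
    unfold push
    rw [dif_neg hfin, dif_neg hfin₂]

end Conj

end Fermat.Agent.P6.helper77
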