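import Mathlib
import Fermat.Agent.P6.helper77_PushConj

/-!
# P6 / S41, package [D-AL-RED] (helper77): the second degeneracy map through the Atkin-Lehner
automorphism

`r` prime to `M`.  With `u r + v M = 1`, `δ = [[u, -v], [M, r]] ∈ Γ₀(M)` and
`W = δ · diag(r, 1) = [[u r, -v], [M r, r]]` (the Atkin-Lehner matrix, `det W = r`):

* `alAut M r h : Γ₀(M r) ≃* Γ₀(M r)`, `γ ↦ δ · jTwo γ · δ⁻¹ = W γ W⁻¹`;
* `alMat_mul` : `W * γ = alAut γ * W` (matrices over `ℤ`), `alMat_det : det W = r`;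
* `jTwo_eq_conj` : `jTwo γ = δ⁻¹ · jOne (alAut γ) · δ` in `Γ₀(M)`;
* `a2_eq_pull_a1` : `a2 x = pull alAut (a1 x)`;
* `b2_eq_b1_pull` : `b2 ψ = b1 (pull alAut⁻¹ ψ)`.

Hence `(P3, i = 2)` of the duality statement follows from `(P3, i = 1)` and the invariance of
the form under the automorphism `alAut` (conjugation by a matrix of positive determinant).
-/

set_option autoImplicit false

open Matrix MatrixGroups CongruenceSubgroup

namespace Fermat.Agent.P6.helper77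

open Fermat.Agent.P6.helper4

section AL

variable (M r : ℕ)

/-- Bezout coefficient `u` -/
def alU : ℤ := Int.gcdA (r : ℤ) (M : ℤ)

/-- Bezout coefficient `v` -/
def alV : ℤ := Int.gcdB (r : ℤ) (M : ℤ)

theorem alU_alV (h : Nat.Coprime M r) : alU M r * (r : ℤ) + alV M r * (M : ℤ) = 1 := by
  have h1 := Int.gcd_eq_gcd_ab (r : ℤ) (M : ℤ)
  have h2 : Int.gcd (r : ℤ) (M : ℤ) = 1 := by
    rw [Int.gcd_natCast_natCast]
    exact h.symm
  rw [h2] at h1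
  unfold alU alV
  push_cast at h1
  linarith

/-- `δ = [[u, -v], [M, r]]` -/
def alDelta (h : Nat.Coprime M r) : SL(2, ℤ) :=
  ⟨!![alU M r, -alV M r; (M : ℤ), (r : ℤ)], by
    rw [Matrix.det_fin_two_of]
    have := alU_alV M r h
    linarith⟩

theorem alDelta_mem (h : Nat.Coprime M r) : alDelta M r h ∈ Gamma0 M :=
  gamma0_mem_iff_dvd.2 (by show (M : ℤ) ∣ (M : ℤ); exact dvd_rfl)

/-- `δ` as an element of `Γ₀(M)` -/
def alDeltaM (h : Nat.Coprime M r) : Gamma0 M := ⟨alDelta M r h, alDelta_mem M r h⟩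

theorem sl2_inv_apply (γ : SL(2, ℤ)) :
    ((γ⁻¹ : SL(2, ℤ)) : Matrix (Fin 2) (Fin 2) ℤ) = !![γ 1 1, -γ 0 1; -γ 1 0, γ 0 0] := by
  rw [Matrix.SpecialLinearGroup.coe_inv, Matrix.adjugate_fin_two]

theorem conj_apply_one_zero (δ X : SL(2, ℤ)) :
    ((δ * X * δ⁻¹ : SL(2, ℤ)) 1 0 : ℤ) =
      (δ 1 0 * X 0 0 + δ 1 1 * X 1 0) * δ 1 1 - (δ 1 0 * X 0 1 + δ 1 1 * X 1 1) * δ 1 0 := by
  rw [sl2_mul_apply, sl2_mul_apply, sl2_mul_apply, sl2_inv_apply]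
  simp only [Matrix.of_apply, Matrix.cons_val', Matrix.cons_val_zero, Matrix.cons_val_one,
    Matrix.cons_val_fin_one]
  ring

theorem conj_inv_apply_zero_one (δ X : SL(2, ℤ)) :
    ((δ⁻¹ * X * δ : SL(2, ℤ)) 0 1 : ℤ) =
      (δ 1 1 * X 0 0 - δ 0 1 * X 1 0) * δ 0 1 + (δ 1 1 * X 0 1 - δ 0 1 * X 1 1) * δ 1 1 := by
  rw [sl2_mul_apply, sl2_mul_apply, sl2_mul_apply, sl2_inv_apply]
  simp only [Matrix.of_apply, Matrix.cons_val', Matrix.cons_val_zero, Matrix.cons_val_one,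
    Matrix.cons_val_fin_one]
  ring

theorem alDelta_apply_one_zero (h : Nat.Coprime M r) : (alDelta M r h) 1 0 = (M : ℤ) := rfl
theorem alDelta_apply_one_one (h : Nat.Coprime M r) : (alDelta M r h) 1 1 = (r : ℤ) := rfl
theorem alDelta_apply_zero_one (h : Nat.Coprime M r) : (alDelta M r h) 0 1 = -alV M r := rfl
theorem alDelta_apply_zero_zero (h : Nat.Coprime M r) : (alDelta M r h) 0 0 = alU M r := rfl

/-- `δ · jTwo γ · δ⁻¹ ∈ Γ₀(M r)` -/
theorem al_conj_mem (hr : r ≠ 0) (h : Nat.Coprime M r) (γ : Gamma0 (M * r)) :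
    alDelta M r h * (jTwo M r hr γ : SL(2, ℤ)) * (alDelta M r h)⁻¹ ∈ Gamma0 (M * r) := by
  refine gamma0_mem_iff_dvd.2 ?_
  have hcop : IsCoprime (M : ℤ) (r : ℤ) := by exact_mod_cast Nat.isCoprime_iff_coprime.2 h
  have hX10 : (M : ℤ) ∣ (jTwo M r hr γ : SL(2, ℤ)) 1 0 := gamma0_mem_iff_dvd.1 (jTwo M r hr γ).2
  have hX01 : (r : ℤ) ∣ (jTwo M r hr γ : SL(2, ℤ)) 0 1 := by
    rw [jTwo_apply_zero_one]
    exact dvd_mul_right _ _
  rw [conj_apply_one_zero, alDelta_apply_one_zero, alDelta_apply_one_one]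
  push_cast
  apply hcop.mul_dvd
  · obtain ⟨c, hc⟩ := hX10
    rw [hc]
    exact ⟨((jTwo M r hr γ : SL(2, ℤ)) 0 0 + (r : ℤ) * c) * (r : ℤ)
      - ((M : ℤ) * (jTwo M r hr γ : SL(2, ℤ)) 0 1 + (r : ℤ) * (jTwo M r hr γ : SL(2, ℤ)) 1 1),
      by ring⟩
  · obtain ⟨b, hb⟩ := hX01
    rw [hb]
    exact ⟨((M : ℤ) * (jTwo M r hr γ : SL(2, ℤ)) 0 0 + (r : ℤ) * (jTwo M r hr γ : SL(2, ℤ)) 1 0)
      - ((M : ℤ) * b + (jTwo M r hr γ : SL(2, ℤ)) 1 1) * (M : ℤ), by ring⟩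

/-- the Atkin-Lehner automorphism as a homomorphism -/
def alHom (hr : r ≠ 0) (h : Nat.Coprime M r) : Gamma0 (M * r) →* Gamma0 (M * r) where
  toFun γ := ⟨alDelta M r h * (jTwo M r hr γ : SL(2, ℤ)) * (alDelta M r h)⁻¹,
    al_conj_mem M r hr h γ⟩
  map_one' := by
    apply Subtype.ext
    simp
  map_mul' γ γ' := by
    apply Subtype.ext
    show alDelta M r h * ((jTwo M r hr (γ * γ') : Gamma0 M) : SL(2, ℤ)) * (alDelta M r h)⁻¹
      = (alDelta M r h * (jTwo M r hr γ : SL(2, ℤ)) * (alDelta M r h)⁻¹)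
        * (alDelta M r h * (jTwo M r hr γ' : SL(2, ℤ)) * (alDelta M r h)⁻¹)
    rw [map_mul, Subgroup.coe_mul]
    group

theorem alHom_coe (hr : r ≠ 0) (h : Nat.Coprime M r) (γ : Gamma0 (M * r)) :
    ((alHom M r hr h γ : Gamma0 (M * r)) : SL(2, ℤ))
      = alDelta M r h * (jTwo M r hr γ : SL(2, ℤ)) * (alDelta M r h)⁻¹ := rfl

theorem alHom_injective (hr : r ≠ 0) (h : Nat.Coprime M r) :
    Function.Injective (alHom M r hr h) := by
  intro γ γ' hγ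
  have h1 := congrArg (fun x : Gamma0 (M * r) => (x : SL(2, ℤ))) hγ
  simp only [alHom_coe] at h1
  have h2 : (jTwo M r hr γ : SL(2, ℤ)) = (jTwo M r hr γ' : SL(2, ℤ)) := by
    have := congrArg (fun x => (alDelta M r h)⁻¹ * x * alDelta M r h) h1
    simpa [mul_assoc] using this
  exact jTwo_injective M r hr (Subtype.ext h2)

theorem alHom_surjective (hr : r ≠ 0) (h : Nat.Coprime M r) :
    Function.Surjective (alHom M r hr h) := by
  intro γ'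
  -- `δ⁻¹ γ' δ` lies in the range of `jTwo`
  have hγ'M : (γ' : SL(2, ℤ)) ∈ Gamma0 M := gamma0_mul_le M r γ'.2
  have hmem : (alDelta M r h)⁻¹ * (γ' : SL(2, ℤ)) * alDelta M r h ∈ Gamma0 M :=
    (Gamma0 M).mul_mem ((Gamma0 M).mul_mem ((Gamma0 M).inv_mem (alDelta_mem M r h)) hγ'M)
      (alDelta_mem M r h)
  have hr10 : (r : ℤ) ∣ (γ' : SL(2, ℤ)) 1 0 := dvd_of_mem_gamma0_mul γ'.2
  have h01 : (r : ℤ) ∣ ((alDelta M r h)⁻¹ * (γ' : SL(2, ℤ)) * alDelta M r h) 0 1 := by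
    rw [conj_inv_apply_zero_one, alDelta_apply_one_one, alDelta_apply_zero_one]
    obtain ⟨c, hc⟩ := hr10
    rw [hc]
    exact ⟨-((γ' : SL(2, ℤ)) 0 0 + alV M r * c) * alV M r
      + ((r : ℤ) * (γ' : SL(2, ℤ)) 0 1 + alV M r * (γ' : SL(2, ℤ)) 1 1), by ring⟩
  obtain ⟨γ, hγ⟩ := (mem_range_jTwo_iff M r hr ⟨_, hmem⟩).2 h01
  refine ⟨γ, ?_⟩
  apply Subtype.ext
  rw [alHom_coe, hγ]
  show alDelta M r h * ((alDelta M r h)⁻¹ * (γ' : SL(2, ℤ)) * alDelta M r h) * (alDelta M r h)⁻¹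
    = (γ' : SL(2, ℤ))
  group

/-- **the Atkin-Lehner automorphism** of `Γ₀(M r)` -/
noncomputable def alAut (hr : r ≠ 0) (h : Nat.Coprime M r) : Gamma0 (M * r) ≃* Gamma0 (M * r) :=
  MulEquiv.ofBijective (alHom M r hr h) ⟨alHom_injective M r hr h, alHom_surjective M r hr h⟩

theorem alAut_coe (hr : r ≠ 0) (h : Nat.Coprime M r) (γ : Gamma0 (M * r)) :
    ((alAut M r hr h γ : Gamma0 (M * r)) : SL(2, ℤ))
      = alDelta M r h * (jTwo M r hr γ : SL(2, ℤ)) * (alDelta M r h)⁻¹ := rfl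

/-- `jTwo = conj_{δ⁻¹} ∘ jOne ∘ alAut` -/
theorem jTwo_eq_conj (hr : r ≠ 0) (h : Nat.Coprime M r) (γ : Gamma0 (M * r)) :
    jTwo M r hr γ = (alDeltaM M r h)⁻¹ * jOne M r (alAut M r hr h γ) * ((alDeltaM M r h)⁻¹)⁻¹ := by
  apply Subtype.ext
  rw [Subgroup.coe_mul, Subgroup.coe_mul, Subgroup.coe_inv, Subgroup.coe_inv, jOne_coe,
    alAut_coe]
  show (jTwo M r hr γ : SL(2, ℤ)) = (alDelta M r h)⁻¹
    * (alDelta M r h * (jTwo M r hr γ : SL(2, ℤ)) * (alDelta M r h)⁻¹) * ((alDelta M r h)⁻¹)⁻¹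
  group

/-- the Atkin-Lehner matrix `W = δ · diag(r, 1) = [[u r, -v], [M r, r]]` -/
def alMat : Matrix (Fin 2) (Fin 2) ℤ :=
  !![alU M r * (r : ℤ), -alV M r; (M : ℤ) * (r : ℤ), (r : ℤ)]

theorem alMat_det (h : Nat.Coprime M r) : (alMat M r).det = (r : ℤ) := by
  rw [alMat, Matrix.det_fin_two_of]
  have := alU_alV M r h
  linear_combination (r : ℤ) * this

/-- `alAut` is conjugation by the Atkin-Lehner matrix: `W γ = alAut(γ) W` -/
theorem alMat_mul (hr : r ≠ 0) (h : Nat.Coprime M r) (γ : Gamma0 (M * r)) :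
    alMat M r * ((γ : SL(2, ℤ)) : Matrix (Fin 2) (Fin 2) ℤ)
      = ((alAut M r hr h γ : SL(2, ℤ)) : Matrix (Fin 2) (Fin 2) ℤ) * alMat M r := by
  -- `W = δ g`, `g γ = jTwo(γ) g`, `alAut(γ) δ = δ jTwo(γ)`
  have hW : alMat M r = ((alDelta M r h : SL(2, ℤ)) : Matrix (Fin 2) (Fin 2) ℤ)
      * !![(r : ℤ), 0; 0, 1] := by
    ext i j
    fin_cases i <;> fin_cases j <;>
      simp [alMat, alDelta, Matrix.mul_apply, Fin.sum_univ_two]
  have hg : !![(r : ℤ), 0; 0, 1] * ((γ : SL(2, ℤ)) : Matrix (Fin 2) (Fin 2) ℤ)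
      = ((jTwo M r hr γ : SL(2, ℤ)) : Matrix (Fin 2) (Fin 2) ℤ) * !![(r : ℤ), 0; 0, 1] := by
    have h10 : (r : ℤ) * ((γ : SL(2, ℤ)) 1 0 / (r : ℤ)) = (γ : SL(2, ℤ)) 1 0 :=
      Int.mul_ediv_cancel' (dvd_of_mem_gamma0_mul γ.2)
    have e00 : (jTwo M r hr γ : SL(2, ℤ)) 0 0 = (γ : SL(2, ℤ)) 0 0 := rfl
    have e01 : (jTwo M r hr γ : SL(2, ℤ)) 0 1 = (r : ℤ) * (γ : SL(2, ℤ)) 0 1 := rfl
    have e10 : (jTwo M r hr γ : SL(2, ℤ)) 1 0 = (γ : SL(2, ℤ)) 1 0 / (r : ℤ) := rfl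
    have e11 : (jTwo M r hr γ : SL(2, ℤ)) 1 1 = (γ : SL(2, ℤ)) 1 1 := rfl
    ext i j
    fin_cases i <;> fin_cases j
    · simp [Matrix.mul_apply, Fin.sum_univ_two, e00]; ring
    · simp [Matrix.mul_apply, Fin.sum_univ_two, e01]
    · simp [Matrix.mul_apply, Fin.sum_univ_two, e10]
      linarith [h10]
    · simp [Matrix.mul_apply, Fin.sum_univ_two, e11]
  have hδ : ((alAut M r hr h γ : SL(2, ℤ)) : Matrix (Fin 2) (Fin 2) ℤ)
      * ((alDelta M r h : SL(2, ℤ)) : Matrix (Fin 2) (Fin 2) ℤ)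
      = ((alDelta M r h : SL(2, ℤ)) : Matrix (Fin 2) (Fin 2) ℤ)
        * ((jTwo M r hr γ : SL(2, ℤ)) : Matrix (Fin 2) (Fin 2) ℤ) := by
    rw [← Matrix.SpecialLinearGroup.coe_mul, ← Matrix.SpecialLinearGroup.coe_mul, alAut_coe]
    congr 1
    rw [inv_mul_cancel_right]
  rw [hW, Matrix.mul_assoc, hg, ← Matrix.mul_assoc, ← hδ, Matrix.mul_assoc]

variable (A : Type*) [AddCommGroup A]

/-- **(R1)** the second degeneracy map is the first one followed by Atkin-Lehner -/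
theorem a2_eq_pull_a1 (hr : r ≠ 0) (h : Nat.Coprime M r) (x : Additive (Gamma0 M) →+ A) :
    a2 M r hr A x = pull A (alAut M r hr h).toMonoidHom (a1 M r A x) :=
  pull_eq_pull_of_conj A (jOne M r) (jTwo M r hr) (alAut M r hr h) (alDeltaM M r h)⁻¹
    (jTwo_eq_conj M r hr h) x

/-- **(R2)** the second transfer is the first one after Atkin-Lehner -/
theorem b2_eq_b1_pull (hr : r ≠ 0) (h : Nat.Coprime M r) (ψ : Additive (Gamma0 (M * r)) →+ A) :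
    b2 M r hr A ψ = b1 M r A (pull A (alAut M r hr h).symm.toMonoidHom ψ) :=
  push_eq_push_of_conj A (jOne M r) (jTwo M r hr) (jOne_injective M r) (jTwo_injective M r hr)
    (alAut M r hr h) (alDeltaM M r h)⁻¹ (jTwo_eq_conj M r hr h) ψ

/-- **reduction of `(P3, i = 2)` to `(P3, i = 1)` + Atkin-Lehner invariance**, abstract form:
if a pairing `B'` on characters of `Γ₀(M r)` is invariant under `alAut` and `a1`, `b1` are
adjoint, then `a2`, `b2` are adjoint. -/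
theorem adjoint_two_of_one (hr : r ≠ 0) (h : Nat.Coprime M r) {Z : Type*}
    (B : (Additive (Gamma0 M) →+ A) → (Additive (Gamma0 M) →+ A) → Z)
    (B' : (Additive (Gamma0 (M * r)) →+ A) → (Additive (Gamma0 (M * r)) →+ A) → Z)
    (x : Additive (Gamma0 M) →+ A) (y : Additive (Gamma0 (M * r)) →+ A)
    (hadj : B' (a1 M r A x) (pull A (alAut M r hr h).symm.toMonoidHom y)
      = B x (b1 M r A (pull A (alAut M r hr h).symm.toMonoidHom y)))
    (hinv : B' (pull A (alAut M r hr h).toMonoidHom (a1 M r A x)) y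
      = B' (a1 M r A x) (pull A (alAut M r hr h).symm.toMonoidHom y)) :
    B' (a2 M r hr A x) y = B x (b2 M r hr A y) := by
  rw [a2_eq_pull_a1 M r A hr h, b2_eq_b1_pull M r A hr h, hinv, hadj]

end AL

end Fermat.Agent.P6.helper77
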