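import Mathlib
import Fermat.Agent.P6.helper4_S41Defs
import Fermat.Agent.P6.helper62_PushFormula
import Fermat.Agent.P6.helper77_ALRed

/-!
# P6 / S41, package [HB3] (helper3): `U_q² = 1` on the `q`-new part

`q` a prime not dividing `N`, `Γ = Γ₀(N q) ⊆ Γ' = Γ₀(N)`, `w = helper77.alAut` the Atkin-Lehner
automorphism of `Γ` (conjugation by `W = δ · diag(q, 1)`), `U_q = heckeHom (N q) q`,
`b1`, `b2` the two transfers `Hom(Γ, A) → Hom(Γ', A)`.

* `b1_jOne` (Mackey formula): `(b1 y)(γ) = y γ + (U_q (w^* y)) γ` for `γ ∈ Γ`, from the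
  right coset representatives `1`, `δ · [[1, j], [0, 1]]` (`j ∈ 𝔽_q`) of `Γ \ Γ'`;
* `pull_alAut_pull_alAut` : `w² ` is inner, hence `w^* w^* = 1` on `Hom(Γ, A)`;
* `hb3_gen` : `b1 y = 0 → b2 y = 0 → U_q (U_q y) = y` for every coefficient group `A`;
* `hb3 : helper4.HB3Statement`.
-/

set_option autoImplicit false

open Matrix MatrixGroups CongruenceSubgroup Matrix.SpecialLinearGroup

namespace Fermat.Agent.P6.helper3

open Fermat.Agent.P6.helper4 Fermat.Agent.P6.helper77 Fermat.Agent.P6.helper62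
open Fermat.Agent.S16.helper26
open P2MW.S_ModularForm_heckeT_slash_eq_self_of_mem_Gamma0.ModularForm.HeckeSlashInvariance
open ModularForm

/-! ### integral matrices -/

section Mat

/-- the integral Hecke matrix `[[1, j], [0, q]]` -/
def hMat (q : ℕ) (j : ℤ) : Matrix (Fin 2) (Fin 2) ℤ := !![1, j; 0, (q : ℤ)]

theorem coe_unip (t : ℤ) :
    ((unip t : SL(2, ℤ)) : Matrix (Fin 2) (Fin 2) ℤ) = !![1, t; 0, 1] := rfl

/-- `W · [[1, j], [0, q]] = q · δ · [[1, j], [0, 1]]` -/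
theorem alMat_mul_hMat (N q : ℕ) (h : Nat.Coprime N q) (j : ℤ) :
    alMat N q * hMat q j = (q : ℤ) • (((alDelta N q h : SL(2, ℤ)) : Matrix (Fin 2) (Fin 2) ℤ) *
      ((unip j : SL(2, ℤ)) : Matrix (Fin 2) (Fin 2) ℤ)) := by
  ext a b
  fin_cases a <;> fin_cases b <;>
    simp [alMat, alDelta, hMat, unip, Matrix.mul_apply, Fin.sum_univ_two] <;> ring

/-- the relation of the `U_q`-cocycle over `ℤ` -/
theorem hMat_rel {q : ℕ} (hq : q ≠ 0) {g g' : SL(2, ℤ)} {j j' : ℕ}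
    (hrel : heckeMatrix q j * mapGL ℝ g = mapGL ℝ g' * heckeMatrix q j') :
    hMat q j * (g : Matrix (Fin 2) (Fin 2) ℤ) = (g' : Matrix (Fin 2) (Fin 2) ℤ) * hMat q j' := by
  obtain ⟨e1, e2, e3, e4⟩ :=
    entries_of_rel (val_heckeMatrix_int hq j) (val_heckeMatrix_int hq j') hrel
  ext a b
  fin_cases a <;> fin_cases b <;>
    simp [hMat, Matrix.mul_apply, Fin.sum_univ_two] <;> linarith

end Mat

/-! ### the coset representatives of `Γ₀(N q) \ Γ₀(N)` -/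

section Rep

variable (N : ℕ) (ℓ : Nat.Primes) (h : Nat.Coprime N ℓ)

/-- `[[1, t], [0, 1]]` as an element of `Γ₀(N)` -/
def unipG (t : ℤ) : Gamma0 N := ⟨unip t, unip_mem_Gamma0 N t⟩

/-- the representatives `1`, `δ · [[1, j], [0, 1]]` of the right cosets `Γ₀(N q) \ Γ₀(N)` -/
def rep : Option (ZMod ℓ) → Gamma0 N
  | none => 1
  | some j => alDeltaM N ℓ h * unipG N (j.val : ℤ)

theorem rep_none : rep N ℓ h none = 1 := rfl

theorem rep_some (j : ZMod ℓ) :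
    rep N ℓ h (some j) = alDeltaM N ℓ h * unipG N (j.val : ℤ) := rfl

/-- the lower left entry of `g · (δ u_j)⁻¹` -/
theorem mul_rep_inv_apply (g : Gamma0 N) (j : ZMod ℓ) :
    ((g * (rep N ℓ h (some j))⁻¹ : Gamma0 N) : SL(2, ℤ)) 1 0 =
      (g : SL(2, ℤ)) 1 0 * (ℓ : ℤ) -
        (N : ℤ) * ((g : SL(2, ℤ)) 1 1 - (g : SL(2, ℤ)) 1 0 * (j.val : ℤ)) := by
  rw [rep_some, Subgroup.coe_mul, Subgroup.coe_inv, Subgroup.coe_mul, _root_.mul_inv_rev, ← mul_assoc,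
    sl2_mul_apply, sl2_mul_apply, sl2_mul_apply, sl2_inv_apply, sl2_inv_apply]
  simp [alDeltaM, alDelta, unipG, unip]
  ring

include h in
theorem natCast_level_ne_zero : ((N : ℕ) : ZMod ℓ) ≠ 0 := by
  intro h0
  rw [ZMod.natCast_eq_zero_iff] at h0
  have h1 : (ℓ : ℕ) ∣ Nat.gcd N ℓ := Nat.dvd_gcd h0 dvd_rfl
  rw [h] at h1
  exact ℓ.2.one_lt.ne' (Nat.dvd_one.1 h1)

theorem mem_range_none_iff (g : Gamma0 N) :
    g * (rep N ℓ h none)⁻¹ ∈ (jOne N ℓ).range ↔ (((g : SL(2, ℤ)) 1 0 : ℤ) : ZMod ℓ) = 0 := by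
  rw [rep_none, inv_one, mul_one, mem_range_jOne_iff N ℓ h, ZMod.intCast_zmod_eq_zero_iff_dvd]

theorem mem_range_some_iff (g : Gamma0 N) (j : ZMod ℓ) :
    g * (rep N ℓ h (some j))⁻¹ ∈ (jOne N ℓ).range ↔
      (((g : SL(2, ℤ)) 1 1 : ℤ) : ZMod ℓ) = (((g : SL(2, ℤ)) 1 0 : ℤ) : ZMod ℓ) * j := by
  rw [mem_range_jOne_iff N ℓ h, mul_rep_inv_apply, ← ZMod.intCast_zmod_eq_zero_iff_dvd]
  push_cast
  rw [ZMod.natCast_self, mul_zero, zero_sub, neg_eq_zero, mul_eq_zero, ZMod.natCast_zmod_val,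
    sub_eq_zero]
  constructor
  · rintro (h0 | h0)
    · exact absurd h0 (natCast_level_ne_zero N ℓ h)
    · exact h0
  · exact fun h0 => Or.inr h0

theorem rep_existsUnique (g : Gamma0 N) :
    ∃! i, g * (rep N ℓ h i)⁻¹ ∈ (jOne N ℓ).range := by
  have hdet : (((g : SL(2, ℤ)) 0 0 : ℤ) : ZMod ℓ) * (((g : SL(2, ℤ)) 1 1 : ℤ) : ZMod ℓ) -
      (((g : SL(2, ℤ)) 0 1 : ℤ) : ZMod ℓ) * (((g : SL(2, ℤ)) 1 0 : ℤ) : ZMod ℓ) = 1 := by
    have := congrArg (Int.cast : ℤ → ZMod ℓ) (sl2_det_eq (g : SL(2, ℤ)))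
    push_cast at this
    exact this
  by_cases hc : (((g : SL(2, ℤ)) 1 0 : ℤ) : ZMod ℓ) = 0
  · refine ⟨none, (mem_range_none_iff N ℓ h g).2 hc, ?_⟩
    rintro (_ | j) hj
    · rfl
    · exfalso
      rw [mem_range_some_iff, hc, zero_mul] at hj
      rw [hj, hc, mul_zero, mul_zero, sub_zero] at hdet
      exact zero_ne_one hdet
  · refine ⟨some ((((g : SL(2, ℤ)) 1 0 : ℤ) : ZMod ℓ)⁻¹ * (((g : SL(2, ℤ)) 1 1 : ℤ) : ZMod ℓ)),
      ?_, ?_⟩
    · show g * (rep N ℓ h (some _))⁻¹ ∈ (jOne N ℓ).range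
      rw [mem_range_some_iff, ← mul_assoc, mul_inv_cancel₀ hc, one_mul]
    · rintro (_ | j) hj
      · exact absurd ((mem_range_none_iff N ℓ h g).1 hj) hc
      · rw [mem_range_some_iff] at hj
        rw [hj, ← mul_assoc, inv_mul_cancel₀ hc, one_mul]

theorem rep_bijective :
    Function.Bijective
      (fun i => (((rep N ℓ h i)⁻¹ : Gamma0 N) : Gamma0 N ⧸ (jOne N ℓ).range)) :=
  bijective_of_existsUnique (rep N ℓ h) (rep_existsUnique N ℓ h)

include h in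
theorem finiteIndex_range_jOne : (jOne N ℓ).range.FiniteIndex := by
  have : Finite (Gamma0 N ⧸ (jOne N ℓ).range) :=
    Finite.of_surjective _ (rep_bijective N ℓ h).2
  exact Subgroup.finiteIndex_of_finite_quotient

end Rep

/-! ### the Mackey formula `a1 b1 = 1 + U_q w^*` -/

section Mackey

variable (N : ℕ) (ℓ : Nat.Primes) (h : Nat.Coprime N ℓ)

theorem dvd_level : (ℓ : ℕ) ∣ N * ℓ := dvd_mul_left _ _

theorem prime_cast_ne_zero : ((ℓ : ℕ) : ℤ) ≠ 0 := by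
  exact_mod_cast ℓ.2.ne_zero

/-- the relation `t_j γ = w(step_j γ) t_{perm_j γ}` -/
theorem rep_rel (γ : Gamma0 (N * ℓ)) (j : ZMod ℓ) :
    rep N ℓ h (some j) * jOne N ℓ γ =
      jOne N ℓ (alAut N ℓ ℓ.2.ne_zero h ((systemU (N * ℓ) ℓ (dvd_level N ℓ)).step γ j)) *
        rep N ℓ h (some ((systemU (N * ℓ) ℓ (dvd_level N ℓ)).perm γ j)) := by
  have hrel := (systemU (N * ℓ) ℓ (dvd_level N ℓ)).rel γ j
  rw [systemU_α, systemU_α] at hrel
  have h1 := hMat_rel ℓ.2.ne_zero hrel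
  have h3 := alMat_mul N ℓ ℓ.2.ne_zero h ((systemU (N * ℓ) ℓ (dvd_level N ℓ)).step γ j)
  apply Subtype.ext
  apply Subtype.ext
  rw [rep_some, rep_some]
  simp only [Subgroup.coe_mul, Matrix.SpecialLinearGroup.coe_mul, jOne_coe]
  apply smul_right_injective _ (prime_cast_ne_zero ℓ)
  show ((ℓ : ℕ) : ℤ) • (((alDelta N ℓ h : SL(2, ℤ)) : Matrix (Fin 2) (Fin 2) ℤ) *
      ((unip (j.val : ℤ) : SL(2, ℤ)) : Matrix (Fin 2) (Fin 2) ℤ) *
        (((γ : Gamma0 (N * ℓ)) : SL(2, ℤ)) : Matrix (Fin 2) (Fin 2) ℤ)) =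
    ((ℓ : ℕ) : ℤ) • ((((alAut N ℓ ℓ.2.ne_zero h
        ((systemU (N * ℓ) ℓ (dvd_level N ℓ)).step γ j) : Gamma0 (N * ℓ)) : SL(2, ℤ)) :
          Matrix (Fin 2) (Fin 2) ℤ) *
      (((alDelta N ℓ h : SL(2, ℤ)) : Matrix (Fin 2) (Fin 2) ℤ) *
        ((unip (((systemU (N * ℓ) ℓ (dvd_level N ℓ)).perm γ j).val : ℤ) : SL(2, ℤ)) :
          Matrix (Fin 2) (Fin 2) ℤ)))
  rw [← Matrix.smul_mul, ← alMat_mul_hMat, Matrix.mul_assoc, h1, ← Matrix.mul_assoc, h3,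
    Matrix.mul_assoc, alMat_mul_hMat N ℓ h, Matrix.mul_smul]

variable {A : Type*} [AddCommGroup A]

/-- **Mackey formula**: `(b1 y)(γ) = y(γ) + (U_q (w^* y))(γ)` for `γ ∈ Γ₀(N q)` -/
theorem b1_jOne (y : Additive (Gamma0 (N * ℓ)) →+ A) (γ : Gamma0 (N * ℓ)) :
    b1 N ℓ A y (Additive.ofMul (jOne N ℓ γ)) =
      y (Additive.ofMul γ) +
        heckeHom (N * ℓ) ℓ (pull A (alAut N ℓ ℓ.2.ne_zero h).toMonoidHom y)
          (Additive.ofMul γ) := by
  have := finiteIndex_range_jOne N ℓ h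
  have key := push_eq_sum_of_rel (jOne N ℓ) (jOne_injective N ℓ) y (rep N ℓ h)
    (rep_bijective N ℓ h) (jOne N ℓ γ)
    (fun i => i.elim none (fun j => some ((systemU (N * ℓ) ℓ (dvd_level N ℓ)).perm γ j)))
    (fun i => i.elim γ
      (fun j => alAut N ℓ ℓ.2.ne_zero h ((systemU (N * ℓ) ℓ (dvd_level N ℓ)).step γ j)))
    (by
      rintro (_ | j)
      · show rep N ℓ h none * jOne N ℓ γ = jOne N ℓ γ * rep N ℓ h none
        rw [rep_none, one_mul, mul_one]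
      · exact rep_rel N ℓ h γ j)
  unfold b1
  rw [key, Fintype.sum_option, heckeHom_apply_of_dvd (N * ℓ) (dvd_level N ℓ)]
  rfl

end Mackey

/-! ### the square of the Atkin-Lehner automorphism is inner -/

section Square

variable (N q : ℕ) (hq : q ≠ 0) (h : Nat.Coprime N q)

/-- `γ₀ = W² / q` -/
def alSq : SL(2, ℤ) :=
  ⟨!![alU N q * alU N q * (q : ℤ) - alV N q * (N : ℤ), -alV N q * (alU N q + 1);
      (N : ℤ) * (q : ℤ) * (alU N q + 1), (q : ℤ) - alV N q * (N : ℤ)], by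
    rw [Matrix.det_fin_two_of]
    have := alU_alV N q h
    linear_combination (alU N q * (q : ℤ) + alV N q * (N : ℤ) + 1) * this⟩

theorem alSq_mem : alSq N q h ∈ Gamma0 (N * q) :=
  gamma0_mem_iff_dvd.2 ⟨alU N q + 1, by
    show (N : ℤ) * (q : ℤ) * (alU N q + 1) = ((N * q : ℕ) : ℤ) * (alU N q + 1)
    push_cast
    ring⟩

/-- `γ₀` as an element of `Γ₀(N q)` -/
def alSqG : Gamma0 (N * q) := ⟨alSq N q h, alSq_mem N q h⟩

theorem alMat_sq :
    alMat N q * alMat N q = (q : ℤ) • ((alSq N q h : SL(2, ℤ)) : Matrix (Fin 2) (Fin 2) ℤ) := by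
  ext a b
  fin_cases a <;> fin_cases b <;>
    simp [alMat, alSq, Matrix.mul_apply, Fin.sum_univ_two] <;> ring

theorem alAut_alAut (γ : Gamma0 (N * q)) :
    alAut N q hq h (alAut N q hq h γ) = alSqG N q h * γ * (alSqG N q h)⁻¹ := by
  have hq' : (q : ℤ) ≠ 0 := by exact_mod_cast hq
  rw [eq_mul_inv_iff_mul_eq]
  apply Subtype.ext
  apply Subtype.ext
  simp only [Subgroup.coe_mul, Matrix.SpecialLinearGroup.coe_mul]
  apply smul_right_injective _ hq'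
  show (q : ℤ) • ((((alAut N q hq h (alAut N q hq h γ) : Gamma0 (N * q)) : SL(2, ℤ)) :
        Matrix (Fin 2) (Fin 2) ℤ) * ((alSq N q h : SL(2, ℤ)) : Matrix (Fin 2) (Fin 2) ℤ)) =
    (q : ℤ) • (((alSq N q h : SL(2, ℤ)) : Matrix (Fin 2) (Fin 2) ℤ) *
      (((γ : Gamma0 (N * q)) : SL(2, ℤ)) : Matrix (Fin 2) (Fin 2) ℤ))
  rw [← Matrix.mul_smul, ← alMat_sq, ← Matrix.smul_mul, ← alMat_sq, Matrix.mul_assoc (alMat N q),
    alMat_mul N q hq h γ, ← Matrix.mul_assoc (alMat N q), alMat_mul N q hq h, Matrix.mul_assoc]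

variable {A : Type*} [AddCommGroup A]

/-- `w^* w^* = 1` on `Hom(Γ₀(N q), A)` -/
theorem pull_alAut_pull_alAut (y : Additive (Gamma0 (N * q)) →+ A) :
    pull A (alAut N q hq h).toMonoidHom (pull A (alAut N q hq h).toMonoidHom y) = y := by
  refine AddMonoidHom.ext fun γ' => ?_
  obtain ⟨γ, rfl⟩ : ∃ γ : Gamma0 (N * q), Additive.ofMul γ = γ' := ⟨Additive.toMul γ', rfl⟩
  show y (Additive.ofMul (alAut N q hq h (alAut N q hq h γ))) = y (Additive.ofMul γ)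
  rw [alAut_alAut, ofMul_mul, ofMul_mul, map_add, map_add, ofMul_inv, map_neg]
  abel

theorem pull_alAut_pull_symm (y : Additive (Gamma0 (N * q)) →+ A) :
    pull A (alAut N q hq h).toMonoidHom (pull A (alAut N q hq h).symm.toMonoidHom y) = y := by
  refine AddMonoidHom.ext fun γ' => ?_
  obtain ⟨γ, rfl⟩ : ∃ γ : Gamma0 (N * q), Additive.ofMul γ = γ' := ⟨Additive.toMul γ', rfl⟩
  show y (Additive.ofMul ((alAut N q hq h).symm (alAut N q hq h γ))) = y (Additive.ofMul γ)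
  rw [MulEquiv.symm_apply_apply]

theorem pull_symm_eq_pull (y : Additive (Gamma0 (N * q)) →+ A) :
    pull A (alAut N q hq h).symm.toMonoidHom y = pull A (alAut N q hq h).toMonoidHom y := by
  have e1 := pull_alAut_pull_alAut N q hq h y
  have e2 := pull_alAut_pull_symm N q hq h (pull A (alAut N q hq h).toMonoidHom y)
  refine AddMonoidHom.ext fun γ' => ?_
  obtain ⟨γ, rfl⟩ : ∃ γ : Gamma0 (N * q), Additive.ofMul γ = γ' := ⟨Additive.toMul γ', rfl⟩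
  show y (Additive.ofMul ((alAut N q hq h).symm γ)) = y (Additive.ofMul (alAut N q hq h γ))
  have e3 := DFunLike.congr_fun e1 (Additive.ofMul ((alAut N q hq h).symm γ))
  have e4 : pull A (alAut N q hq h).toMonoidHom (pull A (alAut N q hq h).toMonoidHom y)
      (Additive.ofMul ((alAut N q hq h).symm γ)) =
        y (Additive.ofMul (alAut N q hq h (alAut N q hq h ((alAut N q hq h).symm γ)))) := rfl
  rw [← e3, e4, MulEquiv.apply_symm_apply]

end Square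

/-! ### `U_q² = 1` on the `q`-new part -/

section Main

variable (N : ℕ) (ℓ : Nat.Primes) (h : Nat.Coprime N ℓ) {A : Type*} [AddCommGroup A]

include h in
/-- `b1 z = 0` implies `U_q (w^* z) = - z` -/
theorem heckeHom_pull_of_b1_eq_zero (z : Additive (Gamma0 (N * ℓ)) →+ A)
    (hz : b1 N ℓ A z = 0) :
    heckeHom (N * ℓ) ℓ (pull A (alAut N ℓ ℓ.2.ne_zero h).toMonoidHom z) = -z := by
  refine AddMonoidHom.ext fun γ' => ?_
  obtain ⟨γ, rfl⟩ : ∃ γ : Gamma0 (N * ℓ), Additive.ofMul γ = γ' := ⟨Additive.toMul γ', rfl⟩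
  have := b1_jOne N ℓ h z γ
  rw [hz, AddMonoidHom.zero_apply] at this
  rw [AddMonoidHom.neg_apply]
  exact eq_neg_of_add_eq_zero_right this.symm

include h in
/-- **[HB3]** for an arbitrary coefficient group: `U_q² = 1` on `ker b1 ∩ ker b2`. -/
theorem hb3_gen (y : Additive (Gamma0 (N * ℓ)) →+ A) (h1 : b1 N ℓ A y = 0)
    (h2 : b2 N ℓ ℓ.2.ne_zero A y = 0) :
    heckeHom (N * ℓ) ℓ (heckeHom (N * ℓ) ℓ y) = y := by
  have e1 := heckeHom_pull_of_b1_eq_zero N ℓ h y h1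
  rw [b2_eq_b1_pull N ℓ A ℓ.2.ne_zero h] at h2
  have e2 := heckeHom_pull_of_b1_eq_zero N ℓ h _ h2
  rw [pull_alAut_pull_symm, pull_symm_eq_pull] at e2
  rw [e2, map_neg, e1, neg_neg]

end Main

/-- **[HB3]** for an arbitrary coefficient group, in the shape of `helper4.HB3Statement`. -/
theorem hb3_coeff (A : Type*) [AddCommGroup A] (N q : ℕ) (hq : q ≠ 0) (_hN : 0 < N)
    (hqp : q.Prime) (hqN : ¬ q ∣ N) (y : Additive (Gamma0 (N * q)) →+ A)
    (h1 : b1 N q A y = 0) (h2 : b2 N q hq A y = 0) :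
    heckeHom (N * q) ⟨q, hqp⟩ (heckeHom (N * q) ⟨q, hqp⟩ y) = y :=
  hb3_gen N ⟨q, hqp⟩ ((Nat.Prime.coprime_iff_not_dvd hqp).2 hqN).symm y h1 h2

/-- **[HB3]** `helper4.HB3Statement`, verbatim. -/
theorem hb3 : HB3Statement := fun N q hq hN hqp hqN y h1 h2 =>
  hb3_coeff ℤ N q hq hN hqp hqN y h1 h2

end Fermat.Agent.P6.helper3
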