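import Fermat.Agent.P6.helper40_NonEisGT
import Fermat.Agent.P3.helper91_Cheb
import Fermat.Agent.P1.helper15_DictCyc
import Fermat.Agent.P3.helper54_Wire42

/-!
# P6 / S41, module (N) (helper40): a Frobenius element without fixed points on `E[p]`

`exists_frob_no_fixed` : let `W` be a Weierstrass curve over `ℚ` with `E[p]` of dimension `2`,
irreducible, and such that some `c ∈ G_ℚ` acts non-trivially on `E[p]` with a non-zero fixed
point.  Then for every `m > 0` and every finite set `Bad` of primes there are a prime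
`ℓ ∉ Bad`, `ℓ ≡ 1 mod m`, and a Frobenius element `φ` at a place over `ℓ` which has no non-zero
fixed point on `E[p]`.

Ingredients: the group-theoretic core `exists_no_fixed_vector` for `H = Stab(ζ_m)`, weak
Chebotarev (`P3.helper91.cheb_strong`) for the compositum of `ℚ(E[p])` and `ℚ(ζ_m)`, and the
action of Frobenius on roots of unity (`P1.helper15.apply_eq_pow_of_isFrobeniusAt`).
-/

set_option autoImplicit false

open WeierstrassCurve WeierstrassCurve.Affine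
open scoped WeierstrassCurve.Affine

namespace Fermat.Agent.P6.helper40

local notation "Qb" => AlgebraicClosure ℚ

/-! ## The stabiliser of a primitive root of unity -/

section Stab

variable {m : ℕ} {ζ : Qb}

/-- automorphisms act on the roots of unity by powers -/
theorem apply_pow_of_isPrimitiveRoot (hζ : IsPrimitiveRoot ζ m) (hm : 0 < m) (g : Qb ≃ₐ[ℚ] Qb) :
    ∃ i : ℕ, g ζ = ζ ^ i := by
  have : NeZero m := ⟨hm.ne'⟩
  have h1 : (g ζ) ^ m = 1 := by rw [← map_pow, hζ.pow_eq_one, map_one]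
  obtain ⟨i, -, hi⟩ := hζ.eq_pow_of_pow_eq_one h1
  exact ⟨i, hi.symm⟩

/-- the stabiliser of `ζ` -/
def stabRoot (ζ : Qb) : Subgroup (Qb ≃ₐ[ℚ] Qb) where
  carrier := {g | g ζ = ζ}
  mul_mem' := by
    intro a b ha hb
    show a (b ζ) = ζ
    rw [hb, ha]
  one_mem' := rfl
  inv_mem' := by
    intro a ha
    show a.symm ζ = ζ
    rw [AlgEquiv.symm_apply_eq]
    exact ha.symm

theorem mem_stabRoot {g : Qb ≃ₐ[ℚ] Qb} : g ∈ stabRoot ζ ↔ g ζ = ζ := Iff.rfl

theorem stabRoot_normal (hζ : IsPrimitiveRoot ζ m) (hm : 0 < m) : (stabRoot ζ).Normal := by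
  constructor
  intro g hg γ
  rw [mem_stabRoot] at hg ⊢
  obtain ⟨i, hi⟩ := apply_pow_of_isPrimitiveRoot hζ hm γ⁻¹
  show γ (g (γ⁻¹ ζ)) = ζ
  rw [hi, map_pow, hg, ← hi]
  show γ (γ.symm ζ) = ζ
  exact γ.apply_symm_apply ζ

theorem comm_mem_stabRoot (hζ : IsPrimitiveRoot ζ m) (hm : 0 < m) (g g' : Qb ≃ₐ[ℚ] Qb) :
    g * g' * g⁻¹ * g'⁻¹ ∈ stabRoot ζ := by
  rw [mem_stabRoot]
  obtain ⟨a, ha⟩ := apply_pow_of_isPrimitiveRoot hζ hm g
  obtain ⟨b, hb⟩ := apply_pow_of_isPrimitiveRoot hζ hm g'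
  have hcomm : g (g' ζ) = g' (g ζ) := by
    rw [hb, ha, map_pow, map_pow, ha, hb, ← pow_mul, ← pow_mul, mul_comm]
  obtain ⟨c, hc⟩ := apply_pow_of_isPrimitiveRoot hζ hm (g' * g)⁻¹
  have h1 : (g * g' * g⁻¹ * g'⁻¹) ζ = (g * g') ((g' * g)⁻¹ ζ) := by
    rw [mul_inv_rev, mul_assoc (g * g')]
    rfl
  rw [h1, hc, map_pow]
  have h2 : (g * g') ζ = (g' * g) ζ := hcomm
  rw [h2, ← map_pow, ← hc]
  show (g' * g) ((g' * g).symm ζ) = ζ
  exact (g' * g).apply_symm_apply ζ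

end Stab

/-! ## The main statement -/

section Main

variable (W : Affine ℚ) (p : ℕ) [Fact p.Prime]

/-- **(N)**: a Frobenius element at a prime `ℓ ≡ 1 mod m` without non-zero fixed point on
`E[p]`. -/
theorem exists_frob_no_fixed
    (hfr : Module.finrank (ZMod p) (Submodule.torsionBy ℤ (W⁄Qb).Point p) = 2)
    (hirr : Point.GaloisRepIsIrreducible (K := Qb) ℚ W p)
    (hodd : ∃ c : Qb ≃ₐ[ℚ] Qb,
      (∃ P : Submodule.torsionBy ℤ (W⁄Qb).Point p, P ≠ 0 ∧ c • P = P) ∧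
      ∃ P : Submodule.torsionBy ℤ (W⁄Qb).Point p, c • P ≠ P)
    (m : ℕ) (hm : 0 < m) (Bad : Finset ℕ) :
    ∃ ℓ : ℕ, ℓ.Prime ∧ ℓ ∉ Bad ∧ ℓ ≡ 1 [MOD m] ∧
      ∃ A : ValuationSubring Qb, A.LiesOverPrime ℓ ∧
        ∃ φ : Qb ≃ₐ[ℚ] Qb, A.IsFrobeniusAt φ ℓ ∧
          ∀ P : Submodule.torsionBy ℤ (W⁄Qb).Point p, φ • P = P → P = 0 := by
  classical
  have hp : p.Prime := Fact.out
  -- finiteness of `E[p]`
  have hmf : Module.Finite (ZMod p) (Submodule.torsionBy ℤ (W⁄Qb).Point p) :=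
    Module.finite_of_finrank_pos (by rw [hfr]; norm_num)
  have hfin : Finite (Submodule.torsionBy ℤ (W⁄Qb).Point p) := Module.finite_of_finite (ZMod p)
  -- the representation
  set ρ := Point.galoisRepModuleEnd (S := ℚ) (K := Qb) W p with hρ
  -- a primitive root of unity
  have hm0 : NeZero (m : Qb) := ⟨Nat.cast_ne_zero.mpr hm.ne'⟩
  have hmN : NeZero m := ⟨hm.ne'⟩
  obtain ⟨ζ, hζ⟩ : ∃ ζ : Qb, IsPrimitiveRoot ζ m :=
    HasEnoughRootsOfUnity.exists_primitiveRoot Qb m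
  -- the element `h`
  obtain ⟨c, ⟨Pc, hPc, hPcfix⟩, ⟨Pc', hPc'⟩⟩ := hodd
  have hc1 : ρ c ≠ 1 := by
    intro h
    apply hPc'
    have := congrArg (fun f : Module.End (ZMod p) (Submodule.torsionBy ℤ (W⁄Qb).Point p) =>
      f Pc') h
    exact this
  obtain ⟨h, hh, hhfix⟩ := exists_no_fixed_vector ρ hfr
    (fun N hN => hirr.2 N (fun σ x hx => hN σ x hx)) c hc1 ⟨Pc, hPc, hPcfix⟩
    (stabRoot ζ) (stabRoot_normal hζ hm) (comm_mem_stabRoot hζ hm)
  -- the level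
  obtain ⟨L, hL, hLρ⟩ := Fermat.Agent.P3.helper54.factorsThroughFiniteLevel_of_finite W p
  have hζint : IsIntegral ℚ ζ := ((AlgebraicClosure.isAlgebraic ℚ).isAlgebraic ζ).isIntegral
  have hfd1 : FiniteDimensional ℚ (IntermediateField.adjoin ℚ {ζ}) :=
    IntermediateField.adjoin.finiteDimensional hζint
  have hfd2 : FiniteDimensional ℚ ↥(L ⊔ IntermediateField.adjoin ℚ {ζ}) :=
    IntermediateField.finiteDimensional_sup _ _
  have hζK : ζ ∈ L ⊔ IntermediateField.adjoin ℚ {ζ} :=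
    (le_sup_right : IntermediateField.adjoin ℚ {ζ} ≤ _)
      (IntermediateField.mem_adjoin_simple_self ℚ ζ)
  -- weak Chebotarev
  obtain ⟨ℓ, hℓ, hℓB, A, hA, -, φ, hφ, ⟨j, hj⟩, ⟨k, hk⟩⟩ :=
    Fermat.Agent.P3.helper91.cheb_strong (L ⊔ IntermediateField.adjoin ℚ {ζ}) hfd2 h
      (Bad ∪ m.primeFactors)
  have hℓBad : ℓ ∉ Bad := fun hx => hℓB (Finset.mem_union_left _ hx)
  have hℓm : ¬ ℓ ∣ m := fun hx =>
    hℓB (Finset.mem_union_right _ (Nat.mem_primeFactors.2 ⟨hℓ, hx, hm.ne'⟩))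
  refine ⟨ℓ, hℓ, hℓBad, ?_, A, hA, φ, hφ, ?_⟩
  · -- `ℓ ≡ 1 mod m`
    have h1 : φ ζ = ζ ^ ℓ :=
      Fermat.Agent.P1.helper15.apply_eq_pow_of_isFrobeniusAt hℓ A hA hℓm hφ hζ.pow_eq_one
    have h2 : φ ζ = ζ := by
      rw [← hk ζ hζK]
      have h3 : h ^ k ∈ stabRoot ζ := (stabRoot ζ).pow_mem hh k
      exact h3
    rw [h1] at h2
    have h4 : ζ ^ ℓ = ζ ^ 1 := by rw [h2, pow_one]
    have h5 := (hζ.pow_inj (Nat.mod_lt ℓ hm) (Nat.mod_lt 1 hm)) (by
      rw [← pow_eq_pow_mod ℓ hζ.pow_eq_one, ← pow_eq_pow_mod 1 hζ.pow_eq_one]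
      exact h4)
    exact h5
  · -- no fixed point
    intro P hP
    apply hhfix P
    -- `h` acts as `φ ^ j`
    have h1 : ρ ((φ ^ j)⁻¹ * h) = 1 := by
      apply hLρ
      intro x hx
      have hx' : x ∈ L ⊔ IntermediateField.adjoin ℚ {ζ} := (le_sup_left : L ≤ _) hx
      have h2 := hj x hx'
      show (φ ^ j).symm (h x) = x
      rw [AlgEquiv.symm_apply_eq]
      exact h2.symm
    have h3 : ρ h = ρ (φ ^ j) := by
      have h4 : ρ h = ρ (φ ^ j) * ρ ((φ ^ j)⁻¹ * h) := by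
        rw [← map_mul, mul_inv_cancel_left]
      rw [h4, h1, mul_one]
    have h5 : ∀ n : ℕ, ρ (φ ^ n) P = P := by
      intro n
      induction n with
      | zero => rw [pow_zero, map_one]; rfl
      | succ n ih =>
        rw [pow_succ, map_mul]
        show ρ (φ ^ n) (ρ φ P) = P
        have h6 : ρ φ P = P := hP
        rw [h6, ih]
    rw [h3]
    exact h5 j

end Main

end Fermat.Agent.P6.helper40
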