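import Mathlib

/-!
# P6 / S41, module (N) (helper40): the group-theoretic core of "non-Eisenstein"

Let `ρ : Γ → End_k(V)` be an irreducible representation on a 2-dimensional space, `H` a normal
subgroup of `Γ` with abelian quotient, and assume that some `c ∈ Γ` with `ρ c ≠ 1` has a non-zero
fixed vector (e.g. a complex conjugation acting on `E[p]`).  Then some `h ∈ H` has no non-zero
fixed vector (`exists_no_fixed_vector`).

Proof.  Assume every `h ∈ H` has a non-zero fixed vector.
* `exists_stable_line` : `H` has a stable line (if `H` contains a non-trivial element `u` of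
  determinant `1`, the fixed line of `u`; otherwise `ρ(H)` is abelian and the fixed line of any
  non-trivial element is stable);
* by irreducibility some `g` moves this line, so `H` stabilises two lines `L ≠ gL`, acts on them
  through characters `χ`, `χ'` with `(χ - 1)(χ' - 1) = 0`, hence one of them is trivial, hence
  both (they are conjugate): `ρ(H) = 1`;
* then `ρ(Γ)` is abelian and the fixed space of `c` is a `Γ`-stable non-zero proper subspace.
-/

set_option autoImplicit false

namespace Fermat.Agent.P6.helper40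

open Module

section Frame

variable {k V : Type} [Field k] [AddCommGroup V] [Module k V]

/-- `(v₁, v₂)` is a basis of `V`, in elementary terms. -/
structure IsFrame (k : Type) {V : Type} [Field k] [AddCommGroup V] [Module k V]
    (v₁ v₂ : V) : Prop where
  indep : ∀ x y : k, x • v₁ + y • v₂ = 0 → x = 0 ∧ y = 0
  span : ∀ w : V, ∃ x y : k, w = x • v₁ + y • v₂

theorem isFrame_of_not_mem (hV : finrank k V = 2) {v₁ v₂ : V} (h1 : v₁ ≠ 0)
    (h2 : ∀ a : k, v₂ ≠ a • v₁) : IsFrame k v₁ v₂ := by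
  have hind : ∀ x y : k, x • v₁ + y • v₂ = 0 → x = 0 ∧ y = 0 := by
    intro x y hxy
    have hy : y = 0 := by
      by_contra hy
      apply h2 (-(y⁻¹ * x))
      have h3 : y • v₂ = -(x • v₁) := eq_neg_of_add_eq_zero_right hxy
      have h4 : v₂ = y⁻¹ • (y • v₂) := by rw [smul_smul, inv_mul_cancel₀ hy, one_smul]
      rw [h4, h3, smul_neg, smul_smul, neg_smul]
    refine ⟨?_, hy⟩
    rw [hy, zero_smul, add_zero] at hxy
    exact (smul_eq_zero.1 hxy).resolve_right h1
  refine ⟨hind, ?_⟩
  have hli : LinearIndependent k ![v₁, v₂] := LinearIndependent.pair_iff.2 hind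
  have hcard : Fintype.card (Fin 2) = finrank k V := by rw [hV]; rfl
  set b := basisOfLinearIndependentOfCardEqFinrank hli hcard with hb
  intro w
  refine ⟨b.repr w 0, b.repr w 1, ?_⟩
  have h3 := (b.sum_repr w).symm
  rw [Fin.sum_univ_two] at h3
  have e0 : b 0 = v₁ := by rw [hb, coe_basisOfLinearIndependentOfCardEqFinrank]; rfl
  have e1 : b 1 = v₂ := by rw [hb, coe_basisOfLinearIndependentOfCardEqFinrank]; rfl
  rw [e0, e1] at h3
  exact h3

/-- the determinant in a frame -/
theorem det_of_frame (hV : finrank k V = 2) {v₁ v₂ : V} (hfr : IsFrame k v₁ v₂)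
    (f : V →ₗ[k] V) {α β γ δ : k} (hf1 : f v₁ = α • v₁ + γ • v₂)
    (hf2 : f v₂ = β • v₁ + δ • v₂) : LinearMap.det f = α * δ - β * γ := by
  have hli : LinearIndependent k ![v₁, v₂] := LinearIndependent.pair_iff.2 hfr.indep
  have hcard : Fintype.card (Fin 2) = finrank k V := by rw [hV]; rfl
  set b := basisOfLinearIndependentOfCardEqFinrank hli hcard with hb
  have e0 : b 0 = v₁ := by rw [hb, coe_basisOfLinearIndependentOfCardEqFinrank]; rfl
  have e1 : b 1 = v₂ := by rw [hb, coe_basisOfLinearIndependentOfCardEqFinrank]; rfl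
  have hrepr : ∀ x y : k, b.repr (x • v₁ + y • v₂) 0 = x ∧ b.repr (x • v₁ + y • v₂) 1 = y := by
    intro x y
    rw [← e0, ← e1]
    simp [map_add, map_smul, Basis.repr_self]
  rw [← LinearMap.det_toMatrix b, Matrix.det_fin_two]
  simp only [LinearMap.toMatrix_apply, e0, e1, hf1, hf2]
  rw [(hrepr α γ).1, (hrepr α γ).2, (hrepr β δ).1, (hrepr β δ).2]

end Frame

section Rep

variable {Γ k V : Type} [Group Γ] [Field k] [AddCommGroup V] [Module k V]
  (ρ : Γ →* (V →ₗ[k] V))

theorem rho_mul_apply (g g' : Γ) (v : V) : ρ (g * g') v = ρ g (ρ g' v) := by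
  rw [map_mul]
  rfl

theorem rho_one_apply (v : V) : ρ 1 v = v := by
  rw [map_one]
  rfl

theorem rho_inv_apply (g : Γ) (v : V) : ρ g⁻¹ (ρ g v) = v := by
  rw [← rho_mul_apply, inv_mul_cancel, rho_one_apply]

theorem rho_apply_inv (g : Γ) (v : V) : ρ g (ρ g⁻¹ v) = v := by
  rw [← rho_mul_apply, mul_inv_cancel, rho_one_apply]

theorem rho_injective (g : Γ) : Function.Injective (ρ g) := by
  intro v w h
  rw [← rho_inv_apply ρ g v, h, rho_inv_apply]

theorem det_rho_conj (g h : Γ) : LinearMap.det (ρ (g * h * g⁻¹)) = LinearMap.det (ρ h) := by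
  have h1 : LinearMap.det (ρ g) * LinearMap.det (ρ g⁻¹) = 1 := by
    rw [← map_mul, ← map_mul, mul_inv_cancel, map_one, map_one]
  rw [map_mul, map_mul, map_mul, map_mul, mul_right_comm, h1, one_mul]

theorem det_rho_comm (g h : Γ) : LinearMap.det (ρ (g * h * g⁻¹ * h⁻¹)) = 1 := by
  have h1 : LinearMap.det (ρ h) * LinearMap.det (ρ h⁻¹) = 1 := by
    rw [← map_mul, ← map_mul, mul_inv_cancel, map_one, map_one]
  rw [map_mul, map_mul (LinearMap.det), det_rho_conj, h1]

/-- an endomorphism fixing a frame is the identity -/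
theorem eq_of_fix_frame {v₁ v₂ : V} (hfr : IsFrame k v₁ v₂) (f : V →ₗ[k] V)
    (h1 : f v₁ = v₁) (h2 : f v₂ = v₂) (w : V) : f w = w := by
  obtain ⟨x, y, rfl⟩ := hfr.span w
  rw [map_add, map_smul, map_smul, h1, h2]

/-- **(S1)** a group of endomorphisms of a plane all of whose elements have a non-zero fixed
vector has a stable line. -/
theorem exists_stable_line (hV : finrank k V = 2) (H : Subgroup Γ)
    (heig : ∀ h ∈ H, ∃ v : V, v ≠ 0 ∧ ρ h v = v) :
    ∃ v₁ : V, v₁ ≠ 0 ∧ ∀ h ∈ H, ∃ a : k, ρ h v₁ = a • v₁ := by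
  classical
  by_cases htriv : ∀ h ∈ H, ∀ w : V, ρ h w = w
  · have hnt : Nontrivial V := Module.nontrivial_of_finrank_pos (R := k) (by rw [hV]; norm_num)
    obtain ⟨v, hv⟩ := exists_ne (0 : V)
    exact ⟨v, hv, fun h hh => ⟨1, by rw [htriv h hh, one_smul]⟩⟩
  push Not at htriv
  obtain ⟨h₁, hh₁, w₁, hw₁⟩ := htriv
  by_cases hcase : ∃ u ∈ H, LinearMap.det (ρ u) = 1 ∧ ∃ w : V, ρ u w ≠ w
  · -- a non-trivial element of determinant one
    obtain ⟨u, hu, hdet, wu, hwu⟩ := hcase
    obtain ⟨v₀, hv₀, hfix⟩ := heig u hu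
    refine ⟨v₀, hv₀, fun h hh => ?_⟩
    by_contra hnot
    push Not at hnot
    have hfr : IsFrame k v₀ (ρ h v₀) := isFrame_of_not_mem hV hv₀ hnot
    set v₂ := ρ h v₀ with hv₂
    -- the matrix of `u`
    obtain ⟨a, d, had⟩ := hfr.span (ρ u v₂)
    have hd : d = 1 := by
      have h1 := det_of_frame hV hfr (ρ u) (α := 1) (γ := 0) (β := a) (δ := d)
        (by rw [hfix, one_smul, zero_smul, add_zero]) had
      rw [hdet] at h1
      rw [h1]
      ring
    rw [hd, one_smul] at had
    have ha : a ≠ 0 := by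
      rintro rfl
      rw [zero_smul, zero_add] at had
      exact hwu (eq_of_fix_frame hfr (ρ u) hfix had wu)
    -- the conjugate `u' = h u h⁻¹`
    have hu' : h * u * h⁻¹ ∈ H := H.mul_mem (H.mul_mem hh hu) (H.inv_mem hh)
    have hfix' : ρ (h * u * h⁻¹) v₂ = v₂ := by
      rw [rho_mul_apply, rho_mul_apply, hv₂, rho_inv_apply, hfix]
    obtain ⟨d', b, hdb⟩ := hfr.span (ρ (h * u * h⁻¹) v₀)
    have hd' : d' = 1 := by
      have h1 := det_of_frame hV hfr (ρ (h * u * h⁻¹)) (α := d') (γ := b) (β := 0) (δ := 1)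
        hdb (by rw [hfix', zero_smul, one_smul, zero_add])
      rw [det_rho_conj, hdet] at h1
      rw [h1]
      ring
    rw [hd', one_smul] at hdb
    have hb : b ≠ 0 := by
      rintro rfl
      rw [zero_smul, add_zero] at hdb
      have h2 : ∀ w : V, ρ (h * u * h⁻¹) w = w := eq_of_fix_frame hfr _ hdb hfix'
      apply hwu
      have h3 := h2 (ρ h wu)
      rw [rho_mul_apply, rho_mul_apply, rho_inv_apply] at h3
      exact rho_injective ρ h h3
    -- the product has no fixed vector
    obtain ⟨w, hw, hwfix⟩ := heig (u * (h * u * h⁻¹)) (H.mul_mem hu hu')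
    obtain ⟨x, y, rfl⟩ := hfr.span w
    rw [rho_mul_apply, map_add, map_smul, map_smul, hdb, hfix', map_add, map_smul, map_smul,
      map_add, map_smul, hfix, had] at hwfix
    have h4 : ((x * b + y) * a) • v₀ + (x * b) • v₂ = 0 := by
      have h5 := sub_eq_zero.2 hwfix
      have h6 : ((x * b + y) * a) • v₀ + (x * b) • v₂ =
          x • (v₀ + b • (a • v₀ + v₂)) + y • (a • v₀ + v₂) - (x • v₀ + y • v₂) := by
        module
      rw [h6, h5]
    obtain ⟨h6, h7⟩ := hfr.indep _ _ h4
    have hx : x = 0 := (mul_eq_zero.1 h7).resolve_right hb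
    have hy : y = 0 := by
      rw [hx, zero_mul, zero_add] at h6
      exact (mul_eq_zero.1 h6).resolve_right ha
    apply hw
    rw [hx, hy, zero_smul, zero_smul, add_zero]
  · -- determinant one implies trivial: the image of `H` is abelian
    push Not at hcase
    obtain ⟨v₁, hv₁, hfix⟩ := heig h₁ hh₁
    refine ⟨v₁, hv₁, fun h hh => ?_⟩
    by_contra hnot
    push Not at hnot
    have hfr : IsFrame k v₁ (ρ h v₁) := isFrame_of_not_mem hV hv₁ hnot
    have hκ : h * h₁ * h⁻¹ * h₁⁻¹ ∈ H :=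
      H.mul_mem (H.mul_mem (H.mul_mem hh hh₁) (H.inv_mem hh)) (H.inv_mem hh₁)
    have h1 := hcase _ hκ (det_rho_comm ρ h h₁)
    have h2 : ρ h₁ (ρ h v₁) = ρ h v₁ := by
      have h3 := h1 (ρ h₁ (ρ h v₁))
      rw [rho_mul_apply, rho_mul_apply, rho_mul_apply, rho_inv_apply, rho_inv_apply, hfix] at h3
      exact h3.symm
    exact hw₁ (eq_of_fix_frame hfr (ρ h₁) hfix h2 w₁)

/-- a group which is the union of two subgroups is one of them -/
theorem le_or_le_of_forall_mem_or (H A B : Subgroup Γ) (hAB : ∀ h ∈ H, h ∈ A ∨ h ∈ B) :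
    H ≤ A ∨ H ≤ B := by
  by_contra hcon
  push Not at hcon
  obtain ⟨hnA, hnB⟩ := hcon
  obtain ⟨a, haH, haA⟩ := SetLike.not_le_iff_exists.1 hnA
  obtain ⟨b, hbH, hbB⟩ := SetLike.not_le_iff_exists.1 hnB
  have haB : a ∈ B := (hAB a haH).resolve_left haA
  have hbA : b ∈ A := (hAB b hbH).resolve_right hbB
  rcases hAB (a * b) (H.mul_mem haH hbH) with h | h
  · apply haA
    have := A.mul_mem h (A.inv_mem hbA)
    rwa [mul_inv_cancel_right] at this
  · apply hbB
    have := B.mul_mem (B.inv_mem haB) h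
    rwa [inv_mul_cancel_left] at this

/-- **(N), group-theoretic core.**  An irreducible representation of `Γ` on a plane, `H` normal
in `Γ` with abelian quotient, and some `c` with `ρ c ≠ 1` having a non-zero fixed vector: then
some `h ∈ H` has no non-zero fixed vector. -/
theorem exists_no_fixed_vector (hV : finrank k V = 2)
    (hirr : ∀ N : Submodule k V, (∀ g : Γ, ∀ v ∈ N, ρ g v ∈ N) → N = ⊥ ∨ N = ⊤)
    (c : Γ) (hc1 : ρ c ≠ 1) (hcfix : ∃ v : V, v ≠ 0 ∧ ρ c v = v)
    (H : Subgroup Γ) (hH : H.Normal) (hab : ∀ g g' : Γ, g * g' * g⁻¹ * g'⁻¹ ∈ H) :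
    ∃ h ∈ H, ∀ v : V, ρ h v = v → v = 0 := by
  classical
  by_contra hcon
  push Not at hcon
  have heig : ∀ h ∈ H, ∃ v : V, v ≠ 0 ∧ ρ h v = v := fun h hh => by
    obtain ⟨v, hv, hv0⟩ := hcon h hh
    exact ⟨v, hv0, hv⟩
  -- a stable line
  obtain ⟨v₁, hv₁, hst⟩ := exists_stable_line ρ hV H heig
  -- moved by some `g`
  have hmove : ∃ g : Γ, ∀ a : k, ρ g v₁ ≠ a • v₁ := by
    by_contra hno
    push Not at hno
    rcases hirr (Submodule.span k {v₁}) (by
      intro g v hv
      obtain ⟨x, rfl⟩ := Submodule.mem_span_singleton.1 hv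
      obtain ⟨a, ha⟩ := hno g
      rw [map_smul, ha]
      exact Submodule.smul_mem _ _ (Submodule.smul_mem _ _ (Submodule.mem_span_singleton_self _)))
      with h | h
    · rw [Submodule.span_singleton_eq_bot] at h
      exact hv₁ h
    · have h1 : finrank k (Submodule.span k {v₁}) = 1 := finrank_span_singleton hv₁
      rw [h, finrank_top, hV] at h1
      norm_num at h1
  obtain ⟨g, hg⟩ := hmove
  have hfr : IsFrame k v₁ (ρ g v₁) := isFrame_of_not_mem hV hv₁ hg
  -- the second stable line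
  have hst' : ∀ h ∈ H, ∃ a : k, ρ h (ρ g v₁) = a • ρ g v₁ := by
    intro h hh
    have h1 : g⁻¹ * h * g ∈ H := by
      have := hH.conj_mem h hh g⁻¹
      rwa [inv_inv] at this
    obtain ⟨a, ha⟩ := hst _ h1
    refine ⟨a, ?_⟩
    rw [← map_smul, ← ha, rho_mul_apply, rho_mul_apply, rho_apply_inv]
  -- the two subgroups
  set A : Subgroup Γ :=
    { carrier := {h | h ∈ H ∧ ρ h v₁ = v₁}
      mul_mem' := by
        rintro a b ⟨ha, ha'⟩ ⟨hb, hb'⟩
        exact ⟨H.mul_mem ha hb, by rw [rho_mul_apply, hb', ha']⟩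
      one_mem' := ⟨H.one_mem, rho_one_apply ρ _⟩
      inv_mem' := by
        rintro a ⟨ha, ha'⟩
        refine ⟨H.inv_mem ha, ?_⟩
        conv_lhs => rw [← ha']
        exact rho_inv_apply ρ a v₁ }
  set B : Subgroup Γ :=
    { carrier := {h | h ∈ H ∧ ρ h (ρ g v₁) = ρ g v₁}
      mul_mem' := by
        rintro a b ⟨ha, ha'⟩ ⟨hb, hb'⟩
        exact ⟨H.mul_mem ha hb, by rw [rho_mul_apply, hb', ha']⟩
      one_mem' := ⟨H.one_mem, rho_one_apply ρ _⟩
      inv_mem' := by
        rintro a ⟨ha, ha'⟩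
        refine ⟨H.inv_mem ha, ?_⟩
        conv_lhs => rw [← ha']
        exact rho_inv_apply ρ a _ }
  have hAB : ∀ h ∈ H, h ∈ A ∨ h ∈ B := by
    intro h hh
    obtain ⟨a, ha⟩ := hst h hh
    obtain ⟨a', ha'⟩ := hst' h hh
    obtain ⟨w, hw, hwfix⟩ := heig h hh
    obtain ⟨x, y, rfl⟩ := hfr.span w
    rw [map_add, map_smul, map_smul, ha, ha'] at hwfix
    have h1 : (x * (a - 1)) • v₁ + (y * (a' - 1)) • ρ g v₁ = 0 := by
      have h2 := sub_eq_zero.2 hwfix
      have h5 : (x * (a - 1)) • v₁ + (y * (a' - 1)) • ρ g v₁ =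
          x • a • v₁ + y • a' • ρ g v₁ - (x • v₁ + y • ρ g v₁) := by
        module
      rw [h5, h2]
    obtain ⟨h3, h4⟩ := hfr.indep _ _ h1
    by_cases hx : x = 0
    · have hy : y ≠ 0 := by
        rintro rfl
        apply hw
        rw [hx, zero_smul, zero_smul, add_zero]
      right
      refine ⟨hh, ?_⟩
      have : a' = 1 := by
        have := (mul_eq_zero.1 h4).resolve_left hy
        exact sub_eq_zero.1 this
      rw [ha', this, one_smul]
    · left
      refine ⟨hh, ?_⟩
      have : a = 1 := by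
        have := (mul_eq_zero.1 h3).resolve_left hx
        exact sub_eq_zero.1 this
      rw [ha, this, one_smul]
  -- `H` acts trivially
  have htriv : ∀ h ∈ H, ∀ w : V, ρ h w = w := by
    rcases le_or_le_of_forall_mem_or H A B hAB with h | h
    · intro x hx w
      refine eq_of_fix_frame hfr (ρ x) (h hx).2 ?_ w
      have h1 : g⁻¹ * x * g ∈ H := by
        have := hH.conj_mem x hx g⁻¹
        rwa [inv_inv] at this
      have h2 := (h h1).2
      rw [rho_mul_apply, rho_mul_apply] at h2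
      have h3 := congrArg (ρ g) h2
      rwa [rho_apply_inv] at h3
    · intro x hx w
      refine eq_of_fix_frame hfr (ρ x) ?_ (h hx).2 w
      have h1 : g * x * g⁻¹ ∈ H := hH.conj_mem x hx g
      have h2 := (h h1).2
      rw [rho_mul_apply, rho_mul_apply, rho_inv_apply] at h2
      exact rho_injective ρ g h2
  -- the image of `Γ` is abelian
  have hcomm : ∀ (g g' : Γ) (w : V), ρ g (ρ g' w) = ρ g' (ρ g w) := by
    intro g g' w
    have h1 := htriv _ (hab g g') (ρ g' (ρ g w))
    rw [rho_mul_apply, rho_mul_apply, rho_mul_apply, rho_inv_apply, rho_inv_apply] at h1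
    exact h1
  -- the fixed space of `c`
  obtain ⟨vc, hvc, hvcfix⟩ := hcfix
  rcases hirr (LinearMap.ker (ρ c - 1)) (by
    intro g v hv
    rw [LinearMap.mem_ker, LinearMap.sub_apply, sub_eq_zero] at hv ⊢
    change ρ c (ρ g v) = ρ g v
    have hv' : ρ c v = v := hv
    rw [hcomm, hv']) with h | h
  · apply hvc
    have h1 : vc ∈ LinearMap.ker (ρ c - 1) := by
      rw [LinearMap.mem_ker, LinearMap.sub_apply, sub_eq_zero]
      exact hvcfix
    rw [h] at h1
    exact (Submodule.mem_bot k).1 h1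
  · apply hc1
    apply LinearMap.ext
    intro w
    have h1 : w ∈ LinearMap.ker (ρ c - 1) := by rw [h]; exact Submodule.mem_top
    rw [LinearMap.mem_ker, LinearMap.sub_apply, sub_eq_zero] at h1
    exact h1

end Rep

end Fermat.Agent.P6.helper40
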