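import Mathlib
import Fermat.Prelude.Def_FLTPrelim_ModularRep
import Fermat.Prelude.Def_EllipticCurve_FrobeniusTrace
import Fermat.Prelude.Def_FLTPrelim_Ramification

/-!
# P6 / S41, module (N) "non-Eisenstein": interface (helper78, sub-coordinator)

Frozen shapes of the packages of module (N) of BLUEPRINT P6/S41 v1 (helper4).  Everything is
phrased for the integral model `W : WeierstrassCurve ℤ`; `E[p]` is
`Tors W p = torsionBy ℤ ((W.map (Int.castRingHom ℚ))⁄ℚ̄).Point p` (the prelude shape used by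
`WeierstrassCurve.ModRepIsIrreducible`), with the prelude Galois action.

* `CntStatement`   [N-CNT]  finite-field side: `p ∣ ℓ + 1 ∓ a_ℓ` iff a nonzero `p`-torsion point
  of `W` over `k` (`k` algebraically closed of characteristic `ℓ`) is fixed / negated by Frobenius.
* `RedStatement`   [N-RED]  reduction `E[p] → W(k_A)`: injective, onto the `p`-torsion, compatible
  with `0`, `-` and Frobenius.
* `WLStatement`    [N-WL]   the two weak links for Frobenius elements (consumer form).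
* `ChebFixStatement` [N-CHEB].
* `VCStatement`    [N-VC]   transport of irreducibility from `E` to its integral model `W`.
* `NonEisWStatement`, `NonEisStatement` [N-ASM] the deliverable.
-/

set_option autoImplicit false

open WeierstrassCurve WeierstrassCurve.Affine
open scoped WeierstrassCurve.Affine

namespace Fermat.Agent.P6.helper78

/-- `ℚ̄`. -/
abbrev NQbar : Type := AlgebraicClosure ℚ

/-- `Gal(ℚ̄/ℚ)`. -/
abbrev NGQ : Type := AlgebraicClosure ℚ ≃ₐ[ℚ] AlgebraicClosure ℚ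

/-- `E[p]` for the rational curve of the integral model `W` (prelude shape). -/
abbrev Tors (W : WeierstrassCurve ℤ) (p : ℕ) : Type :=
  Submodule.torsionBy ℤ ((W.map (Int.castRingHom ℚ))⁄(AlgebraicClosure ℚ)).Point p

/-- `σ` fixes a nonzero point of `E[p]`. -/
def HasFix (W : WeierstrassCurve ℤ) (p : ℕ) (σ : NGQ) : Prop :=
  ∃ P : Tors W p, P ≠ 0 ∧ σ • P = P

/-- `σ` negates a nonzero point of `E[p]`. -/
def HasAntiFix (W : WeierstrassCurve ℤ) (p : ℕ) (σ : NGQ) : Prop :=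
  ∃ P : Tors W p, P ≠ 0 ∧ σ • P = -P

/-- `τ` fixes all `m`-th roots of unity of `ℚ̄`. -/
def FixesRootsOfUnity (m : ℕ) (τ : NGQ) : Prop :=
  ∀ ζ : NQbar, ζ ^ m = 1 → τ ζ = ζ

/-- The points of the integral curve `W` over a field `k`. -/
abbrev PtK (W : WeierstrassCurve ℤ) (k : Type) [Field k] : Type :=
  (W.map (Int.castRingHom k)).toAffine.Point

/-- The point `Q` is fixed by the `ℓ`-power Frobenius. -/
def IsFrobFix (W : WeierstrassCurve ℤ) (k : Type) [Field k] (ℓ : ℕ) : PtK W k → Prop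
  | .zero => True
  | .some x y _ => x ^ ℓ = x ∧ y ^ ℓ = y

/-- The point `Q` is negated by the `ℓ`-power Frobenius. -/
def IsFrobAntiFix (W : WeierstrassCurve ℤ) (k : Type) [Field k] (ℓ : ℕ) : PtK W k → Prop
  | .zero => True
  | .some x y _ => x ^ ℓ = x ∧ y ^ ℓ = (W.map (Int.castRingHom k)).toAffine.negY x y

/-- `Q'` is the image of `Q` under the `ℓ`-power Frobenius. -/
def IsFrobImage (W : WeierstrassCurve ℤ) (k : Type) [Field k] (ℓ : ℕ) :
    PtK W k → PtK W k → Prop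
  | .zero, Q' => Q' = 0
  | .some _ _ _, .zero => False
  | .some x y _, .some x' y' _ => x' = x ^ ℓ ∧ y' = y ^ ℓ

/-- **[N-CNT]** the finite-field side: for `k` algebraically closed of characteristic `ℓ` (odd,
good for `W`), `p` divides `#W(𝔽_ℓ) = ℓ + 1 - a_ℓ` iff some nonzero `p`-torsion point over `k`
is fixed by Frobenius, and `p` divides `#ker(φ + 1) = ℓ + 1 + a_ℓ` iff some nonzero `p`-torsion
point over `k` is negated by Frobenius. -/
def CntStatement : Prop :=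
  ∀ (W : WeierstrassCurve ℤ) (p ℓ : ℕ), p.Prime → ℓ.Prime → ℓ ≠ 2 → W.IsGoodPrimeFor ℓ →
    ∀ (k : Type) [Field k] [DecidableEq k] [CharP k ℓ] [IsAlgClosed k],
      ((p : ℤ) ∣ (ℓ : ℤ) + 1 - W.apOfModel ℓ ↔
        ∃ Q : PtK W k, Q ≠ 0 ∧ p • Q = 0 ∧ IsFrobFix W k ℓ Q) ∧
      ((p : ℤ) ∣ (ℓ : ℤ) + 1 + W.apOfModel ℓ ↔
        ∃ Q : PtK W k, Q ≠ 0 ∧ p • Q = 0 ∧ IsFrobAntiFix W k ℓ Q)

/-- **[N-RED]** reduction of `p`-torsion at a place `A` of `ℚ̄` over a good prime `ℓ ≠ p`. -/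
def RedStatement : Prop :=
  ∀ (W : WeierstrassCurve ℤ) (p ℓ : ℕ), p.Prime → p ≠ 2 → ℓ.Prime → ℓ ≠ p →
    W.IsGoodPrimeFor ℓ →
    ∀ (A : ValuationSubring NQbar), A.LiesOverPrime ℓ →
    ∀ [DecidableEq (IsLocalRing.ResidueField A)],
      ∃ red : Tors W p → PtK W (IsLocalRing.ResidueField A),
        Function.Injective red ∧ red 0 = 0 ∧ (∀ P, red (-P) = -red P) ∧
        (∀ P, p • red P = 0) ∧
        (∀ Q : PtK W (IsLocalRing.ResidueField A), p • Q = 0 → ∃ P, red P = Q) ∧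
        (∀ σ : NGQ, A.IsFrobeniusAt σ ℓ →
          ∀ P, IsFrobImage W (IsLocalRing.ResidueField A) ℓ (red P) (red (σ • P)))

/-- **[N-WL]** the two weak links, consumer form. -/
def WLStatement : Prop :=
  ∀ (W : WeierstrassCurve ℤ) (p ℓ : ℕ), p.Prime → p ≠ 2 → ℓ.Prime → ℓ ≠ 2 → ℓ ≠ p →
    W.IsGoodPrimeFor ℓ →
    ∀ (A : ValuationSubring NQbar), A.LiesOverPrime ℓ →
    ∀ σ : NGQ, A.IsFrobeniusAt σ ℓ →
      ((p : ℤ) ∣ (ℓ : ℤ) + 1 - W.apOfModel ℓ ↔ HasFix W p σ) ∧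
      ((p : ℤ) ∣ (ℓ : ℤ) + 1 + W.apOfModel ℓ ↔ HasAntiFix W p σ)

/-- **[N-CHEB]** if all Frobenius elements at good primes `ℓ ≡ 1 mod m` fix a nonzero point of
`E[p]`, so does every element of `Gal(ℚ̄/ℚ(ζ_m))`. -/
def ChebFixStatement : Prop :=
  ∀ (W : WeierstrassCurve ℤ) (p m : ℕ), p.Prime → p ≠ 2 → W.Δ ≠ 0 → 0 < m →
    (∀ ℓ : ℕ, ℓ.Prime → ℓ ≡ 1 [MOD m] → W.IsGoodPrimeFor ℓ →
      ∀ A : ValuationSubring NQbar, A.LiesOverPrime ℓ →
      ∀ σ : NGQ, A.IsFrobeniusAt σ ℓ → HasFix W p σ) →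
    ∀ τ : NGQ, FixesRootsOfUnity m τ → HasFix W p τ

/-- **[N-VC]** transport from `E` to an integral model. -/
def VCStatement : Prop :=
  ∀ (E : WeierstrassCurve ℚ) [E.IsElliptic] (W : WeierstrassCurve ℤ) (p : ℕ),
    W.IsIntegralModelOf E →
    Affine.Point.GaloisRepIsIrreducible (K := AlgebraicClosure ℚ) ℚ E p →
    W.Δ ≠ 0 ∧ W.ModRepIsIrreducible p

/-- **[N-ASM]**, integral-model form of the deliverable. -/
def NonEisWStatement : Prop :=
  ∀ (W : WeierstrassCurve ℤ) (p : ℕ), p.Prime → p ≠ 2 → W.Δ ≠ 0 → W.ModRepIsIrreducible p →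
    ∀ m : ℕ, 0 < m →
      ∃ ℓ : ℕ, ℓ.Prime ∧ ℓ ≡ 1 [MOD m] ∧ ¬ ℓ ∣ m ∧ W.IsGoodPrimeFor ℓ ∧
        ¬ (p : ℤ) ∣ W.apOfModel ℓ - (1 + (ℓ : ℤ))

/-- **(N)**, the deliverable of the module: for every `m > 0` there is a prime `ℓ ≡ 1 mod m`, good
for `W`, at which `a_ℓ(W)` is not `1 + ℓ` modulo `p`. -/
def NonEisStatement : Prop :=
  ∀ (E : WeierstrassCurve ℚ) [E.IsElliptic] (W : WeierstrassCurve ℤ) (p : ℕ),
    W.IsIntegralModelOf E → p.Prime → p ≠ 2 →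
    Affine.Point.GaloisRepIsIrreducible (K := AlgebraicClosure ℚ) ℚ E p →
    ∀ m : ℕ, 0 < m →
      ∃ ℓ : ℕ, ℓ.Prime ∧ ℓ ≡ 1 [MOD m] ∧ ¬ ℓ ∣ m ∧ W.IsGoodPrimeFor ℓ ∧
        ¬ (p : ℤ) ∣ W.apOfModel ℓ - (1 + (ℓ : ℤ))

theorem nonEis_of (hV : VCStatement) (hN : NonEisWStatement) : NonEisStatement := by
  intro E _ W p hW hp hp2 hirr m hm
  obtain ⟨hΔ, hirrW⟩ := hV E W p hW hirr
  exact hN W p hp hp2 hΔ hirrW m hm

end Fermat.Agent.P6.helper78
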