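import Fermat.Agent.P6.helper40_NonEisAsm
import Fermat.Agent.P6.helper78_NDefs
import Fermat.Agent.P6.helper78_TorsionCard
import Fermat.Agent.S54.helper91_Frobenius

/-!
# P6 / S41, module (N), [N-ASM] (helper40): `NonEisWStatement` from the weak links and
Chebotarev

`nonEisW_of : WLStatement → ChebFixStatement → NonEisWStatement`.

Route (blueprint P6/S41 v1, (N), steps (b), (c)): assume the conclusion fails for `m`; put
`M := 2 * p * m`.

1. By the weak link (WL+) every Frobenius element at a good prime `ℓ ≡ 1 mod M` has a non-zero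
   fixed point on `E[p]`; by `ChebFixStatement` so does every `τ` fixing the `M`-th roots of
   unity.
2. By Dirichlet there is a good prime `ℓ ≡ -1 mod M`; let `σ` be a Frobenius element at `ℓ`.
   Then `σ ^ 2` fixes the `M`-th roots of unity, hence has a non-zero fixed point; by (WL±) and
   `p ∣ ℓ + 1` the element `σ` has a non-zero fixed point and acts non-trivially on `E[p]`.
3. The group-theoretic core `exists_no_fixed_vector` gives `h` fixing the `M`-th roots of unity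
   without non-zero fixed point: contradiction with 1.
-/

set_option autoImplicit false

open WeierstrassCurve WeierstrassCurve.Affine
open scoped WeierstrassCurve.Affine
open Fermat.Agent.P6.helper78

namespace Fermat.Agent.P6.helper40

local notation "Qb" => AlgebraicClosure ℚ

/-- elements of the stabiliser of a primitive root of unity fix all roots of unity -/
theorem fixesRootsOfUnity_of_mem_stabRoot {m : ℕ} {ζ : Qb} (hζ : IsPrimitiveRoot ζ m)
    (hm : 0 < m) {h : NGQ} (hh : h ∈ stabRoot ζ) : FixesRootsOfUnity m h := by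
  intro ξ hξ
  have : NeZero m := ⟨hm.ne'⟩
  obtain ⟨i, -, hi⟩ := hζ.eq_pow_of_pow_eq_one hξ
  rw [← hi, map_pow, mem_stabRoot.1 hh]

/-- a prime `ℓ ≡ 1 mod d` does not divide `d` -/
theorem not_dvd_of_modEq_one {ℓ d : ℕ} (hℓ : ℓ.Prime) (h : ℓ ≡ 1 [MOD d]) : ¬ ℓ ∣ d := by
  intro hd
  have h1 : ℓ ≡ 1 [MOD ℓ] := h.of_dvd hd
  have h2 : ℓ % ℓ = 1 % ℓ := h1
  rw [Nat.mod_self, Nat.mod_eq_of_lt hℓ.one_lt] at h2
  exact absurd h2 (by norm_num)

/-- an element of odd prime order which is its own negative vanishes -/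
theorem eq_zero_of_eq_neg_of_nsmul {M : Type*} [AddCommGroup M] {p : ℕ} (hp : p.Prime)
    (hp2 : p ≠ 2) {P : M} (h2 : P = -P) (hpP : p • P = 0) : P = 0 := by
  have hodd : Odd p := hp.odd_of_ne_two hp2
  obtain ⟨k, hk⟩ := hodd
  have h3 : (2 : ℕ) • P = 0 := by
    rw [two_nsmul]
    nth_rewrite 2 [h2]
    exact add_neg_cancel P
  rw [hk, add_nsmul, mul_nsmul, h3, one_nsmul] at hpP
  rw [← hpP]
  simp

/-- **[N-ASM]**: the non-Eisenstein statement for integral models, from the two weak links and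
the Chebotarev step. -/
theorem nonEisW_of (hWL : WLStatement) (hCh : ChebFixStatement) : NonEisWStatement := by
  classical
  intro W p hp hp2 hΔ hirr m hm
  by_contra hcon
  push Not at hcon
  have hpF : Fact p.Prime := ⟨hp⟩
  obtain ⟨hnt, hirr'⟩ := hirr
  -- the modulus
  have hMpos : 0 < 2 * p * m := by
    have := hp.pos
    positivity
  have hNZ : NeZero (2 * p * m) := ⟨hMpos.ne'⟩
  -- Step 1: every `τ` fixing the roots of unity has a fixed point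
  have hfixall : ∀ τ : NGQ, FixesRootsOfUnity (2 * p * m) τ → HasFix W p τ := by
    refine hCh W p (2 * p * m) hp hp2 hΔ hMpos ?_
    intro ℓ hℓ hℓ1 hgood A hA σ hσ
    have hℓm : ℓ ≡ 1 [MOD m] := hℓ1.of_dvd (Dvd.intro_left _ rfl)
    have hℓ2' : ℓ ≡ 1 [MOD 2] := hℓ1.of_dvd ⟨p * m, by ring⟩
    have hℓp' : ℓ ≡ 1 [MOD p] := hℓ1.of_dvd ⟨2 * m, by ring⟩
    have hℓ2 : ℓ ≠ 2 := by
      rintro rfl
      exact not_dvd_of_modEq_one hℓ hℓ2' dvd_rfl
    have hℓp : ℓ ≠ p := by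
      rintro rfl
      exact not_dvd_of_modEq_one hℓ hℓp' dvd_rfl
    have h1 := hcon ℓ hℓ hℓm (not_dvd_of_modEq_one hℓ hℓm) hgood
    have h2 : (p : ℤ) ∣ (ℓ : ℤ) + 1 - W.apOfModel ℓ := by
      have h3 := (dvd_neg (a := (p : ℤ))).2 h1
      have h4 : -(W.apOfModel ℓ - (1 + (ℓ : ℤ))) = (ℓ : ℤ) + 1 - W.apOfModel ℓ := by ring
      rwa [h4] at h3
    exact ((hWL W p ℓ hp hp2 hℓ hℓ2 hℓp hgood A hA σ hσ).1).mp h2
  -- Step 2: Dirichlet
  obtain ⟨ℓ, hℓgt, hℓ, hℓneg⟩ :=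
    Nat.forall_exists_prime_gt_and_eq_mod (q := 2 * p * m) (a := -1) isUnit_one.neg W.Δ.natAbs
  have hgood : W.IsGoodPrimeFor ℓ := by
    intro h
    have h1 : ℓ ∣ W.Δ.natAbs := Int.natCast_dvd.1 h
    have h2 := Nat.le_of_dvd (Int.natAbs_pos.2 hΔ) h1
    omega
  have hdvd : 2 * p * m ∣ ℓ + 1 := by
    rw [← ZMod.natCast_eq_zero_iff]
    push_cast
    rw [hℓneg]
    ring
  have hpdvd : p ∣ ℓ + 1 := Dvd.dvd.trans ⟨2 * m, by ring⟩ hdvd
  have h2dvd : 2 ∣ ℓ + 1 := Dvd.dvd.trans ⟨p * m, by ring⟩ hdvd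
  have hℓself : ¬ ℓ ∣ ℓ + 1 := by
    intro h
    have h1 : ℓ ∣ 1 := (Nat.dvd_add_right (dvd_refl ℓ)).1 h
    exact hℓ.one_lt.ne' (Nat.dvd_one.1 h1)
  have hℓ2 : ℓ ≠ 2 := by
    rintro rfl
    exact hℓself h2dvd
  have hℓp : ℓ ≠ p := by
    rintro rfl
    exact hℓself hpdvd
  have hℓM : ¬ ℓ ∣ 2 * p * m := fun h => hℓself (h.trans hdvd)
  have hsq : ∃ k : ℕ, ℓ * ℓ = 1 + 2 * p * m * k := by
    obtain ⟨c, hc⟩ := hdvd
    obtain ⟨ℓ', rfl⟩ : ∃ ℓ', ℓ = ℓ' + 1 := ⟨ℓ - 1, by have := hℓ.pos; omega⟩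
    refine ⟨c * ℓ', ?_⟩
    have : (ℓ' + 1) * (ℓ' + 1) = 1 + (ℓ' + 1 + 1) * ℓ' := by ring
    rw [this, hc]
    ring
  -- a Frobenius element
  obtain ⟨A, σ, hA, hσ⟩ := Fermat.Agent.S54.helper91.exists_isFrobeniusAt hℓ
  have hσζ : ∀ ξ : Qb, ξ ^ (2 * p * m) = 1 → σ ξ = ξ ^ ℓ := fun ξ hξ =>
    Fermat.Agent.P1.helper15.apply_eq_pow_of_isFrobeniusAt hℓ A hA hℓM hσ hξ
  have hσ2 : FixesRootsOfUnity (2 * p * m) (σ ^ 2) := by
    intro ξ hξ
    obtain ⟨k, hk⟩ := hsq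
    have h1 : (σ ^ 2) ξ = σ (σ ξ) := by
      rw [pow_two]
      rfl
    rw [h1, hσζ ξ hξ, map_pow, hσζ ξ hξ, ← pow_mul, hk, pow_add, pow_one, pow_mul, hξ, one_pow,
      mul_one]
  have hfix2 : HasFix W p (σ ^ 2) := hfixall _ hσ2
  -- the weak links at `ℓ`
  obtain ⟨hwl1, hwl2⟩ := hWL W p ℓ hp hp2 hℓ hℓ2 hℓp hgood A hA σ hσ
  have hpl : (p : ℤ) ∣ (ℓ : ℤ) + 1 := by
    have := Int.natCast_dvd_natCast.2 hpdvd
    push_cast at this
    exact this
  have hpm : (p : ℤ) ∣ (ℓ : ℤ) + 1 - W.apOfModel ℓ ↔ (p : ℤ) ∣ (ℓ : ℤ) + 1 + W.apOfModel ℓ := by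
    constructor
    · intro h
      have h1 := dvd_sub (Dvd.dvd.mul_left hpl 2) h
      have h2 : 2 * ((ℓ : ℤ) + 1) - ((ℓ : ℤ) + 1 - W.apOfModel ℓ) =
          (ℓ : ℤ) + 1 + W.apOfModel ℓ := by ring
      rwa [h2] at h1
    · intro h
      have h1 := dvd_sub (Dvd.dvd.mul_left hpl 2) h
      have h2 : 2 * ((ℓ : ℤ) + 1) - ((ℓ : ℤ) + 1 + W.apOfModel ℓ) =
          (ℓ : ℤ) + 1 - W.apOfModel ℓ := by ring
      rwa [h2] at h1
  -- (c) `σ` has a non-zero fixed point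
  have hfix : HasFix W p σ := by
    by_contra hnf
    have hnaf : ¬ HasAntiFix W p σ := fun h => hnf (hwl1.1 (hpm.2 (hwl2.2 h)))
    obtain ⟨P, hP0, hP⟩ := hfix2
    have hP' : σ • σ • P = P := by
      rw [← mul_smul, ← pow_two]
      exact hP
    by_cases hQ : σ • P + P = 0
    · exact hnaf ⟨P, hP0, eq_neg_of_add_eq_zero_left hQ⟩
    · refine hnf ⟨σ • P + P, hQ, ?_⟩
      rw [smul_add, hP', add_comm]
  -- the representation
  set ρ := Point.galoisRepModuleEnd (S := ℚ) (K := Qb) (W.map (Int.castRingHom ℚ)) p with hρ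
  -- (b) `σ` acts non-trivially
  have hne1 : ρ σ ≠ 1 := by
    intro h1
    have hall : ∀ P : Tors W p, σ • P = P := fun P =>
      congrArg (fun f : Module.End (ZMod p) (Tors W p) => f P) h1
    obtain ⟨P, hP0, hPfix⟩ := hfix
    obtain ⟨Q, hQ0, hQ⟩ := hwl2.1 (hpm.1 (hwl1.2 ⟨P, hP0, hPfix⟩))
    rw [hall Q] at hQ
    apply hQ0
    refine eq_zero_of_eq_neg_of_nsmul hp hp2 hQ ?_
    rw [← Nat.cast_smul_eq_nsmul ℤ p Q]
    exact Submodule.smul_torsionBy _ Q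
  -- the dimension
  have hΔQ : (W.map (Int.castRingHom ℚ)).Δ ≠ 0 := by
    rw [WeierstrassCurve.map_Δ]
    simpa using hΔ
  have hcard : Nat.card (Tors W p) = p ^ 2 :=
    card_torsionBy_Qbar (W.map (Int.castRingHom ℚ)) hΔQ hp.one_le
  have hfin : Finite (Tors W p) := Nat.finite_of_card_ne_zero (by rw [hcard]; exact pow_ne_zero 2 hp.ne_zero)
  have hmf : Module.Finite (ZMod p) (Tors W p) := Module.Finite.of_finite
  have hfr : Module.finrank (ZMod p) (Tors W p) = 2 := by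
    have h1 := Module.natCard_eq_pow_finrank (K := ZMod p) (V := Tors W p)
    rw [hcard, Nat.card_zmod] at h1
    exact (Nat.pow_right_injective hp.two_le h1).symm
  -- Step 3: the group-theoretic core
  have hM0 : NeZero ((2 * p * m : ℕ) : Qb) := ⟨Nat.cast_ne_zero.mpr hMpos.ne'⟩
  obtain ⟨ζ, hζ⟩ : ∃ ζ : Qb, IsPrimitiveRoot ζ (2 * p * m) :=
    HasEnoughRootsOfUnity.exists_primitiveRoot Qb (2 * p * m)
  obtain ⟨P, hP0, hPfix⟩ := hfix
  obtain ⟨h, hh, hhfix⟩ := exists_no_fixed_vector ρ hfr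
    (fun N hN => hirr' N (fun τ x hx => hN τ x hx)) σ hne1 ⟨P, hP0, hPfix⟩
    (stabRoot ζ) (stabRoot_normal hζ hMpos) (comm_mem_stabRoot hζ hMpos)
  obtain ⟨P', hP'0, hP'⟩ := hfixall h (fixesRootsOfUnity_of_mem_stabRoot hζ hMpos hh)
  exact hP'0 (hhfix P' hP')

end Fermat.Agent.P6.helper40
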