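import Mathlib
import Fermat.Prelude.Def_ModularCurve_PeriodMap

/-!
# P6 / S41 [FIN] (helper43, task 880): the parabolic lattices are finitely generated

`Hom(Γ, ℤ)` embeds into `ℤ ^ S` for a finite generating set `S` of `Γ`, and `ℤ ^ S` is a
Noetherian `ℤ`-module.  Applied to `Γ = Γ₀(M)` (finitely generated: finite index in `SL(2, ℤ)`),
this gives `Module.Finite ℤ (parabolicHoms ℤ (Γ₀(M)) ℤ)`, i.e. `helper4.FinStatement`
(`Lat M` is an abbreviation of `parabolicHoms ℤ (Gamma0 M) ℤ`).

Mathlib + Prelude only.
-/

set_option autoImplicit false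

open CongruenceSubgroup ModularCurve.Period
open scoped MatrixGroups

namespace Fermat.Agent.P6.helper43

section Abstract

variable {G : Type*} [Group G]

/-- evaluation of additive characters on a finite set, as a `ℤ`-linear map -/
def evOn (S : Finset G) : (Additive G →+ ℤ) →ₗ[ℤ] (S → ℤ) where
  toFun φ := fun s => φ (Additive.ofMul (s : G))
  map_add' _ _ := rfl
  map_smul' _ _ := rfl

/-- an additive character is determined by its values on a generating set -/
theorem evOn_injective (S : Finset G) (hS : Subgroup.closure (S : Set G) = ⊤) :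
    Function.Injective (evOn S) := by
  intro φ ψ h
  have key : ∀ g : G, φ (Additive.ofMul g) = ψ (Additive.ofMul g) := by
    intro g
    have hg : g ∈ Subgroup.closure (S : Set G) := by rw [hS]; exact Subgroup.mem_top g
    induction hg using Subgroup.closure_induction with
    | mem x hx => exact congrFun h ⟨x, hx⟩
    | one => rw [ofMul_one, map_zero, map_zero]
    | mul x y _ _ hx hy => rw [ofMul_mul, map_add, map_add, hx, hy]
    | inv x _ hx => rw [ofMul_inv, map_neg, map_neg, hx]
  exact AddMonoidHom.ext fun a => key (Additive.toMul a)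

/-- every `ℤ`-submodule of `Hom(G, ℤ)` is finitely generated when `G` is a finitely generated
group -/
theorem finite_of_fg (hG : Group.FG G) (L : Submodule ℤ (Additive G →+ ℤ)) :
    Module.Finite ℤ L := by
  obtain ⟨S, hS⟩ := Group.fg_def.mp hG
  exact Module.Finite.of_injective ((evOn S).comp L.subtype)
    ((evOn_injective S hS).comp L.injective_subtype)

end Abstract

/-- `SL(2, ℤ)` is finitely generated -/
theorem fg_SL2Z' : Group.FG SL(2, ℤ) :=
  (Group.fg_iff).mpr ⟨{ModularGroup.S, ModularGroup.T}, SpecialLinearGroup.SL2Z_generators,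
    Set.toFinite _⟩

/-- `Γ₀(M)` is finitely generated for `M > 0` -/
theorem fg_Gamma0' (M : ℕ) (hM : 0 < M) : Group.FG (Gamma0 M) := by
  have : NeZero M := ⟨hM.ne'⟩
  have := fg_SL2Z'
  exact Subgroup.fg_of_index_ne_zero (Gamma0 M)

/-- **[FIN]** the lattices of integral parabolic homomorphisms are finitely generated
(`= Fermat.Agent.P6.helper4.FinStatement`, with `Lat M` unfolded). -/
theorem finStatement :
    ∀ M : ℕ, 0 < M → Module.Finite ℤ (parabolicHoms ℤ (Gamma0 M) ℤ) :=
  fun M hM => finite_of_fg (fg_Gamma0' M hM) _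

end Fermat.Agent.P6.helper43
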