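import Fermat.Agent.P6.helper78_NAsm
import Fermat.Agent.P6.helper4_S41Defs

/-!
# P6 / S41, module (N): the deliverable in the coordinator's shape (helper78)

`nonEisStatement : Fermat.Agent.P6.helper4.NonEisStatement`, unconditional: for an integral model
`W` of an elliptic curve `E / ℚ` with `E[p]` irreducible (`p` odd) and every `m > 0` there is a
prime `ℓ ≡ 1 mod m`, `ℓ ∤ m`, good for `W`, with `a_ℓ(W) ≢ 1 + ℓ mod p`.
-/

set_option autoImplicit false

namespace Fermat.Agent.P6.helper78

/-- **(N)**, verbatim in the shape of `helper4_S41Defs`. -/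
theorem nonEisStatement : Fermat.Agent.P6.helper4.NonEisStatement :=
  fun E _ W hW p hp hp2 hirr m hm => nonEis E W p hW hp hp2 hirr m hm

end Fermat.Agent.P6.helper78
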