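import Mathlib

/-!
# P6 / S41, Corollary C: the abstract transfer core

`StepSystem G ι` : a right action `perm` of a group `G` on an index type `ι` together with a
`G`-valued cocycle `step` (think of `α i * g = step g i * α (perm g i)` for coset
representatives `α i` in some ambient monoid).

Given approximations `a : ι → G` of the representatives, the *defect*
`defect a g i = (a i * g * (a (perm g i))⁻¹)⁻¹ * step g i` measures the failure of `a` to be a
system of representatives.  If all defects lie in a normal subgroup `K` and `χ : G → F` is additive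
on `K` and invariant under conjugation by `G` on `K`, then `θ g = ∑ i, χ (defect a g i)` is a
homomorphism `G → F` (`theta_mul`, `thetaHom`), and for every function `Φ` that is additive on a
subgroup `D` containing the `a i` the "Hecke sum" satisfies
`∑ i, Φ (step δ i) = card ι • Φ δ + ∑ i, Φ (defect a δ i)` (`sum_step_eq`).
-/

set_option autoImplicit false
set_option linter.unusedSectionVars false
set_option linter.unusedVariables false
set_option linter.style.longLine false

namespace Fermat.Agent.P6.helper62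

/-- A right action of `G` on an index type together with a `G`-valued cocycle:
the abstract shadow of `α i * g = step g i * α (perm g i)`. -/
structure StepSystem (G : Type*) [Group G] (ι : Type*) where
  /-- the permutation of the indices attached to `g` -/
  perm : G → ι → ι
  /-- the cocycle -/
  step : G → ι → G
  perm_one : ∀ i, perm 1 i = i
  perm_mul : ∀ g h i, perm (g * h) i = perm h (perm g i)
  step_mul : ∀ g h i, step (g * h) i = step g i * step h (perm g i)

namespace StepSystem

variable {G : Type*} [Group G] {ι : Type*} (S : StepSystem G ι)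

theorem step_one (i : ι) : S.step 1 i = 1 := by
  have h := S.step_mul 1 1 i
  rw [mul_one, S.perm_one] at h
  exact (mul_eq_left.mp h.symm)

theorem perm_inv_perm (g : G) (i : ι) : S.perm g⁻¹ (S.perm g i) = i := by
  have h := S.perm_mul g g⁻¹ i
  rw [mul_inv_cancel, S.perm_one] at h
  exact h.symm

theorem perm_perm_inv (g : G) (i : ι) : S.perm g (S.perm g⁻¹ i) = i := by
  have h := S.perm_inv_perm g⁻¹ i
  rwa [inv_inv] at h

/-- `perm g` as a permutation of the index type. -/
def permEquiv (g : G) : Equiv.Perm ι where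
  toFun := S.perm g
  invFun := S.perm g⁻¹
  left_inv := S.perm_inv_perm g
  right_inv := S.perm_perm_inv g

@[simp] theorem permEquiv_apply (g : G) (i : ι) : S.permEquiv g i = S.perm g i := rfl

/-- The defect of the approximations `a` at `(g, i)`. -/
def defect (a : ι → G) (g : G) (i : ι) : G :=
  (a i * g * (a (S.perm g i))⁻¹)⁻¹ * S.step g i

theorem step_eq (a : ι → G) (g : G) (i : ι) :
    S.step g i = a i * g * (a (S.perm g i))⁻¹ * S.defect a g i := by
  unfold defect
  group

/-- The cocycle rule for the defect: `γ_i(gh) = (Q⁻¹ γ_i(g) Q) γ_j(h)` with `j = perm g i` and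
`Q = a j * h * (a (perm h j))⁻¹`. -/
theorem defect_mul (a : ι → G) (g h : G) (i : ι) :
    S.defect a (g * h) i =
      (a (S.perm g i) * h * (a (S.perm h (S.perm g i)))⁻¹)⁻¹ * S.defect a g i *
        (a (S.perm g i) * h * (a (S.perm h (S.perm g i)))⁻¹)⁻¹⁻¹ *
        S.defect a h (S.perm g i) := by
  simp only [defect, S.perm_mul, S.step_mul]
  group

variable [Fintype ι] {F : Type*} [AddCommGroup F]

/-- The function `θ(g) = ∑ i, χ (defect a g i)`. -/
def theta (a : ι → G) (χ : G → F) (g : G) : F := ∑ i, χ (S.defect a g i)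

/-- `θ` is additive as soon as the defects lie in a subgroup `K` on which `χ` is additive and
invariant under conjugation by all of `G`. -/
theorem theta_mul (a : ι → G) (χ : G → F) (K : Subgroup G)
    (hK : ∀ g i, S.defect a g i ∈ K)
    (hadd : ∀ x ∈ K, ∀ y ∈ K, χ (x * y) = χ x + χ y)
    (hinv : ∀ g : G, ∀ x ∈ K, g * x * g⁻¹ ∈ K ∧ χ (g * x * g⁻¹) = χ x) (g h : G) :
    S.theta a χ (g * h) = S.theta a χ g + S.theta a χ h := by
  unfold theta
  rw [← Equiv.sum_comp (S.permEquiv g) (fun i => χ (S.defect a h i)), ← Finset.sum_add_distrib]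
  refine Finset.sum_congr rfl fun i _ => ?_
  rw [S.defect_mul a g h i, permEquiv_apply]
  obtain ⟨h1, h2⟩ := hinv (a (S.perm g i) * h * (a (S.perm h (S.perm g i)))⁻¹)⁻¹
    (S.defect a g i) (hK g i)
  rw [hadd _ h1 _ (hK h _), h2]

/-- `θ` as a homomorphism. -/
def thetaHom (a : ι → G) (χ : G → F) (K : Subgroup G)
    (hK : ∀ g i, S.defect a g i ∈ K)
    (hadd : ∀ x ∈ K, ∀ y ∈ K, χ (x * y) = χ x + χ y)
    (hinv : ∀ g : G, ∀ x ∈ K, g * x * g⁻¹ ∈ K ∧ χ (g * x * g⁻¹) = χ x) :
    Additive G →+ F :=
  AddMonoidHom.mk' (fun g => S.theta a χ (Additive.toMul g))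
    (fun g h => S.theta_mul a χ K hK hadd hinv (Additive.toMul g) (Additive.toMul h))

@[simp] theorem thetaHom_apply (a : ι → G) (χ : G → F) (K : Subgroup G)
    (hK : ∀ g i, S.defect a g i ∈ K)
    (hadd : ∀ x ∈ K, ∀ y ∈ K, χ (x * y) = χ x + χ y)
    (hinv : ∀ g : G, ∀ x ∈ K, g * x * g⁻¹ ∈ K ∧ χ (g * x * g⁻¹) = χ x) (g : G) :
    S.thetaHom a χ K hK hadd hinv (Additive.ofMul g) = S.theta a χ g := rfl

/-- A function additive on a subgroup sends `1` to `0`. -/
theorem map_one_of_additiveOn (D : Subgroup G) (Φ : G → F)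
    (hΦ : ∀ x ∈ D, ∀ y ∈ D, Φ (x * y) = Φ x + Φ y) : Φ 1 = 0 := by
  have h := hΦ 1 D.one_mem 1 D.one_mem
  rw [mul_one] at h
  exact (add_eq_left.mp h.symm)

/-- A function additive on a subgroup sends inverses to negatives. -/
theorem map_inv_of_additiveOn (D : Subgroup G) (Φ : G → F)
    (hΦ : ∀ x ∈ D, ∀ y ∈ D, Φ (x * y) = Φ x + Φ y) {x : G} (hx : x ∈ D) :
    Φ x⁻¹ = -Φ x := by
  have h := hΦ x hx x⁻¹ (D.inv_mem hx)
  rw [mul_inv_cancel, map_one_of_additiveOn D Φ hΦ] at h
  exact (neg_eq_of_add_eq_zero_right h.symm).symm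

/-- The Hecke sum formula: `∑ i, Φ (step δ i) = card ι • Φ δ + θ(δ)` for `δ` in a subgroup `D`
on which `Φ` is additive, provided the approximations and the steps of `δ` lie in `D`. -/
theorem sum_step_eq (a : ι → G) (D : Subgroup G) (Φ : G → F)
    (hΦ : ∀ x ∈ D, ∀ y ∈ D, Φ (x * y) = Φ x + Φ y) (ha : ∀ i, a i ∈ D)
    {δ : G} (hδ : δ ∈ D) (hstep : ∀ i, S.step δ i ∈ D) :
    ∑ i, Φ (S.step δ i) = Fintype.card ι • Φ δ + S.theta a Φ δ := by
  have hdef : ∀ i, S.defect a δ i ∈ D := fun i =>
    D.mul_mem (D.inv_mem (D.mul_mem (D.mul_mem (ha i) hδ) (D.inv_mem (ha _)))) (hstep i)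
  have key : ∀ i, Φ (S.step δ i) =
      (Φ (a i) - Φ (a (S.permEquiv δ i))) + (Φ δ + Φ (S.defect a δ i)) := by
    intro i
    have e := S.step_eq a δ i
    have h1 : Φ (a i * δ * (a (S.perm δ i))⁻¹ * S.defect a δ i) =
        Φ (a i) + Φ δ + -Φ (a (S.perm δ i)) + Φ (S.defect a δ i) := by
      rw [hΦ _ (D.mul_mem (D.mul_mem (ha i) hδ) (D.inv_mem (ha _))) _ (hdef i),
        hΦ _ (D.mul_mem (ha i) hδ) _ (D.inv_mem (ha _)), hΦ _ (ha i) _ hδ,
        map_inv_of_additiveOn D Φ hΦ (ha _)]
    rw [e, h1, permEquiv_apply]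
    abel
  rw [Finset.sum_congr rfl fun i _ => key i, Finset.sum_add_distrib, Finset.sum_sub_distrib,
    Equiv.sum_comp (S.permEquiv δ) (fun i => Φ (a i)), sub_self, zero_add,
    Finset.sum_add_distrib, Finset.sum_const, Finset.card_univ]
  rfl

end StepSystem

end Fermat.Agent.P6.helper62
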