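import Mathlib
import Fermat.Agent.P6.helper62_TransferCore
import Fermat.Agent.P6.helper62_PushFormula

/-!
# P6 / S41 (HB): Hecke sums as transfers from a stabiliser (helper62)

For a `StepSystem` on a group `G` acting transitively on a finite index type through `perm`, with
`ι'.range` the stabiliser of `i₀`:

* `StepSystem.push_eq_sum_step` : the transfer along `ι'` of `φ ∘ step (·) i₀` is the Hecke sum
  `γ ↦ ∑ i, φ (step γ i)`;
* `StepSystem.push_pull_eq_card_smul` : transfer ∘ restriction is multiplication by the index.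
-/

set_option autoImplicit false
set_option linter.unusedSectionVars false
set_option linter.unusedVariables false
set_option linter.style.longLine false
set_option linter.style.haveILetI false

namespace Fermat.Agent.P6.helper62

open Fermat.Agent.P6.helper4

namespace StepSystem

variable {G : Type*} [Group G] {ι : Type*} (S : StepSystem G ι)

theorem perm_eq_iff_inv (g : G) (i j : ι) : S.perm g⁻¹ j = i ↔ j = S.perm g i := by
  constructor
  · intro h
    rw [← h, S.perm_perm_inv]
  · intro h
    rw [h, S.perm_inv_perm]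

theorem step_inv (g : G) (i : ι) : S.step g⁻¹ (S.perm g i) = (S.step g i)⁻¹ := by
  have h := S.step_mul g g⁻¹ i
  rw [mul_inv_cancel, S.step_one] at h
  exact eq_inv_of_mul_eq_one_right h.symm

/-- The step of `a * g * b⁻¹` at `i₀` when `perm a i₀ = i` and `perm b i₀ = perm g i`. -/
theorem step_conj (a g b : G) {i₀ i : ι} (ha : S.perm a i₀ = i) (hb : S.perm b i₀ = S.perm g i) :
    S.step (a * g * b⁻¹) i₀ = S.step a i₀ * S.step g i * (S.step b i₀)⁻¹ := by
  rw [S.step_mul, S.step_mul, S.perm_mul, ha, ← hb, S.step_inv]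

theorem perm_conj (a g b : G) {i₀ i : ι} (ha : S.perm a i₀ = i) (hb : S.perm b i₀ = S.perm g i) :
    S.perm (a * g * b⁻¹) i₀ = i₀ := by
  rw [S.perm_mul, S.perm_mul, ha, ← hb, S.perm_inv_perm]

variable [Fintype ι] {G' : Type*} [Group G'] {A : Type*} [AddCommGroup A]

/-- the representatives of the right cosets of the stabiliser of `i₀` given by a transitive
action -/
theorem bijective_of_transitive (i₀ : ι) (τ : ι → G) (hτ : ∀ i, S.perm (τ i) i₀ = i)
    (H : Subgroup G) (hH : ∀ g, g ∈ H ↔ S.perm g i₀ = i₀) :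
    Function.Bijective (fun i => (((τ i)⁻¹ : G) : G ⧸ H)) := by
  apply bijective_of_existsUnique
  intro g
  refine ⟨S.perm g i₀, ?_, ?_⟩
  · show g * (τ (S.perm g i₀))⁻¹ ∈ H
    rw [hH, S.perm_mul, S.perm_eq_iff_inv, hτ]
  · intro i hi
    have hi' : g * (τ i)⁻¹ ∈ H := hi
    rw [hH, S.perm_mul, S.perm_eq_iff_inv, hτ] at hi'
    exact hi'.symm

/-- **Hecke sum = transfer from the stabiliser.**  If `G` acts transitively on `ι` through
`perm`, `ι'.range` is the stabiliser of `i₀` and `step (ι' g') i₀ = σ g'`, then the transfer of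
`φ ∘ σ` along `ι'` is the Hecke sum `γ ↦ ∑ i, φ (step γ i)`. -/
theorem push_eq_sum_step (i₀ : ι) (htrans : ∀ i, ∃ τ, S.perm τ i₀ = i)
    (ι' : G' →* G) (hinj : Function.Injective ι')
    (hrange : ∀ g, g ∈ ι'.range ↔ S.perm g i₀ = i₀)
    (φ : Additive G →+ A) (ψ : Additive G' →+ A)
    (hψ : ∀ g', ψ (Additive.ofMul g') = φ (Additive.ofMul (S.step (ι' g') i₀))) (γ : G) :
    push A ι' hinj ψ (Additive.ofMul γ) = ∑ i, φ (Additive.ofMul (S.step γ i)) := by
  classical
  choose τ hτ using htrans
  have ht := S.bijective_of_transitive i₀ τ hτ ι'.range hrange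
  haveI : Finite (G ⧸ ι'.range) := Finite.of_surjective _ ht.2
  haveI : ι'.range.FiniteIndex := Subgroup.finiteIndex_of_finite_quotient
  have hmem : ∀ i, τ i * γ * (τ (S.perm γ i))⁻¹ ∈ ι'.range := fun i =>
    (hrange _).mpr (S.perm_conj (τ i) γ (τ (S.perm γ i)) (hτ i) (hτ _))
  choose h hh using hmem
  have hrel : ∀ i, τ i * γ = ι' (h i) * τ (S.perm γ i) := by
    intro i
    rw [hh i]; group
  rw [push_eq_sum_of_rel ι' hinj ψ τ ht γ (S.perm γ) h hrel]
  have key : ∀ i, ψ (Additive.ofMul (h i)) =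
      (φ (Additive.ofMul (S.step (τ i) i₀)) -
        φ (Additive.ofMul (S.step (τ (S.permEquiv γ i)) i₀))) +
        φ (Additive.ofMul (S.step γ i)) := by
    intro i
    rw [hψ, hh i, S.step_conj (τ i) γ (τ (S.perm γ i)) (hτ i) (hτ _), ofMul_mul, ofMul_mul,
      ofMul_inv, map_add, map_add, map_neg, permEquiv_apply]
    abel
  rw [Finset.sum_congr rfl fun i _ => key i, Finset.sum_add_distrib, Finset.sum_sub_distrib,
    Equiv.sum_comp (S.permEquiv γ) (fun i => φ (Additive.ofMul (S.step (τ i) i₀))), sub_self,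
    zero_add]

/-- **Transfer ∘ restriction = index.** -/
theorem push_pull_eq_card_smul (i₀ : ι) (htrans : ∀ i, ∃ τ, S.perm τ i₀ = i)
    (ι' : G' →* G) (hinj : Function.Injective ι')
    (hrange : ∀ g, g ∈ ι'.range ↔ S.perm g i₀ = i₀)
    (φ : Additive G →+ A) (γ : G) :
    push A ι' hinj (pull A ι' φ) (Additive.ofMul γ) = Fintype.card ι • φ (Additive.ofMul γ) := by
  classical
  choose τ hτ using htrans
  have ht := S.bijective_of_transitive i₀ τ hτ ι'.range hrange
  haveI : Finite (G ⧸ ι'.range) := Finite.of_surjective _ ht.2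
  haveI : ι'.range.FiniteIndex := Subgroup.finiteIndex_of_finite_quotient
  have hmem : ∀ i, τ i * γ * (τ (S.perm γ i))⁻¹ ∈ ι'.range := fun i =>
    (hrange _).mpr (S.perm_conj (τ i) γ (τ (S.perm γ i)) (hτ i) (hτ _))
  choose h hh using hmem
  have hrel : ∀ i, τ i * γ = ι' (h i) * τ (S.perm γ i) := by
    intro i
    rw [hh i]; group
  rw [push_eq_sum_of_rel ι' hinj (pull A ι' φ) τ ht γ (S.perm γ) h hrel]
  have key : ∀ i, pull A ι' φ (Additive.ofMul (h i)) =
      (φ (Additive.ofMul (τ i)) - φ (Additive.ofMul (τ (S.permEquiv γ i)))) +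
        φ (Additive.ofMul γ) := by
    intro i
    rw [pull_apply, hh i, ofMul_mul, ofMul_mul, ofMul_inv, map_add, map_add, map_neg,
      permEquiv_apply]
    abel
  rw [Finset.sum_congr rfl fun i _ => key i, Finset.sum_add_distrib, Finset.sum_sub_distrib,
    Equiv.sum_comp (S.permEquiv γ) (fun i => φ (Additive.ofMul (τ i))), sub_self,
    zero_add, Finset.sum_const, Finset.card_univ]

end StepSystem

end Fermat.Agent.P6.helper62
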