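import Mathlib
import Fermat.Agent.P6.helper77_Amalgam

/-!
# P6 / S41, step (I1) (helper77): Ihara's amalgam, part 2 — generation and the gluing theorem

`gamma0Inv N q ≤ SL(2, ℚ)` is the group `Γ₀(N)[1/q]`: matrices `M` such that `q ^ k M` is
integral with lower left entry divisible by `N`, for some `k`.

* `range_amalgamMap` : the image of `Γ₀(N) *_{Γ₀(N q)} Γ₀(N) → SL(2, ℚ)` is `Γ₀(N)[1/q]`
  (descent on the height `k`).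
* `amalgamEquiv` : `Γ₀(N) *_{Γ₀(N q)} Γ₀(N) ≃* Γ₀(N)[1/q]`.
* `ihara_glue` : **gluing**: homomorphisms `φ₁, φ₂ : Γ₀(N) → F` with `φ₁ ∘ j₁ = φ₂ ∘ j₂`
  extend uniquely to a homomorphism `Γ₀(N)[1/q] → F`.
-/

set_option autoImplicit false

open Matrix MatrixGroups CongruenceSubgroup

namespace Fermat.Agent.P6.helper77

/-! ### The group `Γ₀(N)[1/q]` -/

/-- `A` represents `q ^ k M` -/
def IsRep (q k : ℕ) (M : SL(2, ℚ)) (A : Matrix (Fin 2) (Fin 2) ℤ) : Prop :=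
  ∀ i j, (M i j : ℚ) * (q : ℚ) ^ k = (A i j : ℤ)

theorem isRep_one (q : ℕ) : IsRep q 0 1 1 := by
  intro i j
  fin_cases i <;> fin_cases j <;> simp

theorem IsRep.mul {q k k' : ℕ} {M M' : SL(2, ℚ)} {A A' : Matrix (Fin 2) (Fin 2) ℤ}
    (h : IsRep q k M A) (h' : IsRep q k' M' A') : IsRep q (k + k') (M * M') (A * A') := by
  intro i j
  rw [sl2Q_mul_apply, Matrix.mul_apply, Fin.sum_univ_two]
  push_cast
  rw [← h i 0, ← h i 1, ← h' 0 j, ← h' 1 j, pow_add]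
  ring

theorem IsRep.inv {q k : ℕ} {M : SL(2, ℚ)} {A : Matrix (Fin 2) (Fin 2) ℤ}
    (h : IsRep q k M A) : IsRep q k M⁻¹ !![A 1 1, -A 0 1; -A 1 0, A 0 0] := by
  intro i j
  rw [Matrix.SpecialLinearGroup.coe_inv, Matrix.adjugate_fin_two]
  fin_cases i <;> fin_cases j
  · simpa using h 1 1
  · have := h 0 1
    simp only [Fin.zero_eta, Fin.isValue, Fin.mk_one, Matrix.of_apply, Matrix.cons_val',
      Matrix.cons_val_zero, Matrix.cons_val_one, Matrix.cons_val_fin_one] at this ⊢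
    push_cast
    rw [← this]
    ring
  · have := h 1 0
    simp only [Fin.zero_eta, Fin.isValue, Fin.mk_one, Matrix.of_apply, Matrix.cons_val',
      Matrix.cons_val_zero, Matrix.cons_val_one, Matrix.cons_val_fin_one] at this ⊢
    push_cast
    rw [← this]
    ring
  · simpa using h 0 0

/-- `Γ₀(N)[1/q]` as a subgroup of `SL(2, ℚ)` -/
def gamma0Inv (N q : ℕ) : Subgroup SL(2, ℚ) where
  carrier := {M | ∃ (k : ℕ) (A : Matrix (Fin 2) (Fin 2) ℤ), IsRep q k M A ∧ (N : ℤ) ∣ A 1 0}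
  one_mem' := ⟨0, 1, isRep_one q, by simp⟩
  mul_mem' := by
    rintro M M' ⟨k, A, hA, hN⟩ ⟨k', A', hA', hN'⟩
    refine ⟨k + k', A * A', hA.mul hA', ?_⟩
    rw [Matrix.mul_apply, Fin.sum_univ_two]
    exact dvd_add (Dvd.dvd.mul_right hN _) (Dvd.dvd.mul_left hN' _)
  inv_mem' := by
    rintro M ⟨k, A, hA, hN⟩
    refine ⟨k, _, hA.inv, ?_⟩
    simpa using hN

theorem mem_gamma0Inv_iff (N q : ℕ) (M : SL(2, ℚ)) :
    M ∈ gamma0Inv N q ↔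
      ∃ (k : ℕ) (A : Matrix (Fin 2) (Fin 2) ℤ), IsRep q k M A ∧ (N : ℤ) ∣ A 1 0 :=
  Iff.rfl

theorem isRep_iota (q : ℕ) (γ : SL(2, ℤ)) : IsRep q 0 (iotaQ γ) (γ : Matrix (Fin 2) (Fin 2) ℤ) := by
  intro i j
  rw [iotaQ_apply, pow_zero, mul_one]

theorem isRep_kappa (q : ℕ) (hq : q ≠ 0) (γ : SL(2, ℤ)) :
    IsRep q 1 (kappaQ q hq γ)
      !![(q : ℤ) * γ 0 0, γ 0 1; (q : ℤ) * ((q : ℤ) * γ 1 0), (q : ℤ) * γ 1 1] := by
  have hq' : (q : ℚ) ≠ 0 := by exact_mod_cast hq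
  intro i j
  rw [kappaQ_apply, pow_one]
  fin_cases i <;> fin_cases j
  · show (γ 0 0 : ℚ) * (q : ℚ) = (((q : ℤ) * γ 0 0 : ℤ) : ℚ)
    push_cast; ring
  · show (γ 0 1 : ℚ) / (q : ℚ) * (q : ℚ) = ((γ 0 1 : ℤ) : ℚ)
    field_simp
  · show (q : ℚ) * (γ 1 0 : ℚ) * (q : ℚ) = (((q : ℤ) * ((q : ℤ) * γ 1 0) : ℤ) : ℚ)
    push_cast; ring
  · show (γ 1 1 : ℚ) * (q : ℚ) = (((q : ℤ) * γ 1 1 : ℤ) : ℚ)
    push_cast; ring

theorem iota_mem_gamma0Inv (N q : ℕ) (γ : Gamma0 N) :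
    iotaQ (γ : SL(2, ℤ)) ∈ gamma0Inv N q :=
  ⟨0, _, isRep_iota q γ, gamma0_mem_iff_dvd.1 γ.2⟩

theorem kappa_mem_gamma0Inv (N q : ℕ) (hq : q ≠ 0) (γ : Gamma0 N) :
    kappaQ q hq (γ : SL(2, ℤ)) ∈ gamma0Inv N q := by
  refine ⟨1, _, isRep_kappa q hq γ, ?_⟩
  show (N : ℤ) ∣ (q : ℤ) * ((q : ℤ) * (γ : SL(2, ℤ)) 1 0)
  exact Dvd.dvd.mul_left (Dvd.dvd.mul_left (gamma0_mem_iff_dvd.1 γ.2) _) _

theorem range_amalgamMap_le (N q : ℕ) (hq : q ≠ 0) :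
    (amalgamMap N q hq).range ≤ gamma0Inv N q := by
  rintro _ ⟨x, rfl⟩
  induction x using Monoid.PushoutI.induction_on with
  | of i g =>
    rw [amalgamMap_of]
    cases i
    · exact iota_mem_gamma0Inv N q g
    · exact kappa_mem_gamma0Inv N q hq g
  | base h =>
    rw [amalgamMap_base]
    exact iota_mem_gamma0Inv N q (jOne N q h)
  | mul x y hx hy =>
    rw [map_mul]
    exact (gamma0Inv N q).mul_mem hx hy

/-! ### Lifting lines mod `q` to rows of elements of `Γ₀(N)` -/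

theorem exists_bezout_of_not_dvd (q : ℕ) (hq : q.Prime) (d : ℤ) (hd : ¬ (q : ℤ) ∣ d) :
    ∃ t v : ℤ, t * d + v * (q : ℤ) = 1 := by
  have hp : Prime (q : ℤ) := Nat.prime_iff_prime_int.1 hq
  have : IsCoprime d (q : ℤ) := by
    rw [isCoprime_comm]
    exact (Prime.coprime_iff_not_dvd hp).2 hd
  obtain ⟨t, v, h⟩ := this
  exact ⟨t, v, h⟩

theorem exists_bezout_of_coprime (N q : ℕ) (hNq : Nat.Coprime N q) :
    ∃ u v : ℤ, u * (N : ℤ) + v * (q : ℤ) = 1 := by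
  have : IsCoprime (N : ℤ) (q : ℤ) := by exact_mod_cast Nat.isCoprime_iff_coprime.2 hNq
  obtain ⟨u, v, h⟩ := this
  exact ⟨u, v, h⟩

/-- every line of `𝔽_q²` is the bottom row of an element of `Γ₀(N)` (dual formulation) -/
theorem bottom_lift (N q : ℕ) (hq : q.Prime) (hNq : Nat.Coprime N q) (c₀ d₀ : ℤ)
    (h : ¬ ((q : ℤ) ∣ c₀ ∧ (q : ℤ) ∣ d₀)) :
    ∃ γ : SL(2, ℤ), γ ∈ Gamma0 N ∧
      ∀ e f : ℤ, (q : ℤ) ∣ c₀ * e + d₀ * f → (q : ℤ) ∣ γ 1 0 * e + γ 1 1 * f := by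
  obtain ⟨u, v, huv⟩ := exists_bezout_of_coprime N q hNq
  by_cases hd : (q : ℤ) ∣ d₀
  · have hc : ¬ (q : ℤ) ∣ c₀ := fun hc => h ⟨hc, hd⟩
    refine ⟨⟨!![v, -u; (N : ℤ), (q : ℤ)], by rw [Matrix.det_fin_two_of]; linarith⟩, ?_, ?_⟩
    · refine gamma0_mem_iff_dvd.2 ?_
      show (N : ℤ) ∣ (N : ℤ)
      exact dvd_rfl
    · intro e f hef
      show (q : ℤ) ∣ (N : ℤ) * e + (q : ℤ) * f
      have h1 : (q : ℤ) ∣ c₀ * e := by
        have := dvd_sub hef (Dvd.dvd.mul_right hd f)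
        rwa [add_sub_cancel_right] at this
      have h2 : (q : ℤ) ∣ e := (Int.Prime.dvd_mul' hq h1).resolve_left hc
      exact dvd_add (Dvd.dvd.mul_left h2 _) (dvd_mul_right _ _)
  · obtain ⟨t, v', htv⟩ := exists_bezout_of_not_dvd q hq d₀ hd
    refine ⟨⟨!![1, 0; (N : ℤ) * (u * t * c₀), 1], by rw [Matrix.det_fin_two_of]; ring⟩, ?_, ?_⟩
    · refine gamma0_mem_iff_dvd.2 ?_
      show (N : ℤ) ∣ (N : ℤ) * (u * t * c₀)
      exact dvd_mul_right _ _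
    · intro e f hef
      show (q : ℤ) ∣ (N : ℤ) * (u * t * c₀) * e + 1 * f
      obtain ⟨m, hm⟩ := hef
      refine ⟨t * m - v * t * c₀ * e + v' * f, ?_⟩
      have e1 : (N : ℤ) * u = 1 - v * (q : ℤ) := by linarith
      have e2 : f = (t * d₀ + v' * (q : ℤ)) * f := by rw [htv, one_mul]
      calc (N : ℤ) * (u * t * c₀) * e + 1 * f
          = ((N : ℤ) * u) * (t * c₀ * e) + f := by ring
        _ = (1 - v * (q : ℤ)) * (t * c₀ * e) + (t * d₀ + v' * (q : ℤ)) * f := by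
            rw [e1, ← e2]
        _ = t * (c₀ * e + d₀ * f) + (q : ℤ) * (- v * t * c₀ * e + v' * f) := by ring
        _ = (q : ℤ) * (t * m - v * t * c₀ * e + v' * f) := by rw [hm]; ring

/-- every line of `𝔽_q²` is the top row of an element of `Γ₀(N)` (dual formulation) -/
theorem top_lift (N q : ℕ) (hq : q.Prime) (hNq : Nat.Coprime N q) (a₀ b₀ : ℤ)
    (h : ¬ ((q : ℤ) ∣ a₀ ∧ (q : ℤ) ∣ b₀)) :
    ∃ γ : SL(2, ℤ), γ ∈ Gamma0 N ∧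
      ∀ e f : ℤ, (q : ℤ) ∣ a₀ * e + b₀ * f → (q : ℤ) ∣ γ 0 0 * e + γ 0 1 * f := by
  obtain ⟨u, v, huv⟩ := exists_bezout_of_coprime N q hNq
  by_cases ha : (q : ℤ) ∣ a₀
  · have hb : ¬ (q : ℤ) ∣ b₀ := fun hb => h ⟨ha, hb⟩
    refine ⟨⟨!![(q : ℤ), -u; (N : ℤ), v], by rw [Matrix.det_fin_two_of]; linarith⟩, ?_, ?_⟩
    · refine gamma0_mem_iff_dvd.2 ?_
      show (N : ℤ) ∣ (N : ℤ)
      exact dvd_rfl
    · intro e f hef
      show (q : ℤ) ∣ (q : ℤ) * e + (-u) * f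
      have h1 : (q : ℤ) ∣ b₀ * f := by
        have := dvd_sub hef (Dvd.dvd.mul_right ha e)
        rwa [add_sub_cancel_left] at this
      have h2 : (q : ℤ) ∣ f := (Int.Prime.dvd_mul' hq h1).resolve_left hb
      exact dvd_add (dvd_mul_right _ _) (Dvd.dvd.mul_left h2 _)
  · obtain ⟨t, v', htv⟩ := exists_bezout_of_not_dvd q hq a₀ ha
    refine ⟨⟨!![1, t * b₀; 0, 1], by rw [Matrix.det_fin_two_of]; ring⟩, ?_, ?_⟩
    · refine gamma0_mem_iff_dvd.2 ?_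
      show (N : ℤ) ∣ 0
      exact dvd_zero _
    · intro e f hef
      show (q : ℤ) ∣ 1 * e + t * b₀ * f
      obtain ⟨m, hm⟩ := hef
      refine ⟨t * m + v' * e, ?_⟩
      have e2 : e = (t * a₀ + v' * (q : ℤ)) * e := by rw [htv, one_mul]
      calc 1 * e + t * b₀ * f = e + t * b₀ * f := by ring
        _ = (t * a₀ + v' * (q : ℤ)) * e + t * b₀ * f := by rw [← e2]
        _ = t * (a₀ * e + b₀ * f) + (q : ℤ) * (v' * e) := by ring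
        _ = (q : ℤ) * (t * m + v' * e) := by rw [hm]; ring

/-- a nonzero vector mod `q` in the left kernel of a singular matrix mod `q` -/
theorem exists_kernel_vector (q : ℕ) (hq : q.Prime) (x y z w : ℤ)
    (h : (q : ℤ) ∣ x * w - y * z) :
    ∃ c₀ d₀ : ℤ, ¬ ((q : ℤ) ∣ c₀ ∧ (q : ℤ) ∣ d₀) ∧
      (q : ℤ) ∣ c₀ * x + d₀ * z ∧ (q : ℤ) ∣ c₀ * y + d₀ * w := by
  by_cases h1 : (q : ℤ) ∣ w ∧ (q : ℤ) ∣ y
  · by_cases h2 : (q : ℤ) ∣ z ∧ (q : ℤ) ∣ x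
    · have hq1 : ¬ (q : ℤ) ∣ 1 := by
        intro hh
        have := Int.natAbs_dvd_natAbs.2 hh
        simp at this
        exact hq.one_lt.ne' this
      refine ⟨1, 0, fun hh => hq1 hh.1, ?_, ?_⟩
      · simpa using h2.2
      · simpa using h1.2
    · refine ⟨z, -x, fun hh => h2 ⟨hh.1, (dvd_neg.1 hh.2)⟩, ?_, ?_⟩
      · have : z * x + -x * z = 0 := by ring
        rw [this]; exact dvd_zero _
      · have : z * y + -x * w = -(x * w - y * z) := by ring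
        rw [this]; exact (dvd_neg.2 h)
  · refine ⟨w, -y, fun hh => h1 ⟨hh.1, (dvd_neg.1 hh.2)⟩, ?_, ?_⟩
    · have : w * x + -y * z = x * w - y * z := by ring
      rw [this]; exact h
    · have : w * y + -y * w = 0 := by ring
      rw [this]; exact dvd_zero _

/-! ### The descent -/

theorem isRep_det {q k : ℕ} {M : SL(2, ℚ)} {A : Matrix (Fin 2) (Fin 2) ℤ} (h : IsRep q k M A) :
    A 0 0 * A 1 1 - A 0 1 * A 1 0 = (q : ℤ) ^ (2 * k) := by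
  have hdet : (M 0 0 : ℚ) * M 1 1 - M 0 1 * M 1 0 = 1 := by
    have := M.det_coe
    rwa [Matrix.det_fin_two] at this
  have : ((A 0 0 * A 1 1 - A 0 1 * A 1 0 : ℤ) : ℚ) = (((q : ℤ) ^ (2 * k) : ℤ) : ℚ) := by
    push_cast
    rw [← h 0 0, ← h 1 1, ← h 0 1, ← h 1 0]
    have e : ((M 0 0 : ℚ) * (q : ℚ) ^ k) * (M 1 1 * (q : ℚ) ^ k)
        - (M 0 1 * (q : ℚ) ^ k) * (M 1 0 * (q : ℚ) ^ k)
        = (M 0 0 * M 1 1 - M 0 1 * M 1 0) * (q : ℚ) ^ (2 * k) := by ring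
    rw [e, hdet, one_mul]
  exact_mod_cast this

/-- one step of the descent: after multiplication by an `ι`-letter and a `κ`-letter the height
drops by one -/
theorem descent_step (N q : ℕ) (hq : q.Prime) (hNq : Nat.Coprime N q) (k : ℕ) (M : SL(2, ℚ))
    (A : Matrix (Fin 2) (Fin 2) ℤ) (hA : IsRep q (k + 1) M A) (hN : (N : ℤ) ∣ A 1 0) :
    ∃ γ₁ ∈ Gamma0 N, ∃ γ₂ ∈ Gamma0 N, ∃ A'' : Matrix (Fin 2) (Fin 2) ℤ,
      IsRep q k (kappaQ q hq.ne_zero γ₂ * (iotaQ γ₁ * M)) A'' ∧ (N : ℤ) ∣ A'' 1 0 := by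
  have hq' : (q : ℚ) ≠ 0 := by exact_mod_cast hq.ne_zero
  have hqZ : (q : ℤ) ≠ 0 := by exact_mod_cast hq.ne_zero
  have hcop : IsCoprime (N : ℤ) (q : ℤ) := by exact_mod_cast Nat.isCoprime_iff_coprime.2 hNq
  have hdetA := isRep_det hA
  have hqdet : (q : ℤ) ∣ A 0 0 * A 1 1 - A 0 1 * A 1 0 := by
    rw [hdetA, show 2 * (k + 1) = (2 * k + 1) + 1 by ring, pow_succ]
    exact dvd_mul_left _ _
  -- step 1
  obtain ⟨c₀, d₀, hcd, hk1, hk2⟩ := exists_kernel_vector q hq (A 0 0) (A 0 1) (A 1 0) (A 1 1) hqdet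
  obtain ⟨γ₁, hγ₁, hlift₁⟩ := bottom_lift N q hq hNq c₀ d₀ hcd
  obtain ⟨z₁, hz₁⟩ := hlift₁ _ _ hk1
  obtain ⟨w₁, hw₁⟩ := hlift₁ _ _ hk2
  set x₁ : ℤ := γ₁ 0 0 * A 0 0 + γ₁ 0 1 * A 1 0 with hx₁
  set y₁ : ℤ := γ₁ 0 0 * A 0 1 + γ₁ 0 1 * A 1 1 with hy₁
  have hγ₁det := sl2_det_eq γ₁
  have hγ₁N : (N : ℤ) ∣ γ₁ 1 0 := gamma0_mem_iff_dvd.1 hγ₁
  -- the representation of `M₁ = ι γ₁ M`
  have hM₁ : ∀ i j, ((iotaQ γ₁ * M : SL(2, ℚ)) i j : ℚ) * (q : ℚ) ^ (k + 1)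
      = ((γ₁ i 0 * A 0 j + γ₁ i 1 * A 1 j : ℤ) : ℚ) := by
    intro i j
    rw [sl2Q_mul_apply, iotaQ_apply, iotaQ_apply]
    push_cast
    rw [← hA 0 j, ← hA 1 j]
    ring
  have hNz₁ : (N : ℤ) ∣ z₁ := by
    have : (N : ℤ) ∣ (q : ℤ) * z₁ := by
      rw [← hz₁]
      exact dvd_add (Dvd.dvd.mul_right hγ₁N _) (Dvd.dvd.mul_left hN _)
    exact hcop.dvd_of_dvd_mul_left this
  have hdet₁ : x₁ * w₁ - y₁ * z₁ = (q : ℤ) ^ (2 * k + 1) := by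
    have e : (q : ℤ) * (x₁ * w₁ - y₁ * z₁) = (q : ℤ) * (q : ℤ) ^ (2 * k + 1) := by
      calc (q : ℤ) * (x₁ * w₁ - y₁ * z₁)
          = x₁ * ((q : ℤ) * w₁) - y₁ * ((q : ℤ) * z₁) := by ring
        _ = x₁ * (γ₁ 1 0 * A 0 1 + γ₁ 1 1 * A 1 1) - y₁ * (γ₁ 1 0 * A 0 0 + γ₁ 1 1 * A 1 0) := by
            rw [hw₁, hz₁]
        _ = (γ₁ 0 0 * γ₁ 1 1 - γ₁ 0 1 * γ₁ 1 0) * (A 0 0 * A 1 1 - A 0 1 * A 1 0) := by
            rw [hx₁, hy₁]; ring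
        _ = (q : ℤ) * (q : ℤ) ^ (2 * k + 1) := by
            rw [hγ₁det, hdetA, one_mul, show 2 * (k + 1) = (2 * k + 1) + 1 by ring, pow_succ]
            ring
    exact mul_left_cancel₀ hqZ e
  have hqdet₁ : (q : ℤ) ∣ x₁ * w₁ - y₁ * z₁ := by
    rw [hdet₁, pow_succ]
    exact dvd_mul_left _ _
  -- step 2
  obtain ⟨a₀, b₀, hab, hk3, hk4⟩ := exists_kernel_vector q hq x₁ y₁ z₁ w₁ hqdet₁
  obtain ⟨γ₂, hγ₂, hlift₂⟩ := top_lift N q hq hNq a₀ b₀ hab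
  obtain ⟨x₂, hx₂⟩ := hlift₂ _ _ hk3
  obtain ⟨y₂, hy₂⟩ := hlift₂ _ _ hk4
  have hγ₂N : (N : ℤ) ∣ γ₂ 1 0 := gamma0_mem_iff_dvd.1 hγ₂
  refine ⟨γ₁, hγ₁, γ₂, hγ₂,
    !![x₂, y₂; γ₂ 1 0 * x₁ + γ₂ 1 1 * z₁, γ₂ 1 0 * y₁ + γ₂ 1 1 * w₁], ?_, ?_⟩
  · -- the four entries
    have h00 := hM₁ 0 0
    have h01 := hM₁ 0 1
    have h10 := hM₁ 1 0
    have h11 := hM₁ 1 1
    rw [← hx₁] at h00
    rw [← hy₁] at h01
    rw [hz₁] at h10
    rw [hw₁] at h11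
    have hx₂' : ((γ₂ 0 0 : ℤ) : ℚ) * x₁ + (γ₂ 0 1 : ℤ) * z₁ = (q : ℚ) * x₂ := by
      exact_mod_cast hx₂
    have hy₂' : ((γ₂ 0 0 : ℤ) : ℚ) * y₁ + (γ₂ 0 1 : ℤ) * w₁ = (q : ℚ) * y₂ := by
      exact_mod_cast hy₂
    push_cast at h10 h11
    intro i j
    rw [sl2Q_mul_apply, kappaQ_apply]
    apply mul_right_cancel₀ hq'
    fin_cases i <;> fin_cases j
    · show (kappaMat q γ₂ 0 0 * (iotaQ γ₁ * M : SL(2, ℚ)) 0 0
          + kappaMat q γ₂ 0 1 * (iotaQ γ₁ * M : SL(2, ℚ)) 1 0) * (q : ℚ) ^ k * (q : ℚ)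
          = ((x₂ : ℤ) : ℚ) * (q : ℚ)
      rw [kappaMat_apply_zero_zero, kappaMat_apply_zero_one]
      calc ((γ₂ 0 0 : ℚ) * (iotaQ γ₁ * M : SL(2, ℚ)) 0 0
            + (γ₂ 0 1 : ℚ) / (q : ℚ) * (iotaQ γ₁ * M : SL(2, ℚ)) 1 0) * (q : ℚ) ^ k * (q : ℚ)
          = (γ₂ 0 0 : ℚ) * ((iotaQ γ₁ * M : SL(2, ℚ)) 0 0 * (q : ℚ) ^ (k + 1))
            + (γ₂ 0 1 : ℚ) / (q : ℚ) * ((iotaQ γ₁ * M : SL(2, ℚ)) 1 0 * (q : ℚ) ^ (k + 1)) := by
            ring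
        _ = (γ₂ 0 0 : ℚ) * x₁ + (γ₂ 0 1 : ℚ) * z₁ := by
            rw [h00, h10]; field_simp
        _ = ((x₂ : ℤ) : ℚ) * (q : ℚ) := by rw [hx₂']; ring
    · show (kappaMat q γ₂ 0 0 * (iotaQ γ₁ * M : SL(2, ℚ)) 0 1
          + kappaMat q γ₂ 0 1 * (iotaQ γ₁ * M : SL(2, ℚ)) 1 1) * (q : ℚ) ^ k * (q : ℚ)
          = ((y₂ : ℤ) : ℚ) * (q : ℚ)
      rw [kappaMat_apply_zero_zero, kappaMat_apply_zero_one]
      calc ((γ₂ 0 0 : ℚ) * (iotaQ γ₁ * M : SL(2, ℚ)) 0 1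
            + (γ₂ 0 1 : ℚ) / (q : ℚ) * (iotaQ γ₁ * M : SL(2, ℚ)) 1 1) * (q : ℚ) ^ k * (q : ℚ)
          = (γ₂ 0 0 : ℚ) * ((iotaQ γ₁ * M : SL(2, ℚ)) 0 1 * (q : ℚ) ^ (k + 1))
            + (γ₂ 0 1 : ℚ) / (q : ℚ) * ((iotaQ γ₁ * M : SL(2, ℚ)) 1 1 * (q : ℚ) ^ (k + 1)) := by
            ring
        _ = (γ₂ 0 0 : ℚ) * y₁ + (γ₂ 0 1 : ℚ) * w₁ := by
            rw [h01, h11]; field_simp
        _ = ((y₂ : ℤ) : ℚ) * (q : ℚ) := by rw [hy₂']; ring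
    · show (kappaMat q γ₂ 1 0 * (iotaQ γ₁ * M : SL(2, ℚ)) 0 0
          + kappaMat q γ₂ 1 1 * (iotaQ γ₁ * M : SL(2, ℚ)) 1 0) * (q : ℚ) ^ k * (q : ℚ)
          = ((γ₂ 1 0 * x₁ + γ₂ 1 1 * z₁ : ℤ) : ℚ) * (q : ℚ)
      rw [kappaMat_apply_one_zero, kappaMat_apply_one_one]
      push_cast
      calc ((q : ℚ) * (γ₂ 1 0 : ℚ) * (iotaQ γ₁ * M : SL(2, ℚ)) 0 0
            + (γ₂ 1 1 : ℚ) * (iotaQ γ₁ * M : SL(2, ℚ)) 1 0) * (q : ℚ) ^ k * (q : ℚ)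
          = (q : ℚ) * (γ₂ 1 0 : ℚ) * ((iotaQ γ₁ * M : SL(2, ℚ)) 0 0 * (q : ℚ) ^ (k + 1))
            + (γ₂ 1 1 : ℚ) * ((iotaQ γ₁ * M : SL(2, ℚ)) 1 0 * (q : ℚ) ^ (k + 1)) := by
            ring
        _ = ((γ₂ 1 0 : ℚ) * x₁ + (γ₂ 1 1 : ℚ) * z₁) * (q : ℚ) := by
            rw [h00, h10]; ring
    · show (kappaMat q γ₂ 1 0 * (iotaQ γ₁ * M : SL(2, ℚ)) 0 1
          + kappaMat q γ₂ 1 1 * (iotaQ γ₁ * M : SL(2, ℚ)) 1 1) * (q : ℚ) ^ k * (q : ℚ)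
          = ((γ₂ 1 0 * y₁ + γ₂ 1 1 * w₁ : ℤ) : ℚ) * (q : ℚ)
      rw [kappaMat_apply_one_zero, kappaMat_apply_one_one]
      push_cast
      calc ((q : ℚ) * (γ₂ 1 0 : ℚ) * (iotaQ γ₁ * M : SL(2, ℚ)) 0 1
            + (γ₂ 1 1 : ℚ) * (iotaQ γ₁ * M : SL(2, ℚ)) 1 1) * (q : ℚ) ^ k * (q : ℚ)
          = (q : ℚ) * (γ₂ 1 0 : ℚ) * ((iotaQ γ₁ * M : SL(2, ℚ)) 0 1 * (q : ℚ) ^ (k + 1))
            + (γ₂ 1 1 : ℚ) * ((iotaQ γ₁ * M : SL(2, ℚ)) 1 1 * (q : ℚ) ^ (k + 1)) := by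
            ring
        _ = ((γ₂ 1 0 : ℚ) * y₁ + (γ₂ 1 1 : ℚ) * w₁) * (q : ℚ) := by
            rw [h01, h11]; ring
  · show (N : ℤ) ∣ γ₂ 1 0 * x₁ + γ₂ 1 1 * z₁
    exact dvd_add (Dvd.dvd.mul_right hγ₂N _) (Dvd.dvd.mul_left hNz₁ _)

/-! ### Generation -/

theorem iota_mem_range (N q : ℕ) (hq : q ≠ 0) (γ : SL(2, ℤ)) (hγ : γ ∈ Gamma0 N) :
    iotaQ γ ∈ (amalgamMap N q hq).range :=
  ⟨Monoid.PushoutI.of (φ := amPhi N q hq) false ⟨γ, hγ⟩, by rw [amalgamMap_of]; rfl⟩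

theorem kappa_mem_range (N q : ℕ) (hq : q ≠ 0) (γ : SL(2, ℤ)) (hγ : γ ∈ Gamma0 N) :
    kappaQ q hq γ ∈ (amalgamMap N q hq).range :=
  ⟨Monoid.PushoutI.of (φ := amPhi N q hq) true ⟨γ, hγ⟩, by rw [amalgamMap_of]; rfl⟩

theorem mem_range_of_isRep (N q : ℕ) (hq : q.Prime) (hNq : Nat.Coprime N q) :
    ∀ (k : ℕ) (M : SL(2, ℚ)) (A : Matrix (Fin 2) (Fin 2) ℤ), IsRep q k M A → (N : ℤ) ∣ A 1 0 →
      M ∈ (amalgamMap N q hq.ne_zero).range := by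
  intro k
  induction k with
  | zero =>
    intro M A hA hN
    have hdet : A.det = 1 := by
      rw [Matrix.det_fin_two]
      have := isRep_det hA
      simpa using this
    obtain ⟨γ, hγ⟩ : ∃ γ : SL(2, ℤ), (γ : Matrix (Fin 2) (Fin 2) ℤ) = A := ⟨⟨A, hdet⟩, rfl⟩
    have hM : M = iotaQ γ := by
      apply Matrix.SpecialLinearGroup.ext
      intro i j
      rw [iotaQ_apply, hγ]
      have := hA i j
      rw [pow_zero, mul_one] at this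
      exact this
    rw [hM]
    refine iota_mem_range N q hq.ne_zero _ (gamma0_mem_iff_dvd.2 ?_)
    rw [hγ]
    exact hN
  | succ k ih =>
    intro M A hA hN
    obtain ⟨γ₁, hγ₁, γ₂, hγ₂, A'', hA'', hN''⟩ := descent_step N q hq hNq k M A hA hN
    have h := ih _ A'' hA'' hN''
    have h1 := iota_mem_range N q hq.ne_zero γ₁ hγ₁
    have h2 := kappa_mem_range N q hq.ne_zero γ₂ hγ₂
    have e : M = (iotaQ γ₁)⁻¹ * ((kappaQ q hq.ne_zero γ₂)⁻¹ *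
        (kappaQ q hq.ne_zero γ₂ * (iotaQ γ₁ * M))) := by
      group
    rw [e]
    exact Subgroup.mul_mem _ (Subgroup.inv_mem _ h1)
      (Subgroup.mul_mem _ (Subgroup.inv_mem _ h2) h)

/-- **Ihara's amalgam, generation**: the image of `Γ₀(N) *_{Γ₀(N q)} Γ₀(N)` in `SL(2, ℚ)` is
`Γ₀(N)[1/q]`. -/
theorem range_amalgamMap (N q : ℕ) (hq : q.Prime) (hNq : Nat.Coprime N q) :
    (amalgamMap N q hq.ne_zero).range = gamma0Inv N q := by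
  apply le_antisymm (range_amalgamMap_le N q hq.ne_zero)
  rintro M ⟨k, A, hA, hN⟩
  exact mem_range_of_isRep N q hq hNq k M A hA hN

/-- `Γ₀(N)[1/q]` is generated by `ι Γ₀(N)` and `κ Γ₀(N)` -/
theorem gamma0Inv_eq_closure (N q : ℕ) (hq : q.Prime) (hNq : Nat.Coprime N q) :
    gamma0Inv N q = Subgroup.closure
      ((fun γ : Gamma0 N => iotaQ (γ : SL(2, ℤ))) '' Set.univ ∪
        (fun γ : Gamma0 N => kappaQ q hq.ne_zero (γ : SL(2, ℤ))) '' Set.univ) := by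
  apply le_antisymm
  · rw [← range_amalgamMap N q hq hNq]
    rintro _ ⟨x, rfl⟩
    induction x using Monoid.PushoutI.induction_on with
    | of i g =>
      rw [amalgamMap_of]
      apply Subgroup.subset_closure
      cases i
      · exact Or.inl ⟨g, trivial, rfl⟩
      · exact Or.inr ⟨g, trivial, rfl⟩
    | base h =>
      rw [amalgamMap_base]
      apply Subgroup.subset_closure
      exact Or.inl ⟨jOne N q h, trivial, rfl⟩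
    | mul x y hx hy =>
      rw [map_mul]
      exact Subgroup.mul_mem _ hx hy
  · rw [Subgroup.closure_le]
    rintro _ (⟨γ, -, rfl⟩ | ⟨γ, -, rfl⟩)
    · exact iota_mem_gamma0Inv N q γ
    · exact kappa_mem_gamma0Inv N q hq.ne_zero γ

/-! ### The isomorphism and the gluing theorem -/

/-- `Γ₀(N) → Γ₀(N)[1/q]`, the inclusion -/
def iotaD (N q : ℕ) : Gamma0 N →* gamma0Inv N q where
  toFun γ := ⟨iotaQ (γ : SL(2, ℤ)), iota_mem_gamma0Inv N q γ⟩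
  map_one' := by apply Subtype.ext; simp
  map_mul' γ γ' := by apply Subtype.ext; simp

/-- `Γ₀(N) → Γ₀(N)[1/q]`, `γ ↦ g⁻¹ γ g` -/
def kappaD (N q : ℕ) (hq : q ≠ 0) : Gamma0 N →* gamma0Inv N q where
  toFun γ := ⟨kappaQ q hq (γ : SL(2, ℤ)), kappa_mem_gamma0Inv N q hq γ⟩
  map_one' := by apply Subtype.ext; simp
  map_mul' γ γ' := by apply Subtype.ext; simp

@[simp] theorem iotaD_coe (N q : ℕ) (γ : Gamma0 N) :
    ((iotaD N q γ : gamma0Inv N q) : SL(2, ℚ)) = iotaQ (γ : SL(2, ℤ)) := rfl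

@[simp] theorem kappaD_coe (N q : ℕ) (hq : q ≠ 0) (γ : Gamma0 N) :
    ((kappaD N q hq γ : gamma0Inv N q) : SL(2, ℚ)) = kappaQ q hq (γ : SL(2, ℤ)) := rfl

theorem iotaD_jOne (N q : ℕ) (hq : q ≠ 0) (γ : Gamma0 (N * q)) :
    iotaD N q (jOne N q γ) = kappaD N q hq (jTwo N q hq γ) := by
  apply Subtype.ext
  rw [iotaD_coe, kappaD_coe, kappaQ_jTwo]
  rfl

/-- **Ihara's amalgam**: `Γ₀(N) *_{Γ₀(N q)} Γ₀(N) ≃* Γ₀(N)[1/q]` -/
noncomputable def amalgamEquiv (N q : ℕ) (hq : q.Prime) (hNq : Nat.Coprime N q) :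
    Amalgam N q hq.ne_zero ≃* gamma0Inv N q :=
  (MonoidHom.ofInjective (amalgamMap_injective N q hq hNq)).trans
    (MulEquiv.subgroupCongr (range_amalgamMap N q hq hNq))

theorem amalgamEquiv_coe (N q : ℕ) (hq : q.Prime) (hNq : Nat.Coprime N q)
    (x : Amalgam N q hq.ne_zero) :
    ((amalgamEquiv N q hq hNq x : gamma0Inv N q) : SL(2, ℚ)) = amalgamMap N q hq.ne_zero x := rfl

theorem amalgamEquiv_of_false (N q : ℕ) (hq : q.Prime) (hNq : Nat.Coprime N q) (γ : Gamma0 N) :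
    amalgamEquiv N q hq hNq (Monoid.PushoutI.of (φ := amPhi N q hq.ne_zero) false γ)
      = iotaD N q γ := by
  apply Subtype.ext
  rw [amalgamEquiv_coe, amalgamMap_of]
  rfl

theorem amalgamEquiv_of_true (N q : ℕ) (hq : q.Prime) (hNq : Nat.Coprime N q) (γ : Gamma0 N) :
    amalgamEquiv N q hq hNq (Monoid.PushoutI.of (φ := amPhi N q hq.ne_zero) true γ)
      = kappaD N q hq.ne_zero γ := by
  apply Subtype.ext
  rw [amalgamEquiv_coe, amalgamMap_of]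
  rfl

/-- two homomorphisms on `Γ₀(N)[1/q]` which agree on `ι Γ₀(N)` and on `κ Γ₀(N)` are equal -/
theorem gamma0Inv_hom_ext (N q : ℕ) (hq : q.Prime) (hNq : Nat.Coprime N q)
    {F : Type*} [Monoid F] {Φ Φ' : gamma0Inv N q →* F}
    (h₁ : ∀ γ : Gamma0 N, Φ (iotaD N q γ) = Φ' (iotaD N q γ))
    (h₂ : ∀ γ : Gamma0 N, Φ (kappaD N q hq.ne_zero γ) = Φ' (kappaD N q hq.ne_zero γ)) :
    Φ = Φ' := by
  have key : Φ.comp (amalgamEquiv N q hq hNq).toMonoidHom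
      = Φ'.comp (amalgamEquiv N q hq hNq).toMonoidHom := by
    apply Monoid.PushoutI.hom_ext_nonempty
    intro b
    ext1 γ
    cases b
    · show Φ (amalgamEquiv N q hq hNq (Monoid.PushoutI.of false γ))
        = Φ' (amalgamEquiv N q hq hNq (Monoid.PushoutI.of false γ))
      rw [amalgamEquiv_of_false]
      exact h₁ γ
    · show Φ (amalgamEquiv N q hq hNq (Monoid.PushoutI.of true γ))
        = Φ' (amalgamEquiv N q hq hNq (Monoid.PushoutI.of true γ))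
      rw [amalgamEquiv_of_true]
      exact h₂ γ
  ext1 M
  obtain ⟨x, rfl⟩ := (amalgamEquiv N q hq hNq).surjective M
  exact DFunLike.congr_fun key x

/-- the glued homomorphism on the amalgam -/
def glueLift (N q : ℕ) (hq : q ≠ 0) {F : Type*} [Monoid F] (φ₁ φ₂ : Gamma0 N →* F)
    (h : ∀ γ : Gamma0 (N * q), φ₁ (jOne N q γ) = φ₂ (jTwo N q hq γ)) :
    Amalgam N q hq →* F :=
  Monoid.PushoutI.lift (φ := amPhi N q hq) (fun b => cond b φ₂ φ₁)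
    (φ₁.comp (jOne N q)) (by
      intro b
      cases b
      · rfl
      · ext1 γ
        exact (h γ).symm)

theorem glueLift_of_false (N q : ℕ) (hq : q ≠ 0) {F : Type*} [Monoid F] (φ₁ φ₂ : Gamma0 N →* F)
    (h : ∀ γ : Gamma0 (N * q), φ₁ (jOne N q γ) = φ₂ (jTwo N q hq γ)) (γ : Gamma0 N) :
    glueLift N q hq φ₁ φ₂ h (Monoid.PushoutI.of (φ := amPhi N q hq) false γ) = φ₁ γ :=
  Monoid.PushoutI.lift_of _ _ _ _

theorem glueLift_of_true (N q : ℕ) (hq : q ≠ 0) {F : Type*} [Monoid F] (φ₁ φ₂ : Gamma0 N →* F)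
    (h : ∀ γ : Gamma0 (N * q), φ₁ (jOne N q γ) = φ₂ (jTwo N q hq γ)) (γ : Gamma0 N) :
    glueLift N q hq φ₁ φ₂ h (Monoid.PushoutI.of (φ := amPhi N q hq) true γ) = φ₂ γ :=
  Monoid.PushoutI.lift_of _ _ _ _

/-- the glued homomorphism -/
noncomputable def glue (N q : ℕ) (hq : q.Prime) (hNq : Nat.Coprime N q)
    {F : Type*} [Monoid F] (φ₁ φ₂ : Gamma0 N →* F)
    (h : ∀ γ : Gamma0 (N * q), φ₁ (jOne N q γ) = φ₂ (jTwo N q hq.ne_zero γ)) :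
    gamma0Inv N q →* F :=
  (glueLift N q hq.ne_zero φ₁ φ₂ h).comp (amalgamEquiv N q hq hNq).symm.toMonoidHom

theorem glue_amalgamEquiv (N q : ℕ) (hq : q.Prime) (hNq : Nat.Coprime N q)
    {F : Type*} [Monoid F] (φ₁ φ₂ : Gamma0 N →* F)
    (h : ∀ γ : Gamma0 (N * q), φ₁ (jOne N q γ) = φ₂ (jTwo N q hq.ne_zero γ))
    (x : Amalgam N q hq.ne_zero) :
    glue N q hq hNq φ₁ φ₂ h (amalgamEquiv N q hq hNq x) = glueLift N q hq.ne_zero φ₁ φ₂ h x := by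
  show glueLift N q hq.ne_zero φ₁ φ₂ h ((amalgamEquiv N q hq hNq).symm
    (amalgamEquiv N q hq hNq x)) = _
  rw [MulEquiv.symm_apply_apply]

theorem glue_iotaD (N q : ℕ) (hq : q.Prime) (hNq : Nat.Coprime N q)
    {F : Type*} [Monoid F] (φ₁ φ₂ : Gamma0 N →* F)
    (h : ∀ γ : Gamma0 (N * q), φ₁ (jOne N q γ) = φ₂ (jTwo N q hq.ne_zero γ)) (γ : Gamma0 N) :
    glue N q hq hNq φ₁ φ₂ h (iotaD N q γ) = φ₁ γ := by
  rw [← amalgamEquiv_of_false N q hq hNq, glue_amalgamEquiv, glueLift_of_false]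

theorem glue_kappaD (N q : ℕ) (hq : q.Prime) (hNq : Nat.Coprime N q)
    {F : Type*} [Monoid F] (φ₁ φ₂ : Gamma0 N →* F)
    (h : ∀ γ : Gamma0 (N * q), φ₁ (jOne N q γ) = φ₂ (jTwo N q hq.ne_zero γ)) (γ : Gamma0 N) :
    glue N q hq hNq φ₁ φ₂ h (kappaD N q hq.ne_zero γ) = φ₂ γ := by
  rw [← amalgamEquiv_of_true N q hq hNq, glue_amalgamEquiv, glueLift_of_true]

/-- **Ihara's amalgam, gluing form** (step (I1) of the S41 route): for `q` prime, `N` prime to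
`q` and any monoid `F`, two homomorphisms `φ₁, φ₂ : Γ₀(N) → F` with `φ₁ ∘ j₁ = φ₂ ∘ j₂` on
`Γ₀(N q)` extend to a unique homomorphism `Φ : Γ₀(N)[1/q] → F` with `Φ ∘ ι = φ₁` and
`Φ ∘ κ = φ₂`. -/
theorem ihara_glue (N q : ℕ) (hq : q.Prime) (hNq : Nat.Coprime N q)
    {F : Type*} [Monoid F] (φ₁ φ₂ : Gamma0 N →* F)
    (h : ∀ γ : Gamma0 (N * q), φ₁ (jOne N q γ) = φ₂ (jTwo N q hq.ne_zero γ)) :
    ∃! Φ : gamma0Inv N q →* F,
      (∀ γ : Gamma0 N, Φ (iotaD N q γ) = φ₁ γ) ∧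
      (∀ γ : Gamma0 N, Φ (kappaD N q hq.ne_zero γ) = φ₂ γ) := by
  refine ⟨glue N q hq hNq φ₁ φ₂ h,
    ⟨glue_iotaD N q hq hNq φ₁ φ₂ h, glue_kappaD N q hq hNq φ₁ φ₂ h⟩, ?_⟩
  rintro Φ ⟨h₁, h₂⟩
  apply gamma0Inv_hom_ext N q hq hNq
  · intro γ
    rw [h₁, glue_iotaD]
  · intro γ
    rw [h₂, glue_kappaD]

/-- conversely, the restrictions of a homomorphism on `Γ₀(N)[1/q]` are compatible -/
theorem restrict_compatible (N q : ℕ) (hq : q ≠ 0) {F : Type*} [Monoid F]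
    (Φ : gamma0Inv N q →* F) (γ : Gamma0 (N * q)) :
    (Φ.comp (iotaD N q)) (jOne N q γ) = (Φ.comp (kappaD N q hq)) (jTwo N q hq γ) := by
  show Φ (iotaD N q (jOne N q γ)) = Φ (kappaD N q hq (jTwo N q hq γ))
  rw [iotaD_jOne N q hq]

end Fermat.Agent.P6.helper77
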