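import Mathlib
import Fermat.Agent.P6.helper62_HeckeTransfer
import Fermat.Agent.P6.helper77_AmalgamGen
import Fermat.Agent.S16.helper26_HeckeFun

/-!
# P6 / S41 [HB2]: `b1 a1 = b2 a2 = r + 1`, `b1 a2 = T_r = b2 a1` (helper62)

For a prime `r ∤ M` the group `Γ₀(M)` acts transitively on `ℙ¹(𝔽_r)` through the permutations of
`helper26.systemT M r`; the stabiliser of `∞` is `range jOne = Γ₀(M r)` with step `jTwo`, the
stabiliser of `0` is `range jTwo` with step `jOne`.  Hence the four identities of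
`helper4.HB2Statement` by `StepSystem.push_eq_sum_step` / `push_pull_eq_card_smul`.

* `hb2Statement : helper4.HB2Statement` (VERBATIM, unconditional);
* `hb2` : the same for coefficient groups in any universe;
* `systemT_transitive`, `mem_range_jOne_iff_perm`, `mem_range_jTwo_iff_perm`,
  `systemT_jOne_infty`, `systemT_jTwo_zero`, `rel_of_entries`, `ofCosetSystem`.
-/

set_option autoImplicit false
set_option linter.unusedSectionVars false
set_option linter.unusedVariables false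
set_option linter.style.longLine false
set_option linter.style.haveILetI false

open Matrix Matrix.SpecialLinearGroup CongruenceSubgroup
open scoped MatrixGroups

namespace Fermat.Agent.P6.helper62

open Fermat.Agent.P6.helper77 Fermat.Agent.S16.helper26 Fermat.Agent.P6.helper4
open P2MW.S_ModularForm_heckeT_slash_eq_self_of_mem_Gamma0.ModularForm.HeckeSlashInvariance
open ModularForm

/-- The `StepSystem` of a `helper26.CosetSystem`. -/
noncomputable def ofCosetSystem {Γ : Subgroup SL(2, ℤ)} {ι : Type*} (C : CosetSystem Γ ι) :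
    StepSystem Γ ι where
  perm := C.perm
  step := C.step
  perm_one := C.perm_one
  perm_mul g h i := (C.perm_mul g h i).1
  step_mul g h i := (C.perm_mul g h i).2

@[simp] theorem ofCosetSystem_perm {Γ : Subgroup SL(2, ℤ)} {ι : Type*} (C : CosetSystem Γ ι)
    (g : Γ) (i : ι) : (ofCosetSystem C).perm g i = C.perm g i := rfl

@[simp] theorem ofCosetSystem_step {Γ : Subgroup SL(2, ℤ)} {ι : Type*} (C : CosetSystem Γ ι)
    (g : Γ) (i : ι) : (ofCosetSystem C).step g i = C.step g i := rfl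

/-- Converse of `helper26.entries_of_rel`. -/
theorem rel_of_entries {α β : GL (Fin 2) ℝ} {g g' : SL(2, ℤ)} {a b d a' b' d' : ℤ}
    (hα : (α : Matrix (Fin 2) (Fin 2) ℝ) = !![(a : ℝ), (b : ℝ); 0, (d : ℝ)])
    (hβ : (β : Matrix (Fin 2) (Fin 2) ℝ) = !![(a' : ℝ), (b' : ℝ); 0, (d' : ℝ)])
    (e1 : a * g 0 0 + b * g 1 0 = g' 0 0 * a') (e2 : d * g 1 0 = g' 1 0 * a')
    (e3 : a * g 0 1 + b * g 1 1 = g' 0 0 * b' + g' 0 1 * d')
    (e4 : d * g 1 1 = g' 1 0 * b' + g' 1 1 * d') :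
    α * mapGL ℝ g = mapGL ℝ g' * β := by
  apply Units.ext
  rw [Units.val_mul, Units.val_mul, hα, hβ]
  ext i j
  fin_cases i <;> fin_cases j <;> simp [Matrix.mul_apply, Fin.sum_univ_two]
  · exact_mod_cast e1
  · exact_mod_cast e3
  · exact_mod_cast e2
  · exact_mod_cast e4

variable (M r : ℕ) [Fact r.Prime] (hrM : ¬ r ∣ M)

theorem val_heckeRep_infty :
    ((heckeRep r (OnePoint.infty) : GL (Fin 2) ℝ) : Matrix (Fin 2) (Fin 2) ℝ) =
      !![((r : ℤ) : ℝ), ((0 : ℤ) : ℝ); 0, ((1 : ℤ) : ℝ)] := by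
  show ((heckeDiagMatrix r : GL (Fin 2) ℝ) : Matrix (Fin 2) (Fin 2) ℝ) = _
  rw [val_heckeDiagMatrix (Fact.out : r.Prime).ne_zero]; simp

theorem val_heckeRep_coe (j : ZMod r) :
    ((heckeRep r (j : OnePoint (ZMod r)) : GL (Fin 2) ℝ) : Matrix (Fin 2) (Fin 2) ℝ) =
      !![((1 : ℤ) : ℝ), ((j.val : ℤ) : ℝ); 0, ((r : ℤ) : ℝ)] := by
  show ((heckeMatrix r j.val : GL (Fin 2) ℝ) : Matrix (Fin 2) (Fin 2) ℝ) = _
  rw [val_heckeMatrix (Fact.out : r.Prime).ne_zero]; simp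

/-! ### The stabiliser of `∞` is `range jOne`, with step `jTwo` -/

theorem systemT_jOne_infty (γ' : Gamma0 (M * r)) :
    (systemT M r hrM).perm (jOne M r γ') OnePoint.infty = OnePoint.infty ∧
      (systemT M r hrM).step (jOne M r γ') OnePoint.infty =
        jTwo M r (Fact.out : r.Prime).ne_zero γ' := by
  have hdvd : (r : ℤ) ∣ (γ' : SL(2, ℤ)) 1 0 := dvd_of_mem_gamma0_mul γ'.2
  have h : (systemT M r hrM).α OnePoint.infty * mapGL ℝ ((jOne M r γ' : Gamma0 M) : SL(2, ℤ)) =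
      mapGL ℝ ((jTwo M r (Fact.out : r.Prime).ne_zero γ' : Gamma0 M) : SL(2, ℤ)) *
        (systemT M r hrM).α OnePoint.infty := by
    refine rel_of_entries (val_heckeRep_infty r) (val_heckeRep_infty r) ?_ ?_ ?_ ?_
    · show (r : ℤ) * (γ' : SL(2, ℤ)) 0 0 + 0 * (γ' : SL(2, ℤ)) 1 0 = (γ' : SL(2, ℤ)) 0 0 * r
      ring
    · show (1 : ℤ) * (γ' : SL(2, ℤ)) 1 0 = ((γ' : SL(2, ℤ)) 1 0 / (r : ℤ)) * r
      rw [one_mul, Int.ediv_mul_cancel hdvd]
    · show (r : ℤ) * (γ' : SL(2, ℤ)) 0 1 + 0 * (γ' : SL(2, ℤ)) 1 1 =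
        (γ' : SL(2, ℤ)) 0 0 * 0 + ((r : ℤ) * (γ' : SL(2, ℤ)) 0 1) * 1
      ring
    · show (1 : ℤ) * (γ' : SL(2, ℤ)) 1 1 =
        ((γ' : SL(2, ℤ)) 1 0 / (r : ℤ)) * 0 + (γ' : SL(2, ℤ)) 1 1 * 1
      ring
  obtain ⟨h1, h2⟩ := (systemT M r hrM).unique h
  exact ⟨h1.symm, h2.symm⟩

theorem mem_range_jOne_of_perm (hcop : Nat.Coprime M r) (γ : Gamma0 M)
    (h : (systemT M r hrM).perm γ OnePoint.infty = OnePoint.infty) : γ ∈ (jOne M r).range := by
  have hrel := (systemT M r hrM).rel γ OnePoint.infty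
  rw [h] at hrel
  obtain ⟨-, e2, -, -⟩ := entries_of_rel (val_heckeRep_infty r) (val_heckeRep_infty r) hrel
  rw [mem_range_jOne_iff M r hcop]
  rw [one_mul] at e2
  exact ⟨_, e2.trans (mul_comm _ _)⟩

theorem mem_range_jOne_iff_perm (hcop : Nat.Coprime M r) (γ : Gamma0 M) :
    γ ∈ (jOne M r).range ↔ (systemT M r hrM).perm γ OnePoint.infty = OnePoint.infty := by
  constructor
  · rintro ⟨γ', rfl⟩
    exact (systemT_jOne_infty M r hrM γ').1
  · exact mem_range_jOne_of_perm M r hrM hcop γ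

/-! ### The stabiliser of `0` is `range jTwo`, with step `jOne` -/

theorem systemT_jTwo_zero (γ' : Gamma0 (M * r)) :
    (systemT M r hrM).perm (jTwo M r (Fact.out : r.Prime).ne_zero γ')
        ((0 : ZMod r) : OnePoint (ZMod r)) = ((0 : ZMod r) : OnePoint (ZMod r)) ∧
      (systemT M r hrM).step (jTwo M r (Fact.out : r.Prime).ne_zero γ')
        ((0 : ZMod r) : OnePoint (ZMod r)) = jOne M r γ' := by
  have hdvd : (r : ℤ) ∣ (γ' : SL(2, ℤ)) 1 0 := dvd_of_mem_gamma0_mul γ'.2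
  have h0 := val_heckeRep_coe r (0 : ZMod r)
  rw [ZMod.val_zero] at h0
  have h : (systemT M r hrM).α ((0 : ZMod r) : OnePoint (ZMod r)) *
      mapGL ℝ ((jTwo M r (Fact.out : r.Prime).ne_zero γ' : Gamma0 M) : SL(2, ℤ)) =
      mapGL ℝ ((jOne M r γ' : Gamma0 M) : SL(2, ℤ)) *
        (systemT M r hrM).α ((0 : ZMod r) : OnePoint (ZMod r)) := by
    refine rel_of_entries h0 h0 ?_ ?_ ?_ ?_
    · show (1 : ℤ) * (γ' : SL(2, ℤ)) 0 0 + ((0 : ℕ) : ℤ) * ((γ' : SL(2, ℤ)) 1 0 / (r : ℤ)) =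
        (γ' : SL(2, ℤ)) 0 0 * 1
      push_cast; ring
    · show (r : ℤ) * ((γ' : SL(2, ℤ)) 1 0 / (r : ℤ)) = (γ' : SL(2, ℤ)) 1 0 * 1
      rw [mul_one, Int.mul_ediv_cancel' hdvd]
    · show (1 : ℤ) * ((r : ℤ) * (γ' : SL(2, ℤ)) 0 1) + ((0 : ℕ) : ℤ) * (γ' : SL(2, ℤ)) 1 1 =
        (γ' : SL(2, ℤ)) 0 0 * ((0 : ℕ) : ℤ) + (γ' : SL(2, ℤ)) 0 1 * r
      push_cast; ring
    · show (r : ℤ) * (γ' : SL(2, ℤ)) 1 1 =
        (γ' : SL(2, ℤ)) 1 0 * ((0 : ℕ) : ℤ) + (γ' : SL(2, ℤ)) 1 1 * r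
      push_cast; ring
  obtain ⟨h1, h2⟩ := (systemT M r hrM).unique h
  exact ⟨h1.symm, h2.symm⟩

theorem mem_range_jTwo_iff_perm (γ : Gamma0 M) :
    γ ∈ (jTwo M r (Fact.out : r.Prime).ne_zero).range ↔
      (systemT M r hrM).perm γ ((0 : ZMod r) : OnePoint (ZMod r)) =
        ((0 : ZMod r) : OnePoint (ZMod r)) := by
  constructor
  · rintro ⟨γ', rfl⟩
    exact (systemT_jTwo_zero M r hrM γ').1
  · intro h
    have hrel := (systemT M r hrM).rel γ ((0 : ZMod r) : OnePoint (ZMod r))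
    rw [h] at hrel
    have h0 := val_heckeRep_coe r (0 : ZMod r)
    rw [ZMod.val_zero] at h0
    obtain ⟨-, -, e3, -⟩ := entries_of_rel h0 h0 hrel
    rw [mem_range_jTwo_iff M r (Fact.out : r.Prime).ne_zero]
    refine ⟨(((systemT M r hrM).step γ ((0 : ZMod r) : OnePoint (ZMod r)) : Gamma0 M) :
      SL(2, ℤ)) 0 1, ?_⟩
    have : ((γ : SL(2, ℤ)) 0 1 : ℤ) =
        (((systemT M r hrM).step γ ((0 : ZMod r) : OnePoint (ZMod r)) : Gamma0 M) :
          SL(2, ℤ)) 0 1 * (r : ℤ) := by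
      simpa using e3
    rw [this, mul_comm]

/-! ### Transitivity -/

theorem systemT_transitive_infty (hcop : Nat.Coprime M r) (x : OnePoint (ZMod r)) :
    ∃ τ : Gamma0 M, (systemT M r hrM).perm τ OnePoint.infty = x := by
  have hr : r.Prime := Fact.out
  induction x using OnePoint.rec with
  | infty => exact ⟨1, (systemT M r hrM).perm_one _⟩
  | coe j =>
    obtain ⟨τ, hτ, hlift⟩ := bottom_lift M r hr hcop 1 (j.val : ℤ) (by
      rintro ⟨h1, -⟩
      have := Int.le_of_dvd one_pos h1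
      have := hr.two_le
      omega)
    obtain ⟨k, hk⟩ := hlift (j.val : ℤ) (-1) ⟨0, by ring⟩
    -- `τ 1 0 * j - τ 1 1 = r k`
    have hdet := sl2_det_eq τ
    let γ' : SL(2, ℤ) := ⟨!![(r : ℤ) * τ 0 0, τ 0 1 - τ 0 0 * (j.val : ℤ); τ 1 0, -k], by
      rw [Matrix.det_fin_two_of]
      linear_combination hdet + τ 0 0 * hk⟩
    refine ⟨⟨τ, hτ⟩, ?_⟩
    have h : (systemT M r hrM).α OnePoint.infty * mapGL ℝ τ =
        mapGL ℝ γ' * (systemT M r hrM).α ((j : ZMod r) : OnePoint (ZMod r)) := by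
      refine rel_of_entries (val_heckeRep_infty r) (val_heckeRep_coe r j) ?_ ?_ ?_ ?_
      · show (r : ℤ) * τ 0 0 + 0 * τ 1 0 = ((r : ℤ) * τ 0 0) * 1
        ring
      · show (1 : ℤ) * τ 1 0 = τ 1 0 * 1
        ring
      · show (r : ℤ) * τ 0 1 + 0 * τ 1 1 =
          ((r : ℤ) * τ 0 0) * (j.val : ℤ) + (τ 0 1 - τ 0 0 * (j.val : ℤ)) * r
        ring
      · show (1 : ℤ) * τ 1 1 = τ 1 0 * (j.val : ℤ) + (-k) * r
        linear_combination -hk
    have hγ' : γ' ∈ Gamma0 M := by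
      rw [gamma0_mem_iff_dvd]
      exact gamma0_mem_iff_dvd.1 hτ
    exact ((systemT M r hrM).unique (γ := ⟨τ, hτ⟩) (g := ⟨γ', hγ'⟩) h).1.symm

theorem systemT_transitive (hcop : Nat.Coprime M r) (i₀ x : OnePoint (ZMod r)) :
    ∃ τ : Gamma0 M, (systemT M r hrM).perm τ i₀ = x := by
  obtain ⟨τ₀, h₀⟩ := systemT_transitive_infty M r hrM hcop i₀
  obtain ⟨τ, hτ⟩ := systemT_transitive_infty M r hrM hcop x
  refine ⟨τ₀⁻¹ * τ, ?_⟩
  rw [((systemT M r hrM).perm_mul _ _ _).1, ← h₀, (systemT M r hrM).perm_inv_perm, hτ]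

/-! ### HB2 -/

section HB2

variable {A : Type*} [AddCommGroup A]

theorem card_onePoint_zmod : Fintype.card (OnePoint (ZMod r)) = r + 1 := by
  haveI : NeZero r := ⟨(Fact.out : r.Prime).ne_zero⟩
  show Fintype.card (Option (ZMod r)) = r + 1
  rw [Fintype.card_option, ZMod.card]

/-- **[HB2]**, general coefficient group. -/
theorem hb2 (hr : r ≠ 0) (x : Additive (Gamma0 M) →+ A) :
    b1 M r A (a1 M r A x) = (r + 1) • x ∧
      b2 M r hr A (a2 M r hr A x) = (r + 1) • x ∧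
      b1 M r A (a2 M r hr A x) = (systemT M r hrM).heckeFun x ∧
      b2 M r hr A (a1 M r A x) = (systemT M r hrM).heckeFun x := by
  have hrp : r.Prime := Fact.out
  have hcop : Nat.Coprime M r := ((Nat.Prime.coprime_iff_not_dvd hrp).mpr hrM).symm
  set S := ofCosetSystem (systemT M r hrM) with hS
  have htr : ∀ i₀ i, ∃ τ, S.perm τ i₀ = i := fun i₀ i => systemT_transitive M r hrM hcop i₀ i
  have hr1 : ∀ g, g ∈ (jOne M r).range ↔ S.perm g OnePoint.infty = OnePoint.infty :=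
    fun g => mem_range_jOne_iff_perm M r hrM hcop g
  have hr2 : ∀ g, g ∈ (jTwo M r hr).range ↔
      S.perm g ((0 : ZMod r) : OnePoint (ZMod r)) = ((0 : ZMod r) : OnePoint (ZMod r)) :=
    fun g => mem_range_jTwo_iff_perm M r hrM g
  refine ⟨?_, ?_, ?_, ?_⟩
  · refine AddMonoidHom.ext fun γ' => ?_
    obtain ⟨γ, rfl⟩ : ∃ γ : Gamma0 M, Additive.ofMul γ = γ' := ⟨Additive.toMul γ', rfl⟩
    have := S.push_pull_eq_card_smul OnePoint.infty (htr _) (jOne M r) (jOne_injective M r) hr1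
      x γ
    rw [card_onePoint_zmod] at this
    exact this
  · refine AddMonoidHom.ext fun γ' => ?_
    obtain ⟨γ, rfl⟩ : ∃ γ : Gamma0 M, Additive.ofMul γ = γ' := ⟨Additive.toMul γ', rfl⟩
    have := S.push_pull_eq_card_smul ((0 : ZMod r) : OnePoint (ZMod r)) (htr _) (jTwo M r hr)
      (jTwo_injective M r hr) hr2 x γ
    rw [card_onePoint_zmod] at this
    exact this
  · refine AddMonoidHom.ext fun γ' => ?_
    obtain ⟨γ, rfl⟩ : ∃ γ : Gamma0 M, Additive.ofMul γ = γ' := ⟨Additive.toMul γ', rfl⟩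
    rw [CosetSystem.heckeFun_apply]
    refine S.push_eq_sum_step OnePoint.infty (htr _) (jOne M r) (jOne_injective M r) hr1 x
      (a2 M r hr A x) ?_ γ
    intro g'
    show x (Additive.ofMul (jTwo M r hr g')) = _
    rw [hS, ofCosetSystem_step, (systemT_jOne_infty M r hrM g').2]
  · refine AddMonoidHom.ext fun γ' => ?_
    obtain ⟨γ, rfl⟩ : ∃ γ : Gamma0 M, Additive.ofMul γ = γ' := ⟨Additive.toMul γ', rfl⟩
    rw [CosetSystem.heckeFun_apply]
    refine S.push_eq_sum_step ((0 : ZMod r) : OnePoint (ZMod r)) (htr _) (jTwo M r hr)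
      (jTwo_injective M r hr) hr2 x (a1 M r A x) ?_ γ
    intro g'
    show x (Additive.ofMul (jOne M r g')) = _
    rw [hS, ofCosetSystem_step, (systemT_jTwo_zero M r hrM g').2]

end HB2

/-- **[HB2]** `helper4.HB2Statement`, VERBATIM. -/
theorem hb2Statement : HB2Statement := by
  intro M r hr A _ hM hrp hrM x
  haveI : Fact r.Prime := ⟨hrp⟩
  obtain ⟨h1, h2, h3, h4⟩ := hb2 M r hrM hr x
  refine ⟨h1, h2, ?_, ?_⟩
  · rw [h3, heckeHom_of_not_dvd M (ℓ := ⟨r, hrp⟩) hrM]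
  · rw [h4, heckeHom_of_not_dvd M (ℓ := ⟨r, hrp⟩) hrM]

end Fermat.Agent.P6.helper62
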