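import Mathlib
import Fermat.Agent.P6.helper31_UnitTrick
import Fermat.Agent.P6.helper73_CentDefs

/-!
# P6 / S41, Theorem A (centrality): ring-independent core (helper73)

For a commutative ring `R` and an ideal `I` (notation of `helper31_UnitTrick`):

* `mem_El_of_row` : an element of `SL₂(R)` with second row `(y, v)`, `y ∈ I`, `v` a unit
  congruent to `1`, and upper right entry in `I`, lies in `El I`;
* `conj_uMat_mem_El_of_unit` (the unit trick, first-power form): if `g ∈ Gam I` has first column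
  `(a, c)` and `1 - t a c` is a unit, then `uMat t * g * (uMat t)⁻¹ * g⁻¹ ∈ El I`;
* `stab I g` : the stabiliser of the class of `g` modulo `El I` under conjugation;
* `tSet I g` : the additive subgroup of the `t` with `uMat t ∈ stab I g`; it contains `I` and only
  depends on the class of `g`.
-/

set_option autoImplicit false

namespace Fermat.Agent.P6.helper73

open Matrix Fermat.Agent.P6.helper31

variable {R : Type*} [CommRing R]

section entries

variable (g : SpecialLinearGroup (Fin 2) R)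

lemma inv_00 : (g⁻¹).1 0 0 = g.1 1 1 := by
  simp [SpecialLinearGroup.coe_inv, Matrix.adjugate_fin_two]
lemma inv_01 : (g⁻¹).1 0 1 = -g.1 0 1 := by
  simp [SpecialLinearGroup.coe_inv, Matrix.adjugate_fin_two]
lemma inv_10 : (g⁻¹).1 1 0 = -g.1 1 0 := by
  simp [SpecialLinearGroup.coe_inv, Matrix.adjugate_fin_two]
lemma inv_11 : (g⁻¹).1 1 1 = g.1 0 0 := by
  simp [SpecialLinearGroup.coe_inv, Matrix.adjugate_fin_two]

end entries

variable {I : Ideal R}

lemma unit_inv_sub_one_mem {v : Rˣ} (hv : (v : R) - 1 ∈ I) : ((v⁻¹ : Rˣ) : R) - 1 ∈ I := by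
  have : ((v⁻¹ : Rˣ) : R) - 1 = -(((v⁻¹ : Rˣ) : R) * ((v : R) - 1)) := by
    have h2 : ((v⁻¹ : Rˣ) : R) * (v : R) = 1 := by simp
    linear_combination h2
  rw [this]
  exact I.neg_mem (I.mul_mem_left _ hv)

/-- An element of `SL₂(R)` whose second row is `(y, v)` with `y ∈ I`, `v` a unit congruent to `1`
modulo `I`, and whose upper right entry lies in `I`, belongs to `El I`. -/
lemma mem_El_of_row {X : SpecialLinearGroup (Fin 2) R} (v : Rˣ) (hv : (v : R) - 1 ∈ I)
    (h10 : X.1 1 0 ∈ I) (h01 : X.1 0 1 ∈ I) (h11 : X.1 1 1 = (v : R)) : X ∈ El I := by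
  have hvv : (v : R) * ((v⁻¹ : Rˣ) : R) = 1 := by simp
  have e : X = uMat (X.1 0 1 * ((v⁻¹ : Rˣ) : R)) * dMat v⁻¹ * lMat (X.1 1 0 * ((v⁻¹ : Rˣ) : R)) := by
    have dX := sl2_det X
    rw [h11] at dX
    apply sl2_ext <;>
      simp only [mul_00, mul_01, mul_10, mul_11, uMat_00, uMat_01, uMat_10, uMat_11, lMat_00,
        lMat_01, lMat_10, lMat_11, dMat_00, dMat_01, dMat_10, dMat_11, inv_inv]
    · linear_combination (-(X.1 0 0) - X.1 0 1 * X.1 1 0 * ((v⁻¹ : Rˣ) : R)) * hvv
        + ((v⁻¹ : Rˣ) : R) * dX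
    · linear_combination (-(X.1 0 1)) * hvv
    · linear_combination (-(X.1 1 0)) * hvv
    · rw [h11]; ring
  rw [e]
  refine (El I).mul_mem ((El I).mul_mem (uMat_mem_El (I.mul_mem_right _ h01)) ?_)
    (lMat_mem_El (I.mul_mem_right _ h10))
  exact dMat_mem_El (unit_inv_sub_one_mem hv)

/-- **The unit trick, first-power form.**  Let `g ∈ Gam I` have first column `(a, c)` and let
`t : R` be such that `1 - t a c` is a unit `v`.  Then conjugation by `uMat t` fixes the class of
`g` modulo `El I`. -/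
theorem conj_uMat_mem_El_of_unit {g : SpecialLinearGroup (Fin 2) R} (hg : g ∈ Gam I) (t : R)
    (v : Rˣ) (h : (v : R) = 1 - t * g.1 0 0 * g.1 1 0) :
    uMat t * g * (uMat t)⁻¹ * g⁻¹ ∈ El I := by
  obtain ⟨h00, -, h10, -⟩ := mem_Gam_iff.1 hg
  have dg := sl2_det g
  have hv : (v : R) - 1 ∈ I := by
    have : (v : R) - 1 = -(t * g.1 0 0) * g.1 1 0 := by rw [h]; ring
    rw [this]
    exact I.mul_mem_left _ h10
  have e10 : (uMat t * g * (uMat t)⁻¹ * g⁻¹).1 1 0 = (t * g.1 1 0) * g.1 1 0 := by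
    rw [← uMat_neg]
    simp only [mul_00, mul_01, mul_10, mul_11, uMat_00, uMat_01, uMat_10, uMat_11, inv_00,
      inv_01, inv_10, inv_11]
    ring
  have e11 : (uMat t * g * (uMat t)⁻¹ * g⁻¹).1 1 1 = 1 - t * g.1 0 0 * g.1 1 0 := by
    rw [← uMat_neg]
    simp only [mul_00, mul_01, mul_10, mul_11, uMat_00, uMat_01, uMat_10, uMat_11, inv_00,
      inv_01, inv_10, inv_11]
    linear_combination dg
  have e01 : (uMat t * g * (uMat t)⁻¹ * g⁻¹).1 0 1
      = (-(t * (g.1 0 0 + 1))) * (g.1 0 0 - 1) + (-(t * t * g.1 0 0)) * g.1 1 0 := by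
    rw [← uMat_neg]
    simp only [mul_00, mul_01, mul_10, mul_11, uMat_00, uMat_01, uMat_10, uMat_11, inv_00,
      inv_01, inv_10, inv_11]
    linear_combination t * dg
  apply mem_El_of_row v hv
  · rw [e10]
    exact I.mul_mem_left _ h10
  · rw [e01]
    exact I.add_mem (I.mul_mem_left _ h00) (I.mul_mem_left _ h10)
  · rw [e11, h]

variable (I)

/-- The stabiliser of the class of `g` modulo `El I` under the conjugation action. -/
def stab (g : SpecialLinearGroup (Fin 2) R) : Subgroup (SpecialLinearGroup (Fin 2) R) where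
  carrier := {γ | γ * g * γ⁻¹ * g⁻¹ ∈ El I}
  one_mem' := by
    show (1 : SpecialLinearGroup (Fin 2) R) * g * 1⁻¹ * g⁻¹ ∈ El I
    simp
  mul_mem' := by
    intro γ δ hγ hδ
    show γ * δ * g * (γ * δ)⁻¹ * g⁻¹ ∈ El I
    have e : γ * δ * g * (γ * δ)⁻¹ * g⁻¹
        = (γ * (δ * g * δ⁻¹ * g⁻¹) * γ⁻¹) * (γ * g * γ⁻¹ * g⁻¹) := by group
    rw [e]
    exact (El I).mul_mem ((El_normal I).conj_mem _ hδ γ) hγ
  inv_mem' := by
    intro γ hγ
    show γ⁻¹ * g * γ⁻¹⁻¹ * g⁻¹ ∈ El I
    have e : γ⁻¹ * g * γ⁻¹⁻¹ * g⁻¹ = γ⁻¹ * (γ * g * γ⁻¹ * g⁻¹)⁻¹ * γ⁻¹⁻¹ := by group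
    rw [e]
    exact (El_normal I).conj_mem _ ((El I).inv_mem hγ) γ⁻¹

variable {I}

lemma mem_stab_iff {g γ : SpecialLinearGroup (Fin 2) R} :
    γ ∈ stab I g ↔ γ * g * γ⁻¹ * g⁻¹ ∈ El I := Iff.rfl

lemma El_le_stab (g : SpecialLinearGroup (Fin 2) R) : El I ≤ stab I g := by
  intro e he
  rw [mem_stab_iff]
  have : e * g * e⁻¹ * g⁻¹ = e * (g * e⁻¹ * g⁻¹) := by group
  rw [this]
  exact (El I).mul_mem he ((El_normal I).conj_mem _ ((El I).inv_mem he) g)

lemma stab_le_of_mul_mem {g g' : SpecialLinearGroup (Fin 2) R} (h : g⁻¹ * g' ∈ El I) :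
    stab I g ≤ stab I g' := fun γ hγ => comm_mem_El_of_mul_mem γ h hγ

/-- The stabiliser only depends on the class modulo `El I`. -/
lemma stab_eq_of_mul_mem {g g' : SpecialLinearGroup (Fin 2) R} (h : g⁻¹ * g' ∈ El I) :
    stab I g = stab I g' := by
  refine le_antisymm (stab_le_of_mul_mem h) (stab_le_of_mul_mem ?_)
  have : g'⁻¹ * g = (g⁻¹ * g')⁻¹ := by group
  rw [this]
  exact (El I).inv_mem h

/-- Left multiplication by an element of `El I` does not change the stabiliser. -/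
lemma stab_mul_left {e : SpecialLinearGroup (Fin 2) R} (he : e ∈ El I)
    (g : SpecialLinearGroup (Fin 2) R) : stab I (e * g) = stab I g := by
  symm
  apply stab_eq_of_mul_mem
  have : g⁻¹ * (e * g) = g⁻¹ * e * g⁻¹⁻¹ := by group
  rw [this]
  exact (El_normal I).conj_mem _ he g⁻¹

/-- Right multiplication by an element of `El I` does not change the stabiliser. -/
lemma stab_mul_right {e : SpecialLinearGroup (Fin 2) R} (he : e ∈ El I)
    (g : SpecialLinearGroup (Fin 2) R) : stab I (g * e) = stab I g := by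
  symm
  apply stab_eq_of_mul_mem
  have : g⁻¹ * (g * e) = e := by group
  rw [this]
  exact he

variable (I)

/-- The additive subgroup of the `t : R` such that `uMat t` fixes the class of `g`. -/
def tSet (g : SpecialLinearGroup (Fin 2) R) : AddSubgroup R where
  carrier := {t | uMat t ∈ stab I g}
  zero_mem' := by
    show uMat (0 : R) ∈ stab I g
    rw [uMat_zero]
    exact (stab I g).one_mem
  add_mem' := by
    intro s t hs ht
    show uMat (s + t) ∈ stab I g
    rw [uMat_add]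
    exact (stab I g).mul_mem hs ht
  neg_mem' := by
    intro t ht
    show uMat (-t) ∈ stab I g
    rw [uMat_neg]
    exact (stab I g).inv_mem ht

variable {I}

lemma mem_tSet_iff {g : SpecialLinearGroup (Fin 2) R} {t : R} :
    t ∈ tSet I g ↔ uMat t * g * (uMat t)⁻¹ * g⁻¹ ∈ El I := Iff.rfl

lemma mem_tSet_of_mem (g : SpecialLinearGroup (Fin 2) R) {t : R} (ht : t ∈ I) : t ∈ tSet I g :=
  El_le_stab g (uMat_mem_El ht)

lemma tSet_eq_of_stab_eq {g g' : SpecialLinearGroup (Fin 2) R} (h : stab I g = stab I g') :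
    tSet I g = tSet I g' := by
  ext t
  show uMat t ∈ stab I g ↔ uMat t ∈ stab I g'
  rw [h]

/-- If all the `tSet I g`, `g ∈ Gam I`, are everything, then every `uMat t` acts trivially on
`Gam I / El I`. -/
lemma uMat_mem_Cent_of_tSet (h : ∀ g ∈ Gam I, ∀ t : R, t ∈ tSet I g) (t : R) :
    uMat t ∈ Cent I := fun g hg => h g hg t

/-- The unit trick in terms of `tSet`, after moving `g` inside its class: if `g' = e * g * e'`
with `e, e' ∈ El I` has first column `(a₁, c₁)` and `1 - t a₁ c₁` is a unit, then `t ∈ tSet I g`. -/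
theorem mem_tSet_of_unit {g : SpecialLinearGroup (Fin 2) R} (hg : g ∈ Gam I)
    {e e' : SpecialLinearGroup (Fin 2) R} (he : e ∈ El I) (he' : e' ∈ El I) (t : R) (v : Rˣ)
    (h : (v : R) = 1 - t * (e * g * e').1 0 0 * (e * g * e').1 1 0) : t ∈ tSet I g := by
  have hg' : e * g * e' ∈ Gam I :=
    (Gam I).mul_mem ((Gam I).mul_mem (El_le_Gam he) hg) (El_le_Gam he')
  have h1 : t ∈ tSet I (e * g * e') := conj_uMat_mem_El_of_unit hg' t v h
  have h2 : stab I (e * g * e') = stab I g := by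
    rw [stab_mul_right he', stab_mul_left he]
  rwa [tSet_eq_of_stab_eq h2] at h1

end Fermat.Agent.P6.helper73
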