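import Mathlib
import Fermat.Agent.P6.helper31_UnitTrick
import Fermat.Agent.P6.helper73_CentDefs
import Fermat.Agent.P6.helper73_CentCore

/-!
# P6 / S41, Theorem A (centrality): assembly over `A = ℤ[1/q]` (helper73)

`centrality_of : ANTStatement q m → GenStatement A → CentralityStatement A m` for every commutative
ring `A` with `[Algebra ℤ A] [IsLocalization.Away (q : ℤ) A]`, `q` prime, `m` prime to `q`.
-/

set_option autoImplicit false

namespace Fermat.Agent.P6.helper73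

open Matrix Fermat.Agent.P6.helper31

section ring

variable {A : Type*} [CommRing A] [Algebra ℤ A] {q : ℕ} [IsLocalization.Away (q : ℤ) A]

lemma intCast_injective_away (hq : q ≠ 0) : Function.Injective (Int.cast : ℤ → A) := by
  have h := IsLocalization.injective A (M := Submonoid.powers (q : ℤ)) (by
    intro x hx
    obtain ⟨n, rfl⟩ := hx
    exact mem_nonZeroDivisors_of_ne_zero (pow_ne_zero _ (by exact_mod_cast hq)))
  intro x y hxy
  apply h
  rw [eq_intCast, eq_intCast]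
  exact hxy

variable (A q) in
lemma isUnit_natCast_away : IsUnit ((q : ℕ) : A) := by
  have h := IsLocalization.Away.algebraMap_isUnit (S := A) (q : ℤ)
  rw [eq_intCast] at h
  simpa using h

lemma exists_int_eq_mul_pow (x : A) : ∃ (k : ℕ) (z : ℤ), x * (q : A) ^ k = (z : A) := by
  obtain ⟨n, a, h⟩ := IsLocalization.Away.surj (q : ℤ) x
  refine ⟨n, a, ?_⟩
  rw [eq_intCast, eq_intCast] at h
  simpa using h

lemma int_dvd_of_mem_span (hq : q ≠ 0) {m : ℕ} (hmq : Nat.Coprime m q) {z : ℤ}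
    (h : (z : A) ∈ Ideal.span {(m : A)}) : (m : ℤ) ∣ z := by
  obtain ⟨y, hy⟩ := Ideal.mem_span_singleton'.1 h
  obtain ⟨k, w, hw⟩ := exists_int_eq_mul_pow (q := q) y
  have e : ((z * (q : ℤ) ^ k : ℤ) : A) = ((w * m : ℤ) : A) := by
    push_cast
    rw [← hy, ← hw]
    ring
  have e' := intCast_injective_away (A := A) hq e
  have hcop : IsCoprime (m : ℤ) ((q : ℤ) ^ k) := by
    apply IsCoprime.pow_right
    exact_mod_cast (Nat.isCoprime_iff_coprime.2 hmq)
  apply hcop.dvd_of_dvd_mul_right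
  rw [e']
  exact dvd_mul_left _ _

lemma exists_int_sub_mem_span {m : ℕ} (hmq : Nat.Coprime m q) (x : A) :
    ∃ z : ℤ, x - (z : A) ∈ Ideal.span {(m : A)} := by
  obtain ⟨k, w, hw⟩ := exists_int_eq_mul_pow (q := q) x
  have hcop : IsCoprime ((q : ℤ) ^ k) (m : ℤ) := by
    apply IsCoprime.pow_left
    exact_mod_cast (Nat.isCoprime_iff_coprime.2 hmq.symm)
  obtain ⟨u, v, huv⟩ := hcop
  refine ⟨u * w, ?_⟩
  rw [Ideal.mem_span_singleton']
  refine ⟨x * (v : A), ?_⟩
  have huv' : (u : A) * (q : A) ^ k + (v : A) * (m : A) = 1 := by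
    have := congrArg (Int.cast : ℤ → A) huv
    push_cast at this
    exact this
  push_cast
  rw [← hw]
  linear_combination x * huv'

lemma exists_unit_mul_int (hq : q.Prime) {x : A} (hx : x ≠ 0) :
    ∃ (u : Aˣ) (z : ℤ), x = (u : A) * (z : A) ∧ ¬ (q : ℤ) ∣ z := by
  obtain ⟨k, w, hw⟩ := exists_int_eq_mul_pow (q := q) x
  obtain ⟨uq, huq⟩ := isUnit_natCast_away A q
  have hw0 : w ≠ 0 := by
    rintro rfl
    apply hx
    have : x * ((uq ^ k : Aˣ) : A) = 0 := by
      rw [Units.val_pow_eq_pow_val, huq, hw]; simp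
    exact (Units.mul_left_eq_zero _).1 this
  have hfin : FiniteMultiplicity (q : ℤ) w := by
    rw [Int.finiteMultiplicity_iff]
    refine ⟨?_, hw0⟩
    simpa using hq.ne_one
  obtain ⟨c, hc, hqc⟩ := hfin.exists_eq_pow_mul_and_not_dvd
  refine ⟨uq ^ (multiplicity (q : ℤ) w) * (uq ^ k)⁻¹, c, ?_, hqc⟩
  have h1 : x = (w : A) * (((uq ^ k)⁻¹ : Aˣ) : A) := by
    rw [← hw, ← huq, ← Units.val_pow_eq_pow_val, mul_assoc, Units.mul_inv, mul_one]
  rw [h1]
  conv_lhs => rw [hc]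
  push_cast
  rw [← huq]
  ring

end ring

section main

variable {A : Type*} [CommRing A] [Algebra ℤ A] {q m : ℕ} [IsLocalization.Away (q : ℤ) A]

omit [Algebra ℤ A] in
/-- Entries of `uMat s * lMat s' * g * 1`. -/
lemma moved_00 (g : SpecialLinearGroup (Fin 2) A) (s s' : A) :
    (uMat s * lMat s' * g * 1).1 0 0 = g.1 0 0 + s * (s' * g.1 0 0 + g.1 1 0) := by
  rw [mul_one]
  simp only [mul_00, mul_01, mul_10, mul_11, uMat_00, uMat_01, uMat_10, uMat_11, lMat_00,
    lMat_01, lMat_10, lMat_11]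
  ring

omit [Algebra ℤ A] in
lemma moved_10 (g : SpecialLinearGroup (Fin 2) A) (s s' : A) :
    (uMat s * lMat s' * g * 1).1 1 0 = s' * g.1 0 0 + g.1 1 0 := by
  rw [mul_one]
  simp only [mul_00, mul_01, mul_10, mul_11, uMat_00, uMat_01, uMat_10, uMat_11, lMat_00,
    lMat_01, lMat_10, lMat_11]
  ring

/-- Step (A5): for every prime `r ∣ m` and every `g ∈ Γ(m)` there is `t` in `tSet g` which is not
divisible by `r`. -/
theorem exists_mem_tSet_not_mem (hq : q.Prime) (hmq : Nat.Coprime m q) (hNT : ANTStatement q m)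
    {r : ℕ} (hr : r.Prime) (hrm : r ∣ m) {g : SpecialLinearGroup (Fin 2) A}
    (hg : g ∈ Gam (Ideal.span {(m : A)})) :
    ∃ t ∈ tSet (Ideal.span {(m : A)}) g, t ∉ Ideal.span {(r : A)} := by
  obtain ⟨h00, -, h10, -⟩ := mem_Gam_iff.1 hg
  have dg := sl2_det g
  have hq0 : q ≠ 0 := hq.ne_zero
  have hrq : Nat.Coprime r q := Nat.Coprime.coprime_dvd_left hrm hmq
  -- `a ≠ 0`
  have ha0 : g.1 0 0 ≠ 0 := by
    intro h0
    rw [h0, zero_sub] at h00
    have h1 : (((-1 : ℤ)) : A) ∈ Ideal.span {(m : A)} := by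
      simpa using h00
    have h2 : (m : ℤ) ∣ -1 := int_dvd_of_mem_span (q := q) hq0 hmq h1
    have h3 : (r : ℤ) ∣ 1 := by
      have : (r : ℤ) ∣ -1 := (Int.natCast_dvd_natCast.2 hrm).trans h2
      simpa using this
    have h4 : r ∣ 1 := by exact_mod_cast h3
    exact hr.one_lt.ne' (Nat.dvd_one.1 h4)
  obtain ⟨ua, a', ha, hqa⟩ := exists_unit_mul_int hq ha0
  obtain ⟨k, zc, hzc⟩ := exists_int_eq_mul_pow (q := q) (g.1 1 0)
  obtain ⟨uq, huq⟩ := isUnit_natCast_away A q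
  have hzcI : (zc : A) ∈ Ideal.span {(m : A)} := by
    rw [← hzc]
    exact Ideal.mul_mem_right _ _ h10
  obtain ⟨γ', hγ'⟩ := int_dvd_of_mem_span (q := q) hq0 hmq hzcI
  obtain ⟨uc, hc⟩ : ∃ uc : Aˣ, g.1 1 0 = (uc : A) * ((m : A) * (γ' : A)) := by
    refine ⟨(uq ^ k)⁻¹, ?_⟩
    have h1 : g.1 1 0 = (zc : A) * (((uq ^ k)⁻¹ : Aˣ) : A) := by
      rw [← hzc, ← huq, ← Units.val_pow_eq_pow_val, mul_assoc, Units.mul_inv, mul_one]
    rw [h1, hγ', Int.cast_mul, Int.cast_natCast]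
    ring
  -- coprimality of `a'` and `m γ'`
  have hcop : IsCoprime a' ((m : ℤ) * γ') := by
    obtain ⟨k₁, x, hx⟩ := exists_int_eq_mul_pow (q := q) ((ua : A) * g.1 1 1)
    obtain ⟨k₂, y, hy⟩ := exists_int_eq_mul_pow (q := q) (g.1 0 1 * (uc : A))
    have e : ((a' * (x * (q : ℤ) ^ k₂) - ((m : ℤ) * γ') * (y * (q : ℤ) ^ k₁) : ℤ) : A)
        = (((q : ℤ) ^ (k₁ + k₂) : ℤ) : A) := by
      push_cast
      rw [← hx, ← hy, pow_add]
      have : g.1 0 0 * g.1 1 1 - g.1 0 1 * g.1 1 0 = 1 := dg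
      rw [ha, hc] at this
      linear_combination ((q : A) ^ k₁ * (q : A) ^ k₂) * this
    have e' := intCast_injective_away (A := A) hq0 e
    have hqa' : IsCoprime a' ((q : ℤ) ^ (k₁ + k₂)) := by
      apply IsCoprime.pow_right
      exact ((Nat.prime_iff_prime_int.1 hq).coprime_iff_not_dvd.2 hqa).symm
    obtain ⟨u, v, huv⟩ := hqa'
    refine ⟨u + v * (x * (q : ℤ) ^ k₂), -(v * (y * (q : ℤ) ^ k₁)), ?_⟩
    rw [← e'] at huv
    linear_combination huv
  obtain ⟨s₁, s₂, τ, n, -, hEq, hτ⟩ :=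
    hNT r hr hrm a' γ' hcop.of_mul_right_right hcop.of_mul_right_left
  -- the moves
  have hs'I : (m : A) * ((s₁ : A) * (uc : A) * ((ua⁻¹ : Aˣ) : A)) ∈ Ideal.span {(m : A)} :=
    Ideal.mul_mem_right _ _ (Ideal.subset_span rfl)
  have hsI : (m : A) * ((s₂ : A) * (ua : A) * ((uc⁻¹ : Aˣ) : A)) ∈ Ideal.span {(m : A)} :=
    Ideal.mul_mem_right _ _ (Ideal.subset_span rfl)
  have he : uMat ((m : A) * ((s₂ : A) * (ua : A) * ((uc⁻¹ : Aˣ) : A)))
      * lMat ((m : A) * ((s₁ : A) * (uc : A) * ((ua⁻¹ : Aˣ) : A))) ∈ El (Ideal.span {(m : A)}) :=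
    (El _).mul_mem (uMat_mem_El hsI) (lMat_mem_El hs'I)
  have hua : (ua : A) * ((ua⁻¹ : Aˣ) : A) = 1 := by simp
  have huc' : (uc : A) * ((uc⁻¹ : Aˣ) : A) = 1 := by simp
  have hEqA : ((a' : A) + (m : A) * (s₂ : A) * ((m : A) * ((γ' : A) + (s₁ : A) * (a' : A))))
      * ((m : A) * ((γ' : A) + (s₁ : A) * (a' : A))) * (τ : A) = (q : A) ^ n - 1 := by
    have := congrArg (Int.cast : ℤ → A) hEq
    push_cast at this
    exact this
  have e10 : (m : A) * ((s₁ : A) * (uc : A) * ((ua⁻¹ : Aˣ) : A)) * g.1 0 0 + g.1 1 0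
      = (uc : A) * ((m : A) * ((γ' : A) + (s₁ : A) * (a' : A))) := by
    rw [ha, hc]
    linear_combination ((m : A) * (s₁ : A) * (uc : A) * (a' : A)) * hua
  have e00 : g.1 0 0 + (m : A) * ((s₂ : A) * (ua : A) * ((uc⁻¹ : Aˣ) : A))
        * ((uc : A) * ((m : A) * ((γ' : A) + (s₁ : A) * (a' : A))))
      = (ua : A) * ((a' : A) + (m : A) * (s₂ : A) * ((m : A) * ((γ' : A) + (s₁ : A) * (a' : A))))
      := by
    rw [ha]
    linear_combination ((m : A) * (s₂ : A) * (ua : A)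
      * ((m : A) * ((γ' : A) + (s₁ : A) * (a' : A)))) * huc'
  refine ⟨-(τ : A) * ((ua⁻¹ : Aˣ) : A) * ((uc⁻¹ : Aˣ) : A), ?_, ?_⟩
  · apply mem_tSet_of_unit hg he (Subgroup.one_mem _) _ (uq ^ n)
    rw [moved_00, moved_10, Units.val_pow_eq_pow_val, huq, e10, e00]
    linear_combination (-1 : A) * hEqA
      - ((τ : A) * ((a' : A) + (m : A) * (s₂ : A) * ((m : A) * ((γ' : A) + (s₁ : A) * (a' : A))))
          * ((m : A) * ((γ' : A) + (s₁ : A) * (a' : A))) * ((uc : A) * ((uc⁻¹ : Aˣ) : A))) * hua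
      - ((τ : A) * ((a' : A) + (m : A) * (s₂ : A) * ((m : A) * ((γ' : A) + (s₁ : A) * (a' : A))))
          * ((m : A) * ((γ' : A) + (s₁ : A) * (a' : A)))) * huc'
  · intro ht
    have h1 : (τ : A) ∈ Ideal.span {(r : A)} := by
      have : (τ : A) = (-(τ : A) * ((ua⁻¹ : Aˣ) : A) * ((uc⁻¹ : Aˣ) : A))
          * (-((ua : A) * (uc : A))) := by
        linear_combination (-(τ : A)) * hua + (-(τ : A) * (ua : A) * ((ua⁻¹ : Aˣ) : A)) * huc'
      rw [this]
      exact Ideal.mul_mem_right _ _ ht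
    exact hτ (int_dvd_of_mem_span (q := q) hq0 hrq h1)

/-- Step (A4): `tSet g` is everything. -/
theorem mem_tSet_of_ANT (hq : q.Prime) (hmq : Nat.Coprime m q) (hNT : ANTStatement q m)
    {g : SpecialLinearGroup (Fin 2) A} (hg : g ∈ Gam (Ideal.span {(m : A)})) (x : A) :
    x ∈ tSet (Ideal.span {(m : A)}) g := by
  have hq0 : q ≠ 0 := hq.ne_zero
  set J : AddSubgroup A := tSet (Ideal.span {(m : A)}) g with hJ
  have hIJ : ∀ y ∈ Ideal.span {(m : A)}, y ∈ J := fun y hy => mem_tSet_of_mem g hy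
  -- the integers in `J`
  obtain ⟨d, hd⟩ := Int.subgroup_cyclic (J.comap (Int.castAddHom A))
  have hmem : ∀ z : ℤ, (z : A) ∈ J ↔ d ∣ z := by
    intro z
    have : (z : A) ∈ J ↔ z ∈ J.comap (Int.castAddHom A) := by
      rw [AddSubgroup.mem_comap]; rfl
    rw [this, hd, ← AddSubgroup.zmultiples_eq_closure, Int.mem_zmultiples_iff]
  have hdm : d ∣ (m : ℤ) := by
    rw [← hmem]
    have : (((m : ℤ)) : A) = (m : A) := by simp
    rw [this]
    exact hIJ _ (Ideal.subset_span rfl)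
  have hd1 : d.natAbs = 1 := by
    by_contra hne
    obtain ⟨r, hr, hrd⟩ := Nat.exists_prime_and_dvd hne
    have hrd' : (r : ℤ) ∣ d := Int.natCast_dvd.2 hrd
    have hrm : r ∣ m := by
      have : (r : ℤ) ∣ (m : ℤ) := hrd'.trans hdm
      exact_mod_cast this
    obtain ⟨t, htJ, htr⟩ := exists_mem_tSet_not_mem hq hmq hNT hr hrm hg
    obtain ⟨z, hz⟩ := exists_int_sub_mem_span (q := q) hmq t
    have hzJ : (z : A) ∈ J := by
      have : (z : A) = t - (t - (z : A)) := by ring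
      rw [this]
      exact J.sub_mem htJ (hIJ _ hz)
    have hrz : (r : ℤ) ∣ z := hrd'.trans ((hmem z).1 hzJ)
    apply htr
    have hle : Ideal.span {(m : A)} ≤ Ideal.span {(r : A)} := by
      rw [Ideal.span_singleton_le_span_singleton]
      obtain ⟨c, rfl⟩ := hrm
      exact ⟨(c : A), by push_cast; ring⟩
    have hz' : (z : A) ∈ Ideal.span {(r : A)} := by
      obtain ⟨c, rfl⟩ := hrz
      rw [Ideal.mem_span_singleton]
      exact ⟨(c : A), by push_cast; ring⟩
    have : t = (z : A) + (t - (z : A)) := by ring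
    rw [this]
    exact Ideal.add_mem _ hz' (hle hz)
  have hall : ∀ z : ℤ, (z : A) ∈ J := by
    intro z
    rw [hmem]
    exact (Int.isUnit_iff_natAbs_eq.2 hd1).dvd
  obtain ⟨z, hz⟩ := exists_int_sub_mem_span (q := q) hmq x
  have : x = (z : A) + (x - (z : A)) := by ring
  rw [this]
  exact J.add_mem (hall z) (hIJ _ hz)

/-- **Theorem A** (centrality of the congruence kernel), conditional on the arithmetic input
`ANTStatement q m` and on the generation of `SL₂(A)` by elementary matrices. -/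
theorem centrality_of (hq : q.Prime) (hmq : Nat.Coprime m q) (hNT : ANTStatement q m)
    (hgen : GenStatement A) : CentralityStatement A m := by
  intro γ g hg
  exact comm_mem_El_of_forall_uMat hgen
    (uMat_mem_Cent_of_tSet (fun g' hg' t => mem_tSet_of_ANT hq hmq hNT hg' t)) γ hg

omit [Algebra ℤ A] in
/-- Consumer form of Theorem A: a homomorphism on `Γ(m)`-elements which kills `E(m)` is invariant
under conjugation by `SL₂(A)`. -/
theorem hom_conj_eq_of_centrality {F : Type*} [Group F] (hC : CentralityStatement A m)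
    (χ : SpecialLinearGroup (Fin 2) A →* F)
    (hχ : ∀ e ∈ El (Ideal.span {(m : A)}), χ e = 1)
    (γ g : SpecialLinearGroup (Fin 2) A) (hg : g ∈ Gam (Ideal.span {(m : A)})) :
    χ (γ * g * γ⁻¹) = χ g := by
  have h := hχ _ (hC γ g hg)
  rw [map_mul, map_inv, mul_inv_eq_one] at h
  exact h

end main

end Fermat.Agent.P6.helper73
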