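import Fermat.Agent.P6.helper60_ANT
import Fermat.Agent.P6.helper73_CentAsm
import Fermat.Agent.P6.helper31_GenBridge

/-!
# P6 / S41, **Theorem A** (centrality of the congruence kernel), UNCONDITIONAL (helper60)

Assembly of `helper73.centrality_of` ([A-ID] + (A4) + [A-ASM]), `helper60.aNT` ([A-NT]) and
`helper31.genStatement73` ([A-GEN]).

* `centrality : helper73.CentralityStatement A m` for every commutative ring `A` with
  `[IsLocalization.Away (q : ℤ) A]`, `q` prime, `m` prime to `q`:
  `γ * g * γ⁻¹ * g⁻¹ ∈ El (span {m})` for all `γ ∈ SL₂(A)`, `g ∈ Gam (span {m})`;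
* `hom_conj_eq : χ (γ * g * γ⁻¹) = χ g` for homomorphisms `χ` on `SL₂(A)` killing `El (span {m})`;
* `centralityStatement60 : helper60.CentralityStatement`.
-/

set_option autoImplicit false

namespace Fermat.Agent.P6.helper60

open Matrix

/-- **Theorem A**: for `A = ℤ[1/q]` and `m` prime to `q`, `[SL₂(A), Γ(m)] ⊆ E(m)`. -/
theorem centrality {A : Type*} [CommRing A] [Algebra ℤ A] {q : ℕ}
    [IsLocalization.Away (q : ℤ) A] {m : ℕ} (hq : q.Prime) (hmq : Nat.Coprime m q) :
    Fermat.Agent.P6.helper73.CentralityStatement A m :=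
  Fermat.Agent.P6.helper73.centrality_of hq hmq (aNT q m hq hmq)
    (Fermat.Agent.P6.helper31.genStatement73 (q : ℤ) A)

/-- Consumer form of Theorem A: a homomorphism killing `E(m)` is invariant on `Γ(m)` under
conjugation by `SL₂(ℤ[1/q])`. -/
theorem hom_conj_eq {A : Type*} [CommRing A] [Algebra ℤ A] {q : ℕ}
    [IsLocalization.Away (q : ℤ) A] {m : ℕ} (hq : q.Prime) (hmq : Nat.Coprime m q)
    {F : Type*} [Group F] (χ : SpecialLinearGroup (Fin 2) A →* F)
    (hχ : ∀ e ∈ Fermat.Agent.P6.helper31.El (Ideal.span {(m : A)}), χ e = 1)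
    (γ g : SpecialLinearGroup (Fin 2) A)
    (hg : g ∈ Fermat.Agent.P6.helper31.Gam (Ideal.span {(m : A)})) :
    χ (γ * g * γ⁻¹) = χ g :=
  Fermat.Agent.P6.helper73.hom_conj_eq_of_centrality (centrality hq hmq) χ hχ γ g hg

/-- **Theorem A** in the shape of `helper60_IharaDefs`. -/
theorem centralityStatement60 : CentralityStatement := by
  intro q A _ _ m hq _ hmq g γ hγ
  exact centrality (A := A) hq hmq g γ hγ

end Fermat.Agent.P6.helper60
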