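import Mathlib
import Fermat.Agent.P6.helper62_TransferCore
import Fermat.Agent.P6.helper31_UnitTrick

/-!
# P6 / S41, Corollary C: the Hecke cosets of `T_ℓ` on `SL(2, R)`

`R` is a commutative ring with reduction data `EllData R ℓ` modulo a prime `ℓ` (a ring
homomorphism `red : R →+* ZMod ℓ` with kernel `(ℓ)`, `ℓ` a non-zero-divisor), e.g. `R = ℤ[1/q]`,
`q ≠ ℓ`.

* `alphaMat R ℓ x`, `x : OnePoint (ZMod ℓ)` : the representatives `[[1, j],[0, ℓ]]`, `[[ℓ,0],[0,1]]`
  (same conventions as the Prelude `heckeMatrix`, `heckeDiagMatrix`);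
* `EllData.sPerm`, `EllData.sStep`, `EllData.rel`, `EllData.unique` : for `g ∈ SL(2, R)` and every
  index `i` there are a unique index `sPerm g i` and a unique `sStep g i ∈ SL(2, R)` with
  `alphaMat i * g = sStep g i * alphaMat (sPerm g i)` (an equation of matrices over `R`);
* `EllData.stepSystem` : the resulting `StepSystem`;
* `Gam0 𝔞`, `EllData.sStep_mem_Gam0` : the steps preserve `Γ₀(𝔞)`;
* `aApprox`, `EllData.defect_mem_Gam` : the approximations `a_j = u(j)`, `a_∞ = 1` have their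
  defects in `Γ(I)` whenever `ℓ ≡ 1 mod I`.
-/

set_option autoImplicit false
set_option linter.unusedSectionVars false
set_option linter.unusedVariables false
set_option linter.style.longLine false

open Matrix
open scoped MatrixGroups

namespace Fermat.Agent.P6.helper62

/-- Reduction data modulo `ℓ` on a commutative ring: a ring homomorphism to `ZMod ℓ` with kernel
`(ℓ)`, and `ℓ` is a non-zero-divisor. -/
structure EllData (R : Type*) [CommRing R] (ℓ : ℕ) where
  /-- reduction modulo `ℓ` -/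
  red : R →+* ZMod ℓ
  red_eq_zero : ∀ x, red x = 0 ↔ (ℓ : R) ∣ x
  regular : ∀ x : R, (ℓ : R) * x = 0 → x = 0

variable {R : Type*} [CommRing R] {ℓ : ℕ}

/-- The Hecke representatives `[[1, j],[0, ℓ]]` (`j ∈ 𝔽_ℓ`) and `[[ℓ, 0],[0, 1]]` (`∞`). -/
def alphaMat (R : Type*) [CommRing R] (ℓ : ℕ) (x : OnePoint (ZMod ℓ)) : Matrix (Fin 2) (Fin 2) R :=
  x.elim !![(ℓ : R), 0; 0, 1] (fun j => !![1, (j.val : R); 0, (ℓ : R)])

@[simp] theorem alphaMat_infty : alphaMat R ℓ (OnePoint.infty) = !![(ℓ : R), 0; 0, 1] := rfl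

@[simp] theorem alphaMat_coe (j : ZMod ℓ) :
    alphaMat R ℓ (j : OnePoint (ZMod ℓ)) = !![1, (j.val : R); 0, (ℓ : R)] := rfl

theorem sl2_det' (g : SL(2, R)) : g.1 0 0 * g.1 1 1 - g.1 0 1 * g.1 1 0 = 1 := by
  have := g.2
  rwa [Matrix.det_fin_two] at this

namespace EllData

variable (E : EllData R ℓ)
include E

theorem red_val [NeZero ℓ] (j : ZMod ℓ) : E.red (j.val : R) = j := by
  rw [map_natCast, ZMod.natCast_zmod_val]

theorem red_ell : E.red (ℓ : R) = 0 := (E.red_eq_zero _).mpr dvd_rfl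

theorem exists_step [Fact ℓ.Prime] (g : SL(2, R)) (i : OnePoint (ZMod ℓ)) :
    ∃ j, ∃ t : SL(2, R), alphaMat R ℓ i * g.1 = t.1 * alphaMat R ℓ j := by
  have hdet := sl2_det' g
  induction i using OnePoint.rec with
  | infty =>
    by_cases hx : E.red (g.1 1 0) = 0
    · obtain ⟨e, he⟩ := (E.red_eq_zero _).mp hx
      refine ⟨OnePoint.infty, ⟨!![g.1 0 0, ℓ * g.1 0 1; e, g.1 1 1], ?_⟩, ?_⟩
      · rw [Matrix.det_fin_two_of]; linear_combination hdet + g.1 0 1 * he
      · ext r s
        fin_cases r <;> fin_cases s <;>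
          simp [-ZMod.natCast_val, Matrix.mul_apply, Fin.sum_univ_two] <;> first | ring1 | linear_combination he
    · set j' : ZMod ℓ := E.red (g.1 1 1) / E.red (g.1 1 0) with hj'
      have h0 : E.red (g.1 1 1 - (j'.val : R) * g.1 1 0) = 0 := by
        rw [map_sub, map_mul, E.red_val, hj', div_mul_cancel₀ _ hx, sub_self]
      obtain ⟨e, he⟩ := (E.red_eq_zero _).mp h0
      refine ⟨(j' : OnePoint (ZMod ℓ)),
        ⟨!![ℓ * g.1 0 0, g.1 0 1 - (j'.val : R) * g.1 0 0; g.1 1 0, e], ?_⟩, ?_⟩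
      · rw [Matrix.det_fin_two_of]; linear_combination hdet - g.1 0 0 * he
      · ext r s
        fin_cases r <;> fin_cases s <;>
          simp [-ZMod.natCast_val, Matrix.mul_apply, Fin.sum_univ_two] <;>
          first | ring1 | linear_combination he
  | coe j =>
    by_cases hx : E.red (g.1 0 0 + (j.val : R) * g.1 1 0) = 0
    · obtain ⟨e, he⟩ := (E.red_eq_zero _).mp hx
      refine ⟨OnePoint.infty,
        ⟨!![e, g.1 0 1 + (j.val : R) * g.1 1 1; g.1 1 0, ℓ * g.1 1 1], ?_⟩, ?_⟩
      · rw [Matrix.det_fin_two_of]; linear_combination hdet - g.1 1 1 * he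
      · ext r s
        fin_cases r <;> fin_cases s <;>
          simp [-ZMod.natCast_val, Matrix.mul_apply, Fin.sum_univ_two] <;>
          first | ring1 | linear_combination he
    · set j' : ZMod ℓ := E.red (g.1 0 1 + (j.val : R) * g.1 1 1) /
        E.red (g.1 0 0 + (j.val : R) * g.1 1 0) with hj'
      have h0 : E.red (g.1 0 1 + (j.val : R) * g.1 1 1 -
          (j'.val : R) * (g.1 0 0 + (j.val : R) * g.1 1 0)) = 0 := by
        rw [map_sub, map_mul (f := E.red) (j'.val : R), E.red_val, hj', div_mul_cancel₀ _ hx,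
          sub_self]
      obtain ⟨e, he⟩ := (E.red_eq_zero _).mp h0
      refine ⟨(j' : OnePoint (ZMod ℓ)),
        ⟨!![g.1 0 0 + (j.val : R) * g.1 1 0, e; ℓ * g.1 1 0, g.1 1 1 - (j'.val : R) * g.1 1 0],
          ?_⟩, ?_⟩
      · rw [Matrix.det_fin_two_of]; linear_combination hdet + g.1 1 0 * he
      · ext r s
        fin_cases r <;> fin_cases s <;>
          simp [-ZMod.natCast_val, Matrix.mul_apply, Fin.sum_univ_two] <;>
          first | ring1 | linear_combination he


theorem cancel {x y : R} (h : (ℓ : R) * x = (ℓ : R) * y) : x = y := by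
  have := E.regular (x - y) (by rw [mul_sub, h, sub_self])
  exact sub_eq_zero.mp this

theorem red_det (t : SL(2, R)) :
    E.red (t.1 0 0) * E.red (t.1 1 1) - E.red (t.1 0 1) * E.red (t.1 1 0) = 1 := by
  rw [← map_mul, ← map_mul, ← map_sub, sl2_det', map_one]

theorem alpha_inj [Fact ℓ.Prime] {i j : OnePoint (ZMod ℓ)} {t t' : SL(2, R)}
    (h : t.1 * alphaMat R ℓ i = t'.1 * alphaMat R ℓ j) : i = j ∧ t = t' := by
  have e00 := congrFun (congrFun h 0) 0
  have e01 := congrFun (congrFun h 0) 1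
  have e10 := congrFun (congrFun h 1) 0
  have e11 := congrFun (congrFun h 1) 1
  have hd := E.red_det t
  have hd' := E.red_det t'
  have hone : (1 : ZMod ℓ) ≠ 0 := one_ne_zero
  induction i using OnePoint.rec with
  | infty =>
    induction j using OnePoint.rec with
    | infty =>
      simp [-ZMod.natCast_val, Matrix.mul_apply, Fin.sum_univ_two] at e00 e01 e10 e11
      refine ⟨rfl, ?_⟩
      have h00 : t.1 0 0 = t'.1 0 0 := E.cancel (by linear_combination e00)
      have h10 : t.1 1 0 = t'.1 1 0 := E.cancel (by linear_combination e10)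
      apply Subtype.ext
      ext r s
      fin_cases r <;> fin_cases s
      · exact h00
      · exact e01
      · exact h10
      · exact e11
    | coe y =>
      exfalso
      simp [-ZMod.natCast_val, Matrix.mul_apply, Fin.sum_univ_two] at e00 e01 e10 e11
      have h1 : E.red (t'.1 0 0) = 0 := by rw [← e00, map_mul, E.red_ell, mul_zero]
      have h2 : E.red (t'.1 1 0) = 0 := by rw [← e10, map_mul, E.red_ell, mul_zero]
      rw [h1, h2] at hd'
      simp at hd'
  | coe x =>
    induction j using OnePoint.rec with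
    | infty =>
      exfalso
      simp [-ZMod.natCast_val, Matrix.mul_apply, Fin.sum_univ_two] at e00 e01 e10 e11
      have h1 : E.red (t.1 0 0) = 0 := by rw [e00, map_mul, E.red_ell, mul_zero]
      have h2 : E.red (t.1 1 0) = 0 := by rw [e10, map_mul, E.red_ell, mul_zero]
      rw [h1, h2] at hd
      simp at hd
    | coe y =>
      simp [-ZMod.natCast_val, Matrix.mul_apply, Fin.sum_univ_two] at e00 e01 e10 e11
      have r01 := congrArg E.red e01
      have r11 := congrArg E.red e11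
      simp only [map_add, map_mul, E.red_val, E.red_ell, mul_zero, add_zero] at r01 r11
      rw [← e00] at r01
      rw [← e10] at r11
      have hxy : x = y := by
        by_contra hne
        have hne' : x - y ≠ 0 := sub_ne_zero.mpr hne
        have h1 : E.red (t.1 0 0) = 0 := by
          have : E.red (t.1 0 0) * (x - y) = 0 := by rw [mul_sub, r01, sub_self]
          exact (mul_eq_zero.mp this).resolve_right hne'
        have h2 : E.red (t.1 1 0) = 0 := by
          have : E.red (t.1 1 0) * (x - y) = 0 := by rw [mul_sub, r11, sub_self]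
          exact (mul_eq_zero.mp this).resolve_right hne'
        rw [h1, h2] at hd
        simp at hd
      subst hxy
      refine ⟨rfl, ?_⟩
      have h01 : t.1 0 1 = t'.1 0 1 := E.cancel (by linear_combination e01 - (x.val : R) * e00)
      have h11 : t.1 1 1 = t'.1 1 1 := E.cancel (by linear_combination e11 - (x.val : R) * e10)
      apply Subtype.ext
      ext r s
      fin_cases r <;> fin_cases s
      · exact e00
      · exact h01
      · exact e10
      · exact h11

/-- The permutation of `ℙ¹(𝔽_ℓ)` attached to `g`. -/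
noncomputable def sPerm [Fact ℓ.Prime] (g : SL(2, R)) (i : OnePoint (ZMod ℓ)) :
    OnePoint (ZMod ℓ) := (E.exists_step g i).choose

/-- The cocycle: `alphaMat i * g = sStep g i * alphaMat (sPerm g i)`. -/
noncomputable def sStep [Fact ℓ.Prime] (g : SL(2, R)) (i : OnePoint (ZMod ℓ)) : SL(2, R) :=
  (E.exists_step g i).choose_spec.choose

theorem rel [Fact ℓ.Prime] (g : SL(2, R)) (i : OnePoint (ZMod ℓ)) :
    alphaMat R ℓ i * g.1 = (E.sStep g i).1 * alphaMat R ℓ (E.sPerm g i) :=
  (E.exists_step g i).choose_spec.choose_spec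

theorem unique [Fact ℓ.Prime] {g : SL(2, R)} {i j : OnePoint (ZMod ℓ)} {t : SL(2, R)}
    (h : alphaMat R ℓ i * g.1 = t.1 * alphaMat R ℓ j) : j = E.sPerm g i ∧ t = E.sStep g i := by
  rw [E.rel g i] at h
  obtain ⟨h1, h2⟩ := E.alpha_inj h
  exact ⟨h1.symm, h2.symm⟩

/-- The step system of the Hecke correspondence `T_ℓ` on `SL(2, R)`. -/
noncomputable def stepSystem [Fact ℓ.Prime] : StepSystem SL(2, R) (OnePoint (ZMod ℓ)) where
  perm := E.sPerm
  step := E.sStep
  perm_one i := ((E.unique (g := 1) (i := i) (j := i) (t := 1) (by simp)).1).symm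
  perm_mul g h i := by
    have key : alphaMat R ℓ i * (g * h).1 =
        (E.sStep g i * E.sStep h (E.sPerm g i)).1 * alphaMat R ℓ (E.sPerm h (E.sPerm g i)) := by
      rw [Matrix.SpecialLinearGroup.coe_mul, Matrix.SpecialLinearGroup.coe_mul, ← mul_assoc,
        E.rel g i, mul_assoc, E.rel h (E.sPerm g i), mul_assoc]
    exact ((E.unique key).1).symm
  step_mul g h i := by
    have key : alphaMat R ℓ i * (g * h).1 =
        (E.sStep g i * E.sStep h (E.sPerm g i)).1 * alphaMat R ℓ (E.sPerm h (E.sPerm g i)) := by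
      rw [Matrix.SpecialLinearGroup.coe_mul, Matrix.SpecialLinearGroup.coe_mul, ← mul_assoc,
        E.rel g i, mul_assoc, E.rel h (E.sPerm g i), mul_assoc]
    exact ((E.unique key).2).symm

@[simp] theorem stepSystem_perm [Fact ℓ.Prime] (g : SL(2, R)) (i : OnePoint (ZMod ℓ)) :
    E.stepSystem.perm g i = E.sPerm g i := rfl

@[simp] theorem stepSystem_step [Fact ℓ.Prime] (g : SL(2, R)) (i : OnePoint (ZMod ℓ)) :
    E.stepSystem.step g i = E.sStep g i := rfl

end EllData

/-! ### The subgroup `Γ₀(𝔞)` -/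

open Fermat.Agent.P6.helper31

/-- `Γ₀(𝔞)`: the matrices of `SL(2, R)` whose lower left entry lies in the ideal `𝔞`. -/
def Gam0 (𝔞 : Ideal R) : Subgroup SL(2, R) where
  carrier := {g | g.1 1 0 ∈ 𝔞}
  one_mem' := by
    show (1 : SL(2, R)).1 1 0 ∈ 𝔞
    rw [one_10]; exact 𝔞.zero_mem
  mul_mem' := by
    intro g h hg hh
    show (g * h).1 1 0 ∈ 𝔞
    rw [mul_10]
    exact 𝔞.add_mem (𝔞.mul_mem_right _ hg) (𝔞.mul_mem_left _ hh)
  inv_mem' := by
    intro g hg
    show (g⁻¹).1 1 0 ∈ 𝔞
    rw [Matrix.SpecialLinearGroup.coe_inv, Matrix.adjugate_fin_two]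
    simpa using 𝔞.neg_mem hg

theorem mem_Gam0_iff {𝔞 : Ideal R} {g : SL(2, R)} : g ∈ Gam0 𝔞 ↔ g.1 1 0 ∈ 𝔞 := Iff.rfl

theorem Gam_le_Gam0 {I 𝔞 : Ideal R} (h : I ≤ 𝔞) : Gam I ≤ Gam0 𝔞 := fun _ hg =>
  h (mem_Gam_iff.mp hg).2.2.1

theorem uMat_mem_Gam0 (𝔞 : Ideal R) (t : R) : uMat t ∈ Gam0 𝔞 := by
  rw [mem_Gam0_iff, uMat_10]; exact 𝔞.zero_mem

namespace EllData

variable (E : EllData R ℓ)
include E

/-- The steps of `Γ₀(𝔞)` lie in `Γ₀(𝔞)` when `ℓ` is invertible modulo `𝔞`. -/
theorem sStep_mem_Gam0 [Fact ℓ.Prime] {𝔞 : Ideal R} (h𝔞 : ∀ x : R, (ℓ : R) * x ∈ 𝔞 → x ∈ 𝔞)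
    {g : SL(2, R)} (hg : g ∈ Gam0 𝔞) (i : OnePoint (ZMod ℓ)) : E.sStep g i ∈ Gam0 𝔞 := by
  have h := E.rel g i
  have e10 := congrFun (congrFun h 1) 0
  rw [mem_Gam0_iff] at hg ⊢
  generalize E.sPerm g i = s at e10
  induction i using OnePoint.rec with
  | infty =>
    induction s using OnePoint.rec with
    | infty =>
      simp [-ZMod.natCast_val, Matrix.mul_apply, Fin.sum_univ_two] at e10
      apply h𝔞
      rw [mul_comm, ← e10]; exact hg
    | coe y =>
      simp [-ZMod.natCast_val, Matrix.mul_apply, Fin.sum_univ_two] at e10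
      rw [← e10]; exact hg
  | coe x =>
    induction s using OnePoint.rec with
    | infty =>
      simp [-ZMod.natCast_val, Matrix.mul_apply, Fin.sum_univ_two] at e10
      apply h𝔞
      rw [mul_comm, ← e10]; exact 𝔞.mul_mem_left _ hg
    | coe y =>
      simp [-ZMod.natCast_val, Matrix.mul_apply, Fin.sum_univ_two] at e10
      rw [← e10]; exact 𝔞.mul_mem_left _ hg

end EllData

/-! ### The approximations `a_j = u(j)`, `a_∞ = 1` and their defects -/

/-- The approximations of the Hecke representatives modulo `ℓ - 1`: `a_j = u(j)`, `a_∞ = 1`. -/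
def aApprox (R : Type*) [CommRing R] (ℓ : ℕ) (x : OnePoint (ZMod ℓ)) : SL(2, R) :=
  x.elim 1 (fun j => uMat (j.val : R))

@[simp] theorem aApprox_infty : aApprox R ℓ OnePoint.infty = 1 := rfl

@[simp] theorem aApprox_coe (j : ZMod ℓ) :
    aApprox R ℓ (j : OnePoint (ZMod ℓ)) = uMat (j.val : R) := rfl

theorem aApprox_mem_Gam0 (𝔞 : Ideal R) (x : OnePoint (ZMod ℓ)) : aApprox R ℓ x ∈ Gam0 𝔞 := by
  induction x using OnePoint.rec with
  | infty => exact (Gam0 𝔞).one_mem
  | coe j => exact uMat_mem_Gam0 𝔞 _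

theorem map_alphaMat {S : Type*} [CommRing S] (f : R →+* S) (hf : f (ℓ : R) = 1)
    (x : OnePoint (ZMod ℓ)) :
    f.mapMatrix (alphaMat R ℓ x) = (Matrix.SpecialLinearGroup.map f (aApprox R ℓ x)).1 := by
  show f.mapMatrix (alphaMat R ℓ x) = f.mapMatrix (aApprox R ℓ x).1
  induction x using OnePoint.rec with
  | infty =>
    ext r s
    fin_cases r <;> fin_cases s <;> simp [hf]
  | coe j =>
    ext r s
    fin_cases r <;> fin_cases s <;> simp [-ZMod.natCast_val, hf, uMat]

namespace EllData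

variable (E : EllData R ℓ)
include E

/-- The defects of the approximations lie in `Γ(I)` as soon as `ℓ ≡ 1 mod I`. -/
theorem defect_mem_Gam [Fact ℓ.Prime] {I : Ideal R} (hI : (ℓ : R) - 1 ∈ I) (g : SL(2, R))
    (i : OnePoint (ZMod ℓ)) : E.stepSystem.defect (aApprox R ℓ) g i ∈ Gam I := by
  have hf : Ideal.Quotient.mk I (ℓ : R) = 1 := by
    have := Ideal.Quotient.eq_zero_iff_mem.mpr hI
    rwa [map_sub, map_one, sub_eq_zero] at this
  unfold Gam
  rw [MonoidHom.mem_ker]
  set m : SL(2, R) →* SL(2, R ⧸ I) :=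
    Matrix.SpecialLinearGroup.map (n := Fin 2) (Ideal.Quotient.mk I) with hm
  have key : m (aApprox R ℓ i) * m g = m (E.sStep g i) * m (aApprox R ℓ (E.sPerm g i)) := by
    apply Subtype.ext
    rw [Matrix.SpecialLinearGroup.coe_mul, Matrix.SpecialLinearGroup.coe_mul,
      ← map_alphaMat _ hf, ← map_alphaMat _ hf]
    have := congrArg (Ideal.Quotient.mk I).mapMatrix (E.rel g i)
    rw [map_mul, map_mul] at this
    exact this
  simp only [StepSystem.defect, stepSystem_perm, stepSystem_step, map_mul, map_inv]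
  rw [key]
  group

end EllData

end Fermat.Agent.P6.helper62
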