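import Mathlib
import Fermat.Agent.P6.helper62_SL2Cosets
import Fermat.Agent.P6.helper73_CentDefs

/-!
# P6 / S41, Corollary C: Ihara's lemma in Eisenstein form (general ring form)

* `EllData.theta_uMat_one` : `θ(u(1)) = χ(u(ℓ - 1)) + χ(u(1 - ℓ))`;
* `hom_eq_zero_of_uMat_one` : a homomorphism `SL(2, R) → F` killing `u(1)` is zero
  (`R = ℤ[1/q]`-like);
* `hecke_sum_eq` : if `Φ` is additive on `Γ₀(𝔞)` and conjugation invariant on `Γ(I)`,
  `ℓ ≡ 1 mod I`, `I ≤ 𝔞`, then `∑ i, Φ (sStep δ i) = (ℓ + 1) • Φ δ` on `Γ₀(𝔞)`.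
-/

set_option autoImplicit false
set_option linter.unusedSectionVars false
set_option linter.unusedVariables false
set_option linter.style.longLine false
set_option linter.style.haveILetI false

open Matrix
open scoped MatrixGroups

namespace Fermat.Agent.P6.helper62

open Fermat.Agent.P6.helper31

variable {R : Type*} [CommRing R] {ℓ : ℕ}

namespace EllData

variable (E : EllData R ℓ)
include E

theorem step_uMat_one_infty [Fact ℓ.Prime] :
    E.sPerm (uMat 1) OnePoint.infty = OnePoint.infty ∧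
      E.sStep (uMat 1) OnePoint.infty = uMat (ℓ : R) := by
  have h : alphaMat R ℓ OnePoint.infty * (uMat (1 : R)).1 =
      (uMat (ℓ : R)).1 * alphaMat R ℓ OnePoint.infty := by
    ext r s
    fin_cases r <;> fin_cases s <;> simp [uMat, Matrix.mul_apply, Fin.sum_univ_two]
  obtain ⟨h1, h2⟩ := E.unique h
  exact ⟨h1.symm, h2.symm⟩

theorem val_add_one_of_lt [Fact ℓ.Prime] (j : ZMod ℓ) (hj : j.val + 1 < ℓ) :
    (j + 1).val = j.val + 1 := by
  haveI : Fact (1 < ℓ) := ⟨(Fact.out : ℓ.Prime).one_lt⟩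
  rw [ZMod.val_add_of_lt (by rwa [ZMod.val_one]), ZMod.val_one]

theorem step_uMat_one_coe_lt [Fact ℓ.Prime] (j : ZMod ℓ) (hj : j.val + 1 < ℓ) :
    E.sPerm (uMat 1) (j : OnePoint (ZMod ℓ)) = ((j + 1 : ZMod ℓ) : OnePoint (ZMod ℓ)) ∧
      E.sStep (uMat 1) (j : OnePoint (ZMod ℓ)) = 1 := by
  have hval := E.val_add_one_of_lt j hj
  have h : alphaMat R ℓ (j : OnePoint (ZMod ℓ)) * (uMat (1 : R)).1 =
      (1 : SL(2, R)).1 * alphaMat R ℓ ((j + 1 : ZMod ℓ) : OnePoint (ZMod ℓ)) := by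
    ext r s
    fin_cases r <;> fin_cases s <;>
      simp [-ZMod.natCast_val, uMat, Matrix.mul_apply, Fin.sum_univ_two, hval]
    ring
  obtain ⟨h1, h2⟩ := E.unique h
  exact ⟨h1.symm, h2.symm⟩

theorem step_uMat_one_coe_eq [Fact ℓ.Prime] (j : ZMod ℓ) (hj : j.val + 1 = ℓ) :
    E.sPerm (uMat 1) (j : OnePoint (ZMod ℓ)) = ((0 : ZMod ℓ) : OnePoint (ZMod ℓ)) ∧
      E.sStep (uMat 1) (j : OnePoint (ZMod ℓ)) = uMat 1 := by
  have hR : (j.val : R) + 1 = (ℓ : R) := by exact_mod_cast congrArg (Nat.cast : ℕ → R) hj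
  have h : alphaMat R ℓ (j : OnePoint (ZMod ℓ)) * (uMat (1 : R)).1 =
      (uMat (1 : R)).1 * alphaMat R ℓ ((0 : ZMod ℓ) : OnePoint (ZMod ℓ)) := by
    ext r s
    fin_cases r <;> fin_cases s <;>
      simp [-ZMod.natCast_val, uMat, Matrix.mul_apply, Fin.sum_univ_two, ZMod.val_zero]
    linear_combination hR
  obtain ⟨h1, h2⟩ := E.unique h
  exact ⟨h1.symm, h2.symm⟩

theorem defect_uMat_one_infty [Fact ℓ.Prime] :
    E.stepSystem.defect (aApprox R ℓ) (uMat 1) OnePoint.infty = uMat ((ℓ : R) - 1) := by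
  obtain ⟨h1, h2⟩ := E.step_uMat_one_infty
  simp only [StepSystem.defect, stepSystem_perm, stepSystem_step, h1, h2, aApprox_infty]
  rw [show (ℓ : R) - 1 = -1 + ℓ by ring, uMat_add, uMat_neg]
  group

theorem defect_uMat_one_coe_lt [Fact ℓ.Prime] (j : ZMod ℓ) (hj : j.val + 1 < ℓ) :
    E.stepSystem.defect (aApprox R ℓ) (uMat 1) (j : OnePoint (ZMod ℓ)) = 1 := by
  obtain ⟨h1, h2⟩ := E.step_uMat_one_coe_lt j hj
  simp only [StepSystem.defect, stepSystem_perm, stepSystem_step, h1, h2, aApprox_coe]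
  rw [E.val_add_one_of_lt j hj, Nat.cast_add, Nat.cast_one, uMat_add]
  group

theorem defect_uMat_one_coe_eq [Fact ℓ.Prime] (j : ZMod ℓ) (hj : j.val + 1 = ℓ) :
    E.stepSystem.defect (aApprox R ℓ) (uMat 1) (j : OnePoint (ZMod ℓ)) = uMat (1 - (ℓ : R)) := by
  obtain ⟨h1, h2⟩ := E.step_uMat_one_coe_eq j hj
  have hR : (j.val : R) + 1 = (ℓ : R) := by exact_mod_cast congrArg (Nat.cast : ℕ → R) hj
  simp only [StepSystem.defect, stepSystem_perm, stepSystem_step, h1, h2, aApprox_coe,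
    ZMod.val_zero, Nat.cast_zero, uMat_zero]
  rw [show (1 : R) - ℓ = -((j.val : R) + 1) + 1 by rw [hR]; ring, uMat_add, uMat_neg, uMat_add]
  group

variable {F : Type*} [AddCommGroup F]

/-- `θ(u(1)) = χ(u(ℓ - 1)) + χ(u(1 - ℓ))` for every function `χ` with `χ 1 = 0`. -/
theorem theta_uMat_one [Fact ℓ.Prime] (χ : SL(2, R) → F) (hχ1 : χ 1 = 0) :
    E.stepSystem.theta (aApprox R ℓ) χ (uMat 1) =
      χ (uMat ((ℓ : R) - 1)) + χ (uMat (1 - (ℓ : R))) := by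
  haveI : NeZero ℓ := ⟨(Fact.out : ℓ.Prime).ne_zero⟩
  have hℓ1 : 1 ≤ ℓ := (Fact.out : ℓ.Prime).one_lt.le
  unfold StepSystem.theta
  have hsum : ∀ f : OnePoint (ZMod ℓ) → F,
      ∑ x, f x = f OnePoint.infty + ∑ j : ZMod ℓ, f (j : OnePoint (ZMod ℓ)) :=
    fun f => Fintype.sum_option f
  rw [hsum, E.defect_uMat_one_infty]
  congr 1
  set j₀ : ZMod ℓ := ((ℓ - 1 : ℕ) : ZMod ℓ) with hj₀
  have hj₀v : j₀.val + 1 = ℓ := by
    rw [hj₀, ZMod.val_natCast_of_lt (by omega)]; omega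
  rw [Finset.sum_eq_single j₀, E.defect_uMat_one_coe_eq j₀ hj₀v]
  · intro j _ hj
    have hlt : j.val + 1 < ℓ := by
      have h1 : j.val < ℓ := ZMod.val_lt j
      rcases Nat.lt_or_ge (j.val + 1) ℓ with h | h
      · exact h
      · exfalso
        apply hj
        have : j.val = ℓ - 1 := by omega
        rw [hj₀, ← this, ZMod.natCast_zmod_val]
    rw [E.defect_uMat_one_coe_lt j hlt, hχ1]
  · intro h; exact absurd (Finset.mem_univ _) h

end EllData

/-! ### Homomorphisms on `SL(2, ℤ[1/q])` killing `u(1)` -/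

section Vanish

variable {F : Type*} [AddCommGroup F]

theorem dMat_conj_uMat (v : Rˣ) (x : R) :
    dMat v * uMat x * (dMat v)⁻¹ = uMat ((v : R) ^ 2 * x) := by
  rw [mul_inv_eq_iff_eq_mul]
  apply sl2_ext
  all_goals
    simp only [mul_00, mul_01, mul_10, mul_11, uMat_00, uMat_01, uMat_10, uMat_11, dMat_00,
      dMat_01, dMat_10, dMat_11]
  · ring
  · have h2 : (v : R) * ((v⁻¹ : Rˣ) : R) = 1 := by simp
    linear_combination (-(v : R) * x) * h2
  · ring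
  · ring

/-- A homomorphism `SL(2, R) → F` into an abelian group that kills `u(1)` is zero, provided
`SL(2, R)` is generated by elementary matrices and every element of `R` becomes an integer after
multiplication by an even power of a unit `v` (e.g. `R = ℤ[1/q]`, `v = q`). -/
theorem hom_eq_zero_of_uMat_one (hgen : helper73.GenStatement R) (v : Rˣ)
    (hv : ∀ x : R, ∃ k : ℕ, ∃ n : ℤ, (v : R) ^ (2 * k) * x = n)
    (θ : Additive SL(2, R) →+ F) (h1 : θ (Additive.ofMul (uMat 1)) = 0) (g : SL(2, R)) :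
    θ (Additive.ofMul g) = 0 := by
  have hconj : ∀ a b : SL(2, R), θ (Additive.ofMul (a * b * a⁻¹)) = θ (Additive.ofMul b) := by
    intro a b
    rw [ofMul_mul, ofMul_mul, ofMul_inv, map_add, map_add, map_neg]
    abel
  let f : R →+ F :=
    { toFun := fun x => θ (Additive.ofMul (uMat x))
      map_zero' := by rw [uMat_zero, ofMul_one, map_zero]
      map_add' := fun x y => by rw [uMat_add, ofMul_mul, map_add] }
  have hf : ∀ x, f x = θ (Additive.ofMul (uMat x)) := fun _ => rfl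
  have hfv : ∀ x, f ((v : R) ^ 2 * x) = f x := by
    intro x
    rw [hf, hf, ← dMat_conj_uMat, hconj]
  have hfvk : ∀ (k : ℕ) (x : R), f ((v : R) ^ (2 * k) * x) = f x := by
    intro k
    induction k with
    | zero => intro x; simp
    | succ k ih =>
      intro x
      rw [show (v : R) ^ (2 * (k + 1)) * x = (v : R) ^ 2 * ((v : R) ^ (2 * k) * x) by ring, hfv, ih]
  have hfint : ∀ n : ℤ, f (n : R) = 0 := by
    intro n
    have : (n : R) = n • (1 : R) := by simp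
    rw [this, map_zsmul, hf, h1, smul_zero]
  have hf0 : ∀ x, f x = 0 := by
    intro x
    obtain ⟨k, n, hkn⟩ := hv x
    rw [← hfvk k x, hkn, hfint]
  have hu : ∀ x : R, θ (Additive.ofMul (uMat x)) = 0 := hf0
  have hl : ∀ x : R, θ (Additive.ofMul (lMat x)) = 0 := by
    intro x
    rw [lMat_eq_conj, hconj, hu]
  have hmem : g ∈ Subgroup.closure
      ({g | ∃ t : R, g = uMat t} ∪ {g | ∃ t : R, g = lMat t}) := by
    rw [hgen]; exact Subgroup.mem_top g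
  induction hmem using Subgroup.closure_induction with
  | mem x hx =>
    rcases hx with ⟨t, rfl⟩ | ⟨t, rfl⟩
    · exact hu t
    · exact hl t
  | one => rw [ofMul_one, map_zero]
  | mul x y _ _ hx hy => rw [ofMul_mul, map_add, hx, hy, add_zero]
  | inv x _ hx => rw [ofMul_inv, map_neg, hx, neg_zero]

end Vanish

/-! ### The main theorem -/

section Main

variable {F : Type*} [AddCommGroup F]

/-- **Corollary C (Ihara's lemma in Eisenstein form), general ring form.**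
Let `Φ` be additive on `Γ₀(𝔞)` and invariant under conjugation by `SL(2, R)` on `Γ(I)`, where
`ℓ ≡ 1 mod I` and `I ≤ 𝔞`.  Then `∑ i, Φ (sStep δ i) = (ℓ + 1) • Φ δ` for all `δ ∈ Γ₀(𝔞)`,
i.e. `T_ℓ Φ = (ℓ + 1) Φ`. -/
theorem hecke_sum_eq [Fact ℓ.Prime] (E : EllData R ℓ) (hgen : helper73.GenStatement R) (v : Rˣ)
    (hv : ∀ x : R, ∃ k : ℕ, ∃ n : ℤ, (v : R) ^ (2 * k) * x = n)
    {I 𝔞 : Ideal R} (hℓ : (ℓ : R) - 1 ∈ I) (hI : I ≤ 𝔞) (Φ : SL(2, R) → F)
    (hΦ : ∀ x ∈ Gam0 𝔞, ∀ y ∈ Gam0 𝔞, Φ (x * y) = Φ x + Φ y)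
    (hinv : ∀ g : SL(2, R), ∀ k ∈ Gam I, Φ (g * k * g⁻¹) = Φ k)
    {δ : SL(2, R)} (hδ : δ ∈ Gam0 𝔞) :
    ∑ i, Φ (E.sStep δ i) = (ℓ + 1) • Φ δ := by
  haveI : NeZero ℓ := ⟨(Fact.out : ℓ.Prime).ne_zero⟩
  have hKD : Gam I ≤ Gam0 𝔞 := Gam_le_Gam0 hI
  have hK := fun g i => E.defect_mem_Gam hℓ g i
  have hadd : ∀ x ∈ Gam I, ∀ y ∈ Gam I, Φ (x * y) = Φ x + Φ y :=
    fun x hx y hy => hΦ x (hKD hx) y (hKD hy)
  have hinv' : ∀ g : SL(2, R), ∀ x ∈ Gam I, g * x * g⁻¹ ∈ Gam I ∧ Φ (g * x * g⁻¹) = Φ x :=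
    fun g x hx => ⟨(Gam_normal I).conj_mem x hx g, hinv g x hx⟩
  have hΦ1 : Φ 1 = 0 := StepSystem.map_one_of_additiveOn (Gam0 𝔞) Φ hΦ
  -- θ vanishes
  have hθ : ∀ g, E.stepSystem.theta (aApprox R ℓ) Φ g = 0 := by
    intro g
    have h1 : E.stepSystem.thetaHom (aApprox R ℓ) Φ (Gam I) hK hadd hinv'
        (Additive.ofMul (uMat 1)) = 0 := by
      rw [StepSystem.thetaHom_apply, E.theta_uMat_one Φ hΦ1,
        ← hΦ _ (uMat_mem_Gam0 𝔞 _) _ (uMat_mem_Gam0 𝔞 _), ← uMat_add]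
      rw [show (ℓ : R) - 1 + (1 - ℓ) = 0 by ring, uMat_zero, hΦ1]
    exact hom_eq_zero_of_uMat_one hgen v hv _ h1 g
  have h𝔞 : ∀ x : R, (ℓ : R) * x ∈ 𝔞 → x ∈ 𝔞 := by
    intro x hx
    have : x = (ℓ : R) * x - ((ℓ : R) - 1) * x := by ring
    rw [this]
    exact 𝔞.sub_mem hx (𝔞.mul_mem_right _ (hI hℓ))
  have := E.stepSystem.sum_step_eq (aApprox R ℓ) (Gam0 𝔞) Φ hΦ (aApprox_mem_Gam0 𝔞) hδ
    (fun i => E.sStep_mem_Gam0 h𝔞 hδ i)
  simp only [EllData.stepSystem_step] at this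
  rw [this, hθ, add_zero]
  congr 1
  show Fintype.card (Option (ZMod ℓ)) = ℓ + 1
  rw [Fintype.card_option, ZMod.card]

end Main

end Fermat.Agent.P6.helper62
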