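import Mathlib
import Fermat.Agent.P6.helper62_IharaEis

/-!
# P6 / S41, Corollary C: the bridge, ring level

For a ring `R` with reduction data modulo `ℓ` and a unit `u` (think `R = ℤ[1/q]`, `u = q`):

* `iotaR R : SL(2, ℤ) →* SL(2, R)`, `conjG u` (conjugation by `diag(u, 1)`),
  `kappaR u = conjG u ∘ iotaR` (`γ ↦ [[a, b/u],[u c, d]]`);
* `EllData.sStep_iotaR` (B2): an integral relation `α_x γ = t α_y` over `ℤ` computes the steps of
  `iotaR γ`;
* `EllData.sStep_conjG` (B3): conjugation by `diag(u, 1)` permutes the cosets: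
  `sStep (conjG u g) (σ x) = u(e_x)⁻¹ * conjG u t * u(e_y)`;
* `EllData.sum_sStep_conjG` : hence `∑ y, Φ (sStep (conjG u g) y) = ∑ x, Φ (conjG u (t x))`.
-/

set_option autoImplicit false
set_option linter.unusedSectionVars false
set_option linter.unusedVariables false
set_option linter.style.longLine false
set_option linter.style.haveILetI false

open Matrix
open scoped MatrixGroups

namespace Fermat.Agent.P6.helper62

open Fermat.Agent.P6.helper31

variable {R : Type*} [CommRing R] {ℓ : ℕ}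

/-! ### The two embeddings of `SL(2, ℤ)` into `SL(2, R)` -/

/-- The coercion `SL(2, ℤ) → SL(2, R)`. -/
abbrev iotaR (R : Type*) [CommRing R] : SL(2, ℤ) →* SL(2, R) :=
  Matrix.SpecialLinearGroup.map (Int.castRingHom R)

theorem iotaR_coe (γ : SL(2, ℤ)) :
    (iotaR R γ).1 = (Int.castRingHom R).mapMatrix γ.1 := rfl

/-- `diag(u, 1)` as a matrix. -/
def gMat (u : Rˣ) : Matrix (Fin 2) (Fin 2) R := !![(u : R), 0; 0, 1]

/-- `diag(u⁻¹, 1)` as a matrix. -/
def gInvMat (u : Rˣ) : Matrix (Fin 2) (Fin 2) R := !![((u⁻¹ : Rˣ) : R), 0; 0, 1]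

theorem gMat_mul_gInvMat (u : Rˣ) : gMat u * gInvMat u = 1 := by
  ext r s
  fin_cases r <;> fin_cases s <;> simp [gMat, gInvMat, Matrix.mul_apply, Fin.sum_univ_two]

theorem gInvMat_mul_gMat (u : Rˣ) : gInvMat u * gMat u = 1 := by
  ext r s
  fin_cases r <;> fin_cases s <;> simp [gMat, gInvMat, Matrix.mul_apply, Fin.sum_univ_two]

/-- Conjugation by `diag(u, 1)`: `g ↦ diag(u,1)⁻¹ g diag(u,1)`, as an automorphism of
`SL(2, R)`. -/
def conjG (u : Rˣ) : SL(2, R) →* SL(2, R) where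
  toFun g := ⟨gInvMat u * g.1 * gMat u, by
    rw [Matrix.det_mul, Matrix.det_mul, g.2, mul_one, ← Matrix.det_mul, gInvMat_mul_gMat,
      Matrix.det_one]⟩
  map_one' := by
    apply Subtype.ext
    show gInvMat u * (1 : SL(2, R)).1 * gMat u = 1
    rw [Matrix.SpecialLinearGroup.coe_one, mul_one, gInvMat_mul_gMat]
  map_mul' a b := by
    apply Subtype.ext
    show gInvMat u * (a * b).1 * gMat u = (gInvMat u * a.1 * gMat u) * (gInvMat u * b.1 * gMat u)
    rw [Matrix.SpecialLinearGroup.coe_mul]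
    calc gInvMat u * (a.1 * b.1) * gMat u
        = gInvMat u * a.1 * 1 * b.1 * gMat u := by rw [mul_one]; simp only [mul_assoc]
      _ = gInvMat u * a.1 * (gMat u * gInvMat u) * b.1 * gMat u := by rw [gMat_mul_gInvMat]
      _ = _ := by simp only [mul_assoc]

theorem conjG_coe (u : Rˣ) (g : SL(2, R)) : (conjG u g).1 = gInvMat u * g.1 * gMat u := rfl

theorem conjG_apply_10 (u : Rˣ) (g : SL(2, R)) : (conjG u g).1 1 0 = g.1 1 0 * u := by
  rw [conjG_coe, Matrix.mul_apply, Fin.sum_univ_two, Matrix.mul_apply, Matrix.mul_apply,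
    Fin.sum_univ_two, Fin.sum_univ_two]
  simp [gMat, gInvMat]

theorem conjG_coe_eq (u : Rˣ) (g : SL(2, R)) :
    (conjG u g).1 = !![g.1 0 0, ((u⁻¹ : Rˣ) : R) * g.1 0 1; (u : R) * g.1 1 0, g.1 1 1] := by
  have h2 : ((u⁻¹ : Rˣ) : R) * (u : R) = 1 := by simp
  ext r s
  fin_cases r <;> fin_cases s <;>
    (rw [conjG_coe, Matrix.mul_apply, Fin.sum_univ_two, Matrix.mul_apply, Matrix.mul_apply,
      Fin.sum_univ_two, Fin.sum_univ_two]; simp [gMat, gInvMat])
  · linear_combination (g.1 0 0) * h2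
  · ring

theorem conjG_mem_Gam0 (u : Rˣ) {𝔞 : Ideal R} {g : SL(2, R)} (hg : g ∈ Gam0 𝔞) :
    conjG u g ∈ Gam0 𝔞 := by
  rw [mem_Gam0_iff, conjG_apply_10]
  exact 𝔞.mul_mem_right _ hg

/-- `κ : SL(2, ℤ) → SL(2, R)`, `γ ↦ diag(u,1)⁻¹ γ diag(u,1) = [[a, b/u],[u c, d]]`. -/
def kappaR (u : Rˣ) : SL(2, ℤ) →* SL(2, R) := (conjG u).comp (iotaR R)

theorem kappaR_coe (u : Rˣ) (γ : SL(2, ℤ)) :
    (kappaR u γ).1 = gInvMat u * (iotaR R γ).1 * gMat u := rfl

theorem alphaMat_map (x : OnePoint (ZMod ℓ)) :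
    (Int.castRingHom R).mapMatrix (alphaMat ℤ ℓ x) = alphaMat R ℓ x := by
  induction x using OnePoint.rec with
  | infty =>
    ext r s
    fin_cases r <;> fin_cases s <;> simp
  | coe j =>
    ext r s
    fin_cases r <;> fin_cases s <;> simp [-ZMod.natCast_val]

namespace EllData

variable (E : EllData R ℓ)
include E

/-- **(B2)** the steps of the image of `γ ∈ SL(2, ℤ)` are the images of the integral steps. -/
theorem sStep_iotaR [Fact ℓ.Prime] {γ t : SL(2, ℤ)} {x y : OnePoint (ZMod ℓ)}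
    (h : alphaMat ℤ ℓ x * γ.1 = t.1 * alphaMat ℤ ℓ y) :
    E.sPerm (iotaR R γ) x = y ∧ E.sStep (iotaR R γ) x = iotaR R t := by
  have h' : alphaMat R ℓ x * (iotaR R γ).1 = (iotaR R t).1 * alphaMat R ℓ y := by
    have := congrArg (Int.castRingHom R).mapMatrix h
    rw [map_mul, map_mul, alphaMat_map, alphaMat_map] at this
    exact this
  obtain ⟨h1, h2⟩ := E.unique h'
  exact ⟨h1.symm, h2.symm⟩

theorem red_unit_ne_zero [Fact ℓ.Prime] (u : Rˣ) : E.red (u : R) ≠ 0 := by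
  intro h
  have h1 : E.red (u : R) * E.red ((u⁻¹ : Rˣ) : R) = 1 := by
    rw [← map_mul]; simp
  rw [h, zero_mul] at h1
  exact zero_ne_one h1

theorem red_unit_inv [Fact ℓ.Prime] (u : Rˣ) : E.red ((u⁻¹ : Rˣ) : R) = (E.red (u : R))⁻¹ := by
  have h1 : E.red (u : R) * E.red ((u⁻¹ : Rˣ) : R) = 1 := by
    rw [← map_mul]; simp
  exact eq_inv_of_mul_eq_one_right h1

/-- The permutation of `ℙ¹(𝔽_ℓ)` induced by conjugation with `diag(u, 1)`: `j ↦ j / u`. -/
noncomputable def sigma (u : Rˣ) (x : OnePoint (ZMod ℓ)) : OnePoint (ZMod ℓ) :=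
  x.elim OnePoint.infty (fun j => ((j * (E.red (u : R))⁻¹ : ZMod ℓ) : OnePoint (ZMod ℓ)))

@[simp] theorem sigma_infty (u : Rˣ) : E.sigma u OnePoint.infty = OnePoint.infty := rfl

@[simp] theorem sigma_coe (u : Rˣ) (j : ZMod ℓ) :
    E.sigma u (j : OnePoint (ZMod ℓ)) = ((j * (E.red (u : R))⁻¹ : ZMod ℓ) : OnePoint (ZMod ℓ)) :=
  rfl

theorem sigma_bijective [Fact ℓ.Prime] (u : Rˣ) : Function.Bijective (E.sigma u) := by
  have hu := E.red_unit_ne_zero u
  rw [← Finite.injective_iff_bijective]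
  intro x y hxy
  induction x using OnePoint.rec with
  | infty =>
    induction y using OnePoint.rec with
    | infty => rfl
    | coe j => simp at hxy
  | coe i =>
    induction y using OnePoint.rec with
    | infty => simp at hxy
    | coe j =>
      simp only [sigma_coe, OnePoint.coe_eq_coe] at hxy
      have := mul_right_cancel₀ (inv_ne_zero hu) hxy
      rw [this]

theorem exists_eQ [Fact ℓ.Prime] (u : Rˣ) (x : OnePoint (ZMod ℓ)) :
    ∃ e : R, gInvMat u * alphaMat R ℓ x * gMat u = (uMat e).1 * alphaMat R ℓ (E.sigma u x) := by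
  haveI : NeZero ℓ := ⟨(Fact.out : ℓ.Prime).ne_zero⟩
  induction x using OnePoint.rec with
  | infty =>
    refine ⟨0, ?_⟩
    ext r s
    fin_cases r <;> fin_cases s <;>
      simp [gMat, gInvMat, uMat, Matrix.mul_apply, Fin.sum_univ_two, mul_comm]
  | coe j =>
    have h0 : E.red (((u⁻¹ : Rˣ) : R) * (j.val : R) -
        (((j * (E.red (u : R))⁻¹ : ZMod ℓ)).val : R)) = 0 := by
      rw [map_sub, map_mul, E.red_val, E.red_val, E.red_unit_inv, mul_comm, sub_self]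
    obtain ⟨e, he⟩ := (E.red_eq_zero _).mp h0
    refine ⟨e, ?_⟩
    ext r s
    fin_cases r <;> fin_cases s <;>
      simp [-ZMod.natCast_val, gMat, gInvMat, uMat, Matrix.mul_apply, Fin.sum_univ_two]
    linear_combination he

/-- The correction terms `e_x`: `diag(u,1)⁻¹ α_x diag(u,1) = u(e_x) α_{σ x}`. -/
noncomputable def eQ [Fact ℓ.Prime] (u : Rˣ) (x : OnePoint (ZMod ℓ)) : R :=
  (E.exists_eQ u x).choose

theorem eQ_spec [Fact ℓ.Prime] (u : Rˣ) (x : OnePoint (ZMod ℓ)) :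
    gInvMat u * alphaMat R ℓ x * gMat u = (uMat (E.eQ u x)).1 * alphaMat R ℓ (E.sigma u x) :=
  (E.exists_eQ u x).choose_spec

/-- **(B3)** the steps of `κ(γ)`: conjugation by `diag(u, 1)` permutes the cosets. -/
theorem sStep_conjG [Fact ℓ.Prime] (u : Rˣ) {g t : SL(2, R)} {x y : OnePoint (ZMod ℓ)}
    (h : alphaMat R ℓ x * g.1 = t.1 * alphaMat R ℓ y) :
    E.sPerm (conjG u g) (E.sigma u x) = E.sigma u y ∧
      E.sStep (conjG u g) (E.sigma u x) = (uMat (E.eQ u x))⁻¹ * conjG u t * uMat (E.eQ u y) := by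
  have hx := E.eQ_spec u x
  have hy := E.eQ_spec u y
  have key : alphaMat R ℓ (E.sigma u x) * (conjG u g).1 =
      ((uMat (E.eQ u x))⁻¹ * conjG u t * uMat (E.eQ u y)).1 * alphaMat R ℓ (E.sigma u y) := by
    have hinv : ((uMat (E.eQ u x))⁻¹).1 * (uMat (E.eQ u x)).1 = 1 := by
      rw [← Matrix.SpecialLinearGroup.coe_mul, inv_mul_cancel, Matrix.SpecialLinearGroup.coe_one]
    calc alphaMat R ℓ (E.sigma u x) * (conjG u g).1
        = ((uMat (E.eQ u x))⁻¹).1 * ((uMat (E.eQ u x)).1 * alphaMat R ℓ (E.sigma u x)) *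
            (conjG u g).1 := by
          rw [← mul_assoc ((uMat (E.eQ u x))⁻¹).1, hinv, one_mul]
      _ = ((uMat (E.eQ u x))⁻¹).1 * (gInvMat u * alphaMat R ℓ x * gMat u) *
            (gInvMat u * g.1 * gMat u) := by rw [← hx, conjG_coe]
      _ = ((uMat (E.eQ u x))⁻¹).1 * (gInvMat u * (alphaMat R ℓ x * (gMat u * gInvMat u) * g.1) *
            gMat u) := by simp only [mul_assoc]
      _ = ((uMat (E.eQ u x))⁻¹).1 * (gInvMat u * (t.1 * alphaMat R ℓ y) * gMat u) := by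
          rw [gMat_mul_gInvMat, mul_one, h]
      _ = ((uMat (E.eQ u x))⁻¹).1 * (gInvMat u * (t.1 * (gMat u * gInvMat u) * alphaMat R ℓ y) *
            gMat u) := by rw [gMat_mul_gInvMat, mul_one]
      _ = ((uMat (E.eQ u x))⁻¹).1 * ((gInvMat u * t.1 * gMat u) *
            (gInvMat u * alphaMat R ℓ y * gMat u)) := by simp only [mul_assoc]
      _ = ((uMat (E.eQ u x))⁻¹).1 * ((conjG u t).1 *
            ((uMat (E.eQ u y)).1 * alphaMat R ℓ (E.sigma u y))) := by rw [hy, conjG_coe]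
      _ = _ := by
          simp only [Matrix.SpecialLinearGroup.coe_mul, mul_assoc]
  obtain ⟨h1, h2⟩ := E.unique key
  exact ⟨h1.symm, h2.symm⟩

variable {F : Type*} [AddCommGroup F]

/-- **(B3), sum form**: the Hecke sum of `Φ` at `κ(g)` is the sum of the `Φ (κ (step))`. -/
theorem sum_sStep_conjG [Fact ℓ.Prime] (u : Rˣ) {𝔞 : Ideal R} (Φ : SL(2, R) → F)
    (hΦ : ∀ x ∈ Gam0 𝔞, ∀ y ∈ Gam0 𝔞, Φ (x * y) = Φ x + Φ y)
    {g : SL(2, R)} (perm : OnePoint (ZMod ℓ) → OnePoint (ZMod ℓ)) (hperm : Function.Bijective perm)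
    (t : OnePoint (ZMod ℓ) → SL(2, R)) (ht : ∀ x, t x ∈ Gam0 𝔞)
    (h : ∀ x, alphaMat R ℓ x * g.1 = (t x).1 * alphaMat R ℓ (perm x)) :
    ∑ y, Φ (E.sStep (conjG u g) y) = ∑ x, Φ (conjG u (t x)) := by
  rw [← (E.sigma_bijective u).sum_comp (fun y => Φ (E.sStep (conjG u g) y))]
  have key : ∀ x, Φ (E.sStep (conjG u g) (E.sigma u x)) =
      (Φ (uMat (E.eQ u (perm x))) - Φ (uMat (E.eQ u x))) + Φ (conjG u (t x)) := by
    intro x
    rw [(E.sStep_conjG u (h x)).2,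
      hΦ _ ((Gam0 𝔞).mul_mem ((Gam0 𝔞).inv_mem (uMat_mem_Gam0 𝔞 _)) (conjG_mem_Gam0 u (ht x))) _
        (uMat_mem_Gam0 𝔞 _),
      hΦ _ ((Gam0 𝔞).inv_mem (uMat_mem_Gam0 𝔞 _)) _ (conjG_mem_Gam0 u (ht x)),
      StepSystem.map_inv_of_additiveOn (Gam0 𝔞) Φ hΦ (uMat_mem_Gam0 𝔞 _)]
    abel
  rw [Finset.sum_congr rfl fun x _ => key x, Finset.sum_add_distrib, Finset.sum_sub_distrib,
    hperm.sum_comp (fun x => Φ (uMat (E.eQ u x))), sub_self, zero_add]

end EllData

end Fermat.Agent.P6.helper62
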