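import Mathlib
import Fermat.Agent.P6.helper62_IharaEis
import Fermat.Agent.P6.helper31_ElemGen

/-!
# P6 / S41, Corollary C: Ihara's lemma in Eisenstein form for `ℤ[1/q]`

* `inv_of_centrality` (C1) : Theorem A at level `pN` implies that every `Φ` additive on `Γ₀(N)`
  with values in a group killed by `p` is conjugation invariant on `Γ(pN)`;
* `ellDataAway`, `awayUnit`, `awayUnit_spec` : the reduction data modulo `ℓ ≠ q` on any
  `A` with `[IsLocalization.Away (q : ℤ) A]`;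
* `ihara_eisenstein` : `∑ i, Φ (sStep δ i) = (ℓ + 1) • Φ δ` for `δ ∈ Γ₀(N)[1/q]`,
  `ℓ ≡ 1 mod pN`, `ℓ ≠ q`.
-/

set_option autoImplicit false
set_option linter.unusedSectionVars false
set_option linter.unusedVariables false
set_option linter.style.longLine false
set_option linter.style.haveILetI false

open Matrix
open scoped MatrixGroups

namespace Fermat.Agent.P6.helper62

open Fermat.Agent.P6.helper31

variable {R : Type*} [CommRing R] {ℓ : ℕ}

/-! ### (C1): invariance from centrality -/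

section C1

variable {F : Type*} [AddCommGroup F]

theorem uMat_pow (x : R) (n : ℕ) : (uMat x) ^ n = uMat ((n : R) * x) := by
  induction n with
  | zero => simp [uMat_zero]
  | succ n ih => rw [pow_succ, ih, ← uMat_add]; congr 1; push_cast; ring

theorem map_pow_of_additiveOn (D : Subgroup SL(2, R)) (Φ : SL(2, R) → F)
    (hΦ : ∀ x ∈ D, ∀ y ∈ D, Φ (x * y) = Φ x + Φ y) {x : SL(2, R)} (hx : x ∈ D) (n : ℕ) :
    Φ (x ^ n) = n • Φ x := by
  induction n with
  | zero => rw [pow_zero, zero_smul]; exact StepSystem.map_one_of_additiveOn D Φ hΦ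
  | succ n ih => rw [pow_succ, hΦ _ (D.pow_mem hx n) _ hx, ih, succ_nsmul]

/-- A function additive on `Γ₀(N)` with values in a group killed by `p` kills `E(pN)`. -/
theorem map_El_eq_zero {p N : ℕ} (hpF : ∀ x : F, p • x = 0) (Φ : SL(2, R) → F)
    (hΦ : ∀ x ∈ Gam0 (Ideal.span {(N : R)}), ∀ y ∈ Gam0 (Ideal.span {(N : R)}),
      Φ (x * y) = Φ x + Φ y) {e : SL(2, R)}
    (he : e ∈ El (Ideal.span {((p * N : ℕ) : R)})) : Φ e = 0 := by
  set D := Gam0 (Ideal.span {(N : R)}) with hD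
  have hID : Ideal.span {((p * N : ℕ) : R)} ≤ Ideal.span {(N : R)} := by
    rw [Ideal.span_singleton_le_iff_mem, Ideal.mem_span_singleton]
    exact ⟨(p : R), by push_cast; ring⟩
  have hElD : El (Ideal.span {((p * N : ℕ) : R)}) ≤ D :=
    El_le_Gam.trans (Gam_le_Gam0 hID)
  unfold El Subgroup.normalClosure at he
  induction he using Subgroup.closure_induction with
  | mem x hx =>
    obtain ⟨b, ⟨t, ht, rfl⟩, hb⟩ := Group.mem_conjugatesOfSet_iff.mp hx
    obtain ⟨c, rfl⟩ := isConj_iff.mp hb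
    obtain ⟨s, rfl⟩ := Ideal.mem_span_singleton.mp ht
    have e1 : uMat (((p * N : ℕ) : R) * s) = (uMat ((N : R) * s)) ^ p := by
      rw [uMat_pow]; congr 1; push_cast; ring
    have e2 : c * uMat (((p * N : ℕ) : R) * s) * c⁻¹ = (c * uMat ((N : R) * s) * c⁻¹) ^ p := by
      rw [e1, conj_pow]
    have hmem : c * uMat ((N : R) * s) * c⁻¹ ∈ D := by
      apply Gam_le_Gam0 (le_refl _)
      apply (Gam_normal _).conj_mem
      rw [uMat_mem_Gam_iff]
      exact Ideal.mul_mem_right _ _ (Ideal.mem_span_singleton_self _)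
    rw [e2, map_pow_of_additiveOn D Φ hΦ hmem, hpF]
  | one => exact StepSystem.map_one_of_additiveOn D Φ hΦ
  | mul x y hx hy ihx ihy =>
    have hx' : x ∈ D := hElD (by unfold El Subgroup.normalClosure; exact hx)
    have hy' : y ∈ D := hElD (by unfold El Subgroup.normalClosure; exact hy)
    rw [hΦ x hx' y hy', ihx, ihy, add_zero]
  | inv x hx ihx =>
    have hx' : x ∈ D := hElD (by unfold El Subgroup.normalClosure; exact hx)
    rw [StepSystem.map_inv_of_additiveOn D Φ hΦ hx', ihx, neg_zero]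

/-- **(C1)** invariance of `Φ` on `Γ(pN)` under conjugation by `SL(2, R)`, from Theorem A
(centrality) at level `pN`. -/
theorem inv_of_centrality {p N : ℕ} (hcent : helper73.CentralityStatement R (p * N))
    (hpF : ∀ x : F, p • x = 0) (Φ : SL(2, R) → F)
    (hΦ : ∀ x ∈ Gam0 (Ideal.span {(N : R)}), ∀ y ∈ Gam0 (Ideal.span {(N : R)}),
      Φ (x * y) = Φ x + Φ y) (g : SL(2, R)) {k : SL(2, R)}
    (hk : k ∈ Gam (Ideal.span {((p * N : ℕ) : R)})) : Φ (g * k * g⁻¹) = Φ k := by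
  have hID : Ideal.span {((p * N : ℕ) : R)} ≤ Ideal.span {(N : R)} := by
    rw [Ideal.span_singleton_le_iff_mem, Ideal.mem_span_singleton]
    exact ⟨(p : R), by push_cast; ring⟩
  have hc := hcent g k hk
  have e : g * k * g⁻¹ = (g * k * g⁻¹ * k⁻¹) * k := by group
  rw [e, hΦ _ (Gam_le_Gam0 hID (El_le_Gam hc)) _ (Gam_le_Gam0 hID hk),
    map_El_eq_zero hpF Φ hΦ hc, zero_add]

end C1

/-! ### The ring `ℤ[1/q]` -/

section Away

variable (q : ℕ) (A : Type*) [CommRing A] [IsLocalization.Away (q : ℤ) A]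

theorem away_isUnit_q : IsUnit ((q : ℕ) : A) := by
  have := IsLocalization.Away.algebraMap_isUnit (S := A) (q : ℤ)
  simpa using this

theorem away_exists_int (x : A) : ∃ (k : ℕ) (n : ℤ), x * (q : A) ^ k = (n : A) := by
  obtain ⟨k, n, h⟩ := IsLocalization.Away.surj (q : ℤ) x
  refine ⟨k, n, ?_⟩
  simpa using h

theorem away_intCast_injective (hq : q ≠ 0) : Function.Injective (Int.cast : ℤ → A) := by
  have h := IsLocalization.injective A (M := Submonoid.powers (q : ℤ))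
    (powers_le_nonZeroDivisors_of_noZeroDivisors (by exact_mod_cast hq))
  intro a b hab
  apply h
  simpa using hab

variable {q}

/-- Reduction modulo a prime `ℓ ≠ q` on `ℤ[1/q]`. -/
noncomputable def awayRed (hq : q.Prime) (ℓ : ℕ) [Fact ℓ.Prime] (hℓq : ℓ ≠ q) : A →+* ZMod ℓ :=
  IsLocalization.Away.lift (q : ℤ) (g := Int.castRingHom (ZMod ℓ)) (by
    have hcop : Nat.Coprime q ℓ := (Nat.coprime_primes hq Fact.out).mpr (Ne.symm hℓq)
    have := (ZMod.isUnit_iff_coprime q ℓ).mpr hcop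
    simpa using this)

theorem awayRed_intCast (hq : q.Prime) (ℓ : ℕ) [Fact ℓ.Prime] (hℓq : ℓ ≠ q) (n : ℤ) :
    awayRed A hq ℓ hℓq (n : A) = (n : ZMod ℓ) := map_intCast _ n

/-- The reduction data modulo `ℓ` on `ℤ[1/q]`, `ℓ ≠ q` primes. -/
noncomputable def ellDataAway (hq : q.Prime) (ℓ : ℕ) [Fact ℓ.Prime] (hℓq : ℓ ≠ q) :
    EllData A ℓ where
  red := awayRed A hq ℓ hℓq
  red_eq_zero x := by
    obtain ⟨u, hu⟩ := away_isUnit_q q A
    constructor
    · intro hx
      obtain ⟨k, n, hkn⟩ := away_exists_int q A x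
      have h1 := congrArg (awayRed A hq ℓ hℓq) hkn
      rw [map_mul, hx, zero_mul, awayRed_intCast] at h1
      obtain ⟨n', rfl⟩ := (ZMod.intCast_zmod_eq_zero_iff_dvd n ℓ).mp h1.symm
      refine ⟨(n' : A) * ((u⁻¹ : Aˣ) : A) ^ k, ?_⟩
      have h2 : (q : A) * ((u⁻¹ : Aˣ) : A) = 1 := by rw [← hu]; simp
      have h3 : ((q : A) * ((u⁻¹ : Aˣ) : A)) ^ k = 1 := by rw [h2, one_pow]
      rw [mul_pow] at h3
      push_cast at hkn
      calc x = x * ((q : A) ^ k * ((u⁻¹ : Aˣ) : A) ^ k) := by rw [h3, mul_one]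
        _ = (x * (q : A) ^ k) * ((u⁻¹ : Aˣ) : A) ^ k := by ring
        _ = (ℓ : A) * ((n' : A) * ((u⁻¹ : Aˣ) : A) ^ k) := by rw [hkn]; ring
    · rintro ⟨y, rfl⟩
      rw [map_mul, map_natCast, ZMod.natCast_self, zero_mul]
  regular x hx := by
    obtain ⟨u, hu⟩ := away_isUnit_q q A
    obtain ⟨k, n, hkn⟩ := away_exists_int q A x
    have h1 : (((ℓ : ℤ) * n : ℤ) : A) = 0 := by
      push_cast
      rw [← hkn, ← mul_assoc, hx, zero_mul]
    have h2 : (ℓ : ℤ) * n = 0 := away_intCast_injective q A hq.ne_zero (by rw [h1]; simp)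
    have h3 : n = 0 := by
      rcases mul_eq_zero.mp h2 with h | h
      · exact absurd (by exact_mod_cast h) (Fact.out : ℓ.Prime).ne_zero
      · exact h
    rw [h3, Int.cast_zero] at hkn
    have h4 : IsUnit ((q : A) ^ k) := (away_isUnit_q q A).pow k
    exact (h4.mul_left_eq_zero).mp hkn

/-- `q` as a unit of `ℤ[1/q]`. -/
noncomputable def awayUnit : Aˣ := (away_isUnit_q q A).unit

theorem awayUnit_spec (x : A) : ∃ k : ℕ, ∃ n : ℤ, ((awayUnit (q := q) A : Aˣ) : A) ^ (2 * k) * x = n := by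
  obtain ⟨k, n, hkn⟩ := away_exists_int q A x
  refine ⟨k, (q : ℤ) ^ k * n, ?_⟩
  have : ((awayUnit (q := q) A : Aˣ) : A) = (q : A) := IsUnit.unit_spec _
  rw [this]
  push_cast
  rw [← hkn]
  ring

end Away

/-! ### The final statement for `ℤ[1/q]` -/

section Final

variable {F : Type*} [AddCommGroup F]

/-- **Corollary C (Ihara's lemma, Eisenstein form) for `A = ℤ[1/q]`**, function form.
If `Φ` is additive on `Γ₀(N)[1/q] = Gam0 (N)` with values in a group killed by `p`, then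
`T_ℓ Φ = (ℓ + 1) Φ` for every prime `ℓ ≡ 1 mod pN`, `ℓ ≠ q`; the only input is Theorem A at
level `pN`. -/
theorem ihara_eisenstein {q : ℕ} (hq : q.Prime) (A : Type*) [CommRing A]
    [IsLocalization.Away (q : ℤ) A] {p N ℓ : ℕ} [Fact ℓ.Prime] (hℓq : ℓ ≠ q)
    (hℓ : (p * N) ∣ ℓ - 1) (hcent : helper73.CentralityStatement A (p * N))
    (hpF : ∀ x : F, p • x = 0) (Φ : SL(2, A) → F)
    (hΦ : ∀ x ∈ Gam0 (Ideal.span {(N : A)}), ∀ y ∈ Gam0 (Ideal.span {(N : A)}),
      Φ (x * y) = Φ x + Φ y) {δ : SL(2, A)} (hδ : δ ∈ Gam0 (Ideal.span {(N : A)})) :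
    ∑ i, Φ ((ellDataAway A hq ℓ hℓq).sStep δ i) = (ℓ + 1) • Φ δ := by
  have hgen : helper73.GenStatement A := sl2_closure_elementary (q : ℤ) A
  have hID : Ideal.span {((p * N : ℕ) : A)} ≤ Ideal.span {(N : A)} := by
    rw [Ideal.span_singleton_le_iff_mem, Ideal.mem_span_singleton]
    exact ⟨(p : A), by push_cast; ring⟩
  have hℓI : (ℓ : A) - 1 ∈ Ideal.span {((p * N : ℕ) : A)} := by
    obtain ⟨c, hc⟩ := hℓ
    have h1 : 1 ≤ ℓ := (Fact.out : ℓ.Prime).one_lt.le
    have h2 : (ℓ : A) - 1 = ((ℓ - 1 : ℕ) : A) := by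
      rw [Nat.cast_sub h1, Nat.cast_one]
    rw [h2, hc, Ideal.mem_span_singleton]
    exact ⟨(c : A), by push_cast; ring⟩
  exact hecke_sum_eq (ellDataAway A hq ℓ hℓq) hgen (awayUnit (q := q) A) (awayUnit_spec A)
    hℓI hID Φ hΦ (fun g k hk => inv_of_centrality hcent hpF Φ hΦ g hk) hδ

end Final

end Fermat.Agent.P6.helper62
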