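import Mathlib
import Fermat.Agent.S16.helper26_HeckeFun
import Fermat.Agent.P6.helper77_AmalgamGen
import Fermat.Agent.P6.helper60_Centrality
import Fermat.Agent.P6.helper62_IharaAway
import Fermat.Agent.P6.helper62_BridgeRing

/-!
# P6 / S41, module IHARA: the consumer statement (helper62)

**Ihara's lemma in Eisenstein form**, unconditional, in the vocabulary of `helper26` (Hecke
operators on `Additive (Gamma0 N) →+ F`) and `helper77` (the amalgam `Γ₀(N)[1/q]`):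

* `systemT_int_rel` : the defining relation of `helper26.systemT` as an equation of integral
  matrices `alphaMat ℤ ℓ x * γ = step γ x * alphaMat ℤ ℓ (perm γ x)`;
* `jQ`, `jSL`, `jSL_iotaR`, `jSL_kappaR`, `jSL_mem_gamma0Inv` : the embedding
  `SL(2, ℤ[1/q]) → SL(2, ℚ)` and its compatibility with `helper77.iotaQ`, `helper77.kappaQ`,
  `helper77.gamma0Inv`;
* `hecke_hom_eq` : for every homomorphism `Φ : gamma0Inv N q →* Multiplicative F`, `p F = 0`,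
  `ℓ ≡ 1 mod pN`, `ℓ ≠ q`: the Hecke sums of `Φ ∘ ι` and of `Φ ∘ κ` are `(ℓ + 1) Φ`;
* `hecke_pair_eq`, `heckeHom_pair_eq` : for every COMPATIBLE PAIR `(φ₁, φ₂)` of homomorphisms
  `Γ₀(N) → F` (`φ₁ ∘ j₁ = φ₂ ∘ j₂` on `Γ₀(N q)`): `T_ℓ φ_i = (ℓ + 1) φ_i`, `i = 1, 2`.
-/

set_option autoImplicit false
set_option linter.unusedSectionVars false
set_option linter.unusedVariables false
set_option linter.style.longLine false
set_option linter.style.haveILetI false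

open Matrix Matrix.SpecialLinearGroup CongruenceSubgroup
open scoped MatrixGroups

namespace Fermat.Agent.P6.helper62

open Fermat.Agent.P6.helper31 Fermat.Agent.P6.helper77 Fermat.Agent.S16.helper26
open P2MW.S_ModularForm_heckeT_slash_eq_self_of_mem_Gamma0.ModularForm.HeckeSlashInvariance
open ModularForm

/-! ### The integral relation of the Hecke cosets of `Γ₀(N)` -/

theorem val_heckeRep_eq (ℓ : ℕ) [Fact ℓ.Prime] (x : OnePoint (ZMod ℓ)) :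
    ∃ a b d : ℤ, alphaMat ℤ ℓ x = !![a, b; 0, d] ∧
      ((heckeRep ℓ x : GL (Fin 2) ℝ) : Matrix (Fin 2) (Fin 2) ℝ) =
        !![(a : ℝ), (b : ℝ); 0, (d : ℝ)] := by
  have hℓ : ℓ ≠ 0 := (Fact.out : ℓ.Prime).ne_zero
  induction x using OnePoint.rec with
  | infty =>
    refine ⟨ℓ, 0, 1, ?_, ?_⟩
    · simp
    · show ((heckeDiagMatrix ℓ : GL (Fin 2) ℝ) : Matrix (Fin 2) (Fin 2) ℝ) = _
      rw [val_heckeDiagMatrix hℓ]; simp
  | coe j =>
    refine ⟨1, j.val, ℓ, ?_, ?_⟩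
    · simp [-ZMod.natCast_val]
    · show ((heckeMatrix ℓ j.val : GL (Fin 2) ℝ) : Matrix (Fin 2) (Fin 2) ℝ) = _
      rw [val_heckeMatrix hℓ]; simp [-ZMod.natCast_val]

/-- The defining relation of `helper26.systemT`, as an equation of integral matrices. -/
theorem systemT_int_rel (N ℓ : ℕ) [Fact ℓ.Prime] (hℓN : ¬ ℓ ∣ N) (γ : Gamma0 N)
    (x : OnePoint (ZMod ℓ)) :
    alphaMat ℤ ℓ x * (γ : SL(2, ℤ)).1 =
      ((systemT N ℓ hℓN).step γ x : SL(2, ℤ)).1 * alphaMat ℤ ℓ ((systemT N ℓ hℓN).perm γ x) := by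
  obtain ⟨a, b, d, h1, h2⟩ := val_heckeRep_eq ℓ x
  obtain ⟨a', b', d', h1', h2'⟩ := val_heckeRep_eq ℓ ((systemT N ℓ hℓN).perm γ x)
  obtain ⟨e1, e2, e3, e4⟩ := entries_of_rel h2 h2' ((systemT N ℓ hℓN).rel γ x)
  rw [h1, h1']
  ext r s
  fin_cases r <;> fin_cases s <;> simp [Matrix.mul_apply, Fin.sum_univ_two]
  · linear_combination e1
  · linear_combination e3
  · linear_combination e2
  · linear_combination e4

/-! ### From `SL(2, ℤ[1/q])` to `SL(2, ℚ)` -/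

section ToQ

variable {q : ℕ} (A : Type*) [CommRing A] [IsLocalization.Away (q : ℤ) A]

/-- The embedding `ℤ[1/q] → ℚ`. -/
noncomputable def jQ (hq : q ≠ 0) : A →+* ℚ :=
  IsLocalization.Away.lift (q : ℤ) (g := Int.castRingHom ℚ) (by
    have : ((q : ℤ) : ℚ) ≠ 0 := by exact_mod_cast hq
    exact IsUnit.mk0 _ this)

/-- The embedding `SL(2, ℤ[1/q]) → SL(2, ℚ)`. -/
noncomputable def jSL (hq : q ≠ 0) : SL(2, A) →* SL(2, ℚ) :=
  Matrix.SpecialLinearGroup.map (jQ A hq)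

theorem jSL_apply (hq : q ≠ 0) (g : SL(2, A)) (i j : Fin 2) :
    (jSL A hq g).1 i j = jQ A hq (g.1 i j) := rfl

theorem jQ_awayUnit (hq : q ≠ 0) : jQ A hq ((awayUnit (q := q) A : Aˣ) : A) = (q : ℚ) := by
  have : ((awayUnit (q := q) A : Aˣ) : A) = (q : A) := IsUnit.unit_spec _
  rw [this, map_natCast]

theorem jQ_awayUnit_inv (hq : q ≠ 0) :
    jQ A hq (((awayUnit (q := q) A)⁻¹ : Aˣ) : A) = (q : ℚ)⁻¹ := by
  have h1 : jQ A hq ((awayUnit (q := q) A : Aˣ) : A) *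
      jQ A hq (((awayUnit (q := q) A)⁻¹ : Aˣ) : A) = 1 := by
    rw [← map_mul]; simp
  rw [jQ_awayUnit] at h1
  exact eq_inv_of_mul_eq_one_right h1

theorem jSL_iotaR (hq : q ≠ 0) (γ : SL(2, ℤ)) : jSL A hq (iotaR A γ) = iotaQ γ := by
  apply Subtype.ext
  ext i j
  rw [jSL_apply, iotaQ_apply]
  show jQ A hq (Int.castRingHom A (γ.1 i j)) = _
  rw [eq_intCast, map_intCast]

theorem jSL_kappaR (hq : q ≠ 0) (γ : SL(2, ℤ)) :
    jSL A hq (kappaR (awayUnit (q := q) A) γ) = kappaQ q hq γ := by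
  have hq' : (q : ℚ) ≠ 0 := by exact_mod_cast hq
  apply Subtype.ext
  ext i j
  have hι : ∀ r s, jQ A hq ((iotaR A γ).1 r s) = ((γ.1 r s : ℤ) : ℚ) := by
    intro r s
    show jQ A hq (Int.castRingHom A (γ.1 r s)) = _
    rw [eq_intCast, map_intCast]
  rw [jSL_apply, kappaQ_apply]
  show jQ A hq ((conjG (awayUnit (q := q) A) (iotaR A γ)).1 i j) = _
  rw [conjG_coe_eq]
  fin_cases i <;> fin_cases j
  · show jQ A hq ((iotaR A γ).1 0 0) = _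
    rw [hι]; rfl
  · show jQ A hq ((((awayUnit (q := q) A)⁻¹ : Aˣ) : A) * (iotaR A γ).1 0 1) = _
    rw [map_mul, hι, jQ_awayUnit_inv]
    show _ = ((γ.1 0 1 : ℤ) : ℚ) / (q : ℚ)
    rw [div_eq_mul_inv, mul_comm]
  · show jQ A hq (((awayUnit (q := q) A : Aˣ) : A) * (iotaR A γ).1 1 0) = _
    rw [map_mul, hι, jQ_awayUnit]; rfl
  · show jQ A hq ((iotaR A γ).1 1 1) = _
    rw [hι]; rfl

theorem jSL_mem_gamma0Inv (hq : q ≠ 0) {N : ℕ} {g : SL(2, A)}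
    (hg : g ∈ Gam0 (Ideal.span {(N : A)})) : jSL A hq g ∈ gamma0Inv N q := by
  rw [mem_Gam0_iff, Ideal.mem_span_singleton] at hg
  obtain ⟨a, ha⟩ := hg
  obtain ⟨k₁, n₁, h₁⟩ := away_exists_int q A a
  obtain ⟨k₂, n₂, h₂⟩ := away_exists_int q A (g.1 0 0)
  obtain ⟨k₃, n₃, h₃⟩ := away_exists_int q A (g.1 0 1)
  obtain ⟨k₄, n₄, h₄⟩ := away_exists_int q A (g.1 1 1)
  have e₁ := congrArg (jQ A hq) h₁
  have e₂ := congrArg (jQ A hq) h₂
  have e₃ := congrArg (jQ A hq) h₃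
  have e₄ := congrArg (jQ A hq) h₄
  have e₀ := congrArg (jQ A hq) ha
  simp only [map_mul, map_pow, map_natCast, map_intCast] at e₁ e₂ e₃ e₄ e₀
  refine ⟨k₁ + k₂ + k₃ + k₄,
    !![n₂ * (q : ℤ) ^ (k₁ + k₃ + k₄), n₃ * (q : ℤ) ^ (k₁ + k₂ + k₄);
      (N : ℤ) * n₁ * (q : ℤ) ^ (k₂ + k₃ + k₄), n₄ * (q : ℤ) ^ (k₁ + k₂ + k₃)], ?_, ?_⟩
  · intro i j
    rw [jSL_apply]
    fin_cases i <;> fin_cases j
    · show jQ A hq (g.1 0 0) * (q : ℚ) ^ (k₁ + k₂ + k₃ + k₄) =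
        ((n₂ * (q : ℤ) ^ (k₁ + k₃ + k₄) : ℤ) : ℚ)
      push_cast
      rw [← e₂]; ring
    · show jQ A hq (g.1 0 1) * (q : ℚ) ^ (k₁ + k₂ + k₃ + k₄) =
        ((n₃ * (q : ℤ) ^ (k₁ + k₂ + k₄) : ℤ) : ℚ)
      push_cast
      rw [← e₃]; ring
    · show jQ A hq (g.1 1 0) * (q : ℚ) ^ (k₁ + k₂ + k₃ + k₄) =
        (((N : ℤ) * n₁ * (q : ℤ) ^ (k₂ + k₃ + k₄) : ℤ) : ℚ)
      push_cast
      rw [e₀, ← e₁]; ring
    · show jQ A hq (g.1 1 1) * (q : ℚ) ^ (k₁ + k₂ + k₃ + k₄) =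
        ((n₄ * (q : ℤ) ^ (k₁ + k₂ + k₃) : ℤ) : ℚ)
      push_cast
      rw [← e₄]; ring
  · show (N : ℤ) ∣ (N : ℤ) * n₁ * (q : ℤ) ^ (k₂ + k₃ + k₄)
    exact Dvd.dvd.mul_right (Dvd.intro _ rfl) _

end ToQ

/-! ### The consumer statement -/

section Final

variable {F : Type*} [AddCommGroup F]

/-- `Φ ∘ jSL`, extended by zero, as a function on `SL(2, ℤ[1/q])`. -/
noncomputable def phiFun {q N : ℕ} (A : Type*) [CommRing A] [IsLocalization.Away (q : ℤ) A]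
    (hq : q ≠ 0) (Φ : gamma0Inv N q →* Multiplicative F) (g : SL(2, A)) : F :=
  open Classical in
  if h : jSL A hq g ∈ gamma0Inv N q then (Φ ⟨jSL A hq g, h⟩).toAdd else 0

theorem phiFun_of_mem {q N : ℕ} (A : Type*) [CommRing A] [IsLocalization.Away (q : ℤ) A]
    (hq : q ≠ 0) (Φ : gamma0Inv N q →* Multiplicative F) {g : SL(2, A)}
    (h : jSL A hq g ∈ gamma0Inv N q) : phiFun A hq Φ g = (Φ ⟨jSL A hq g, h⟩).toAdd :=
  dif_pos h

theorem phiFun_mul {q N : ℕ} (A : Type*) [CommRing A] [IsLocalization.Away (q : ℤ) A]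
    (hq : q ≠ 0) (Φ : gamma0Inv N q →* Multiplicative F) {x y : SL(2, A)}
    (hx : x ∈ Gam0 (Ideal.span {(N : A)})) (hy : y ∈ Gam0 (Ideal.span {(N : A)})) :
    phiFun A hq Φ (x * y) = phiFun A hq Φ x + phiFun A hq Φ y := by
  have hx' := jSL_mem_gamma0Inv A hq hx
  have hy' := jSL_mem_gamma0Inv A hq hy
  have hxy' := jSL_mem_gamma0Inv A hq ((Gam0 _).mul_mem hx hy)
  rw [phiFun_of_mem A hq Φ hx', phiFun_of_mem A hq Φ hy', phiFun_of_mem A hq Φ hxy', ← toAdd_mul,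
    ← map_mul]
  congr 2
  apply Subtype.ext
  simp [map_mul]

theorem phiFun_iotaR {q N : ℕ} (A : Type*) [CommRing A] [IsLocalization.Away (q : ℤ) A]
    (hq : q ≠ 0) (Φ : gamma0Inv N q →* Multiplicative F) (γ : Gamma0 N) :
    phiFun A hq Φ (iotaR A (γ : SL(2, ℤ))) = (Φ (iotaD N q γ)).toAdd := by
  have h : jSL A hq (iotaR A (γ : SL(2, ℤ))) ∈ gamma0Inv N q := by
    rw [jSL_iotaR]; exact iota_mem_gamma0Inv N q γ
  rw [phiFun_of_mem A hq Φ h]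
  congr 2
  apply Subtype.ext
  rw [iotaD_coe]
  exact jSL_iotaR A hq _

theorem phiFun_kappaR {q N : ℕ} (A : Type*) [CommRing A] [IsLocalization.Away (q : ℤ) A]
    (hq : q ≠ 0) (Φ : gamma0Inv N q →* Multiplicative F) (γ : Gamma0 N) :
    phiFun A hq Φ (kappaR (awayUnit (q := q) A) (γ : SL(2, ℤ))) =
      (Φ (kappaD N q hq γ)).toAdd := by
  have h : jSL A hq (kappaR (awayUnit (q := q) A) (γ : SL(2, ℤ))) ∈ gamma0Inv N q := by
    rw [jSL_kappaR]; exact kappa_mem_gamma0Inv N q hq γ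
  rw [phiFun_of_mem A hq Φ h]
  congr 2
  apply Subtype.ext
  rw [kappaD_coe]
  exact jSL_kappaR A hq _

theorem iotaR_mem_Gam0 {N : ℕ} (A : Type*) [CommRing A] (γ : Gamma0 N) :
    iotaR A (γ : SL(2, ℤ)) ∈ Gam0 (Ideal.span {(N : A)}) := by
  rw [mem_Gam0_iff, Ideal.mem_span_singleton]
  obtain ⟨c, hc⟩ := gamma0_mem_iff_dvd.1 γ.2
  refine ⟨(c : A), ?_⟩
  show Int.castRingHom A ((γ : SL(2, ℤ)).1 1 0) = _
  rw [eq_intCast]
  have : ((γ : SL(2, ℤ)).1 1 0) = (N : ℤ) * c := hc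
  rw [this]
  push_cast
  ring

/-- The Hecke identities for a homomorphism `Φ` on `Γ₀(N)[1/q]`, read on the two copies of
`Γ₀(N)` (general ring `A = ℤ[1/q]`). -/
theorem hecke_pair_aux {q : ℕ} (hq : q.Prime) (A : Type*) [CommRing A]
    [IsLocalization.Away (q : ℤ) A] {p N ℓ : ℕ} [Fact ℓ.Prime] (hℓq : ℓ ≠ q)
    (hℓ : p * N ∣ ℓ - 1) (hℓN : ¬ ℓ ∣ N) (hpNq : Nat.Coprime (p * N) q)
    (hpF : ∀ x : F, p • x = 0) (Φ : gamma0Inv N q →* Multiplicative F) (γ : Gamma0 N) :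
    (∑ x, (Φ (iotaD N q ((systemT N ℓ hℓN).step γ x))).toAdd =
        (ℓ + 1) • (Φ (iotaD N q γ)).toAdd) ∧
      (∑ x, (Φ (kappaD N q hq.ne_zero ((systemT N ℓ hℓN).step γ x))).toAdd =
        (ℓ + 1) • (Φ (kappaD N q hq.ne_zero γ)).toAdd) := by
  set E := ellDataAway A hq ℓ hℓq with hE
  set u := awayUnit (q := q) A with hu
  have hcent : helper73.CentralityStatement A (p * N) := helper60.centrality hq hpNq
  have hΦ : ∀ x ∈ Gam0 (Ideal.span {(N : A)}), ∀ y ∈ Gam0 (Ideal.span {(N : A)}),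
      phiFun A hq.ne_zero Φ (x * y) = phiFun A hq.ne_zero Φ x + phiFun A hq.ne_zero Φ y :=
    fun x hx y hy => phiFun_mul A hq.ne_zero Φ hx hy
  have main := fun {δ : SL(2, A)} (hδ : δ ∈ Gam0 (Ideal.span {(N : A)})) =>
    ihara_eisenstein hq A hℓq hℓ hcent hpF (phiFun A hq.ne_zero Φ) hΦ hδ
  constructor
  · have h1 := main (iotaR_mem_Gam0 A γ)
    rw [phiFun_iotaR] at h1
    rw [← h1]
    refine Finset.sum_congr rfl fun x _ => ?_
    rw [(E.sStep_iotaR (systemT_int_rel N ℓ hℓN γ x)).2, phiFun_iotaR]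
  · have h2 := main (conjG_mem_Gam0 u (iotaR_mem_Gam0 A γ))
    have h3 : phiFun A hq.ne_zero Φ (conjG u (iotaR A (γ : SL(2, ℤ)))) =
        (Φ (kappaD N q hq.ne_zero γ)).toAdd := phiFun_kappaR A hq.ne_zero Φ γ
    rw [h3] at h2
    rw [← h2]
    have hrel : ∀ x, alphaMat A ℓ x * (iotaR A (γ : SL(2, ℤ))).1 =
        (iotaR A ((systemT N ℓ hℓN).step γ x : SL(2, ℤ))).1 *
          alphaMat A ℓ ((systemT N ℓ hℓN).perm γ x) := by
      intro x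
      have := congrArg (Int.castRingHom A).mapMatrix (systemT_int_rel N ℓ hℓN γ x)
      rw [map_mul, map_mul, alphaMat_map, alphaMat_map] at this
      exact this
    rw [E.sum_sStep_conjG u (phiFun A hq.ne_zero Φ) hΦ ((systemT N ℓ hℓN).perm γ)
      ((systemT N ℓ hℓN).permEquiv γ).bijective
      (fun x => iotaR A ((systemT N ℓ hℓN).step γ x : SL(2, ℤ)))
      (fun x => iotaR_mem_Gam0 A _) hrel]
    refine Finset.sum_congr rfl fun x _ => ?_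
    exact (phiFun_kappaR A hq.ne_zero Φ _).symm

/-- `Localization.Away (q : ℤ)` is a localization away from `q` for the canonical `ℤ`-algebra
structure of a commutative ring. -/
theorem isLocalization_away_int (q : ℕ) :
    @IsLocalization.Away ℤ _ (q : ℤ) (Localization.Away (q : ℤ)) _
      (Ring.toIntAlgebra (Localization.Away (q : ℤ))) := by
  have h : (Ring.toIntAlgebra (Localization.Away (q : ℤ))) =
      (inferInstance : Algebra ℤ (Localization.Away (q : ℤ))) := Subsingleton.elim _ _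
  rw [h]
  infer_instance

/-- **Ihara's lemma in Eisenstein form, homomorphism form.**  For every homomorphism `Φ` on
`Γ₀(N)[1/q] = gamma0Inv N q` with values in a group killed by `p`, and every prime
`ℓ ≡ 1 mod pN`, `ℓ ≠ q`: the Hecke sums of `Φ ∘ ι` and `Φ ∘ κ` over the cosets of
`helper26.systemT N ℓ` are `(ℓ + 1) Φ`. -/
theorem hecke_hom_eq {q : ℕ} (hq : q.Prime) {p N ℓ : ℕ} [Fact ℓ.Prime] (hℓq : ℓ ≠ q)
    (hℓ : p * N ∣ ℓ - 1) (hℓN : ¬ ℓ ∣ N) (hpNq : Nat.Coprime (p * N) q)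
    (hpF : ∀ x : F, p • x = 0) (Φ : gamma0Inv N q →* Multiplicative F) (γ : Gamma0 N) :
    (∑ x, (Φ (iotaD N q ((systemT N ℓ hℓN).step γ x))).toAdd =
        (ℓ + 1) • (Φ (iotaD N q γ)).toAdd) ∧
      (∑ x, (Φ (kappaD N q hq.ne_zero ((systemT N ℓ hℓN).step γ x))).toAdd =
        (ℓ + 1) • (Φ (kappaD N q hq.ne_zero γ)).toAdd) := by
  haveI := isLocalization_away_int q
  exact hecke_pair_aux hq (Localization.Away (q : ℤ)) hℓq hℓ hℓN hpNq hpF Φ γ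

/-- **Ihara's lemma in Eisenstein form, CONSUMER SHAPE.**  Let `q` be a prime, `N` prime to `q`,
`F` an abelian group killed by `p` (`p` prime to `q`), and `(φ₁, φ₂)` a compatible pair of
homomorphisms `Γ₀(N) → F` (`φ₁ ∘ j₁ = φ₂ ∘ j₂` on `Γ₀(N q)`).  Then for every prime
`ℓ ≡ 1 mod pN`, `ℓ ≠ q`:  `T_ℓ φ₁ = (ℓ + 1) φ₁` and `T_ℓ φ₂ = (ℓ + 1) φ₂`. -/
theorem hecke_pair_eq {q : ℕ} (hq : q.Prime) {p N ℓ : ℕ} [Fact ℓ.Prime] (hℓq : ℓ ≠ q)
    (hℓ : p * N ∣ ℓ - 1) (hℓN : ¬ ℓ ∣ N) (hNq : Nat.Coprime N q) (hpq : Nat.Coprime p q)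
    (hpF : ∀ x : F, p • x = 0) (φ₁ φ₂ : Additive (Gamma0 N) →+ F)
    (hcompat : ∀ γ : Gamma0 (N * q), φ₁ (Additive.ofMul (jOne N q γ)) =
      φ₂ (Additive.ofMul (jTwo N q hq.ne_zero γ))) :
    (systemT N ℓ hℓN).heckeFun φ₁ = (ℓ + 1) • φ₁ ∧
      (systemT N ℓ hℓN).heckeFun φ₂ = (ℓ + 1) • φ₂ := by
  set ψ₁ : Gamma0 N →* Multiplicative F := AddMonoidHom.toMultiplicativeRight φ₁ with hψ₁
  set ψ₂ : Gamma0 N →* Multiplicative F := AddMonoidHom.toMultiplicativeRight φ₂ with hψ₂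
  have hc : ∀ γ : Gamma0 (N * q), ψ₁ (jOne N q γ) = ψ₂ (jTwo N q hq.ne_zero γ) := by
    intro γ
    show Multiplicative.ofAdd (φ₁ (Additive.ofMul (jOne N q γ))) =
      Multiplicative.ofAdd (φ₂ (Additive.ofMul (jTwo N q hq.ne_zero γ)))
    rw [hcompat]
  set Φ := glue N q hq hNq ψ₁ ψ₂ hc with hΦ
  have h1 : ∀ γ : Gamma0 N, (Φ (iotaD N q γ)).toAdd = φ₁ (Additive.ofMul γ) := by
    intro γ
    rw [hΦ, glue_iotaD]; rfl
  have h2 : ∀ γ : Gamma0 N, (Φ (kappaD N q hq.ne_zero γ)).toAdd = φ₂ (Additive.ofMul γ) := by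
    intro γ
    rw [hΦ, glue_kappaD]; rfl
  have hpNq : Nat.Coprime (p * N) q := Nat.Coprime.mul_left hpq hNq
  constructor
  · refine AddMonoidHom.ext fun γ' => ?_
    obtain ⟨γ, rfl⟩ : ∃ γ : Gamma0 N, Additive.ofMul γ = γ' := ⟨Additive.toMul γ', rfl⟩
    have := (hecke_hom_eq hq hℓq hℓ hℓN hpNq hpF Φ γ).1
    simp only [h1] at this
    rw [CosetSystem.heckeFun_apply, this]
    rfl
  · refine AddMonoidHom.ext fun γ' => ?_
    obtain ⟨γ, rfl⟩ : ∃ γ : Gamma0 N, Additive.ofMul γ = γ' := ⟨Additive.toMul γ', rfl⟩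
    have := (hecke_hom_eq hq hℓq hℓ hℓN hpNq hpF Φ γ).2
    simp only [h2] at this
    rw [CosetSystem.heckeFun_apply, this]
    rfl

/-- The consumer shape for `helper26.heckeHom`. -/
theorem heckeHom_pair_eq {q : ℕ} (hq : q.Prime) {p N : ℕ} (ℓ : Nat.Primes) (hℓq : (ℓ : ℕ) ≠ q)
    (hℓ : p * N ∣ (ℓ : ℕ) - 1) (hℓN : ¬ (ℓ : ℕ) ∣ N) (hNq : Nat.Coprime N q)
    (hpq : Nat.Coprime p q)
    (hpF : ∀ x : F, p • x = 0) (φ₁ φ₂ : Additive (Gamma0 N) →+ F)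
    (hcompat : ∀ γ : Gamma0 (N * q), φ₁ (Additive.ofMul (jOne N q γ)) =
      φ₂ (Additive.ofMul (jTwo N q hq.ne_zero γ))) :
    heckeHom N ℓ φ₁ = ((ℓ : ℕ) + 1) • φ₁ ∧ heckeHom N ℓ φ₂ = ((ℓ : ℕ) + 1) • φ₂ := by
  rw [heckeHom_of_not_dvd N hℓN]
  exact hecke_pair_eq hq hℓq hℓ hℓN hNq hpq hpF φ₁ φ₂ hcompat

end Final

end Fermat.Agent.P6.helper62
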