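import Mathlib
import Fermat.Agent.P6.helper4_S41Defs
import Fermat.Agent.P6.helper62_IharaPair

/-!
# P6 / S41, task P6-BRIDGE: `helper4.IharaStatement` (helper62)

`iharaStatement : q.Prime → N.Coprime q → p.Coprime q → helper4.IharaStatement N q _ p`:
for every prime `ℓ ≡ 1 mod pN`, `ℓ ≠ q`, and every pair `(x₁, x₂)` of homomorphisms
`Γ₀(N) → ℤ/p` with `a1 x₁ + a2 x₂ = 0` on `Γ₀(N q)`:  `T_ℓ x_i = (ℓ + 1) x_i`, `i = 1, 2`.
Unconditional: Theorem A (`helper60.centrality`), the amalgam (`helper77.glue`) and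
Corollary C (`helper62.heckeHom_pair_eq`).
-/

set_option autoImplicit false
set_option linter.unusedSectionVars false
set_option linter.unusedVariables false
set_option linter.style.longLine false

open CongruenceSubgroup
open scoped MatrixGroups

namespace Fermat.Agent.P6.helper62

open Fermat.Agent.P6.helper77 Fermat.Agent.S16.helper26 Fermat.Agent.P6.helper4

/-- **Ihara's lemma in Eisenstein form on pairs**, any coefficient group `F` killed by `p`, in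
the vocabulary of `helper4_S41Defs`. -/
theorem ihara_pairs {F : Type*} [AddCommGroup F] {N q p : ℕ} (hq : q.Prime)
    (hNq : Nat.Coprime N q) (hpq : Nat.Coprime p q) (hpF : ∀ x : F, p • x = 0)
    (ℓ : Nat.Primes) (hℓ : (ℓ : ℕ) ≡ 1 [MOD p * N]) (hℓq : (ℓ : ℕ) ≠ q)
    (x₁ x₂ : Additive (Gamma0 N) →+ F)
    (h : a1 N q F x₁ + a2 N q hq.ne_zero F x₂ = 0) :
    heckeHom N ℓ x₁ = ((ℓ : ℕ) + 1) • x₁ ∧ heckeHom N ℓ x₂ = ((ℓ : ℕ) + 1) • x₂ := by
  have hℓ2 : 2 ≤ (ℓ : ℕ) := ℓ.2.two_le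
  have hdvd : p * N ∣ (ℓ : ℕ) - 1 := (Nat.modEq_iff_dvd' (by omega)).mp hℓ.symm
  have hℓN : ¬ (ℓ : ℕ) ∣ N := by
    intro hd
    have h1 : (ℓ : ℕ) ∣ (ℓ : ℕ) - 1 := (hd.trans (Dvd.intro_left p rfl)).trans hdvd
    have h2 := Nat.le_of_dvd (by omega) h1
    omega
  have hcompat : ∀ γ : Gamma0 (N * q), x₁ (Additive.ofMul (jOne N q γ)) =
      (-x₂) (Additive.ofMul (jTwo N q hq.ne_zero γ)) := by
    intro γ
    have := DFunLike.congr_fun h (Additive.ofMul γ)
    rw [AddMonoidHom.add_apply, AddMonoidHom.zero_apply] at this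
    rw [AddMonoidHom.neg_apply]
    exact eq_neg_of_add_eq_zero_left this
  obtain ⟨h1, h2⟩ := heckeHom_pair_eq hq ℓ hℓq hdvd hℓN hNq hpq hpF x₁ (-x₂) hcompat
  refine ⟨h1, ?_⟩
  rw [map_neg, smul_neg, neg_inj] at h2
  exact h2

/-- **P6-BRIDGE**: `helper4.IharaStatement`, unconditional. -/
theorem iharaStatement {N q p : ℕ} (hq : q.Prime) (hNq : Nat.Coprime N q)
    (hpq : Nat.Coprime p q) : IharaStatement N q hq.ne_zero p := by
  intro ℓ hℓ hℓq x₁ x₂ h
  refine ihara_pairs hq hNq hpq (fun x => ?_) ℓ hℓ hℓq x₁ x₂ h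
  rw [nsmul_eq_mul, ZMod.natCast_self, zero_mul]

end Fermat.Agent.P6.helper62
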