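import Fermat.Agent.P6.helper67_HB1Coset

/-!
# P6 / S41, [HB1] (helper67): the degeneracy maps and the transfers commute with `T_ℓ`

`hb1 : helper4.HB1Statement`: for a prime `r ∤ M` and a prime `ℓ ∤ M r`, the Hecke operator `T_ℓ`
commutes with the two degeneracy maps `a1`, `a2 : Hom(Γ₀(M), A) → Hom(Γ₀(M r), A)` and with the
two transfers `b1`, `b2 : Hom(Γ₀(M r), A) → Hom(Γ₀(M), A)`.
-/

set_option autoImplicit false

open Matrix.SpecialLinearGroup CongruenceSubgroup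
open scoped MatrixGroups

namespace Fermat.Agent.P6.helper67

open Fermat.Agent.S16.helper26 Fermat.Agent.P6.helper4 Fermat.Agent.P6.helper77
open P2MW.S_ModularForm_heckeT_slash_eq_self_of_mem_Gamma0.ModularForm.HeckeSlashInvariance
open ModularForm
open scoped OnePoint

section Forms

variable (ℓ : ℕ)

/-- integral upper triangular form of the representatives of `T_ℓ` -/
theorem heckeRep_form (hℓ : ℓ ≠ 0) (x : OnePoint (ZMod ℓ)) : ∃ a b d : ℤ,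
    ((heckeRep ℓ x : GL (Fin 2) ℝ) : Matrix (Fin 2) (Fin 2) ℝ) = !![(a : ℝ), (b : ℝ); 0, (d : ℝ)] ∧
      (a = 1 ∨ a = ℓ) ∧ (d = 1 ∨ d = ℓ) := by
  induction x using OnePoint.rec with
  | infty => exact ⟨ℓ, 0, 1, val_heckeDiagMatrix_int hℓ, Or.inr rfl, Or.inl rfl⟩
  | coe j => exact ⟨1, j.val, ℓ, val_heckeMatrix_int hℓ j.val, Or.inl rfl, Or.inr rfl⟩

theorem isCoprime_of_form {r : ℕ} (hcop : Nat.Coprime ℓ r) {a : ℤ} (ha : a = 1 ∨ a = ℓ) :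
    IsCoprime a (r : ℤ) := by
  rcases ha with rfl | rfl
  · exact isCoprime_one_left
  · exact Nat.isCoprime_iff_coprime.mpr hcop

end Forms

section JOne

variable (M r : ℕ) (ℓ : ℕ) [Fact ℓ.Prime]

/-- (C1) for `jOne` -/
theorem step_jOne (hM : ¬ ℓ ∣ M) (hMr : ¬ ℓ ∣ M * r) (h : Gamma0 (M * r))
    (x : OnePoint (ZMod ℓ)) :
    (systemT M ℓ hM).step (jOne M r h) x = jOne M r ((systemT (M * r) ℓ hMr).step h x) :=
  ((systemT M ℓ hM).unique (γ := jOne M r h) (i := x) (j := (systemT (M * r) ℓ hMr).perm h x)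
    (g := jOne M r ((systemT (M * r) ℓ hMr).step h x)) ((systemT (M * r) ℓ hMr).rel h x)).2.symm

/-- (C2) for `jOne` -/
theorem mem_range_jOne_of_step (hcop : Nat.Coprime M r) (hℓr : Nat.Coprime ℓ r) (hM : ¬ ℓ ∣ M)
    (γ : Gamma0 M) (x : OnePoint (ZMod ℓ))
    (h : (systemT M ℓ hM).step γ x ∈ (jOne M r).range) : γ ∈ (jOne M r).range := by
  rw [mem_range_jOne_iff M r hcop] at h ⊢
  have hℓ : ℓ ≠ 0 := (Fact.out : ℓ.Prime).ne_zero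
  obtain ⟨a, b, d, hα, -, hd⟩ := heckeRep_form ℓ hℓ x
  obtain ⟨a', b', d', hβ, -, -⟩ := heckeRep_form ℓ hℓ ((systemT M ℓ hM).perm γ x)
  obtain ⟨-, e2, -, -⟩ := entries_of_rel hα hβ ((systemT M ℓ hM).rel γ x)
  have h1 : (r : ℤ) ∣ d * (γ : SL(2, ℤ)) 1 0 := by
    rw [e2]
    exact Dvd.dvd.mul_right h a'
  exact (isCoprime_of_form ℓ hℓr hd).symm.dvd_of_dvd_mul_left h1

end JOne

section JTwo

variable (M r : ℕ) (hr : r ≠ 0) (ℓ : ℕ) [Fact ℓ.Prime]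

theorem jTwo_apply_zero_zero (h : Gamma0 (M * r)) :
    ((jTwo M r hr h : SL(2, ℤ)) 0 0 : ℤ) = (h : SL(2, ℤ)) 0 0 := rfl

theorem jTwo_apply_one_one (h : Gamma0 (M * r)) :
    ((jTwo M r hr h : SL(2, ℤ)) 1 1 : ℤ) = (h : SL(2, ℤ)) 1 1 := rfl

theorem jTwo_apply_one_zero_mul (h : Gamma0 (M * r)) :
    ((jTwo M r hr h : SL(2, ℤ)) 1 0 : ℤ) * (r : ℤ) = (h : SL(2, ℤ)) 1 0 :=
  Int.ediv_mul_cancel (dvd_of_mem_gamma0_mul h.2)

/-- `diag(r, 1) * h = jTwo h * diag(r, 1)` -/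
theorem diag_mul_mapGL (h : Gamma0 (M * r)) :
    heckeDiagMatrix r * mapGL ℝ (h : SL(2, ℤ)) =
      mapGL ℝ (jTwo M r hr h : SL(2, ℤ)) * heckeDiagMatrix r := by
  have e := jTwo_apply_one_zero_mul M r hr h
  have e' : (((jTwo M r hr h : SL(2, ℤ)) 1 0 : ℤ) : ℝ) * (r : ℝ) =
      (((h : SL(2, ℤ)) 1 0 : ℤ) : ℝ) := by exact_mod_cast e
  have e0 := jTwo_apply_zero_zero M r hr h
  have e1 := jTwo_apply_one_one M r hr h
  have e2 := jTwo_apply_zero_one M r hr h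
  ext i j
  fin_cases i <;> fin_cases j <;>
    simp [val_heckeDiagMatrix hr, Matrix.mul_apply, Fin.sum_univ_two, e0, e1, e2, e']
  · ring

/-- multiplication by `r` on `ℙ¹(𝔽_ℓ)` -/
noncomputable def mulPerm (hℓr : ¬ ℓ ∣ r) : Equiv.Perm (OnePoint (ZMod ℓ)) :=
  Equiv.optionCongr (Equiv.mulLeft₀ (r : ZMod ℓ)
    (by rwa [Ne, ZMod.natCast_eq_zero_iff]))

theorem mulPerm_infty (hℓr : ¬ ℓ ∣ r) : mulPerm r ℓ hℓr ∞ = ∞ := rfl

theorem mulPerm_coe (hℓr : ¬ ℓ ∣ r) (j : ZMod ℓ) :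
    mulPerm r ℓ hℓr (j : OnePoint (ZMod ℓ)) = (((r : ZMod ℓ) * j : ZMod ℓ) : OnePoint (ZMod ℓ)) :=
  rfl

/-- the translations relating `diag(r,1) α_x diag(r,1)⁻¹` to `α_{r x}` -/
noncomputable def mulTau (x : OnePoint (ZMod ℓ)) : Gamma0 M :=
  x.elim 1 (fun j => ⟨unip ((r * j.val / ℓ : ℕ) : ℤ), unip_mem_Gamma0 M _⟩)

omit [Fact ℓ.Prime] in
theorem mulTau_infty : mulTau M r ℓ ∞ = 1 := rfl

omit [Fact ℓ.Prime] in
theorem mulTau_coe (j : ZMod ℓ) :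
    ((mulTau M r ℓ (j : OnePoint (ZMod ℓ)) : Gamma0 M) : SL(2, ℤ)) =
      unip ((r * j.val / ℓ : ℕ) : ℤ) := rfl

/-- the coset system of `T_ℓ` with representatives conjugated by `diag(r, 1)` -/
noncomputable def systemT2 (hM : ¬ ℓ ∣ M) (hℓr : ¬ ℓ ∣ r) :
    CosetSystem (Gamma0 M) (OnePoint (ZMod ℓ)) :=
  twistSys (systemT M ℓ hM) (mulPerm r ℓ hℓr) (mulTau M r ℓ)

theorem val_mul_eq (j : ZMod ℓ) :
    ((((r : ZMod ℓ) * j).val : ℕ) : ℤ) + ((r * j.val / ℓ : ℕ) : ℤ) * (ℓ : ℤ) =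
      (r : ℤ) * (j.val : ℤ) := by
  have h1 : (r : ZMod ℓ) * j = ((r * j.val : ℕ) : ZMod ℓ) := by
    push_cast
    rw [ZMod.natCast_zmod_val]
  rw [h1, ZMod.val_natCast]
  have := Nat.mod_add_div (r * j.val) ℓ
  have h2 : (((r * j.val) % ℓ : ℕ) : ℤ) + (ℓ : ℤ) * ((r * j.val / ℓ : ℕ) : ℤ) =
      ((r * j.val : ℕ) : ℤ) := by exact_mod_cast this
  push_cast at h2 ⊢
  linarith

theorem systemT2_form (hM : ¬ ℓ ∣ M) (hℓr : ¬ ℓ ∣ r) (x : OnePoint (ZMod ℓ)) : ∃ a b d : ℤ,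
    (((systemT2 M r ℓ hM hℓr).α x : GL (Fin 2) ℝ) : Matrix (Fin 2) (Fin 2) ℝ) =
        !![(a : ℝ), (((r : ℤ) * b : ℤ) : ℝ); 0, (d : ℝ)] ∧
      ((heckeRep ℓ x : GL (Fin 2) ℝ) : Matrix (Fin 2) (Fin 2) ℝ) =
        !![(a : ℝ), (b : ℝ); 0, (d : ℝ)] ∧ (a = 1 ∨ a = ℓ) := by
  have hℓ : ℓ ≠ 0 := (Fact.out : ℓ.Prime).ne_zero
  induction x using OnePoint.rec with
  | infty =>
    refine ⟨ℓ, 0, 1, ?_, val_heckeDiagMatrix_int hℓ, Or.inr rfl⟩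
    show ((mapGL ℝ ((mulTau M r ℓ ∞ : Gamma0 M) : SL(2, ℤ)) * heckeRep ℓ (mulPerm r ℓ hℓr ∞) :
      GL (Fin 2) ℝ) : Matrix (Fin 2) (Fin 2) ℝ) = _
    rw [mulTau_infty, mulPerm_infty, Subgroup.coe_one, map_one, one_mul, heckeRep_infty,
      val_heckeDiagMatrix hℓ]
    simp
  | coe j =>
    refine ⟨1, j.val, ℓ, ?_, val_heckeMatrix_int hℓ j.val, Or.inl rfl⟩
    show ((mapGL ℝ ((mulTau M r ℓ (j : OnePoint (ZMod ℓ)) : Gamma0 M) : SL(2, ℤ)) *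
      heckeRep ℓ (mulPerm r ℓ hℓr (j : OnePoint (ZMod ℓ))) :
      GL (Fin 2) ℝ) : Matrix (Fin 2) (Fin 2) ℝ) = _
    rw [mulTau_coe, mulPerm_coe, heckeRep_coe, Matrix.GeneralLinearGroup.coe_mul, val_mapGL_unip,
      val_heckeMatrix hℓ]
    have h0 := val_mul_eq r ℓ j
    generalize ((r * j.val / ℓ : ℕ) : ℤ) = t at h0 ⊢
    generalize ((r : ZMod ℓ) * j).val = j' at h0 ⊢
    generalize j.val = jv at h0 ⊢
    have h : (j' : ℝ) + (t : ℝ) * (ℓ : ℝ) = (r : ℝ) * (jv : ℝ) := by exact_mod_cast h0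
    ext a b
    fin_cases a <;> fin_cases b <;> simp [Matrix.mul_apply, Fin.sum_univ_two]
    linarith

/-- `diag(r, 1) * α_x = α̃_x * diag(r, 1)` -/
theorem diag_mul_heckeRep (hM : ¬ ℓ ∣ M) (hℓr : ¬ ℓ ∣ r) (x : OnePoint (ZMod ℓ)) :
    heckeDiagMatrix r * heckeRep ℓ x = (systemT2 M r ℓ hM hℓr).α x * heckeDiagMatrix r := by
  have hr : r ≠ 0 := fun h => hℓr (h ▸ dvd_zero ℓ)
  obtain ⟨a, b, d, h1, h2, -⟩ := systemT2_form M r ℓ hM hℓr x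
  apply Units.ext
  rw [Units.val_mul, Units.val_mul, h1, h2, val_heckeDiagMatrix hr]
  ext i j
  fin_cases i <;> fin_cases j <;> simp [Matrix.mul_apply, Fin.sum_univ_two]
  ring

/-- (C1) for `jTwo` -/
theorem step_jTwo (hM : ¬ ℓ ∣ M) (hℓr : ¬ ℓ ∣ r) (hMr : ¬ ℓ ∣ M * r) (h : Gamma0 (M * r))
    (x : OnePoint (ZMod ℓ)) :
    (systemT2 M r ℓ hM hℓr).step (jTwo M r hr h) x =
      jTwo M r hr ((systemT (M * r) ℓ hMr).step h x) := by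
  refine ((systemT2 M r ℓ hM hℓr).unique (γ := jTwo M r hr h) (i := x)
    (j := (systemT (M * r) ℓ hMr).perm h x)
    (g := jTwo M r hr ((systemT (M * r) ℓ hMr).step h x)) ?_).2.symm
  apply mul_right_cancel (b := heckeDiagMatrix r)
  have h0 : heckeRep ℓ x * mapGL ℝ (h : SL(2, ℤ)) =
      mapGL ℝ (((systemT (M * r) ℓ hMr).step h x : Gamma0 (M * r)) : SL(2, ℤ)) *
        heckeRep ℓ ((systemT (M * r) ℓ hMr).perm h x) := (systemT (M * r) ℓ hMr).rel h x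
  calc (systemT2 M r ℓ hM hℓr).α x * mapGL ℝ (jTwo M r hr h : SL(2, ℤ)) * heckeDiagMatrix r
      = (systemT2 M r ℓ hM hℓr).α x * heckeDiagMatrix r * mapGL ℝ (h : SL(2, ℤ)) := by
        rw [mul_assoc, ← diag_mul_mapGL M r hr h, mul_assoc]
    _ = heckeDiagMatrix r * (heckeRep ℓ x * mapGL ℝ (h : SL(2, ℤ))) := by
        rw [← diag_mul_heckeRep M r ℓ hM hℓr x, mul_assoc]
    _ = heckeDiagMatrix r *
          mapGL ℝ (((systemT (M * r) ℓ hMr).step h x : Gamma0 (M * r)) : SL(2, ℤ)) *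
        heckeRep ℓ ((systemT (M * r) ℓ hMr).perm h x) := by
        rw [h0, mul_assoc]
    _ = mapGL ℝ (jTwo M r hr ((systemT (M * r) ℓ hMr).step h x) : SL(2, ℤ)) *
          (systemT2 M r ℓ hM hℓr).α ((systemT (M * r) ℓ hMr).perm h x) * heckeDiagMatrix r := by
        rw [diag_mul_mapGL M r hr, mul_assoc, diag_mul_heckeRep M r ℓ hM hℓr, mul_assoc]

/-- (C2) for `jTwo` -/
theorem mem_range_jTwo_of_step (hℓcop : Nat.Coprime ℓ r) (hM : ¬ ℓ ∣ M) (hℓr : ¬ ℓ ∣ r)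
    (γ : Gamma0 M) (x : OnePoint (ZMod ℓ))
    (h : (systemT2 M r ℓ hM hℓr).step γ x ∈ (jTwo M r hr).range) :
    γ ∈ (jTwo M r hr).range := by
  rw [mem_range_jTwo_iff M r hr] at h ⊢
  obtain ⟨a, b, d, hα, -, ha⟩ := systemT2_form M r ℓ hM hℓr x
  obtain ⟨a', b', d', hβ, -, -⟩ := systemT2_form M r ℓ hM hℓr ((systemT2 M r ℓ hM hℓr).perm γ x)
  obtain ⟨-, -, e3, -⟩ := entries_of_rel hα hβ ((systemT2 M r ℓ hM hℓr).rel γ x)
  obtain ⟨c, hc⟩ := h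
  have h1 : (r : ℤ) ∣ a * (γ : SL(2, ℤ)) 0 1 := by
    refine ⟨((systemT2 M r ℓ hM hℓr).step γ x : SL(2, ℤ)) 0 0 * b' + c * d' -
      b * (γ : SL(2, ℤ)) 1 1, ?_⟩
    rw [hc] at e3
    linear_combination e3
  exact (isCoprime_of_form ℓ hℓcop ha).symm.dvd_of_dvd_mul_left h1

/-- the twisted system defines `T_ℓ` -/
theorem heckeFun_systemT2 {A : Type*} [AddCommGroup A] (hM : ¬ ℓ ∣ M) (hℓr : ¬ ℓ ∣ r)
    (φ : Additive (Gamma0 M) →+ A) :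
    (systemT2 M r ℓ hM hℓr).heckeFun φ = (systemT M ℓ hM).heckeFun φ :=
  heckeFun_twistSys _ _ _ φ

end JTwo

/-- **[HB1]** the degeneracy maps and the transfers commute with `T_ℓ`, `ℓ ∤ M r`. -/
theorem hb1 : HB1Statement := by
  intro M r hr A _ _ hrp hrM ℓ hℓ
  have hℓM : ¬ (ℓ : ℕ) ∣ M := fun h => hℓ (h.mul_right r)
  have hℓr : ¬ (ℓ : ℕ) ∣ r := fun h => hℓ (h.mul_left M)
  have hcop : Nat.Coprime M r := ((Nat.Prime.coprime_iff_not_dvd hrp).mpr hrM).symm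
  have hℓcop : Nat.Coprime (ℓ : ℕ) r := (Nat.Prime.coprime_iff_not_dvd ℓ.2).mpr hℓr
  rw [heckeHom_of_not_dvd (M * r) hℓ, heckeHom_of_not_dvd M hℓM]
  refine ⟨fun x => ⟨?_, ?_⟩, fun y => ⟨?_, ?_⟩⟩
  · exact heckeFun_pull _ _ (jOne M r) (step_jOne M r ℓ hℓM hℓ) x
  · rw [← heckeFun_systemT2 M r ℓ hℓM hℓr]
    exact heckeFun_pull _ _ (jTwo M r hr) (step_jTwo M r hr ℓ hℓM hℓr hℓ) x
  · exact heckeFun_push _ _ (jOne M r) (jOne_injective M r) (step_jOne M r ℓ hℓM hℓ)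
      (mem_range_jOne_of_step M r ℓ hcop hℓcop hℓM) y
  · rw [← heckeFun_systemT2 M r ℓ hℓM hℓr]
    exact heckeFun_push _ _ (jTwo M r hr) (jTwo_injective M r hr)
      (step_jTwo M r hr ℓ hℓM hℓr hℓ) (mem_range_jTwo_of_step M r hr ℓ hℓcop hℓM hℓr) y

end Fermat.Agent.P6.helper67
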