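import Fermat.Agent.P6.helper4_S41Defs
import Fermat.Agent.P3.helper16_PerLattice

/-!
# P6 / S41, package [HB0] (helper95): the level maps and the Hecke operators on the lattices of
parabolic homomorphisms

* `isParabolicHom_pull`, `isParabolicHom_push` : pull-back and transfer along a trace-preserving
  injective homomorphism between subgroups of `SL(2, ℤ)` preserve parabolic homomorphisms;
* `push_add` : the transfer is additive in the character;
* `levelMaps M r hr : LevelMaps M r hr`;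
* `exists_eq_comp_perZ'` : every integral parabolic homomorphism factors through the period
  lattice (S21);
* `heckeOps M : HeckeOps M` (commutativity from P3 `helper16.hTr_mul`);
* `hb0 : HB0Statement`.
-/

set_option autoImplicit false
set_option linter.unusedSectionVars false
set_option linter.unusedVariables false

open CongruenceSubgroup ModularCurve.Period
open scoped MatrixGroups

noncomputable section

namespace Fermat.Agent.P6.helper95

open Fermat.Agent.P6.helper4 Fermat.Agent.P6.helper77 Fermat.Agent.S16.helper26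

/-! ### traces of powers of parabolic elements -/

/-- the trace of an element of `SL(2, ℤ)` -/
def tr (g : SL(2, ℤ)) : ℤ := (g : Matrix (Fin 2) (Fin 2) ℤ).trace

theorem tr_def (g : SL(2, ℤ)) : tr g = g 0 0 + g 1 1 := by
  unfold tr
  rw [Matrix.trace_fin_two]

theorem tr_one : tr 1 = 2 := by
  rw [tr_def]
  simp

theorem sl2_det (g : SL(2, ℤ)) : g 0 0 * g 1 1 - g 0 1 * g 1 0 = 1 := by
  have h := g.det_coe
  rw [Matrix.det_fin_two] at h
  exact h

theorem tr_mul_mul (g h : SL(2, ℤ)) : tr (g * g * h) = tr g * tr (g * h) - tr h := by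
  have hd := sl2_det g
  simp only [tr_def, Matrix.SpecialLinearGroup.coe_mul, Matrix.mul_apply, Fin.sum_univ_two]
  linear_combination (-(h 0 0 + h 1 1)) * hd

theorem tr_conj (c g : SL(2, ℤ)) : tr (c⁻¹ * g * c) = tr g := by
  unfold tr
  rw [Matrix.SpecialLinearGroup.coe_mul, Matrix.trace_mul_comm, ← Matrix.SpecialLinearGroup.coe_mul,
    mul_inv_cancel_left]

theorem tr_pow_succ_succ (g : SL(2, ℤ)) (m : ℕ) :
    tr (g ^ (m + 2)) = tr g * tr (g ^ (m + 1)) - tr (g ^ m) := by
  have h1 : g ^ (m + 2) = g * g * g ^ m := by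
    rw [pow_succ' g (m + 1), pow_succ' g m, mul_assoc]
  have h2 : g ^ (m + 1) = g * g ^ m := pow_succ' g m
  rw [h1, h2, tr_mul_mul]

theorem tr_pow_sq (g : SL(2, ℤ)) (hg : tr g ^ 2 = 4) (m : ℕ) : tr (g ^ m) ^ 2 = 4 := by
  have hcases : tr g = 2 ∨ tr g = -2 := by
    have h : (tr g - 2) * (tr g + 2) = 0 := by linear_combination hg
    rcases mul_eq_zero.mp h with h | h
    · left; omega
    · right; omega
  have key : ∀ m : ℕ, tr (g ^ m) ^ 2 = 4 ∧ tr (g ^ (m + 1)) ^ 2 = 4 ∧
      tr (g ^ (m + 1)) = (tr g / 2) * tr (g ^ m) := by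
    intro m
    induction m with
    | zero =>
      rw [pow_zero, zero_add, pow_one, tr_one]
      refine ⟨by norm_num, hg, ?_⟩
      rcases hcases with h | h <;> rw [h] <;> norm_num
    | succ m ih =>
      obtain ⟨h1, h2, h3⟩ := ih
      refine ⟨h2, ?_, ?_⟩
      · rw [tr_pow_succ_succ]
        rcases hcases with h | h
        · rw [h] at h3 ⊢
          norm_num at h3
          rw [h3]
          nlinarith
        · rw [h] at h3 ⊢
          norm_num at h3
          rw [h3]
          nlinarith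
      · rw [tr_pow_succ_succ]
        rcases hcases with h | h
        · rw [h] at h3 ⊢
          norm_num at h3 ⊢
          rw [h3]
          ring
        · rw [h] at h3 ⊢
          norm_num at h3 ⊢
          rw [h3]
          ring
  exact (key m).1

/-! ### pull-back and transfer of parabolic homomorphisms -/

section Abstract

variable {Γ' Γ : Subgroup SL(2, ℤ)} (A : Type*) [AddCommGroup A]

theorem isParabolicHom_iff (φ : Additive Γ →+ A) :
    IsParabolicHom Γ φ ↔ ∀ γ : Γ, tr (γ : SL(2, ℤ)) ^ 2 = 4 → φ (Additive.ofMul γ) = 0 :=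
  Iff.rfl

theorem isParabolicHom_pull (ι : Γ' →* Γ)
    (htr : ∀ γ : Γ', tr ((ι γ : Γ) : SL(2, ℤ)) = tr (γ : SL(2, ℤ)))
    (φ : Additive Γ →+ A) (hφ : IsParabolicHom Γ φ) : IsParabolicHom Γ' (pull A ι φ) := by
  intro γ hγ
  rw [pull_apply]
  apply hφ
  change tr ((ι γ : Γ) : SL(2, ℤ)) ^ 2 = 4
  rw [htr]
  exact hγ

theorem onRange_add (ι : Γ' →* Γ) (hι : Function.Injective ι) (ψ ψ' : Additive Γ' →+ A) :
    onRange A ι hι (ψ + ψ') = onRange A ι hι ψ * onRange A ι hι ψ' := rfl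

theorem onRange_apply (ι : Γ' →* Γ) (hι : Function.Injective ι) (ψ : Additive Γ' →+ A)
    (γ : Γ') (h : ι γ ∈ ι.range) :
    onRange A ι hι ψ ⟨ι γ, h⟩ = Multiplicative.ofAdd (ψ (Additive.ofMul γ)) := by
  have h1 : (MonoidHom.ofInjective hι).symm ⟨ι γ, h⟩ = γ := by
    rw [MulEquiv.symm_apply_eq]
    rfl
  show Multiplicative.ofAdd (ψ (Additive.ofMul ((MonoidHom.ofInjective hι).symm ⟨ι γ, h⟩))) = _
  rw [h1]

theorem diff_mul {G : Type*} [Group G] {H : Subgroup G} [H.FiniteIndex] {B : Type*}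
    [CommGroup B] (ϕ ϕ' : H →* B) (S T : H.LeftTransversal) :
    Subgroup.leftTransversals.diff (ϕ * ϕ') S T =
      Subgroup.leftTransversals.diff ϕ S T * Subgroup.leftTransversals.diff ϕ' S T := by
  unfold Subgroup.leftTransversals.diff
  exact Finset.prod_mul_distrib

theorem transfer_mul {G : Type*} [Group G] {H : Subgroup G} [H.FiniteIndex] {B : Type*}
    [CommGroup B] (ϕ ϕ' : H →* B) (g : G) :
    MonoidHom.transfer (ϕ * ϕ') g = MonoidHom.transfer ϕ g * MonoidHom.transfer ϕ' g := by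
  rw [MonoidHom.transfer_def (ϕ * ϕ') default, MonoidHom.transfer_def ϕ default,
    MonoidHom.transfer_def ϕ' default, diff_mul]

theorem push_add (ι : Γ' →* Γ) (hι : Function.Injective ι) (ψ ψ' : Additive Γ' →+ A) :
    push A ι hι (ψ + ψ') = push A ι hι ψ + push A ι hι ψ' := by
  by_cases h : ι.range.FiniteIndex
  · refine AddMonoidHom.ext fun g' => ?_
    obtain ⟨g, rfl⟩ : ∃ g : Γ, Additive.ofMul g = g' := ⟨Additive.toMul g', rfl⟩
    rw [AddMonoidHom.add_apply, push_apply, push_apply, push_apply, onRange_add, transfer_mul]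
    rfl
  · unfold push
    rw [dif_neg h, dif_neg h, dif_neg h, add_zero]

theorem push_zero (ι : Γ' →* Γ) (hι : Function.Injective ι) :
    push A ι hι (0 : Additive Γ' →+ A) = 0 := by
  have h := push_add A ι hι 0 0
  rw [add_zero] at h
  exact left_eq_add.mp h

/-- the transfer as an additive map -/
def pushHom (ι : Γ' →* Γ) (hι : Function.Injective ι) :
    (Additive Γ' →+ A) →+ (Additive Γ →+ A) where
  toFun := push A ι hι
  map_zero' := push_zero A ι hι
  map_add' := push_add A ι hι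

theorem pushHom_apply (ι : Γ' →* Γ) (hι : Function.Injective ι) (ψ : Additive Γ' →+ A) :
    pushHom A ι hι ψ = push A ι hι ψ := rfl

theorem isParabolicHom_push (ι : Γ' →* Γ) (hι : Function.Injective ι)
    (htr : ∀ γ : Γ', tr ((ι γ : Γ) : SL(2, ℤ)) = tr (γ : SL(2, ℤ)))
    (ψ : Additive Γ' →+ A) (hψ : IsParabolicHom Γ' ψ) : IsParabolicHom Γ (push A ι hι ψ) := by
  classical
  intro γ hγ
  by_cases h : ι.range.FiniteIndex
  · haveI : Finite (Γ ⧸ ι.range) := Subgroup.finite_quotient_of_finiteIndex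
    haveI : Fintype (Quotient (MulAction.orbitRel (Subgroup.zpowers γ) (Γ ⧸ ι.range))) :=
      Fintype.ofFinite _
    rw [push_apply, MonoidHom.transfer_eq_prod_quotient_orbitRel_zpowers_quot]
    have hone : ∀ q : Quotient (MulAction.orbitRel (Subgroup.zpowers γ) (Γ ⧸ ι.range)),
        onRange A ι hι ψ
          ⟨q.out.out⁻¹ * γ ^ Function.minimalPeriod (γ • ·) q.out * q.out.out,
            QuotientGroup.out_conj_pow_minimalPeriod_mem ι.range γ q.out⟩ = 1 := by
      intro q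
      obtain ⟨γ', hγ'⟩ := QuotientGroup.out_conj_pow_minimalPeriod_mem ι.range γ q.out
      have hmem : ι γ' ∈ ι.range := ⟨γ', rfl⟩
      have heq : (⟨q.out.out⁻¹ * γ ^ Function.minimalPeriod (γ • ·) q.out * q.out.out,
          QuotientGroup.out_conj_pow_minimalPeriod_mem ι.range γ q.out⟩ : ι.range)
          = ⟨ι γ', hmem⟩ := Subtype.ext hγ'.symm
      rw [heq, onRange_apply]
      have h0 : ψ (Additive.ofMul γ') = 0 := by
        apply hψ
        change tr (γ' : SL(2, ℤ)) ^ 2 = 4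
        rw [← htr, hγ']
        have h1 : (((q.out.out⁻¹ * γ ^ Function.minimalPeriod (γ • ·) q.out * q.out.out : Γ)) :
            SL(2, ℤ)) = ((q.out.out : Γ) : SL(2, ℤ))⁻¹ *
              (γ : SL(2, ℤ)) ^ Function.minimalPeriod (γ • ·) q.out *
                ((q.out.out : Γ) : SL(2, ℤ)) := by
          simp only [Subgroup.coe_mul, Subgroup.coe_inv, Subgroup.coe_pow]
        rw [h1, tr_conj]
        exact tr_pow_sq _ hγ _
      rw [h0]
      rfl
    rw [Finset.prod_eq_one (fun q _ => hone q)]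
    rfl
  · unfold push
    rw [dif_neg h]
    rfl

end Abstract

/-! ### the level maps -/

section Levels

variable (M r : ℕ) (hr : r ≠ 0)

theorem tr_jOne (γ : Gamma0 (M * r)) :
    tr ((jOne M r γ : Gamma0 M) : SL(2, ℤ)) = tr (γ : SL(2, ℤ)) := rfl

theorem tr_jTwo (γ : Gamma0 (M * r)) :
    tr ((jTwo M r hr γ : Gamma0 M) : SL(2, ℤ)) = tr (γ : SL(2, ℤ)) := by
  rw [tr_def, tr_def]
  rfl

theorem a1_mem (x : Additive (Gamma0 M) →+ ℤ) (hx : x ∈ Lat M) :
    helper4.a1 M r ℤ x ∈ Lat (M * r) :=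
  isParabolicHom_pull ℤ (jOne M r) (tr_jOne M r) x hx

theorem a2_mem (x : Additive (Gamma0 M) →+ ℤ) (hx : x ∈ Lat M) :
    helper4.a2 M r hr ℤ x ∈ Lat (M * r) :=
  isParabolicHom_pull ℤ (jTwo M r hr) (tr_jTwo M r hr) x hx

theorem b1_mem (y : Additive (Gamma0 (M * r)) →+ ℤ) (hy : y ∈ Lat (M * r)) :
    helper4.b1 M r ℤ y ∈ Lat M :=
  isParabolicHom_push ℤ (jOne M r) (jOne_injective M r) (tr_jOne M r) y hy

theorem b2_mem (y : Additive (Gamma0 (M * r)) →+ ℤ) (hy : y ∈ Lat (M * r)) :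
    helper4.b2 M r hr ℤ y ∈ Lat M :=
  isParabolicHom_push ℤ (jTwo M r hr) (jTwo_injective M r hr) (tr_jTwo M r hr) y hy

/-- restriction of an additive map between the groups of homomorphisms to the parabolic
lattices -/
def latMap {M₁ M₂ : ℕ}
    (f : (Additive (Gamma0 M₁) →+ ℤ) →+ (Additive (Gamma0 M₂) →+ ℤ))
    (hf : ∀ x, x ∈ Lat M₁ → f x ∈ Lat M₂) : Lat M₁ →ₗ[ℤ] Lat M₂ where
  toFun x := ⟨f x.1, hf x.1 x.2⟩
  map_add' x y := Subtype.ext (map_add f x.1 y.1)
  map_smul' c x := Subtype.ext (map_zsmul f c x.1)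

theorem latMap_coe {M₁ M₂ : ℕ}
    (f : (Additive (Gamma0 M₁) →+ ℤ) →+ (Additive (Gamma0 M₂) →+ ℤ))
    (hf : ∀ x, x ∈ Lat M₁ → f x ∈ Lat M₂) (x : Lat M₁) :
    ((latMap f hf x : Lat M₂) : Additive (Gamma0 M₂) →+ ℤ) = f x.1 := rfl

/-- **[HB0]**, first half: the level maps. -/
def levelMaps : LevelMaps M r hr where
  a1 := latMap (helper4.a1 M r ℤ) (a1_mem M r)
  a2 := latMap (helper4.a2 M r hr ℤ) (a2_mem M r hr)
  b1 := latMap (pushHom ℤ (jOne M r) (jOne_injective M r)) (b1_mem M r)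
  b2 := latMap (pushHom ℤ (jTwo M r hr) (jTwo_injective M r hr)) (b2_mem M r hr)
  a1_coe _ := rfl
  a2_coe _ := rfl
  b1_coe _ := rfl
  b2_coe _ := rfl

end Levels

/-! ### the Hecke operators -/

section Hecke

open Fermat.Agent.P3.helper16

variable (N : ℕ) [NeZero N]

/-- every integral parabolic homomorphism factors through the period lattice -/
theorem exists_eq_comp_perZ' (x : Additive (Gamma0 N) →+ ℤ) (hx : x ∈ Lat N) :
    ∃ ε : perLat N →+ ℤ, x = ε.comp (perZ' N) := by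
  -- the complexification of `x` is a period homomorphism
  let xC : Additive (Gamma0 N) →+ ℂ := (Int.castAddHom ℂ).comp x
  have hxC : xC ∈ parabolicHoms ℂ (Gamma0 N) ℂ := by
    intro γ hγ
    show ((x (Additive.ofMul γ) : ℤ) : ℂ) = 0
    rw [hx γ hγ, Int.cast_zero]
  rw [← (Fermat.Agent.S21.result N).2] at hxC
  obtain ⟨v, hv⟩ := hxC
  have hker : (perZ' N).ker ≤ x.ker := by
    intro γ hγ
    rw [AddMonoidHom.mem_ker] at hγ ⊢
    have h1 : perZ N γ = 0 := by
      rw [← coe_perZ', hγ]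
      rfl
    have h2 : xC γ = 0 := by
      rw [← hv]
      have := congrArg (fun f : V2 N →ₗ[ℂ] ℂ => f v) h1
      exact this
    have h3 : ((x γ : ℤ) : ℂ) = 0 := h2
    exact_mod_cast h3
  let e := QuotientAddGroup.quotientKerEquivOfSurjective (perZ' N) (perZ'_surjective N)
  refine ⟨(QuotientAddGroup.lift (perZ' N).ker x hker).comp e.symm.toAddMonoidHom, ?_⟩
  refine AddMonoidHom.ext fun γ => ?_
  have h : e.symm (perZ' N γ) = (QuotientAddGroup.mk γ : Additive (Gamma0 N) ⧸ (perZ' N).ker) := by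
    rw [AddEquiv.symm_apply_eq]
    rfl
  show x γ = (QuotientAddGroup.lift (perZ' N).ker x hker) (e.symm (perZ' N γ))
  rw [h]
  rfl

theorem heckeHom_mem (ℓ : Nat.Primes) (x : Additive (Gamma0 N) →+ ℤ) (hx : x ∈ Lat N) :
    heckeHom N ℓ x ∈ Lat N := by
  obtain ⟨ε, rfl⟩ := exists_eq_comp_perZ' N x hx
  rw [heckeHom_comp_perZ']
  exact comp_perZ'_mem_parabolicHoms N ℤ _

theorem heckeHom_comm (ℓ ℓ' : Nat.Primes) (x : Additive (Gamma0 N) →+ ℤ) (hx : x ∈ Lat N) :
    heckeHom N ℓ (heckeHom N ℓ' x) = heckeHom N ℓ' (heckeHom N ℓ x) := by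
  obtain ⟨ε, rfl⟩ := exists_eq_comp_perZ' N x hx
  rw [heckeHom_comp_perZ', heckeHom_comp_perZ', heckeHom_comp_perZ', heckeHom_comp_perZ']
  refine AddMonoidHom.ext fun γ => ?_
  show ε (hTr N (MvPolynomial.X ℓ') (hTr N (MvPolynomial.X ℓ) (perZ' N γ))) =
    ε (hTr N (MvPolynomial.X ℓ) (hTr N (MvPolynomial.X ℓ') (perZ' N γ)))
  have h1 : hTr N (MvPolynomial.X ℓ') (hTr N (MvPolynomial.X ℓ) (perZ' N γ)) =
      hTr N (MvPolynomial.X ℓ' * MvPolynomial.X ℓ) (perZ' N γ) := by
    rw [hTr_mul]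
    rfl
  have h2 : hTr N (MvPolynomial.X ℓ) (hTr N (MvPolynomial.X ℓ') (perZ' N γ)) =
      hTr N (MvPolynomial.X ℓ * MvPolynomial.X ℓ') (perZ' N γ) := by
    rw [hTr_mul]
    rfl
  rw [h1, h2, mul_comm]

/-- **[HB0]**, second half: the Hecke operators on the parabolic lattice. -/
def heckeOps : HeckeOps N where
  T ℓ := latMap (heckeHom N ℓ) (heckeHom_mem N ℓ)
  T_coe _ _ := rfl
  comm ℓ ℓ' := by
    refine LinearMap.ext fun x => Subtype.ext ?_
    exact heckeHom_comm N ℓ ℓ' x.1 x.2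

end Hecke

/-- **[HB0]** -/
theorem hb0 : HB0Statement := by
  refine ⟨fun M r hr _ _ => ⟨levelMaps M r hr⟩, fun M hM => ?_⟩
  haveI : NeZero M := ⟨hM.ne'⟩
  exact ⟨heckeOps M⟩

end Fermat.Agent.P6.helper95
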