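import Mathlib

set_option autoImplicit false

namespace Fermat.Agent.P6.helper99

/-! ## [A-EIG], abstract core: an eigenvector modulo `p` from an eigen-functional, by Nakayama -/

/-- an integer valued homomorphism all of whose values are divisible by `p` is `p • z` -/
lemma exists_eq_nsmul_of_forall_dvd {G : Type*} [AddZeroClass G] (w : G →+ ℤ) (p : ℕ)
    (h : ∀ g, (p : ℤ) ∣ w g) : ∃ z : G →+ ℤ, w = p • z := by
  refine ⟨{ toFun := fun g => w g / p
            map_zero' := by simp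
            map_add' := fun a b => by
              rw [map_add]
              exact Int.add_ediv_of_dvd_left (h a) }, ?_⟩
  refine AddMonoidHom.ext fun g => ?_
  show w g = (p • _ : G →+ ℤ) g
  rw [AddMonoidHom.smul_apply]
  show w g = p • (w g / p)
  rw [nsmul_eq_mul, Int.mul_ediv_cancel' (h g)]

/-- lifting a homomorphism to `ZMod p` from a free `ℤ`-module to `ℤ` -/
lemma exists_lift_zmod {Λ : Type*} [AddCommGroup Λ] [Module.Free ℤ Λ] (p : ℕ)
    (e : Λ →+ ZMod p) : ∃ ε : Λ →+ ℤ, ∀ x, ((ε x : ℤ) : ZMod p) = e x := by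
  obtain ⟨g, hg⟩ := Module.projective_lifting_property
    (Int.castAddHom (ZMod p)).toIntLinearMap e.toIntLinearMap
    (fun y => ZMod.intCast_surjective y)
  refine ⟨g.toAddMonoidHom, fun x => ?_⟩
  have := LinearMap.congr_fun hg x
  simpa using this

/-- **Abstract [A-EIG].** `Λ` a finitely generated free `ℤ`-module with an action of a
commutative ring `R`; `εf : Λ → K` a nonzero eigen-functional with eigencharacter
`lam : R → O ⊆ K`; `𝔪` a proper ideal of `O` containing `p`.  Then there is `ε : Λ → ℤ`, not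
divisible by `p`, with `ε ∘ P ≡ 0` modulo `p` for every `P` with `lam P ∈ 𝔪`. -/
theorem eig_abs {Λ : Type*} [AddCommGroup Λ] [Module.Finite ℤ Λ] [Module.Free ℤ Λ]
    {R : Type*} [CommRing R] (act : R →+* AddMonoid.End Λ)
    {O : Type*} [CommRing O] {K : Type*} [Field K] (ι : O →+* K) (hι : Function.Injective ι)
    (lam : R →+* O) (εf : Λ →+ K) (hεf : εf ≠ 0)
    (heig : ∀ P x, εf (act P x) = ι (lam P) * εf x)
    (𝔪 : Ideal O) (h𝔪 : 𝔪 ≠ ⊤) (p : ℕ) [Fact p.Prime] (hp : (p : O) ∈ 𝔪) :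
    ∃ ε : Λ →+ ℤ, (∃ x, ¬ (p : ℤ) ∣ ε x) ∧
      ∀ P : R, lam P ∈ 𝔪 → ∀ x, (p : ℤ) ∣ ε (act P x) := by
  classical
  let _ : Module R Λ := Module.compHom Λ act
  have hsmul : ∀ (P : R) (x : Λ), P • x = act P x := fun _ _ => rfl
  let 𝔫 : Ideal R := Ideal.comap lam 𝔪
  have h𝔫 : ∀ P : R, P ∈ 𝔫 ↔ lam P ∈ 𝔪 := fun _ => Iff.rfl
  -- Nakayama
  have hne : 𝔫 • (⊤ : Submodule R Λ) ≠ ⊤ := by
    intro htop
    have : Module.Finite R Λ := Module.Finite.of_restrictScalars_finite ℤ R Λ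
    have hfg : (⊤ : Submodule R Λ).FG := Module.Finite.fg_top
    obtain ⟨r, hr1, hr0⟩ := Submodule.exists_sub_one_mem_and_smul_eq_zero_of_fg_of_le_smul
      𝔫 ⊤ hfg (by rw [htop])
    have h0 : lam r = 0 := by
      obtain ⟨x, hx⟩ : ∃ x, εf x ≠ 0 := by
        by_contra h
        push Not at h
        exact hεf (AddMonoidHom.ext h)
      have h1 := heig r x
      rw [← hsmul, hr0 x trivial, map_zero] at h1
      have h2 : ι (lam r) = 0 := by
        rcases mul_eq_zero.1 h1.symm with h | h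
        · exact h
        · exact absurd h hx
      exact hι (by rw [h2, map_zero])
    have hr : r ∈ 𝔫 := by
      rw [h𝔫, h0]
      exact 𝔪.zero_mem
    have h1 : (1 : R) ∈ 𝔫 := by
      have := 𝔫.sub_mem hr hr1
      simpa using this
    apply h𝔪
    rw [Ideal.eq_top_iff_one]
    have : lam 1 ∈ 𝔪 := h1
    simpa using this
  -- an element outside `𝔫 Λ`
  obtain ⟨x₀, hx₀⟩ : ∃ x₀ : Λ, x₀ ∉ 𝔫 • (⊤ : Submodule R Λ) := by
    by_contra h
    push Not at h
    exact hne (eq_top_iff.2 fun x _ => h x)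
  -- the quotient as an `𝔽_p`-vector space
  let H : AddSubgroup Λ := (𝔫 • (⊤ : Submodule R Λ)).toAddSubgroup
  have hpH : ∀ x : Λ, p • x ∈ H := by
    intro x
    have h0 : (p : R) ∈ 𝔫 := by
      rw [h𝔫, map_natCast]
      exact hp
    have h1 : ((p : R)) • x ∈ 𝔫 • (⊤ : Submodule R Λ) :=
      Submodule.smul_mem_smul h0 Submodule.mem_top
    rw [Nat.cast_smul_eq_nsmul] at h1
    exact h1
  letI instM : Module (ZMod p) (Λ ⧸ H) := QuotientAddGroup.zmodModule hpH
  have hx₀' : (QuotientAddGroup.mk x₀ : Λ ⧸ H) ≠ 0 := by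
    rw [Ne, QuotientAddGroup.eq_zero_iff]
    exact hx₀
  have hfree : @Module.Free (ZMod p) (Λ ⧸ H) _ _ instM := Module.Free.of_divisionRing _ _
  have hproj : @Module.Projective (ZMod p) _ (Λ ⧸ H) _ instM :=
    @Module.Projective.of_free (ZMod p) _ (Λ ⧸ H) _ instM hfree
  obtain ⟨φ, hφ⟩ := @Module.Projective.exists_dual_ne_zero (Λ ⧸ H) _ (ZMod p) _ instM hproj _ hx₀'
  let e : Λ →+ ZMod p := φ.toAddMonoidHom.comp (QuotientAddGroup.mk' H)
  have he0 : e x₀ ≠ 0 := hφ
  have heH : ∀ y ∈ H, e y = 0 := by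
    intro y hy
    have h1 : (QuotientAddGroup.mk' H) y = 0 := (QuotientAddGroup.eq_zero_iff y).2 hy
    show φ.toAddMonoidHom ((QuotientAddGroup.mk' H) y) = 0
    rw [h1, map_zero]
  obtain ⟨ε, hε⟩ := exists_lift_zmod p e
  refine ⟨ε, ⟨x₀, fun hdvd => he0 ?_⟩, fun P hP x => ?_⟩
  · have := hε x₀
    rw [(ZMod.intCast_zmod_eq_zero_iff_dvd _ _).2 hdvd] at this
    exact this.symm
  · rw [← ZMod.intCast_zmod_eq_zero_iff_dvd, hε]
    apply heH
    show act P x ∈ 𝔫 • (⊤ : Submodule R Λ)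
    rw [← hsmul]
    exact Submodule.smul_mem_smul ((h𝔫 P).2 hP) Submodule.mem_top

end Fermat.Agent.P6.helper99
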