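import Mathlib
import Fermat.Agent.P6.helper4_S41Defs
import Fermat.Agent.P3.helper16_PerLattice
import Fermat.Agent.P3.helper54_EigenChar
import Fermat.Agent.P6.helper99_EigAbs

set_option autoImplicit false

open CongruenceSubgroup ModularCurve ModularCurve.Period CuspForm ModularFormClass
open scoped MatrixGroups

noncomputable section

namespace Fermat.Agent.P6.helper99

open Fermat.Agent.P3.helper16 Fermat.Agent.P3.helper54 Fermat.Agent.S16

variable (N : ℕ) [NeZero N]

/-- the Hecke polynomial ring acts on the period lattice -/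
def hTrHom : HeckeAlg →+* AddMonoid.End (perLat N) where
  toFun P := hTr N P
  map_one' := hTr_one N
  map_mul' P Q := hTr_mul N P Q
  map_zero' := hTr_zero N
  map_add' P Q := hTr_add N P Q

@[simp] theorem hTrHom_apply (P : HeckeAlg) (lam : perLat N) : hTrHom N P lam = hTr N P lam := rfl

/-- the eigencharacter of a normalised eigenform on the Hecke polynomial ring -/
def eigPoly (f : CuspForm (Gamma0 N) 2) (hf : f.IsNormalizedEigenform) :
    HeckeAlg →+* integralClosure ℤ ℂ :=
  (eigenChar (∅ : Set ℕ) f hf).comp (heckeEvalForms N 2)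

/-- evaluation of the period functionals at `(f, 0)` -/
def evF (f : CuspForm (Gamma0 N) 2) : perLat N →+ ℂ where
  toFun lam := (lam : V2 N →ₗ[ℂ] ℂ) (f, 0)
  map_zero' := rfl
  map_add' _ _ := rfl

theorem evF_ne_zero (f : CuspForm (Gamma0 N) 2) (hf : f ≠ 0) : evF N f ≠ 0 := by
  intro h
  have h1 : ((f, 0) : V2 N) = 0 := by
    apply perLat_separates N
    intro lam hlam
    exact DFunLike.congr_fun h ⟨lam, hlam⟩
  exact hf (congrArg Prod.fst h1)

theorem evF_hTr (f : CuspForm (Gamma0 N) 2) (hf : f.IsNormalizedEigenform) (P : HeckeAlg)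
    (lam : perLat N) :
    evF N f (hTr N P lam) = ((eigPoly N f hf P : integralClosure ℤ ℂ) : ℂ) * evF N f lam := by
  show (hTr N P lam : V2 N →ₗ[ℂ] ℂ) (f, 0) = _
  rw [hTr_apply_apply]
  have h1 : helper26.evalPair N P ((f, 0) : V2 N) =
      ((eigPoly N f hf P : integralClosure ℤ ℂ) : ℂ) • ((f, 0) : V2 N) := by
    rw [← evalPairLin_apply]
    show ((heckeEvalForms N 2 P : Module.End ℂ (CuspForm (Gamma0 N) 2)) f,
      (heckeEvalForms N 2 P : Module.End ℂ (CuspForm (Gamma0 N) 2)) 0) = _
    rw [map_zero, eigenCharC_spec (∅ : Set ℕ) f hf (heckeEvalForms N 2 P)]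
    rw [Prod.smul_mk, smul_zero]
    rfl
  rw [h1, map_smul, smul_eq_mul]
  rfl

end Fermat.Agent.P6.helper99
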