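import Mathlib
import Fermat.Agent.P6.helper99_EigPer

set_option autoImplicit false

open CongruenceSubgroup ModularCurve ModularCurve.Period CuspForm ModularFormClass
open scoped MatrixGroups

noncomputable section

namespace Fermat.Agent.P6.helper99

open Fermat.Agent.P3.helper16 Fermat.Agent.P3.helper54 Fermat.Agent.S16
open Fermat.Agent.P6.helper4

variable (N : ℕ) [NeZero N]

/-- the eigencharacter at a prime not dividing the level -/
theorem coe_eigPoly_X (f : CuspForm (Gamma0 N) 2) (hf : f.IsNormalizedEigenform)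
    (ℓ : Nat.Primes) (hℓN : ¬ (ℓ : ℕ) ∣ N) :
    ((eigPoly N f hf (MvPolynomial.X ℓ) : integralClosure ℤ ℂ) : ℂ) = qCoeff f ℓ := by
  have h1 : heckeEvalForms N 2 (MvPolynomial.X ℓ) =
      heckeAlgebra.T ℓ.2 hℓN (Set.notMem_empty _) :=
    heckeEvalForms_heckeGen_of_not_dvd hℓN
  show ((eigenChar (∅ : Set ℕ) f hf (heckeEvalForms N 2 (MvPolynomial.X ℓ)) :
    integralClosure ℤ ℂ) : ℂ) = _
  rw [h1, coe_eigenChar, eigenCharC_T]

theorem eigPoly_C (f : CuspForm (Gamma0 N) 2) (hf : f.IsNormalizedEigenform) (a : ℤ) :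
    eigPoly N f hf (MvPolynomial.C a) = (a : integralClosure ℤ ℂ) := by
  rw [eq_intCast (MvPolynomial.C : ℤ →+* HeckeAlg) a, map_intCast]

/-- if `a ≡ b` modulo `𝔪` for the eigenvalue `a` at `ℓ`, then `X_ℓ - b` lies in the kernel
of the reduced eigencharacter -/
theorem eigPoly_X_sub_C_mem (f : CuspForm (Gamma0 N) 2) (hf : f.IsNormalizedEigenform)
    (𝔪 : Ideal (integralClosure ℤ ℂ)) (ℓ : Nat.Primes) (hℓN : ¬ (ℓ : ℕ) ∣ N)
    (a : integralClosure ℤ ℂ) (ha : (a : ℂ) = qCoeff f ℓ) (b : ℤ)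
    (hab : a - (b : integralClosure ℤ ℂ) ∈ 𝔪) :
    eigPoly N f hf (MvPolynomial.X ℓ - MvPolynomial.C b) ∈ 𝔪 := by
  have h1 : eigPoly N f hf (MvPolynomial.X ℓ) = a := by
    apply Subtype.ext
    rw [coe_eigPoly_X N f hf ℓ hℓN, ha]
  rw [map_sub, h1, eigPoly_C]
  exact hab

/-- the Hecke step on `ε ∘ per` -/
theorem heckeHom_sub_smul_comp_perZ' (ℓ : Nat.Primes) (b : ℤ) (e : perLat N →+ ℤ) :
    helper26.heckeHom N ℓ (e.comp (perZ' N)) - b • (e.comp (perZ' N)) =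
      (e.comp (hTr N (MvPolynomial.X ℓ - MvPolynomial.C b))).comp (perZ' N) := by
  rw [heckeHom_comp_perZ']
  refine AddMonoidHom.ext fun γ => ?_
  have h1 : hTr N (MvPolynomial.X ℓ - MvPolynomial.C b) =
      hTr N (MvPolynomial.X ℓ) - hTr N (MvPolynomial.C b) := by
    have := map_sub (hTrHom N) (MvPolynomial.X ℓ) (MvPolynomial.C b)
    exact this
  simp only [AddMonoidHom.sub_apply, AddMonoidHom.comp_apply, AddMonoidHom.smul_apply, h1,
    map_sub, hTr_C, map_zsmul]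

/-- **[A-EIG]** verbatim. -/
theorem eigStatement : EigStatement := by
  intro W p N q hp _hp2 hN hq hqN _hqp f 𝔪 hf hmax hpm hcong hLR
  have : NeZero N := ⟨hN.ne'⟩
  have : Fact p.Prime := ⟨hp⟩
  have hprime : 𝔪.IsPrime := hmax.isPrime
  -- the sign
  obtain ⟨aq, haq, haq2⟩ := hLR
  have hfac : (aq - ((q : integralClosure ℤ ℂ) + 1)) * (aq + ((q : integralClosure ℤ ℂ) + 1)) ∈ 𝔪 := by
    have : (aq - ((q : integralClosure ℤ ℂ) + 1)) * (aq + ((q : integralClosure ℤ ℂ) + 1)) =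
        aq ^ 2 - ((q : integralClosure ℤ ℂ) + 1) ^ 2 := by ring
    rw [this]
    exact haq2
  obtain ⟨ε, hε, hεm⟩ : ∃ ε : ℤ, (ε = 1 ∨ ε = -1) ∧
      aq - ((ε * ((q : ℤ) + 1) : ℤ) : integralClosure ℤ ℂ) ∈ 𝔪 := by
    rcases hprime.mem_or_mem hfac with h | h
    · refine ⟨1, Or.inl rfl, ?_⟩
      convert h using 2
      push_cast
      ring
    · refine ⟨-1, Or.inr rfl, ?_⟩
      convert h using 1
      push_cast
      ring
  -- the abstract core
  obtain ⟨e, ⟨x₀, hx₀⟩, he⟩ := eig_abs (hTrHom N) (integralClosure ℤ ℂ).val.toRingHom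
    Subtype.val_injective (eigPoly N f hf) (evF N f)
    (evF_ne_zero N f (ne_zero_of_isNormalizedEigenform f hf))
    (fun P x => evF_hTr N f hf P x) 𝔪 hmax.ne_top p hpm
  refine ⟨ε, e.comp (perZ' N), hε, comp_perZ'_mem_parabolicHoms N ℤ e, ?_, ?_, ?_⟩
  · rintro ⟨v', hv'⟩
    obtain ⟨γ, rfl⟩ := perZ'_surjective N x₀
    apply hx₀
    have := DFunLike.congr_fun hv' γ
    rw [AddMonoidHom.comp_apply] at this
    rw [this]
    exact ⟨v' γ, by rw [AddMonoidHom.smul_apply, nsmul_eq_mul]⟩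
  · rintro ℓ ⟨hgood, hℓNq, hℓp⟩
    have hℓN : ¬ (ℓ : ℕ) ∣ N := fun h => hℓNq (Dvd.dvd.mul_right h q)
    obtain ⟨a, ha, ham⟩ := hcong ℓ ℓ.2 hgood hℓN hℓp
    have hP := eigPoly_X_sub_C_mem N f hf 𝔪 ℓ hℓN a ha (W.apOfModel ℓ) ham
    have key := heckeHom_sub_smul_comp_perZ' N ℓ (W.apOfModel ℓ) e
    obtain ⟨z, hz⟩ := exists_eq_nsmul_of_forall_dvd
      ((e.comp (hTr N (MvPolynomial.X ℓ - MvPolynomial.C (W.apOfModel ℓ)))).comp (perZ' N)) p
      (fun γ => he _ hP (perZ' N γ))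
    exact ⟨z, key.trans hz⟩
  · have hP := eigPoly_X_sub_C_mem N f hf 𝔪 ⟨q, hq⟩ hqN aq haq (ε * ((q : ℤ) + 1)) hεm
    have key := heckeHom_sub_smul_comp_perZ' N (⟨q, hq⟩ : Nat.Primes) (ε * ((q : ℤ) + 1)) e
    obtain ⟨z, hz⟩ := exists_eq_nsmul_of_forall_dvd
      ((e.comp (hTr N ((MvPolynomial.X (⟨q, hq⟩ : Nat.Primes) : HeckeAlg) -
        MvPolynomial.C (ε * ((q : ℤ) + 1))))).comp (perZ' N)) p
      (fun γ => he _ hP (perZ' N γ))
    exact ⟨z, key.trans hz⟩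

end Fermat.Agent.P6.helper99
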