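import Fermat.Agent.P6.helper4_S41Final
import Fermat.Agent.P6.helper95_HB0
import Fermat.Agent.P6.helper67_HB1
import Fermat.Agent.P6.helper62_HB2
import Fermat.Agent.P6.helper3_HB3
import Fermat.Agent.P6.helper1_Lift
import Fermat.Agent.P6.helper99_Eig
import Fermat.Agent.P6.helper43_Fin
import Fermat.Agent.P6.helper62_IharaBridge

/-!
# P6 / S41: wiring of the landed packages (helper4)

`s41_of_duality_nonEis` : the frozen statement S41 from the two remaining packages
`DualityStatement` (module (D)) and `NonEisStatement` (module (N)); every other input of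
`s41_of` is discharged by a landed theorem:

* `HB0Statement` : `helper95.hb0`, `HB1Statement` : `helper67.hb1`,
  `HB2Statement` : `helper62.hb2Statement`, `HB3Statement` : `helper3.hb3`;
* `LiftStatement` : `helper1.lift_of_hb3`; `EigStatement` : `helper99.eigStatement`;
* `FinStatement` : `helper43.finStatement`; `IharaStatement` : `helper62.iharaStatement`.
-/

set_option autoImplicit false

open CongruenceSubgroup ModularCurve.Period
open scoped MatrixGroups

namespace Fermat.Agent.P6.helper4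

theorem liftStatement : LiftStatement := Fermat.Agent.P6.helper1.lift_of_hb3 Fermat.Agent.P6.helper3.hb3

theorem finStatement' : FinStatement := Fermat.Agent.P6.helper43.finStatement

theorem iharaFamily (N q p : ℕ) (hq : q.Prime) (hqN : ¬ q ∣ N) (hp : p.Prime) (hqp : q ≠ p) :
    IharaStatement N q hq.ne_zero p :=
  Fermat.Agent.P6.helper62.iharaStatement hq
    ((Nat.Prime.coprime_iff_not_dvd hq).mpr hqN).symm
    ((Nat.coprime_primes hp hq).mpr (Ne.symm hqp))

/-- **S41 from duality and the non-Eisenstein prime.** -/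
theorem s41_of_duality_nonEis (hD : DualityStatement) (hNE : NonEisStatement)
    (E : WeierstrassCurve ℚ) [E.IsElliptic] {W : WeierstrassCurve ℤ} (hW : W.IsIntegralModelOf E)
    {p N q' : ℕ} (hp : p.Prime) (hp2 : p ≠ 2) (hN : 0 < N) (hq' : q'.Prime) (hq'N : ¬ q' ∣ N)
    (hq'p : q' ≠ p)
    (hirr : WeierstrassCurve.Affine.Point.GaloisRepIsIrreducible (K := AlgebraicClosure ℚ) ℚ E p)
    (f : CuspForm (CongruenceSubgroup.Gamma0 N) 2) (𝔪 : Ideal (integralClosure ℤ ℂ))
    (hf : f.IsNormalizedEigenform) (hmax : 𝔪.IsMaximal) (hpm : (p : integralClosure ℤ ℂ) ∈ 𝔪)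
    (hcong : ∀ ℓ : ℕ, ℓ.Prime → W.IsGoodPrimeFor ℓ → ¬ ℓ ∣ N → ℓ ≠ p →
      ∃ a : integralClosure ℤ ℂ, (a : ℂ) = ModularFormClass.qCoeff f ℓ ∧
        a - ((W.apOfModel ℓ : ℤ) : integralClosure ℤ ℂ) ∈ 𝔪)
    (hLR : ∃ a : integralClosure ℤ ℂ, (a : ℂ) = ModularFormClass.qCoeff f q' ∧
      a ^ 2 - ((q' : integralClosure ℤ ℂ) + 1) ^ 2 ∈ 𝔪) :
    ∃ (g : CuspForm (CongruenceSubgroup.Gamma0 (N * q')) 2) (𝔪' : Ideal (integralClosure ℤ ℂ)),
      g.IsNormalizedEigenform ∧ 𝔪'.IsMaximal ∧ (p : integralClosure ℤ ℂ) ∈ 𝔪' ∧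
      (∀ ℓ : ℕ, ℓ.Prime → W.IsGoodPrimeFor ℓ → ¬ ℓ ∣ N * q' → ℓ ≠ p →
        ∃ a : integralClosure ℤ ℂ, (a : ℂ) = ModularFormClass.qCoeff g ℓ ∧
          a - ((W.apOfModel ℓ : ℤ) : integralClosure ℤ ℂ) ∈ 𝔪') ∧
      g.IsNewAt q' :=
  s41_of Fermat.Agent.P6.helper95.hb0 Fermat.Agent.P6.helper67.hb1
    Fermat.Agent.P6.helper62.hb2Statement hD hNE Fermat.Agent.P6.helper99.eigStatement
    liftStatement finStatement' iharaFamily E hW hp hp2 hN hq' hq'N hq'p hirr f 𝔪 hf hmax hpm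
    hcong hLR

end Fermat.Agent.P6.helper4
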