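import Mathlib
import Fermat.Agent.P6.helper21_GlueDefs

/-!
# P6 / S41, module (D), package [D-ISO-J]: the isomorphism `jTwoEquiv` onto the image of `jTwo`

`jTwoIso : helper21.JTwoIsoStatement` — the image of `jTwo M r : Γ₀(M r) → Γ₀(M)` has finite
index in `SL(2, ℤ)`, contains `-1`, and `jTwoEquiv` preserves positive unipotent elements and
parabolic homs.
-/

set_option autoImplicit false

open scoped MatrixGroups
open Matrix.SpecialLinearGroup ModularCurve.Period CongruenceSubgroup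

namespace Fermat.Agent.P6.helper54

open Fermat.Agent.P6.helper21
open Fermat.Agent.P6.helper77 (jOne jTwo jTwo_injective gamma0_mul_le gamma0_mem_iff_dvd
  dvd_of_mem_gamma0_mul mem_range_jTwo_iff jTwo_apply_zero_one)

/-! ### entries of `jTwo` -/

theorem jTwo_entry_zero_zero (M r : ℕ) (hr : r ≠ 0) (γ : Gamma0 (M * r)) :
    ((jTwo M r hr γ : SL(2, ℤ)) 0 0 : ℤ) = (γ : SL(2, ℤ)) 0 0 := rfl

theorem jTwo_entry_zero_one (M r : ℕ) (hr : r ≠ 0) (γ : Gamma0 (M * r)) :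
    ((jTwo M r hr γ : SL(2, ℤ)) 0 1 : ℤ) = (r : ℤ) * (γ : SL(2, ℤ)) 0 1 := rfl

theorem jTwo_entry_one_zero (M r : ℕ) (hr : r ≠ 0) (γ : Gamma0 (M * r)) :
    ((jTwo M r hr γ : SL(2, ℤ)) 1 0 : ℤ) = (γ : SL(2, ℤ)) 1 0 / (r : ℤ) := rfl

theorem jTwo_entry_one_one (M r : ℕ) (hr : r ≠ 0) (γ : Gamma0 (M * r)) :
    ((jTwo M r hr γ : SL(2, ℤ)) 1 1 : ℤ) = (γ : SL(2, ℤ)) 1 1 := rfl

theorem jTwo_trace (M r : ℕ) (hr : r ≠ 0) (γ : Gamma0 (M * r)) :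
    ((jTwo M r hr γ : SL(2, ℤ)) : Matrix (Fin 2) (Fin 2) ℤ).trace =
      ((γ : SL(2, ℤ)) : Matrix (Fin 2) (Fin 2) ℤ).trace := by
  rw [Matrix.trace_fin_two, Matrix.trace_fin_two]
  rfl

theorem jTwoEquiv_trace (M r : ℕ) (hr : r ≠ 0) (γ : Gamma0 (M * r)) :
    (((jTwoEquiv M r hr γ : jTwoImage M r hr) : SL(2, ℤ)) : Matrix (Fin 2) (Fin 2) ℤ).trace =
      ((γ : SL(2, ℤ)) : Matrix (Fin 2) (Fin 2) ℤ).trace := by
  rw [jTwoEquiv_coe, jTwo_trace]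

/-! ### the image of `jTwo` -/

/-- membership in the image of `jTwo`: `M ∣ c` and `r ∣ b` -/
theorem mem_jTwoImage_iff (M r : ℕ) (hr : r ≠ 0) (γ : SL(2, ℤ)) :
    γ ∈ jTwoImage M r hr ↔ (M : ℤ) ∣ γ 1 0 ∧ (r : ℤ) ∣ γ 0 1 := by
  constructor
  · rintro ⟨γ', rfl⟩
    refine ⟨gamma0_mem_iff_dvd.1 (jTwo M r hr γ').2, ?_⟩
    exact (mem_range_jTwo_iff M r hr (jTwo M r hr γ')).1 ⟨γ', rfl⟩
  · rintro ⟨h1, h2⟩
    obtain ⟨γ', hγ'⟩ := (mem_range_jTwo_iff M r hr ⟨γ, gamma0_mem_iff_dvd.2 h1⟩).2 h2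
    exact ⟨γ', congrArg Subtype.val hγ'⟩

theorem neg_one_mem_jTwoImage (M r : ℕ) (hr : r ≠ 0) : (-1 : SL(2, ℤ)) ∈ jTwoImage M r hr := by
  rw [mem_jTwoImage_iff]
  simp

theorem gamma_le_jTwoImage (M r : ℕ) (hr : r ≠ 0) : Gamma (M * r) ≤ jTwoImage M r hr := by
  intro γ hγ
  rw [Gamma_mem] at hγ
  obtain ⟨-, h01, h10, -⟩ := hγ
  rw [ZMod.intCast_zmod_eq_zero_iff_dvd] at h01 h10
  rw [mem_jTwoImage_iff]
  refine ⟨dvd_trans ⟨(r : ℤ), by push_cast; ring⟩ h10, dvd_trans ⟨(M : ℤ), by push_cast; ring⟩ h01⟩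

theorem jTwoImage_finiteIndex (M r : ℕ) (hr : r ≠ 0) (hM : 0 < M) :
    (jTwoImage M r hr).FiniteIndex := by
  have : NeZero (M * r) := ⟨Nat.mul_ne_zero hM.ne' hr⟩
  exact Subgroup.finiteIndex_of_le (gamma_le_jTwoImage M r hr)

/-! ### positive unipotent elements -/

theorem isPosUnip_jTwoEquiv_iff (M r : ℕ) (hr : r ≠ 0) (γ : Gamma0 (M * r)) :
    IsPosUnip (γ : SL(2, ℤ)) ↔
      IsPosUnip ((jTwoEquiv M r hr γ : jTwoImage M r hr) : SL(2, ℤ)) := by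
  have hr' : (0 : ℤ) < (r : ℤ) := by exact_mod_cast Nat.pos_of_ne_zero hr
  have hdvd : (r : ℤ) ∣ (γ : SL(2, ℤ)) 1 0 := dvd_of_mem_gamma0_mul γ.2
  obtain ⟨t, ht⟩ := hdvd
  have hdiv : (γ : SL(2, ℤ)) 1 0 / (r : ℤ) = t := by
    rw [ht, Int.mul_ediv_cancel_left _ hr'.ne']
  unfold IsPosUnip
  rw [jTwoEquiv_trace, jTwoEquiv_coe, jTwo_entry_zero_one, jTwo_entry_one_zero, hdiv, ht]
  constructor
  · rintro ⟨h1, h2, h3⟩
    refine ⟨h1, mul_nonneg hr'.le h2, ?_⟩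
    by_contra hcon
    rw [not_le] at hcon
    have := mul_pos hr' hcon
    linarith
  · rintro ⟨h1, h2, h3⟩
    refine ⟨h1, ?_, mul_nonpos_of_nonneg_of_nonpos hr'.le h3⟩
    by_contra hcon
    rw [not_le] at hcon
    have := mul_neg_of_pos_of_neg hr' hcon
    linarith

/-! ### parabolic homs -/

theorem isParabolicHom_jTwoEquiv_iff (M r : ℕ) (hr : r ≠ 0)
    (y : Additive (jTwoImage M r hr) →+ ℤ) :
    IsParabolicHom (jTwoImage M r hr) y ↔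
      IsParabolicHom (Gamma0 (M * r)) (y.comp (jTwoEquiv M r hr).toMonoidHom.toAdditive) := by
  constructor
  · intro h γ hγ
    have := h (jTwoEquiv M r hr γ) (by rw [jTwoEquiv_trace]; exact hγ)
    exact this
  · intro h γ hγ
    have h1 := h ((jTwoEquiv M r hr).symm γ) (by
      rw [← jTwoEquiv_trace M r hr, MulEquiv.apply_symm_apply]; exact hγ)
    have h2 : (y.comp (jTwoEquiv M r hr).toMonoidHom.toAdditive)
        (Additive.ofMul ((jTwoEquiv M r hr).symm γ)) = y (Additive.ofMul γ) := by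
      show y (Additive.ofMul (jTwoEquiv M r hr ((jTwoEquiv M r hr).symm γ))) = _
      rw [MulEquiv.apply_symm_apply]
    rw [← h2]
    exact h1

/-- **[D-ISO-J]** -/
theorem jTwoIso : JTwoIsoStatement := fun M r hr hM =>
  ⟨jTwoImage_finiteIndex M r hr hM, neg_one_mem_jTwoImage M r hr,
    isPosUnip_jTwoEquiv_iff M r hr, isParabolicHom_jTwoEquiv_iff M r hr⟩

end Fermat.Agent.P6.helper54
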