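import Mathlib
import Fermat.Agent.P6.helper73_CentDefs

/-!
# P6 / S41, Theorem A, package [A-NT] (helper60, second prover)

`aNT : helper73.ANTStatement q m` for `q` prime and `m` prime to `q`: the arithmetic input of the
centrality theorem (Dirichlet's theorem + Fermat's little theorem + a geometric sum).

Proof.  `X = q ^ (2 φ(m))`, `X - 1 = m r^k τ₀` with `r ∤ τ₀`.  A number `P` is *good* if
`P ∣ X ^ j - 1` for some `j > 0` prime to `r`; odd primes `l ∤ q` with `l ≢ 1 mod R`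
(`R = r` resp. `4`) are good (`j = (l - 1) / 2`), and coprime products of good numbers are good.
Choose a good prime `l₁` with `l₁ r^k ≡ γ mod a` (so `c₁ = m r^k l₁`), then `a₁ ≡ a mod m c₁`
a good prime or a product of two good primes.  Then `l₁ a₁ ∣ τ₀ S`, `S = 1 + X + ⋯ + X^(j-1) ≡ j`
modulo `r`.
-/

set_option autoImplicit false

namespace Fermat.Agent.P6.helper60

/-- `P` divides `X ^ k - 1` for some `k > 0` prime to `r` -/
def GoodNum (X : ℤ) (r : ℕ) (P : ℤ) : Prop := ∃ k : ℕ, 0 < k ∧ ¬ r ∣ k ∧ P ∣ X ^ k - 1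

lemma dvd_pow_mul_sub_one {X P : ℤ} {k : ℕ} (j : ℕ) (h : P ∣ X ^ k - 1) :
    P ∣ X ^ (k * j) - 1 := by
  have h1 : X ^ k - 1 ∣ (X ^ k) ^ j - 1 := by
    simpa using sub_dvd_pow_sub_pow (X ^ k) 1 j
  rw [pow_mul]
  exact h.trans h1

lemma GoodNum.mul {X : ℤ} {r : ℕ} (hr : r.Prime) {P Q : ℤ} (hP : GoodNum X r P)
    (hQ : GoodNum X r Q) (hPQ : IsCoprime P Q) : GoodNum X r (P * Q) := by
  obtain ⟨k, hk, hrk, hPk⟩ := hP
  obtain ⟨j, hj, hrj, hQj⟩ := hQ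
  refine ⟨k * j, Nat.mul_pos hk hj, ?_, ?_⟩
  · intro h
    rcases (Nat.Prime.dvd_mul hr).1 h with h | h
    · exact hrk h
    · exact hrj h
  · refine hPQ.mul_dvd (dvd_pow_mul_sub_one j hPk) ?_
    rw [mul_comm]
    exact dvd_pow_mul_sub_one k hQj

/-- the auxiliary modulus: `4` for `r = 2`, `r` otherwise -/
def auxMod (r : ℕ) : ℕ := if r = 2 then 4 else r

lemma auxMod_two : auxMod 2 = 4 := by simp [auxMod]

lemma auxMod_of_ne {r : ℕ} (h : r ≠ 2) : auxMod r = r := by simp [auxMod, h]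

lemma three_le_auxMod {r : ℕ} (hr : r.Prime) : 3 ≤ auxMod r := by
  by_cases h : r = 2
  · rw [h, auxMod_two]; norm_num
  · rw [auxMod_of_ne h]
    have := hr.two_le
    omega

/-- odd primes `l ∤ q` with `l ≢ 1` modulo `auxMod r` are good -/
lemma goodNum_prime {q r l n0 : ℕ} (hl : l.Prime) (hl2 : l ≠ 2) (hlq : ¬ l ∣ q)
    (hn0 : Even n0) (hR : ¬ ((auxMod r : ℕ) : ℤ) ∣ (l : ℤ) - 1) :
    GoodNum ((q : ℤ) ^ n0) r (l : ℤ) := by
  obtain ⟨j, hj⟩ := hl.odd_of_ne_two hl2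
  have hjpos : 0 < j := by
    have := hl.two_le
    omega
  refine ⟨j, hjpos, ?_, ?_⟩
  · intro hrj
    apply hR
    obtain ⟨i, hi⟩ := hrj
    by_cases h2 : r = 2
    · rw [h2, auxMod_two]
      refine ⟨i, ?_⟩
      rw [hj, hi, h2]
      push_cast
      ring
    · rw [auxMod_of_ne h2]
      refine ⟨2 * i, ?_⟩
      rw [hj, hi]
      push_cast
      ring
  · obtain ⟨i, hi⟩ := hn0
    have hcop : IsCoprime (q : ℤ) (l : ℤ) :=
      Nat.isCoprime_iff_coprime.2 ((Nat.Prime.coprime_iff_not_dvd hl).2 hlq).symm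
    have hF : (q : ℤ) ^ (l - 1) ≡ 1 [ZMOD l] := Int.ModEq.pow_card_sub_one_eq_one hl hcop
    have h1 : ((q : ℤ) ^ n0) ^ j = ((q : ℤ) ^ (l - 1)) ^ i := by
      rw [← pow_mul, ← pow_mul]
      congr 1
      rw [hi, hj]
      simp only [Nat.add_sub_cancel]
      ring
    rw [h1]
    have h2 := hF.pow i
    rw [one_pow] at h2
    exact Int.modEq_iff_dvd.1 h2.symm

/-- from a good number prime to `m₁` to the final `τ` -/
lemma exists_tau_of_goodNum {X : ℤ} {r : ℕ} (hr : r.Prime) {P m1 τ0 : ℤ} (hP : GoodNum X r P)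
    (hcop : IsCoprime P m1) (hX : X - 1 = m1 * τ0) (hrX : (r : ℤ) ∣ X - 1)
    (hτ0 : ¬ (r : ℤ) ∣ τ0) :
    ∃ (τ : ℤ) (k : ℕ), 0 < k ∧ P * m1 * τ = X ^ k - 1 ∧ ¬ (r : ℤ) ∣ τ := by
  obtain ⟨k, hk, hrk, hPk⟩ := hP
  set S : ℤ := ∑ i ∈ Finset.range k, X ^ i with hS
  have hgeom : X ^ k - 1 = (X - 1) * S := (mul_geom_sum X k).symm
  have hPS : P ∣ τ0 * S := by
    have h1 : P ∣ m1 * (τ0 * S) := by
      rw [← mul_assoc, ← hX, ← hgeom]
      exact hPk
    exact hcop.dvd_of_dvd_mul_left h1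
  obtain ⟨τ, hτ⟩ := hPS
  refine ⟨τ, k, hk, ?_, ?_⟩
  · rw [hgeom, hX]
    linear_combination (-m1) * hτ
  · intro hrτ
    have h1 : (r : ℤ) ∣ τ0 * S := by
      rw [hτ]
      exact Dvd.dvd.mul_left hrτ P
    have hrp : Prime (r : ℤ) := Nat.prime_iff_prime_int.1 hr
    rcases hrp.dvd_or_dvd h1 with h | h
    · exact hτ0 h
    · have hSk : (r : ℤ) ∣ S - k := by
        have h2 : S - (k : ℤ) = ∑ i ∈ Finset.range k, (X ^ i - 1) := by
          simp [hS, Finset.sum_sub_distrib]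
        rw [h2]
        apply Finset.dvd_sum
        intro i _
        refine hrX.trans ?_
        simpa using sub_dvd_pow_sub_pow X 1 i
      have h3 : (r : ℤ) ∣ (k : ℤ) := by
        have := dvd_sub h hSk
        simpa using this
      exact hrk (Int.natCast_dvd_natCast.1 h3)

/-- Dirichlet's theorem, in divisibility form -/
lemma exists_prime_gt_dvd_sub (B N : ℕ) (hN : N ≠ 0) (x : ℤ) (hx : IsCoprime x (N : ℤ)) :
    ∃ l : ℕ, l.Prime ∧ B < l ∧ (N : ℤ) ∣ (l : ℤ) - x := by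
  obtain ⟨l, hlB, hl, hmod⟩ := Nat.forall_exists_prime_gt_and_zmodEq B hN hx
  exact ⟨l, hl, hlB, Int.modEq_iff_dvd.1 hmod.symm⟩

lemma isCoprime_prime_of_lt {l : ℕ} (hl : l.Prime) {n : ℕ} (hn : 0 < n) (hnl : n < l) :
    IsCoprime (l : ℤ) (n : ℤ) := by
  refine Nat.isCoprime_iff_coprime.2 ((Nat.Prime.coprime_iff_not_dvd hl).2 ?_)
  intro h
  exact absurd (Nat.le_of_dvd hn h) (by omega)

lemma isCoprime_prime_int_of_lt {l : ℕ} (hl : l.Prime) {a : ℤ} (ha : a ≠ 0)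
    (hal : a.natAbs < l) : IsCoprime (l : ℤ) a := by
  have h1 : IsCoprime (l : ℤ) (a.natAbs : ℤ) :=
    isCoprime_prime_of_lt hl (Int.natAbs_pos.2 ha) hal
  rcases Int.natAbs_eq a with h | h
  · rw [h]; exact h1
  · rw [h]; exact h1.neg_right

lemma not_auxMod_dvd_sub_one {r : ℕ} (hr : r.Prime) {l : ℤ}
    (h : ((auxMod r : ℕ) : ℤ) ∣ l + 1) : ¬ ((auxMod r : ℕ) : ℤ) ∣ l - 1 := by
  intro h'
  have h2 : ((auxMod r : ℕ) : ℤ) ∣ 2 := by
    have := dvd_sub h h'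
    have e : l + 1 - (l - 1) = 2 := by ring
    rwa [e] at this
  have h3 := Int.le_of_dvd (by norm_num) h2
  have h4 := three_le_auxMod hr
  have h5 : ((auxMod r : ℕ) : ℤ) ≥ 3 := by exact_mod_cast h4
  omega

/-- **[A-NT]**: the arithmetic input of Theorem A. -/
theorem aNT (q m : ℕ) (hq : q.Prime) (hmq : Nat.Coprime m q) :
    Fermat.Agent.P6.helper73.ANTStatement q m := by
  intro r hr hrm a γ hag ham
  have hm0 : m ≠ 0 := by
    rintro rfl
    rw [Nat.coprime_zero_left] at hmq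
    exact hq.ne_one hmq
  have hmpos : 0 < m := Nat.pos_of_ne_zero hm0
  have hrle : r ≤ m := Nat.le_of_dvd hmpos hrm
  have har : IsCoprime a (r : ℤ) := by
    obtain ⟨m', hm'⟩ := hrm
    rw [hm'] at ham
    push_cast at ham
    exact ham.of_mul_right_left
  have ha0 : a ≠ 0 := by
    rintro rfl
    have h1 : IsUnit (r : ℤ) := isCoprime_zero_left.1 har
    have h2 : (r : ℤ) = 1 ∨ (r : ℤ) = -1 := Int.isUnit_iff.1 h1
    have h3 := hr.two_le
    rcases h2 with h2 | h2 <;> omega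
  -- the auxiliary modulus
  set R : ℕ := auxMod r with hRdef
  have hR3 : 3 ≤ R := three_le_auxMod hr
  have haR : IsCoprime a (R : ℤ) := by
    by_cases h2 : r = 2
    · have e : (R : ℤ) = (r : ℤ) * (r : ℤ) := by
        rw [hRdef, h2, auxMod_two]; norm_num
      rw [e]
      exact har.mul_right har
    · rw [hRdef, auxMod_of_ne h2]
      exact har
  -- `X = q ^ n0`
  set n0 : ℕ := Nat.totient m * 2 with hn0
  have hn0even : Even n0 := ⟨Nat.totient m, by rw [hn0]; ring⟩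
  have htot : 0 < Nat.totient m := Nat.totient_pos.2 hmpos
  have hn0pos : 0 < n0 := by rw [hn0]; omega
  have hXmod : q ^ n0 ≡ 1 [MOD m] := by
    rw [hn0, pow_mul]
    have := (Nat.ModEq.pow_totient hmq.symm).pow 2
    rwa [one_pow] at this
  have hXgt : 1 < q ^ n0 := Nat.one_lt_pow hn0pos.ne' hq.one_lt
  have hmdvd : m ∣ q ^ n0 - 1 := (Nat.modEq_iff_dvd' hXgt.le).1 hXmod.symm
  obtain ⟨Y, hY⟩ := hmdvd
  have hY0 : Y ≠ 0 := by
    rintro rfl
    rw [mul_zero] at hY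
    omega
  obtain ⟨k, τ0, hrτ0, hYk⟩ := Nat.exists_eq_pow_mul_and_not_dvd hY0 r hr.ne_one
  have hXeq : ((q : ℤ) ^ n0) - 1 = ((m : ℤ) * (r : ℤ) ^ k) * (τ0 : ℤ) := by
    have h1 : q ^ n0 = m * (r ^ k * τ0) + 1 := by
      rw [← hYk]
      omega
    have h2 : ((q ^ n0 : ℕ) : ℤ) = ((m * (r ^ k * τ0) + 1 : ℕ) : ℤ) := by rw [h1]
    push_cast at h2
    rw [h2]
    ring
  have hrX : (r : ℤ) ∣ ((q : ℤ) ^ n0) - 1 := by
    rw [hXeq]
    exact Dvd.dvd.mul_right (Dvd.dvd.mul_right (Int.natCast_dvd_natCast.2 hrm) _) _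
  have hτ0' : ¬ (r : ℤ) ∣ (τ0 : ℤ) := fun h => hrτ0 (Int.natCast_dvd_natCast.1 h)
  -- Step 1: the prime `l₁`
  obtain ⟨u, v, huv⟩ := haR.symm
  have hrka : IsCoprime ((r : ℤ) ^ k) a := har.symm.pow_left
  obtain ⟨u', v', hu'v'⟩ := hrka
  set x0 : ℤ := γ * u' * (u * R) + a * (-v) with hx0
  have hx0R : x0 + 1 = (R : ℤ) * (u * (1 + γ * u')) := by
    rw [hx0]
    linear_combination (-1 : ℤ) * huv
  have hx0a : x0 * (r : ℤ) ^ k - γ = a * (-γ * v' - γ * u' * (r : ℤ) ^ k * v - v * (r : ℤ) ^ k) := by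
    rw [hx0]
    linear_combination (γ * u' * (r : ℤ) ^ k) * huv + γ * hu'v'
  have hx0copR : IsCoprime x0 (R : ℤ) :=
    ⟨-1, u * (1 + γ * u'), by linear_combination (-1 : ℤ) * hx0R⟩
  have hx0copa : IsCoprime x0 a := by
    have h1 : IsCoprime u' a := ⟨(r : ℤ) ^ k, v', by linear_combination hu'v'⟩
    have h2 : IsCoprime (u * R) a := ⟨1, v, by linear_combination huv⟩
    have h3 : IsCoprime (γ * u' * (u * R)) a := (hag.symm.mul_left h1).mul_left h2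
    rw [hx0]
    exact h3.add_mul_left_left (-v)
  have hx0copabs : IsCoprime x0 ((a.natAbs : ℕ) : ℤ) := by
    rcases Int.natAbs_eq a with h | h
    · rw [← h]; exact hx0copa
    · have : ((a.natAbs : ℕ) : ℤ) = -a := by omega
      rw [this]; exact hx0copa.neg_right
  have hN1 : R * a.natAbs ≠ 0 := by
    have := Int.natAbs_pos.2 ha0
    have : 0 < R * a.natAbs := Nat.mul_pos (by omega) this
    omega
  have hx0copN : IsCoprime x0 ((R * a.natAbs : ℕ) : ℤ) := by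
    rw [Nat.cast_mul]
    exact hx0copR.mul_right hx0copabs
  obtain ⟨l1, hl1, hl1B, hl1N⟩ :=
    exists_prime_gt_dvd_sub (q + m + a.natAbs + 2) (R * a.natAbs) hN1 x0 hx0copN
  have hl1R : (R : ℤ) ∣ (l1 : ℤ) + 1 := by
    have h1 : (R : ℤ) ∣ (l1 : ℤ) - x0 := by
      refine Dvd.dvd.trans ?_ hl1N
      rw [Nat.cast_mul]
      exact Dvd.intro _ rfl
    have h2 : (R : ℤ) ∣ x0 + 1 := ⟨_, hx0R⟩
    have := dvd_add h1 h2
    have e : (l1 : ℤ) - x0 + (x0 + 1) = l1 + 1 := by ring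
    rwa [e] at this
  have hl1a : a ∣ (l1 : ℤ) * (r : ℤ) ^ k - γ := by
    have h1 : a ∣ (l1 : ℤ) - x0 := by
      refine Dvd.dvd.trans ?_ hl1N
      rw [Nat.cast_mul]
      exact Dvd.dvd.mul_left (Int.dvd_natAbs.2 (dvd_refl a)) _
    have h2 : a ∣ x0 * (r : ℤ) ^ k - γ := ⟨_, hx0a⟩
    have := dvd_add (Dvd.dvd.mul_right h1 ((r : ℤ) ^ k)) h2
    have e : ((l1 : ℤ) - x0) * (r : ℤ) ^ k + (x0 * (r : ℤ) ^ k - γ) = l1 * (r : ℤ) ^ k - γ := by
      ring
    rwa [e] at this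
  obtain ⟨s1, hs1⟩ := hl1a
  have hc1 : γ + s1 * a = (l1 : ℤ) * (r : ℤ) ^ k := by linear_combination (-1 : ℤ) * hs1
  have hl1_2 : l1 ≠ 2 := by omega
  have hl1q : ¬ l1 ∣ q := fun h => absurd (Nat.le_of_dvd hq.pos h) (by omega)
  have hl1good : GoodNum ((q : ℤ) ^ n0) r (l1 : ℤ) :=
    goodNum_prime hl1 hl1_2 hl1q hn0even (not_auxMod_dvd_sub_one hr hl1R)
  have hl1m : IsCoprime (l1 : ℤ) (m : ℤ) := isCoprime_prime_of_lt hl1 hmpos (by omega)
  have hl1r : IsCoprime (l1 : ℤ) (r : ℤ) := isCoprime_prime_of_lt hl1 hr.pos (by omega)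
  have hl1a' : IsCoprime (l1 : ℤ) a := isCoprime_prime_int_of_lt hl1 ha0 (by omega)
  -- Step 2: the modulus `M = m c₁`
  set M : ℕ := m * (m * r ^ k * l1) with hM
  have hM0 : M ≠ 0 := by
    rw [hM]
    have h1 : 0 < r ^ k := Nat.pow_pos hr.pos
    have h2 : 0 < l1 := hl1.pos
    positivity
  have hMcast : (M : ℤ) = (m : ℤ) * ((m : ℤ) * (r : ℤ) ^ k * (l1 : ℤ)) := by
    rw [hM]; push_cast; ring
  have haM : IsCoprime a (M : ℤ) := by
    rw [hMcast]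
    exact ham.mul_right ((ham.mul_right har.pow_right).mul_right hl1a'.symm)
  have hRM : (R : ℤ) ∣ (M : ℤ) := by
    rw [hMcast]
    by_cases h2 : r = 2
    · have e : (R : ℤ) = (r : ℤ) * (r : ℤ) := by
        rw [hRdef, h2, auxMod_two]; norm_num
      rw [e]
      have hrm' : (r : ℤ) ∣ (m : ℤ) := Int.natCast_dvd_natCast.2 hrm
      exact mul_dvd_mul hrm' (Dvd.dvd.mul_right (Dvd.dvd.mul_right hrm' _) _)
    · rw [hRdef, auxMod_of_ne h2]
      exact Dvd.dvd.mul_right (Int.natCast_dvd_natCast.2 hrm) _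
  -- the final step, for any good `a₁ ≡ a mod M`
  have key : ∀ a1 : ℤ, GoodNum ((q : ℤ) ^ n0) r a1 → IsCoprime (l1 : ℤ) a1 →
      IsCoprime a1 (m : ℤ) → IsCoprime a1 (r : ℤ) → (M : ℤ) ∣ a1 - a →
      ∃ s₁ s₂ τ : ℤ, ∃ n : ℕ, 0 < n ∧
        (a + (m : ℤ) * s₂ * ((m : ℤ) * (γ + s₁ * a))) * ((m : ℤ) * (γ + s₁ * a)) * τ
          = (q : ℤ) ^ n - 1 ∧ ¬ (r : ℤ) ∣ τ := by
    intro a1 ha1good hl1a1 ha1m ha1r hMa1
    have hP : GoodNum ((q : ℤ) ^ n0) r ((l1 : ℤ) * a1) := hl1good.mul hr ha1good hl1a1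
    have hPcop : IsCoprime ((l1 : ℤ) * a1) ((m : ℤ) * (r : ℤ) ^ k) :=
      IsCoprime.mul_left (hl1m.mul_right hl1r.pow_right) (ha1m.mul_right ha1r.pow_right)
    obtain ⟨τ, K, hK, hτeq, hτr⟩ := exists_tau_of_goodNum hr hP hPcop hXeq hrX hτ0'
    obtain ⟨s2, hs2⟩ := hMa1
    refine ⟨s1, s2, τ, n0 * K, Nat.mul_pos hn0pos hK, ?_, hτr⟩
    rw [hc1, pow_mul, ← hτeq]
    have e : a + (m : ℤ) * s2 * ((m : ℤ) * ((l1 : ℤ) * (r : ℤ) ^ k)) = a1 := by
      have : a1 = a + (M : ℤ) * s2 := by linear_combination hs2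
      rw [this, hMcast]
      ring
    rw [e]
    ring
  by_cases hcase : (R : ℤ) ∣ a - 1
  · -- two primes
    have hneg1 : IsCoprime (-1 : ℤ) (M : ℤ) := isCoprime_one_left.neg_left
    obtain ⟨l2, hl2, hl2B, hl2M⟩ :=
      exists_prime_gt_dvd_sub (l1 + q + m + 2) M hM0 (-1) hneg1
    obtain ⟨l3, hl3, hl3B, hl3M⟩ :=
      exists_prime_gt_dvd_sub (l2 + l1 + q + m + 2) M hM0 (-a) haM.neg_left
    have hl2R : (R : ℤ) ∣ (l2 : ℤ) + 1 := by
      have := hRM.trans hl2M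
      simpa using this
    have hl3R : (R : ℤ) ∣ (l3 : ℤ) + 1 := by
      have h1 := hRM.trans hl3M
      have := dvd_sub h1 hcase
      have e : (l3 : ℤ) - -a - (a - 1) = l3 + 1 := by ring
      rwa [e] at this
    have hl2good : GoodNum ((q : ℤ) ^ n0) r (l2 : ℤ) :=
      goodNum_prime hl2 (by omega)
        (fun h => absurd (Nat.le_of_dvd hq.pos h) (by omega)) hn0even
        (not_auxMod_dvd_sub_one hr hl2R)
    have hl3good : GoodNum ((q : ℤ) ^ n0) r (l3 : ℤ) :=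
      goodNum_prime hl3 (by omega)
        (fun h => absurd (Nat.le_of_dvd hq.pos h) (by omega)) hn0even
        (not_auxMod_dvd_sub_one hr hl3R)
    have h23 : IsCoprime (l2 : ℤ) (l3 : ℤ) :=
      Nat.isCoprime_iff_coprime.2 ((Nat.coprime_primes hl2 hl3).2 (by omega))
    have h12 : IsCoprime (l1 : ℤ) (l2 : ℤ) :=
      Nat.isCoprime_iff_coprime.2 ((Nat.coprime_primes hl1 hl2).2 (by omega))
    have h13 : IsCoprime (l1 : ℤ) (l3 : ℤ) :=
      Nat.isCoprime_iff_coprime.2 ((Nat.coprime_primes hl1 hl3).2 (by omega))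
    refine key ((l2 : ℤ) * (l3 : ℤ)) (hl2good.mul hr hl3good h23) (h12.mul_right h13)
      (IsCoprime.mul_left (isCoprime_prime_of_lt hl2 hmpos (by omega))
        (isCoprime_prime_of_lt hl3 hmpos (by omega)))
      (IsCoprime.mul_left (isCoprime_prime_of_lt hl2 hr.pos (by omega))
        (isCoprime_prime_of_lt hl3 hr.pos (by omega))) ?_
    have h1 : (M : ℤ) ∣ ((l2 : ℤ) - -1) * (l3 : ℤ) - ((l3 : ℤ) - -a) :=
      dvd_sub (Dvd.dvd.mul_right hl2M _) hl3M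
    have e : ((l2 : ℤ) - -1) * (l3 : ℤ) - ((l3 : ℤ) - -a) = (l2 : ℤ) * (l3 : ℤ) - a := by ring
    rwa [e] at h1
  · -- one prime
    obtain ⟨l2, hl2, hl2B, hl2M⟩ :=
      exists_prime_gt_dvd_sub (l1 + q + m + 2) M hM0 a haM
    have hl2R : ¬ (R : ℤ) ∣ (l2 : ℤ) - 1 := by
      intro h
      apply hcase
      have := dvd_sub h (hRM.trans hl2M)
      have e : (l2 : ℤ) - 1 - ((l2 : ℤ) - a) = a - 1 := by ring
      rwa [e] at this
    have hl2good : GoodNum ((q : ℤ) ^ n0) r (l2 : ℤ) :=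
      goodNum_prime hl2 (by omega)
        (fun h => absurd (Nat.le_of_dvd hq.pos h) (by omega)) hn0even hl2R
    have h12 : IsCoprime (l1 : ℤ) (l2 : ℤ) :=
      Nat.isCoprime_iff_coprime.2 ((Nat.coprime_primes hl1 hl2).2 (by omega))
    exact key (l2 : ℤ) hl2good h12 (isCoprime_prime_of_lt hl2 hmpos (by omega))
      (isCoprime_prime_of_lt hl2 hr.pos (by omega)) hl2M

end Fermat.Agent.P6.helper60
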