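import Mathlib
import Fermat.Prelude.Def_ModularCurve_PeriodMap
import Fermat.Agent.P6.helper21_DualStmts

/-!
# P6-D [D-MODEL] (helper61): model = intrinsic

`model_of : BlEqStatement → OrbStatement → TrivConjStatement → ModelStatement`.

For a Heisenberg lift `Ψ : SL(2, ℤ) →* Heis (SL(2, ℤ) ⧸ Γ)` over the action whose first cocycle
vanishes at `T` and whose two cocycles restrict to the parabolic homs `x`, `y`:

* `θ γ := (Ψ γ).c x₀` is a trivialisation of the cup product of `x` and `y` (`dmodel_isTriv`);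
* `(Ψ (T ^ w)).c z = ∑ i < w, (Ψ T).c (T ^ i • z)` (`dmodel_pow_c`);
* `(Ψ (g⁻¹ T ^ w g)).c x₀ = (Ψ (T ^ w)).c (g x₀)` when `g⁻¹ T ^ w g ∈ Γ` (`dmodel_conj_c`,
  `dmodel_conj_b`: the cross term is a multiple of `y (g⁻¹ T ^ w g) = 0`);

hence `Bl Γ x y = cuspSum Γ θ = ∑ z, (Ψ T).c z` by [D-WD] and [D-ORB].
-/

set_option autoImplicit false

open scoped MatrixGroups
open Matrix.SpecialLinearGroup ModularCurve.Period

namespace Fermat.Agent.P6.helper61

open Fermat.Agent.S16.helper21 (CoGrp)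
open Fermat.Agent.S21.helper83 (x0)
open Fermat.Agent.P6.helper21

section heis

variable {X : Type*}

/-- the permutation part of a power. -/
lemma dmodel_pow_σ (u : Heis X) (n : ℕ) : (u ^ n).σ = u.σ ^ n := by
  induction n with
  | zero => rfl
  | succ n ih => rw [pow_succ, Heis.mul_σ, ih, pow_succ]

/-- powers of an element with vanishing first cocycle have vanishing first cocycle. -/
lemma dmodel_pow_a (u : Heis X) (ha : u.a = 0) (n : ℕ) : (u ^ n).a = 0 := by
  induction n with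
  | zero => rfl
  | succ n ih =>
    funext x
    rw [pow_succ, Heis.mul_a, ih, ha]
    simp

/-- the trivialisation of a power of an element with vanishing first cocycle is the orbit sum. -/
lemma dmodel_pow_c (u : Heis X) (ha : u.a = 0) (n : ℕ) (z : X) :
    (u ^ n).c z = ∑ i ∈ Finset.range n, u.c ((u.σ ^ i) z) := by
  induction n with
  | zero => rfl
  | succ n ih =>
    rw [pow_succ', Heis.mul_c, Finset.sum_range_succ, ih, dmodel_pow_σ, ha]
    simp only [Pi.zero_apply, zero_mul, add_zero]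
    ring

/-- the second cocycle of a conjugate, at a point whose image is fixed. -/
lemma dmodel_conj_b (t v : Heis X) (x : X) (hfix : v.σ (t.σ x) = t.σ x) :
    (t⁻¹ * v * t).b x = v.b (t.σ x) := by
  simp only [Heis.mul_b, Heis.inv_b, hfix, Equiv.Perm.coe_inv, Equiv.symm_apply_apply]
  ring

/-- the trivialisation of a conjugate of an element with vanishing first cocycle, at a point
whose image is fixed. -/
lemma dmodel_conj_c (t v : Heis X) (hv : v.a = 0) (x : X) (hfix : v.σ (t.σ x) = t.σ x) :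
    (t⁻¹ * v * t).c x = v.c (t.σ x) - t.a x * v.b (t.σ x) := by
  simp only [Heis.mul_c, Heis.mul_a, Heis.inv_c, Heis.inv_a, hfix,
    Equiv.Perm.coe_inv, Equiv.symm_apply_apply, hv, Pi.zero_apply]
  ring

end heis

section triv

variable (Γ : Subgroup SL(2, ℤ))

/-- the value at the base point of the trivialisation of a Heisenberg cocycle over the action
is a trivialisation on `Γ`. -/
lemma dmodel_isTriv (Ψ : SL(2, ℤ) →* Heis (SL(2, ℤ) ⧸ Γ)) (x y : Additive Γ →+ ℤ)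
    (hover : IsOverH Γ Ψ)
    (hx : ∀ γ : Γ, (Ψ (γ : SL(2, ℤ))).a (x0 Γ) = x (Additive.ofMul γ))
    (hy : ∀ γ : Γ, (Ψ (γ : SL(2, ℤ))).b (x0 Γ) = y (Additive.ofMul γ)) :
    IsTriv Γ x y (fun γ => (Ψ (γ : SL(2, ℤ))).c (x0 Γ)) := by
  intro γ δ
  have hδ : (Ψ (δ : SL(2, ℤ))).σ (x0 Γ) = x0 Γ := by
    rw [hover, MulAction.toPerm_apply]
    exact Fermat.Agent.S21.helper83.smul_x0_of_mem Γ δ.2
  show (Ψ ((γ * δ : Γ) : SL(2, ℤ))).c (x0 Γ) = _
  rw [Subgroup.coe_mul, map_mul, Heis.mul_c, hδ, hx, hy]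

/-- the trace of a conjugate of a power of `T`. -/
lemma dmodel_trace_conj (g : SL(2, ℤ)) (w : ℕ) :
    ((g⁻¹ * ModularGroup.T ^ w * g : SL(2, ℤ)) : Matrix (Fin 2) (Fin 2) ℤ).trace = 2 := by
  have h1 : ((g⁻¹ * ModularGroup.T ^ w * g : SL(2, ℤ)) : Matrix (Fin 2) (Fin 2) ℤ).trace
      = ((ModularGroup.T ^ w : SL(2, ℤ)) : Matrix (Fin 2) (Fin 2) ℤ).trace := by
    rw [Matrix.SpecialLinearGroup.coe_mul, Matrix.trace_mul_comm,
      ← Matrix.SpecialLinearGroup.coe_mul, ← mul_assoc, mul_inv_cancel, one_mul]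
  rw [h1, ← zpow_natCast, ModularGroup.coe_T_zpow]
  simp [Matrix.trace_fin_two]

end triv

/-- **[D-MODEL]** model = intrinsic, conditional on [D-WD], [D-ORB] and [D-CONJ]. -/
theorem model_of (hWD : BlEqStatement) (hORB : OrbStatement) (hCONJ : TrivConjStatement) :
    ModelStatement := by
  intro Γ _ _ hneg Ψ x y hover hTa hx hy hpx hpy
  have htriv := dmodel_isTriv Γ Ψ x y hover hx hy
  rw [(hWD Γ hneg x y hpx hpy).2 _ htriv]
  refine (hORB Γ hneg (Ψ ModularGroup.T).c (fun γ => (Ψ (γ : SL(2, ℤ))).c (x0 Γ)) ?_ ?_).symm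
  · intro π γ hπ
    exact (hCONJ Γ x y _ hpx hpy htriv π γ hπ.1.1).1
  · intro g w hmem _ _
    -- the point `z = g • x₀` is fixed by `T ^ w`
    have hgσ : (Ψ g).σ (x0 Γ) = ((g : SL(2, ℤ)) : SL(2, ℤ) ⧸ Γ) := by
      rw [hover, MulAction.toPerm_apply]
      exact Fermat.Agent.S21.helper83.smul_x0 Γ g
    have hfix0 : (ModularGroup.T ^ w) • ((g : SL(2, ℤ)) : SL(2, ℤ) ⧸ Γ)
        = ((g : SL(2, ℤ)) : SL(2, ℤ) ⧸ Γ) := by
      show (((ModularGroup.T ^ w * g : SL(2, ℤ))) : SL(2, ℤ) ⧸ Γ) = _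
      rw [eq_comm, QuotientGroup.eq]
      simpa [mul_assoc] using hmem
    have hfix : (Ψ (ModularGroup.T ^ w)).σ ((Ψ g).σ (x0 Γ)) = (Ψ g).σ (x0 Γ) := by
      rw [hgσ, hover, MulAction.toPerm_apply]
      exact hfix0
    have hva : (Ψ (ModularGroup.T ^ w)).a = 0 := by
      rw [map_pow]
      exact dmodel_pow_a _ hTa w
    -- the second cocycle of `T ^ w` vanishes at `z`
    have hvb : (Ψ (ModularGroup.T ^ w)).b ((Ψ g).σ (x0 Γ)) = 0 := by
      have h1 := dmodel_conj_b (Ψ g) (Ψ (ModularGroup.T ^ w)) (x0 Γ) hfix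
      rw [← map_inv, ← map_mul, ← map_mul] at h1
      rw [← h1]
      have h2 := hy ⟨g⁻¹ * ModularGroup.T ^ w * g, hmem⟩
      rw [h2]
      apply hpy
      show ((g⁻¹ * ModularGroup.T ^ w * g : SL(2, ℤ)) : Matrix (Fin 2) (Fin 2) ℤ).trace ^ 2 = 4
      rw [dmodel_trace_conj]
      norm_num
    have h3 := dmodel_conj_c (Ψ g) (Ψ (ModularGroup.T ^ w)) hva (x0 Γ) hfix
    rw [← map_inv, ← map_mul, ← map_mul, hvb, mul_zero, sub_zero, hgσ] at h3
    show _ = (Ψ (g⁻¹ * ModularGroup.T ^ w * g)).c (x0 Γ)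
    rw [h3, map_pow, dmodel_pow_c _ hTa]
    refine Finset.sum_congr rfl fun i _ => ?_
    congr 1
    rw [← dmodel_pow_σ, ← map_pow, hover, MulAction.toPerm_apply]
    rfl

end Fermat.Agent.P6.helper61
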