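import Fermat.Agent.P6.helper78_NDefs
import Fermat.Agent.S13.LocalRedA
import Fermat.Agent.P6.helper78_TorsionCard

/-!
# P6 / S41, module (N), leaf [N-RED]: reduction of `p`-torsion at a good place (helper65)

For an integral Weierstrass curve `W : WeierstrassCurve ℤ`, a valuation subring `A` of a field
`L` lying over a prime `ℓ` of good reduction, and `n` a unit of `A`, we construct the reduction
map on `n`-torsion points

`redFun : {Q : E(L) // n • Q = 0} → W(k_A)`,  `E = W_L`, `k_A` the residue field of `A`,

and prove: it is injective, sends `0` to `0`, commutes with negation, has image in the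
`n`-torsion (for odd `n`), and intertwines every Frobenius element at `A` with the `ℓ`-power
map.  For `L = ℚ̄` and `n = p` an odd prime `≠ ℓ` it is onto the `p`-torsion by counting.

Main result: `red : Fermat.Agent.P6.helper78.RedStatement`.
-/

set_option autoImplicit false
set_option linter.style.haveILetI false

open WeierstrassCurve WeierstrassCurve.Affine
open scoped WeierstrassCurve.Affine

namespace Fermat.Agent.P6.helper65

noncomputable section

/-! ## 1. Integers in a valuation subring over `ℓ` -/

section ints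

variable {L : Type} [Field L] (A : ValuationSubring L)

theorem nred_valuation_intCast_le_one (n : ℤ) : A.valuation (n : L) ≤ 1 :=
  (A.valuation_le_one_iff _).mpr (intCast_mem A n)

/-- An integer prime to `ℓ` is a unit at every place over `ℓ`. -/
theorem nred_intCast_not_mem_nonunits {ℓ : ℕ} (hℓ : ℓ.Prime) (hA : A.LiesOverPrime ℓ) {n : ℤ}
    (hn : ¬ (ℓ : ℤ) ∣ n) : (n : L) ∉ A.nonunits := by
  intro hmem
  have hcop : IsCoprime (ℓ : ℤ) n :=
    (Nat.prime_iff_prime_int.mp hℓ).irreducible.coprime_iff_not_dvd.mpr hn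
  obtain ⟨a, b, hab⟩ := hcop
  have h1 : ((a : L) * (ℓ : L) + (b : L) * (n : L)) = 1 := by
    have := congrArg (Int.cast : ℤ → L) hab
    push_cast at this
    exact this
  have hvℓ : A.valuation (ℓ : L) < 1 := A.mem_nonunits_iff.mp hA
  have hvn : A.valuation (n : L) < 1 := A.mem_nonunits_iff.mp hmem
  have h2 : A.valuation ((a : L) * (ℓ : L) + (b : L) * (n : L)) < 1 := by
    refine lt_of_le_of_lt (A.valuation.map_add _ _) (max_lt ?_ ?_)
    · rw [map_mul]
      calc A.valuation (a : L) * A.valuation (ℓ : L) ≤ 1 * A.valuation (ℓ : L) :=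
            mul_le_mul' (nred_valuation_intCast_le_one A a) le_rfl
        _ = A.valuation (ℓ : L) := one_mul _
        _ < 1 := hvℓ
    · rw [map_mul]
      calc A.valuation (b : L) * A.valuation (n : L) ≤ 1 * A.valuation (n : L) :=
            mul_le_mul' (nred_valuation_intCast_le_one A b) le_rfl
        _ = A.valuation (n : L) := one_mul _
        _ < 1 := hvn
  rw [h1, map_one] at h2
  exact lt_irrefl _ h2

/-- A prime `p ≠ ℓ` is a unit at every place over `ℓ`. -/
theorem nred_natCast_not_mem_nonunits {ℓ p : ℕ} (hℓ : ℓ.Prime) (hp : p.Prime) (hℓp : ℓ ≠ p)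
    (hA : A.LiesOverPrime ℓ) : (p : L) ∉ A.nonunits := by
  have h : ¬ (ℓ : ℤ) ∣ (p : ℤ) := by
    intro hdvd
    have := Int.natCast_dvd_natCast.mp hdvd
    exact hℓp ((Nat.prime_dvd_prime_iff_eq hℓ hp).mp this)
  have := nred_intCast_not_mem_nonunits A hℓ hA h
  simpa using this

/-- The residue of an integer. -/
theorem nred_residue_intCast (n : ℤ) (h : (n : L) ∈ A) :
    IsLocalRing.residue A ⟨(n : L), h⟩ = (n : IsLocalRing.ResidueField A) := by
  have : (⟨(n : L), h⟩ : A) = (n : A) := Subtype.ext (by simp)
  rw [this, map_intCast]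

/-- The residue of `a ∈ A` vanishes iff `a` is a non-unit. -/
theorem nred_residue_eq_zero_iff {a : L} (ha : a ∈ A) :
    IsLocalRing.residue A ⟨a, ha⟩ = 0 ↔ a ∈ A.nonunits := by
  rw [IsLocalRing.residue_eq_zero_iff, A.valuation_lt_one_iff, A.mem_nonunits_iff]

/-- Two elements of `A` have the same residue iff their difference is a non-unit. -/
theorem nred_residue_eq_iff {a b : L} (ha : a ∈ A) (hb : b ∈ A) :
    IsLocalRing.residue A ⟨a, ha⟩ = IsLocalRing.residue A ⟨b, hb⟩ ↔ a - b ∈ A.nonunits := by
  rw [← sub_eq_zero, ← map_sub]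
  exact nred_residue_eq_zero_iff A (a := a - b) (A.sub_mem ha hb)

/-- The image of an integer in the residue field is nonzero iff the integer is a unit of `A`. -/
theorem nred_intCast_residueField_ne_zero_iff (n : ℤ) :
    (n : IsLocalRing.ResidueField A) ≠ 0 ↔ (n : L) ∉ A.nonunits := by
  rw [← nred_residue_intCast A n (intCast_mem A n), Ne, nred_residue_eq_zero_iff]

theorem nred_natCast_residueField_ne_zero {ℓ p : ℕ} (hℓ : ℓ.Prime) (hp : p.Prime) (hℓp : ℓ ≠ p)
    (hA : A.LiesOverPrime ℓ) : (p : IsLocalRing.ResidueField A) ≠ 0 := by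
  have h := (nred_intCast_residueField_ne_zero_iff A (p : ℤ)).mpr
    (by simpa using nred_natCast_not_mem_nonunits A hℓ hp hℓp hA)
  simpa using h

/-- The residue field of a place over `ℓ` has characteristic `ℓ`. -/
theorem nred_charP {ℓ : ℕ} (hℓ : ℓ.Prime) (hA : A.LiesOverPrime ℓ) :
    CharP (IsLocalRing.ResidueField A) ℓ := by
  have h0 : ((ℓ : ℕ) : IsLocalRing.ResidueField A) = 0 := by
    have h1 : ((ℓ : ℤ) : L) ∈ A.nonunits := by
      have h2 : (ℓ : L) ∈ A.nonunits := hA
      simpa using h2
    have := (nred_residue_eq_zero_iff A (intCast_mem A (ℓ : ℤ))).mpr h1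
    rw [nred_residue_intCast] at this
    simpa using this
  have : Fact ℓ.Prime := ⟨hℓ⟩
  exact (CharP.charP_iff_prime_eq_zero hℓ).mpr h0

end ints

/-! ## 2. The curve over `L`, over `A` and over the residue field -/

section curves

variable {L : Type} [Field L] (A : ValuationSubring L) (W : WeierstrassCurve ℤ)

theorem nred_map_subtype :
    (W.map (Int.castRingHom A)).map A.subtype = W.map (Int.castRingHom L) := by
  rw [WeierstrassCurve.map_map]
  congr 1

theorem nred_map_residue :
    (W.map (Int.castRingHom A)).map (IsLocalRing.residue A) =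
      W.map (Int.castRingHom (IsLocalRing.ResidueField A)) := by
  rw [WeierstrassCurve.map_map]
  congr 1

/-- The coefficients of `W_L` are in `A`. -/
theorem nred_coeff_mem :
    (W.map (Int.castRingHom L)).a₁ ∈ A ∧ (W.map (Int.castRingHom L)).a₂ ∈ A ∧
      (W.map (Int.castRingHom L)).a₃ ∈ A ∧ (W.map (Int.castRingHom L)).a₄ ∈ A ∧
      (W.map (Int.castRingHom L)).a₆ ∈ A := by
  simp only [WeierstrassCurve.map_a₁, WeierstrassCurve.map_a₂, WeierstrassCurve.map_a₃,
    WeierstrassCurve.map_a₄, WeierstrassCurve.map_a₆, eq_intCast]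
  exact ⟨intCast_mem A _, intCast_mem A _, intCast_mem A _, intCast_mem A _, intCast_mem A _⟩

/-- An integral point of `W_L` is a point of `W_A`. -/
theorem nred_equation_integral {x y : L} (hx : x ∈ A) (hy : y ∈ A)
    (h : (W.map (Int.castRingHom L)).toAffine.Equation x y) :
    (W.map (Int.castRingHom A)).toAffine.Equation (⟨x, hx⟩ : A) ⟨y, hy⟩ := by
  have key := WeierstrassCurve.Affine.map_equation (W.map (Int.castRingHom A)).toAffine
    (f := A.subtype) Subtype.val_injective ⟨x, hx⟩ ⟨y, hy⟩
  apply key.mp
  have e : (W.map (Int.castRingHom A)).toAffine.map A.subtype =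
      (W.map (Int.castRingHom L)).toAffine := nred_map_subtype A W
  rw [e]
  exact h

/-- The reduction of an integral point of `W_L` is a point of the reduced curve. -/
theorem nred_equation_red {x y : L} (hx : x ∈ A) (hy : y ∈ A)
    (h : (W.map (Int.castRingHom L)).toAffine.Equation x y) :
    (W.map (Int.castRingHom (IsLocalRing.ResidueField A))).toAffine.Equation
      (IsLocalRing.residue A ⟨x, hx⟩) (IsLocalRing.residue A ⟨y, hy⟩) := by
  have h1 := (nred_equation_integral A W hx hy h).map (IsLocalRing.residue A)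
  have e : (W.map (Int.castRingHom A)).toAffine.map (IsLocalRing.residue A) =
      (W.map (Int.castRingHom (IsLocalRing.ResidueField A))).toAffine := nred_map_residue A W
  rw [e] at h1
  exact h1

/-- With good reduction, the reduction of an integral point is a nonsingular point. -/
theorem nred_nonsingular_red
    (hgood : (W.map (Int.castRingHom (IsLocalRing.ResidueField A))).Δ ≠ 0)
    {x y : L} (hx : x ∈ A) (hy : y ∈ A)
    (h : (W.map (Int.castRingHom L)).toAffine.Equation x y) :
    (W.map (Int.castRingHom (IsLocalRing.ResidueField A))).toAffine.Nonsingular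
      (IsLocalRing.residue A ⟨x, hx⟩) (IsLocalRing.residue A ⟨y, hy⟩) :=
  (equation_iff_nonsingular_of_Δ_ne_zero hgood).mp (nred_equation_red A W hx hy h)

/-- Good reduction at `ℓ` in the sense of the prelude gives good reduction at every place over
`ℓ`. -/
theorem nred_good {ℓ : ℕ} (hℓ : ℓ.Prime) (hA : A.LiesOverPrime ℓ) (hW : W.IsGoodPrimeFor ℓ) :
    (W.map (Int.castRingHom (IsLocalRing.ResidueField A))).Δ ≠ 0 := by
  rw [WeierstrassCurve.map_Δ, eq_intCast]
  exact (nred_intCast_residueField_ne_zero_iff A W.Δ).mpr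
    (nred_intCast_not_mem_nonunits A hℓ hA hW)

/-- Good reduction somewhere forces `Δ ≠ 0` over `L`. -/
theorem nred_Δ_ne_zero
    (hgood : (W.map (Int.castRingHom (IsLocalRing.ResidueField A))).Δ ≠ 0) :
    (W.map (Int.castRingHom L)).Δ ≠ 0 := by
  rw [WeierstrassCurve.map_Δ, eq_intCast] at hgood ⊢
  intro h0
  apply hgood
  have : W.Δ = 0 := by
    by_contra hne
    have h1 := (nred_intCast_residueField_ne_zero_iff A W.Δ).mp hgood
    apply h1
    rw [h0]
    rw [A.mem_nonunits_iff, map_zero]
    exact zero_lt_one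
  rw [this, Int.cast_zero]

end curves

/-! ## 3. Transfer of the formulas between `W_L`, `W_A` and the reduced curve -/

section transfer

variable {L : Type} [Field L] (A : ValuationSubring L) (W : WeierstrassCurve ℤ)

/-- An element of `A` is a non-unit iff its residue vanishes. -/
theorem nred_coe_mem_nonunits_iff (c : A) :
    (c : L) ∈ A.nonunits ↔ IsLocalRing.residue A c = 0 := by
  have := nred_residue_eq_zero_iff A (a := (c : L)) c.2
  exact this.symm

theorem nred_negY_coe (a b : A) :
    (W.map (Int.castRingHom L)).toAffine.negY (a : L) (b : L) =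
      (((W.map (Int.castRingHom A)).toAffine.negY a b : A) : L) := by
  have h := WeierstrassCurve.Affine.map_negY (W' := (W.map (Int.castRingHom A)).toAffine)
    A.subtype a b
  have e : (W.map (Int.castRingHom A)).toAffine.map A.subtype =
      (W.map (Int.castRingHom L)).toAffine := nred_map_subtype A W
  rw [e] at h
  exact h

theorem nred_negY_residue (a b : A) :
    (W.map (Int.castRingHom (IsLocalRing.ResidueField A))).toAffine.negY
        (IsLocalRing.residue A a) (IsLocalRing.residue A b) =
      IsLocalRing.residue A ((W.map (Int.castRingHom A)).toAffine.negY a b) := by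
  have h := WeierstrassCurve.Affine.map_negY (W' := (W.map (Int.castRingHom A)).toAffine)
    (IsLocalRing.residue A) a b
  have e : (W.map (Int.castRingHom A)).toAffine.map (IsLocalRing.residue A) =
      (W.map (Int.castRingHom (IsLocalRing.ResidueField A))).toAffine := nred_map_residue A W
  rw [e] at h
  exact h

theorem nred_polyX_coe (a b : A) :
    (W.map (Int.castRingHom L)).toAffine.polynomialX.evalEval (a : L) (b : L) =
      (((W.map (Int.castRingHom A)).toAffine.polynomialX.evalEval a b : A) : L) := by
  have h := Polynomial.map_mapRingHom_evalEval A.subtype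
    (W.map (Int.castRingHom A)).toAffine.polynomialX a b
  rw [← WeierstrassCurve.Affine.map_polynomialX] at h
  have e : (W.map (Int.castRingHom A)).toAffine.map A.subtype =
      (W.map (Int.castRingHom L)).toAffine := nred_map_subtype A W
  rw [e] at h
  exact h

theorem nred_polyX_residue (a b : A) :
    (W.map (Int.castRingHom (IsLocalRing.ResidueField A))).toAffine.polynomialX.evalEval
        (IsLocalRing.residue A a) (IsLocalRing.residue A b) =
      IsLocalRing.residue A ((W.map (Int.castRingHom A)).toAffine.polynomialX.evalEval a b) := by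
  have h := Polynomial.map_mapRingHom_evalEval (IsLocalRing.residue A)
    (W.map (Int.castRingHom A)).toAffine.polynomialX a b
  rw [← WeierstrassCurve.Affine.map_polynomialX] at h
  have e : (W.map (Int.castRingHom A)).toAffine.map (IsLocalRing.residue A) =
      (W.map (Int.castRingHom (IsLocalRing.ResidueField A))).toAffine := nred_map_residue A W
  rw [e] at h
  exact h

theorem nred_polyY_coe (a b : A) :
    (W.map (Int.castRingHom L)).toAffine.polynomialY.evalEval (a : L) (b : L) =
      (((W.map (Int.castRingHom A)).toAffine.polynomialY.evalEval a b : A) : L) := by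
  have h := Polynomial.map_mapRingHom_evalEval A.subtype
    (W.map (Int.castRingHom A)).toAffine.polynomialY a b
  rw [← WeierstrassCurve.Affine.map_polynomialY] at h
  have e : (W.map (Int.castRingHom A)).toAffine.map A.subtype =
      (W.map (Int.castRingHom L)).toAffine := nred_map_subtype A W
  rw [e] at h
  exact h

theorem nred_polyY_residue (a b : A) :
    (W.map (Int.castRingHom (IsLocalRing.ResidueField A))).toAffine.polynomialY.evalEval
        (IsLocalRing.residue A a) (IsLocalRing.residue A b) =
      IsLocalRing.residue A ((W.map (Int.castRingHom A)).toAffine.polynomialY.evalEval a b) := by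
  have h := Polynomial.map_mapRingHom_evalEval (IsLocalRing.residue A)
    (W.map (Int.castRingHom A)).toAffine.polynomialY a b
  rw [← WeierstrassCurve.Affine.map_polynomialY] at h
  have e : (W.map (Int.castRingHom A)).toAffine.map (IsLocalRing.residue A) =
      (W.map (Int.castRingHom (IsLocalRing.ResidueField A))).toAffine := nred_map_residue A W
  rw [e] at h
  exact h

/-- A nonsingular reduction has a unit partial derivative. -/
theorem nred_hns {x y : L} (hx : x ∈ A) (hy : y ∈ A)
    (h : (W.map (Int.castRingHom (IsLocalRing.ResidueField A))).toAffine.Nonsingular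
      (IsLocalRing.residue A ⟨x, hx⟩) (IsLocalRing.residue A ⟨y, hy⟩)) :
    (W.map (Int.castRingHom L)).toAffine.polynomialX.evalEval x y ∉ A.nonunits ∨
      (W.map (Int.castRingHom L)).toAffine.polynomialY.evalEval x y ∉ A.nonunits := by
  obtain ⟨-, h2⟩ := h
  have hX := nred_polyX_coe A W ⟨x, hx⟩ ⟨y, hy⟩
  have hY := nred_polyY_coe A W ⟨x, hx⟩ ⟨y, hy⟩
  simp only at hX hY
  rw [hX, hY, nred_coe_mem_nonunits_iff, nred_coe_mem_nonunits_iff,
    ← nred_polyX_residue, ← nred_polyY_residue]
  exact h2

/-- The torsion polynomial at the reduction of an integral root. -/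
theorem nred_torsPoly_residue (m : ℕ) {x : L} (hx : x ∈ A)
    (h : (Fermat.Agent.S13.helper64.torsPoly (W.map (Int.castRingHom L)) m).eval x = 0) :
    (Fermat.Agent.S13.helper64.torsPoly
      (W.map (Int.castRingHom (IsLocalRing.ResidueField A))) m).eval
        (IsLocalRing.residue A ⟨x, hx⟩) = 0 := by
  rw [← nred_map_subtype A W, ← Fermat.Agent.S13.helper64.torsPoly_map] at h
  have h2 : A.subtype ((Fermat.Agent.S13.helper64.torsPoly
      (W.map (Int.castRingHom A)) m).eval ⟨x, hx⟩) = 0 := by
    rw [← Polynomial.eval_map_apply]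
    exact h
  have h3 : (Fermat.Agent.S13.helper64.torsPoly
      (W.map (Int.castRingHom A)) m).eval (⟨x, hx⟩ : A) = 0 :=
    Subtype.val_injective h2
  rw [← nred_map_residue A W, ← Fermat.Agent.S13.helper64.torsPoly_map,
    Polynomial.eval_map_apply, h3, map_zero]

/-- Frobenius elements act as the `ℓ`-power map on residues. -/
theorem nred_residue_frob {K : Type*} [Field K] [Algebra K L] {σ : L ≃ₐ[K] L} {ℓ : ℕ}
    (hσ : A.IsFrobeniusAt σ ℓ) {a : L} (ha : a ∈ A) (ha' : σ a ∈ A) :
    IsLocalRing.residue A ⟨σ a, ha'⟩ = (IsLocalRing.residue A ⟨a, ha⟩) ^ ℓ := by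
  have h1 := hσ.smul_residue_eq (IsLocalRing.residue A ⟨a, ha⟩)
  rw [← IsLocalRing.ResidueField.residue_smul] at h1
  rw [← h1]
  rfl

/-- Frobenius elements preserve `A`. -/
theorem nred_frob_mem {K : Type*} [Field K] [Algebra K L] {σ : L ≃ₐ[K] L} {ℓ : ℕ}
    (hσ : A.IsFrobeniusAt σ ℓ) {a : L} (ha : a ∈ A) : σ a ∈ A := by
  have h1 := hσ.mem_decompositionSubgroup
  have h2 : ((⟨σ, h1⟩ : A.decompositionSubgroup K) • (⟨a, ha⟩ : A) : A).1 = σ a := rfl
  rw [← h2]
  exact Subtype.property _

end transfer

/-! ## 4. The reduction map on torsion points -/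

section redfun

variable {L : Type} [Field L] [DecidableEq L] (A : ValuationSubring L) (W : WeierstrassCurve ℤ)

/-- Torsion points of order a unit of `A` are integral. -/
theorem nred_mem_of_tors {E : Affine L} (hE : E = W.map (Int.castRingHom L)) {n : ℕ}
    (hn : (n : L) ∉ A.nonunits) {x y : L} (h : E.Nonsingular x y)
    (hQ : n • (Point.some x y h : E.Point) = 0) : x ∈ A ∧ y ∈ A := by
  subst hE
  obtain ⟨h1, h2, h3, h4, h6⟩ := nred_coeff_mem A W
  exact Fermat.Agent.S13.mem_of_nsmul_eq_zero A (W.map (Int.castRingHom L)).toAffine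
    h1 h2 h3 h4 h6 hn h hQ

omit [DecidableEq L] in
theorem nred_nonsingular_red' {E : Affine L} (hE : E = W.map (Int.castRingHom L))
    (hgood : (W.map (Int.castRingHom (IsLocalRing.ResidueField A))).Δ ≠ 0)
    {x y : L} (hx : x ∈ A) (hy : y ∈ A) (h : E.Equation x y) :
    (W.map (Int.castRingHom (IsLocalRing.ResidueField A))).toAffine.Nonsingular
      (IsLocalRing.residue A ⟨x, hx⟩) (IsLocalRing.residue A ⟨y, hy⟩) := by
  subst hE
  exact nred_nonsingular_red A W hgood hx hy h

/-- **The reduction map** on the points of `E = W_L` killed by `n` (a unit of `A`), at a place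
of good reduction. -/
def redFun {E : Affine L} (hE : E = W.map (Int.castRingHom L))
    (hgood : (W.map (Int.castRingHom (IsLocalRing.ResidueField A))).Δ ≠ 0) {n : ℕ}
    (hn : (n : L) ∉ A.nonunits) :
    (Q : E.Point) → n • Q = 0 → Fermat.Agent.P6.helper78.PtK W (IsLocalRing.ResidueField A)
  | .zero, _ => Point.zero
  | .some x y h, hQ =>
    Point.some (IsLocalRing.residue A ⟨x, (nred_mem_of_tors A W hE hn h hQ).1⟩)
      (IsLocalRing.residue A ⟨y, (nred_mem_of_tors A W hE hn h hQ).2⟩)
      (nred_nonsingular_red' A W hE hgood _ _ h.1)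

variable {A W}
variable {E : Affine L} (hE : E = W.map (Int.castRingHom L))
  (hgood : (W.map (Int.castRingHom (IsLocalRing.ResidueField A))).Δ ≠ 0) {n : ℕ}
  (hn : (n : L) ∉ A.nonunits)

theorem redFun_zero (h0 : n • (0 : E.Point) = 0) : redFun A W hE hgood hn 0 h0 = 0 := rfl

theorem redFun_some {x y : L} (h : E.Nonsingular x y) (hQ : n • (Point.some x y h : E.Point) = 0) :
    redFun A W hE hgood hn (Point.some x y h) hQ =
      Point.some (IsLocalRing.residue A ⟨x, (nred_mem_of_tors A W hE hn h hQ).1⟩)
        (IsLocalRing.residue A ⟨y, (nred_mem_of_tors A W hE hn h hQ).2⟩)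
        (nred_nonsingular_red' A W hE hgood _ _ h.1) := rfl

/-- Reduction is injective on torsion of order a unit of `A`. -/
theorem redFun_injective {Q Q' : E.Point} (hQ : n • Q = 0) (hQ' : n • Q' = 0)
    (h : redFun A W hE hgood hn Q hQ = redFun A W hE hgood hn Q' hQ') : Q = Q' := by
  subst hE
  cases Q with
  | zero =>
    cases Q' with
    | zero => rfl
    | some x' y' h' =>
      rw [redFun_some] at h
      exact absurd h.symm (Point.some_ne_zero _)
  | some x y hxy =>
    cases Q' with
    | zero =>
      rw [redFun_some] at h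
      exact absurd h (Point.some_ne_zero _)
    | some x' y' hxy' =>
      rw [redFun_some, redFun_some, Point.some.injEq] at h
      obtain ⟨h1, h2⟩ := h
      rw [nred_residue_eq_iff] at h1 h2
      obtain ⟨c1, c2, c3, c4, c6⟩ := nred_coeff_mem A W
      have hmem := nred_mem_of_tors A W rfl hn hxy hQ
      exact Fermat.Agent.S13.eq_of_same_reduction_of_nsmul_eq_zero_of_mem A
        (W.map (Int.castRingHom L)).toAffine c1 c2 c3 c4 c6 hn hxy hxy' hQ hQ' h1 h2
        (nred_hns A W hmem.1 hmem.2 (nred_nonsingular_red A W hgood hmem.1 hmem.2 hxy.1))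

variable [DecidableEq (IsLocalRing.ResidueField A)]

omit [DecidableEq (IsLocalRing.ResidueField A)] in
/-- Reduction commutes with negation. -/
theorem redFun_neg {Q : E.Point} (hQ : n • Q = 0) (hQ' : n • (-Q) = 0) :
    redFun A W hE hgood hn (-Q) hQ' = -redFun A W hE hgood hn Q hQ := by
  subst hE
  cases Q with
  | zero => rfl
  | some x y hxy =>
    have hmem := nred_mem_of_tors A W rfl hn hxy hQ
    have e : (-(Point.some x y hxy) : (W.map (Int.castRingHom L)).toAffine.Point) =
        Point.some x ((W.map (Int.castRingHom L)).toAffine.negY x y)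
          ((nonsingular_neg ..).mpr hxy) := Point.neg_some hxy
    have key : ∀ (Q' : (W.map (Int.castRingHom L)).toAffine.Point) (hQ'' : n • Q' = 0),
        Q' = Point.some x ((W.map (Int.castRingHom L)).toAffine.negY x y)
          ((nonsingular_neg ..).mpr hxy) →
        redFun A W rfl hgood hn Q' hQ'' =
          Point.some (IsLocalRing.residue A ⟨x, hmem.1⟩)
            ((W.map (Int.castRingHom (IsLocalRing.ResidueField A))).toAffine.negY
              (IsLocalRing.residue A ⟨x, hmem.1⟩) (IsLocalRing.residue A ⟨y, hmem.2⟩))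
            ((nonsingular_neg ..).mpr
              (nred_nonsingular_red A W hgood hmem.1 hmem.2 hxy.1)) := by
      intro Q' hQ'' hQe
      subst hQe
      rw [redFun_some, Point.some.injEq]
      refine ⟨rfl, ?_⟩
      rw [nred_negY_residue]
      exact congrArg (IsLocalRing.residue A)
        (Subtype.ext (nred_negY_coe A W ⟨x, hmem.1⟩ ⟨y, hmem.2⟩))
    rw [key _ hQ' e, redFun_some, Point.neg_some]

/-- The reduction of a point killed by the odd number `2 m + 1` is killed by `2 m + 1`. -/
theorem redFun_tors {m : ℕ} (hm : ((2 * m + 1 : ℕ) : L) ∉ A.nonunits) {Q : E.Point}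
    (hQ : (2 * m + 1) • Q = 0) : (2 * m + 1) • redFun A W hE hgood hm Q hQ = 0 := by
  subst hE
  cases Q with
  | zero => exact smul_zero _
  | some x y hxy =>
    have hmem := nred_mem_of_tors A W rfl hm hxy hQ
    have h1 := (Fermat.Agent.S13.helper64.nsmul_eq_zero_iff_eval_torsPoly
      (W.map (Int.castRingHom L)) (nred_Δ_ne_zero A W hgood) m hxy).mp hQ
    rw [redFun_some,
      Fermat.Agent.S13.helper64.nsmul_eq_zero_iff_eval_torsPoly _ hgood m]
    exact nred_torsPoly_residue A W m hmem.1 h1

end redfun

/-! ## 5. The statement `[N-RED]` -/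

section final

open Fermat.Agent.P6.helper78

/-- The curve of `Tors W p` is `W_{ℚ̄}`. -/
theorem nred_curve_eq (W : WeierstrassCurve ℤ) :
    ((W.map (Int.castRingHom ℚ))⁄(AlgebraicClosure ℚ) : Affine (AlgebraicClosure ℚ)) =
      W.map (Int.castRingHom (AlgebraicClosure ℚ)) := by
  show (W.map (Int.castRingHom ℚ)).map (algebraMap ℚ (AlgebraicClosure ℚ)) = _
  rw [WeierstrassCurve.map_map]
  congr 1

/-- The points of `Tors W p` are killed by `p`. -/
theorem nred_tors_nsmul (W : WeierstrassCurve ℤ) (p : ℕ) (P : Tors W p) :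
    p • (P : ((W.map (Int.castRingHom ℚ))⁄(AlgebraicClosure ℚ)).Point) = 0 := by
  have h := P.2
  rw [Submodule.mem_torsionBy_iff] at h
  rw [← natCast_zsmul]
  exact h

/-- **[N-RED]**: reduction of `p`-torsion at a place of `ℚ̄` over a good prime `ℓ ≠ p`. -/
theorem red : RedStatement := by
  intro W p ℓ hp hp2 hℓ hℓp hW A hA _
  have hE := nred_curve_eq W
  have hgood := nred_good A W hℓ hA hW
  have hn : ((p : ℕ) : AlgebraicClosure ℚ) ∉ A.nonunits :=
    nred_natCast_not_mem_nonunits A hℓ hp hℓp hA
  obtain ⟨m, hm⟩ : ∃ m, p = 2 * m + 1 := hp.eq_two_or_odd'.resolve_left hp2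
  subst hm
  have hinj : Function.Injective (fun P : Tors W (2 * m + 1) =>
      redFun A W hE hgood hn P.1 (nred_tors_nsmul W _ P)) := by
    intro P Q h
    exact Subtype.ext (redFun_injective hE hgood hn _ _ h)
  have htors : ∀ P : Tors W (2 * m + 1),
      (2 * m + 1) • redFun A W hE hgood hn P.1 (nred_tors_nsmul W _ P) = 0 :=
    fun P => redFun_tors hE hgood hn (nred_tors_nsmul W _ P)
  refine ⟨fun P => redFun A W hE hgood hn P.1 (nred_tors_nsmul W _ P), hinj, ?_, ?_, htors,
    ?_, ?_⟩
  · -- zero
    rfl
  · -- negation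
    intro P
    exact redFun_neg hE hgood hn (nred_tors_nsmul W _ P) _
  · -- onto the torsion, by counting
    intro Q hQ
    have hΔ : W.Δ ≠ 0 := by
      intro h0
      apply hW
      rw [h0]
      exact dvd_zero _
    have hΔQ : (W.map (Int.castRingHom ℚ)).Δ ≠ 0 := by
      rw [WeierstrassCurve.map_Δ, eq_intCast]
      exact_mod_cast hΔ
    have hcardT : Nat.card (Tors W (2 * m + 1)) = (2 * m + 1) ^ 2 :=
      Fermat.Agent.P6.helper78.card_torsionBy_Qbar (W.map (Int.castRingHom ℚ)) hΔQ
        hp.one_le
    have hpk : ((2 * m + 1 : ℕ) : IsLocalRing.ResidueField A) ≠ 0 :=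
      nred_natCast_residueField_ne_zero A hℓ hp hℓp hA
    obtain ⟨hfin, hcard⟩ := Fermat.Agent.S13.helper64.finite_torsion_and_card_le
      (W.map (Int.castRingHom (IsLocalRing.ResidueField A))) hgood m hpk
    let f : Tors W (2 * m + 1) →
        {Q : (W.map (Int.castRingHom (IsLocalRing.ResidueField A))).toAffine.Point |
          (2 * m + 1) • Q = 0} :=
      fun P => ⟨redFun A W hE hgood hn P.1 (nred_tors_nsmul W _ P), htors P⟩
    have hf : Function.Injective f := by
      intro P P' h
      exact hinj (congrArg Subtype.val h)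
    have hbij := hf.bijective_of_nat_card_le (hcard.trans (le_of_eq hcardT.symm))
    obtain ⟨P, hP⟩ := hbij.2 ⟨Q, hQ⟩
    exact ⟨P, congrArg Subtype.val hP⟩
  · -- Frobenius
    intro σ hσ P
    obtain ⟨Q, hQ⟩ := P
    cases Q with
    | zero => rfl
    | some x y hxy =>
      have hQ0 := nred_tors_nsmul W _ ⟨Point.some x y hxy, hQ⟩
      have hmem := nred_mem_of_tors A W hE hn hxy hQ0
      exact ⟨nred_residue_frob A hσ hmem.1 (nred_frob_mem A hσ hmem.1),
        nred_residue_frob A hσ hmem.2 (nred_frob_mem A hσ hmem.2)⟩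

end final

end

end Fermat.Agent.P6.helper65
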