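import Mathlib

/-!
# P6 / S41, [HB1] (helper67), part 1: Hecke sums commute with the transfer (abstract core)

`StepSys G I` : a right action `perm` of a group `G` on an index type `I` together with a
`G`-valued cocycle `step` (the shadow of `α i * g = step g i * α (perm g i)`).

Main result `transfer_step_comm`: let `H ≤ G` be a subgroup of finite index such that
`step h i ∈ H` for `h ∈ H` and `step g i ∈ H → g ∈ H`.  Then for every `ϕ : H →* B`
(`B` commutative) and `ψ h = ∏ i, ϕ (step h i)`: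
`∏ i, transfer ϕ (step g i) = transfer ψ g`.
-/

set_option autoImplicit false

namespace Fermat.Agent.P6.helper67

open Subgroup MonoidHom

/-- A right action of `G` on an index type together with a `G`-valued cocycle. -/
structure StepSys (G : Type*) [Group G] (I : Type*) where
  /-- the permutation of the indices attached to `g` -/
  perm : G → I → I
  /-- the cocycle -/
  step : G → I → G
  perm_one : ∀ i, perm 1 i = i
  perm_mul : ∀ g h i, perm (g * h) i = perm h (perm g i)
  step_mul : ∀ g h i, step (g * h) i = step g i * step h (perm g i)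

namespace StepSys

variable {G : Type*} [Group G] {I : Type*} (S : StepSys G I)

theorem step_one (i : I) : S.step 1 i = 1 := by
  have h := S.step_mul 1 1 i
  rw [mul_one, S.perm_one] at h
  exact mul_eq_left.mp h.symm

theorem perm_inv_perm (g : G) (i : I) : S.perm g⁻¹ (S.perm g i) = i := by
  have h := S.perm_mul g g⁻¹ i
  rw [mul_inv_cancel, S.perm_one] at h
  exact h.symm

theorem perm_perm_inv (g : G) (i : I) : S.perm g (S.perm g⁻¹ i) = i := by
  have h := S.perm_inv_perm g⁻¹ i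
  rwa [inv_inv] at h

/-- `perm g` as a permutation of the index type. -/
def permEquiv (g : G) : Equiv.Perm I where
  toFun := S.perm g
  invFun := S.perm g⁻¹
  left_inv := S.perm_inv_perm g
  right_inv := S.perm_perm_inv g

@[simp] theorem permEquiv_apply (g : G) (i : I) : S.permEquiv g i = S.perm g i := rfl

theorem step_inv (g : G) (i : I) : (S.step g i)⁻¹ = S.step g⁻¹ (S.perm g i) := by
  have h := S.step_mul g g⁻¹ i
  rw [mul_inv_cancel, S.step_one] at h
  exact inv_eq_of_mul_eq_one_right h.symm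

theorem step_inv_mul (a b : G) (i : I) :
    S.step (a⁻¹ * b) (S.perm a i) = (S.step a i)⁻¹ * S.step b i := by
  rw [S.step_mul, S.perm_inv_perm, S.step_inv]

theorem step_conj (a g b : G) (i : I) :
    S.step (a⁻¹ * g * b) (S.perm a i) =
      (S.step a i)⁻¹ * S.step g i * S.step b (S.perm g i) := by
  rw [S.step_mul (a⁻¹ * g) b, S.step_inv_mul, S.perm_mul, S.perm_inv_perm]

end StepSys

section Transfer

variable {G : Type*} [Group G] {H : Subgroup G} {B : Type*} [CommGroup B]

/-- extension by `1` of a homomorphism on `H` to a function on `G` -/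
noncomputable def extOne (ϕ : H →* B) (g : G) : B :=
  open Classical in if h : g ∈ H then ϕ ⟨g, h⟩ else 1

theorem extOne_of_mem (ϕ : H →* B) {g : G} (h : g ∈ H) : extOne ϕ g = ϕ ⟨g, h⟩ := dif_pos h

theorem extOne_coe (ϕ : H →* B) (h : H) : extOne ϕ (h : G) = ϕ h := by
  rw [extOne_of_mem ϕ h.2]

theorem extOne_mul (ϕ : H →* B) {a b : G} (ha : a ∈ H) (hb : b ∈ H) :
    extOne ϕ (a * b) = extOne ϕ a * extOne ϕ b := by
  rw [extOne_of_mem ϕ ha, extOne_of_mem ϕ hb, extOne_of_mem ϕ (H.mul_mem ha hb), ← map_mul]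
  rfl

theorem extOne_inv (ϕ : H →* B) {a : G} (ha : a ∈ H) : extOne ϕ a⁻¹ = (extOne ϕ a)⁻¹ := by
  rw [extOne_of_mem ϕ ha, extOne_of_mem ϕ (H.inv_mem ha), ← map_inv]
  rfl

/-- the transfer computed with an arbitrary section `t` of `G → G ⧸ H` -/
theorem transfer_eq_prod_section [H.FiniteIndex] (ϕ : H →* B) (t : G ⧸ H → G)
    (ht : ∀ q, (t q : G ⧸ H) = q) (g : G) :
    transfer ϕ g =
      @Finset.prod _ _ _ (@Finset.univ _ H.fintypeQuotientOfFiniteIndex)
        (fun q : G ⧸ H => extOne ϕ ((t q)⁻¹ * (g * t (g⁻¹ • q)))) := by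
  rw [transfer_def ϕ ⟨Set.range t, isComplement_range_left ht⟩ g]
  unfold leftTransversals.diff
  refine Finset.prod_congr rfl fun q _ => ?_
  have e1 : ((IsComplement.leftQuotientEquiv (isComplement_range_left ht) q : Set.range t) : G)
      = t q := IsComplement.leftQuotientEquiv_apply ht q
  have e2 : (((g • (⟨Set.range t, isComplement_range_left ht⟩ : H.LeftTransversal)).2.leftQuotientEquiv
      q : _) : G) = g * t (g⁻¹ • q) := by
    rw [smul_apply_eq_smul_apply_inv_smul]
    show g • _ = _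
    rw [smul_eq_mul]
    congr 1
    exact IsComplement.leftQuotientEquiv_apply ht _
  have hmem : (t q)⁻¹ * (g * t (g⁻¹ • q)) ∈ H := by
    rw [← QuotientGroup.eq, ht, ← smul_eq_mul, ← MulAction.Quotient.smul_mk,
      ht, smul_inv_smul]
  rw [extOne_of_mem ϕ hmem]
  congr 1
  apply Subtype.ext
  show _ = (t q)⁻¹ * (g * t (g⁻¹ • q))
  simp only []
  rw [← e1, ← e2]

end Transfer

section Main

variable {G : Type*} [Group G] {H : Subgroup G} {B : Type*} [CommGroup B]
  {I : Type*} (S : StepSys G I)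

/-- the coset of `step γ i` only depends on the coset of `γ` -/
theorem mk_step_eq_of_mk_eq (hH : ∀ h ∈ H, ∀ i, S.step h i ∈ H) {γ γ' : G}
    (h : (γ : G ⧸ H) = γ') (i : I) : ((S.step γ i : G) : G ⧸ H) = (S.step γ' i : G) := by
  have h1 : γ⁻¹ * γ' ∈ H := QuotientGroup.eq.mp h
  have h2 : S.step γ' i = S.step γ i * S.step (γ⁻¹ * γ') (S.perm γ i) := by
    rw [← S.step_mul, mul_inv_cancel_left]
  rw [h2]
  exact (QuotientGroup.mk_mul_of_mem _ (hH _ h1 _)).symm

/-- the coset of `γ` is determined by the coset of `step γ i` -/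
theorem mk_eq_of_mk_step_eq (hH' : ∀ g i, S.step g i ∈ H → g ∈ H) {γ γ' : G} (i : I)
    (h : ((S.step γ i : G) : G ⧸ H) = (S.step γ' i : G)) : (γ : G ⧸ H) = γ' := by
  have h1 : (S.step γ i)⁻¹ * S.step γ' i ∈ H := QuotientGroup.eq.mp h
  rw [← S.step_inv_mul] at h1
  exact QuotientGroup.eq.mpr (hH' _ _ h1)

/-- **Hecke sums commute with the transfer.** -/
theorem transfer_step_comm [H.FiniteIndex] [Fintype I]
    (hH : ∀ h ∈ H, ∀ i, S.step h i ∈ H)
    (hH' : ∀ g i, S.step g i ∈ H → g ∈ H)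
    (ϕ ψ : H →* B)
    (hψ : ∀ h : H, ψ h = ∏ i, extOne ϕ (S.step (h : G) i))
    (g : G) :
    ∏ i, transfer ϕ (S.step g i) = transfer ψ g := by
  classical
  let _ : Fintype (G ⧸ H) := H.fintypeQuotientOfFiniteIndex
  let t : G ⧸ H → G := Quotient.out
  have ht : ∀ q, ((t q : G) : G ⧸ H) = q := fun q => QuotientGroup.out_eq' q
  -- the maps `A_i`
  let Amap : I → G ⧸ H → G ⧸ H := fun i x => ((S.step (t x) i : G) : G ⧸ H)
  have hAmk : ∀ i (γ : G), Amap i (γ : G ⧸ H) = ((S.step γ i : G) : G ⧸ H) := fun i γ =>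
    mk_step_eq_of_mk_eq S hH (ht _) i
  have hAinj : ∀ i, Function.Injective (Amap i) := by
    intro i x x' hxx
    have := mk_eq_of_mk_step_eq S hH' i hxx
    rwa [ht, ht] at this
  let Ae : I → (G ⧸ H ≃ G ⧸ H) := fun i =>
    Equiv.ofBijective (Amap i) (Finite.injective_iff_bijective.mp (hAinj i))
  have hAe : ∀ i x, Ae i x = Amap i x := fun _ _ => rfl
  have hAeq : ∀ i x, (S.step g i)⁻¹ • Amap i x = Amap (S.perm g i) (g⁻¹ • x) := by
    intro i x
    have e1 : Amap i x = ((S.step (t x) i : G) : G ⧸ H) := rfl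
    have e2 : g⁻¹ • x = ((g⁻¹ * t x : G) : G ⧸ H) := by
      rw [← smul_eq_mul, ← MulAction.Quotient.smul_mk, ht]
    rw [e2, hAmk, e1, MulAction.Quotient.smul_mk, smul_eq_mul, S.step_inv_mul]
  -- the elements `hel x i ∈ H`
  let hel : G ⧸ H → I → G := fun x i => (t (Amap i x))⁻¹ * S.step (t x) i
  have hhel : ∀ x i, hel x i ∈ H := fun x i => QuotientGroup.eq.mp (ht _)
  let k : G ⧸ H → G := fun x => (t x)⁻¹ * (g * t (g⁻¹ • x))
  have hk : ∀ x, k x ∈ H := by
    intro x
    show (t x)⁻¹ * (g * t (g⁻¹ • x)) ∈ H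
    rw [← QuotientGroup.eq, ht, ← smul_eq_mul, ← MulAction.Quotient.smul_mk, ht, smul_inv_smul]
  let F : G ⧸ H → I → B := fun x i => extOne ϕ (hel x i)
  let Q : G ⧸ H → I → B := fun x i => extOne ϕ (S.step (k x) (S.perm (t x) i))
  -- the term identity
  have hterm : ∀ i x, extOne ϕ ((t (Amap i x))⁻¹ * (S.step g i * t ((S.step g i)⁻¹ • Amap i x))) =
      F x i * Q x i * (F (g⁻¹ • x) (S.perm g i))⁻¹ := by
    intro i x
    have e : (t (Amap i x))⁻¹ * (S.step g i * t ((S.step g i)⁻¹ • Amap i x)) =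
        hel x i * S.step (k x) (S.perm (t x) i) * (hel (g⁻¹ • x) (S.perm g i))⁻¹ := by
      have e3 : S.step (k x) (S.perm (t x) i) =
          (S.step (t x) i)⁻¹ * S.step g i * S.step (t (g⁻¹ • x)) (S.perm g i) := by
        rw [← S.step_conj, mul_assoc]
      rw [e3, hAeq]
      show _ = (t (Amap i x))⁻¹ * S.step (t x) i * _ *
        ((t (Amap (S.perm g i) (g⁻¹ • x)))⁻¹ * S.step (t (g⁻¹ • x)) (S.perm g i))⁻¹
      group
    rw [e, extOne_mul ϕ (H.mul_mem (hhel _ _) (hH _ (hk x) _)) (H.inv_mem (hhel _ _)),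
      extOne_mul ϕ (hhel _ _) (hH _ (hk x) _), extOne_inv ϕ (hhel _ _)]
  -- assemble
  have h1 : ∀ i, transfer ϕ (S.step g i) =
      ∏ x : G ⧸ H, F x i * Q x i * (F (g⁻¹ • x) (S.perm g i))⁻¹ := by
    intro i
    rw [transfer_eq_prod_section ϕ t ht (S.step g i)]
    rw [← Equiv.prod_comp (Ae i)]
    exact Finset.prod_congr rfl fun x _ => hterm i x
  have h2 : ∏ i, ∏ x : G ⧸ H, F (g⁻¹ • x) (S.perm g i) = ∏ i, ∏ x : G ⧸ H, F x i := by
    rw [← Equiv.prod_comp (S.permEquiv g) (fun i => ∏ x : G ⧸ H, F x i)]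
    refine Finset.prod_congr rfl fun i _ => ?_
    exact Equiv.prod_comp (MulAction.toPerm g⁻¹) (fun x => F x (S.permEquiv g i))
  have h3 : ∏ i, ∏ x : G ⧸ H, Q x i = transfer ψ g := by
    rw [Finset.prod_comm, transfer_eq_prod_section ψ t ht g]
    refine Finset.prod_congr rfl fun x _ => ?_
    rw [extOne_of_mem ψ (hk x), hψ]
    exact Equiv.prod_comp (S.permEquiv (t x)) (fun i => extOne ϕ (S.step (k x) i))
  rw [Finset.prod_congr rfl fun i _ => h1 i]
  simp only [Finset.prod_mul_distrib, Finset.prod_inv_distrib]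
  rw [h2, h3]
  rw [mul_comm (∏ i, ∏ x : G ⧸ H, F x i), mul_assoc, mul_inv_cancel, mul_one]

end Main

end Fermat.Agent.P6.helper67
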