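import Fermat.Agent.P6.helper4_S41Defs
import Fermat.Agent.P6.helper67_HB1Transfer

/-!
# P6 / S41, [HB1] (helper67), part 2: coset systems, pull-back and transfer

* `stepSysOf S` : the abstract step system of a `CosetSystem`;
* `CosetSystem.twist S π τ` : the coset system with representatives `τ i * α (π i)`, and
  `heckeFun_twist` : it defines the same Hecke operator;
* `heckeFun_pull` : compatibility of Hecke operators with the pull-back along `j : Γ' →* Γ`;
* `heckeFun_push` : compatibility of Hecke operators with the transfer along an injective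
  `j : Γ' →* Γ`.
-/

set_option autoImplicit false

open Matrix.SpecialLinearGroup CongruenceSubgroup
open scoped MatrixGroups

namespace Fermat.Agent.P6.helper67

open Fermat.Agent.S16.helper26 Fermat.Agent.P6.helper4

universe u v

/-- extensionality for additive characters, on elements `Additive.ofMul γ` -/
theorem addHom_ext_ofMul {G : Type*} [Group G] {A : Type*} [AddCommGroup A]
    {f g : Additive G →+ A} (h : ∀ γ : G, f (Additive.ofMul γ) = g (Additive.ofMul γ)) : f = g :=
  AddMonoidHom.ext fun γ' => h (Additive.toMul γ')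

section Abstract

variable {Γ' Γ : Subgroup SL(2, ℤ)} {ι : Type u}

/-- the abstract step system of a coset system -/
noncomputable def stepSysOf (S : CosetSystem Γ ι) : StepSys Γ ι where
  perm := S.perm
  step := S.step
  perm_one := S.perm_one
  perm_mul g h i := (S.perm_mul g h i).1
  step_mul g h i := (S.perm_mul g h i).2

@[simp] theorem stepSysOf_step (S : CosetSystem Γ ι) (g : Γ) (i : ι) :
    (stepSysOf S).step g i = S.step g i := rfl

@[simp] theorem stepSysOf_perm (S : CosetSystem Γ ι) (g : Γ) (i : ι) :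
    (stepSysOf S).perm g i = S.perm g i := rfl

/-- the coset system with the representatives `τ i * α (π i)` -/
noncomputable def twistSys (S : CosetSystem Γ ι) (π : Equiv.Perm ι) (τ : ι → Γ) :
    CosetSystem Γ ι where
  α i := mapGL ℝ (τ i : SL(2, ℤ)) * S.α (π i)
  exists_step γ hγ i := by
    refine ⟨π.symm (S.perm ⟨γ, hγ⟩ (π i)),
      ((τ i * S.step ⟨γ, hγ⟩ (π i) * (τ (π.symm (S.perm ⟨γ, hγ⟩ (π i))))⁻¹ : Γ) : SL(2, ℤ)),
      Subtype.property _, ?_⟩
    have h := S.rel ⟨γ, hγ⟩ (π i)
    simp only [Subgroup.coe_mul, Subgroup.coe_inv, map_mul, map_inv, Equiv.apply_symm_apply]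
    rw [mul_assoc, h]
    simp only [mul_assoc, inv_mul_cancel_left]
  inj i j g hg h := by
    apply π.injective
    apply S.inj (π i) (π j) (((τ i)⁻¹ * ⟨g, hg⟩ * τ j : Γ) : SL(2, ℤ)) (Subtype.property _)
    simp only [Subgroup.coe_mul, Subgroup.coe_inv, map_mul, map_inv]
    rw [mul_assoc, mul_assoc, ← h, inv_mul_cancel_left]

@[simp] theorem twistSys_α (S : CosetSystem Γ ι) (π : Equiv.Perm ι) (τ : ι → Γ) (i : ι) :
    (twistSys S π τ).α i = mapGL ℝ (τ i : SL(2, ℤ)) * S.α (π i) := rfl

variable [Fintype ι] {A : Type v} [AddCommGroup A]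

/-- a twisted coset system defines the same Hecke operator -/
theorem heckeFun_twistSys (S : CosetSystem Γ ι) (π : Equiv.Perm ι) (τ : ι → Γ)
    (φ : Additive Γ →+ A) : (twistSys S π τ).heckeFun φ = S.heckeFun φ := by
  refine addHom_ext_ofMul fun γ => ?_
  rw [CosetSystem.heckeFun_apply]
  exact S.sum_eq_heckeFun_of_twist φ π τ γ ((twistSys S π τ).perm γ) ((twistSys S π τ).step γ)
    (fun i => (twistSys S π τ).rel γ i)

/-- Hecke operators commute with pull-backs. -/
theorem heckeFun_pull (S' : CosetSystem Γ' ι) (S : CosetSystem Γ ι) (j : Γ' →* Γ)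
    (hC : ∀ (h : Γ') (i : ι), S.step (j h) i = j (S'.step h i))
    (x : Additive Γ →+ A) :
    S'.heckeFun (pull A j x) = pull A j (S.heckeFun x) := by
  refine addHom_ext_ofMul fun γ => ?_
  rw [CosetSystem.heckeFun_apply, pull_apply, CosetSystem.heckeFun_apply]
  refine Finset.sum_congr rfl fun i _ => ?_
  rw [pull_apply, hC]

theorem onRange_apply_map (j : Γ' →* Γ) (hj : Function.Injective j) (y : Additive Γ' →+ A)
    (h : Γ') (hm : j h ∈ j.range) :
    onRange A j hj y ⟨j h, hm⟩ = Multiplicative.ofAdd (y (Additive.ofMul h)) := by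
  have e : (MonoidHom.ofInjective hj).symm ⟨j h, hm⟩ = h := by
    rw [MulEquiv.symm_apply_eq]
    exact Subtype.ext rfl
  show Multiplicative.ofAdd (y (Additive.ofMul ((MonoidHom.ofInjective hj).symm ⟨j h, hm⟩))) = _
  rw [e]

/-- Hecke operators commute with the transfer. -/
theorem heckeFun_push (S' : CosetSystem Γ' ι) (S : CosetSystem Γ ι) (j : Γ' →* Γ)
    (hj : Function.Injective j)
    (hC : ∀ (h : Γ') (i : ι), S.step (j h) i = j (S'.step h i))
    (hC2 : ∀ (γ : Γ) (i : ι), S.step γ i ∈ j.range → γ ∈ j.range)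
    (y : Additive Γ' →+ A) :
    S.heckeFun (push A j hj y) = push A j hj (S'.heckeFun y) := by
  by_cases hfi : j.range.FiniteIndex
  · have := hfi
    have hm : ∀ h' : Γ', j h' ∈ j.range := fun h' => MonoidHom.mem_range.mpr ⟨h', rfl⟩
    have hstep : ∀ (h' : Γ') (i : ι), S.step (j h') i ∈ j.range := fun h' i => by
      rw [hC]
      exact hm _
    refine addHom_ext_ofMul fun γ => ?_
    rw [CosetSystem.heckeFun_apply, push_apply]
    have key := transfer_step_comm (stepSysOf S) (H := j.range)
      (fun h hh i => by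
        obtain ⟨h', rfl⟩ := MonoidHom.mem_range.mp hh
        exact hstep h' i)
      (fun g i hg => hC2 g i hg)
      (onRange A j hj y) (onRange A j hj (S'.heckeFun y))
      (fun h => by
        obtain ⟨h', hh'⟩ := MonoidHom.mem_range.mp h.2
        have e : h = ⟨j h', hm h'⟩ := Subtype.ext hh'.symm
        rw [e, onRange_apply_map, CosetSystem.heckeFun_apply, ofAdd_sum]
        refine Finset.prod_congr rfl fun i _ => ?_
        show _ = extOne (onRange A j hj y) (S.step (j h') i)
        rw [extOne_of_mem _ (hstep h' i)]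
        have e2 : (⟨S.step (j h') i, hstep h' i⟩ : j.range) =
            ⟨j (S'.step h' i), hm _⟩ := Subtype.ext (hC h' i)
        rw [e2, onRange_apply_map])
      γ
    rw [← key, toAdd_prod]
    refine Finset.sum_congr rfl fun i _ => ?_
    rw [push_apply]
    rfl
  · unfold push
    rw [dif_neg hfi, dif_neg hfi, map_zero]

end Abstract

end Fermat.Agent.P6.helper67
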