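import Mathlib
import Fermat.Agent.P6.helper21_DualStmts
import Fermat.Agent.P6.helper99_PDPar
import Fermat.Agent.P6.helper94_DLift
import Fermat.Agent.S16.helper64_PSL2Z

/-!
# P6 / S41, module (D) duality, package [D-P1] (helper68, second prover of row 890)

`nondeg_of : EvalStatement → BilStatement → NondegStatement`: the intrinsic pairing `Bl Γ` is
non-degenerate modulo every prime on parabolic homs.

Route (BLUEPRINT P6-D, [D-P1]), `X = G ⧸ Γ`, `s = S`, `r = S T` on `X`: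
* the cocycle `shapiro Γ x` has parameters `(n₁, n₂)`, class `N = n₂ - n₁` in `ℤ^X / P`;
* every `z ∈ ZSub s r` is `(Φ S).f` for a cocycle `Φ` with `(Φ T).f = 0` (`exists_normalised`),
  whose restriction `y` to `Γ` is parabolic (`isParabolicHom_res`);
  `Bl Γ y x = ⟨z, N⟩` by `EvalStatement`, so `p ∣ ⟨z, N⟩` by antisymmetry;
* hence `N ∈ p ℤ^X + P` (`exists_sub_smul_mem_PSub`, from helper99's perfectness
  `exists_ZSub_of_functional`), `N - p N₀ ∈ P`;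
* the cocycle with parameters `(0, N₀)` restricts to `x'` and `x - p x'` is the restriction of
  a coboundary, i.e. zero.
-/

set_option autoImplicit false
set_option linter.unusedSectionVars false
set_option linter.style.haveILetI false

open scoped MatrixGroups
open Matrix.SpecialLinearGroup ModularCurve.Period

noncomputable section

namespace Fermat.Agent.P6.helper68

open Fermat.Agent.S16.helper21 (CoGrp shapiro shapiro_f shapiro_σ shapiro_f_x0 res res_apply)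
open Fermat.Agent.S21.helper83 (x0 smul_x0_of_mem)
open Fermat.Agent.P6.helper21 Fermat.Agent.P6.helper99

/-! ## A. Linear algebra: separation modulo `n` -/

section LA

variable {X : Type*} [Fintype X] [DecidableEq X]

/-- If `n` divides all the pairings `⟨z, N⟩`, `z` a relative cocycle, then `N ∈ n ℤ^X + P`. -/
theorem exists_sub_smul_mem_PSub {s r : Equiv.Perm X} (hs : s ^ 2 = 1) (hr : r ^ 3 = 1)
    (n : ℤ) (N : X → ℤ) (h : ∀ z ∈ ZSub s r, n ∣ dotProduct z N) :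
    ∃ N₀ : X → ℤ, N - n • N₀ ∈ PSub s r := by
  haveI hfree : Module.Free ℤ ((X → ℤ) ⧸ PSub s r) :=
    free_quot_of_sat (PSub s r) (fun k m hk hm => mem_PSub_of_smul s r hk hm)
  let b := Module.Free.chooseBasis ℤ ((X → ℤ) ⧸ PSub s r)
  have hdiv : ∀ i, n ∣ b.repr ((PSub s r).mkQ N) i := by
    intro i
    obtain ⟨z, hz, hzφ⟩ := exists_ZSub_of_functional hs hr ((b.coord i).comp (PSub s r).mkQ)
      (fun m hm => by
        rw [LinearMap.comp_apply, Submodule.mkQ_apply,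
          (Submodule.Quotient.mk_eq_zero (PSub s r)).2 hm, map_zero])
    have h1 := hzφ N
    rw [LinearMap.comp_apply, Module.Basis.coord_apply] at h1
    rw [h1]
    exact h z hz
  choose c hc using hdiv
  obtain ⟨N₀, hN₀⟩ := Submodule.mkQ_surjective (PSub s r) (∑ i, c i • b i)
  refine ⟨N₀, ?_⟩
  rw [← Submodule.Quotient.mk_eq_zero, Submodule.Quotient.mk_sub, Submodule.Quotient.mk_smul]
  have e1 : (Submodule.Quotient.mk N₀ : (X → ℤ) ⧸ PSub s r) = ∑ i, c i • b i := hN₀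
  have e2 : (Submodule.Quotient.mk N : (X → ℤ) ⧸ PSub s r) =
      ∑ i, b.repr ((PSub s r).mkQ N) i • b i := (b.sum_repr _).symm
  rw [e1, e2, Finset.smul_sum, ← Finset.sum_sub_distrib]
  apply Finset.sum_eq_zero
  intro i _
  rw [hc i, smul_smul, sub_self]

end LA

/-! ## B. Cocycles on `X = G ⧸ Γ` -/

section Coc

variable (Γ : Subgroup SL(2, ℤ))

/-- the permutation of `X` given by `S` -/
def sP : Equiv.Perm (SL(2, ℤ) ⧸ Γ) := MulAction.toPerm ModularGroup.S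

/-- the permutation of `X` given by `S T` -/
def rP : Equiv.Perm (SL(2, ℤ) ⧸ Γ) := MulAction.toPerm (ModularGroup.S * ModularGroup.T)

lemma sP_apply (z : SL(2, ℤ) ⧸ Γ) : sP Γ z = ModularGroup.S • z := rfl

lemma rP_apply (z : SL(2, ℤ) ⧸ Γ) : rP Γ z = (ModularGroup.S * ModularGroup.T) • z := rfl

variable {Γ}

lemma neg_one_smul_q (hneg : (-1 : SL(2, ℤ)) ∈ Γ) (z : SL(2, ℤ) ⧸ Γ) :
    (-1 : SL(2, ℤ)) • z = z :=
  Fermat.Agent.S21.helper83.neg_one_smul' Γ hneg z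

lemma sP_sq (hneg : (-1 : SL(2, ℤ)) ∈ Γ) : sP Γ ^ 2 = 1 := by
  ext z
  rw [pow_two, Equiv.Perm.mul_apply]
  show ModularGroup.S • ModularGroup.S • z = z
  rw [← mul_smul, Fermat.Agent.S16.helper21.S_mul_S, neg_one_smul_q hneg]

lemma rP_cube (hneg : (-1 : SL(2, ℤ)) ∈ Γ) : rP Γ ^ 3 = 1 := by
  ext z
  rw [pow_succ, pow_two, Equiv.Perm.mul_apply, Equiv.Perm.mul_apply]
  show (ModularGroup.S * ModularGroup.T) • (ModularGroup.S * ModularGroup.T) •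
    (ModularGroup.S * ModularGroup.T) • z = z
  rw [← mul_smul, ← mul_smul, mul_assoc, Fermat.Agent.S16.helper21.ST_mul_ST_mul_ST,
    neg_one_smul_q hneg]

lemma sP_sP (hneg : (-1 : SL(2, ℤ)) ∈ Γ) (z : SL(2, ℤ) ⧸ Γ) : sP Γ (sP Γ z) = z :=
  perm_sq_apply (sP_sq hneg) z

lemma rP_rP_rP (hneg : (-1 : SL(2, ℤ)) ∈ Γ) (z : SL(2, ℤ) ⧸ Γ) : rP Γ (rP Γ (rP Γ z)) = z :=
  perm_cube_apply (rP_cube hneg) z

/-- a hom to the cocycle group whose permutation part is right at `S` and `S T` lies over the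
action -/
theorem isOverC_of (Φ : SL(2, ℤ) →* CoGrp (SL(2, ℤ) ⧸ Γ) ℤ)
    (hS : (Φ ModularGroup.S).σ = sP Γ) (hR : (Φ (ModularGroup.S * ModularGroup.T)).σ = rP Γ) :
    IsOverC Γ Φ := by
  have h : CoGrp.projHom.comp Φ = MulAction.toPermHom SL(2, ℤ) (SL(2, ℤ) ⧸ Γ) :=
    Fermat.Agent.S16.helper21.hom_ext_S_ST _ _ hS hR
  intro g
  exact congrArg (fun φ : SL(2, ℤ) →* Equiv.Perm (SL(2, ℤ) ⧸ Γ) => φ g) h

/-- a cocycle is trivial at `-1` -/
theorem map_neg_one (hneg : (-1 : SL(2, ℤ)) ∈ Γ) (Φ : SL(2, ℤ) →* CoGrp (SL(2, ℤ) ⧸ Γ) ℤ)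
    (hΦ : IsOverC Γ Φ) : Φ (-1) = 1 := by
  have hσ : (Φ (-1)).σ = 1 := by
    rw [hΦ]
    ext z
    exact neg_one_smul_q hneg z
  have h2 : Φ (-1) * Φ (-1) = 1 := by
    rw [← map_mul]
    have : (-1 : SL(2, ℤ)) * (-1) = 1 := by decide
    rw [this, map_one]
  ext z
  · have h3 := congrArg (fun a : CoGrp (SL(2, ℤ) ⧸ Γ) ℤ => a.f z) h2
    simp only [CoGrp.mul_f, CoGrp.one_f, hσ, Equiv.Perm.coe_one, id_eq] at h3
    show (Φ (-1)).f z = 0
    omega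
  · rw [hσ]
    rfl

/-- the values at `S` and `S T` of a cocycle form a cocycle on `C₂ * C₃` -/
theorem isCoc_of (hneg : (-1 : SL(2, ℤ)) ∈ Γ) (Φ : SL(2, ℤ) →* CoGrp (SL(2, ℤ) ⧸ Γ) ℤ)
    (hΦ : IsOverC Γ Φ) :
    IsCoc (sP Γ) (rP Γ) (Φ ModularGroup.S).f (Φ (ModularGroup.S * ModularGroup.T)).f := by
  have h1 := map_neg_one hneg Φ hΦ
  constructor
  · intro z
    have h2 : Φ ModularGroup.S * Φ ModularGroup.S = 1 := by
      rw [← map_mul, Fermat.Agent.S16.helper21.S_mul_S, h1]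
    have h3 := congrArg (fun a : CoGrp (SL(2, ℤ) ⧸ Γ) ℤ => a.f z) h2
    simp only [CoGrp.mul_f, CoGrp.one_f, hΦ ModularGroup.S] at h3
    rw [add_comm]
    exact h3
  · intro z
    have h2 : Φ (ModularGroup.S * ModularGroup.T) * (Φ (ModularGroup.S * ModularGroup.T) *
        Φ (ModularGroup.S * ModularGroup.T)) = 1 := by
      rw [← map_mul, ← map_mul, Fermat.Agent.S16.helper21.ST_mul_ST_mul_ST, h1]
    have h3 := congrArg (fun a : CoGrp (SL(2, ℤ) ⧸ Γ) ℤ => a.f z) h2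
    simp only [CoGrp.mul_f, CoGrp.one_f, CoGrp.mul_σ, hΦ (ModularGroup.S * ModularGroup.T),
      Equiv.Perm.mul_apply] at h3
    have e : (MulAction.toPerm (ModularGroup.S * ModularGroup.T) :
        Equiv.Perm (SL(2, ℤ) ⧸ Γ)) = rP Γ := rfl
    rw [e] at h3
    linarith

/-- **Cocycles from parameters**: for `s₁ ^ 2 = 1`, `r₁ ^ 3 = 1` in the cocycle group lying
over `S`, `S T` there is a cocycle with these values. -/
theorem exists_cocycle (a b : (SL(2, ℤ) ⧸ Γ) → ℤ)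
    (ha : (⟨a, sP Γ⟩ : CoGrp (SL(2, ℤ) ⧸ Γ) ℤ) ^ 2 = 1)
    (hb : (⟨b, rP Γ⟩ : CoGrp (SL(2, ℤ) ⧸ Γ) ℤ) ^ 3 = 1) :
    ∃ Φ : SL(2, ℤ) →* CoGrp (SL(2, ℤ) ⧸ Γ) ℤ, IsOverC Γ Φ ∧ (Φ ModularGroup.S).f = a ∧
      (Φ (ModularGroup.S * ModularGroup.T)).f = b := by
  obtain ⟨Φ, h1, h2, -⟩ := Fermat.Agent.S16.helper64.exists_hom_of_sq_cube _ _ ha hb
  refine ⟨Φ, isOverC_of Φ ?_ ?_, ?_, ?_⟩
  · rw [h1]
  · rw [h2]
  · rw [h1]
  · rw [h2]

/-- **T-normalised cocycles**: every relative cocycle `z` is the value at `S` of a cocycle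
vanishing at `T`. -/
theorem exists_normalised (hneg : (-1 : SL(2, ℤ)) ∈ Γ) (z : (SL(2, ℤ) ⧸ Γ) → ℤ)
    (hz : z ∈ ZSub (sP Γ) (rP Γ)) :
    ∃ Φ : SL(2, ℤ) →* CoGrp (SL(2, ℤ) ⧸ Γ) ℤ, IsOverC Γ Φ ∧ (Φ ModularGroup.S).f = z ∧
      (Φ ModularGroup.T).f = 0 := by
  obtain ⟨hz1, hz2⟩ := mem_ZSub.mp hz
  have ha : (⟨z, sP Γ⟩ : CoGrp (SL(2, ℤ) ⧸ Γ) ℤ) ^ 2 = 1 := by
    ext w
    · rw [pow_two]
      simp only [CoGrp.mul_f, CoGrp.one_f]
      have := hz1 w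
      linarith
    · rw [pow_two]
      simp only [CoGrp.mul_σ, CoGrp.one_σ]
      rw [← pow_two, sP_sq hneg]
  have hb : (⟨fun w => - z (rP Γ w), rP Γ⟩ : CoGrp (SL(2, ℤ) ⧸ Γ) ℤ) ^ 3 = 1 := by
    ext w
    · rw [pow_succ, pow_two]
      simp only [CoGrp.mul_f, CoGrp.one_f]
      have h1 := hz2 (rP Γ w)
      linarith
    · rw [pow_succ, pow_two]
      simp only [CoGrp.mul_σ, CoGrp.one_σ]
      rw [← pow_two, ← pow_succ, rP_cube hneg]
  obtain ⟨Φ, hΦ, hS, hR⟩ := exists_cocycle z _ ha hb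
  refine ⟨Φ, hΦ, hS, ?_⟩
  have hT : (ModularGroup.T : SL(2, ℤ)) = ModularGroup.S⁻¹ * (ModularGroup.S * ModularGroup.T) := by
    group
  funext w
  rw [hT, map_mul, map_inv, CoGrp.inv_mul_f, hS, hR, hΦ ModularGroup.S,
    hΦ (ModularGroup.S * ModularGroup.T)]
  show - z ((sP Γ)⁻¹ (rP Γ w)) + - z (rP Γ w) = 0
  have h1 := hz1 ((sP Γ)⁻¹ (rP Γ w))
  have h2 : sP Γ ((sP Γ)⁻¹ (rP Γ w)) = rP Γ w := by
    rw [← Equiv.Perm.mul_apply, mul_inv_cancel, Equiv.Perm.one_apply]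
  rw [h2] at h1
  linarith

/-- **The cocycle with parameters `(0, n)`**. -/
theorem exists_param (hneg : (-1 : SL(2, ℤ)) ∈ Γ) (n : (SL(2, ℤ) ⧸ Γ) → ℤ) :
    ∃ Φ : SL(2, ℤ) →* CoGrp (SL(2, ℤ) ⧸ Γ) ℤ, IsOverC Γ Φ ∧ (Φ ModularGroup.S).f = 0 ∧
      (Φ (ModularGroup.S * ModularGroup.T)).f = fun w => n (rP Γ w) - n w := by
  have ha : (⟨0, sP Γ⟩ : CoGrp (SL(2, ℤ) ⧸ Γ) ℤ) ^ 2 = 1 := by
    ext w
    · rw [pow_two]
      simp only [CoGrp.mul_f, CoGrp.one_f, Pi.zero_apply, add_zero]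
    · rw [pow_two]
      simp only [CoGrp.mul_σ, CoGrp.one_σ]
      rw [← pow_two, sP_sq hneg]
  have hb : (⟨fun w => n (rP Γ w) - n w, rP Γ⟩ : CoGrp (SL(2, ℤ) ⧸ Γ) ℤ) ^ 3 = 1 := by
    ext w
    · rw [pow_succ, pow_two]
      simp only [CoGrp.mul_f, CoGrp.one_f]
      rw [rP_rP_rP hneg]
      ring
    · rw [pow_succ, pow_two]
      simp only [CoGrp.mul_σ, CoGrp.one_σ]
      rw [← pow_two, ← pow_succ, rP_cube hneg]
  exact exists_cocycle 0 _ ha hb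

/-- a cocycle vanishing at `T` vanishes at all powers of `T` -/
lemma hom_f_T_zpow_eq_zero (Φ : SL(2, ℤ) →* CoGrp (SL(2, ℤ) ⧸ Γ) ℤ) (hΦ : IsOverC Γ Φ)
    (hT : (Φ ModularGroup.T).f = 0) (k : ℤ) (y : SL(2, ℤ) ⧸ Γ) :
    (Φ (ModularGroup.T ^ k)).f y = 0 := by
  obtain ⟨m, rfl | rfl⟩ := Int.eq_nat_or_neg k
  · rw [zpow_natCast, CoGrp.hom_f_pow Φ hΦ]
    apply Finset.sum_eq_zero
    intro i _
    rw [hT]
    rfl
  · rw [zpow_neg, zpow_natCast, CoGrp.hom_f_inv Φ hΦ, CoGrp.hom_f_pow Φ hΦ, neg_eq_zero]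
    apply Finset.sum_eq_zero
    intro i _
    rw [hT]
    rfl

/-- **Parabolicity criterion**: the restriction to `Γ` of a cocycle vanishing at `T` is a
parabolic hom. -/
theorem isParabolicHom_res (hneg : (-1 : SL(2, ℤ)) ∈ Γ)
    (Φ : SL(2, ℤ) →* CoGrp (SL(2, ℤ) ⧸ Γ) ℤ) (hΦ : IsOverC Γ Φ)
    (hT : (Φ ModularGroup.T).f = 0) : IsParabolicHom Γ (res Γ Φ hΦ) := by
  intro γ htr
  show (Φ (γ : SL(2, ℤ))).f (x0 Γ) = 0
  obtain ⟨δ, hδ⟩ := Fermat.Agent.S21.exists_conj_apply_one_zero_eq_zero (γ : SL(2, ℤ)) htr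
  set h := δ⁻¹ * (γ : SL(2, ℤ)) * δ with hh
  have hγeq : (γ : SL(2, ℤ)) = δ * h * δ⁻¹ := by rw [hh]; group
  have hfix : h • (δ⁻¹ • x0 Γ) = δ⁻¹ • x0 Γ := by
    rw [hh, ← mul_smul, mul_assoc, mul_assoc, mul_inv_cancel, mul_one, mul_smul,
      smul_x0_of_mem _ γ.2]
  rw [hγeq, CoGrp.hom_f_conj Φ hΦ δ h _ hfix]
  obtain ⟨k, hk | hk⟩ := Fermat.Agent.S16.helper21.eq_T_zpow_or_neg_of_apply_one_zero h hδ
  · rw [hk]
    exact hom_f_T_zpow_eq_zero Φ hΦ hT k _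
  · have e : h = (-1) * ModularGroup.T ^ k := by rw [hk]; simp
    rw [e, map_mul, map_neg_one hneg Φ hΦ, one_mul]
    exact hom_f_T_zpow_eq_zero Φ hΦ hT k _

/-- **Extension from the generators**: a relation `Φ = c Ψ + ∂ w` between cocycles holds
everywhere as soon as it holds at `S` and `S T`. -/
theorem eq_smul_add_cob (Φ Ψ : SL(2, ℤ) →* CoGrp (SL(2, ℤ) ⧸ Γ) ℤ) (hΦ : IsOverC Γ Φ)
    (hΨ : IsOverC Γ Ψ) (c : ℤ) (w : (SL(2, ℤ) ⧸ Γ) → ℤ)
    (hS : ∀ z, (Φ ModularGroup.S).f z =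
      c * (Ψ ModularGroup.S).f z + (w (ModularGroup.S • z) - w z))
    (hR : ∀ z, (Φ (ModularGroup.S * ModularGroup.T)).f z =
      c * (Ψ (ModularGroup.S * ModularGroup.T)).f z +
        (w ((ModularGroup.S * ModularGroup.T) • z) - w z)) :
    ∀ g z, (Φ g).f z = c * (Ψ g).f z + (w (g • z) - w z) := by
  have key : ∀ g z, (Fermat.Agent.P6.helper94.conjHom w
      ((CoGrp.mapHom (AddMonoidHom.mulLeft c)).comp Ψ) g).f z =
        c * (Ψ g).f z + (w (g • z) - w z) := by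
    intro g z
    rw [Fermat.Agent.P6.helper94.conjHom_f]
    simp only [MonoidHom.comp_apply, CoGrp.mapHom_f, CoGrp.mapHom_σ, AddMonoidHom.coe_mulLeft,
      hΨ g, MulAction.toPerm_apply]
    ring
  have hσ : ∀ g, (Fermat.Agent.P6.helper94.conjHom w
      ((CoGrp.mapHom (AddMonoidHom.mulLeft c)).comp Ψ) g).σ = MulAction.toPerm g := by
    intro g
    rw [Fermat.Agent.P6.helper94.conjHom_σ]
    simp only [MonoidHom.comp_apply, CoGrp.mapHom_σ, hΨ g]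
  have h : Φ = Fermat.Agent.P6.helper94.conjHom w
      ((CoGrp.mapHom (AddMonoidHom.mulLeft c)).comp Ψ) := by
    apply Fermat.Agent.S16.helper21.hom_ext_S_ST
    · ext z
      · rw [key, hS]
      · rw [hσ, hΦ]
    · ext z
      · rw [key, hR]
      · rw [hσ, hΦ]
  intro g z
  rw [← key g z, ← h]

end Coc

/-! ## C. Non-degeneracy -/

/-- **[D-P1]** non-degeneracy of `Bl` modulo primes, from the evaluation formula and
antisymmetry. -/
theorem nondeg_of (hE : EvalStatement) (hB : BilStatement) : NondegStatement := by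
  intro Γ _ hneg p hp x hx hdiv
  classical
  haveI : Finite (SL(2, ℤ) ⧸ Γ) := Subgroup.finite_quotient_of_finiteIndex
  letI : Fintype (SL(2, ℤ) ⧸ Γ) := Fintype.ofFinite _
  have hs := sP_sq hneg
  have hr := rP_cube hneg
  -- the Shapiro cocycle of `x`
  have hΦ' : IsOverC Γ (shapiro Γ x) := fun g => rfl
  have hcoc := isCoc_of hneg (shapiro Γ x) hΦ'
  obtain ⟨m, ns, nr, hns, hnr, -⟩ := exists_clRel hs hr hcoc
  have hcl : ClRel (sP Γ) (rP Γ) (shapiro Γ x ModularGroup.S).f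
      (shapiro Γ x (ModularGroup.S * ModularGroup.T)).f (nr - ns) :=
    ⟨ns, nr, hns, hnr, by simp⟩
  -- `p` divides all pairings
  have hdvd : ∀ z ∈ ZSub (sP Γ) (rP Γ), (p : ℤ) ∣ dotProduct z (nr - ns) := by
    intro z hz
    obtain ⟨Φ, hΦ, hS, hT⟩ := exists_normalised hneg z hz
    have hy := isParabolicHom_res hneg Φ hΦ hT
    have hev := hE Γ hneg Φ (shapiro Γ x) (res Γ Φ hΦ) x ns nr hΦ hΦ' hT
      (fun γ => rfl) (fun γ => shapiro_f_x0 Γ x γ) hy hx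
      (fun w => (hns w).symm) (fun w => (hnr w).symm)
    have hanti := (hB Γ hneg (res Γ Φ hΦ) (res Γ Φ hΦ) x hy hy hx).2.2
    have h1 := hdiv (res Γ Φ hΦ) hy
    have h2 : dotProduct z (nr - ns) = Bl Γ (res Γ Φ hΦ) x := by
      rw [hev, hS]
      rfl
    rw [h2, hanti]
    exact (dvd_neg).2 h1
  obtain ⟨N₀, hN₀⟩ := exists_sub_smul_mem_PSub hs hr (p : ℤ) (nr - ns) hdvd
  -- the cocycle with parameters `(0, N₀)`
  obtain ⟨Ψ, hΨ, hΨS, hΨR⟩ := exists_param hneg N₀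
  have hcl2 := hcl.sub ((clRel_self (sP Γ) (rP Γ) N₀).smul (p : ℤ))
  obtain ⟨w, hw1, hw2⟩ := hcl2.mem_PSub_iff.1 hN₀
  have hall := eq_smul_add_cob (shapiro Γ x) Ψ hΦ' hΨ (p : ℤ) w
    (fun z => by
      have := hw1 z
      simp only [Pi.sub_apply, Pi.smul_apply, Pi.zero_apply, smul_eq_mul, mul_zero,
        sub_zero] at this
      rw [hΨS, Pi.zero_apply, mul_zero, zero_add, ← this]
      rfl)
    (fun z => by
      have := hw2 z
      simp only [Pi.sub_apply, Pi.smul_apply, smul_eq_mul] at this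
      rw [hΨR]
      show _ = (p : ℤ) * (N₀ (rP Γ z) - N₀ z) + (w (rP Γ z) - w z)
      linarith)
  have hxx : ∀ γ : Γ, x (Additive.ofMul γ) = (p : ℤ) * res Γ Ψ hΨ (Additive.ofMul γ) := by
    intro γ
    have := hall (γ : SL(2, ℤ)) (x0 Γ)
    rw [shapiro_f_x0, smul_x0_of_mem Γ γ.2, sub_self, add_zero] at this
    rw [this]
    rfl
  refine ⟨res Γ Ψ hΨ, ?_, ?_⟩
  · intro γ htr
    have h1 := hx γ htr
    rw [hxx γ] at h1
    rcases mul_eq_zero.1 h1 with h2 | h2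
    · exact absurd (by exact_mod_cast h2) hp.ne_zero
    · exact h2
  · apply AddMonoidHom.ext
    intro γ
    have := hxx (Additive.toMul γ)
    rw [AddMonoidHom.nsmul_apply, nsmul_eq_mul]
    exact this

end Fermat.Agent.P6.helper68
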