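import Mathlib
import Fermat.Agent.P6.helper78_NDefs

/-!
# P6 / S41, module (N), package [N-CNT] (helper68, task 864)

`cnt : Fermat.Agent.P6.helper78.CntStatement` (VERBATIM): the finite-field side of the two weak
links.  `k` algebraically closed of characteristic `ℓ`, `W` an integral Weierstrass curve with good
reduction at `ℓ`, `φ` the `ℓ`-power Frobenius on the points of `W` over `k`:

* `sPlus = ker (φ - 1)`, `sMinus = ker (φ + 1)` are finite subgroups;
* `#sPlus = #W(𝔽_ℓ) = ℓ + 1 - a_ℓ` (`natCard_sPlus`);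
* `#sPlus + #sMinus = 2 ℓ + 2` (`natCard_sPlus_add_natCard_sMinus`), by counting the fibres
  `{Q, -Q}` of the `x`-coordinate over the `x ∈ 𝔽_ℓ`;
* Cauchy + Lagrange.
-/

set_option autoImplicit false
set_option linter.style.haveILetI false

open WeierstrassCurve WeierstrassCurve.Affine

noncomputable section

namespace Fermat.Agent.P6.helper68

open Fermat.Agent.P6.helper78

/-! ## The Frobenius on points -/

section Frob

variable (W : WeierstrassCurve ℤ) (k : Type) [Field k] [DecidableEq k] (ℓ : ℕ) [Fact ℓ.Prime]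
  [CharP k ℓ]

/-- The `ℓ`-power Frobenius of `k` as a `ℤ`-algebra homomorphism. -/
def frobZ : k →ₐ[ℤ] k := (frobenius k ℓ).toIntAlgHom

omit [DecidableEq k] in
@[simp] theorem frobZ_apply (x : k) : frobZ k ℓ x = x ^ ℓ := rfl

/-- The Frobenius endomorphism of the group of points of `W` over `k`. -/
def frobPt : PtK W k →+ PtK W k :=
  Point.map (W' := W) (frobZ k ℓ)

theorem frobPt_zero : frobPt W k ℓ 0 = 0 := rfl

theorem frobPt_some {x y : k} (h : (W.map (Int.castRingHom k)).toAffine.Nonsingular x y) :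
    ∃ h', frobPt W k ℓ (Point.some x y h) = Point.some (x ^ ℓ) (y ^ ℓ) h' :=
  ⟨_, rfl⟩

variable {W k ℓ}

theorem isFrobFix_iff (Q : PtK W k) : IsFrobFix W k ℓ Q ↔ frobPt W k ℓ Q = Q := by
  cases Q with
  | zero => exact ⟨fun _ => rfl, fun _ => trivial⟩
  | some x y h =>
    obtain ⟨h', e⟩ := frobPt_some W k ℓ h
    rw [e]
    show x ^ ℓ = x ∧ y ^ ℓ = y ↔ _
    rw [Point.some.injEq]

theorem isFrobAntiFix_iff (Q : PtK W k) : IsFrobAntiFix W k ℓ Q ↔ frobPt W k ℓ Q = -Q := by
  cases Q with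
  | zero => exact ⟨fun _ => rfl, fun _ => trivial⟩
  | some x y h =>
    obtain ⟨h', e⟩ := frobPt_some W k ℓ h
    rw [e, Point.neg_some]
    show x ^ ℓ = x ∧ y ^ ℓ = (W.map (Int.castRingHom k)).toAffine.negY x y ↔ _
    rw [Point.some.injEq]

end Frob

/-! ## The prime field -/

section PrimeField

variable (k : Type) [Field k] (ℓ : ℕ) [Fact ℓ.Prime] [CharP k ℓ]

/-- The embedding of the prime field. -/
def iota : ZMod ℓ →+* k := ZMod.castHom (dvd_refl ℓ) k

theorem iota_injective : Function.Injective (iota k ℓ) := (iota k ℓ).injective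

theorem iota_pow (a : ZMod ℓ) : (iota k ℓ a) ^ ℓ = iota k ℓ a := by
  rw [← map_pow, ZMod.pow_card]

variable {k ℓ}

/-- The fixed points of the Frobenius are the elements of the prime field. -/
theorem pow_eq_self_iff {x : k} : x ^ ℓ = x ↔ ∃ a : ZMod ℓ, iota k ℓ a = x := by
  rw [← Subfield.mem_bot_iff_pow_eq_self k ℓ, ← ZMod.fieldRange_castHom_eq_bot ℓ]
  exact RingHom.mem_fieldRange

variable (k ℓ)

theorem iota_comp_intCast :
    (iota k ℓ).comp (Int.castRingHom (ZMod ℓ)) = Int.castRingHom k :=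
  RingHom.ext_int _ _

end PrimeField

/-! ## The subgroups `S⁺` and `S⁻` -/

section Sub

variable (W : WeierstrassCurve ℤ) (k : Type) [Field k] [DecidableEq k] (ℓ : ℕ) [Fact ℓ.Prime]
  [CharP k ℓ]

/-- `S⁺ = ker (φ - 1)`. -/
def sPlus : AddSubgroup (PtK W k) := (frobPt W k ℓ - AddMonoidHom.id _).ker

/-- `S⁻ = ker (φ + 1)`. -/
def sMinus : AddSubgroup (PtK W k) := (frobPt W k ℓ + AddMonoidHom.id _).ker

variable {W k ℓ}

theorem mem_sPlus {Q : PtK W k} : Q ∈ sPlus W k ℓ ↔ frobPt W k ℓ Q = Q := by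
  rw [sPlus, AddMonoidHom.mem_ker, AddMonoidHom.sub_apply, AddMonoidHom.id_apply, sub_eq_zero]

theorem mem_sMinus {Q : PtK W k} : Q ∈ sMinus W k ℓ ↔ frobPt W k ℓ Q = -Q := by
  rw [sMinus, AddMonoidHom.mem_ker, AddMonoidHom.add_apply, AddMonoidHom.id_apply,
    add_eq_zero_iff_eq_neg]

theorem mem_sPlus_iff_isFrobFix {Q : PtK W k} : Q ∈ sPlus W k ℓ ↔ IsFrobFix W k ℓ Q := by
  rw [mem_sPlus, isFrobFix_iff]

theorem mem_sMinus_iff_isFrobAntiFix {Q : PtK W k} :
    Q ∈ sMinus W k ℓ ↔ IsFrobAntiFix W k ℓ Q := by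
  rw [mem_sMinus, isFrobAntiFix_iff]

/-- the pair of coordinates of a point -/
def coords : PtK W k → Option (k × k)
  | .zero => none
  | .some x y _ => some (x, y)

omit [DecidableEq k] in
theorem coords_injective : Function.Injective (coords (W := W) (k := k)) := by
  rintro (_ | ⟨x₁, y₁, h₁⟩) (_ | ⟨x₂, y₂, h₂⟩) h <;>
    simp only [coords, Option.some.injEq, Prod.mk.injEq, reduceCtorEq] at h
  · rfl
  · obtain ⟨rfl, rfl⟩ := h; rfl

variable (W k ℓ)

/-- The points fixed by `φ²` form a finite set. -/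
theorem finite_fix2 : {Q : PtK W k | frobPt W k ℓ (frobPt W k ℓ Q) = Q}.Finite := by
  have hℓ : 1 < ℓ := (Fact.out : ℓ.Prime).one_lt
  have hR : {z : k | (z ^ ℓ) ^ ℓ = z}.Finite := by
    have hne : (Polynomial.X ^ (ℓ * ℓ) - Polynomial.X : Polynomial k) ≠ 0 :=
      FiniteField.X_pow_card_sub_X_ne_zero k (by nlinarith)
    refine (Polynomial.finite_setOfPred_isRoot hne).subset fun z hz => ?_
    show Polynomial.IsRoot _ z
    rw [Polynomial.IsRoot, Polynomial.eval_sub, Polynomial.eval_pow, Polynomial.eval_X,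
      pow_mul, show (z ^ ℓ) ^ ℓ = z from hz, sub_self]
  have hfin : (insert none (some '' ({z : k | (z ^ ℓ) ^ ℓ = z} ×ˢ {z : k | (z ^ ℓ) ^ ℓ = z})) :
      Set (Option (k × k))).Finite :=
    ((hR.prod hR).image _).insert _
  refine Set.Finite.of_finite_image (hfin.subset ?_) (coords_injective.injOn)
  rintro _ ⟨Q, hQ, rfl⟩
  cases Q with
  | zero => exact Set.mem_insert _ _
  | some x y h =>
    refine Set.mem_insert_of_mem _ ⟨(x, y), ?_, rfl⟩
    obtain ⟨h', e⟩ := frobPt_some W k ℓ h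
    obtain ⟨h'', e'⟩ := frobPt_some W k ℓ h'
    have hQ' : frobPt W k ℓ (frobPt W k ℓ (Point.some x y h)) = Point.some x y h := hQ
    rw [e, e', Point.some.injEq] at hQ'
    exact ⟨hQ'.1, hQ'.2⟩

theorem finite_sPlus : Finite (sPlus W k ℓ) := by
  refine Set.Finite.to_subtype ((finite_fix2 W k ℓ).subset fun Q hQ => ?_)
  have h : frobPt W k ℓ Q = Q := mem_sPlus.mp hQ
  show frobPt W k ℓ (frobPt W k ℓ Q) = Q
  rw [h, h]

theorem finite_sMinus : Finite (sMinus W k ℓ) := by
  refine Set.Finite.to_subtype ((finite_fix2 W k ℓ).subset fun Q hQ => ?_)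
  have h : frobPt W k ℓ Q = -Q := mem_sMinus.mp hQ
  show frobPt W k ℓ (frobPt W k ℓ Q) = Q
  rw [h, map_neg, h, neg_neg]

end Sub

/-! ## `#S⁺ = #W(𝔽_ℓ)` -/

section CountPlus

variable (W : WeierstrassCurve ℤ) (k : Type) [Field k] [DecidableEq k] (ℓ : ℕ) [Fact ℓ.Prime]
  [CharP k ℓ]

omit [DecidableEq k] in
theorem map_reduction : (W.reductionMod ℓ).map (iota k ℓ) = W.map (Int.castRingHom k) := by
  rw [WeierstrassCurve.reductionMod, WeierstrassCurve.map_map, iota_comp_intCast]

omit [DecidableEq k] in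
theorem nonsingular_iota_iff (x y : ZMod ℓ) :
    (W.map (Int.castRingHom k)).toAffine.Nonsingular (iota k ℓ x) (iota k ℓ y) ↔
      (W.reductionMod ℓ).toAffine.Nonsingular x y := by
  rw [← map_reduction W k ℓ]
  exact Affine.map_nonsingular _ (iota_injective k ℓ) x y

/-- Base change of points from `𝔽_ℓ` to `k`. -/
def toK : (W.reductionMod ℓ).toAffine.Point → PtK W k
  | .zero => 0
  | .some x y h => .some (iota k ℓ x) (iota k ℓ y) ((nonsingular_iota_iff W k ℓ x y).mpr h)

omit [DecidableEq k] in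
theorem toK_injective : Function.Injective (toK W k ℓ) := by
  rintro (_ | ⟨x₁, y₁, h₁⟩) (_ | ⟨x₂, y₂, h₂⟩) h
  · rfl
  · exact absurd h (by simp [toK])
  · exact absurd h (by simp [toK])
  · have h' : Point.some (iota k ℓ x₁) (iota k ℓ y₁) ((nonsingular_iota_iff W k ℓ x₁ y₁).mpr h₁) =
        Point.some (iota k ℓ x₂) (iota k ℓ y₂) ((nonsingular_iota_iff W k ℓ x₂ y₂).mpr h₂) := h
    rw [Point.some.injEq] at h'
    obtain ⟨hx, hy⟩ := h'
    have hx' := iota_injective k ℓ hx
    have hy' := iota_injective k ℓ hy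
    subst hx' hy'
    rfl

theorem range_toK : Set.range (toK W k ℓ) = (sPlus W k ℓ : Set (PtK W k)) := by
  ext Q
  constructor
  · rintro ⟨P, rfl⟩
    rw [SetLike.mem_coe, mem_sPlus_iff_isFrobFix]
    cases P with
    | zero => trivial
    | some x y h => exact ⟨iota_pow k ℓ x, iota_pow k ℓ y⟩
  · intro hQ
    rw [SetLike.mem_coe, mem_sPlus_iff_isFrobFix] at hQ
    cases Q with
    | zero => exact ⟨0, rfl⟩
    | some x y h =>
      obtain ⟨hx, hy⟩ := hQ
      obtain ⟨a, rfl⟩ := pow_eq_self_iff.mp hx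
      obtain ⟨b, rfl⟩ := pow_eq_self_iff.mp hy
      exact ⟨Point.some a b ((nonsingular_iota_iff W k ℓ a b).mp h), rfl⟩

/-- `#S⁺ = #W(𝔽_ℓ)`. -/
theorem natCard_sPlus :
    Nat.card (sPlus W k ℓ) = Nat.card (W.reductionMod ℓ).toAffine.Point := by
  have h1 : Nat.card (Set.range (toK W k ℓ)) = Nat.card (W.reductionMod ℓ).toAffine.Point :=
    Nat.card_congr (Equiv.ofInjective _ (toK_injective W k ℓ)).symm
  rw [← h1]
  exact Nat.card_congr (Equiv.setCongr (range_toK W k ℓ).symm)

/-- `#S⁺ = ℓ + 1 - a_ℓ`. -/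
theorem natCard_sPlus_int :
    (Nat.card (sPlus W k ℓ) : ℤ) = (ℓ : ℤ) + 1 - W.apOfModel ℓ := by
  rw [natCard_sPlus, WeierstrassCurve.apOfModel, WeierstrassCurve.traceOfFrobenius,
    WeierstrassCurve.card, Nat.card_zmod]
  ring

end CountPlus

/-! ## `#S⁺ + #S⁻ = 2 ℓ + 2` -/

section Pair

/-- The abstract count on a fibre `{Q, -Q}`. -/
theorem pair_count {G : Type*} [AddCommGroup G] [DecidableEq G] (Φ : G →+ G) (Q : G)
    (hQ : Φ Q = Q ∨ Φ Q = -Q) (sP sM : Finset G) (hP : ∀ P, P ∈ sP ↔ Φ P = P)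
    (hM : ∀ P, P ∈ sM ↔ Φ P = -P) :
    (sP.filter (fun P => P = Q ∨ P = -Q)).card + (sM.filter (fun P => P = Q ∨ P = -Q)).card =
      2 := by
  by_cases h : Q = -Q
  · have hΦ : Φ Q = Q := by
      rcases hQ with h1 | h1
      · exact h1
      · rw [h1, ← h]
    have e1 : sP.filter (fun P => P = Q ∨ P = -Q) = {Q} := by
      ext P
      rw [Finset.mem_filter, hP, Finset.mem_singleton]
      constructor
      · rintro ⟨-, h1 | h1⟩
        · exact h1
        · rw [h1, ← h]
      · rintro rfl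
        exact ⟨hΦ, Or.inl rfl⟩
    have e2 : sM.filter (fun P => P = Q ∨ P = -Q) = {Q} := by
      ext P
      rw [Finset.mem_filter, hM, Finset.mem_singleton]
      constructor
      · rintro ⟨-, h1 | h1⟩
        · exact h1
        · rw [h1, ← h]
      · rintro rfl
        exact ⟨hΦ.trans h, Or.inl rfl⟩
    rw [e1, e2, Finset.card_singleton]
  · have hneg : ∀ R : G, Φ (-R) = -Φ R := fun R => map_neg Φ R
    rcases hQ with h1 | h1
    · have e1 : sP.filter (fun P => P = Q ∨ P = -Q) = {Q, -Q} := by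
        ext P
        rw [Finset.mem_filter, hP, Finset.mem_insert, Finset.mem_singleton]
        constructor
        · rintro ⟨-, h2⟩
          exact h2
        · rintro (rfl | rfl)
          · exact ⟨h1, Or.inl rfl⟩
          · exact ⟨by rw [hneg, h1], Or.inr rfl⟩
      have e2 : sM.filter (fun P => P = Q ∨ P = -Q) = ∅ := by
        ext P
        rw [Finset.mem_filter, hM]
        constructor
        · rintro ⟨h2, rfl | rfl⟩
          · exact absurd (h1.symm.trans h2) h
          · rw [hneg, h1, neg_neg] at h2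
            exact absurd h2.symm h
        · intro h2
          exact absurd h2 (Finset.notMem_empty _)
      rw [e1, e2, Finset.card_pair h, Finset.card_empty]
    · have e1 : sP.filter (fun P => P = Q ∨ P = -Q) = ∅ := by
        ext P
        rw [Finset.mem_filter, hP]
        constructor
        · rintro ⟨h2, rfl | rfl⟩
          · exact absurd (h2.symm.trans h1) h
          · rw [hneg, h1, neg_neg] at h2
            exact absurd h2 h
        · intro h2
          exact absurd h2 (Finset.notMem_empty _)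
      have e2 : sM.filter (fun P => P = Q ∨ P = -Q) = {Q, -Q} := by
        ext P
        rw [Finset.mem_filter, hM, Finset.mem_insert, Finset.mem_singleton]
        constructor
        · rintro ⟨-, h2⟩
          exact h2
        · rintro (rfl | rfl)
          · exact ⟨h1, Or.inl rfl⟩
          · exact ⟨by rw [hneg, h1], Or.inr rfl⟩
      rw [e1, e2, Finset.card_pair h, Finset.card_empty]

end Pair

section CountBoth

variable (W : WeierstrassCurve ℤ) (k : Type) [Field k] [DecidableEq k] (ℓ : ℕ) [Fact ℓ.Prime]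
  [CharP k ℓ]

variable {W k} in
/-- the `x`-coordinate of a point -/
def xOpt : PtK W k → Option k
  | .zero => none
  | .some x _ _ => some x

variable {W k}

omit [DecidableEq k] in
theorem xOpt_eq_none_iff (Q : PtK W k) : xOpt Q = none ↔ Q = Point.zero := by
  cases Q with
  | zero => exact ⟨fun _ => rfl, fun _ => rfl⟩
  | some x y h => exact ⟨fun h' => by simp [xOpt] at h', fun h' => by simp at h'⟩

omit [DecidableEq k] in
theorem xOpt_eq_some_iff {x y : k} (h : (W.map (Int.castRingHom k)).toAffine.Nonsingular x y)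
    (Q : PtK W k) : xOpt Q = some x ↔ Q = Point.some x y h ∨ Q = -Point.some x y h := by
  cases Q with
  | zero =>
    constructor
    · intro h'
      simp [xOpt] at h'
    · rintro (h' | h')
      · simp at h'
      · rw [Point.neg_some] at h'
        simp at h'
  | some x' y' h' =>
    rw [Point.neg_some]
    constructor
    · intro hx
      have hx' : x' = x := by simpa [xOpt] using hx
      subst hx'
      rcases Affine.Y_eq_of_X_eq h'.1 h.1 rfl with hy | hy
      · left
        subst hy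
        rfl
      · right
        subst hy
        rfl
    · rintro (hQ | hQ)
      · rw [Point.some.injEq] at hQ
        rw [xOpt, hQ.1]
      · rw [Point.some.injEq] at hQ
        rw [xOpt, hQ.1]

variable (W k)

omit [DecidableEq k] [Fact ℓ.Prime] in
theorem map_Δ_ne_zero (hgood : W.IsGoodPrimeFor ℓ) : (W.map (Int.castRingHom k)).Δ ≠ 0 := by
  rw [WeierstrassCurve.map_Δ]
  intro h
  exact hgood ((CharP.intCast_eq_zero_iff k ℓ W.Δ).mp h)

omit [DecidableEq k] [Fact ℓ.Prime] in
/-- Over an algebraically closed field every `x` is the `x`-coordinate of a point. -/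
theorem exists_point [IsAlgClosed k] (hgood : W.IsGoodPrimeFor ℓ) (x : k) :
    ∃ y : k, (W.map (Int.castRingHom k)).toAffine.Nonsingular x y := by
  set Wk := W.map (Int.castRingHom k) with hWk
  let q : Polynomial k := Polynomial.X ^ 2 + Polynomial.C (Wk.a₁ * x + Wk.a₃) * Polynomial.X -
    Polynomial.C (x ^ 3 + Wk.a₂ * x ^ 2 + Wk.a₄ * x + Wk.a₆)
  have hdeg : q.degree = 2 := by
    have h1 : (Polynomial.C (Wk.a₁ * x + Wk.a₃) * Polynomial.X -
        Polynomial.C (x ^ 3 + Wk.a₂ * x ^ 2 + Wk.a₄ * x + Wk.a₆) : Polynomial k).degree < 2 := by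
      refine lt_of_le_of_lt (Polynomial.degree_sub_le _ _) (max_lt ?_ ?_)
      · refine lt_of_le_of_lt (Polynomial.degree_C_mul_X_le _) (by norm_num)
      · refine lt_of_le_of_lt Polynomial.degree_C_le (by norm_num)
    have h2 : q = Polynomial.X ^ 2 + (Polynomial.C (Wk.a₁ * x + Wk.a₃) * Polynomial.X -
        Polynomial.C (x ^ 3 + Wk.a₂ * x ^ 2 + Wk.a₄ * x + Wk.a₆)) := by
      simp only [q]
      ring
    rw [h2, Polynomial.degree_add_eq_left_of_degree_lt]
    · exact Polynomial.degree_X_pow 2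
    · rw [Polynomial.degree_X_pow]
      exact h1
  obtain ⟨y, hy⟩ := IsAlgClosed.exists_root q (by rw [hdeg]; norm_num)
  refine ⟨y, (Affine.equation_iff_nonsingular_of_Δ_ne_zero (map_Δ_ne_zero W k ℓ hgood)).mp ?_⟩
  rw [Affine.equation_iff]
  have hy' : y ^ 2 + (Wk.a₁ * x + Wk.a₃) * y - (x ^ 3 + Wk.a₂ * x ^ 2 + Wk.a₄ * x + Wk.a₆) = 0 := by
    have := hy
    simp only [q, Polynomial.IsRoot, Polynomial.eval_sub, Polynomial.eval_add,
      Polynomial.eval_pow, Polynomial.eval_X, Polynomial.eval_mul, Polynomial.eval_C] at this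
    exact this
  linear_combination hy'

theorem xOpt_frobPt (Q : PtK W k) : xOpt (frobPt W k ℓ Q) = (xOpt Q).map (· ^ ℓ) := by
  cases Q with
  | zero => rfl
  | some x y h => rfl

/-- Every fibre of the `x`-coordinate over the prime field (and over `∞`) is of the form
`{Q, -Q}` with `φ Q = ± Q`. -/
theorem exists_fibre [IsAlgClosed k] (hgood : W.IsGoodPrimeFor ℓ) (o : Option (ZMod ℓ)) :
    ∃ Q : PtK W k, (∀ P : PtK W k, xOpt P = o.map (iota k ℓ) ↔ P = Q ∨ P = -Q) ∧
      (frobPt W k ℓ Q = Q ∨ frobPt W k ℓ Q = -Q) := by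
  cases o with
  | none =>
    refine ⟨0, fun P => ?_, Or.inl (map_zero _)⟩
    rw [neg_zero, or_self]
    exact xOpt_eq_none_iff P
  | some a =>
    obtain ⟨y, h⟩ := exists_point W k ℓ hgood (iota k ℓ a)
    refine ⟨Point.some _ _ h, fun P => xOpt_eq_some_iff h P, ?_⟩
    rw [← xOpt_eq_some_iff h, xOpt_frobPt]
    show some ((iota k ℓ a) ^ ℓ) = some (iota k ℓ a)
    rw [iota_pow]

/-- `#S⁺ + #S⁻ = 2 ℓ + 2`. -/
theorem natCard_sPlus_add_natCard_sMinus [IsAlgClosed k] (hgood : W.IsGoodPrimeFor ℓ) :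
    Nat.card (sPlus W k ℓ) + Nat.card (sMinus W k ℓ) = 2 * ℓ + 2 := by
  classical
  have hfP : (sPlus W k ℓ : Set (PtK W k)).Finite := by
    haveI := finite_sPlus W k ℓ
    exact Set.toFinite _
  have hfM : (sMinus W k ℓ : Set (PtK W k)).Finite := by
    haveI := finite_sMinus W k ℓ
    exact Set.toFinite _
  have hcP : Nat.card (sPlus W k ℓ) = hfP.toFinset.card := by
    rw [← Set.ncard_eq_toFinset_card _ hfP]
    exact Nat.card_coe_set_eq _
  have hcM : Nat.card (sMinus W k ℓ) = hfM.toFinset.card := by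
    rw [← Set.ncard_eq_toFinset_card _ hfM]
    exact Nat.card_coe_set_eq _
  have hmP : ∀ P, P ∈ hfP.toFinset ↔ frobPt W k ℓ P = P := fun P => by
    rw [Set.Finite.mem_toFinset, SetLike.mem_coe, mem_sPlus]
  have hmM : ∀ P, P ∈ hfM.toFinset ↔ frobPt W k ℓ P = -P := fun P => by
    rw [Set.Finite.mem_toFinset, SetLike.mem_coe, mem_sMinus]
  -- the index set
  let I : Finset (Option k) := (Finset.univ : Finset (Option (ZMod ℓ))).image
    (Option.map (iota k ℓ))
  have hI : I.card = ℓ + 1 := by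
    rw [Finset.card_image_of_injective _ (Option.map_injective (iota_injective k ℓ)),
      Finset.card_univ, Fintype.card_option, ZMod.card]
  have hxP : ∀ P ∈ hfP.toFinset, xOpt P ∈ I := by
    intro P hP
    have h1 : IsFrobFix W k ℓ P := (isFrobFix_iff P).mpr ((hmP P).mp hP)
    cases P with
    | zero => exact Finset.mem_image.mpr ⟨none, Finset.mem_univ _, rfl⟩
    | some x y h =>
      obtain ⟨a, ha⟩ := pow_eq_self_iff.mp h1.1
      exact Finset.mem_image.mpr ⟨some a, Finset.mem_univ _, congrArg some ha⟩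
  have hxM : ∀ P ∈ hfM.toFinset, xOpt P ∈ I := by
    intro P hP
    have h1 : IsFrobAntiFix W k ℓ P := (isFrobAntiFix_iff P).mpr ((hmM P).mp hP)
    cases P with
    | zero => exact Finset.mem_image.mpr ⟨none, Finset.mem_univ _, rfl⟩
    | some x y h =>
      obtain ⟨a, ha⟩ := pow_eq_self_iff.mp h1.1
      exact Finset.mem_image.mpr ⟨some a, Finset.mem_univ _, congrArg some ha⟩
  rw [hcP, hcM, Finset.card_eq_sum_card_fiberwise hxP, Finset.card_eq_sum_card_fiberwise hxM,
    ← Finset.sum_add_distrib]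
  have hfib : ∀ o ∈ I, (hfP.toFinset.filter (fun P => xOpt P = o)).card +
      (hfM.toFinset.filter (fun P => xOpt P = o)).card = 2 := by
    intro o ho
    obtain ⟨o', -, rfl⟩ := Finset.mem_image.mp ho
    obtain ⟨Q, hQ1, hQ2⟩ := exists_fibre W k ℓ hgood o'
    have e1 : hfP.toFinset.filter (fun P => xOpt P = Option.map (iota k ℓ) o') =
        hfP.toFinset.filter (fun P => P = Q ∨ P = -Q) :=
      Finset.filter_congr fun P _ => hQ1 P
    have e2 : hfM.toFinset.filter (fun P => xOpt P = Option.map (iota k ℓ) o') =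
        hfM.toFinset.filter (fun P => P = Q ∨ P = -Q) :=
      Finset.filter_congr fun P _ => hQ1 P
    rw [e1, e2]
    exact pair_count (frobPt W k ℓ) Q hQ2 _ _ hmP hmM
  rw [Finset.sum_congr rfl hfib, Finset.sum_const, hI, smul_eq_mul]
  ring

/-- `#S⁻ = ℓ + 1 + a_ℓ`. -/
theorem natCard_sMinus_int [IsAlgClosed k] (hgood : W.IsGoodPrimeFor ℓ) :
    (Nat.card (sMinus W k ℓ) : ℤ) = (ℓ : ℤ) + 1 + W.apOfModel ℓ := by
  have h1 := natCard_sPlus_add_natCard_sMinus W k ℓ hgood
  have h2 := natCard_sPlus_int W k ℓ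
  have h3 : (Nat.card (sPlus W k ℓ) : ℤ) + (Nat.card (sMinus W k ℓ) : ℤ) = 2 * (ℓ : ℤ) + 2 := by
    exact_mod_cast h1
  linarith

end CountBoth

/-! ## Cauchy and Lagrange, and the package -/

section Final

/-- **Cauchy + Lagrange** for a finite subgroup. -/
theorem dvd_natCard_iff {B : Type*} [AddCommGroup B] (S : AddSubgroup B) [Finite S] {p : ℕ}
    (hp : p.Prime) : p ∣ Nat.card S ↔ ∃ Q : B, Q ≠ 0 ∧ p • Q = 0 ∧ Q ∈ S := by
  haveI : Fact p.Prime := ⟨hp⟩
  constructor
  · intro h
    obtain ⟨x, hx⟩ := exists_prime_addOrderOf_dvd_card' (G := S) p h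
    refine ⟨x, ?_, ?_, x.2⟩
    · intro h0
      have hx0 : x = 0 := Subtype.ext h0
      rw [hx0, addOrderOf_zero] at hx
      exact hp.one_lt.ne hx
    · have h1 : p • x = 0 := by
        rw [← hx]
        exact addOrderOf_nsmul_eq_zero x
      have h2 := congrArg Subtype.val h1
      simpa using h2
  · rintro ⟨Q, hQ0, hpQ, hQS⟩
    have h1 : addOrderOf (⟨Q, hQS⟩ : S) = p := by
      apply addOrderOf_eq_prime
      · exact Subtype.ext (by simpa using hpQ)
      · intro h
        exact hQ0 (congrArg Subtype.val h)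
    rw [← h1]
    exact addOrderOf_dvd_natCard _

/-- **[N-CNT]** (verbatim `helper78.CntStatement`). -/
theorem cnt : CntStatement := by
  intro W p ℓ hp hℓ _ hgood k _ _ _ _
  haveI : Fact ℓ.Prime := ⟨hℓ⟩
  haveI := finite_sPlus W k ℓ
  haveI := finite_sMinus W k ℓ
  constructor
  · rw [← natCard_sPlus_int W k ℓ, Int.natCast_dvd_natCast, dvd_natCard_iff _ hp]
    exact exists_congr fun Q => and_congr_right fun _ => and_congr_right fun _ =>
      mem_sPlus_iff_isFrobFix
  · rw [← natCard_sMinus_int W k ℓ hgood, Int.natCast_dvd_natCast, dvd_natCard_iff _ hp]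
    exact exists_congr fun Q => and_congr_right fun _ => and_congr_right fun _ =>
      mem_sMinus_iff_isFrobAntiFix

end Final

end Fermat.Agent.P6.helper68
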