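import Fermat.Agent.P6.helper78_NDefs
import Fermat.Agent.P6.helper38_WeakLink

/-!
# P6 / S41, module (N): the Frobenius endomorphism of `W(k)` and the card form of [N-CNT]
(helper78, sub-coordinator)

* `frobPt W k ℓ : PtK W k →+ PtK W k`: the `ℓ`-power Frobenius on points (Mathlib `Point.map`).
* `isFrobFix_iff`, `isFrobAntiFix_iff`, `isFrobImage_iff`: the predicates of `helper78_NDefs` in
  terms of `frobPt`.
* `CntCardStatement`: [N-CNT] as a statement about cardinalities; `cnt_of_card` derives the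
  consumer form `CntStatement` (Cauchy + Lagrange from `helper38_WeakLink`).
* `isRedBij_of`: the output of `RedStatement` as a `helper38.IsRedBij`.
-/

set_option autoImplicit false

open WeierstrassCurve WeierstrassCurve.Affine
open scoped WeierstrassCurve.Affine

namespace Fermat.Agent.P6.helper78

/-- The `ℓ`-power Frobenius as a `ℤ`-algebra endomorphism of a field of characteristic `ℓ`. -/
noncomputable def frobAlgHom (k : Type) [Field k] (ℓ : ℕ) [Fact ℓ.Prime] [CharP k ℓ] :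
    k →ₐ[ℤ] k :=
  (frobenius k ℓ).toIntAlgHom

lemma frobAlgHom_apply (k : Type) [Field k] (ℓ : ℕ) [Fact ℓ.Prime] [CharP k ℓ] (x : k) :
    frobAlgHom k ℓ x = x ^ ℓ := rfl

section pts

variable (W : WeierstrassCurve ℤ) (k : Type) [Field k] [DecidableEq k] (ℓ : ℕ) [Fact ℓ.Prime]
  [CharP k ℓ]

/-- The Frobenius endomorphism of the group of points of `W` over `k`. -/
noncomputable def frobPt : PtK W k →+ PtK W k :=
  Point.map (W' := W) (frobAlgHom k ℓ)

lemma frobPt_zero : frobPt W k ℓ 0 = 0 := rfl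

lemma frobPt_some {x y : k} (h : (W.map (Int.castRingHom k)).toAffine.Nonsingular x y) :
    ∃ h', frobPt W k ℓ (Point.some x y h) = Point.some (x ^ ℓ) (y ^ ℓ) h' :=
  ⟨_, rfl⟩

lemma isFrobFix_iff (Q : PtK W k) : IsFrobFix W k ℓ Q ↔ frobPt W k ℓ Q = Q := by
  cases Q with
  | zero => exact ⟨fun _ => rfl, fun _ => trivial⟩
  | some x y h =>
    obtain ⟨h', e⟩ := frobPt_some W k ℓ h
    rw [e]
    constructor
    · rintro ⟨hx, hy⟩
      simp only [Point.some.injEq]
      exact ⟨hx, hy⟩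
    · intro hQ
      simp only [Point.some.injEq] at hQ
      exact hQ

lemma isFrobAntiFix_iff (Q : PtK W k) : IsFrobAntiFix W k ℓ Q ↔ frobPt W k ℓ Q = -Q := by
  cases Q with
  | zero => exact ⟨fun _ => rfl, fun _ => trivial⟩
  | some x y h =>
    obtain ⟨h', e⟩ := frobPt_some W k ℓ h
    rw [e, Point.neg_some]
    constructor
    · rintro ⟨hx, hy⟩
      simp only [Point.some.injEq]
      exact ⟨hx, hy⟩
    · intro hQ
      simp only [Point.some.injEq] at hQ
      exact hQ

lemma isFrobImage_iff (Q Q' : PtK W k) : IsFrobImage W k ℓ Q Q' ↔ Q' = frobPt W k ℓ Q := by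
  cases Q with
  | zero => exact Iff.rfl
  | some x y h =>
    obtain ⟨h', e⟩ := frobPt_some W k ℓ h
    rw [e]
    cases Q' with
    | zero =>
      constructor
      · intro hf
        exact hf.elim
      · intro hf
        exact absurd hf.symm (Point.some_ne_zero h')
    | some x' y' h'' =>
      constructor
      · rintro ⟨hx, hy⟩
        simp only [Point.some.injEq]
        exact ⟨hx, hy⟩
      · intro hQ
        simp only [Point.some.injEq] at hQ
        exact hQ

end pts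

/-- **[N-CNT]**, card form: over an algebraically closed field `k` of characteristic `ℓ` the
Frobenius-fixed points of `W` are finite in number, `#ker(φ - 1) = ℓ + 1 - a_ℓ(W)` and
`#ker(φ - 1) + #ker(φ + 1) = 2 ℓ + 2`. -/
def CntCardStatement : Prop :=
  ∀ (W : WeierstrassCurve ℤ) (ℓ : ℕ) [Fact ℓ.Prime], ℓ ≠ 2 → W.IsGoodPrimeFor ℓ →
    ∀ (k : Type) [Field k] [DecidableEq k] [CharP k ℓ] [IsAlgClosed k],
      Finite {Q : PtK W k // frobPt W k ℓ Q = Q} ∧
      Finite {Q : PtK W k // frobPt W k ℓ Q = -Q} ∧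
      (Nat.card {Q : PtK W k // frobPt W k ℓ Q = Q} : ℤ) = (ℓ : ℤ) + 1 - W.apOfModel ℓ ∧
      Nat.card {Q : PtK W k // frobPt W k ℓ Q = Q} +
        Nat.card {Q : PtK W k // frobPt W k ℓ Q = -Q} = 2 * ℓ + 2

/-- The consumer form of [N-CNT] from the card form. -/
theorem cnt_of_card (h : CntCardStatement) : CntStatement := by
  intro W p ℓ hp hℓ hℓ2 hgood k _ _ _ _
  have : Fact ℓ.Prime := ⟨hℓ⟩
  obtain ⟨hf1, hf2, hc1, hc2⟩ := h W ℓ hℓ2 hgood k
  have hc3 : (Nat.card {Q : PtK W k // frobPt W k ℓ Q = -Q} : ℤ) =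
      (ℓ : ℤ) + 1 + W.apOfModel ℓ := by
    have : ((Nat.card {Q : PtK W k // frobPt W k ℓ Q = Q} : ℤ) +
        (Nat.card {Q : PtK W k // frobPt W k ℓ Q = -Q} : ℤ)) = 2 * (ℓ : ℤ) + 2 := by
      exact_mod_cast hc2
    linarith
  constructor
  · rw [← hc1, Int.natCast_dvd_natCast,
      Fermat.Agent.P6.helper38.dvd_natCard_subtype_fix_iff (frobPt W k ℓ) hp]
    constructor
    · rintro ⟨Q, h0, hQ, hfix⟩
      exact ⟨Q, h0, hQ, (isFrobFix_iff W k ℓ Q).mpr hfix⟩
    · rintro ⟨Q, h0, hQ, hfix⟩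
      exact ⟨Q, h0, hQ, (isFrobFix_iff W k ℓ Q).mp hfix⟩
  · rw [← hc3, Int.natCast_dvd_natCast,
      Fermat.Agent.P6.helper38.dvd_natCard_subtype_antifix_iff (frobPt W k ℓ) hp]
    constructor
    · rintro ⟨Q, h0, hQ, hfix⟩
      exact ⟨Q, h0, hQ, (isFrobAntiFix_iff W k ℓ Q).mpr hfix⟩
    · rintro ⟨Q, h0, hQ, hfix⟩
      exact ⟨Q, h0, hQ, (isFrobAntiFix_iff W k ℓ Q).mp hfix⟩

/-- The output of `RedStatement` as a `helper38.IsRedBij`. -/
theorem isRedBij_of {W : WeierstrassCurve ℤ} {p ℓ : ℕ} [Fact ℓ.Prime] {k : Type} [Field k]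
    [DecidableEq k] [CharP k ℓ] {σ : Tors W p → Tors W p} {red : Tors W p → PtK W k}
    (hinj : Function.Injective red) (h0 : red 0 = 0) (htors : ∀ P, p • red P = 0)
    (hsurj : ∀ Q : PtK W k, p • Q = 0 → ∃ P, red P = Q)
    (hfrob : ∀ P, IsFrobImage W k ℓ (red P) (red (σ P))) :
    Fermat.Agent.P6.helper38.IsRedBij p σ (frobPt W k ℓ) red :=
  { inj := hinj
    zero := h0
    tors := htors
    surj := hsurj
    comm := fun P => (isFrobImage_iff W k ℓ _ _).mp (hfrob P) }

end Fermat.Agent.P6.helper78
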