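import Fermat.Agent.P6.helper68_NCnt
import Fermat.Agent.P6.helper78_NFrob

/-!
# P6 / S41, module (N), package [N-CNT], card form (helper68, task 864)

`cntCard : Fermat.Agent.P6.helper78.CntCardStatement` (VERBATIM), from the counts of
`helper68_NCnt` (`helper78.frobPt` and `helper68.frobPt` are the same map).
-/

set_option autoImplicit false
set_option linter.style.haveILetI false

open WeierstrassCurve WeierstrassCurve.Affine

noncomputable section

namespace Fermat.Agent.P6.helper68

open Fermat.Agent.P6.helper78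

theorem frobPt_eq (W : WeierstrassCurve ℤ) (k : Type) [Field k] [DecidableEq k] (ℓ : ℕ)
    [Fact ℓ.Prime] [CharP k ℓ] : helper78.frobPt W k ℓ = helper68.frobPt W k ℓ := rfl

/-- **[N-CNT]**, card form (verbatim `helper78.CntCardStatement`). -/
theorem cntCard : CntCardStatement := by
  intro W ℓ _ _ hgood k _ _ _ _
  have e1 : {Q : PtK W k // helper78.frobPt W k ℓ Q = Q} = ↥(sPlus W k ℓ) := by
    show _ = {Q : PtK W k // Q ∈ sPlus W k ℓ}
    congr 1
    funext Q
    rw [frobPt_eq]
    exact propext mem_sPlus.symm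
  have e2 : {Q : PtK W k // helper78.frobPt W k ℓ Q = -Q} = ↥(sMinus W k ℓ) := by
    show _ = {Q : PtK W k // Q ∈ sMinus W k ℓ}
    congr 1
    funext Q
    rw [frobPt_eq]
    exact propext mem_sMinus.symm
  rw [e1, e2]
  exact ⟨finite_sPlus W k ℓ, finite_sMinus W k ℓ, natCard_sPlus_int W k ℓ,
    natCard_sPlus_add_natCard_sMinus W k ℓ hgood⟩

end Fermat.Agent.P6.helper68
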