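import Mathlib
import Fermat.Agent.P6.helper31_UnitTrick
import Fermat.Agent.P6.helper73_CentDefs
import Fermat.Agent.P6.helper73_CentCore

/-!
# P6 / S41: from centrality (Theorem A) to conjugation invariance of `p`-torsion classes (helper73)

Step (C1) of finding #1768.  Let `D` be a subgroup of `SL₂(A)` containing `Γ(N)` (e.g.
`D = Γ₀(N)[1/q]`) and let `Φ` be a function on `SL₂(A)` with values in an abelian group which is
additive on `D` and killed by `p`.  Then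

* `additive_El_eq_zero` : `Φ` vanishes on `E(pN)`;
* `additive_conj_eq` : if `Γ(pN) / E(pN)` is central (`CentralityStatement A (p * N)`), then
  `Φ (γ k γ⁻¹) = Φ k` for all `k ∈ Γ(pN)` and ALL `γ ∈ SL₂(A)`.

No hypothesis on the ring `A` is used here.
-/

set_option autoImplicit false

namespace Fermat.Agent.P6.helper73

open Matrix Fermat.Agent.P6.helper31

variable {A : Type*} [CommRing A]

lemma uMat_nsmul (n : ℕ) (x : A) : uMat (n • x) = (uMat x) ^ n := by
  induction n with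
  | zero => simp [uMat_zero]
  | succ n ih => rw [succ_nsmul, uMat_add, ih, pow_succ]

lemma Gam_mono {I J : Ideal A} (h : I ≤ J) : Gam I ≤ Gam J := by
  intro g hg
  obtain ⟨h00, h01, h10, h11⟩ := mem_Gam_iff.1 hg
  exact mem_Gam_iff.2 ⟨h h00, h h01, h h10, h h11⟩

lemma span_mul_le_right (p N : ℕ) :
    Ideal.span {(((p * N : ℕ)) : A)} ≤ Ideal.span {(N : A)} := by
  rw [Ideal.span_singleton_le_span_singleton]
  exact ⟨(p : A), by push_cast; ring⟩

section additive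

variable {F : Type*} [AddCommGroup F] {D : Subgroup (SpecialLinearGroup (Fin 2) A)}
  {Φ : SpecialLinearGroup (Fin 2) A → F}

lemma additive_one (hadd : ∀ x ∈ D, ∀ y ∈ D, Φ (x * y) = Φ x + Φ y) : Φ 1 = 0 := by
  have h := hadd 1 D.one_mem 1 D.one_mem
  rw [mul_one] at h
  have : Φ 1 + 0 = Φ 1 + Φ 1 := by rw [add_zero]; exact h
  exact (add_left_cancel this).symm

lemma additive_inv (hadd : ∀ x ∈ D, ∀ y ∈ D, Φ (x * y) = Φ x + Φ y)
    {x : SpecialLinearGroup (Fin 2) A} (hx : x ∈ D) : Φ x⁻¹ = -Φ x := by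
  have h := hadd x hx x⁻¹ (D.inv_mem hx)
  rw [mul_inv_cancel, additive_one hadd] at h
  exact eq_neg_of_add_eq_zero_right h.symm

lemma additive_pow (hadd : ∀ x ∈ D, ∀ y ∈ D, Φ (x * y) = Φ x + Φ y)
    {x : SpecialLinearGroup (Fin 2) A} (hx : x ∈ D) (n : ℕ) : Φ (x ^ n) = n • Φ x := by
  induction n with
  | zero => simp [additive_one hadd]
  | succ n ih => rw [pow_succ, hadd _ (D.pow_mem hx n) _ hx, ih, succ_nsmul]

/-- **(C1)** A function which is additive on `D ⊇ Γ(N)` and killed by `p` vanishes on `E(pN)`. -/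
theorem additive_El_eq_zero (p N : ℕ) (hD : Gam (Ideal.span {(N : A)}) ≤ D)
    (hadd : ∀ x ∈ D, ∀ y ∈ D, Φ (x * y) = Φ x + Φ y) (hp : ∀ x ∈ D, p • Φ x = 0)
    {e : SpecialLinearGroup (Fin 2) A} (he : e ∈ El (Ideal.span {(((p * N : ℕ)) : A)})) :
    Φ e = 0 := by
  have key : e ∈ D ∧ Φ e = 0 := by
    unfold El at he
    rw [Subgroup.normalClosure] at he
    induction he using Subgroup.closure_induction with
    | mem x hx =>
      obtain ⟨u, ⟨t, ht, rfl⟩, hconj⟩ := Group.mem_conjugatesOfSet_iff.1 hx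
      obtain ⟨c, rfl⟩ := isConj_iff.1 hconj
      obtain ⟨t₀, rfl⟩ := Ideal.mem_span_singleton'.1 ht
      have e1 : t₀ * (((p * N : ℕ)) : A) = p • ((N : A) * t₀) := by
        rw [nsmul_eq_mul]; push_cast; ring
      rw [e1, uMat_nsmul]
      have hu : uMat ((N : A) * t₀) ∈ Gam (Ideal.span {(N : A)}) :=
        uMat_mem_Gam_iff.2 (Ideal.mul_mem_right _ _ (Ideal.subset_span rfl))
      have hcD : c * uMat ((N : A) * t₀) * c⁻¹ ∈ D := hD ((Gam_normal _).conj_mem _ hu c)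
      have e2 : c * uMat ((N : A) * t₀) ^ p * c⁻¹ = (c * uMat ((N : A) * t₀) * c⁻¹) ^ p := by
        rw [conj_pow]
      rw [e2]
      exact ⟨D.pow_mem hcD p, by rw [additive_pow hadd hcD, hp _ hcD]⟩
    | one => exact ⟨D.one_mem, additive_one hadd⟩
    | mul x y _ _ hx hy =>
      exact ⟨D.mul_mem hx.1 hy.1, by rw [hadd _ hx.1 _ hy.1, hx.2, hy.2, add_zero]⟩
    | inv x _ hx =>
      exact ⟨D.inv_mem hx.1, by rw [additive_inv hadd hx.1, hx.2, neg_zero]⟩
  exact key.2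

/-- **Theorem A + (C1)**: conjugation invariance under ALL of `SL₂(A)` of the restriction to
`Γ(pN)` of a `p`-torsion class on `D ⊇ Γ(N)`. -/
theorem additive_conj_eq (p N : ℕ) (hC : CentralityStatement A (p * N))
    (hD : Gam (Ideal.span {(N : A)}) ≤ D)
    (hadd : ∀ x ∈ D, ∀ y ∈ D, Φ (x * y) = Φ x + Φ y) (hp : ∀ x ∈ D, p • Φ x = 0)
    (γ : SpecialLinearGroup (Fin 2) A) {k : SpecialLinearGroup (Fin 2) A}
    (hk : k ∈ Gam (Ideal.span {(((p * N : ℕ)) : A)})) : Φ (γ * k * γ⁻¹) = Φ k := by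
  have hE := hC γ k hk
  have hGD : Gam (Ideal.span {(((p * N : ℕ)) : A)}) ≤ D :=
    (Gam_mono (span_mul_le_right p N)).trans hD
  have e : γ * k * γ⁻¹ = (γ * k * γ⁻¹ * k⁻¹) * k := by group
  rw [e, hadd _ (hGD (El_le_Gam hE)) _ (hGD hk), additive_El_eq_zero p N hD hadd hp hE, zero_add]

end additive

/-- Version for a homomorphism `φ : D →* Multiplicative F`. -/
theorem hom_conj_eq {F : Type*} [AddCommGroup F] {D : Subgroup (SpecialLinearGroup (Fin 2) A)}
    (p N : ℕ) (hC : CentralityStatement A (p * N)) (hD : Gam (Ideal.span {(N : A)}) ≤ D)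
    (φ : D →* Multiplicative F) (hp : ∀ x : D, p • Multiplicative.toAdd (φ x) = 0)
    (γ : SpecialLinearGroup (Fin 2) A) {k : SpecialLinearGroup (Fin 2) A}
    (hk : k ∈ Gam (Ideal.span {(((p * N : ℕ)) : A)}))
    (hkD : k ∈ D) (hγk : γ * k * γ⁻¹ ∈ D) :
    φ ⟨γ * k * γ⁻¹, hγk⟩ = φ ⟨k, hkD⟩ := by
  classical
  let Φ : SpecialLinearGroup (Fin 2) A → F := fun x =>
    if hx : x ∈ D then Multiplicative.toAdd (φ ⟨x, hx⟩) else 0
  have hΦ : ∀ x (hx : x ∈ D), Φ x = Multiplicative.toAdd (φ ⟨x, hx⟩) := fun x hx => dif_pos hx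
  have hadd : ∀ x ∈ D, ∀ y ∈ D, Φ (x * y) = Φ x + Φ y := by
    intro x hx y hy
    rw [hΦ _ (D.mul_mem hx hy), hΦ _ hx, hΦ _ hy, ← toAdd_mul, ← map_mul]
    rfl
  have hp' : ∀ x ∈ D, p • Φ x = 0 := fun x hx => by rw [hΦ _ hx]; exact hp ⟨x, hx⟩
  have h := additive_conj_eq p N hC hD hadd hp' γ hk
  rw [hΦ _ hγk, hΦ _ hkD] at h
  exact Multiplicative.toAdd.injective h

end Fermat.Agent.P6.helper73
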