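import Fermat.Agent.P6.helper78_VC
import Fermat.Agent.P6.helper78_TorsionCard
import Fermat.Agent.P6.helper38_NWL
import Fermat.Agent.P6.helper68_NCnt
import Fermat.Agent.P6.helper65_NRed
import Fermat.Agent.P6.helper31_NCheb
import Fermat.Agent.P6.helper40_NonEisGT
import Fermat.Agent.S54.helper91_Frobenius

/-!
# P6 / S41, module (N): assembly (helper78, sub-coordinator)

* `wlStatement : WLStatement`, `chebFix : ChebFixStatement` (wiring of the landed leaves);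
* `nonEisW : NonEisWStatement`, `nonEis : NonEisStatement`: for an integral model `W` of an
  elliptic curve `E / ℚ` with `E[p]` irreducible (`p` odd) and every `m > 0` there is a prime
  `ℓ ≡ 1 mod m`, good for `W`, with `a_ℓ(W) ≢ 1 + ℓ mod p`.
-/

set_option autoImplicit false
set_option linter.unusedSectionVars false

open WeierstrassCurve WeierstrassCurve.Affine
open scoped WeierstrassCurve.Affine

namespace Fermat.Agent.P6.helper78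

/-- **[N-WL]**, unconditional. -/
theorem wlStatement : WLStatement :=
  Fermat.Agent.P6.helper38.wl Fermat.Agent.P6.helper68.cnt Fermat.Agent.P6.helper65.red

lemma map_Δ_ne_zero {W : WeierstrassCurve ℤ} (hΔ : W.Δ ≠ 0) :
    (W.map (Int.castRingHom ℚ)).Δ ≠ 0 := by
  rw [WeierstrassCurve.map_Δ]
  simpa using hΔ

lemma isGood_of_gt {W : WeierstrassCurve ℤ} (hΔ : W.Δ ≠ 0) {ℓ : ℕ} (h : W.Δ.natAbs < ℓ) :
    W.IsGoodPrimeFor ℓ := by
  intro hdvd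
  have h1 : ℓ ∣ W.Δ.natAbs := Int.natCast_dvd.1 hdvd
  have h2 : ℓ ≤ W.Δ.natAbs := Nat.le_of_dvd (Int.natAbs_pos.2 hΔ) h1
  omega

lemma isGood_of_notMem {W : WeierstrassCurve ℤ} (hΔ : W.Δ ≠ 0) {ℓ : ℕ} (hℓ : ℓ.Prime)
    (h : ℓ ∉ W.Δ.natAbs.primeFactors) : W.IsGoodPrimeFor ℓ := by
  intro hdvd
  apply h
  rw [Nat.mem_primeFactors]
  exact ⟨hℓ, Int.natCast_dvd.1 hdvd, Int.natAbs_ne_zero.2 hΔ⟩

/-- **[N-CHEB]**, verbatim. -/
theorem chebFix : ChebFixStatement := by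
  intro W p m hp hp2 hΔ hm hfrob τ hτ
  have hfin : Finite (Tors W p) := by
    apply Nat.finite_of_card_ne_zero
    rw [show Nat.card (Tors W p) = p ^ 2 from
      card_torsionBy_Qbar _ (map_Δ_ne_zero hΔ) hp.one_le]
    exact pow_ne_zero 2 hp.ne_zero
  exact Fermat.Agent.P6.helper31.exists_fixed_of_frobenius (W.map (Int.castRingHom ℚ)) p
    hm.ne' W.Δ.natAbs.primeFactors
    (fun ℓ hℓ hℓB hℓ1 A hA σ hσ => hfrob ℓ hℓ hℓ1 (isGood_of_notMem hΔ hℓ hℓB) A hA σ hσ) τ hτ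

section main

variable (W : WeierstrassCurve ℤ) (p : ℕ)

/-- If `σ ^ 2` fixes a nonzero point of `E[p]` then `σ` fixes or negates a nonzero point. -/
lemma hasFix_or_hasAntiFix_of_sq {σ : NGQ} (h : HasFix W p (σ ^ 2)) :
    HasFix W p σ ∨ HasAntiFix W p σ := by
  obtain ⟨P, hP0, hP⟩ := h
  by_cases hQ : σ • P + P = 0
  · right
    exact ⟨P, hP0, eq_neg_of_add_eq_zero_left hQ⟩
  · left
    refine ⟨σ • P + P, hQ, ?_⟩
    rw [smul_add, ← mul_smul, ← pow_two, hP, add_comm]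

/-- A point of `E[p]`, `p` odd, which is both fixed and negated is zero. -/
lemma eq_zero_of_fix_of_antiFix (hp : p.Prime) (hp2 : p ≠ 2) {σ : NGQ} {P : Tors W p}
    (h1 : σ • P = P) (h2 : σ • P = -P) : P = 0 := by
  have h3 : P = -P := h1.symm.trans h2
  have h4 : (2 : ℤ) • P = 0 := by
    rw [two_smul]
    nth_rewrite 1 [h3]
    exact neg_add_cancel P
  have h5 : (p : ℤ) • P = 0 := by
    apply Subtype.ext
    have := P.2
    rw [Submodule.mem_torsionBy_iff] at this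
    exact this
  have hcop : IsCoprime (2 : ℤ) (p : ℤ) := by
    have : Nat.Coprime 2 p := (Nat.coprime_primes Nat.prime_two hp).mpr (Ne.symm hp2)
    exact_mod_cast Nat.isCoprime_iff_coprime.mpr this
  obtain ⟨a, b, hab⟩ := hcop
  calc P = (1 : ℤ) • P := (one_smul ℤ P).symm
    _ = (a * 2 + b * p) • P := by rw [hab]
    _ = 0 := by rw [add_smul, mul_smul, mul_smul, h4, h5, smul_zero, smul_zero, add_zero]

lemma finrank_tors (hp : p.Prime) (hΔ : W.Δ ≠ 0) :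
    Module.finrank (ZMod p) (Tors W p) = 2 := by
  haveI : Fact p.Prime := ⟨hp⟩
  have hcard : Nat.card (Tors W p) = p ^ 2 :=
    card_torsionBy_Qbar _ (map_Δ_ne_zero hΔ) hp.one_le
  haveI hfin : Finite (Tors W p) :=
    Nat.finite_of_card_ne_zero (hcard ▸ pow_ne_zero 2 hp.ne_zero)
  have h := Module.natCard_eq_pow_finrank (K := ZMod p) (V := Tors W p)
  rw [hcard, Nat.card_zmod] at h
  exact (Nat.pow_right_injective hp.two_le h).symm

end main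

/-- **[N-ASM]**, integral-model form. -/
theorem nonEisW : NonEisWStatement := by
  intro W p hp hp2 hΔ hirr m hm
  by_contra hcon
  push_neg at hcon
  have hm' : 0 < 2 * p * m := by
    have := hp.pos
    positivity
  have hWL := wlStatement
  -- Claim A: all Frobenius elements at good primes `≡ 1 mod 2pm` fix a nonzero point
  have hA : ∀ ℓ : ℕ, ℓ.Prime → ℓ ≡ 1 [MOD 2 * p * m] → W.IsGoodPrimeFor ℓ →
      ∀ A : ValuationSubring NQbar, A.LiesOverPrime ℓ →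
      ∀ σ : NGQ, A.IsFrobeniusAt σ ℓ → HasFix W p σ := by
    intro ℓ hℓ hℓ1 hgood A hA σ hσ
    have h1m : ℓ ≡ 1 [MOD m] := hℓ1.of_dvd ⟨2 * p, by ring⟩
    have h12 : ℓ ≡ 1 [MOD 2] := hℓ1.of_dvd ⟨p * m, by ring⟩
    have h1p : ℓ ≡ 1 [MOD p] := hℓ1.of_dvd ⟨2 * m, by ring⟩
    have hℓ2 : ℓ ≠ 2 := by
      rintro rfl
      exact absurd h12 (by decide)
    have hℓp : ℓ ≠ p := by
      rintro rfl
      have h0 : ℓ ≡ 0 [MOD ℓ] := (Nat.modEq_zero_iff_dvd).2 dvd_rfl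
      have h2 : ℓ ∣ 1 := (Nat.modEq_zero_iff_dvd).1 (h1p.symm.trans h0)
      exact hℓ.one_lt.ne' (Nat.dvd_one.1 h2)
    have hndvd : ¬ ℓ ∣ m := by
      intro hd
      have h0 : ℓ ≡ 0 [MOD ℓ] := (Nat.modEq_zero_iff_dvd).2 dvd_rfl
      have h2 : ℓ ∣ 1 := (Nat.modEq_zero_iff_dvd).1 ((h1m.of_dvd hd).symm.trans h0)
      exact hℓ.one_lt.ne' (Nat.dvd_one.1 h2)
    have h := hcon ℓ hℓ h1m hndvd hgood
    refine ((hWL W p ℓ hp hp2 hℓ hℓ2 hℓp hgood A hA σ hσ).1).mp ?_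
    have e : (ℓ : ℤ) + 1 - W.apOfModel ℓ = -(W.apOfModel ℓ - (1 + (ℓ : ℤ))) := by ring
    rw [e]
    exact (dvd_neg).mpr h
  -- Claim B
  have hB := chebFix W p (2 * p * m) hp hp2 hΔ hm' hA
  -- a good prime `ℓ₀ ≡ -1 mod 2pm`
  obtain ⟨ℓ₀, hgt, hℓ₀, hmod⟩ := Nat.forall_exists_prime_gt_and_zmodEq W.Δ.natAbs
    (q := 2 * p * m) (a := -1) hm'.ne' (isCoprime_one_left.neg_left)
  have hgood : W.IsGoodPrimeFor ℓ₀ := isGood_of_gt hΔ hgt
  have hdvdZ : ((2 * p * m : ℕ) : ℤ) ∣ (ℓ₀ : ℤ) + 1 := by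
    have := (Int.modEq_iff_dvd.1 hmod.symm)
    simpa using this
  have hdvd : 2 * p * m ∣ ℓ₀ + 1 := by exact_mod_cast hdvdZ
  have hpdvd : (p : ℤ) ∣ (ℓ₀ : ℤ) + 1 := by
    have : p ∣ ℓ₀ + 1 := Dvd.dvd.trans ⟨2 * m, by ring⟩ hdvd
    exact_mod_cast this
  have h2dvd : 2 ∣ ℓ₀ + 1 := Dvd.dvd.trans ⟨p * m, by ring⟩ hdvd
  have hℓ₀2 : ℓ₀ ≠ 2 := by
    rintro rfl
    omega
  have hℓ₀p : ℓ₀ ≠ p := by
    rintro rfl
    have : ℓ₀ ∣ ℓ₀ + 1 := Dvd.dvd.trans ⟨2 * m, by ring⟩ hdvd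
    have h1 : ℓ₀ ∣ 1 := (Nat.dvd_add_right dvd_rfl).1 this
    exact hℓ₀.one_lt.ne' (Nat.dvd_one.1 h1)
  have hℓ₀m : ¬ ℓ₀ ∣ 2 * p * m := by
    intro hd
    have : ℓ₀ ∣ ℓ₀ + 1 := hd.trans hdvd
    have h1 : ℓ₀ ∣ 1 := (Nat.dvd_add_right dvd_rfl).1 this
    exact hℓ₀.one_lt.ne' (Nat.dvd_one.1 h1)
  obtain ⟨A₀, hA₀⟩ := Fermat.Agent.S54.helper91.exists_valuationSubring_liesOver hℓ₀
  obtain ⟨σ₀, hσ₀⟩ := Fermat.Agent.S54.helper91.exists_isFrobeniusAt_of_liesOver A₀ hℓ₀ hA₀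
  obtain ⟨hplus, hminus⟩ := hWL W p ℓ₀ hp hp2 hℓ₀ hℓ₀2 hℓ₀p hgood A₀ hA₀ σ₀ hσ₀
  have hiff : (p : ℤ) ∣ (ℓ₀ : ℤ) + 1 - W.apOfModel ℓ₀ ↔
      (p : ℤ) ∣ (ℓ₀ : ℤ) + 1 + W.apOfModel ℓ₀ := by
    constructor
    · intro h
      have : (ℓ₀ : ℤ) + 1 + W.apOfModel ℓ₀ =
          2 * ((ℓ₀ : ℤ) + 1) - ((ℓ₀ : ℤ) + 1 - W.apOfModel ℓ₀) := by ring
      rw [this]
      exact dvd_sub (Dvd.dvd.mul_left hpdvd 2) h
    · intro h
      have : (ℓ₀ : ℤ) + 1 - W.apOfModel ℓ₀ =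
          2 * ((ℓ₀ : ℤ) + 1) - ((ℓ₀ : ℤ) + 1 + W.apOfModel ℓ₀) := by ring
      rw [this]
      exact dvd_sub (Dvd.dvd.mul_left hpdvd 2) h
  -- (c) `σ₀` fixes a nonzero point
  have hc : HasFix W p σ₀ := by
    by_contra hno
    have h1 : ¬ (p : ℤ) ∣ (ℓ₀ : ℤ) + 1 - W.apOfModel ℓ₀ := fun h => hno (hplus.mp h)
    have h3 : ¬ HasAntiFix W p σ₀ := fun h => h1 (hiff.mpr (hminus.mpr h))
    have hsq : σ₀ ^ 2 ∈ Fermat.Agent.P6.helper31.fixRoots (2 * p * m) :=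
      Fermat.Agent.P6.helper31.frobenius_sq_mem_fixRoots hℓ₀ hℓ₀m hdvd hA₀ hσ₀
    rcases hasFix_or_hasAntiFix_of_sq W p (hB (σ₀ ^ 2) hsq) with h | h
    · exact hno h
    · exact h3 h
  -- (b) `σ₀` acts non-trivially
  have hb : ∃ P : Tors W p, σ₀ • P ≠ P := by
    by_contra hall
    push_neg at hall
    obtain ⟨P, hP0, hP⟩ := hminus.mp (hiff.mp (hplus.mpr hc))
    exact hP0 (eq_zero_of_fix_of_antiFix W p hp hp2 (hall P) hP)
  -- group theory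
  haveI : Fact p.Prime := ⟨hp⟩
  obtain ⟨Pc, hPc0, hPc⟩ := hc
  obtain ⟨Pb, hPb⟩ := hb
  set ρ := Point.galoisRepModuleEnd (S := ℚ) (K := AlgebraicClosure ℚ)
    (W.map (Int.castRingHom ℚ)) p with hρ
  have hc1 : ρ σ₀ ≠ 1 := by
    intro h
    apply hPb
    have := congrArg (fun f : Module.End (ZMod p) (Tors W p) => f Pb) h
    exact this
  obtain ⟨h, hh, hhfix⟩ := Fermat.Agent.P6.helper40.exists_no_fixed_vector ρ
    (finrank_tors W p hp hΔ)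
    (fun N hN => hirr.2 N (fun σ x hx => hN σ x hx)) σ₀ hc1 ⟨Pc, hPc0, hPc⟩
    (Fermat.Agent.P6.helper31.fixRoots (2 * p * m))
    (Fermat.Agent.P6.helper31.fixRoots_normal _)
    (Fermat.Agent.P6.helper31.commutator_mem_fixRoots hm'.ne')
  obtain ⟨P, hP0, hP⟩ := hB h hh
  exact hP0 (hhfix P hP)

/-- **(N)**, the deliverable (shape of `helper78_NDefs`). -/
theorem nonEis : NonEisStatement := nonEis_of vc nonEisW

end Fermat.Agent.P6.helper78
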