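import Fermat.Agent.P6.helper78_VarChange
import Fermat.Agent.P6.helper78_NDefs

/-!
# P6 / S41 [N-VC]: transport of the irreducibility of `E[p]` to an integral model (helper78)

`vc : VCStatement`: if `W` is an integral model of `E` (i.e. `C • E = W_ℚ` for a change of
variables `C` over `ℚ`) and `E[p]` is irreducible, then `W.Δ ≠ 0` and `W.ModRepIsIrreducible p`.
-/

set_option autoImplicit false
set_option linter.unusedSectionVars false

open WeierstrassCurve WeierstrassCurve.Affine WeierstrassCurve.Affine.Point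
open scoped WeierstrassCurve.Affine

namespace Fermat.Agent.P6.helper78

section transport

variable {E W' : WeierstrassCurve ℚ} {C : VariableChange ℚ}

lemma baseChange_vc (hC : C • E = W') :
    (C.baseChange (AlgebraicClosure ℚ)) • (E⁄(AlgebraicClosure ℚ)) =
      (W'⁄(AlgebraicClosure ℚ)) := by
  rw [← hC]
  exact WeierstrassCurve.map_variableChange E C (algebraMap ℚ (AlgebraicClosure ℚ))

/-- The Galois-equivariant isomorphism `W'(ℚ̄) ≃+ E(ℚ̄)`. -/
noncomputable def vcQbar (hC : C • E = W') :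
    (W'⁄(AlgebraicClosure ℚ)).Point ≃+ (E⁄(AlgebraicClosure ℚ)).Point :=
  vcEquiv (baseChange_vc hC)

lemma vcQbar_smul (hC : C • E = W') (σ : AlgebraicClosure ℚ ≃ₐ[ℚ] AlgebraicClosure ℚ)
    (P : (W'⁄(AlgebraicClosure ℚ)).Point) :
    vcQbar hC (σ • P) = σ • vcQbar hC P := by
  rcases P with _ | ⟨x, y, h⟩
  · rfl
  · rw [algEquiv_smul_def, algEquiv_smul_def]
    show vcPt (baseChange_vc hC) (Point.map σ.toAlgHom (Point.some x y h)) =
      Point.map σ.toAlgHom (vcPt (baseChange_vc hC) (Point.some x y h))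
    rw [Point.map_some, vcPt_some, vcPt_some, Point.map_some]
    simp only [Point.some.injEq]
    constructor
    · simp only [vcX, VariableChange.baseChange, VariableChange.map, Units.coe_map,
        MonoidHom.coe_coe, map_add, map_mul, map_pow, AlgHom.commutes]
    · simp only [vcY, VariableChange.baseChange, VariableChange.map, Units.coe_map,
        MonoidHom.coe_coe, map_add, map_mul, map_pow, AlgHom.commutes]

/-- The restriction of `vcQbar` to `p`-torsion. -/
noncomputable def vcTors (hC : C • E = W') (p : ℕ) :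
    Submodule.torsionBy ℤ (W'⁄(AlgebraicClosure ℚ)).Point p →+
      Submodule.torsionBy ℤ (E⁄(AlgebraicClosure ℚ)).Point p where
  toFun P := ⟨vcQbar hC P.1, by
    have h := P.2
    rw [Submodule.mem_torsionBy_iff] at h ⊢
    rw [← map_zsmul, h, _root_.map_zero]⟩
  map_zero' := Subtype.ext (_root_.map_zero _)
  map_add' P Q := Subtype.ext (_root_.map_add _ _ _)

lemma vcTors_coe (hC : C • E = W') (p : ℕ)
    (P : Submodule.torsionBy ℤ (W'⁄(AlgebraicClosure ℚ)).Point p) :
    ((vcTors hC p P : Submodule.torsionBy ℤ (E⁄(AlgebraicClosure ℚ)).Point p) :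
      (E⁄(AlgebraicClosure ℚ)).Point) = vcQbar hC P.1 := rfl

lemma vcTors_injective (hC : C • E = W') (p : ℕ) : Function.Injective (vcTors hC p) := by
  intro P Q h
  apply Subtype.ext
  have := congrArg Subtype.val h
  rw [vcTors_coe, vcTors_coe] at this
  exact (vcQbar hC).injective this

lemma vcTors_surjective (hC : C • E = W') (p : ℕ) : Function.Surjective (vcTors hC p) := by
  rintro ⟨Q, hQ⟩
  obtain ⟨P, rfl⟩ := (vcQbar hC).surjective Q
  refine ⟨⟨P, ?_⟩, rfl⟩
  rw [Submodule.mem_torsionBy_iff] at hQ ⊢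
  apply (vcQbar hC).injective
  rw [map_zsmul, hQ, _root_.map_zero]

lemma vcTors_smul (hC : C • E = W') (p : ℕ)
    (σ : AlgebraicClosure ℚ ≃ₐ[ℚ] AlgebraicClosure ℚ)
    (P : Submodule.torsionBy ℤ (W'⁄(AlgebraicClosure ℚ)).Point p) :
    vcTors hC p (σ • P) = σ • vcTors hC p P :=
  Subtype.ext (vcQbar_smul hC σ P.1)

/-- Transport of irreducibility along a change of variables over `ℚ`. -/
theorem galoisRepIsIrreducible_of_vc (hC : C • E = W') (p : ℕ)
    (hirr : GaloisRepIsIrreducible (K := AlgebraicClosure ℚ) ℚ E p) :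
    GaloisRepIsIrreducible (K := AlgebraicClosure ℚ) ℚ W' p := by
  obtain ⟨hnt, hN⟩ := hirr
  refine ⟨?_, ?_⟩
  · obtain ⟨a, b, hab⟩ := hnt
    obtain ⟨a', rfl⟩ := vcTors_surjective hC p a
    obtain ⟨b', rfl⟩ := vcTors_surjective hC p b
    exact ⟨⟨a', b', fun h => hab (by rw [h])⟩⟩
  · intro N hNst
    -- the image submodule
    let N₁ : Submodule (ZMod p) (Submodule.torsionBy ℤ (E⁄(AlgebraicClosure ℚ)).Point p) :=
      AddSubgroup.toZModSubmodule p (N.toAddSubgroup.map (vcTors hC p))
    have hmem : ∀ x, x ∈ N₁ ↔ ∃ y ∈ N, vcTors hC p y = x := by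
      intro x
      show x ∈ N.toAddSubgroup.map (vcTors hC p) ↔ _
      rw [AddSubgroup.mem_map]
      rfl
    have hst : IsGaloisStable ℚ N₁ := by
      intro σ x hx
      obtain ⟨y, hy, rfl⟩ := (hmem x).mp hx
      exact (hmem _).mpr ⟨σ • y, hNst σ y hy, vcTors_smul hC p σ y⟩
    rcases hN N₁ hst with h | h
    · left
      rw [Submodule.eq_bot_iff]
      intro y hy
      have : vcTors hC p y ∈ N₁ := (hmem _).mpr ⟨y, hy, rfl⟩
      rw [h, Submodule.mem_bot] at this
      exact vcTors_injective hC p (this.trans (_root_.map_zero _).symm)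
    · right
      rw [Submodule.eq_top_iff']
      intro y
      have : vcTors hC p y ∈ N₁ := by rw [h]; exact Submodule.mem_top
      obtain ⟨y', hy', hyy⟩ := (hmem _).mp this
      rw [← vcTors_injective hC p hyy]
      exact hy'

end transport

/-- **[N-VC]** -/
theorem vc : VCStatement := by
  intro E _ W p hW hirr
  obtain ⟨C, hC⟩ := hW
  refine ⟨?_, ?_⟩
  · intro h0
    have h1 : (W.map (Int.castRingHom ℚ)).Δ = 0 := by
      rw [WeierstrassCurve.map_Δ, h0, _root_.map_zero]
    rw [← hC, variableChange_Δ] at h1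
    have hE : E.Δ ≠ 0 := by
      rw [← E.coe_Δ']
      exact E.Δ'.ne_zero
    rcases mul_eq_zero.mp h1 with h2 | h2
    · exact (pow_ne_zero 12 (Units.ne_zero _)) h2
    · exact hE h2
  · exact galoisRepIsIrreducible_of_vc hC p hirr

end Fermat.Agent.P6.helper78
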