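import Mathlib

/-!
# The group isomorphism on points induced by a change of variables (helper78, P6 / S41 [N-VC])

For Weierstrass curves `W₁, W₂` over a field `K` with `C • W₁ = W₂` the map
`(x, y) ↦ (u² x + r, u³ y + u² s x + t)` is an isomorphism of groups `W₂(K) ≃ W₁(K)`.
-/

set_option autoImplicit false
set_option linter.unusedSectionVars false

open WeierstrassCurve WeierstrassCurve.Affine

namespace Fermat.Agent.P6.helper78

section formulas

variable {K : Type*} [Field K] (W : Affine K) (C : VariableChange K)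

/-- The x-coordinate of the image of `(x, y)` under the change of variables. -/
def vcX (x : K) : K := (C.u : K) ^ 2 * x + C.r

/-- The y-coordinate of the image of `(x, y)` under the change of variables. -/
def vcY (x y : K) : K := (C.u : K) ^ 3 * y + (C.u : K) ^ 2 * C.s * x + C.t

lemma vcX_injective : Function.Injective (vcX C) := by
  intro x x' h
  have hu : (C.u : K) ≠ 0 := C.u.ne_zero
  simp only [vcX] at h
  have : (C.u : K) ^ 2 * x = (C.u : K) ^ 2 * x' := by linear_combination h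
  exact mul_left_cancel₀ (pow_ne_zero 2 hu) this

lemma vcY_injective (x : K) : Function.Injective (vcY C x) := by
  intro y y' h
  have hu : (C.u : K) ≠ 0 := C.u.ne_zero
  simp only [vcY] at h
  have : (C.u : K) ^ 3 * y = (C.u : K) ^ 3 * y' := by linear_combination h
  exact mul_left_cancel₀ (pow_ne_zero 3 hu) this

lemma vc_a₁ : (C • W).a₁ = (C.u : K)⁻¹ * (W.a₁ + 2 * C.s) := by
  rw [variableChange_a₁, Units.val_inv_eq_inv_val]

lemma vc_a₂ : (C • W).a₂ = ((C.u : K)⁻¹) ^ 2 * (W.a₂ - C.s * W.a₁ + 3 * C.r - C.s ^ 2) := by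
  rw [variableChange_a₂, Units.val_inv_eq_inv_val]

lemma vc_a₃ : (C • W).a₃ = ((C.u : K)⁻¹) ^ 3 * (W.a₃ + C.r * W.a₁ + 2 * C.t) := by
  rw [variableChange_a₃, Units.val_inv_eq_inv_val]

lemma vc_a₄ : (C • W).a₄ = ((C.u : K)⁻¹) ^ 4 *
    (W.a₄ - C.s * W.a₃ + 2 * C.r * W.a₂ - (C.t + C.r * C.s) * W.a₁ + 3 * C.r ^ 2
      - 2 * C.s * C.t) := by
  rw [variableChange_a₄, Units.val_inv_eq_inv_val]

lemma vc_a₆ : (C • W).a₆ = ((C.u : K)⁻¹) ^ 6 *
    (W.a₆ + C.r * W.a₄ + C.r ^ 2 * W.a₂ + C.r ^ 3 - C.t * W.a₃ - C.t ^ 2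
      - C.r * C.t * W.a₁) := by
  rw [variableChange_a₆, Units.val_inv_eq_inv_val]

lemma vc_equation (x y : K) :
    (C • W).toAffine.Equation x y ↔ W.Equation (vcX C x) (vcY C x y) := by
  have hu : (C.u : K) ≠ 0 := C.u.ne_zero
  rw [equation_iff', equation_iff', vc_a₁, vc_a₂, vc_a₃, vc_a₄, vc_a₆]
  have key : vcY C x y ^ 2 + W.a₁ * vcX C x * vcY C x y + W.a₃ * vcY C x y -
      (vcX C x ^ 3 + W.a₂ * vcX C x ^ 2 + W.a₄ * vcX C x + W.a₆) =
      (C.u : K) ^ 6 * (y ^ 2 + (C.u : K)⁻¹ * (W.a₁ + 2 * C.s) * x * y +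
        ((C.u : K)⁻¹) ^ 3 * (W.a₃ + C.r * W.a₁ + 2 * C.t) * y -
        (x ^ 3 + ((C.u : K)⁻¹) ^ 2 * (W.a₂ - C.s * W.a₁ + 3 * C.r - C.s ^ 2) * x ^ 2 +
          ((C.u : K)⁻¹) ^ 4 * (W.a₄ - C.s * W.a₃ + 2 * C.r * W.a₂ - (C.t + C.r * C.s) * W.a₁
            + 3 * C.r ^ 2 - 2 * C.s * C.t) * x +
          ((C.u : K)⁻¹) ^ 6 * (W.a₆ + C.r * W.a₄ + C.r ^ 2 * W.a₂ + C.r ^ 3 - C.t * W.a₃
            - C.t ^ 2 - C.r * C.t * W.a₁))) := by
    simp only [vcX, vcY]
    field_simp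
    ring
  rw [key, mul_eq_zero]
  constructor
  · intro h; exact Or.inr h
  · rintro (h | h)
    · exact absurd h (pow_ne_zero 6 hu)
    · exact h

lemma vc_polyY (x y : K) :
    2 * vcY C x y + W.a₁ * vcX C x + W.a₃ =
      (C.u : K) ^ 3 * (2 * y + (C • W).a₁ * x + (C • W).a₃) := by
  have hu : (C.u : K) ≠ 0 := C.u.ne_zero
  rw [vc_a₁, vc_a₃]
  simp only [vcX, vcY]
  field_simp
  ring

lemma vc_polyX (x y : K) :
    W.a₁ * vcY C x y - (3 * vcX C x ^ 2 + 2 * W.a₂ * vcX C x + W.a₄) =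
      (C.u : K) ^ 4 * ((C • W).a₁ * y - (3 * x ^ 2 + 2 * (C • W).a₂ * x + (C • W).a₄)) -
        C.s * ((C.u : K) ^ 3 * (2 * y + (C • W).a₁ * x + (C • W).a₃)) := by
  have hu : (C.u : K) ≠ 0 := C.u.ne_zero
  rw [vc_a₁, vc_a₂, vc_a₃, vc_a₄]
  simp only [vcX, vcY]
  field_simp
  ring

lemma vc_nonsingular (x y : K) :
    (C • W).toAffine.Nonsingular x y ↔ W.Nonsingular (vcX C x) (vcY C x y) := by
  have hu : (C.u : K) ≠ 0 := C.u.ne_zero
  rw [nonsingular_iff', nonsingular_iff', vc_equation, vc_polyX, vc_polyY]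
  refine and_congr Iff.rfl ?_
  constructor
  · intro h
    by_contra hcon
    rw [not_or, not_not, not_not] at hcon
    obtain ⟨h1, h2⟩ := hcon
    rw [h2, mul_zero, sub_zero] at h1
    rcases mul_eq_zero.mp h2 with h3 | h3
    · exact pow_ne_zero 3 hu h3
    rcases mul_eq_zero.mp h1 with h4 | h4
    · exact pow_ne_zero 4 hu h4
    rcases h with h | h
    · exact h h4
    · exact h h3
  · intro h
    by_contra hcon
    rw [not_or, not_not, not_not] at hcon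
    obtain ⟨h1, h2⟩ := hcon
    rcases h with h | h
    · apply h
      rw [h1, h2]
      ring
    · apply h
      rw [h2]
      ring

lemma vc_negY (x y : K) :
    W.negY (vcX C x) (vcY C x y) = vcY C x ((C • W).toAffine.negY x y) := by
  have hu : (C.u : K) ≠ 0 := C.u.ne_zero
  simp only [negY]
  rw [vc_a₁, vc_a₃]
  simp only [vcX, vcY]
  field_simp
  ring

lemma vc_addX (x₁ x₂ ℓ : K) :
    W.addX (vcX C x₁) (vcX C x₂) ((C.u : K) * ℓ + C.s) =
      vcX C ((C • W).toAffine.addX x₁ x₂ ℓ) := by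
  have hu : (C.u : K) ≠ 0 := C.u.ne_zero
  simp only [addX]
  rw [vc_a₁, vc_a₂]
  simp only [vcX]
  field_simp
  ring

lemma vc_negAddY (x₁ x₂ y₁ ℓ : K) :
    W.negAddY (vcX C x₁) (vcX C x₂) (vcY C x₁ y₁) ((C.u : K) * ℓ + C.s) =
      vcY C ((C • W).toAffine.addX x₁ x₂ ℓ) ((C • W).toAffine.negAddY x₁ x₂ y₁ ℓ) := by
  have hu : (C.u : K) ≠ 0 := C.u.ne_zero
  simp only [negAddY]
  rw [vc_addX]
  simp only [vcX, vcY]
  ring

lemma vc_addY (x₁ x₂ y₁ ℓ : K) :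
    W.addY (vcX C x₁) (vcX C x₂) (vcY C x₁ y₁) ((C.u : K) * ℓ + C.s) =
      vcY C ((C • W).toAffine.addX x₁ x₂ ℓ) ((C • W).toAffine.addY x₁ x₂ y₁ ℓ) := by
  simp only [addY]
  rw [vc_negAddY, vc_addX, vc_negY]

end formulas

section slope

variable {K : Type*} [Field K] [DecidableEq K] (W : Affine K) (C : VariableChange K)

lemma vc_slope {x₁ x₂ y₁ y₂ : K} (h₁ : (C • W).toAffine.Equation x₁ y₁)
    (h₂ : (C • W).toAffine.Equation x₂ y₂)
    (hxy : ¬(x₁ = x₂ ∧ y₁ = (C • W).toAffine.negY x₂ y₂)) :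
    W.slope (vcX C x₁) (vcX C x₂) (vcY C x₁ y₁) (vcY C x₂ y₂) =
      (C.u : K) * (C • W).toAffine.slope x₁ x₂ y₁ y₂ + C.s := by
  have hu : (C.u : K) ≠ 0 := C.u.ne_zero
  by_cases hx : x₁ = x₂
  · subst hx
    have hy : y₁ ≠ (C • W).toAffine.negY x₁ y₂ := fun h => hxy ⟨rfl, h⟩
    have hyy : y₁ = y₂ := Y_eq_of_Y_ne h₁ h₂ rfl hy
    subst hyy
    have hy' : vcY C x₁ y₁ ≠ W.negY (vcX C x₁) (vcY C x₁ y₁) := by
      rw [vc_negY]
      exact fun h => hy (vcY_injective C x₁ h)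
    rw [slope_of_Y_ne rfl hy', slope_of_Y_ne rfl hy]
    have hd' : y₁ - (C • W).toAffine.negY x₁ y₁ ≠ 0 := sub_ne_zero.mpr hy
    have hd : vcY C x₁ y₁ - W.negY (vcX C x₁) (vcY C x₁ y₁) ≠ 0 := sub_ne_zero.mpr hy'
    have e1 : vcY C x₁ y₁ - W.negY (vcX C x₁) (vcY C x₁ y₁) =
        (C.u : K) ^ 3 * (y₁ - (C • W).toAffine.negY x₁ y₁) := by
      have := vc_polyY W C x₁ y₁
      simp only [negY]
      linear_combination this
    have e2 : 3 * vcX C x₁ ^ 2 + 2 * W.a₂ * vcX C x₁ + W.a₄ - W.a₁ * vcY C x₁ y₁ =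
        (C.u : K) ^ 4 * (3 * x₁ ^ 2 + 2 * (C • W).a₂ * x₁ + (C • W).a₄ - (C • W).a₁ * y₁) +
          C.s * ((C.u : K) ^ 3 * (y₁ - (C • W).toAffine.negY x₁ y₁)) := by
      have := vc_polyX W C x₁ y₁
      simp only [negY]
      linear_combination (-1 : K) * this
    rw [e1, e2]
    field_simp
  · have hx' : vcX C x₁ ≠ vcX C x₂ := fun h => hx (vcX_injective C h)
    rw [slope_of_X_ne hx', slope_of_X_ne hx]
    have h1 : x₁ - x₂ ≠ 0 := sub_ne_zero.mpr hx
    have h2 : vcX C x₁ - vcX C x₂ ≠ 0 := sub_ne_zero.mpr hx'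
    rw [div_eq_iff h2]
    simp only [vcX, vcY]
    field_simp
    ring

end slope

section point

variable {K : Type*} [Field K] [DecidableEq K] {W₁ W₂ : Affine K} {C : VariableChange K}

/-- The map on points `W₂(K) → W₁(K)`, `(x, y) ↦ (u² x + r, u³ y + u² s x + t)`, induced by a
change of variables `C • W₁ = W₂`. -/
def vcPt (h : C • W₁ = W₂) : W₂.Point → W₁.Point
  | .zero => 0
  | .some x y hxy => .some (vcX C x) (vcY C x y) ((vc_nonsingular W₁ C x y).mp (h ▸ hxy))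

lemma vcPt_zero (h : C • W₁ = W₂) : vcPt h 0 = 0 := rfl

lemma vcPt_some (h : C • W₁ = W₂) {x y : K} (hxy : W₂.Nonsingular x y) :
    vcPt h (Point.some x y hxy) =
      Point.some (vcX C x) (vcY C x y) ((vc_nonsingular W₁ C x y).mp (h ▸ hxy)) := rfl

lemma vcPt_add (h : C • W₁ = W₂) (P Q : W₂.Point) : vcPt h (P + Q) = vcPt h P + vcPt h Q := by
  subst h
  rcases P with _ | ⟨x₁, y₁, h₁⟩
  · rw [← Point.zero_def, zero_add, vcPt_zero, zero_add]
  rcases Q with _ | ⟨x₂, y₂, h₂⟩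
  · rw [← Point.zero_def, add_zero, vcPt_zero, add_zero]
  by_cases hxy : x₁ = x₂ ∧ y₁ = (C • W₁).toAffine.negY x₂ y₂
  · rw [Point.add_of_Y_eq hxy.1 hxy.2, vcPt_zero, vcPt_some, vcPt_some,
      Point.add_of_Y_eq (congrArg _ hxy.1) (by rw [hxy.2, vc_negY, hxy.1])]
  · have hxy' : ¬(vcX C x₁ = vcX C x₂ ∧ vcY C x₁ y₁ = W₁.negY (vcX C x₂) (vcY C x₂ y₂)) := by
      rintro ⟨hx, hy⟩
      have hx' := vcX_injective C hx
      subst hx'
      rw [vc_negY] at hy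
      exact hxy ⟨rfl, vcY_injective C x₁ hy⟩
    rw [Point.add_some hxy, vcPt_some, vcPt_some, vcPt_some, Point.add_some hxy']
    simp only [Point.some.injEq]
    rw [vc_slope W₁ C h₁.1 h₂.1 hxy, vc_addX, vc_addY]
    exact ⟨rfl, rfl⟩

lemma vcPt_injective (h : C • W₁ = W₂) : Function.Injective (vcPt h) := by
  rintro (_ | ⟨x₁, y₁, h₁⟩) (_ | ⟨x₂, y₂, h₂⟩) hPQ
  · rfl
  · exact absurd hPQ.symm (Point.some_ne_zero _)
  · exact absurd hPQ (Point.some_ne_zero _)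
  · rw [vcPt_some, vcPt_some] at hPQ
    simp only [Point.some.injEq] at hPQ
    obtain ⟨hx, hy⟩ := hPQ
    have hx' := vcX_injective C hx
    subst hx'
    have hy' := vcY_injective C x₁ hy
    subst hy'
    rfl

lemma vcPt_surjective (h : C • W₁ = W₂) : Function.Surjective (vcPt h) := by
  have hu : (C.u : K) ≠ 0 := C.u.ne_zero
  rintro (_ | ⟨X, Y, hXY⟩)
  · exact ⟨0, rfl⟩
  · have hX : vcX C (((C.u : K) ^ 2)⁻¹ * (X - C.r)) = X := by
      simp only [vcX]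
      field_simp
      ring
    have hY : vcY C (((C.u : K) ^ 2)⁻¹ * (X - C.r))
        (((C.u : K) ^ 3)⁻¹ * (Y - C.s * (X - C.r) - C.t)) = Y := by
      simp only [vcY]
      field_simp
      ring
    have hns : W₂.Nonsingular (((C.u : K) ^ 2)⁻¹ * (X - C.r))
        (((C.u : K) ^ 3)⁻¹ * (Y - C.s * (X - C.r) - C.t)) := by
      subst h
      rw [vc_nonsingular, hX, hY]
      exact hXY
    refine ⟨Point.some _ _ hns, ?_⟩
    rw [vcPt_some]
    simp only [Point.some.injEq]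
    exact ⟨hX, hY⟩

/-- The group isomorphism `W₂(K) ≃+ W₁(K)` induced by a change of variables `C • W₁ = W₂`. -/
noncomputable def vcHom (h : C • W₁ = W₂) : W₂.Point →+ W₁.Point where
  toFun := vcPt h
  map_zero' := rfl
  map_add' := vcPt_add h

lemma vcHom_apply (h : C • W₁ = W₂) (P : W₂.Point) : vcHom h P = vcPt h P := rfl

/-- The group isomorphism `W₂(K) ≃+ W₁(K)` induced by a change of variables `C • W₁ = W₂`. -/
noncomputable def vcEquiv (h : C • W₁ = W₂) : W₂.Point ≃+ W₁.Point :=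
  AddEquiv.ofBijective (vcHom h) ⟨vcPt_injective h, vcPt_surjective h⟩

lemma vcEquiv_apply (h : C • W₁ = W₂) (P : W₂.Point) : vcEquiv h P = vcPt h P := rfl

end point

end Fermat.Agent.P6.helper78
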