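import Mathlib
import Fermat.Agent.P6.helper82_DTransfer
import Fermat.Agent.P6.helper38_DAdj2

/-!
# P6 / S41, module (D) duality, package [D-TRANSFER] (helper82, task 892), part 2

The two hypotheses of `helper38.adj_of` (and the Shapiro variant of `helper38.adj_of_shapiro`),
VERBATIM:

* `corPar : helper38.CorParStatement` — the transfer of a parabolic hom is parabolic;
* `pushRes : helper38.PushResStatement` — the fibre sum at `x0 Γ` of a cocycle on `G ⧸ Γ'`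
  restricting to `y` on `Γ'` is the transfer `corHom h y`;
* `pushShap : helper38.PushShapStatement` — the same for the Shapiro cocycle of `y`.

Proof of `pushRes`: Shapiro's lemma in the explicit form
`(Φ' g).f x' = y (sch Γ' g x') + F (g • x') - F x'` with `F x' = (Φ' (out x')).f (x0 Γ')`
(`cocycle_eq_sch_add_cob`); summing over the fibre `Fib h` over `x0 Γ`, on which `γ ∈ Γ` acts by
the permutation `fibPerm h γ`, the coboundary cancels and the Schreier part is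
`corHom_eq_sum_fib`.
-/

set_option autoImplicit false
set_option linter.style.haveILetI false
set_option linter.unusedSimpArgs false

open scoped MatrixGroups
open Matrix.SpecialLinearGroup ModularCurve.Period

noncomputable section

namespace Fermat.Agent.P6.helper82

open Fermat.Agent.S16.helper21 (CoGrp shapiro shapiro_f shapiro_σ)
open Fermat.Agent.S21.helper83 (x0 sch sch_mul smul_x0 smul_x0_of_mem)
open Fermat.Agent.P6.helper21 (corHom resHom IsOverC)

/-- `out x' • x0 = x'`. -/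
lemma out_smul_base (Γ : Subgroup SL(2, ℤ)) (x : SL(2, ℤ) ⧸ Γ) :
    (Quotient.out x : SL(2, ℤ)) • x0 Γ = x := by
  rw [smul_x0]
  exact QuotientGroup.out_eq' x

/-- **Shapiro's lemma, explicit form**: a cocycle over the action on `G ⧸ Γ'` whose restriction
to `Γ'` at the base coset is `y` is the Schreier cocycle of `y` plus a coboundary. -/
lemma cocycle_eq_sch_add_cob (Γ' : Subgroup SL(2, ℤ)) (y : Additive Γ' →+ ℤ)
    (Φ' : SL(2, ℤ) →* CoGrp (SL(2, ℤ) ⧸ Γ') ℤ) (hΦ' : ∀ g, (Φ' g).σ = MulAction.toPerm g)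
    (hy : ∀ γ' : Γ', (Φ' (γ' : SL(2, ℤ))).f (x0 Γ') = y (Additive.ofMul γ'))
    (g : SL(2, ℤ)) (x' : SL(2, ℤ) ⧸ Γ') :
    (Φ' g).f x' = y (Additive.ofMul (sch Γ' g x')) +
      (Φ' (Quotient.out (g • x'))).f (x0 Γ') - (Φ' (Quotient.out x')).f (x0 Γ') := by
  have hmul : g * Quotient.out x' = Quotient.out (g • x') * (sch Γ' g x' : SL(2, ℤ)) := by
    simp only [sch]
    group
  have h1 := CoGrp.hom_f_mul Φ' hΦ' g (Quotient.out x') (x0 Γ')
  have h2 := CoGrp.hom_f_mul Φ' hΦ' (Quotient.out (g • x')) (sch Γ' g x' : SL(2, ℤ)) (x0 Γ')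
  rw [out_smul_base] at h1
  rw [smul_x0_of_mem Γ' (sch Γ' g x').2, hy] at h2
  rw [hmul, h2] at h1
  linarith

variable {Γ' Γ : Subgroup SL(2, ℤ)} (h : Γ' ≤ Γ)

/-- the fibre sum of `helper38` at the base coset is the sum over `Fib h`. -/
lemma fibSum_x0_eq [Fintype (SL(2, ℤ) ⧸ Γ')] [Fintype (Fib h)] (F : SL(2, ℤ) ⧸ Γ' → ℤ) :
    Fermat.Agent.P6.helper38.fibSum h F (x0 Γ) = ∑ i : Fib h, F (i : SL(2, ℤ) ⧸ Γ') := by
  classical
  unfold Fermat.Agent.P6.helper38.fibSum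
  exact Finset.sum_subtype _ (fun x' => by
    simp only [Finset.mem_filter, Finset.mem_univ, true_and]
    rfl) F

/-- **[D-TRANSFER]**: fibre-sum push-forward of a cocycle restricting to `y` is the transfer. -/
theorem fibSum_eq_corHom [(Γ'.subgroupOf Γ).FiniteIndex] [Fintype (SL(2, ℤ) ⧸ Γ')]
    (y : Additive Γ' →+ ℤ) (Φ' : SL(2, ℤ) →* CoGrp (SL(2, ℤ) ⧸ Γ') ℤ)
    (hΦ' : ∀ g, (Φ' g).σ = MulAction.toPerm g)
    (hy : ∀ γ' : Γ', (Φ' (γ' : SL(2, ℤ))).f (x0 Γ') = y (Additive.ofMul γ')) (γ : Γ) :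
    Fermat.Agent.P6.helper38.fibSum h (Φ' (γ : SL(2, ℤ))).f (x0 Γ) =
      corHom h y (Additive.ofMul γ) := by
  classical
  haveI : Finite (Fib h) := finite_fib h
  letI : Fintype (Fib h) := Fintype.ofFinite _
  rw [fibSum_x0_eq h, corHom_eq_sum_fib h y γ]
  have hcob : ∑ i : Fib h, (Φ' (Quotient.out ((γ : SL(2, ℤ)) • (i : SL(2, ℤ) ⧸ Γ')))).f (x0 Γ') =
      ∑ i : Fib h, (Φ' (Quotient.out (i : SL(2, ℤ) ⧸ Γ'))).f (x0 Γ') :=
    Equiv.sum_comp (fibPerm h γ)
      (fun i : Fib h => (Φ' (Quotient.out (i : SL(2, ℤ) ⧸ Γ'))).f (x0 Γ'))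
  calc ∑ i : Fib h, (Φ' (γ : SL(2, ℤ))).f (i : SL(2, ℤ) ⧸ Γ')
      = ∑ i : Fib h, (y (Additive.ofMul (sch Γ' (γ : SL(2, ℤ)) (i : SL(2, ℤ) ⧸ Γ'))) +
          (Φ' (Quotient.out ((γ : SL(2, ℤ)) • (i : SL(2, ℤ) ⧸ Γ')))).f (x0 Γ') -
            (Φ' (Quotient.out (i : SL(2, ℤ) ⧸ Γ'))).f (x0 Γ')) :=
        Finset.sum_congr rfl fun i _ => cocycle_eq_sch_add_cob Γ' y Φ' hΦ' hy _ _
    _ = ∑ i : Fib h, y (Additive.ofMul (sch Γ' (γ : SL(2, ℤ)) (i : SL(2, ℤ) ⧸ Γ'))) := by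
        rw [Finset.sum_sub_distrib, Finset.sum_add_distrib, hcob]
        abel

/-- **[D-TRANSFER], part 2 of `helper38`** (VERBATIM): the transfer of a parabolic hom is
parabolic. -/
theorem corPar : Fermat.Agent.P6.helper38.CorParStatement :=
  fun _ _ _ _ h _ y hy => corHom_isParabolicHom h y hy

/-- **[D-TRANSFER], part 1 of `helper38`** (VERBATIM). -/
theorem pushRes : Fermat.Agent.P6.helper38.PushResStatement :=
  fun _ _ _ _ h _ _ y Φ' hΦ' hy γ => fibSum_eq_corHom h y Φ' hΦ' hy γ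

/-- **[D-TRANSFER] (T2) of `helper38`** (VERBATIM): Shapiro form. -/
theorem pushShap : Fermat.Agent.P6.helper38.PushShapStatement :=
  Fermat.Agent.P6.helper38.pushShap_of_pushRes pushRes

end Fermat.Agent.P6.helper82
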