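/-
P6 (S41, level raising), module (D) duality, packages [D-HEIS] + [D-VAL], Mathlib only.

`X` is a finite set, `K` a field of characteristic zero.  Permutations of `X` act on functions
`X → K` by `pact π m = m ∘ π⁻¹`.

* `HG X K` : the Heisenberg-type group `(X → K)³ ⋊ Perm X` with
  `(a, a', A; π) (b, b', B; τ) = (a + π b, a' + π b', A + π B - a * π b'; π τ)`.
  A homomorphic section `g ↦ (c g, c' g, Θ g; ρ g)` is the same as a pair of cocycles `c, c'`
  together with a primitive `Θ` of their cup product: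
  `Θ (g h) = Θ g + ρ g • Θ h - c g * (ρ g • c' h)`.
* `exists_cupPrimitive` : if `G` has the universal property of `C₂ * C₃` with respect to the
  generators `gs, gr` (for the target `HG X K`), `ρ : G →* Perm X` with `ρ gs ^ 2 = 1`,
  `ρ gr ^ 3 = 1`, and `e, e'` are killed by `1 + s` and by `1 + r + r²`, then there are cocycles
  `c, c'` with `c gs = c gr = e`, `c' gs = c' gr = e'` and a primitive `Θ` of their cup
  product with `Θ gs = -(e e')/2`, `Θ gr = F/3`.
* `sum_cupPrimitive_mul` : `∑ x, Θ (gs * gr) x = (⟨e, e'⟩ + 2 ⟨e, r e'⟩) / 6`.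
-/
import Mathlib

set_option autoImplicit false

namespace Fermat.Agent.P6.helper85

open Finset

section Act

variable {X K : Type*}

/-- The left action of permutations on functions: `(π • m) x = m (π⁻¹ x)`. -/
def pact (π : Equiv.Perm X) (m : X → K) : X → K := fun x => m (π.symm x)

@[simp] theorem pact_apply (π : Equiv.Perm X) (m : X → K) (x : X) :
    pact π m x = m (π.symm x) := rfl

@[simp] theorem pact_one (m : X → K) : pact (1 : Equiv.Perm X) m = m := rfl

theorem pact_mul (π τ : Equiv.Perm X) (m : X → K) :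
    pact (π * τ) m = pact π (pact τ m) := rfl

@[simp] theorem pact_inv_pact (π : Equiv.Perm X) (m : X → K) : pact π⁻¹ (pact π m) = m := by
  rw [← pact_mul, inv_mul_cancel, pact_one]

@[simp] theorem pact_pact_inv (π : Equiv.Perm X) (m : X → K) : pact π (pact π⁻¹ m) = m := by
  rw [← pact_mul, mul_inv_cancel, pact_one]

variable [CommRing K]

@[simp] theorem pact_zero (π : Equiv.Perm X) : pact π (0 : X → K) = 0 := rfl

@[simp] theorem pact_add (π : Equiv.Perm X) (m m' : X → K) :
    pact π (m + m') = pact π m + pact π m' := rfl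

@[simp] theorem pact_sub (π : Equiv.Perm X) (m m' : X → K) :
    pact π (m - m') = pact π m - pact π m' := rfl

@[simp] theorem pact_neg (π : Equiv.Perm X) (m : X → K) : pact π (-m) = -pact π m := rfl

@[simp] theorem pact_mulf (π : Equiv.Perm X) (m m' : X → K) :
    pact π (m * m') = pact π m * pact π m' := rfl

@[simp] theorem pact_smul (π : Equiv.Perm X) (k : K) (m : X → K) :
    pact π (k • m) = k • pact π m := rfl

theorem sum_pact [Fintype X] (π : Equiv.Perm X) (m : X → K) :
    ∑ x, pact π m x = ∑ x, m x :=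
  Equiv.sum_comp π.symm m

end Act

/-- The Heisenberg-type group `(X → K)³ ⋊ Perm X`. -/
@[ext] structure HG (X K : Type*) where
  /-- first cocycle component -/
  a : X → K
  /-- second cocycle component -/
  a' : X → K
  /-- primitive component -/
  A : X → K
  /-- permutation component -/
  π : Equiv.Perm X

namespace HG

variable {X K : Type*} [CommRing K]

instance : Mul (HG X K) :=
  ⟨fun x y => ⟨x.a + pact x.π y.a, x.a' + pact x.π y.a',
    x.A + pact x.π y.A - x.a * pact x.π y.a', x.π * y.π⟩⟩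

instance : One (HG X K) := ⟨⟨0, 0, 0, 1⟩⟩

instance : Inv (HG X K) :=
  ⟨fun x => ⟨-pact x.π⁻¹ x.a, -pact x.π⁻¹ x.a', -pact x.π⁻¹ (x.A + x.a * x.a'), x.π⁻¹⟩⟩

@[simp] theorem mul_a (x y : HG X K) : (x * y).a = x.a + pact x.π y.a := rfl
@[simp] theorem mul_a' (x y : HG X K) : (x * y).a' = x.a' + pact x.π y.a' := rfl
@[simp] theorem mul_A (x y : HG X K) :
    (x * y).A = x.A + pact x.π y.A - x.a * pact x.π y.a' := rfl
@[simp] theorem mul_π (x y : HG X K) : (x * y).π = x.π * y.π := rfl
@[simp] theorem one_a : (1 : HG X K).a = 0 := rfl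
@[simp] theorem one_a' : (1 : HG X K).a' = 0 := rfl
@[simp] theorem one_A : (1 : HG X K).A = 0 := rfl
@[simp] theorem one_π : (1 : HG X K).π = 1 := rfl
@[simp] theorem inv_a (x : HG X K) : (x⁻¹).a = -pact x.π⁻¹ x.a := rfl
@[simp] theorem inv_a' (x : HG X K) : (x⁻¹).a' = -pact x.π⁻¹ x.a' := rfl
@[simp] theorem inv_A (x : HG X K) : (x⁻¹).A = -pact x.π⁻¹ (x.A + x.a * x.a') := rfl
@[simp] theorem inv_π (x : HG X K) : (x⁻¹).π = x.π⁻¹ := rfl

instance : Group (HG X K) :=
  Group.ofLeftAxioms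
    (by
      intro x y z
      ext1
      · simp only [mul_a, mul_π, pact_add, pact_mul, add_assoc]
      · simp only [mul_a', mul_π, pact_add, pact_mul, add_assoc]
      · simp only [mul_A, mul_a, mul_a', mul_π, pact_add, pact_sub, pact_mulf, pact_mul]
        ring
      · simp only [mul_π, mul_assoc])
    (by
      intro x
      ext1
      · simp only [mul_a, one_a, one_π, pact_one, zero_add]
      · simp only [mul_a', one_a', one_π, pact_one, zero_add]
      · simp only [mul_A, one_A, one_a, one_π, pact_one, zero_add, zero_mul, sub_zero]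
      · simp only [mul_π, one_π, one_mul])
    (by
      intro x
      ext1
      · simp only [mul_a, inv_a, inv_π, one_a, neg_add_cancel]
      · simp only [mul_a', inv_a', inv_π, one_a', neg_add_cancel]
      · simp only [mul_A, inv_A, inv_a, inv_π, one_A, pact_add, pact_mulf]
        ring
      · simp only [mul_π, inv_π, one_π, inv_mul_cancel])

/-- The projection to the permutation group. -/
def toPerm : HG X K →* Equiv.Perm X where
  toFun x := x.π
  map_one' := rfl
  map_mul' _ _ := rfl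

@[simp] theorem toPerm_apply (x : HG X K) : toPerm x = x.π := rfl

end HG

section Primitive

set_option linter.unusedSectionVars false

variable {X K : Type*} [Field K] [CharZero K]

/-- The function `F = e (r e') + e (r² e') + (r e)(r² e')`. -/
def cubicTerm (σr : Equiv.Perm X) (e e' : X → K) : X → K :=
  e * pact σr e' + e * pact (σr * σr) e' + pact σr e * pact (σr * σr) e'

/-- The lift of `s` to `HG X K`. -/
def liftS (σs : Equiv.Perm X) (e e' : X → K) : HG X K :=
  ⟨e, e', -((2 : K)⁻¹ • (e * e')), σs⟩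

/-- The lift of `r` to `HG X K`. -/
def liftR (σr : Equiv.Perm X) (e e' : X → K) : HG X K :=
  ⟨e, e', (3 : K)⁻¹ • cubicTerm σr e e', σr⟩

theorem pact_eq_neg_of_add {σs : Equiv.Perm X} {e : X → K} (he : e + pact σs e = 0) :
    pact σs e = -e := by
  rw [eq_neg_iff_add_eq_zero, add_comm]
  exact he

theorem pact_sq_eq_of_add {σr : Equiv.Perm X} {e : X → K}
    (he : e + pact σr e + pact (σr * σr) e = 0) :
    pact (σr * σr) e = -e - pact σr e := by
  rw [eq_sub_iff_add_eq, eq_neg_iff_add_eq_zero]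
  rw [← he]
  ring

theorem liftS_sq {σs : Equiv.Perm X} (hs : σs ^ 2 = 1) {e e' : X → K}
    (he : e + pact σs e = 0) (he' : e' + pact σs e' = 0) : liftS σs e e' ^ 2 = 1 := by
  have h1 := pact_eq_neg_of_add he
  have h2 := pact_eq_neg_of_add he'
  rw [pow_two]
  ext1
  · simpa [liftS] using he
  · simpa [liftS] using he'
  · simp only [liftS, HG.mul_A, HG.one_A, pact_neg, pact_smul, pact_mulf, h1, h2]
    funext x
    simp only [Pi.add_apply, Pi.sub_apply, Pi.neg_apply, Pi.smul_apply, Pi.mul_apply,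
      Pi.zero_apply, smul_eq_mul]
    field_simp
    ring
  · simp only [liftS, HG.mul_π, HG.one_π]
    rw [← pow_two, hs]

theorem pact_cubicTerm {σr : Equiv.Perm X} {e e' : X → K}
    (he : e + pact σr e + pact (σr * σr) e = 0)
    (he' : e' + pact σr e' + pact (σr * σr) e' = 0) :
    cubicTerm σr e e' = -(e * e' + pact σr e * e' + pact σr e * pact σr e') ∧
      pact σr (cubicTerm σr e e') = cubicTerm σr e e' := by
  have h1 := pact_sq_eq_of_add he
  have h2 := pact_sq_eq_of_add he'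
  have h3 : pact σr (pact σr e) = -e - pact σr e := by rw [← pact_mul, h1]
  have h4 : pact σr (pact σr e') = -e' - pact σr e' := by rw [← pact_mul, h2]
  have hF : cubicTerm σr e e' = -(e * e' + pact σr e * e' + pact σr e * pact σr e') := by
    rw [cubicTerm, h2]
    ring
  refine ⟨hF, ?_⟩
  rw [hF]
  simp only [pact_neg, pact_add, pact_mulf, h3, h4]
  ring

theorem liftR_cube {σr : Equiv.Perm X} (hr : σr ^ 3 = 1) {e e' : X → K}
    (he : e + pact σr e + pact (σr * σr) e = 0)
    (he' : e' + pact σr e' + pact (σr * σr) e' = 0) : liftR σr e e' ^ 3 = 1 := by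
  obtain ⟨_, hF⟩ := pact_cubicTerm he he'
  have hF2 : pact (σr * σr) (cubicTerm σr e e') = cubicTerm σr e e' := by
    rw [pact_mul, hF, hF]
  rw [pow_succ, pow_two]
  ext1
  · simpa [liftR] using he
  · simpa [liftR] using he'
  · simp only [liftR, HG.mul_A, HG.mul_a, HG.mul_π, HG.one_A, pact_smul, hF, hF2]
    have : e * pact σr e' + (e + pact σr e) * pact (σr * σr) e' = cubicTerm σr e e' := by
      rw [cubicTerm]
      ring
    funext x
    have hx := congrFun this x
    simp only [Pi.add_apply, Pi.mul_apply] at hx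
    simp only [Pi.add_apply, Pi.sub_apply, Pi.smul_apply, Pi.mul_apply, Pi.zero_apply,
      smul_eq_mul]
    have h3 : (3 : K) ≠ 0 := by norm_num
    field_simp
    linear_combination (-3 : K) * hx
  · simp only [liftR, HG.mul_π, HG.one_π]
    rw [← pow_two, ← pow_succ, hr]

/-- **[D-HEIS]** Existence of a pair of relative cocycles with a primitive of their cup
product, from the universal property of `C₂ * C₃`. -/
theorem exists_cupPrimitive {G : Type*} [Group G] (gs gr : G)
    (huniv : ∀ a b : HG X K, a ^ 2 = 1 → b ^ 3 = 1 → ∃ φ : G →* HG X K, φ gs = a ∧ φ gr = b)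
    (hext : ∀ φ ψ : G →* Equiv.Perm X, φ gs = ψ gs → φ gr = ψ gr → φ = ψ)
    (ρ : G →* Equiv.Perm X) (hs : ρ gs ^ 2 = 1) (hr : ρ gr ^ 3 = 1)
    (e e' : X → K) (he2 : e + pact (ρ gs) e = 0)
    (he3 : e + pact (ρ gr) e + pact (ρ gr * ρ gr) e = 0)
    (he2' : e' + pact (ρ gs) e' = 0)
    (he3' : e' + pact (ρ gr) e' + pact (ρ gr * ρ gr) e' = 0) :
    ∃ c c' Θ : G → X → K,
      (∀ g h, c (g * h) = c g + pact (ρ g) (c h)) ∧
      (∀ g h, c' (g * h) = c' g + pact (ρ g) (c' h)) ∧
      (∀ g h, Θ (g * h) = Θ g + pact (ρ g) (Θ h) - c g * pact (ρ g) (c' h)) ∧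
      c gs = e ∧ c gr = e ∧ c' gs = e' ∧ c' gr = e' ∧
      Θ gs = -((2 : K)⁻¹ • (e * e')) ∧ Θ gr = (3 : K)⁻¹ • cubicTerm (ρ gr) e e' := by
  obtain ⟨φ, hφs, hφr⟩ := huniv (liftS (ρ gs) e e') (liftR (ρ gr) e e')
    (liftS_sq hs he2 he2') (liftR_cube hr he3 he3')
  have hρ : HG.toPerm.comp φ = ρ := by
    apply hext
    · rw [MonoidHom.comp_apply, hφs]; rfl
    · rw [MonoidHom.comp_apply, hφr]; rfl
  have hρ' : ∀ g, (φ g).π = ρ g := fun g => by
    rw [← hρ]; rfl
  refine ⟨fun g => (φ g).a, fun g => (φ g).a', fun g => (φ g).A, ?_, ?_, ?_, ?_, ?_, ?_, ?_,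
    ?_, ?_⟩
  · intro g h
    show (φ (g * h)).a = _
    rw [map_mul, HG.mul_a, hρ']
  · intro g h
    show (φ (g * h)).a' = _
    rw [map_mul, HG.mul_a', hρ']
  · intro g h
    show (φ (g * h)).A = _
    rw [map_mul, HG.mul_A, hρ']
  · show (φ gs).a = e
    rw [hφs]; rfl
  · show (φ gr).a = e
    rw [hφr]; rfl
  · show (φ gs).a' = e'
    rw [hφs]; rfl
  · show (φ gr).a' = e'
    rw [hφr]; rfl
  · show (φ gs).A = _
    rw [hφs]; rfl
  · show (φ gr).A = _
    rw [hφr]; rfl

/-- **[D-VAL]** The total mass of a primitive at `gs * gr`: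
`∑ Θ (gs gr) = (⟨e, e'⟩ + 2 ⟨e, r e'⟩) / 6`. -/
theorem sum_cupPrimitive_mul [Fintype X] {G : Type*} [Group G] (gs gr : G)
    (ρ : G →* Equiv.Perm X) (hr : ρ gr ^ 3 = 1)
    (e e' : X → K) (he3 : e + pact (ρ gr) e + pact (ρ gr * ρ gr) e = 0)
    (he2' : e' + pact (ρ gs) e' = 0)
    (he3' : e' + pact (ρ gr) e' + pact (ρ gr * ρ gr) e' = 0)
    (c c' Θ : G → X → K)
    (hΘ : ∀ g h, Θ (g * h) = Θ g + pact (ρ g) (Θ h) - c g * pact (ρ g) (c' h))
    (hcs : c gs = e) (hcr' : c' gr = e')
    (hΘs : Θ gs = -((2 : K)⁻¹ • (e * e')))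
    (hΘr : Θ gr = (3 : K)⁻¹ • cubicTerm (ρ gr) e e') :
    ∑ x, Θ (gs * gr) x =
      (∑ x, e x * e' x + 2 * ∑ x, e x * pact (ρ gr) e' x) / 6 := by
  obtain ⟨hF, -⟩ := pact_cubicTerm he3 he3'
  have hinv : (ρ gr)⁻¹ = ρ gr * ρ gr := by
    rw [inv_eq_iff_mul_eq_one, ← pow_two, ← pow_succ']
    exact hr
  -- ⟨r e, e'⟩ = ⟨e, r² e'⟩
  have h1 : ∑ x, pact (ρ gr) e x * e' x = ∑ x, e x * pact (ρ gr * ρ gr) e' x := by
    rw [← Equiv.sum_comp (ρ gr) (fun x => pact (ρ gr) e x * e' x)]
    refine Finset.sum_congr rfl fun x _ => ?_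
    have h : (ρ gr * ρ gr).symm x = ρ gr x := by
      rw [← hinv]
      rfl
    simp only [pact_apply, Equiv.symm_apply_apply, h]
  have h2 : ∑ x, pact (ρ gr) e x * pact (ρ gr) e' x = ∑ x, e x * e' x :=
    sum_pact (ρ gr) (fun x => e x * e' x)
  have h3 : ∑ x, e x * pact (ρ gr * ρ gr) e' x =
      -∑ x, e x * e' x - ∑ x, e x * pact (ρ gr) e' x := by
    rw [pact_sq_eq_of_add he3', ← Finset.sum_neg_distrib, ← Finset.sum_sub_distrib]
    refine Finset.sum_congr rfl fun x _ => ?_
    simp only [Pi.sub_apply, Pi.neg_apply]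
    ring
  have hsumF : ∑ x, cubicTerm (ρ gr) e e' x =
      ∑ x, e x * pact (ρ gr) e' x - ∑ x, e x * e' x := by
    rw [hF]
    simp only [Pi.neg_apply, Pi.add_apply, Pi.mul_apply, Finset.sum_neg_distrib,
      Finset.sum_add_distrib]
    rw [h1, h2, h3]
    ring
  have hsumF' : ∑ x, pact (ρ gs) (cubicTerm (ρ gr) e e') x =
      ∑ x, e x * pact (ρ gr) e' x - ∑ x, e x * e' x := by
    rw [sum_pact, hsumF]
  rw [hΘ, hcs, hcr', hΘs, hΘr, pact_eq_neg_of_add he2']
  simp only [Pi.add_apply, Pi.sub_apply, Pi.neg_apply, Pi.smul_apply, Pi.mul_apply,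
    pact_smul, smul_eq_mul, Finset.sum_sub_distrib, Finset.sum_add_distrib,
    Finset.sum_neg_distrib, ← Finset.mul_sum, mul_neg]
  rw [hsumF']
  field_simp
  ring

end Primitive

end Fermat.Agent.P6.helper85
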