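/-
P6 (S41, level raising), module (D) duality, package [D-CUSP], Mathlib only.

`ρ : G →* Perm X`, cocycles `c, c' : G → X → K` (`IsCoc`), a primitive `Θ` of their cup
product (`IsPrim`), `x₀ : X` a base point, `t : G` with `c t = c' t = 0`.

* `IsPrim.stab` : on the stabiliser of `x₀`, `θ γ := Θ γ x₀` satisfies
  `θ (γ δ) = θ γ + θ δ - x γ * y δ` with `x γ = c γ x₀`, `y δ = c' δ x₀`.
* `IsPrim.conj_pow` : `Θ (g t^h g⁻¹) x₀ = ∑_{j<h} Θ t (τ^{-j} y)` for `y = ρ g⁻¹ x₀`, `τ = ρ t`,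
  as soon as `τ^h y = y`;  `IsCoc.conj_pow` : the same for a cocycle.
* `sum_orbit_reps` : a sum over `X` as a double sum over orbit representatives.
* `sum_cusps_cupPrimitive` : the sum over the cusps of `θ (π_c)` is
  `(⟨e, e'⟩ + 2 ⟨e, r e'⟩) / 6`.
* `sum_cusps_cocycle` : the sum over the cusps of `χ (π_c)` vanishes for every cocycle.
-/
import Fermat.Agent.P6.helper85_DHeis

set_option autoImplicit false

namespace Fermat.Agent.P6.helper85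

open Finset

section Cusp

set_option linter.unusedSectionVars false

variable {X K : Type*} [Field K] {G : Type*} [Group G] (ρ : G →* Equiv.Perm X)

/-- `c` is a 1-cocycle of `G` with values in the functions on `X`. -/
structure IsCoc (c : G → X → K) : Prop where
  /-- the cocycle rule -/
  map_mul : ∀ g h, c (g * h) = c g + pact (ρ g) (c h)

/-- `Θ` is a primitive of the cup product of `c` and `c'`. -/
structure IsPrim (c c' Θ : G → X → K) : Prop where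
  /-- the rule of a primitive -/
  map_mul : ∀ g h, Θ (g * h) = Θ g + pact (ρ g) (Θ h) - c g * pact (ρ g) (c' h)

variable {ρ}

theorem IsCoc.map_one {c : G → X → K} (hc : IsCoc ρ c) : c 1 = 0 := by
  have := hc.map_mul 1 1
  rw [mul_one, _root_.map_one, pact_one] at this
  exact left_eq_add.1 this

theorem IsCoc.map_pow {c : G → X → K} (hc : IsCoc ρ c) (t : G) (k : ℕ) :
    c (t ^ k) = ∑ j ∈ range k, pact (ρ t ^ j) (c t) := by
  induction k with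
  | zero => simp [hc.map_one]
  | succ k ih =>
    rw [pow_succ, hc.map_mul, ih, Finset.sum_range_succ, _root_.map_pow]

theorem IsCoc.map_pow_of_eq_zero {c : G → X → K} (hc : IsCoc ρ c) {t : G} (ht : c t = 0)
    (k : ℕ) : c (t ^ k) = 0 := by
  rw [hc.map_pow, ht]
  simp

theorem IsPrim.map_one {c c' Θ : G → X → K} (hc : IsCoc ρ c) (hΘ : IsPrim ρ c c' Θ) :
    Θ 1 = 0 := by
  have := hΘ.map_mul 1 1
  rw [mul_one, _root_.map_one, pact_one, hc.map_one, zero_mul, sub_zero] at this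
  exact left_eq_add.1 this

theorem IsPrim.map_pow {c c' Θ : G → X → K} (hc : IsCoc ρ c) (hΘ : IsPrim ρ c c' Θ) {t : G}
    (ht : c t = 0) (k : ℕ) : Θ (t ^ k) = ∑ j ∈ range k, pact (ρ t ^ j) (Θ t) := by
  induction k with
  | zero => simp [hΘ.map_one hc]
  | succ k ih =>
    rw [pow_succ, hΘ.map_mul, ih, Finset.sum_range_succ, _root_.map_pow,
      hc.map_pow_of_eq_zero ht, zero_mul, sub_zero]

theorem pact_apply_fixed {π : Equiv.Perm X} {x₀ : X} (h : π x₀ = x₀) (m : X → K) :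
    pact π m x₀ = m x₀ := by
  rw [pact_apply]
  congr 1
  rw [Equiv.symm_apply_eq, h]

/-- The rule for `θ = Θ · x₀` on the stabiliser of `x₀`. -/
theorem IsPrim.stab {c c' Θ : G → X → K} (hΘ : IsPrim ρ c c' Θ) {x₀ : X} {γ : G}
    (hγ : ρ γ x₀ = x₀) (δ : G) :
    Θ (γ * δ) x₀ = Θ γ x₀ + Θ δ x₀ - c γ x₀ * c' δ x₀ := by
  rw [hΘ.map_mul]
  simp only [Pi.add_apply, Pi.sub_apply, Pi.mul_apply, pact_apply_fixed hγ]

/-- The rule for `χ = c · x₀` on the stabiliser of `x₀`: it is additive. -/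
theorem IsCoc.stab {c : G → X → K} (hc : IsCoc ρ c) {x₀ : X} {γ : G}
    (hγ : ρ γ x₀ = x₀) (δ : G) : c (γ * δ) x₀ = c γ x₀ + c δ x₀ := by
  rw [hc.map_mul]
  simp only [Pi.add_apply, pact_apply_fixed hγ]

theorem IsCoc.conj_pow {c : G → X → K} (hc : IsCoc ρ c) (t g : G) (h : ℕ) (x₀ : X)
    (hfix : (ρ t ^ h) (ρ g⁻¹ x₀) = ρ g⁻¹ x₀) :
    c (g * t ^ h * g⁻¹) x₀ = ∑ j ∈ range h, c t ((ρ t ^ j).symm (ρ g⁻¹ x₀)) := by
  have hsymm : (ρ g).symm x₀ = ρ g⁻¹ x₀ := by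
    rw [map_inv]; rfl
  have hfix' : (ρ t ^ h).symm (ρ g⁻¹ x₀) = ρ g⁻¹ x₀ := by
    rw [Equiv.symm_apply_eq, hfix]
  have hρ : ρ (t ^ h) = ρ t ^ h := _root_.map_pow ρ t h
  have h0 : c g x₀ + c g⁻¹ (ρ g⁻¹ x₀) = 0 := by
    have := congrFun (hc.map_mul g g⁻¹) x₀
    rw [mul_inv_cancel, hc.map_one] at this
    simp only [Pi.zero_apply, Pi.add_apply, pact_apply, hsymm] at this
    exact this.symm
  rw [mul_assoc, hc.map_mul, hc.map_mul, hc.map_pow]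
  simp only [Pi.add_apply, pact_apply, hsymm, Finset.sum_apply, hρ, hfix']
  linear_combination h0

theorem IsPrim.conj_pow {c c' Θ : G → X → K} (hc : IsCoc ρ c) (hc' : IsCoc ρ c')
    (hΘ : IsPrim ρ c c' Θ) {t : G} (ht : c t = 0) (ht' : c' t = 0) (g : G) (h : ℕ) (x₀ : X)
    (hfix : (ρ t ^ h) (ρ g⁻¹ x₀) = ρ g⁻¹ x₀) :
    Θ (g * t ^ h * g⁻¹) x₀ = ∑ j ∈ range h, Θ t ((ρ t ^ j).symm (ρ g⁻¹ x₀)) := by
  have hsymm : (ρ g).symm x₀ = ρ g⁻¹ x₀ := by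
    rw [map_inv]; rfl
  have hfix' : (ρ t ^ h).symm (ρ g⁻¹ x₀) = ρ g⁻¹ x₀ := by
    rw [Equiv.symm_apply_eq, hfix]
  have hρ : ρ (t ^ h) = ρ t ^ h := _root_.map_pow ρ t h
  have h0 : Θ g x₀ + Θ g⁻¹ (ρ g⁻¹ x₀) - c g x₀ * c' g⁻¹ (ρ g⁻¹ x₀) = 0 := by
    have := congrFun (hΘ.map_mul g g⁻¹) x₀
    rw [mul_inv_cancel, hΘ.map_one hc] at this
    simp only [Pi.zero_apply, Pi.add_apply, Pi.sub_apply, Pi.mul_apply, pact_apply, hsymm]
      at this
    exact this.symm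
  rw [mul_assoc, hΘ.map_mul, hΘ.map_mul, hc'.map_mul, hΘ.map_pow hc ht,
    hc.map_pow_of_eq_zero ht, hc'.map_pow_of_eq_zero ht']
  simp only [Pi.add_apply, Pi.sub_apply, Pi.mul_apply, pact_apply, hsymm,
    Finset.sum_apply, hρ, hfix', zero_mul, sub_zero, zero_add]
  linear_combination h0

/-- A sum over `X` as a double sum over representatives of the orbits of `τ`. -/
theorem sum_orbit_reps [Fintype X] {I : Type*} [Fintype I] (τ : Equiv.Perm X) (y : I → X)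
    (h : I → ℕ)
    (hbij : Function.Bijective
      (fun p : (Σ i, Fin (h i)) => (τ ^ (p.2 : ℕ)).symm (y p.1)))
    (f : X → K) :
    ∑ i, ∑ j ∈ range (h i), f ((τ ^ j).symm (y i)) = ∑ x, f x := by
  rw [← hbij.sum_comp f, Fintype.sum_sigma]
  refine Finset.sum_congr rfl fun i _ => ?_
  rw [← Fin.sum_univ_eq_sum_range (fun j => f ((τ ^ j).symm (y i))) (h i)]

/-- **[D-CUSP]** The sum over the cusps of `θ (π_c)`, `π_c = g_c t^{h_c} g_c⁻¹`, equals the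
total mass of `Θ t`. -/
theorem sum_cusps_eq_sum [Fintype X] {c c' Θ : G → X → K} (hc : IsCoc ρ c) (hc' : IsCoc ρ c')
    (hΘ : IsPrim ρ c c' Θ) {t : G} (ht : c t = 0) (ht' : c' t = 0) (x₀ : X)
    {I : Type*} [Fintype I] (g : I → G) (h : I → ℕ)
    (hfix : ∀ i, (ρ t ^ h i) (ρ (g i)⁻¹ x₀) = ρ (g i)⁻¹ x₀)
    (hbij : Function.Bijective
      (fun p : (Σ i, Fin (h i)) => (ρ t ^ (p.2 : ℕ)).symm (ρ (g p.1)⁻¹ x₀))) :
    ∑ i, Θ (g i * t ^ h i * (g i)⁻¹) x₀ = ∑ x, Θ t x := by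
  rw [← sum_orbit_reps (ρ t) (fun i => ρ (g i)⁻¹ x₀) h hbij (Θ t)]
  refine Finset.sum_congr rfl fun i _ => ?_
  exact hΘ.conj_pow hc hc' ht ht' (g i) (h i) x₀ (hfix i)

/-- The sum over the cusps of `χ (π_c)` for a cocycle: the total mass of `c t`. -/
theorem sum_cusps_cocycle_eq_sum [Fintype X] {c : G → X → K} (hc : IsCoc ρ c) (t : G) (x₀ : X)
    {I : Type*} [Fintype I] (g : I → G) (h : I → ℕ)
    (hfix : ∀ i, (ρ t ^ h i) (ρ (g i)⁻¹ x₀) = ρ (g i)⁻¹ x₀)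
    (hbij : Function.Bijective
      (fun p : (Σ i, Fin (h i)) => (ρ t ^ (p.2 : ℕ)).symm (ρ (g p.1)⁻¹ x₀))) :
    ∑ i, c (g i * t ^ h i * (g i)⁻¹) x₀ = ∑ x, c t x := by
  rw [← sum_orbit_reps (ρ t) (fun i => ρ (g i)⁻¹ x₀) h hbij (c t)]
  refine Finset.sum_congr rfl fun i _ => ?_
  exact hc.conj_pow t (g i) (h i) x₀ (hfix i)

/-- The total mass of `c g` vanishes if `c (g ^ n) = 0`, `n ≠ 0` (characteristic zero). -/
theorem IsCoc.sum_eq_zero_of_pow [Fintype X] [CharZero K] {c : G → X → K} (hc : IsCoc ρ c)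
    {g : G} {n : ℕ} (hn : n ≠ 0) (hg : c (g ^ n) = 0) : ∑ x, c g x = 0 := by
  have h1 : ∑ x, c (g ^ n) x = n * ∑ x, c g x := by
    rw [hc.map_pow]
    simp only [Finset.sum_apply]
    rw [Finset.sum_comm]
    simp only [sum_pact, Finset.sum_const, Finset.card_range, nsmul_eq_mul]
  rw [hg] at h1
  simp only [Pi.zero_apply, Finset.sum_const_zero] at h1
  rcases mul_eq_zero.1 h1.symm with h | h
  · exact absurd (Nat.cast_eq_zero.1 h) hn
  · exact h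

/-- A cocycle vanishes at an element `z` of order two acting trivially on `X`. -/
theorem IsCoc.map_eq_zero_of_sq [CharZero K] {c : G → X → K} (hc : IsCoc ρ c) {z : G}
    (hz : z * z = 1) (hρz : ρ z = 1) : c z = 0 := by
  have := hc.map_mul z z
  rw [hz, hc.map_one, hρz, pact_one] at this
  funext x
  have hx := congrFun this x
  simp only [Pi.zero_apply, Pi.add_apply] at hx
  have h2 : (2 : K) * c z x = 0 := by linear_combination -hx
  rcases mul_eq_zero.1 h2 with h | h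
  · exact absurd h two_ne_zero
  · exact h

/-- **Independence**: the sum over the cusps of `χ (π_c)` vanishes for every cocycle, where
`t = gs * gr`, `gs ^ 2 = z₂`, `gr ^ 3 = z₃` with `z₂, z₃` of order at most two acting
trivially on `X` (for `SL(2, ℤ)`: `z₂ = z₃ = -1`). -/
theorem sum_cusps_cocycle [Fintype X] [CharZero K] {c : G → X → K} (hc : IsCoc ρ c) (gs gr : G)
    (hs : (gs ^ 2) * (gs ^ 2) = 1) (hρs : ρ (gs ^ 2) = 1)
    (hr : (gr ^ 3) * (gr ^ 3) = 1) (hρr : ρ (gr ^ 3) = 1) (x₀ : X)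
    {I : Type*} [Fintype I] (g : I → G) (h : I → ℕ)
    (hfix : ∀ i, (ρ (gs * gr) ^ h i) (ρ (g i)⁻¹ x₀) = ρ (g i)⁻¹ x₀)
    (hbij : Function.Bijective
      (fun p : (Σ i, Fin (h i)) => (ρ (gs * gr) ^ (p.2 : ℕ)).symm (ρ (g p.1)⁻¹ x₀))) :
    ∑ i, c (g i * (gs * gr) ^ h i * (g i)⁻¹) x₀ = 0 := by
  rw [sum_cusps_cocycle_eq_sum hc (gs * gr) x₀ g h hfix hbij, hc.map_mul]
  simp only [Pi.add_apply, Finset.sum_add_distrib, sum_pact]
  rw [hc.sum_eq_zero_of_pow two_ne_zero (hc.map_eq_zero_of_sq hs hρs),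
    hc.sum_eq_zero_of_pow three_ne_zero (hc.map_eq_zero_of_sq hr hρr), add_zero]

end Cusp

section Main

variable {X K : Type*} [Fintype X] [Field K] [CharZero K] {G : Type*} [Group G]

/-- **[D-HEIS] + [D-VAL] + [D-CUSP]**: for `e, e'` killed by `1 + s` and `1 + r + r²` there
are cocycles `c, c'` with `c gs = c gr = e`, `c' gs = c' gr = e'` and a primitive `Θ` of their
cup product such that the sum over the cusps of `Θ (π_c) x₀` is
`(⟨e, e'⟩ + 2 ⟨e, r e'⟩) / 6`. -/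
theorem exists_cupPrimitive_sum_cusps (gs gr : G)
    (huniv : ∀ a b : HG X K, a ^ 2 = 1 → b ^ 3 = 1 → ∃ φ : G →* HG X K, φ gs = a ∧ φ gr = b)
    (hext : ∀ φ ψ : G →* Equiv.Perm X, φ gs = ψ gs → φ gr = ψ gr → φ = ψ)
    (ρ : G →* Equiv.Perm X) (hs : ρ gs ^ 2 = 1) (hr : ρ gr ^ 3 = 1)
    (e e' : X → K) (he2 : e + pact (ρ gs) e = 0)
    (he3 : e + pact (ρ gr) e + pact (ρ gr * ρ gr) e = 0)
    (he2' : e' + pact (ρ gs) e' = 0)
    (he3' : e' + pact (ρ gr) e' + pact (ρ gr * ρ gr) e' = 0) (x₀ : X)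
    {I : Type*} [Fintype I] (g : I → G) (h : I → ℕ)
    (hfix : ∀ i, (ρ (gs * gr) ^ h i) (ρ (g i)⁻¹ x₀) = ρ (g i)⁻¹ x₀)
    (hbij : Function.Bijective
      (fun p : (Σ i, Fin (h i)) => (ρ (gs * gr) ^ (p.2 : ℕ)).symm (ρ (g p.1)⁻¹ x₀))) :
    ∃ c c' Θ : G → X → K, IsCoc ρ c ∧ IsCoc ρ c' ∧ IsPrim ρ c c' Θ ∧
      c gs = e ∧ c gr = e ∧ c' gs = e' ∧ c' gr = e' ∧
      ∑ i, Θ (g i * (gs * gr) ^ h i * (g i)⁻¹) x₀ =
        (∑ x, e x * e' x + 2 * ∑ x, e x * pact (ρ gr) e' x) / 6 := by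
  obtain ⟨c, c', Θ, hc, hc', hΘ, hcs, hcr, hcs', hcr', hΘs, hΘr⟩ :=
    exists_cupPrimitive gs gr huniv hext ρ hs hr e e' he2 he3 he2' he3'
  have ht : c (gs * gr) = 0 := by rw [hc, hcs, hcr]; exact he2
  have ht' : c' (gs * gr) = 0 := by rw [hc', hcs', hcr']; exact he2'
  refine ⟨c, c', Θ, ⟨hc⟩, ⟨hc'⟩, ⟨hΘ⟩, hcs, hcr, hcs', hcr', ?_⟩
  rw [sum_cusps_eq_sum ⟨hc⟩ ⟨hc'⟩ ⟨hΘ⟩ ht ht' x₀ g h hfix hbij]
  exact sum_cupPrimitive_mul gs gr ρ hr e e' he3 he2' he3' c c' Θ hΘ hcs hcr' hΘs hΘr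

end Main

end Fermat.Agent.P6.helper85
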