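/-
P6 (S41, level raising), module (D) duality, package [D-HEIS], VERBATIM form.

`heisLift : Fermat.Agent.P6.helper21.HeisLiftStatement` : every pair of cocycles
`Φ, Φ' : SL(2, ℤ) →* CoGrp (SL(2, ℤ) ⧸ Γ) ℤ` over the action has a Heisenberg lift.

Proof.  `Φ' S` and `Φ' (S T)` are of finite order `2` and `3` in `CoGrp X ℤ`, hence coboundaries
`n ∘ σ - n` (coboundary lemma of S16 helper21).  For a fixed `n : X → ℤ` the map
`(a, σ) ↦ (a, n ∘ σ - n, - a * n, σ)` is a group homomorphism `CoGrp X ℤ →* Heis X`, a section of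
`Heis.toA`.  The images of `Φ S` and `Φ (S T)` under these sections are of order `2` and `3`, and
the universal property of `PSL(2, ℤ) = C₂ * C₃` (S16 helper64) gives the lift.
-/
import Mathlib
import Fermat.Agent.P6.helper21_DualStmts
import Fermat.Agent.S16.helper64_PSL2Z

set_option autoImplicit false

open scoped MatrixGroups
open Matrix.SpecialLinearGroup

namespace Fermat.Agent.P6.helper86

open Fermat.Agent.S16.helper21 (CoGrp)
open Fermat.Agent.P6.helper21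

namespace DHeis

variable {X : Type*}

/-- The twisted section `(a, σ) ↦ (a, n ∘ σ - n, - a * n, σ)` of `Heis.toA`. -/
def iota (n : X → ℤ) : CoGrp X ℤ →* Heis X where
  toFun u := ⟨u.f, fun x => n (u.σ x) - n x, fun x => - u.f x * n x, u.σ⟩
  map_one' := by
    ext x
    · rfl
    · show n ((1 : Equiv.Perm X) x) - n x = 0
      simp
    · show - (0 : ℤ) * n x = 0
      simp
    · rfl
  map_mul' u v := by
    ext x
    · rfl
    · show n ((u.σ * v.σ) x) - n x = (n (u.σ (v.σ x)) - n (v.σ x)) + (n (v.σ x) - n x)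
      rw [Equiv.Perm.mul_apply]
      ring
    · show - (u.f (v.σ x) + v.f x) * n x =
        - u.f (v.σ x) * n (v.σ x) + - v.f x * n x + u.f (v.σ x) * (n (v.σ x) - n x)
      ring
    · rfl

@[simp] lemma iota_a (n : X → ℤ) (u : CoGrp X ℤ) : (iota n u).a = u.f := rfl
@[simp] lemma iota_b (n : X → ℤ) (u : CoGrp X ℤ) (x : X) :
    (iota n u).b x = n (u.σ x) - n x := rfl
@[simp] lemma iota_c (n : X → ℤ) (u : CoGrp X ℤ) (x : X) :
    (iota n u).c x = - u.f x * n x := rfl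
@[simp] lemma iota_σ (n : X → ℤ) (u : CoGrp X ℤ) : (iota n u).σ = u.σ := rfl

lemma toA_iota (n : X → ℤ) (u : CoGrp X ℤ) : Heis.toA (iota n u) = u := by
  ext x
  · rfl
  · rfl

/-- the permutation part of a power. -/
lemma pow_σ (a : CoGrp X ℤ) (k : ℕ) : (a ^ k).σ = a.σ ^ k :=
  map_pow (CoGrp.projHom (X := X) (A := ℤ)) a k

/-- the function part of a power. -/
lemma pow_f (a : CoGrp X ℤ) (k : ℕ) (x : X) :
    (a ^ k).f x = ∑ i ∈ Finset.range k, a.f ((a.σ ^ i) x) := by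
  induction k with
  | zero => simp
  | succ k ih =>
    rw [pow_succ', CoGrp.mul_f, Finset.sum_range_succ, ih, pow_σ, add_comm]

/-- an element of prime order of `CoGrp X ℤ` is a coboundary. -/
theorem exists_cob_of_pow_eq_one {k : ℕ} (hk : k.Prime) (a : CoGrp X ℤ) (ha : a ^ k = 1) :
    ∃ n : X → ℤ, ∀ x, a.f x = n (a.σ x) - n x := by
  have hσ : a.σ ^ k = 1 := by
    rw [← pow_σ, ha]; rfl
  have hN : ∀ x, ∑ i ∈ Finset.range k, a.f ((a.σ ^ i) x) = 0 := by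
    intro x
    rw [← pow_f, ha]; rfl
  have hfix : ∀ x, a.σ x = x → a.f x = 0 := by
    intro x hx
    have h := hN x
    have h2 : ∀ i ∈ Finset.range k, a.f ((a.σ ^ i) x) = a.f x := by
      intro i _
      rw [Equiv.Perm.pow_apply_eq_self_of_apply_eq_self hx]
    rw [Finset.sum_congr rfl h2, Finset.sum_const, Finset.card_range, nsmul_eq_mul] at h
    rcases mul_eq_zero.1 h with h0 | h0
    · exact absurd (by exact_mod_cast h0) hk.ne_zero
    · exact h0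
  obtain ⟨w, hw⟩ := Fermat.Agent.S16.helper21.exists_cobdry hk hσ a.f hN hfix
  refine ⟨fun x => - w x, fun x => ?_⟩
  rw [hw x]
  ring

end DHeis

open DHeis in
/-- **[D-HEIS]**, VERBATIM: every pair of cocycles has a Heisenberg lift. -/
theorem heisLift : Fermat.Agent.P6.helper21.HeisLiftStatement := by
  intro Γ _ hneg Φ Φ' hΦ hΦ'
  -- `Φ (-1) = 1` for every cocycle over the action
  have hneg1 : ∀ Φ₀ : SL(2, ℤ) →* CoGrp (SL(2, ℤ) ⧸ Γ) ℤ, IsOverC Γ Φ₀ → Φ₀ (-1) = 1 := by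
    intro Φ₀ hΦ₀
    have hσ : (Φ₀ (-1)).σ = 1 := by
      rw [hΦ₀]
      ext x
      exact Fermat.Agent.S21.helper83.neg_one_smul' Γ hneg x
    have hsq : Φ₀ (-1) * Φ₀ (-1) = 1 := by
      rw [← map_mul]
      have : (-1 : SL(2, ℤ)) * -1 = 1 := by simp
      rw [this, map_one]
    ext x
    · have h := congrArg (fun u : CoGrp (SL(2, ℤ) ⧸ Γ) ℤ => u.f x) hsq
      simp only [CoGrp.mul_f, CoGrp.one_f, hσ, Equiv.Perm.one_apply] at h
      show (Φ₀ (-1)).f x = 0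
      omega
    · rw [hσ]; rfl
  have hS2 : ∀ Φ₀ : SL(2, ℤ) →* CoGrp (SL(2, ℤ) ⧸ Γ) ℤ, IsOverC Γ Φ₀ →
      Φ₀ ModularGroup.S ^ 2 = 1 := by
    intro Φ₀ hΦ₀
    rw [pow_two, ← map_mul, Fermat.Agent.S16.helper21.S_mul_S, hneg1 Φ₀ hΦ₀]
  have hR3 : ∀ Φ₀ : SL(2, ℤ) →* CoGrp (SL(2, ℤ) ⧸ Γ) ℤ, IsOverC Γ Φ₀ →
      Φ₀ (ModularGroup.S * ModularGroup.T) ^ 3 = 1 := by
    intro Φ₀ hΦ₀
    rw [← map_pow]
    have : (ModularGroup.S * ModularGroup.T : SL(2, ℤ)) ^ 3 = -1 := by decide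
    rw [this, hneg1 Φ₀ hΦ₀]
  -- coboundary form of `Φ' S` and `Φ' (S T)`
  obtain ⟨n₁, hn₁⟩ := exists_cob_of_pow_eq_one Nat.prime_two (Φ' ModularGroup.S) (hS2 Φ' hΦ')
  obtain ⟨n₂, hn₂⟩ := exists_cob_of_pow_eq_one Nat.prime_three
    (Φ' (ModularGroup.S * ModularGroup.T)) (hR3 Φ' hΦ')
  -- the lifts of the generators
  have hs : iota n₁ (Φ ModularGroup.S) ^ 2 = 1 := by
    rw [← map_pow, hS2 Φ hΦ, map_one]
  have hr : iota n₂ (Φ (ModularGroup.S * ModularGroup.T)) ^ 3 = 1 := by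
    rw [← map_pow, hR3 Φ hΦ, map_one]
  obtain ⟨Ψ, hΨS, hΨR, -⟩ := Fermat.Agent.S16.helper64.exists_hom_of_sq_cube _ _ hs hr
  have hA : Heis.toA.comp Ψ = Φ := by
    apply Fermat.Agent.S16.helper64.hom_ext_S_ST
    · rw [MonoidHom.comp_apply, hΨS, toA_iota]
    · rw [MonoidHom.comp_apply, hΨR, toA_iota]
  have hB : Heis.toB.comp Ψ = Φ' := by
    apply Fermat.Agent.S16.helper64.hom_ext_S_ST
    · rw [MonoidHom.comp_apply, hΨS]
      have hσ : (Φ ModularGroup.S).σ = (Φ' ModularGroup.S).σ := by rw [hΦ, hΦ']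
      ext x
      · show n₁ ((Φ ModularGroup.S).σ x) - n₁ x = (Φ' ModularGroup.S).f x
        rw [hn₁ x, hσ]
      · exact congrArg (fun τ : Equiv.Perm (SL(2, ℤ) ⧸ Γ) => τ x) hσ
    · rw [MonoidHom.comp_apply, hΨR]
      have hσ : (Φ (ModularGroup.S * ModularGroup.T)).σ =
          (Φ' (ModularGroup.S * ModularGroup.T)).σ := by rw [hΦ, hΦ']
      ext x
      · show n₂ ((Φ (ModularGroup.S * ModularGroup.T)).σ x) - n₂ x =
          (Φ' (ModularGroup.S * ModularGroup.T)).f x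
        rw [hn₂ x, hσ]
      · exact congrArg (fun τ : Equiv.Perm (SL(2, ℤ) ⧸ Γ) => τ x) hσ
  refine ⟨Ψ, ?_, hA, hB⟩
  intro g
  have h : (Heis.toA (Ψ g)).σ = (Φ g).σ := by
    rw [← hA]; rfl
  rw [← hΦ g, ← h]
  rfl

end Fermat.Agent.P6.helper86
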