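import Mathlib

/-!
# P6 / S41, Theorem A (centrality of `Γ(m) / E(m)` in `SL₂(ℤ[1/q])`): the number theory [A-NT]

Pure Mathlib (helper97).  Main statement: `centNT` (the Dirichlet step (A5) of the proof of
Theorem A, in the form consumed by the key identity (A3)).

* `cnt_dirichlet_two`, `cnt_dirichlet_one` : Dirichlet in divisibility form;
* `CntGood X r n` : `n ∣ X ^ k - 1` for some `k` prime to `r`; primes `l ≢ 1 mod r` and (for
  `r = 2`, `X` a square) primes `l ≡ 3 mod 4` are good; coprime products of good numbers are good;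
* `cnt_final` : the final count;
* the dictionary between `A = ℤ[1/q]` (any `IsLocalization.Away (q : ℤ) A`) and `ℤ`:
  `cnt_intCast_injective`, `cnt_dvd_of_cast_dvd`, `cnt_exists_int` (`A = ℤ + n A`), `cnt_assoc`;
* `centNT`.
-/

set_option autoImplicit false

namespace Fermat.Agent.P6.helper97

/-! ## Integers: Dirichlet with two moduli -/

/-- Dirichlet's theorem for a pair of coprime moduli (integer residues). -/
lemma cnt_dirichlet_two (M₁ M₂ : ℕ) (h₁ : M₁ ≠ 0) (h₂ : M₂ ≠ 0) (hM : Nat.Coprime M₁ M₂)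
    (a₁ a₂ : ℤ) (ha₁ : IsCoprime a₁ (M₁ : ℤ)) (ha₂ : IsCoprime a₂ (M₂ : ℤ)) (K : ℕ) :
    ∃ p : ℕ, K < p ∧ p.Prime ∧ (M₁ : ℤ) ∣ (p : ℤ) - a₁ ∧ (M₂ : ℤ) ∣ (p : ℤ) - a₂ := by
  have hM' : IsCoprime (M₁ : ℤ) (M₂ : ℤ) := Nat.isCoprime_iff_coprime.2 hM
  obtain ⟨u, v, huv⟩ := hM'
  -- u * M₁ + v * M₂ = 1
  set a : ℤ := a₁ * (v * M₂) + a₂ * (u * M₁) with ha
  have e1 : (M₁ : ℤ) ∣ a - a₁ := ⟨(a₂ - a₁) * u, by rw [ha]; linear_combination a₁ * huv⟩
  have e2 : (M₂ : ℤ) ∣ a - a₂ := ⟨(a₁ - a₂) * v, by rw [ha]; linear_combination a₂ * huv⟩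
  have c1 : IsCoprime a (M₁ : ℤ) := by
    obtain ⟨k, hk⟩ := e1
    have : a = a₁ + k * M₁ := by linear_combination hk
    rw [this]
    exact ha₁.add_mul_right_left k
  have c2 : IsCoprime a (M₂ : ℤ) := by
    obtain ⟨k, hk⟩ := e2
    have : a = a₂ + k * M₂ := by linear_combination hk
    rw [this]
    exact ha₂.add_mul_right_left k
  have c : IsCoprime a ((M₁ * M₂ : ℕ) : ℤ) := by
    rw [Nat.cast_mul]
    exact c1.mul_right c2
  obtain ⟨p, hp, hpp, hpa⟩ := Nat.forall_exists_prime_gt_and_zmodEq K (Nat.mul_ne_zero h₁ h₂) c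
  refine ⟨p, hp, hpp, ?_, ?_⟩
  · have h3 : ((M₁ * M₂ : ℕ) : ℤ) ∣ (p : ℤ) - a := (Int.modEq_iff_dvd.1 hpa.symm)
    have h4 : (M₁ : ℤ) ∣ (p : ℤ) - a := dvd_trans ⟨(M₂ : ℤ), by push_cast; ring⟩ h3
    have := dvd_add h4 e1
    simpa using this
  · have h3 : ((M₁ * M₂ : ℕ) : ℤ) ∣ (p : ℤ) - a := (Int.modEq_iff_dvd.1 hpa.symm)
    have h4 : (M₂ : ℤ) ∣ (p : ℤ) - a := dvd_trans ⟨(M₁ : ℤ), by push_cast; ring⟩ h3
    have := dvd_add h4 e2
    simpa using this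

/-- Dirichlet's theorem, one modulus, divisibility form. -/
lemma cnt_dirichlet_one (M : ℕ) (h : M ≠ 0) (a : ℤ) (ha : IsCoprime a (M : ℤ)) (K : ℕ) :
    ∃ p : ℕ, K < p ∧ p.Prime ∧ (M : ℤ) ∣ (p : ℤ) - a := by
  obtain ⟨p, hp, hpp, hpa⟩ := Nat.forall_exists_prime_gt_and_zmodEq K h ha
  exact ⟨p, hp, hpp, Int.modEq_iff_dvd.1 hpa.symm⟩

/-! ## Good numbers -/

/-- `n` is good (for `X` and `r`): `n ∣ X ^ k - 1` for some `k` prime to `r`. -/
def CntGood (X : ℤ) (r : ℕ) (n : ℕ) : Prop :=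
  ∃ k : ℕ, 0 < k ∧ ¬ r ∣ k ∧ (n : ℤ) ∣ X ^ k - 1

lemma cnt_sub_one_dvd_pow (X : ℤ) (a b : ℕ) : X ^ a - 1 ∣ X ^ (a * b) - 1 := by
  have := sub_dvd_pow_sub_pow (X ^ a) 1 b
  rwa [one_pow, ← pow_mul] at this

lemma cntGood_one (X : ℤ) (r : ℕ) (hr : r.Prime) : CntGood X r 1 :=
  ⟨1, one_pos, fun h => hr.one_lt.ne' (Nat.dvd_one.1 h), by simp⟩

lemma cntGood_mul {X : ℤ} {r : ℕ} (hr : r.Prime) {n₁ n₂ : ℕ} (h₁ : CntGood X r n₁)
    (h₂ : CntGood X r n₂) (hc : Nat.Coprime n₁ n₂) : CntGood X r (n₁ * n₂) := by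
  obtain ⟨k₁, hk₁, hr₁, hd₁⟩ := h₁
  obtain ⟨k₂, hk₂, hr₂, hd₂⟩ := h₂
  refine ⟨k₁ * k₂, Nat.mul_pos hk₁ hk₂, ?_, ?_⟩
  · intro h
    rcases (Nat.Prime.dvd_mul hr).1 h with h | h
    · exact hr₁ h
    · exact hr₂ h
  · have e1 : (n₁ : ℤ) ∣ X ^ (k₁ * k₂) - 1 := dvd_trans hd₁ (cnt_sub_one_dvd_pow X k₁ k₂)
    have e2 : (n₂ : ℤ) ∣ X ^ (k₁ * k₂) - 1 := by
      rw [mul_comm k₁ k₂]
      exact dvd_trans hd₂ (cnt_sub_one_dvd_pow X k₂ k₁)
    have hc' : IsCoprime (n₁ : ℤ) (n₂ : ℤ) := Nat.isCoprime_iff_coprime.2 hc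
    rw [Nat.cast_mul]
    exact hc'.mul_dvd e1 e2

/-- Primes `l ≢ 1` modulo `r` not dividing `q` are good for `X = q ^ N`. -/
lemma cntGood_prime {q : ℕ} {r : ℕ} (N : ℕ) {l : ℕ} (hl : l.Prime) (hlq : ¬ l ∣ q)
    (hrl : ¬ r ∣ l - 1) : CntGood ((q : ℤ) ^ N) r l := by
  refine ⟨l - 1, Nat.sub_pos_of_lt hl.one_lt, hrl, ?_⟩
  have hcop : IsCoprime ((q : ℤ) ^ N) (l : ℤ) := by
    apply IsCoprime.pow_left
    rw [Nat.isCoprime_iff_coprime]
    exact (Nat.Coprime.symm ((Nat.Prime.coprime_iff_not_dvd hl).2 hlq))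
  have := Int.ModEq.pow_card_sub_one_eq_one hl hcop
  exact (Int.modEq_iff_dvd.1 this.symm)

/-- Primes `l ≡ 3` modulo `4` not dividing `q` are good for `r = 2` and `X = q ^ (2 N)`. -/
lemma cntGood_prime_two {q : ℕ} (N : ℕ) {l : ℕ} (hl : l.Prime) (hlq : ¬ l ∣ q)
    (hl4 : l % 4 = 3) : CntGood ((q : ℤ) ^ (2 * N)) 2 l := by
  refine ⟨(l - 1) / 2, ?_, ?_, ?_⟩
  · omega
  · omega
  · have hcop : IsCoprime ((q : ℤ) ^ N) (l : ℤ) := by
      apply IsCoprime.pow_left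
      rw [Nat.isCoprime_iff_coprime]
      exact (Nat.Coprime.symm ((Nat.Prime.coprime_iff_not_dvd hl).2 hlq))
    have h1 := Int.ModEq.pow_card_sub_one_eq_one hl hcop
    have h2 : ((q : ℤ) ^ (2 * N)) ^ ((l - 1) / 2) = ((q : ℤ) ^ N) ^ (l - 1) := by
      rw [← pow_mul, ← pow_mul]
      congr 1
      have : l - 1 = 2 * ((l - 1) / 2) := by omega
      rw [this]
      have h3 : 2 * ((l - 1) / 2) / 2 = (l - 1) / 2 := by omega
      rw [h3]
      ring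
    rw [h2]
    exact (Int.modEq_iff_dvd.1 h1.symm)

/-! ## The geometric sum -/

lemma cnt_geom_sub (X : ℤ) (K : ℕ) :
    X - 1 ∣ (∑ i ∈ Finset.range K, X ^ i) - K := by
  induction K with
  | zero => simp
  | succ K ih =>
    rw [Finset.sum_range_succ]
    have h1 : X - 1 ∣ X ^ K - 1 := by
      have := sub_dvd_pow_sub_pow X 1 K
      rwa [one_pow] at this
    have h2 : (∑ i ∈ Finset.range K, X ^ i) + X ^ K - ((K + 1 : ℕ) : ℤ)
        = ((∑ i ∈ Finset.range K, X ^ i) - K) + (X ^ K - 1) := by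
      push_cast; ring
    rw [h2]
    exact dvd_add ih h1

/-- The final count: if `X - 1 = M c y`, `r ∣ M`, `r ∤ y`, and `L` is good and prime to `M c`,
then `X ^ K - 1 = t (M c) L` with `r ∤ t`. -/
lemma cnt_final {X : ℤ} {r : ℕ} (hr : r.Prime) {M c : ℕ} {y : ℤ} (hX : X - 1 = M * c * y)
    (hrM : r ∣ M) (hry : ¬ (r : ℤ) ∣ y) {L : ℕ} (hL : CntGood X r L)
    (hcop : IsCoprime (L : ℤ) ((M : ℤ) * c)) :
    ∃ K : ℕ, 0 < K ∧ ∃ t : ℤ, X ^ K - 1 = t * (M * c) * L ∧ ¬ (r : ℤ) ∣ t := by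
  obtain ⟨K, hK, hrK, hd⟩ := hL
  refine ⟨K, hK, ?_⟩
  set S : ℤ := ∑ i ∈ Finset.range K, X ^ i with hS
  have h1 : X ^ K - 1 = ((M : ℤ) * c) * (y * S) := by
    have := mul_geom_sum X K
    rw [← this, hX, hS]
    ring
  have h2 : (L : ℤ) ∣ y * S := by
    rw [h1] at hd
    exact hcop.dvd_of_dvd_mul_left hd
  obtain ⟨t, ht⟩ := h2
  refine ⟨t, by rw [h1, ht]; ring, ?_⟩
  intro hrt
  have hrp : Prime (r : ℤ) := Nat.prime_iff_prime_int.1 hr
  have h3 : (r : ℤ) ∣ y * S := by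
    rw [ht]
    exact Dvd.dvd.mul_left hrt _
  rcases hrp.dvd_or_dvd h3 with h4 | h4
  · exact hry h4
  · have h5 : (r : ℤ) ∣ X - 1 := by
      rw [hX]
      have : (r : ℤ) ∣ (M : ℤ) := Int.natCast_dvd_natCast.2 hrM
      exact Dvd.dvd.mul_right (Dvd.dvd.mul_right this _) _
    have h6 : (r : ℤ) ∣ S - K := dvd_trans h5 (cnt_geom_sub X K)
    have h7 : (r : ℤ) ∣ (K : ℤ) := by
      have := dvd_sub h4 h6
      simpa using this
    exact hrK (Int.natCast_dvd_natCast.1 h7)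

/-! ## The set-up: `X = q ^ (2 φ(m))` -/

lemma cnt_setup (q m r : ℕ) (hq : q.Prime) (hr : r.Prime) (hmq : m.Coprime q) (hm : m ≠ 0) :
    ∃ (κ : ℕ) (y : ℤ), (q : ℤ) ^ (2 * Nat.totient m) - 1 = (m : ℤ) * ((r ^ κ : ℕ) : ℤ) * y ∧
      ¬ (r : ℤ) ∣ y := by
  have h1 : q ^ Nat.totient m ≡ 1 [MOD m] := Nat.ModEq.pow_totient hmq.symm
  have h2 : (m : ℤ) ∣ (q : ℤ) ^ Nat.totient m - 1 := by
    have := (Nat.modEq_iff_dvd.1 h1.symm)
    simpa using this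
  have h3 : (m : ℤ) ∣ (q : ℤ) ^ (2 * Nat.totient m) - 1 := by
    have : (q : ℤ) ^ (2 * Nat.totient m) - 1
        = ((q : ℤ) ^ Nat.totient m - 1) * ((q : ℤ) ^ Nat.totient m + 1) := by ring
    rw [this]
    exact Dvd.dvd.mul_right h2 _
  obtain ⟨z, hz⟩ := h3
  have hXgt : (1 : ℤ) < (q : ℤ) ^ (2 * Nat.totient m) := by
    have hq2 : (1 : ℤ) < (q : ℤ) := by exact_mod_cast hq.one_lt
    apply one_lt_pow₀ hq2
    have := Nat.totient_pos.2 (Nat.pos_of_ne_zero hm)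
    omega
  have hzpos : 0 < z := by
    have h4 : 0 < (m : ℤ) * z := by rw [← hz]; linarith
    have h5 : (0 : ℤ) < m := by exact_mod_cast Nat.pos_of_ne_zero hm
    exact (mul_pos_iff_of_pos_left h5).1 h4
  have hz0 : z.toNat ≠ 0 := by
    intro h
    have := Int.toNat_eq_zero.1 h
    omega
  obtain ⟨κ, n', hn', hzn⟩ := Nat.exists_eq_pow_mul_and_not_dvd hz0 r hr.one_lt.ne'
  refine ⟨κ, (n' : ℤ), ?_, ?_⟩
  · have h6 : z = ((r ^ κ * n' : ℕ) : ℤ) := by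
      rw [← hzn]
      exact (Int.toNat_of_nonneg hzpos.le).symm
    rw [hz, h6]
    push_cast
    ring
  · intro h
    exact hn' (Int.natCast_dvd_natCast.1 h)

/-! ## Step 1: the prime `l₁` -/

lemma cnt_step1 (m r : ℕ) (hr : r.Prime) (hrm : r ∣ m) (κ : ℕ)
    (D : ℕ) (hD0 : D ≠ 0) (hDm : D.Coprime m) (B : ℤ) (hB : IsCoprime B (D : ℤ)) (K : ℕ) :
    ∃ l : ℕ, K < l ∧ l.Prime ∧ (D : ℤ) ∣ ((r ^ κ : ℕ) : ℤ) * l - B ∧
      ((r ≠ 2 ∧ ¬ r ∣ l - 1) ∨ (r = 2 ∧ l % 4 = 3)) := by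
  have hDr : D.Coprime r := Nat.Coprime.coprime_dvd_right hrm hDm
  have hcD : IsCoprime (((r ^ κ : ℕ) : ℤ)) (D : ℤ) := by
    rw [Nat.isCoprime_iff_coprime]
    exact Nat.Coprime.pow_left κ hDr.symm
  obtain ⟨c', v, hcv⟩ := hcD
  -- c' * c + v * D = 1
  have ha₁ : IsCoprime (B * c') (D : ℤ) := by
    apply IsCoprime.mul_left hB
    exact ⟨((r ^ κ : ℕ) : ℤ), v, by linear_combination hcv⟩
  have key : ∀ l : ℤ, (D : ℤ) ∣ l - B * c' → (D : ℤ) ∣ ((r ^ κ : ℕ) : ℤ) * l - B := by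
    rintro l ⟨k, hk⟩
    refine ⟨((r ^ κ : ℕ) : ℤ) * k - B * v, ?_⟩
    linear_combination ((r ^ κ : ℕ) : ℤ) * hk + B * hcv
  by_cases hr2 : r = 2
  · have hD4 : Nat.Coprime D 4 := by
      have : Nat.Coprime D 2 := hr2 ▸ hDr
      have h22 : (4 : ℕ) = 2 ^ 2 := by norm_num
      rw [h22]
      exact Nat.Coprime.pow_right 2 this
    obtain ⟨l, hl, hlp, h1, h2⟩ := cnt_dirichlet_two D 4 hD0 (by norm_num) hD4 (B * c') 3 ha₁
      (by rw [show ((4 : ℕ) : ℤ) = 4 by norm_num]; exact ⟨-1, 1, by norm_num⟩) K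
    refine ⟨l, hl, hlp, key _ h1, Or.inr ⟨hr2, ?_⟩⟩
    obtain ⟨k, hk⟩ := h2
    push_cast at hk
    omega
  · have hr2' : IsCoprime (2 : ℤ) (r : ℤ) := by
      have : Nat.Coprime 2 r := by
        rw [Nat.coprime_primes Nat.prime_two hr]
        exact fun h => hr2 h.symm
      exact_mod_cast Nat.isCoprime_iff_coprime.2 this
    obtain ⟨l, hl, hlp, h1, h2⟩ := cnt_dirichlet_two D r hD0 hr.ne_zero hDr (B * c') 2 ha₁ hr2' K
    refine ⟨l, hl, hlp, key _ h1, Or.inl ⟨hr2, ?_⟩⟩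
    intro h3
    have h4 : (r : ℤ) ∣ ((l - 1 : ℕ) : ℤ) := Int.natCast_dvd_natCast.2 h3
    rw [Nat.cast_sub hlp.one_lt.le, Nat.cast_one] at h4
    have h5 : (r : ℤ) ∣ 1 := by
      have := dvd_sub h4 h2
      have e : ((l : ℤ) - 1) - ((l : ℤ) - 2) = 1 := by ring
      rwa [e] at this
    have h6 : r ∣ 1 := by exact_mod_cast h5
    exact hr.one_lt.ne' (Nat.dvd_one.1 h6)

/-! ## Step 2: the number `d₁` -/

lemma cnt_not_dvd_of_gt {q l K : ℕ} (hq : q.Prime) (hKq : q ≤ K) (hl : K < l) : ¬ l ∣ q := by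
  intro h
  have := Nat.le_of_dvd hq.pos h
  omega

lemma cnt_inv_mod {l Mod : ℕ} (hl : l.Prime) (hMod : Mod ≠ 0) (hlt : Mod < l) :
    ∃ u v : ℤ, u * l + v * Mod = 1 := by
  have h1 : Nat.Coprime l Mod :=
    (Nat.Prime.coprime_iff_not_dvd hl).2 (Nat.not_dvd_of_pos_of_lt (Nat.pos_of_ne_zero hMod) hlt)
  exact Nat.isCoprime_iff_coprime.2 h1

lemma cnt_step2 (q r : ℕ) (hq : q.Prime) (hr : r.Prime) (N : ℕ) (Mod : ℕ) (hMod : Mod ≠ 0)
    (hrMod : r ∣ Mod) (h4 : r = 2 → 4 ∣ Mod) (D0 : ℤ) (hD0 : IsCoprime D0 (Mod : ℤ))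
    (hD0r : (r : ℤ) ∣ D0 - 1) (K : ℕ) (hKq : q ≤ K) :
    ∃ d1 : ℕ, 0 < d1 ∧ (Mod : ℤ) ∣ (d1 : ℤ) - D0 ∧ CntGood ((q : ℤ) ^ (2 * N)) r d1 ∧
      ∀ p : ℕ, p.Prime → p ∣ d1 → K < p := by
  -- the two-prime construction, for a first prime `l2 > max K Mod`
  have two : ∀ l2 : ℕ, max K Mod < l2 → l2.Prime →
      ∃ l3 : ℕ, l2 < l3 ∧ l3.Prime ∧ (Mod : ℤ) ∣ ((l2 * l3 : ℕ) : ℤ) - D0 := by
    intro l2 hl2 hl2p
    have hl2M : Mod < l2 := lt_of_le_of_lt (le_max_right _ _) hl2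
    obtain ⟨u, v, huv⟩ := cnt_inv_mod hl2p hMod hl2M
    have ha : IsCoprime (D0 * u) (Mod : ℤ) := by
      apply IsCoprime.mul_left hD0
      exact ⟨(l2 : ℤ), v, by linear_combination huv⟩
    obtain ⟨l3, hl3, hl3p, h3⟩ := cnt_dirichlet_one Mod hMod (D0 * u) ha l2
    refine ⟨l3, hl3, hl3p, ?_⟩
    obtain ⟨k, hk⟩ := h3
    refine ⟨(l2 : ℤ) * k - D0 * v, ?_⟩
    push_cast
    linear_combination (l2 : ℤ) * hk + D0 * huv
  have fac : ∀ l2 l3 : ℕ, l2.Prime → l3.Prime → K < l2 → K < l3 →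
      ∀ p : ℕ, p.Prime → p ∣ l2 * l3 → K < p := by
    intro l2 l3 h2 h3 hk2 hk3 p hp hpd
    rcases (Nat.Prime.dvd_mul hp).1 hpd with h | h
    · rwa [(Nat.prime_dvd_prime_iff_eq hp h2).1 h]
    · rwa [(Nat.prime_dvd_prime_iff_eq hp h3).1 h]
  by_cases hr2 : r = 2
  · subst hr2
    have h4' : (4 : ℤ) ∣ (Mod : ℤ) := by exact_mod_cast h4 rfl
    obtain ⟨j, hj⟩ := hD0r
    rcases Int.emod_two_eq_zero_or_one j with hj2 | hj2
    · -- `D0 ≡ 1 mod 4`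
      have hD4 : (4 : ℤ) ∣ D0 - 1 := by
        obtain ⟨i, hi⟩ := Int.dvd_of_emod_eq_zero hj2
        exact ⟨i, by rw [hj, hi]; push_cast; ring⟩
      obtain ⟨l2, hl2, hl2p, h2⟩ := cnt_dirichlet_one 4 (by norm_num) 3
        (by rw [show ((4 : ℕ) : ℤ) = 4 by norm_num]; exact ⟨-1, 1, by norm_num⟩) (max K Mod)
      obtain ⟨l3, hl3, hl3p, h3⟩ := two l2 hl2 hl2p
      have hK2 : K < l2 := lt_of_le_of_lt (le_max_left _ _) hl2
      have hK3 : K < l3 := hK2.trans hl3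
      have hl2_4 : l2 % 4 = 3 := by
        obtain ⟨k, hk⟩ := h2
        push_cast at hk
        omega
      have hl3_4 : l3 % 4 = 3 := by
        have e1 : (4 : ℤ) ∣ ((l2 * l3 : ℕ) : ℤ) - 1 := by
          have := dvd_add (dvd_trans h4' h3) hD4
          have e : ((l2 * l3 : ℕ) : ℤ) - D0 + (D0 - 1) = ((l2 * l3 : ℕ) : ℤ) - 1 := by ring
          rwa [e] at this
        have e2 : (4 : ℤ) ∣ 3 * (l3 : ℤ) - 1 := by
          obtain ⟨k, hk⟩ := h2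
          obtain ⟨k', hk'⟩ := e1
          push_cast at hk hk'
          exact ⟨k' - k * l3, by linear_combination hk' - (l3 : ℤ) * hk⟩
        obtain ⟨k, hk⟩ := e2
        omega
      refine ⟨l2 * l3, Nat.mul_pos hl2p.pos hl3p.pos, h3, ?_, fac l2 l3 hl2p hl3p hK2 hK3⟩
      apply cntGood_mul Nat.prime_two
      · exact cntGood_prime_two N hl2p (cnt_not_dvd_of_gt hq hKq hK2) hl2_4
      · exact cntGood_prime_two N hl3p (cnt_not_dvd_of_gt hq hKq hK3) hl3_4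
      · rw [Nat.coprime_primes hl2p hl3p]
        exact hl3.ne
    · -- `D0 ≡ 3 mod 4`
      have hD4 : (4 : ℤ) ∣ D0 - 3 := by
        have : (2 : ℤ) ∣ j - 1 := by
          apply Int.dvd_of_emod_eq_zero
          omega
        obtain ⟨i, hi⟩ := this
        exact ⟨i, by
          have : j = 2 * i + 1 := by linarith
          push_cast at hj
          rw [this] at hj
          linarith⟩
      obtain ⟨l2, hl2, hl2p, h2⟩ := cnt_dirichlet_one Mod hMod D0 hD0 K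
      have hl2_4 : l2 % 4 = 3 := by
        have := dvd_add (dvd_trans h4' h2) hD4
        have e : (l2 : ℤ) - D0 + (D0 - 3) = (l2 : ℤ) - 3 := by ring
        rw [e] at this
        obtain ⟨k, hk⟩ := this
        omega
      refine ⟨l2, hl2p.pos, h2, cntGood_prime_two N hl2p (cnt_not_dvd_of_gt hq hKq hl2) hl2_4,
        ?_⟩
      intro p hp hpd
      rwa [(Nat.prime_dvd_prime_iff_eq hp hl2p).1 hpd]
  · have hr2' : IsCoprime (2 : ℤ) (r : ℤ) := by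
      have : Nat.Coprime 2 r := by
        rw [Nat.coprime_primes Nat.prime_two hr]
        exact fun h => hr2 h.symm
      exact_mod_cast Nat.isCoprime_iff_coprime.2 this
    obtain ⟨l2, hl2, hl2p, h2⟩ := cnt_dirichlet_one r hr.ne_zero 2 hr2' (max K Mod)
    obtain ⟨l3, hl3, hl3p, h3⟩ := two l2 hl2 hl2p
    have hK2 : K < l2 := lt_of_le_of_lt (le_max_left _ _) hl2
    have hK3 : K < l3 := hK2.trans hl3
    have hone : ¬ (r : ℤ) ∣ 1 := by
      intro h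
      have h6 : r ∣ 1 := by exact_mod_cast h
      exact hr.one_lt.ne' (Nat.dvd_one.1 h6)
    have hg2 : ¬ r ∣ l2 - 1 := by
      intro h
      have h4 : (r : ℤ) ∣ ((l2 - 1 : ℕ) : ℤ) := Int.natCast_dvd_natCast.2 h
      rw [Nat.cast_sub hl2p.one_lt.le, Nat.cast_one] at h4
      apply hone
      have := dvd_sub h4 h2
      have e : ((l2 : ℤ) - 1) - ((l2 : ℤ) - 2) = 1 := by ring
      rwa [e] at this
    have hg3 : ¬ r ∣ l3 - 1 := by
      intro h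
      have h4 : (r : ℤ) ∣ ((l3 - 1 : ℕ) : ℤ) := Int.natCast_dvd_natCast.2 h
      rw [Nat.cast_sub hl3p.one_lt.le, Nat.cast_one] at h4
      apply hone
      have hrM : (r : ℤ) ∣ (Mod : ℤ) := Int.natCast_dvd_natCast.2 hrMod
      have e1 : (r : ℤ) ∣ ((l2 * l3 : ℕ) : ℤ) - 1 := by
        have := dvd_add (dvd_trans hrM h3) hD0r
        have e : ((l2 * l3 : ℕ) : ℤ) - D0 + (D0 - 1) = ((l2 * l3 : ℕ) : ℤ) - 1 := by ring
        rwa [e] at this
      obtain ⟨k1, hk1⟩ := e1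
      obtain ⟨k2, hk2⟩ := h2
      obtain ⟨k3, hk3⟩ := h4
      push_cast at hk1
      exact ⟨k1 - k2 * l3 - 2 * k3, by linear_combination hk1 - (l3 : ℤ) * hk2 - 2 * hk3⟩
    refine ⟨l2 * l3, Nat.mul_pos hl2p.pos hl3p.pos, h3, ?_, fac l2 l3 hl2p hl3p hK2 hK3⟩
    apply cntGood_mul hr
    · exact cntGood_prime (2 * N) hl2p (cnt_not_dvd_of_gt hq hKq hK2) hg2
    · exact cntGood_prime (2 * N) hl3p (cnt_not_dvd_of_gt hq hKq hK3) hg3
    · rw [Nat.coprime_primes hl2p hl3p]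
      exact hl3.ne

/-! ## The dictionary between `A = ℤ[1/q]` and `ℤ` -/

section Dict

variable (q : ℕ) (A : Type) [CommRing A] [Algebra ℤ A] [IsLocalization.Away (q : ℤ) A]

lemma cnt_q_isUnit : IsUnit ((q : ℕ) : A) := by
  have := IsLocalization.Away.algebraMap_isUnit (S := A) (q : ℤ)
  rwa [eq_intCast, Int.cast_natCast] at this

lemma cnt_surj (x : A) : ∃ (k : ℕ) (z : ℤ), x * (q : A) ^ k = (z : A) := by
  obtain ⟨k, z, h⟩ := IsLocalization.Away.surj (q : ℤ) x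
  refine ⟨k, z, ?_⟩
  rwa [eq_intCast, eq_intCast, Int.cast_natCast] at h

lemma cnt_intCast_injective (hq : q ≠ 0) : Function.Injective (Int.cast : ℤ → A) := by
  have h1 : Submonoid.powers (q : ℤ) ≤ nonZeroDivisors ℤ :=
    powers_le_nonZeroDivisors_of_noZeroDivisors (by exact_mod_cast hq)
  have h2 := IsLocalization.injective A h1
  intro a b hab
  apply h2
  rwa [eq_intCast, eq_intCast]

variable {q}

lemma cnt_dvd_of_cast_dvd (hq : q.Prime) {n : ℕ} (hn : n.Coprime q) {z : ℤ}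
    (h : (n : A) ∣ (z : A)) : (n : ℤ) ∣ z := by
  obtain ⟨x, hx⟩ := h
  obtain ⟨k, w, hw⟩ := cnt_surj q A x
  have h1 : ((z * (q : ℤ) ^ k : ℤ) : A) = (((n : ℤ) * w : ℤ) : A) := by
    push_cast
    rw [hx, mul_assoc, hw]
  have h2 := cnt_intCast_injective q A hq.ne_zero h1
  have h3 : (n : ℤ) ∣ z * (q : ℤ) ^ k := ⟨w, h2⟩
  have h4 : IsCoprime (n : ℤ) ((q : ℤ) ^ k) := by
    apply IsCoprime.pow_right
    exact Nat.isCoprime_iff_coprime.2 hn
  exact h4.dvd_of_dvd_mul_right h3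

lemma cnt_exists_int {n : ℕ} (hn : n.Coprime q) (x : A) : ∃ z : ℤ, (n : A) ∣ x - (z : A) := by
  obtain ⟨k, w, hw⟩ := cnt_surj q A x
  have h4 : IsCoprime (n : ℤ) ((q : ℤ) ^ k) := by
    apply IsCoprime.pow_right
    exact Nat.isCoprime_iff_coprime.2 hn
  obtain ⟨u, v, huv⟩ := h4
  refine ⟨w * v, (u : A) * x, ?_⟩
  have h5 : ((u * (n : ℤ) + v * (q : ℤ) ^ k : ℤ) : A) = 1 := by rw [huv]; simp
  push_cast at h5
  push_cast
  rw [← hw]
  linear_combination (-x) * h5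

lemma cnt_assoc (hq : q.Prime) (x : A) (hx : x ≠ 0) :
    ∃ D : ℕ, D ≠ 0 ∧ D.Coprime q ∧ (D : A) ∣ x ∧ x ∣ (D : A) := by
  obtain ⟨k, w, hw⟩ := cnt_surj q A x
  obtain ⟨uq, huq⟩ := cnt_q_isUnit q A
  have hw0 : w ≠ 0 := by
    rintro rfl
    rw [Int.cast_zero] at hw
    rw [← huq] at hw
    have : x * ((uq ^ k : Aˣ) : A) = 0 := by rw [Units.val_pow_eq_pow_val]; exact hw
    exact hx ((Units.mul_left_eq_zero _).1 this)
  have hwn : w.natAbs ≠ 0 := Int.natAbs_ne_zero.2 hw0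
  obtain ⟨e, D, hD, hwD⟩ := Nat.exists_eq_pow_mul_and_not_dvd hwn q hq.one_lt.ne'
  have hD0 : D ≠ 0 := by
    rintro rfl
    exact hD (dvd_zero _)
  refine ⟨D, hD0, (Nat.Coprime.symm ((Nat.Prime.coprime_iff_not_dvd hq).2 hD)), ?_, ?_⟩
  · -- x = w / q^k, w = ± q^e D
    have h1 : (D : ℤ) ∣ w := by
      rw [← Int.natAbs_dvd_natAbs, Int.natAbs_natCast, hwD]
      exact Dvd.intro_left _ rfl
    obtain ⟨c, hc⟩ := h1
    refine ⟨(c : A) * ((uq⁻¹ ^ k : Aˣ) : A), ?_⟩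
    have h2 : x = (w : A) * ((uq⁻¹ ^ k : Aˣ) : A) := by
      rw [← hw, ← huq, ← Units.val_pow_eq_pow_val, mul_assoc, ← Units.val_mul, ← mul_pow,
        mul_inv_cancel, one_pow, Units.val_one, mul_one]
    rw [h2, hc]
    push_cast
    ring
  · have h1 : w ∣ ((q ^ e * D : ℕ) : ℤ) := by
      rw [← hwD]
      exact Int.dvd_natCast.2 (dvd_refl _)
    obtain ⟨c, hc⟩ := h1
    have h2 : (D : A) * (q : A) ^ e = x * ((q : A) ^ k * (c : A)) := by
      rw [← mul_assoc, hw]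
      have := congrArg (Int.cast : ℤ → A) hc
      push_cast at this
      rw [← this]
      ring
    refine ⟨(q : A) ^ k * (c : A) * ((uq⁻¹ ^ e : Aˣ) : A), ?_⟩
    have h3 : (D : A) = (D : A) * (q : A) ^ e * ((uq⁻¹ ^ e : Aˣ) : A) := by
      rw [← huq, ← Units.val_pow_eq_pow_val, mul_assoc, ← Units.val_mul, ← mul_pow,
        mul_inv_cancel, one_pow, Units.val_one, mul_one]
    rw [h3, h2]
    ring

end Dict

/-! ## The main statement -/

/-- **[A-NT]** (the Dirichlet step (A5) of Theorem A). Let `A = ℤ[1/q]`, `m` prime to `q`,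
`r` a prime divisor of `m`, `(b, d)` a coprime pair of `A` with `b ≡ 0`, `d ≡ 1` modulo `m`.
After the moves `b ↦ b₁ = b + m s₁ d`, `d ↦ d₁ = d + m s₂ b₁` there are `n ≥ 1` and an integer
`t` prime to `r` with `q ^ n - 1 = t b₁ d₁`. -/
theorem centNT (q : ℕ) (hq : q.Prime) (A : Type) [CommRing A] [Algebra ℤ A]
    [IsLocalization.Away (q : ℤ) A] (m : ℕ) (hm : m.Coprime q) (r : ℕ) (hr : r.Prime)
    (hrm : r ∣ m) (b d : A) (hb : (m : A) ∣ b) (hd : (m : A) ∣ d - 1) (hbd : IsCoprime b d) :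
    ∃ (s₁ s₂ : A) (n : ℕ) (t : ℤ), 0 < n ∧ ¬ (r : ℤ) ∣ t ∧
      (q : A) ^ n - 1 = (t : A) * (b + m * s₁ * d) * (d + m * s₂ * (b + m * s₁ * d)) := by
  have hm0 : m ≠ 0 := by
    rintro rfl
    rw [Nat.coprime_zero_left] at hm
    exact hq.one_lt.ne' hm
  have hrq : r.Coprime q := Nat.Coprime.coprime_dvd_left hrm hm
  have hone : ∀ g : ℕ, g.Coprime q → (g : A) ∣ 1 → g = 1 := by
    intro g hg h
    have h1 : (g : A) ∣ ((1 : ℤ) : A) := by simpa using h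
    have h2 := cnt_dvd_of_cast_dvd A hq hg h1
    have h3 : g ∣ 1 := by exact_mod_cast h2
    exact Nat.dvd_one.1 h3
  -- `d ≠ 0`
  have hd0 : d ≠ 0 := by
    rintro rfl
    have h1 : (m : A) ∣ 1 := by
      have := (dvd_neg).2 hd
      simpa using this
    have h2 := hone m hm h1
    rw [h2] at hrm
    exact hr.one_lt.ne' (Nat.dvd_one.1 hrm)
  obtain ⟨D, hD0, hDq, hDd, hdD⟩ := cnt_assoc A hq d hd0
  -- `D` is prime to `m`
  have hDm : D.Coprime m := by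
    have hg : (Nat.gcd D m).Coprime q := Nat.Coprime.coprime_dvd_left (Nat.gcd_dvd_right D m) hm
    apply hone _ hg
    have h1 : ((Nat.gcd D m : ℕ) : A) ∣ d :=
      dvd_trans (Nat.cast_dvd_cast (Nat.gcd_dvd_left D m)) hDd
    have h2 : ((Nat.gcd D m : ℕ) : A) ∣ d - 1 :=
      dvd_trans (Nat.cast_dvd_cast (Nat.gcd_dvd_right D m)) hd
    have := dvd_sub h1 h2
    simpa using this
  obtain ⟨β, hβ⟩ := hb
  obtain ⟨B, hB⟩ := cnt_exists_int A hDq β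
  -- `B` is prime to `D`
  have hBD : IsCoprime B (D : ℤ) := by
    obtain ⟨x, y, hxy⟩ := hbd
    obtain ⟨x', hx'⟩ := cnt_exists_int A hDq (x * m)
    have h1 : (D : A) ∣ ((x' * B - 1 : ℤ) : A) := by
      have e : ((x' * B - 1 : ℤ) : A)
          = -((x * m - (x' : A)) * (B : A)) - (x * m) * (β - (B : A)) - y * d := by
        push_cast
        rw [hβ] at hxy
        linear_combination hxy
      rw [e]
      exact dvd_sub (dvd_sub ((dvd_neg).2 (Dvd.dvd.mul_right hx' _)) (Dvd.dvd.mul_left hB _))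
        (Dvd.dvd.mul_left hDd _)
    obtain ⟨k, hk⟩ := cnt_dvd_of_cast_dvd A hq hDq h1
    exact ⟨x', -k, by linear_combination hk⟩
  obtain ⟨κ, y, hXy, hry⟩ := cnt_setup q m r hq hr hm hm0
  obtain ⟨l1, hl1K, hl1p, hl1D, hl1g⟩ := cnt_step1 m r hr hrm κ D hD0 hDm B hBD (max q m)
  have hl1q : q < l1 := lt_of_le_of_lt (le_max_left _ _) hl1K
  have hl1m : m < l1 := lt_of_le_of_lt (le_max_right _ _) hl1K
  have hl1nq : ¬ l1 ∣ q := cnt_not_dvd_of_gt hq le_rfl hl1q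
  -- `b₁`
  have hs1 : d ∣ (((r ^ κ : ℕ) : ℤ) * l1 : ℤ) - β := by
    apply dvd_trans hdD
    have h1 : (D : A) ∣ (((((r ^ κ : ℕ) : ℤ) * l1 - B : ℤ) : ℤ) : A) := by
      obtain ⟨k, hk⟩ := hl1D
      exact ⟨(k : A), by rw [hk]; push_cast; ring⟩
    have e : ((((r ^ κ : ℕ) : ℤ) * l1 : ℤ) : A) - β
        = (((((r ^ κ : ℕ) : ℤ) * l1 - B : ℤ) : ℤ) : A) - (β - (B : A)) := by
      push_cast; ring
    rw [e]
    exact dvd_sub h1 hB
  obtain ⟨s₁, hs₁⟩ := hs1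
  set b1 : ℕ := m * r ^ κ * l1 with hb1
  have hb1A : (b1 : A) = b + m * s₁ * d := by
    rw [hb1, hβ]
    push_cast at hs₁ ⊢
    linear_combination (m : A) * hs₁
  have hcop1 : IsCoprime (b1 : A) d := by
    rw [hb1A]
    have := hbd.add_mul_left_left (m * s₁)
    convert this using 1
    ring
  have hb1q : b1.Coprime q := by
    rw [hb1]
    apply Nat.Coprime.mul_left (Nat.Coprime.mul_left hm (Nat.Coprime.pow_left κ hrq))
    exact (Nat.Prime.coprime_iff_not_dvd hl1p).2 hl1nq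
  have hb10 : b1 ≠ 0 := by
    rw [hb1]
    exact Nat.mul_ne_zero (Nat.mul_ne_zero hm0 (pow_ne_zero _ hr.ne_zero)) hl1p.ne_zero
  -- the modulus
  set Mod : ℕ := m * b1 with hMod
  have hModq : Mod.Coprime q := Nat.Coprime.mul_left hm hb1q
  have hMod0 : Mod ≠ 0 := Nat.mul_ne_zero hm0 hb10
  obtain ⟨D0, hD0d⟩ := cnt_exists_int A hModq d
  have hmD0 : (m : ℤ) ∣ D0 - 1 := by
    apply cnt_dvd_of_cast_dvd A hq hm
    have h1 : (m : A) ∣ d - (D0 : A) :=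
      dvd_trans (Nat.cast_dvd_cast (Dvd.intro _ rfl)) hD0d
    have := dvd_sub hd h1
    have e : d - 1 - (d - (D0 : A)) = ((D0 - 1 : ℤ) : A) := by push_cast; ring
    rwa [e] at this
  have hrD0 : (r : ℤ) ∣ D0 - 1 := dvd_trans (Int.natCast_dvd_natCast.2 hrm) hmD0
  have hD0Mod : IsCoprime D0 (Mod : ℤ) := by
    rw [hMod, Nat.cast_mul]
    apply IsCoprime.mul_right
    · obtain ⟨k, hk⟩ := hmD0
      exact ⟨1, -k, by linear_combination hk⟩
    · obtain ⟨x, y', hxy⟩ := hcop1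
      obtain ⟨y'', hy''⟩ := cnt_exists_int A hb1q y'
      have hb1Mod : (b1 : A) ∣ d - (D0 : A) :=
        dvd_trans (Nat.cast_dvd_cast (Dvd.intro_left _ rfl)) hD0d
      have h1 : (b1 : A) ∣ ((y'' * D0 - 1 : ℤ) : A) := by
        have e : ((y'' * D0 - 1 : ℤ) : A)
            = -((y' - (y'' : A)) * (D0 : A)) - y' * (d - (D0 : A)) - x * (b1 : A) := by
          push_cast
          linear_combination hxy
        rw [e]
        exact dvd_sub (dvd_sub ((dvd_neg).2 (Dvd.dvd.mul_right hy'' _))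
          (Dvd.dvd.mul_left hb1Mod _)) (Dvd.intro_left _ rfl)
      obtain ⟨k, hk⟩ := cnt_dvd_of_cast_dvd A hq hb1q h1
      exact ⟨y'', -k, by linear_combination hk⟩
  have h4 : r = 2 → 4 ∣ Mod := by
    intro h2
    obtain ⟨m', hm'⟩ := h2 ▸ hrm
    refine ⟨m' * m' * r ^ κ * l1, ?_⟩
    rw [hMod, hb1, hm']
    ring
  obtain ⟨d1, hd1pos, hd1Mod, hd1g, hd1p⟩ := cnt_step2 q r hq hr (Nat.totient m) Mod hMod0
    (Dvd.dvd.mul_right hrm _) h4 D0 hD0Mod hrD0 (max q l1) (le_max_left _ _)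
  -- `d₁`
  have hs2 : (Mod : A) ∣ (d1 : A) - d := by
    have h1 : (Mod : A) ∣ (((d1 : ℤ) - D0 : ℤ) : A) := by
      obtain ⟨k, hk⟩ := hd1Mod
      exact ⟨(k : A), by rw [hk]; push_cast; ring⟩
    have e : (d1 : A) - d = (((d1 : ℤ) - D0 : ℤ) : A) - (d - (D0 : A)) := by
      push_cast; ring
    rw [e]
    exact dvd_sub h1 hD0d
  obtain ⟨s₂, hs₂⟩ := hs2
  have hd1A : (d1 : A) = d + m * s₂ * (b + m * s₁ * d) := by
    rw [← hb1A]
    rw [hMod] at hs₂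
    push_cast at hs₂
    linear_combination hs₂
  -- goodness
  have hl1good : CntGood ((q : ℤ) ^ (2 * Nat.totient m)) r l1 := by
    rcases hl1g with ⟨-, h⟩ | ⟨h2, h⟩
    · exact cntGood_prime _ hl1p hl1nq h
    · subst h2
      exact cntGood_prime_two _ hl1p hl1nq h
  have hl1d1 : Nat.Coprime l1 d1 := by
    rw [Nat.Prime.coprime_iff_not_dvd hl1p]
    intro h
    have := hd1p l1 hl1p h
    have h' : l1 ≤ max q l1 := le_max_right _ _
    omega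
  have hLgood := cntGood_mul hr hl1good hd1g hl1d1
  have hsmall : ∀ p : ℕ, p.Prime → p ∣ m * r ^ κ → p ≤ m := by
    intro p hp hpd
    rcases (Nat.Prime.dvd_mul hp).1 hpd with h | h
    · exact Nat.le_of_dvd (Nat.pos_of_ne_zero hm0) h
    · have := (Nat.prime_dvd_prime_iff_eq hp hr).1 (hp.dvd_of_dvd_pow h)
      rw [this]
      exact Nat.le_of_dvd (Nat.pos_of_ne_zero hm0) hrm
  have hLcop : IsCoprime ((l1 * d1 : ℕ) : ℤ) ((m : ℤ) * ((r ^ κ : ℕ) : ℤ)) := by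
    have : Nat.Coprime (l1 * d1) (m * r ^ κ) := by
      apply Nat.Coprime.symm
      apply Nat.coprime_of_dvd
      intro p hp hpd hpL
      have h1 := hsmall p hp hpd
      rcases (Nat.Prime.dvd_mul hp).1 hpL with h | h
      · have := (Nat.prime_dvd_prime_iff_eq hp hl1p).1 h
        omega
      · have := hd1p p hp h
        have h' : l1 ≤ max q l1 := le_max_right _ _
        omega
    have h2 := Nat.isCoprime_iff_coprime.2 this
    rwa [Nat.cast_mul (m) (r ^ κ)] at h2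
  obtain ⟨K, hK, t, ht, hrt⟩ := cnt_final hr hXy hrm hry hLgood hLcop
  refine ⟨s₁, s₂, 2 * Nat.totient m * K, t, ?_, hrt, ?_⟩
  · exact Nat.mul_pos (Nat.mul_pos two_pos (Nat.totient_pos.2 (Nat.pos_of_ne_zero hm0))) hK
  · rw [← hd1A, ← hb1A, hb1]
    have := congrArg (Int.cast : ℤ → A) ht
    push_cast at this ⊢
    rw [pow_mul]
    linear_combination this

end Fermat.Agent.P6.helper97
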