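import Mathlib
import Fermat.Agent.P6.helper99_PDForm

set_option autoImplicit false

open Finset

namespace Fermat.Agent.P6.helper99

/-! ## Restriction and corestriction in the coset model: pull-back and push-forward along an
equivariant map `π : X' → X` -/

section Adj

variable {X X' : Type*}

/-- pull-back of functions (restriction) -/
def pullL (π : X' → X) : (X → ℤ) →ₗ[ℤ] (X' → ℤ) where
  toFun f := f ∘ π
  map_add' _ _ := rfl
  map_smul' _ _ := rfl

@[simp] lemma pullL_apply (π : X' → X) (f : X → ℤ) (x' : X') : pullL π f x' = f (π x') := rfl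

lemma pullL_mem_invSub {π : X' → X} {σ' : Equiv.Perm X'} {σ : Equiv.Perm X}
    (hπ : ∀ x', π (σ' x') = σ (π x')) {f : X → ℤ} (hf : f ∈ invSub σ) :
    pullL π f ∈ invSub σ' := by
  intro x'
  show f (π (σ' x')) = f (π x')
  rw [hπ, mem_invSub.1 hf]

lemma pullL_mem_PSub {π : X' → X} {s' r' : Equiv.Perm X'} {s r : Equiv.Perm X}
    (hs : ∀ x', π (s' x') = s (π x')) (hr : ∀ x', π (r' x') = r (π x')) {m : X → ℤ}
    (hm : m ∈ PSub s r) : pullL π m ∈ PSub s' r' := by
  obtain ⟨a, ha, b, hb, rfl⟩ := Submodule.mem_sup.1 hm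
  rw [map_add]
  exact (PSub s' r').add_mem (invSub_le_PSub_left _ _ (pullL_mem_invSub hs ha))
    (invSub_le_PSub_right _ _ (pullL_mem_invSub hr hb))

lemma pullL_mem_ZSub {π : X' → X} {s' r' : Equiv.Perm X'} {s r : Equiv.Perm X}
    (hs : ∀ x', π (s' x') = s (π x')) (hr : ∀ x', π (r' x') = r (π x')) {z : X → ℤ}
    (hz : z ∈ ZSub s r) : pullL π z ∈ ZSub s' r' := by
  refine ⟨fun x' => ?_, fun x' => ?_⟩
  · show z (π x') + z (π (s' x')) = 0
    rw [hs]
    exact hz.1 _
  · show z (π x') + z (π (r' x')) + z (π (r' (r' x'))) = 0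
    rw [hr (r' x'), hr x']
    exact hz.2 _

lemma ClRel.pullL {π : X' → X} {s' r' : Equiv.Perm X'} {s r : Equiv.Perm X}
    (hs : ∀ x', π (s' x') = s (π x')) (hr : ∀ x', π (r' x') = r (π x')) {a b m : X → ℤ}
    (h : ClRel s r a b m) : ClRel s' r' (pullL π a) (pullL π b) (pullL π m) := by
  obtain ⟨ns, nr, h1, h2, h3⟩ := h
  refine ⟨Fermat.Agent.P6.helper99.pullL π ns, Fermat.Agent.P6.helper99.pullL π nr,
    fun x' => ?_, fun x' => ?_, ?_⟩
  · show ns (π (s' x')) - ns (π x') = a (π x')
    rw [hs]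
    exact h1 _
  · show nr (π (r' x')) - nr (π x') = b (π x')
    rw [hr]
    exact h2 _
  · have := pullL_mem_PSub hs hr h3
    rw [map_sub, map_sub] at this
    exact this

variable [Fintype X'] [DecidableEq X]

/-- push-forward of functions (corestriction): sum over the fibres -/
def pushL (π : X' → X) : (X' → ℤ) →ₗ[ℤ] (X → ℤ) where
  toFun g := fun x => ∑ x', if π x' = x then g x' else 0
  map_add' g₁ g₂ := by
    funext x
    simp only [Pi.add_apply]
    rw [← Finset.sum_add_distrib]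
    apply Finset.sum_congr rfl
    intro x' _
    split_ifs <;> simp
  map_smul' c g := by
    funext x
    simp only [Pi.smul_apply, smul_eq_mul, RingHom.id_apply]
    rw [Finset.mul_sum]
    apply Finset.sum_congr rfl
    intro x' _
    split_ifs <;> simp

lemma pushL_apply (π : X' → X) (g : X' → ℤ) (x : X) :
    pushL π g x = ∑ x', if π x' = x then g x' else 0 := rfl

/-- push-forward commutes with equivariant permutations -/
lemma pushL_comp {π : X' → X} {σ' : Equiv.Perm X'} {σ : Equiv.Perm X}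
    (hπ : ∀ x', π (σ' x') = σ (π x')) (g : X' → ℤ) (x : X) :
    pushL π (fun x' => g (σ' x')) x = pushL π g (σ x) := by
  rw [pushL_apply, pushL_apply, ← Equiv.sum_comp σ' (fun y => if π y = σ x then g y else 0)]
  apply Finset.sum_congr rfl
  intro x' _
  rw [hπ]
  by_cases h : π x' = x
  · rw [if_pos h, if_pos (by rw [h])]
  · rw [if_neg h, if_neg (fun h' => h (σ.injective h'))]

lemma pushL_mem_invSub {π : X' → X} {σ' : Equiv.Perm X'} {σ : Equiv.Perm X}
    (hπ : ∀ x', π (σ' x') = σ (π x')) {g : X' → ℤ} (hg : g ∈ invSub σ') :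
    pushL π g ∈ invSub σ := by
  intro x
  rw [← pushL_comp hπ]
  have : (fun x' => g (σ' x')) = g := funext (fun x' => mem_invSub.1 hg x')
  rw [this]

lemma pushL_mem_PSub {π : X' → X} {s' r' : Equiv.Perm X'} {s r : Equiv.Perm X}
    (hs : ∀ x', π (s' x') = s (π x')) (hr : ∀ x', π (r' x') = r (π x')) {m : X' → ℤ}
    (hm : m ∈ PSub s' r') : pushL π m ∈ PSub s r := by
  obtain ⟨a, ha, b, hb, rfl⟩ := Submodule.mem_sup.1 hm
  rw [map_add]
  exact (PSub s r).add_mem (invSub_le_PSub_left _ _ (pushL_mem_invSub hs ha))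
    (invSub_le_PSub_right _ _ (pushL_mem_invSub hr hb))

lemma ClRel.pushL {π : X' → X} {s' r' : Equiv.Perm X'} {s r : Equiv.Perm X}
    (hs : ∀ x', π (s' x') = s (π x')) (hr : ∀ x', π (r' x') = r (π x')) {a b m : X' → ℤ}
    (h : ClRel s' r' a b m) : ClRel s r (pushL π a) (pushL π b) (pushL π m) := by
  obtain ⟨ns, nr, h1, h2, h3⟩ := h
  refine ⟨Fermat.Agent.P6.helper99.pushL π ns, Fermat.Agent.P6.helper99.pushL π nr,
    fun x => ?_, fun x => ?_, ?_⟩
  · rw [← pushL_comp hs, ← Pi.sub_apply, ← map_sub]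
    have : (fun x' => ns (s' x')) - ns = a := funext (fun x' => h1 x')
    rw [this]
  · rw [← pushL_comp hr, ← Pi.sub_apply, ← map_sub]
    have : (fun x' => nr (r' x')) - nr = b := funext (fun x' => h2 x')
    rw [this]
  · have := pushL_mem_PSub hs hr h3
    rw [map_sub, map_sub] at this
    exact this

lemma pushL_mem_ZSub {π : X' → X} {s' r' : Equiv.Perm X'} {s r : Equiv.Perm X}
    (hs : ∀ x', π (s' x') = s (π x')) (hr : ∀ x', π (r' x') = r (π x')) {z : X' → ℤ}
    (hz : z ∈ ZSub s' r') : pushL π z ∈ ZSub s r := by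
  refine ⟨fun x => ?_, fun x => ?_⟩
  · have e1 : pushL π z (s x) = pushL π (fun x' => z (s' x')) x := (pushL_comp hs z x).symm
    have h0 : z + (fun x' => z (s' x')) = 0 := by
      funext x'
      exact hz.1 x'
    have h1 := congrFun (congrArg (pushL π) h0) x
    rw [map_add, map_zero] at h1
    rw [e1]
    exact h1
  · have e1 : pushL π z (r x) = pushL π (fun x' => z (r' x')) x := (pushL_comp hr z x).symm
    have e2 : pushL π z (r (r x)) = pushL π (fun x' => z (r' (r' x'))) x := by
      rw [← pushL_comp hr z (r x)]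
      exact (pushL_comp hr (fun x' => z (r' x')) x).symm
    have h0 : z + (fun x' => z (r' x')) + (fun x' => z (r' (r' x'))) = 0 := by
      funext x'
      exact hz.2 x'
    have h1 := congrFun (congrArg (pushL π) h0) x
    rw [map_add, map_add, map_zero] at h1
    rw [e1, e2]
    exact h1

variable [Fintype X]

/-- **Adjunction** of pull-back and push-forward for the dot products -/
theorem dot_pullL_eq (π : X' → X) (f : X → ℤ) (g : X' → ℤ) :
    dotProduct (pullL π f) g = dotProduct f (pushL π g) := by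
  unfold dotProduct
  simp only [pullL_apply, pushL_apply, Finset.mul_sum]
  rw [Finset.sum_comm]
  apply Finset.sum_congr rfl
  intro x' _
  simp only [mul_ite, mul_zero]
  rw [Finset.sum_ite_eq Finset.univ (π x') (fun x => f x * g x')]
  simp

omit [Fintype X'] [DecidableEq X] [Fintype X] in
lemma pullL_mem_parSub {π : X' → X} {s' r' : Equiv.Perm X'} {s r : Equiv.Perm X}
    (hs : ∀ x', π (s' x') = s (π x')) (hr : ∀ x', π (r' x') = r (π x')) {m : X → ℤ}
    (hm : m ∈ parSub s r) : pullL π m ∈ parSub s' r' := by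
  obtain ⟨z, hz, h⟩ := hm
  exact ⟨pullL π z, pullL_mem_ZSub hs hr hz, ClRel.pullL hs hr h⟩

omit [Fintype X] in
lemma pushL_mem_parSub {π : X' → X} {s' r' : Equiv.Perm X'} {s r : Equiv.Perm X}
    (hs : ∀ x', π (s' x') = s (π x')) (hr : ∀ x', π (r' x') = r (π x')) {m : X' → ℤ}
    (hm : m ∈ parSub s' r') : pushL π m ∈ parSub s r := by
  obtain ⟨z, hz, h⟩ := hm
  exact ⟨pushL π z, pushL_mem_ZSub hs hr hz, ClRel.pushL hs hr h⟩

/-- **Adjunction of restriction and corestriction** for the Poincaré forms. -/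
theorem pdForm_pullL {π : X' → X} {s' r' : Equiv.Perm X'} {s r : Equiv.Perm X}
    (hr3 : r ^ 3 = 1) (hr3' : r' ^ 3 = 1)
    (hs : ∀ x', π (s' x') = s (π x')) (hr : ∀ x', π (r' x') = r (π x'))
    (m : parSub s r) (m' : parSub s' r') :
    pdForm s' r' hr3' ⟨pullL π m, pullL_mem_parSub hs hr m.2⟩ m' =
      pdForm s r hr3 m ⟨pushL π m', pushL_mem_parSub hs hr m'.2⟩ := by
  rw [pdForm_apply hr3' (pullL_mem_ZSub hs hr (zOf_mem s r m))
      ⟨pullL π m, pullL_mem_parSub hs hr m.2⟩ m' (ClRel.pullL hs hr (zOf_rel s r m)),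
    pdForm_apply hr3 (zOf_mem s r m) m ⟨pushL π m', pushL_mem_parSub hs hr m'.2⟩
      (zOf_rel s r m)]
  exact dot_pullL_eq π _ _

omit [Fintype X] in
/-- `cor ∘ res` is multiplication by the degree, when all fibres have the same size `d`. -/
theorem pushL_pullL (π : X' → X) (d : ℕ)
    (hd : ∀ x, (Finset.univ.filter (fun x' => π x' = x)).card = d) (f : X → ℤ) :
    pushL π (pullL π f) = (d : ℤ) • f := by
  funext x
  rw [pushL_apply]
  simp only [pullL_apply, Pi.smul_apply, smul_eq_mul]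
  rw [← Finset.sum_filter]
  rw [Finset.sum_congr rfl (fun x' hx' => by rw [(Finset.mem_filter.1 hx').2] :
    ∀ x' ∈ Finset.univ.filter (fun x' => π x' = x), f (π x') = f x)]
  rw [Finset.sum_const, hd x]
  simp

end Adj

end Fermat.Agent.P6.helper99
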