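import Mathlib
import Fermat.Agent.P6.helper99_PDForm

set_option autoImplicit false

open Finset

namespace Fermat.Agent.P6.helper99

/-! ## Non-degeneracy modulo `n` of `Z × M/P → ℤ` on the whole of `M` (package [D-LA]) -/

section Mod

variable {X : Type*} [Fintype X] [DecidableEq X]

omit [Fintype X] [DecidableEq X] in
/-- `Z = P^⊥` is saturated. -/
theorem mem_ZSub_of_smul (s r : Equiv.Perm X) {n : ℤ} (hn : n ≠ 0) {z : X → ℤ}
    (h : n • z ∈ ZSub s r) : z ∈ ZSub s r := by
  refine ⟨fun x => ?_, fun x => ?_⟩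
  · have := h.1 x
    simp only [Pi.smul_apply, smul_eq_mul, ← mul_add] at this
    rcases mul_eq_zero.1 this with h0 | h0
    · exact absurd h0 hn
    · exact h0
  · have := h.2 x
    simp only [Pi.smul_apply, smul_eq_mul, ← mul_add] at this
    rcases mul_eq_zero.1 this with h0 | h0
    · exact absurd h0 hn
    · exact h0

/-- **[D-LA]**: if `n` divides `⟨z, m⟩` for every relative cocycle `z`, then `m ∈ n M + P`. -/
theorem exists_sub_smul_mem_PSub {s r : Equiv.Perm X} (hs : s ^ 2 = 1) (hr : r ^ 3 = 1)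
    {n : ℤ} (hn : n ≠ 0) (m : X → ℤ) (h : ∀ z ∈ ZSub s r, n ∣ dotProduct z m) :
    ∃ m₀ : X → ℤ, m - n • m₀ ∈ PSub s r := by
  have h' : ∀ z : ZSub s r, ∃ c : ℤ, dotProduct (z : X → ℤ) m = n * c := fun z => h z z.2
  choose c hc using h'
  let ψ : ZSub s r →ₗ[ℤ] ℤ :=
    { toFun := c
      map_add' := fun a b => by
        apply mul_left_cancel₀ hn
        rw [mul_add, ← hc, ← hc, ← hc, Submodule.coe_add, add_dotProduct]
      map_smul' := fun k a => by
        apply mul_left_cancel₀ hn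
        simp only [RingHom.id_apply, smul_eq_mul]
        rw [← hc, mul_left_comm, ← hc, Submodule.coe_smul, smul_dotProduct, smul_eq_mul] }
  obtain ⟨Ψ, hΨ⟩ := exists_extension_of_sat (ZSub s r)
    (fun k z hk hz => mem_ZSub_of_smul s r hk hz) ψ
  refine ⟨fun x => Ψ (Pi.single x 1), ?_⟩
  rw [mem_PSub_iff_dot hs hr]
  intro z hz
  have h1 : Ψ z = dotProduct (fun x => Ψ (Pi.single x 1)) z := functional_eq_dot Ψ z
  have h2 : Ψ z = c ⟨z, hz⟩ := hΨ ⟨z, hz⟩
  have h3 := hc ⟨z, hz⟩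
  rw [dotProduct_sub, dotProduct_smul, smul_eq_mul, dotProduct_comm z (fun x => Ψ (Pi.single x 1)),
    ← h1, h2]
  simpa using sub_eq_zero.2 h3

end Mod

end Fermat.Agent.P6.helper99
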